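/-
S20 project SPEC (helper1040).  Sorry-free definitions + Prop-valued intermediate statements
for the Riemann-Roch-free route to

  finrank S_2(Γ₀(N)) = genusFormula N

(free module over ℂ[E₄,E₆] + fundamental matrix; findings #589 #698 #707 #768).
Everything is phrased for plain functions `ℍ → ℂ` and a subgroup `Γ ≤ SL(2,ℤ)`; workers prove
`Stmt_X Γ` for `Γ = CongruenceSubgroup.Gamma0 N` (or for any finite-index `Γ` containing `-1`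
and `T`) in HYPOTHESIS-PASSING style.  Final assembly: `helper1040_Assembly.lean`.
-/
import Mathlib
import Fermat.Prelude.Def_ModularCurve_GenusNumerics

set_option autoImplicit false

open UpperHalfPlane ModularForm Matrix.SpecialLinearGroup Filter Complex
open scoped MatrixGroups ModularForm Manifold Topology Real

namespace Fermat.Agent.S20.helper1040

/-! ## Modular forms as predicates on functions -/

/-- `f : ℍ → ℂ` is a modular form of weight `k` and level `Γ ≤ SL(2,ℤ)`: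
holomorphic, `Γ`-invariant, and every `SL(2,ℤ)`-translate is bounded at `i∞`. -/
structure IsMF (Γ : Subgroup SL(2, ℤ)) (k : ℤ) (f : ℍ → ℂ) : Prop where
  holo : MDifferentiable 𝓘(ℂ) 𝓘(ℂ) f
  inv : ∀ γ ∈ Γ, f ∣[k] γ = f
  bdd : ∀ γ : SL(2, ℤ), IsBoundedAtImInfty (f ∣[k] γ)

/-- `f : ℍ → ℂ` is a cusp form of weight `k` and level `Γ ≤ SL(2,ℤ)`:
holomorphic, `Γ`-invariant, and every `SL(2,ℤ)`-translate tends to `0` at `i∞`. -/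
structure IsCF (Γ : Subgroup SL(2, ℤ)) (k : ℤ) (f : ℍ → ℂ) : Prop where
  holo : MDifferentiable 𝓘(ℂ) 𝓘(ℂ) f
  inv : ∀ γ ∈ Γ, f ∣[k] γ = f
  zero : ∀ γ : SL(2, ℤ), IsZeroAtImInfty (f ∣[k] γ)

/-- Level one forms are `IsMF ⊤ k`. -/
abbrev IsMF1 (k : ℤ) (f : ℍ → ℂ) : Prop := IsMF (⊤ : Subgroup SL(2, ℤ)) k f

/-! ## Translates along the coset space `X = SL(2,ℤ) ⧸ Γ` (left cosets `gΓ`, left action) -/

/-- The translate of `f` attached to the coset `x = gΓ`, namely `f ∣[k] g⁻¹`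
(independent of the representative when `f` is `Γ`-invariant of weight `k`).
For `IsMF Γ k f`:  `tr Γ k f (g • x) = tr Γ k f x ∣[k] g⁻¹`. -/
noncomputable def tr (Γ : Subgroup SL(2, ℤ)) (k : ℤ) (f : ℍ → ℂ) (x : SL(2, ℤ) ⧸ Γ) : ℍ → ℂ :=
  f ∣[k] (Quotient.out x)⁻¹

/-! ## Free bases over the ring of level one forms -/

/-- `(G j)_{j : ι}`, `G j` of weight `κ j`, is a homogeneous free basis of `⨁_k M_k(Γ)` over
`⨁_k M_k(SL(2,ℤ))`: every form of weight `k` is uniquely `∑ A_j G_j` with `A_j` level one of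
weight `k - κ j`. -/
def IsFreeBasis (Γ : Subgroup SL(2, ℤ)) {ι : Type} [Fintype ι] (κ : ι → ℤ) (G : ι → ℍ → ℂ) :
    Prop :=
  (∀ j, IsMF Γ (κ j) (G j)) ∧
  (∀ (k : ℤ) (f : ℍ → ℂ), IsMF Γ k f →
      ∃ A : ι → ℍ → ℂ, (∀ j, IsMF1 (k - κ j) (A j)) ∧ f = ∑ j, A j * G j) ∧
  (∀ (k : ℤ) (A : ι → ℍ → ℂ), (∀ j, IsMF1 (k - κ j) (A j)) → ∑ j, A j * G j = 0 → ∀ j, A j = 0)

/-- The fundamental matrix `Φ(z)_{x,j} = (G_j)_x(z)`, rows = cosets, columns = basis. -/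
noncomputable def Phi (Γ : Subgroup SL(2, ℤ)) {ι : Type} (κ : ι → ℤ) (G : ι → ℍ → ℂ) (z : ℍ) :
    Matrix (SL(2, ℤ) ⧸ Γ) ι ℂ :=
  Matrix.of fun x j => tr Γ (κ j) (G j) x z

/-! ## Combinatorial invariants of the action of `SL(2,ℤ)` on `X = SL(2,ℤ) ⧸ Γ` -/

/-- Number of fixed points of `S` on `SL(2,ℤ) ⧸ Γ`. -/
noncomputable def ellTwo (Γ : Subgroup SL(2, ℤ)) : ℕ :=
  Nat.card {x : SL(2, ℤ) ⧸ Γ // ModularGroup.S • x = x}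

/-- Number of fixed points of `S * T` on `SL(2,ℤ) ⧸ Γ`. -/
noncomputable def ellThree (Γ : Subgroup SL(2, ℤ)) : ℕ :=
  Nat.card {x : SL(2, ℤ) ⧸ Γ // (ModularGroup.S * ModularGroup.T) • x = x}

/-- Number of orbits of `T` on `SL(2,ℤ) ⧸ Γ`. -/
noncomputable def cuspNum (Γ : Subgroup SL(2, ℤ)) : ℕ :=
  Nat.card (MulAction.orbitRel.Quotient (Subgroup.zpowers ModularGroup.T) (SL(2, ℤ) ⧸ Γ))

/-! ## The intermediate statements -/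

section Stmts

variable (Γ : Subgroup SL(2, ℤ))

/-- FREE (board S20-FREE): a finite homogeneous free basis exists and has at most `[SL₂ℤ:Γ]`
elements.  (Graded Nakayama + regular sequence `E₄,E₆` via division by `Δ`; number of generators
bounded by the Sturm bound.) -/
def Stmt_Free : Prop :=
  ∃ (r : ℕ) (κ : Fin r → ℤ) (G : Fin r → ℍ → ℂ), IsFreeBasis Γ κ G ∧ r ≤ Γ.index

/-- SEP (board S20-SEP): a "good tuple" exists: forms `F y` (weights `K y`) indexed by the cosets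
whose translate matrix is invertible at some point. (E.g. `F y = h ^ e(y)` with `h` a form with
pairwise distinct translates: Vandermonde.) -/
def Stmt_Sep [Fintype (SL(2, ℤ) ⧸ Γ)] [DecidableEq (SL(2, ℤ) ⧸ Γ)] : Prop :=
  ∃ (K : SL(2, ℤ) ⧸ Γ → ℤ) (F : SL(2, ℤ) ⧸ Γ → ℍ → ℂ), (∀ y, IsMF Γ (K y) (F y)) ∧
    ∃ z : ℍ, (Matrix.of fun x y => tr Γ (K y) (F y) x z : Matrix (SL(2, ℤ) ⧸ Γ) (SL(2, ℤ) ⧸ Γ) ℂ).det ≠ 0

/-- FREEX (derived from FREE + SEP by linear algebra): a free basis indexed by the cosets whose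
fundamental matrix is invertible at some point. -/
def Stmt_FreeX [Fintype (SL(2, ℤ) ⧸ Γ)] [DecidableEq (SL(2, ℤ) ⧸ Γ)] : Prop :=
  ∃ (κ : SL(2, ℤ) ⧸ Γ → ℤ) (G : SL(2, ℤ) ⧸ Γ → ℍ → ℂ), IsFreeBasis Γ κ G ∧
    ∃ z : ℍ, (Phi Γ κ G z).det ≠ 0

/-- LIOUVILLE (board S20-SD/S20-LIOUVILLE): Serre derivative + Jacobi formula:
`(det Φ)^12 = c · Δ^(∑ κ)`. -/
def Stmt_Liouville [Fintype (SL(2, ℤ) ⧸ Γ)] [DecidableEq (SL(2, ℤ) ⧸ Γ)] : Prop :=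
  ∀ (κ : SL(2, ℤ) ⧸ Γ → ℤ) (G : SL(2, ℤ) ⧸ Γ → ℍ → ℂ), IsFreeBasis Γ κ G →
    ∃ c : ℂ, ∀ z : ℍ, (Phi Γ κ G z).det ^ 12 = c * (ModularForm.discriminant z) ^ (∑ x, κ x)

/-- BASIC: weights of a free basis are `≥ 0`, even (as `-1 ∈ Γ`), and exactly one is `0`. -/
def Stmt_Basic : Prop :=
  ∀ {ι : Type} [Fintype ι] (κ : ι → ℤ) (G : ι → ℍ → ℂ), IsFreeBasis Γ κ G →
    (∀ j, 0 ≤ κ j) ∧ (∀ j, Even (κ j)) ∧ Nat.card {j // κ j = 0} = 1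

/-- ELL (board S20-ELL): evaluation of the (everywhere invertible) fundamental matrix at `i` and
`ρ`: columns are eigenvectors of the permutation operators of `S`, `S*T`. -/
def Stmt_Ell [Fintype (SL(2, ℤ) ⧸ Γ)] [DecidableEq (SL(2, ℤ) ⧸ Γ)] : Prop :=
  ∀ (κ : SL(2, ℤ) ⧸ Γ → ℤ) (G : SL(2, ℤ) ⧸ Γ → ℍ → ℂ), IsFreeBasis Γ κ G →
    (∀ x, Even (κ x)) → (∀ z : ℍ, (Phi Γ κ G z).det ≠ 0) →
    2 * Nat.card {x // κ x % 4 = 0} = Γ.index + ellTwo Γ ∧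
    3 * Nat.card {x // κ x % 6 = 0} = Γ.index + 2 * ellThree Γ ∧
    3 * Nat.card {x // κ x % 6 = 2} + ellThree Γ = Γ.index ∧
    3 * Nat.card {x // κ x % 6 = 4} + ellThree Γ = Γ.index

/-- The data produced by the analysis at the cusp `i∞` (finite Fourier transform along the
`T`-orbits): `Φ(z) = U · diag(e^{2πi s_x z}) · C(z)` with `C(z) → Λ` invertible as `Im z → ∞`,
exponents `s x ∈ [0,1)` with `2 ∑ s = [SL₂ℤ:Γ] - #cusps`. -/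
def CuspData [Fintype (SL(2, ℤ) ⧸ Γ)] [DecidableEq (SL(2, ℤ) ⧸ Γ)]
    (κ : SL(2, ℤ) ⧸ Γ → ℤ) (G : SL(2, ℤ) ⧸ Γ → ℍ → ℂ)
    (U Λ : Matrix (SL(2, ℤ) ⧸ Γ) (SL(2, ℤ) ⧸ Γ) ℂ) (s : SL(2, ℤ) ⧸ Γ → ℝ) : Prop :=
  U.det ≠ 0 ∧ Λ.det ≠ 0 ∧ (∀ x, 0 ≤ s x ∧ s x < 1) ∧
  2 * ∑ x, s x = (Γ.index : ℝ) - (cuspNum Γ : ℝ) ∧
  ∀ x y, Tendsto (fun z : ℍ => cexp (-(2 * (π : ℂ) * Complex.I * (s x : ℂ) * (z : ℂ))) * (U⁻¹ * Phi Γ κ G z) x y)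
    atImInfty (𝓝 (Λ x y))

/-- CUSP (board S20-CUSP): cusp data exist for every coset-indexed free basis
(exactness `det Λ ≠ 0` by freeness + division by `Δ`). -/
def Stmt_CuspFact [Fintype (SL(2, ℤ) ⧸ Γ)] [DecidableEq (SL(2, ℤ) ⧸ Γ)] : Prop :=
  ∀ (κ : SL(2, ℤ) ⧸ Γ → ℤ) (G : SL(2, ℤ) ⧸ Γ → ℍ → ℂ), IsFreeBasis Γ κ G →
    (∀ x, Even (κ x)) →
    ∃ (U Λ : Matrix (SL(2, ℤ) ⧸ Γ) (SL(2, ℤ) ⧸ Γ) ℂ) (s : SL(2, ℤ) ⧸ Γ → ℝ), CuspData Γ κ G U Λ s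

/-- SUMK (derived from CUSP + LIOUVILLE): the sum of the weights is `6([SL₂ℤ:Γ] - #cusps)`. -/
def Stmt_SumKappa [Fintype (SL(2, ℤ) ⧸ Γ)] [DecidableEq (SL(2, ℤ) ⧸ Γ)] : Prop :=
  ∀ (κ : SL(2, ℤ) ⧸ Γ → ℤ) (G : SL(2, ℤ) ⧸ Γ → ℍ → ℂ)
    (U Λ : Matrix (SL(2, ℤ) ⧸ Γ) (SL(2, ℤ) ⧸ Γ) ℂ) (s : SL(2, ℤ) ⧸ Γ → ℝ) (c : ℂ),
    CuspData Γ κ G U Λ s → c ≠ 0 →
    (∀ z : ℍ, (Phi Γ κ G z).det ^ 12 = c * (ModularForm.discriminant z) ^ (∑ x, κ x)) →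
    ∑ x, κ x = 6 * ((Γ.index : ℤ) - (cuspNum Γ : ℤ))

/-- DUAL (board S20-DUAL): `Δ · Φ⁻ᵀ` is a free basis of cusp forms with weights `12 - κ`;
hence all `κ x < 12` and `dim S₂(Γ) = #{x | κ x = 10}`. -/
def Stmt_Dual [Fintype (SL(2, ℤ) ⧸ Γ)] [DecidableEq (SL(2, ℤ) ⧸ Γ)] : Prop :=
  ∀ (κ : SL(2, ℤ) ⧸ Γ → ℤ) (G : SL(2, ℤ) ⧸ Γ → ℍ → ℂ)
    (U Λ : Matrix (SL(2, ℤ) ⧸ Γ) (SL(2, ℤ) ⧸ Γ) ℂ) (s : SL(2, ℤ) ⧸ Γ → ℝ),
    IsFreeBasis Γ κ G → (∀ x, Even (κ x)) → (∀ z : ℍ, (Phi Γ κ G z).det ≠ 0) →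
    CuspData Γ κ G U Λ s →
    (∀ x, κ x < 12) ∧
    Module.finrank ℂ (CuspForm (Γ.map (mapGL ℝ)) 2) = Nat.card {x // κ x = 10}

end Stmts

/-! ## Combinatorics for `Γ₀(N)` (board S20-COUNT / S20-INDEX) -/

def Stmt_Index (N : ℕ) : Prop := (CongruenceSubgroup.Gamma0 N).index = ModularCurve.dedekindPsi N
def Stmt_EllTwo (N : ℕ) : Prop := ellTwo (CongruenceSubgroup.Gamma0 N) = ModularCurve.nuTwo N
def Stmt_EllThree (N : ℕ) : Prop := ellThree (CongruenceSubgroup.Gamma0 N) = ModularCurve.nuThree N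
def Stmt_CuspNum (N : ℕ) : Prop := cuspNum (CongruenceSubgroup.Gamma0 N) = ModularCurve.cuspCount N

end Fermat.Agent.S20.helper1040
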