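/-
S20 project basic API (helper1040) for `helper1040_Spec`: coset translates `tr`, closure
properties of `IsMF`/`IsCF`, bridges to Mathlib's bundled `ModularForm`/`CuspForm`.
-/
import Fermat.Agent.S20.helper1040_Spec

set_option autoImplicit false

open UpperHalfPlane ModularForm Matrix.SpecialLinearGroup Filter Complex
open scoped MatrixGroups ModularForm Manifold Topology Real

namespace Fermat.Agent.S20.helper1040

variable {Γ : Subgroup SL(2, ℤ)} {k : ℤ} {f : ℍ → ℂ}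

/-! ### Translates -/

/-- For a `Γ`-invariant `f`, the translate at the coset of `g` is `f ∣[k] g⁻¹`. -/
theorem tr_mk (hf : ∀ γ ∈ Γ, f ∣[k] γ = f) (g : SL(2, ℤ)) :
    tr Γ k f (g : SL(2, ℤ) ⧸ Γ) = f ∣[k] g⁻¹ := by
  unfold tr
  set g' := Quotient.out (g : SL(2, ℤ) ⧸ Γ) with hg'
  have h1 : (g' : SL(2, ℤ) ⧸ Γ) = (g : SL(2, ℤ) ⧸ Γ) := QuotientGroup.out_eq' _
  have h2 : g'⁻¹ * g ∈ Γ := QuotientGroup.eq.mp h1
  have h3 : g⁻¹ = (g'⁻¹ * g)⁻¹ * g'⁻¹ := by group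
  rw [h3, SlashAction.slash_mul, hf _ (Γ.inv_mem h2)]

/-- Slashing a translate permutes the cosets. -/
theorem tr_slash (hf : ∀ γ ∈ Γ, f ∣[k] γ = f) (x : SL(2, ℤ) ⧸ Γ) (h : SL(2, ℤ)) :
    (tr Γ k f x) ∣[k] h = tr Γ k f (h⁻¹ • x) := by
  induction x using QuotientGroup.induction_on with
  | H g =>
    rw [MulAction.Quotient.smul_mk, tr_mk hf, tr_mk hf, ← SlashAction.slash_mul, smul_eq_mul]
    congr 1
    group

theorem tr_smul (hf : ∀ γ ∈ Γ, f ∣[k] γ = f) (x : SL(2, ℤ) ⧸ Γ) (h : SL(2, ℤ)) :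
    tr Γ k f (h • x) = (tr Γ k f x) ∣[k] h⁻¹ := by
  rw [tr_slash hf, inv_inv]

/-- Pointwise form: `tr f (h • x) (h • z) = denom h z ^ k * tr f x z`. -/
theorem tr_smul_apply (hf : ∀ γ ∈ Γ, f ∣[k] γ = f) (x : SL(2, ℤ) ⧸ Γ) (h : SL(2, ℤ)) (z : ℍ) :
    tr Γ k f (h • x) (h • z) = denom h z ^ k * tr Γ k f x z := by
  have h1 := congrFun (tr_slash hf (h • x) h) z
  rw [inv_smul_smul, SL_slash_apply] at h1
  rw [← h1, mul_comm, mul_assoc, ← zpow_add₀ (denom_ne_zero h z)]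
  simp

theorem tr_one_coset (hf : ∀ γ ∈ Γ, f ∣[k] γ = f) :
    tr Γ k f ((1 : SL(2, ℤ)) : SL(2, ℤ) ⧸ Γ) = f := by
  rw [tr_mk hf, inv_one, SlashAction.slash_one]

/-! ### Closure properties of `IsMF` -/

theorem IsMF.congr_weight {k' : ℤ} (h : k = k') (hf : IsMF Γ k f) : IsMF Γ k' f := h ▸ hf

theorem IsCF.congr_weight {k' : ℤ} (h : k = k') (hf : IsCF Γ k f) : IsCF Γ k' f := h ▸ hf

theorem isMF_zero (Γ : Subgroup SL(2, ℤ)) (k : ℤ) : IsMF Γ k 0 where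
  holo := mdifferentiable_const
  inv γ _ := SlashAction.zero_slash k γ
  bdd γ := by
    rw [SlashAction.zero_slash]
    exact zero_form_isBoundedAtImInfty

theorem IsMF.add {g : ℍ → ℂ} (hf : IsMF Γ k f) (hg : IsMF Γ k g) : IsMF Γ k (f + g) where
  holo := hf.holo.add hg.holo
  inv γ hγ := by rw [SlashAction.add_slash, hf.inv γ hγ, hg.inv γ hγ]
  bdd γ := by
    rw [SlashAction.add_slash]
    exact (hf.bdd γ).add (hg.bdd γ)

theorem IsMF.smul (c : ℂ) (hf : IsMF Γ k f) : IsMF Γ k (c • f) where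
  holo := hf.holo.const_smul c
  inv γ hγ := by rw [SL_smul_slash, hf.inv γ hγ]
  bdd γ := by
    rw [SL_smul_slash]
    exact (hf.bdd γ).const_smul_left c

theorem IsMF.neg (hf : IsMF Γ k f) : IsMF Γ k (-f) := by
  have := hf.smul (-1)
  simpa using this

theorem IsMF.sub {g : ℍ → ℂ} (hf : IsMF Γ k f) (hg : IsMF Γ k g) : IsMF Γ k (f - g) := by
  rw [sub_eq_add_neg]
  exact hf.add hg.neg

theorem IsMF.sum {ι : Type*} (s : Finset ι) (F : ι → ℍ → ℂ) (h : ∀ i ∈ s, IsMF Γ k (F i)) :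
    IsMF Γ k (∑ i ∈ s, F i) := by
  classical
  induction s using Finset.induction_on with
  | empty => simpa using isMF_zero Γ k
  | insert i t hi IH =>
    rw [Finset.sum_insert hi]
    exact (h i (Finset.mem_insert_self i t)).add (IH fun j hj => h j (Finset.mem_insert_of_mem hj))

theorem IsMF.mul {a b : ℤ} {A G : ℍ → ℂ} (hA : IsMF Γ a A) (hG : IsMF Γ b G) :
    IsMF Γ (a + b) (A * G) where
  holo := hA.holo.mul hG.holo
  inv γ hγ := by rw [mul_slash_SL2, hA.inv γ hγ, hG.inv γ hγ]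
  bdd γ := by
    rw [mul_slash_SL2]
    exact (hA.bdd γ).mul (hG.bdd γ)

theorem IsMF.mono {Γ' : Subgroup SL(2, ℤ)} (h : Γ' ≤ Γ) (hf : IsMF Γ k f) : IsMF Γ' k f where
  holo := hf.holo
  inv γ hγ := hf.inv γ (h hγ)
  bdd := hf.bdd

/-- Level one forms are forms of every level. -/
theorem IsMF.of_levelOne (Γ : Subgroup SL(2, ℤ)) (hf : IsMF1 k f) : IsMF Γ k f :=
  hf.mono le_top

theorem isMF_const (Γ : Subgroup SL(2, ℤ)) (c : ℂ) : IsMF Γ 0 (Function.const ℍ c) where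
  holo := mdifferentiable_const
  inv γ _ := is_invariant_const γ c
  bdd γ := by
    rw [is_invariant_const]
    exact Filter.const_boundedAtFilter _ c

/-- Translates of a level one form are the form itself. -/
theorem tr_levelOne (Γ : Subgroup SL(2, ℤ)) (hf : IsMF1 k f) (x : SL(2, ℤ) ⧸ Γ) :
    tr Γ k f x = f :=
  hf.inv _ (Subgroup.mem_top _)

/-- Translate of a product (weights add). -/
theorem tr_mul (Γ : Subgroup SL(2, ℤ)) (a b : ℤ) (A G : ℍ → ℂ) (x : SL(2, ℤ) ⧸ Γ) :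
    tr Γ (a + b) (A * G) x = tr Γ a A x * tr Γ b G x := by
  unfold tr
  rw [mul_slash_SL2]

/-- Translate of (level one) × (level Γ). -/
theorem tr_levelOne_mul (Γ : Subgroup SL(2, ℤ)) {a : ℤ} {A : ℍ → ℂ} (hA : IsMF1 a A) (b : ℤ)
    (G : ℍ → ℂ) (x : SL(2, ℤ) ⧸ Γ) :
    tr Γ (a + b) (A * G) x = A * tr Γ b G x := by
  rw [tr_mul, tr_levelOne Γ hA]

theorem tr_add (Γ : Subgroup SL(2, ℤ)) (k : ℤ) (f g : ℍ → ℂ) (x : SL(2, ℤ) ⧸ Γ) :
    tr Γ k (f + g) x = tr Γ k f x + tr Γ k g x := by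
  unfold tr
  rw [SlashAction.add_slash]

theorem tr_smul_const (Γ : Subgroup SL(2, ℤ)) (k : ℤ) (c : ℂ) (f : ℍ → ℂ) (x : SL(2, ℤ) ⧸ Γ) :
    tr Γ k (c • f) x = c • tr Γ k f x := by
  unfold tr
  rw [SL_smul_slash]

theorem tr_sum (Γ : Subgroup SL(2, ℤ)) (k : ℤ) {ι : Type*} (s : Finset ι) (F : ι → ℍ → ℂ)
    (x : SL(2, ℤ) ⧸ Γ) : tr Γ k (∑ i ∈ s, F i) x = ∑ i ∈ s, tr Γ k (F i) x := by
  unfold tr
  rw [SlashAction.sum_slash]

theorem IsMF.tr_holo (hf : IsMF Γ k f) (x : SL(2, ℤ) ⧸ Γ) :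
    MDifferentiable 𝓘(ℂ) 𝓘(ℂ) (tr Γ k f x) :=
  hf.holo.slash k _

theorem IsMF.tr_bdd (hf : IsMF Γ k f) (x : SL(2, ℤ) ⧸ Γ) :
    IsBoundedAtImInfty (tr Γ k f x) :=
  hf.bdd _

/-! ### Cusp forms -/

theorem IsCF.isMF (hf : IsCF Γ k f) : IsMF Γ k f where
  holo := hf.holo
  inv := hf.inv
  bdd γ := (hf.zero γ).boundedAtFilter

theorem IsCF.tr_zero (hf : IsCF Γ k f) (x : SL(2, ℤ) ⧸ Γ) :
    IsZeroAtImInfty (tr Γ k f x) :=
  hf.zero _

theorem isCF_zero (Γ : Subgroup SL(2, ℤ)) (k : ℤ) : IsCF Γ k 0 where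
  holo := mdifferentiable_const
  inv γ _ := SlashAction.zero_slash k γ
  zero γ := by
    rw [SlashAction.zero_slash]
    exact Filter.zero_zeroAtFilter _

theorem IsCF.add {g : ℍ → ℂ} (hf : IsCF Γ k f) (hg : IsCF Γ k g) : IsCF Γ k (f + g) where
  holo := hf.holo.add hg.holo
  inv γ hγ := by rw [SlashAction.add_slash, hf.inv γ hγ, hg.inv γ hγ]
  zero γ := by
    rw [SlashAction.add_slash]
    exact (hf.zero γ).add (hg.zero γ)

theorem IsCF.smul (c : ℂ) (hf : IsCF Γ k f) : IsCF Γ k (c • f) where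
  holo := hf.holo.const_smul c
  inv γ hγ := by rw [SL_smul_slash, hf.inv γ hγ]
  zero γ := by
    rw [SL_smul_slash]
    exact (hf.zero γ).smul c

theorem IsCF.mul_isMF {a b : ℤ} {A G : ℍ → ℂ} (hA : IsCF Γ a A) (hG : IsMF Γ b G) :
    IsCF Γ (a + b) (A * G) where
  holo := hA.holo.mul hG.holo
  inv γ hγ := by rw [mul_slash_SL2, hA.inv γ hγ, hG.inv γ hγ]
  zero γ := by
    rw [mul_slash_SL2]
    exact (hA.zero γ).mul_boundedAtFilter (hG.bdd γ)

theorem IsMF.mul_isCF {a b : ℤ} {A G : ℍ → ℂ} (hA : IsMF Γ a A) (hG : IsCF Γ b G) :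
    IsCF Γ (a + b) (A * G) := by
  have := (hG.mul_isMF hA).congr_weight (add_comm b a)
  rwa [mul_comm] at this

/-! ### Bridges to Mathlib's bundled forms -/

theorem isMF_of_modularForm [Γ.FiniteIndex] (F : ModularForm (Γ.map (mapGL ℝ)) k) :
    IsMF Γ k F where
  holo := F.holo'
  inv γ hγ := F.slash_action_eq' _ (Subgroup.mem_map_of_mem _ hγ)
  bdd γ := by
    have hc : IsCusp (mapGL ℝ γ • (OnePoint.infty : OnePoint ℝ)) (Γ.map (mapGL ℝ)) := by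
      rw [Subgroup.IsArithmetic.isCusp_iff_isCusp_SL2Z]
      exact isCusp_SL2Z_iff'.mpr ⟨γ, rfl⟩
    exact F.bdd_at_cusps' hc _ rfl

theorem isCF_of_cuspForm [Γ.FiniteIndex] (F : CuspForm (Γ.map (mapGL ℝ)) k) :
    IsCF Γ k F where
  holo := F.holo'
  inv γ hγ := F.slash_action_eq' _ (Subgroup.mem_map_of_mem _ hγ)
  zero γ := by
    have hc : IsCusp (mapGL ℝ γ • (OnePoint.infty : OnePoint ℝ)) (Γ.map (mapGL ℝ)) := by
      rw [Subgroup.IsArithmetic.isCusp_iff_isCusp_SL2Z]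
      exact isCusp_SL2Z_iff'.mpr ⟨γ, rfl⟩
    exact F.zero_at_cusps' hc _ rfl

/-- The bundled modular form attached to an `IsMF` function. -/
noncomputable def IsMF.toModularForm [Γ.FiniteIndex] (hf : IsMF Γ k f) :
    ModularForm (Γ.map (mapGL ℝ)) k where
  toFun := f
  slash_action_eq' := by
    rintro _ ⟨γ, hγ, rfl⟩
    exact hf.inv γ hγ
  holo' := hf.holo
  bdd_at_cusps' := by
    intro c hc
    rw [Subgroup.IsArithmetic.isCusp_iff_isCusp_SL2Z] at hc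
    rw [OnePoint.isBoundedAt_iff_forall_SL2Z hc]
    intro γ _
    exact hf.bdd γ

@[simp] theorem IsMF.coe_toModularForm [Γ.FiniteIndex] (hf : IsMF Γ k f) :
    ⇑hf.toModularForm = f := rfl

/-- The bundled cusp form attached to an `IsCF` function. -/
noncomputable def IsCF.toCuspForm [Γ.FiniteIndex] (hf : IsCF Γ k f) :
    CuspForm (Γ.map (mapGL ℝ)) k where
  toFun := f
  slash_action_eq' := by
    rintro _ ⟨γ, hγ, rfl⟩
    exact hf.inv γ hγ
  holo' := hf.holo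
  zero_at_cusps' := by
    intro c hc
    rw [Subgroup.IsArithmetic.isCusp_iff_isCusp_SL2Z] at hc
    rw [OnePoint.isZeroAt_iff_forall_SL2Z hc]
    intro γ _
    exact hf.zero γ

@[simp] theorem IsCF.coe_toCuspForm [Γ.FiniteIndex] (hf : IsCF Γ k f) :
    ⇑hf.toCuspForm = f := rfl

theorem isMF_iff [Γ.FiniteIndex] :
    IsMF Γ k f ↔ ∃ F : ModularForm (Γ.map (mapGL ℝ)) k, ⇑F = f :=
  ⟨fun h => ⟨h.toModularForm, rfl⟩, fun ⟨F, hF⟩ => hF ▸ isMF_of_modularForm F⟩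

theorem isCF_iff [Γ.FiniteIndex] :
    IsCF Γ k f ↔ ∃ F : CuspForm (Γ.map (mapGL ℝ)) k, ⇑F = f :=
  ⟨fun h => ⟨h.toCuspForm, rfl⟩, fun ⟨F, hF⟩ => hF ▸ isCF_of_cuspForm F⟩

/-! ### Level one -/

theorem isMF1_of_modularForm (F : ModularForm 𝒮ℒ k) : IsMF1 k F where
  holo := F.holo'
  inv γ _ := F.slash_action_eq' _ ⟨γ, rfl⟩
  bdd γ := F.bdd_at_cusps' (isCusp_SL2Z_iff'.mpr ⟨γ, rfl⟩) _ rfl

theorem isCF1_of_cuspForm (F : CuspForm 𝒮ℒ k) : IsCF ⊤ k F where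
  holo := F.holo'
  inv γ _ := F.slash_action_eq' _ ⟨γ, rfl⟩
  zero γ := F.zero_at_cusps' (isCusp_SL2Z_iff'.mpr ⟨γ, rfl⟩) _ rfl

/-- The bundled level one modular form attached to an `IsMF1` function. -/
noncomputable def IsMF.toModularForm1 (hf : IsMF1 k f) : ModularForm 𝒮ℒ k where
  toFun := f
  slash_action_eq' := by
    rintro _ ⟨γ, rfl⟩
    exact hf.inv γ (Subgroup.mem_top _)
  holo' := hf.holo
  bdd_at_cusps' := by
    intro c hc
    rw [OnePoint.isBoundedAt_iff_forall_SL2Z hc]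
    intro γ _
    exact hf.bdd γ

@[simp] theorem IsMF.coe_toModularForm1 (hf : IsMF1 k f) : ⇑hf.toModularForm1 = f := rfl

/-- The bundled level one cusp form attached to an `IsCF ⊤` function. -/
noncomputable def IsCF.toCuspForm1 (hf : IsCF ⊤ k f) : CuspForm 𝒮ℒ k where
  toFun := f
  slash_action_eq' := by
    rintro _ ⟨γ, rfl⟩
    exact hf.inv γ (Subgroup.mem_top _)
  holo' := hf.holo
  zero_at_cusps' := by
    intro c hc
    rw [OnePoint.isZeroAt_iff_forall_SL2Z hc]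
    intro γ _
    exact hf.zero γ

@[simp] theorem IsCF.coe_toCuspForm1 (hf : IsCF ⊤ k f) : ⇑hf.toCuspForm1 = f := rfl

theorem isMF1_iff : IsMF1 k f ↔ ∃ F : ModularForm 𝒮ℒ k, ⇑F = f :=
  ⟨fun h => ⟨h.toModularForm1, rfl⟩, fun ⟨F, hF⟩ => hF ▸ isMF1_of_modularForm F⟩

theorem isMF1_E4 : IsMF1 4 E₄ := isMF1_of_modularForm E₄
theorem isMF1_E6 : IsMF1 6 E₆ := isMF1_of_modularForm E₆
theorem isCF1_discriminant : IsCF ⊤ 12 ModularForm.discriminant :=
  isCF1_of_cuspForm CuspForm.discriminant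
theorem isMF1_discriminant : IsMF1 12 ModularForm.discriminant := isCF1_discriminant.isMF

/-! ### Weight facts -/

theorem IsMF.eq_zero_of_neg_weight [Γ.FiniteIndex] (hk : k < 0) (hf : IsMF Γ k f) : f = 0 := by
  have := ModularForm.isZero_of_neg_weight hk hf.toModularForm
  have h2 := congrArg (fun F : ModularForm (Γ.map (mapGL ℝ)) k => (⇑F : ℍ → ℂ)) this
  simpa using h2

theorem IsMF.eq_const_of_weight_zero [Γ.FiniteIndex] (hf : IsMF Γ 0 f) :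
    ∃ c : ℂ, f = Function.const ℍ c :=
  ModularForm.eq_const_of_weight_zero hf.toModularForm

theorem IsMF.eq_zero_of_odd [Γ.FiniteIndex] (hneg : -1 ∈ Γ) (hk : Odd k) (hf : IsMF Γ k f) :
    f = 0 := by
  have hmem : (-1 : GL (Fin 2) ℝ) ∈ Γ.map (mapGL ℝ) := ⟨-1, hneg, by ext; simp⟩
  have := ModularForm.eq_zero_of_neg_one_mem hmem hk hf.toModularForm
  have h2 := congrArg (fun F : ModularForm (Γ.map (mapGL ℝ)) k => (⇑F : ℍ → ℂ)) this
  simpa using h2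

end Fermat.Agent.S20.helper1040
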