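/-
S20 project ASSEMBLY (helper1040): the final statement from the `Stmt_*` of `helper1040_Spec`,
plus the glue steps G1 (`Stmt_FreeX` from `Stmt_Free` + `Stmt_Sep`) and G2 (`Stmt_SumKappa`).
-/
import Fermat.Agent.S20.helper1040_API

set_option autoImplicit false

open UpperHalfPlane ModularForm Matrix.SpecialLinearGroup Filter Complex
open scoped MatrixGroups ModularForm Manifold Topology Real

namespace Fermat.Agent.S20.helper1040

/-! ## Final linear arithmetic -/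

/-- Final linear arithmetic: the number of generators of weight `10`. -/
theorem arith_core (a b c d e f μ e2 e3 einf : ℤ)
    (h2 : a = 1)
    (h3 : 2 * (a + c + e) = μ + e2)
    (h4 : 3 * (a + d) = μ + 2 * e3)
    (h5 : 3 * (b + e) + e3 = μ)
    (h6 : 3 * (c + f) + e3 = μ)
    (h7 : 2 * b + 4 * c + 6 * d + 8 * e + 10 * f = 6 * (μ - einf)) :
    (f : ℚ) = 1 + (μ : ℚ) / 12 - (e2 : ℚ) / 4 - (e3 : ℚ) / 3 - (einf : ℚ) / 2 := by
  have h2' : (a : ℚ) = 1 := by exact_mod_cast h2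
  have h3' : 2 * ((a : ℚ) + c + e) = μ + e2 := by exact_mod_cast h3
  have h4' : 3 * ((a : ℚ) + d) = μ + 2 * e3 := by exact_mod_cast h4
  have h5' : 3 * ((b : ℚ) + e) + e3 = μ := by exact_mod_cast h5
  have h6' : 3 * ((c : ℚ) + f) + e3 = μ := by exact_mod_cast h6
  have h7' : 2 * (b : ℚ) + 4 * c + 6 * d + 8 * e + 10 * f = 6 * (μ - einf) := by exact_mod_cast h7
  linarith

/-! ## Counting fibres of the weight function -/

section Count

variable {X : Type} [Fintype X]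

/-- The six admissible weights. -/
def wts : Finset ℤ := {0, 2, 4, 6, 8, 10}

/-- number of indices of weight `k` -/
def cnt (κ : X → ℤ) (k : ℤ) : ℕ := (Finset.univ.filter fun x => κ x = k).card

theorem card_filter_eq_sum (κ : X → ℤ) (hκ : ∀ x, κ x ∈ wts) (p : ℤ → Prop) [DecidablePred p] :
    (Finset.univ.filter fun x => p (κ x)).card = ∑ k ∈ wts, if p k then cnt κ k else 0 := by
  rw [Finset.card_eq_sum_card_fiberwise (f := κ) (t := wts) (fun x _ => hκ x)]
  refine Finset.sum_congr rfl fun k _ => ?_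
  split_ifs with hk
  · unfold cnt
    congr 1
    ext x
    simp only [Finset.mem_filter, Finset.mem_univ, true_and]
    constructor
    · rintro ⟨_, h⟩; exact h
    · intro h; exact ⟨h ▸ hk, h⟩
  · rw [Finset.card_eq_zero]
    ext x
    simp only [Finset.mem_filter, Finset.mem_univ, true_and, Finset.notMem_empty, iff_false]
    rintro ⟨h1, h2⟩
    exact hk (h2 ▸ h1)

theorem sum_eq_sum_cnt (κ : X → ℤ) (hκ : ∀ x, κ x ∈ wts) :
    ∑ x, κ x = ∑ k ∈ wts, k * (cnt κ k : ℤ) := by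
  rw [← Finset.sum_fiberwise_of_maps_to (s := Finset.univ) (t := wts) (g := κ) (fun x _ => hκ x)]
  refine Finset.sum_congr rfl fun k _ => ?_
  rw [Finset.sum_congr rfl (fun x hx => (Finset.mem_filter.mp hx).2), Finset.sum_const]
  unfold cnt
  simp [mul_comm]

theorem natCard_subtype_eq (p : X → Prop) [DecidablePred p] :
    Nat.card {x // p x} = (Finset.univ.filter p).card := by
  rw [Nat.card_eq_fintype_card, Fintype.card_subtype]

end Count

/-! ## G1: `Stmt_FreeX` from `Stmt_Free` and `Stmt_Sep` -/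

/-- Free bases can be reindexed along an equivalence. -/
theorem isFreeBasis_reindex (Γ : Subgroup SL(2, ℤ)) {ι ι' : Type} [Fintype ι] [Fintype ι']
    (e : ι' ≃ ι) {κ : ι → ℤ} {G : ι → ℍ → ℂ} (h : IsFreeBasis Γ κ G) :
    IsFreeBasis Γ (κ ∘ e) (G ∘ e) := by
  obtain ⟨h1, h2, h3⟩ := h
  refine ⟨fun j => h1 (e j), ?_, ?_⟩
  · intro k f hf
    obtain ⟨A, hA, hfA⟩ := h2 k f hf
    refine ⟨A ∘ e, fun j => hA (e j), ?_⟩
    rw [hfA]
    exact (Equiv.sum_comp e (fun j => A j * G j)).symm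
  · intro k A hA hsum j
    have hA' : ∀ i, IsMF1 (k - κ i) ((A ∘ e.symm) i) := by
      intro i
      have := hA (e.symm i)
      simpa using this
    have hsum' : ∑ i, (A ∘ e.symm) i * G i = 0 := by
      rw [← hsum]
      rw [← Equiv.sum_comp e (fun i => (A ∘ e.symm) i * G i)]
      simp
    have := h3 k (A ∘ e.symm) hA' hsum' (e j)
    simpa using this

/-- G1: a coset-indexed free basis with invertible fundamental matrix at some point, from a free
basis with at most `index` elements and a good tuple. -/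
theorem stmt_freeX_of (Γ : Subgroup SL(2, ℤ)) [Fintype (SL(2, ℤ) ⧸ Γ)]
    [DecidableEq (SL(2, ℤ) ⧸ Γ)] (hFree : Stmt_Free Γ) (hSep : Stmt_Sep Γ) : Stmt_FreeX Γ := by
  classical
  obtain ⟨r, κ, G, hB, hr⟩ := hFree
  obtain ⟨K, F, hF, z₀, hz₀⟩ := hSep
  have hspan := hB.2.1
  choose A hA hFA using fun y => hspan (K y) (F y) (hF y)
  set M : Matrix (SL(2, ℤ) ⧸ Γ) (SL(2, ℤ) ⧸ Γ) ℂ :=
    Matrix.of fun x y => tr Γ (K y) (F y) x z₀ with hM
  set B : Matrix (Fin r) (SL(2, ℤ) ⧸ Γ) ℂ := Matrix.of fun j y => A y j z₀ with hBm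
  have hMB : M = Phi Γ κ G z₀ * B := by
    ext x y
    simp only [hM, Matrix.of_apply, Matrix.mul_apply, Phi, hBm]
    conv_lhs => rw [hFA y]
    rw [tr_sum, Finset.sum_apply]
    refine Finset.sum_congr rfl fun j _ => ?_
    have h1 : tr Γ (K y) (A y j * G j) x = A y j * tr Γ (κ j) (G j) x := by
      have := tr_levelOne_mul Γ (hA y j) (κ j) (G j) x
      rwa [sub_add_cancel] at this
    rw [h1, Pi.mul_apply, mul_comm]
  have hcard : Fintype.card (SL(2, ℤ) ⧸ Γ) = Γ.index := by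
    rw [Subgroup.index_eq_card, Nat.card_eq_fintype_card]
  have hMunit : IsUnit M := (Matrix.isUnit_iff_isUnit_det M).mpr (isUnit_iff_ne_zero.mpr hz₀)
  have hrank : M.rank = Fintype.card (SL(2, ℤ) ⧸ Γ) := Matrix.rank_of_isUnit M hMunit
  have hle : Fintype.card (SL(2, ℤ) ⧸ Γ) ≤ r := by
    calc Fintype.card (SL(2, ℤ) ⧸ Γ) = M.rank := hrank.symm
      _ = (Phi Γ κ G z₀ * B).rank := by rw [hMB]
      _ ≤ (Phi Γ κ G z₀).rank := Matrix.rank_mul_le_left _ _
      _ ≤ Fintype.card (Fin r) := Matrix.rank_le_card_width _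
      _ = r := Fintype.card_fin r
  have hreq : Fintype.card (SL(2, ℤ) ⧸ Γ) = Fintype.card (Fin r) := by
    rw [Fintype.card_fin]
    omega
  let e : (SL(2, ℤ) ⧸ Γ) ≃ Fin r := Fintype.equivOfCardEq hreq
  refine ⟨κ ∘ e, G ∘ e, isFreeBasis_reindex Γ e hB, z₀, ?_⟩
  have hPhi : Phi Γ (κ ∘ e) (G ∘ e) z₀ = (Phi Γ κ G z₀).submatrix id e := by
    ext x y
    rfl
  have hM2 : M = (Phi Γ κ G z₀).submatrix id e * B.submatrix e id := by
    rw [hMB, Matrix.submatrix_mul_equiv, Matrix.submatrix_id_id]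
  rw [hPhi]
  intro h0
  apply hz₀
  rw [hM2, Matrix.det_mul, h0, zero_mul]

/-! ## G2: `Stmt_SumKappa` -/

/-- `|Δ(z)| = e^{-2π Im z} · |u(z)|` with `u → 1`. -/
theorem norm_discriminant_eq (z : ℍ) :
    ‖ModularForm.discriminant z‖ =
      Real.exp (-2 * π * z.im) * ‖∏' n : ℕ, (1 - ModularForm.eta_q n z) ^ 24‖ := by
  rw [discriminant_eq_q_prod, norm_mul]
  congr 1
  simp [Function.Periodic.qParam, Complex.norm_exp]

theorem real_exp_int_mul (x : ℝ) (n : ℤ) : Real.exp (n * x) = Real.exp x ^ n := by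
  rw [mul_comm, Real.exp_mul, Real.rpow_intCast]

theorem tendsto_im_atImInfty : Tendsto (fun z : ℍ => z.im) atImInfty atTop :=
  tendsto_comap

/-- G2: the sum of the weights from the cusp data and the Liouville identity. -/
theorem stmt_sumKappa (Γ : Subgroup SL(2, ℤ)) [Fintype (SL(2, ℤ) ⧸ Γ)]
    [DecidableEq (SL(2, ℤ) ⧸ Γ)] : Stmt_SumKappa Γ := by
  intro κ G U Λ s c hCD hc hdet
  obtain ⟨hU, hΛ, hs, hsum, hT⟩ := hCD
  set K : ℤ := ∑ x, κ x with hK
  set S : ℝ := ∑ x, s x with hS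
  -- the matrix C(z)
  let C : ℍ → Matrix (SL(2, ℤ) ⧸ Γ) (SL(2, ℤ) ⧸ Γ) ℂ := fun z =>
    Matrix.of fun x y => cexp (-(2 * (π : ℂ) * Complex.I * (s x : ℂ) * (z : ℂ))) *
      (U⁻¹ * Phi Γ κ G z) x y
  have hC : Tendsto C atImInfty (𝓝 Λ) :=
    tendsto_pi_nhds.mpr fun x => tendsto_pi_nhds.mpr fun y => hT x y
  have hdetC : Tendsto (fun z => (C z).det) atImInfty (𝓝 Λ.det) :=
    ((continuous_id.matrix_det).tendsto Λ).comp hC
  have hCdet : ∀ z : ℍ, (C z).det =
      (∏ x, cexp (-(2 * (π : ℂ) * Complex.I * (s x : ℂ) * (z : ℂ)))) * (U.det⁻¹ *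
        (Phi Γ κ G z).det) := by
    intro z
    have h1 : C z = Matrix.diagonal (fun x => cexp (-(2 * (π : ℂ) * Complex.I * (s x : ℂ) * (z : ℂ))))
        * (U⁻¹ * Phi Γ κ G z) := by
      ext x y
      simp [C, Matrix.diagonal_mul]
    rw [h1, Matrix.det_mul, Matrix.det_diagonal, Matrix.det_mul, Matrix.det_nonsing_inv,
      Ring.inverse_eq_inv']
  have hnormC : ∀ z : ℍ, ‖(C z).det‖ =
      Real.exp (2 * π * S * z.im) * (‖U.det‖⁻¹ * ‖(Phi Γ κ G z).det‖) := by
    intro z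
    rw [hCdet, norm_mul, norm_mul, norm_inv, norm_prod]
    congr 1
    simp only [Complex.norm_exp]
    rw [← Real.exp_sum]
    congr 1
    rw [hS, Finset.mul_sum, Finset.sum_mul]
    refine Finset.sum_congr rfl fun x _ => ?_
    simp
  -- norm form of the Liouville identity
  set u : ℍ → ℂ := fun z => ∏' n : ℕ, (1 - ModularForm.eta_q n z) ^ 24 with hu
  have hu1 : Tendsto u atImInfty (𝓝 1) := tendsto_atImInfty_tprod_one_sub_eta_q_pow
  set a : ℝ := 12 * S - K with ha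
  have hU' : ‖U.det‖ ≠ 0 := norm_ne_zero_iff.mpr hU
  have hkey : ∀ z : ℍ, Real.exp (-2 * π * a * z.im) * (‖U.det‖ ^ 12 * ‖(C z).det‖ ^ 12) =
      ‖c‖ * ‖u z‖ ^ K := by
    intro z
    have h1 := congrArg norm (hdet z)
    rw [norm_pow, norm_mul, norm_zpow, norm_discriminant_eq] at h1
    have h2 : ‖(Phi Γ κ G z).det‖ =
        Real.exp (-(2 * π * S * z.im)) * (‖U.det‖ * ‖(C z).det‖) := by
      rw [hnormC z, Real.exp_neg]
      have := (Real.exp_pos (2 * π * S * z.im)).ne'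
      field_simp
    rw [h2] at h1
    rw [mul_pow, mul_zpow, ← Real.exp_nat_mul, ← real_exp_int_mul, mul_pow] at h1
    have hEK : Real.exp ((K : ℝ) * (-2 * π * z.im)) ≠ 0 := (Real.exp_pos _).ne'
    have h3 : Real.exp (-2 * π * a * z.im) =
        Real.exp (((12 : ℕ) : ℝ) * -(2 * π * S * z.im)) *
          (Real.exp ((K : ℝ) * (-2 * π * z.im)))⁻¹ := by
      rw [← Real.exp_neg, ← Real.exp_add]
      congr 1
      rw [ha]
      push_cast
      ring
    rw [h3]
    calc Real.exp (((12 : ℕ) : ℝ) * -(2 * π * S * z.im)) *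
          (Real.exp ((K : ℝ) * (-2 * π * z.im)))⁻¹ * (‖U.det‖ ^ 12 * ‖(C z).det‖ ^ 12)
        = (Real.exp ((K : ℝ) * (-2 * π * z.im)))⁻¹ *
            (Real.exp (((12 : ℕ) : ℝ) * -(2 * π * S * z.im)) *
              (‖U.det‖ ^ 12 * ‖(C z).det‖ ^ 12)) := by ring
      _ = (Real.exp ((K : ℝ) * (-2 * π * z.im)))⁻¹ *
            (‖c‖ * (Real.exp ((K : ℝ) * (-2 * π * z.im)) * ‖u z‖ ^ K)) := by rw [h1]
      _ = ‖c‖ * ‖u z‖ ^ K := by field_simp
  have hP : Tendsto (fun z => ‖U.det‖ ^ 12 * ‖(C z).det‖ ^ 12) atImInfty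
      (𝓝 (‖U.det‖ ^ 12 * ‖Λ.det‖ ^ 12)) := (hdetC.norm.pow 12).const_mul _
  have hP0 : 0 < ‖U.det‖ ^ 12 * ‖Λ.det‖ ^ 12 := by
    have h1 : 0 < ‖U.det‖ := norm_pos_iff.mpr hU
    have h2 : 0 < ‖Λ.det‖ := norm_pos_iff.mpr hΛ
    positivity
  have hQ : Tendsto (fun z => ‖c‖ * ‖u z‖ ^ K) atImInfty (𝓝 (‖c‖ * 1)) := by
    have h1 : Tendsto (fun z => ‖u z‖) atImInfty (𝓝 1) := by
      simpa using hu1.norm
    have h2 := h1.zpow₀ K (Or.inl one_ne_zero)
    rw [one_zpow] at h2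
    exact h2.const_mul _
  have hc' : 0 < ‖c‖ := norm_pos_iff.mpr hc
  have ha0 : a = 0 := by
    rcases lt_trichotomy a 0 with hneg | h0 | hpos
    · exfalso
      have hE : Tendsto (fun z : ℍ => Real.exp (-2 * π * a * z.im)) atImInfty atTop := by
        refine Real.tendsto_exp_atTop.comp ?_
        exact tendsto_im_atImInfty.const_mul_atTop (by nlinarith [Real.pi_pos])
      have hEP := hE.atTop_mul_pos hP0 hP
      have h3 : Tendsto (fun z => ‖c‖ * ‖u z‖ ^ K) atImInfty atTop :=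
        hEP.congr hkey
      exact not_tendsto_nhds_of_tendsto_atTop h3 _ hQ
    · exact h0
    · exfalso
      have hE : Tendsto (fun z : ℍ => Real.exp (-2 * π * a * z.im)) atImInfty (𝓝 0) := by
        refine Real.tendsto_exp_atBot.comp ?_
        exact tendsto_im_atImInfty.const_mul_atTop_of_neg (by nlinarith [Real.pi_pos])
      have hEP := hE.mul hP
      rw [zero_mul] at hEP
      have h3 := tendsto_nhds_unique (hEP.congr hkey) hQ
      linarith
  have hfin : (K : ℝ) = 6 * ((Γ.index : ℝ) - (cuspNum Γ : ℝ)) := by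
    rw [ha] at ha0
    linarith
  exact_mod_cast hfin

/-! ## The final theorem from the statements -/

/-- Core: from a coset-indexed free basis with all the structural facts, the dimension formula
in terms of the invariants of `Γ`. -/
theorem finrank_of_facts (Γ : Subgroup SL(2, ℤ)) [Fintype (SL(2, ℤ) ⧸ Γ)]
    [DecidableEq (SL(2, ℤ) ⧸ Γ)]
    (hFreeX : Stmt_FreeX Γ) (hLiou : Stmt_Liouville Γ) (hBasic : Stmt_Basic Γ)
    (hEll : Stmt_Ell Γ) (hCusp : Stmt_CuspFact Γ) (hSumK : Stmt_SumKappa Γ)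
    (hDual : Stmt_Dual Γ) :
    (Module.finrank ℂ (CuspForm (Γ.map (mapGL ℝ)) 2) : ℚ) =
      1 + (Γ.index : ℚ) / 12 - (ellTwo Γ : ℚ) / 4 - (ellThree Γ : ℚ) / 3 - (cuspNum Γ : ℚ) / 2 := by
  classical
  obtain ⟨κ, G, hB, z₀, hz₀⟩ := hFreeX
  obtain ⟨c, hc⟩ := hLiou κ G hB
  have hc0 : c ≠ 0 := by
    rintro rfl
    have h := hc z₀
    rw [zero_mul] at h
    exact hz₀ (pow_eq_zero_iff (by norm_num) |>.mp h)
  have hdet : ∀ z : ℍ, (Phi Γ κ G z).det ≠ 0 := by
    intro z h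
    have h1 := hc z
    rw [h, zero_pow (by norm_num)] at h1
    have h2 : (ModularForm.discriminant z) ^ (∑ x, κ x) ≠ 0 :=
      zpow_ne_zero _ (discriminant_ne_zero z)
    exact (mul_ne_zero hc0 h2) h1.symm
  obtain ⟨hnonneg, heven, hzero⟩ := hBasic κ G hB
  obtain ⟨U, Λ, s, hCD⟩ := hCusp κ G hB heven
  have hsum := hSumK κ G U Λ s c hCD hc0 hc
  obtain ⟨hlt, hfin⟩ := hDual κ G U Λ s hB heven hdet hCD
  obtain ⟨h4, h6a, h6b, h6c⟩ := hEll κ G hB heven hdet
  -- all weights lie in {0,2,4,6,8,10}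
  have hκ : ∀ x, κ x ∈ wts := by
    intro x
    have h1 := hnonneg x
    have h2 := hlt x
    obtain ⟨m, hm⟩ := heven x
    simp only [wts, Finset.mem_insert, Finset.mem_singleton]
    omega
  rw [natCard_subtype_eq] at hzero h4 h6a h6b h6c hfin
  rw [card_filter_eq_sum κ hκ (fun k => k = 0)] at hzero
  rw [card_filter_eq_sum κ hκ (fun k => k % 4 = 0)] at h4
  rw [card_filter_eq_sum κ hκ (fun k => k % 6 = 0)] at h6a
  rw [card_filter_eq_sum κ hκ (fun k => k % 6 = 2)] at h6b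
  rw [card_filter_eq_sum κ hκ (fun k => k % 6 = 4)] at h6c
  rw [card_filter_eq_sum κ hκ (fun k => k = 10)] at hfin
  rw [sum_eq_sum_cnt κ hκ] at hsum
  simp only [wts] at hzero h4 h6a h6b h6c hfin hsum
  norm_num at hzero h4 h6a h6b h6c hfin hsum
  rw [hfin]
  have key := arith_core (cnt κ 0) (cnt κ 2) (cnt κ 4) (cnt κ 6) (cnt κ 8) (cnt κ 10)
    (Γ.index) (ellTwo Γ) (ellThree Γ) (cuspNum Γ)
    (by exact_mod_cast hzero) (by omega) (by omega) (by omega)
    (by omega) (by linarith)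
  push_cast at key
  exact key

/-- **S20 from the statements** (`Γ = Γ₀(N)`). -/
theorem result_of_stmts (N : ℕ) [NeZero N]
    [Fintype (SL(2, ℤ) ⧸ CongruenceSubgroup.Gamma0 N)]
    [DecidableEq (SL(2, ℤ) ⧸ CongruenceSubgroup.Gamma0 N)]
    (hFreeX : Stmt_FreeX (CongruenceSubgroup.Gamma0 N))
    (hLiou : Stmt_Liouville (CongruenceSubgroup.Gamma0 N))
    (hBasic : Stmt_Basic (CongruenceSubgroup.Gamma0 N))
    (hEll : Stmt_Ell (CongruenceSubgroup.Gamma0 N))
    (hCusp : Stmt_CuspFact (CongruenceSubgroup.Gamma0 N))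
    (hSumK : Stmt_SumKappa (CongruenceSubgroup.Gamma0 N))
    (hDual : Stmt_Dual (CongruenceSubgroup.Gamma0 N))
    (hIdx : Stmt_Index N) (hE2 : Stmt_EllTwo N) (hE3 : Stmt_EllThree N) (hCN : Stmt_CuspNum N) :
    (Module.finrank ℂ (CuspForm (CongruenceSubgroup.Gamma0 N) 2) : ℚ) =
      ModularCurve.genusFormula N := by
  have h := finrank_of_facts (CongruenceSubgroup.Gamma0 N) hFreeX hLiou hBasic hEll hCusp hSumK hDual
  unfold Stmt_Index at hIdx
  unfold Stmt_EllTwo at hE2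
  unfold Stmt_EllThree at hE3
  unfold Stmt_CuspNum at hCN
  rw [hIdx, hE2, hE3, hCN] at h
  rw [ModularCurve.genusFormula]
  exact h

/-- **S20 from the leaf statements** (`Γ = Γ₀(N)`), with the glue steps G1, G2 discharged. -/
theorem result_of_leaves (N : ℕ) [NeZero N]
    [Fintype (SL(2, ℤ) ⧸ CongruenceSubgroup.Gamma0 N)]
    [DecidableEq (SL(2, ℤ) ⧸ CongruenceSubgroup.Gamma0 N)]
    (hFree : Stmt_Free (CongruenceSubgroup.Gamma0 N))
    (hSep : Stmt_Sep (CongruenceSubgroup.Gamma0 N))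
    (hLiou : Stmt_Liouville (CongruenceSubgroup.Gamma0 N))
    (hBasic : Stmt_Basic (CongruenceSubgroup.Gamma0 N))
    (hEll : Stmt_Ell (CongruenceSubgroup.Gamma0 N))
    (hCusp : Stmt_CuspFact (CongruenceSubgroup.Gamma0 N))
    (hDual : Stmt_Dual (CongruenceSubgroup.Gamma0 N))
    (hIdx : Stmt_Index N) (hE2 : Stmt_EllTwo N) (hE3 : Stmt_EllThree N) (hCN : Stmt_CuspNum N) :
    (Module.finrank ℂ (CuspForm (CongruenceSubgroup.Gamma0 N) 2) : ℚ) =
      ModularCurve.genusFormula N :=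
  result_of_stmts N (stmt_freeX_of _ hFree hSep) hLiou hBasic hEll hCusp (stmt_sumKappa _) hDual
    hIdx hE2 hE3 hCN

end Fermat.Agent.S20.helper1040
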