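/-
S20, helper1040 spec: the constant-term bound (Lo)

  finrank M_2(Γ) + 1 ≤ finrank S_2(Γ) + #cusps(Γ)

for every finite index `Γ ≤ SL(2,ℤ)` (`#cusps` = number of `T`-orbits on `SL(2,ℤ) ⧸ Γ`).
Proof: the constant terms of the translates give a linear map `M_2(Γ) → ℂ^{cusps}` with kernel
`S_2(Γ)`, and its image is killed by the (nonzero) functional "sum over all cosets", because the
trace of a weight two form to level one vanishes.
-/
import Mathlib
import Fermat.Agent.S20.helper1040_API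

set_option autoImplicit false

open UpperHalfPlane ModularForm Matrix.SpecialLinearGroup Filter Complex
open scoped MatrixGroups ModularForm Manifold Topology Real

namespace Fermat.Agent.S20.helper1040

variable {Γ : Subgroup SL(2, ℤ)} {k : ℤ} {f : ℍ → ℂ}

/-! ### Translation by powers of `T` -/

/-- Slash by `T^m` is translation by `m`. -/
theorem slash_T_zpow_apply_fun (k : ℤ) (f : ℍ → ℂ) (m : ℤ) (z : ℍ) :
    (f ∣[k] (ModularGroup.T ^ m)) z = f ((m : ℝ) +ᵥ z) := by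
  rw [SL_slash_apply, modular_T_zpow_smul]
  have h2 : denom (ModularGroup.T ^ m : SL(2, ℤ)) z = 1 := by
    rw [ModularGroup.denom_apply]
    simp [ModularGroup.coe_T_zpow]
  rw [h2]
  simp

/-- Some positive power of `T` acts trivially on the finite coset space. -/
theorem exists_T_pow_fix (Γ : Subgroup SL(2, ℤ)) [Γ.FiniteIndex] :
    ∃ n : ℕ, 0 < n ∧ ∀ x : SL(2, ℤ) ⧸ Γ, (ModularGroup.T ^ n) • x = x := by
  have : Finite (SL(2, ℤ) ⧸ Γ) := Subgroup.finite_quotient_of_finiteIndex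
  let σ : Equiv.Perm (SL(2, ℤ) ⧸ Γ) := MulAction.toPermHom SL(2, ℤ) (SL(2, ℤ) ⧸ Γ) ModularGroup.T
  refine ⟨orderOf σ, orderOf_pos σ, fun x => ?_⟩
  have h : MulAction.toPermHom SL(2, ℤ) (SL(2, ℤ) ⧸ Γ) (ModularGroup.T ^ orderOf σ) = 1 := by
    rw [map_pow]
    exact pow_orderOf_eq_one σ
  have h2 := congrArg (fun e : Equiv.Perm (SL(2, ℤ) ⧸ Γ) => e x) h
  simpa using h2

theorem tendsto_vadd_atImInfty (c : ℝ) :
    Tendsto (fun z : ℍ => c +ᵥ z) atImInfty atImInfty := by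
  rw [atImInfty, tendsto_comap_iff]
  have : (UpperHalfPlane.im ∘ fun z : ℍ => c +ᵥ z) = UpperHalfPlane.im := by
    funext z
    simp [UpperHalfPlane.vadd_im]
  rw [this]
  exact tendsto_comap

theorem periodic_comp_ofComplex_of_vadd_aux {g : ℍ → ℂ} {h : ℝ} (hg : ∀ z : ℍ, g (h +ᵥ z) = g z) :
    Function.Periodic (g ∘ UpperHalfPlane.ofComplex) (h : ℂ) := by
  intro w
  by_cases hw : 0 < w.im
  · have hw' : 0 < (w + h).im := by simp [hw]
    simp only [Function.comp_apply, UpperHalfPlane.ofComplex_apply_of_im_pos hw',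
      UpperHalfPlane.ofComplex_apply_of_im_pos hw]
    convert hg ⟨w, hw⟩ using 2
    ext
    simp [add_comm]
  · have hw1 : w.im ≤ 0 := not_lt.mp hw
    have hw' : (w + h).im ≤ 0 := by simpa using hw1
    simp [UpperHalfPlane.ofComplex_apply_of_im_nonpos hw',
      UpperHalfPlane.ofComplex_apply_of_im_nonpos hw1]

/-- A holomorphic function on `ℍ`, periodic with a positive integer period and bounded at `i∞`,
tends to its value at infinity. -/
theorem tendsto_valueAtInfty_of_periodic {g : ℍ → ℂ} {n : ℕ} (hn : 0 < n)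
    (hper : ∀ z : ℍ, g ((n : ℝ) +ᵥ z) = g z) (hg : MDifferentiable 𝓘(ℂ) 𝓘(ℂ) g)
    (hb : IsBoundedAtImInfty g) : Tendsto g atImInfty (𝓝 (valueAtInfty g)) := by
  have hn' : (0 : ℝ) < (n : ℝ) := by exact_mod_cast hn
  have h1 := exp_decay_sub_atImInfty (h := (n : ℝ)) hn'
    (periodic_comp_ofComplex_of_vadd_aux hper) hg hb
  have h2 : Tendsto (fun τ : ℍ => Real.exp (-2 * π * τ.im / (n : ℝ))) atImInfty (𝓝 0) := by
    have h3 : Tendsto (fun y : ℝ => Real.exp (-(2 * π / (n : ℝ)) * y)) atTop (𝓝 0) :=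
      Real.tendsto_exp_atBot.comp
        (tendsto_id.const_mul_atTop_of_neg (neg_lt_zero.mpr (by positivity)))
    have h4 : Tendsto (fun τ : ℍ => Real.exp (-(2 * π / (n : ℝ)) * τ.im)) atImInfty (𝓝 0) :=
      h3.comp tendsto_comap
    refine h4.congr fun τ => ?_
    congr 1
    ring
  have h5 := h1.trans_tendsto h2
  have h6 : Tendsto (fun τ => (g τ - valueAtInfty g) + valueAtInfty g) atImInfty
      (𝓝 (0 + valueAtInfty g)) := h5.add tendsto_const_nhds
  simpa using h6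

/-! ### Constant terms of the translates -/

/-- Every translate of a modular form is periodic with a common positive integer period. -/
theorem IsMF.tr_periodic [Γ.FiniteIndex] (hf : IsMF Γ k f) :
    ∃ n : ℕ, 0 < n ∧ ∀ (x : SL(2, ℤ) ⧸ Γ) (z : ℍ), tr Γ k f x ((n : ℝ) +ᵥ z) = tr Γ k f x z := by
  obtain ⟨n, hn, hfix⟩ := exists_T_pow_fix Γ
  refine ⟨n, hn, fun x z => ?_⟩
  have h1 := tr_slash hf.inv x (ModularGroup.T ^ (n : ℤ))
  have h2 : (ModularGroup.T ^ (n : ℤ))⁻¹ • x = x := by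
    rw [inv_smul_eq_iff, zpow_natCast, hfix]
  rw [h2] at h1
  have h3 := slash_T_zpow_apply_fun k (tr Γ k f x) (n : ℤ) z
  rw [h1] at h3
  simpa using h3.symm

/-- The constant term of `f` at the coset `x`: the limit at `i∞` of the translate. -/
noncomputable def cterm (Γ : Subgroup SL(2, ℤ)) (k : ℤ) (f : ℍ → ℂ) (x : SL(2, ℤ) ⧸ Γ) : ℂ :=
  valueAtInfty (tr Γ k f x)

theorem IsMF.tendsto_cterm [Γ.FiniteIndex] (hf : IsMF Γ k f) (x : SL(2, ℤ) ⧸ Γ) :
    Tendsto (tr Γ k f x) atImInfty (𝓝 (cterm Γ k f x)) := by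
  obtain ⟨n, hn, hper⟩ := hf.tr_periodic
  exact tendsto_valueAtInfty_of_periodic hn (hper x) (hf.tr_holo x) (hf.tr_bdd x)

theorem IsMF.cterm_add [Γ.FiniteIndex] {g : ℍ → ℂ} (hf : IsMF Γ k f) (hg : IsMF Γ k g)
    (x : SL(2, ℤ) ⧸ Γ) : cterm Γ k (f + g) x = cterm Γ k f x + cterm Γ k g x := by
  have h1 := (hf.add hg).tendsto_cterm x
  have h2 := (hf.tendsto_cterm x).add (hg.tendsto_cterm x)
  rw [tr_add] at h1
  exact tendsto_nhds_unique h1 h2

theorem IsMF.cterm_smul [Γ.FiniteIndex] (c : ℂ) (hf : IsMF Γ k f)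
    (x : SL(2, ℤ) ⧸ Γ) : cterm Γ k (c • f) x = c * cterm Γ k f x := by
  have h1 := (hf.smul c).tendsto_cterm x
  have h2 := (hf.tendsto_cterm x).const_mul c
  rw [tr_smul_const] at h1
  exact tendsto_nhds_unique h1 h2

/-- Constant terms are invariant along `T`-orbits. -/
theorem IsMF.cterm_T_zpow [Γ.FiniteIndex] (hf : IsMF Γ k f) (m : ℤ) (x : SL(2, ℤ) ⧸ Γ) :
    cterm Γ k f ((ModularGroup.T ^ m) • x) = cterm Γ k f x := by
  have h1 := hf.tendsto_cterm ((ModularGroup.T ^ m) • x)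
  have h2 : tr Γ k f ((ModularGroup.T ^ m) • x) =
      fun z : ℍ => tr Γ k f x (((-m : ℤ) : ℝ) +ᵥ z) := by
    funext z
    rw [tr_smul hf.inv, ← zpow_neg, slash_T_zpow_apply_fun]
  rw [h2] at h1
  have h3 : Tendsto (fun z : ℍ => tr Γ k f x (((-m : ℤ) : ℝ) +ᵥ z)) atImInfty
      (𝓝 (cterm Γ k f x)) := (hf.tendsto_cterm x).comp (tendsto_vadd_atImInfty _)
  exact tendsto_nhds_unique h1 h3

/-- A modular form all of whose constant terms vanish is a cusp form. -/
theorem IsMF.isCF_of_cterm_eq_zero [Γ.FiniteIndex] (hf : IsMF Γ k f)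
    (h : ∀ x, cterm Γ k f x = 0) : IsCF Γ k f where
  holo := hf.holo
  inv := hf.inv
  zero γ := by
    have h1 := hf.tendsto_cterm ((γ⁻¹ : SL(2, ℤ)) : SL(2, ℤ) ⧸ Γ)
    rw [tr_mk hf.inv, inv_inv, h] at h1
    exact h1

theorem IsCF.cterm_eq_zero (hf : IsCF Γ k f) (x : SL(2, ℤ) ⧸ Γ) : cterm Γ k f x = 0 :=
  (hf.tr_zero x).valueAtInfty_eq_zero

/-! ### The trace to level one -/

theorem IsMF.isMF_bot_tr (hf : IsMF Γ k f) (x : SL(2, ℤ) ⧸ Γ) :
    IsMF (⊥ : Subgroup SL(2, ℤ)) k (tr Γ k f x) where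
  holo := hf.tr_holo x
  inv γ hγ := by
    rw [Subgroup.mem_bot] at hγ
    rw [hγ, SlashAction.slash_one]
  bdd γ := by
    rw [tr_slash hf.inv]
    exact hf.tr_bdd _

/-- The sum of all translates is a level one form. -/
theorem IsMF.isMF1_sum_tr [Fintype (SL(2, ℤ) ⧸ Γ)] (hf : IsMF Γ k f) :
    IsMF1 k (∑ x : SL(2, ℤ) ⧸ Γ, tr Γ k f x) := by
  have h0 : IsMF (⊥ : Subgroup SL(2, ℤ)) k (∑ x : SL(2, ℤ) ⧸ Γ, tr Γ k f x) :=
    IsMF.sum _ _ fun x _ => hf.isMF_bot_tr x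
  have hinv : ∀ γ : SL(2, ℤ), (∑ x : SL(2, ℤ) ⧸ Γ, tr Γ k f x) ∣[k] γ =
      ∑ x : SL(2, ℤ) ⧸ Γ, tr Γ k f x := by
    intro γ
    rw [SlashAction.sum_slash]
    simp_rw [tr_slash hf.inv]
    exact Fintype.sum_equiv (MulAction.toPerm γ⁻¹) _ _ fun x => rfl
  exact
    { holo := h0.holo
      inv := fun γ _ => hinv γ
      bdd := fun γ => by
        rw [hinv γ]
        have := h0.bdd 1
        rwa [SlashAction.slash_one] at this }

/-- Level one forms of weight two vanish. -/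
theorem IsMF.eq_zero_of_levelOne_weight_two (hf : IsMF1 2 f) : f = 0 := by
  have h := ModularForm.levelOne_weight_two_rank_zero
  rw [rank_zero_iff_forall_zero] at h
  have h2 := h hf.toModularForm1
  have h3 := congrArg (fun F : ModularForm 𝒮ℒ 2 => (⇑F : ℍ → ℂ)) h2
  simpa using h3

/-- The constant terms of a weight two form sum to zero. -/
theorem IsMF.sum_cterm_eq_zero [Γ.FiniteIndex] [Fintype (SL(2, ℤ) ⧸ Γ)] (hf : IsMF Γ 2 f) :
    ∑ x : SL(2, ℤ) ⧸ Γ, cterm Γ 2 f x = 0 := by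
  have h0 : (∑ x : SL(2, ℤ) ⧸ Γ, tr Γ 2 f x) = 0 := hf.isMF1_sum_tr.eq_zero_of_levelOne_weight_two
  have h1 : Tendsto (fun z : ℍ => ∑ x : SL(2, ℤ) ⧸ Γ, tr Γ 2 f x z) atImInfty
      (𝓝 (∑ x : SL(2, ℤ) ⧸ Γ, cterm Γ 2 f x)) :=
    tendsto_finsetSum _ fun x _ => hf.tendsto_cterm x
  have h2 : (fun z : ℍ => ∑ x : SL(2, ℤ) ⧸ Γ, tr Γ 2 f x z) = fun _ => (0 : ℂ) := by
    funext z
    have := congrFun h0 z
    simpa using this
  rw [h2] at h1
  exact tendsto_nhds_unique h1 tendsto_const_nhds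

/-! ### The linear algebra -/

section LinAlg

variable (Γ : Subgroup SL(2, ℤ)) [Γ.FiniteIndex]

/-- The constant term map `M_2(Γ) → ℂ^{T-orbits}`. -/
noncomputable def ctermMap : ModularForm (Γ.map (mapGL ℝ)) 2 →ₗ[ℂ]
    (MulAction.orbitRel.Quotient (Subgroup.zpowers ModularGroup.T) (SL(2, ℤ) ⧸ Γ) → ℂ) where
  toFun F o := cterm Γ 2 F (Quotient.out o)
  map_add' F G := by
    funext o
    simp only [Pi.add_apply]
    rw [ModularForm.coe_add]
    exact (isMF_of_modularForm F).cterm_add (isMF_of_modularForm G) _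
  map_smul' c F := by
    funext o
    simp only [Pi.smul_apply, RingHom.id_apply, smul_eq_mul]
    rw [ModularForm.coe_smul]
    exact (isMF_of_modularForm F).cterm_smul c _

variable {Γ} in
theorem IsMF.cterm_out (hf : IsMF Γ k f) (x : SL(2, ℤ) ⧸ Γ) :
    cterm Γ k f (Quotient.out (Quotient.mk'' x :
      MulAction.orbitRel.Quotient (Subgroup.zpowers ModularGroup.T) (SL(2, ℤ) ⧸ Γ))) =
      cterm Γ k f x := by
  have h : (MulAction.orbitRel (Subgroup.zpowers ModularGroup.T) (SL(2, ℤ) ⧸ Γ)).r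
      (Quotient.out (Quotient.mk'' x :
        MulAction.orbitRel.Quotient (Subgroup.zpowers ModularGroup.T) (SL(2, ℤ) ⧸ Γ))) x :=
    Quotient.mk_out (s := MulAction.orbitRel _ _) x
  rw [MulAction.orbitRel_apply] at h
  obtain ⟨⟨g, hg⟩, hgx⟩ := h
  obtain ⟨m, rfl⟩ := Subgroup.mem_zpowers_iff.mp hg
  rw [← hgx]
  exact hf.cterm_T_zpow m x

/-- The functional "sum over all cosets" on functions on the `T`-orbits. -/
noncomputable def sumFun [Fintype (SL(2, ℤ) ⧸ Γ)] :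
    (MulAction.orbitRel.Quotient (Subgroup.zpowers ModularGroup.T) (SL(2, ℤ) ⧸ Γ) → ℂ) →ₗ[ℂ] ℂ where
  toFun v := ∑ x : SL(2, ℤ) ⧸ Γ, v (Quotient.mk'' x)
  map_add' v w := by simp [Finset.sum_add_distrib]
  map_smul' c v := by simp [Finset.mul_sum]

/-- **(Lo)** the constant term bound: `dim M_2(Γ) + 1 ≤ dim S_2(Γ) + #cusps`. -/
theorem finrank_modularForm_two_add_one_le :
    Module.finrank ℂ (ModularForm (Γ.map (mapGL ℝ)) 2) + 1 ≤
      Module.finrank ℂ (CuspForm (Γ.map (mapGL ℝ)) 2) + cuspNum Γ := by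
  classical
  have : Finite (SL(2, ℤ) ⧸ Γ) := Subgroup.finite_quotient_of_finiteIndex
  letI : Fintype (SL(2, ℤ) ⧸ Γ) := Fintype.ofFinite _
  letI : Fintype (MulAction.orbitRel.Quotient (Subgroup.zpowers ModularGroup.T) (SL(2, ℤ) ⧸ Γ)) :=
    Fintype.ofFinite _
  have hc : cuspNum Γ = Module.finrank ℂ
      (MulAction.orbitRel.Quotient (Subgroup.zpowers ModularGroup.T) (SL(2, ℤ) ⧸ Γ) → ℂ) := by
    rw [cuspNum, Nat.card_eq_fintype_card, Module.finrank_fintype_fun_eq_card]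
  have hX : (Fintype.card (SL(2, ℤ) ⧸ Γ) : ℂ) ≠ 0 := by
    haveI : Nonempty (SL(2, ℤ) ⧸ Γ) := ⟨((1 : SL(2, ℤ)) : SL(2, ℤ) ⧸ Γ)⟩
    have : 0 < Fintype.card (SL(2, ℤ) ⧸ Γ) := Fintype.card_pos
    exact_mod_cast this.ne'
  have hsurj : Function.Surjective (sumFun Γ) := by
    intro c
    refine ⟨fun _ => c / Fintype.card (SL(2, ℤ) ⧸ Γ), ?_⟩
    simp only [sumFun, LinearMap.coe_mk, AddHom.coe_mk, Finset.sum_const, Finset.card_univ,
      nsmul_eq_mul]
    field_simp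
  have hker : Module.finrank ℂ (LinearMap.ker (sumFun Γ)) + 1 = cuspNum Γ := by
    have h := LinearMap.finrank_range_add_finrank_ker (sumFun Γ)
    rw [LinearMap.range_eq_top.mpr hsurj, finrank_top, Module.finrank_self] at h
    rw [hc]
    omega
  have hrange : LinearMap.range (ctermMap Γ) ≤ LinearMap.ker (sumFun Γ) := by
    rintro _ ⟨F, rfl⟩
    rw [LinearMap.mem_ker]
    show ∑ x : SL(2, ℤ) ⧸ Γ, cterm Γ 2 F (Quotient.out (Quotient.mk'' x :
      MulAction.orbitRel.Quotient (Subgroup.zpowers ModularGroup.T) (SL(2, ℤ) ⧸ Γ))) = 0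
    simp_rw [(isMF_of_modularForm F).cterm_out]
    exact (isMF_of_modularForm F).sum_cterm_eq_zero
  have hkerL : LinearMap.ker (ctermMap Γ) ≤ LinearMap.range
      (CuspForm.toModularFormₗ :
        CuspForm (Γ.map (mapGL ℝ)) 2 →ₗ[ℂ] ModularForm (Γ.map (mapGL ℝ)) 2) := by
    intro F hF
    rw [LinearMap.mem_ker] at hF
    have hF' : ∀ x, cterm Γ 2 F x = 0 := by
      intro x
      rw [← (isMF_of_modularForm F).cterm_out]
      exact congrFun hF _
    have hcf := (isMF_of_modularForm F).isCF_of_cterm_eq_zero hF'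
    exact ⟨hcf.toCuspForm, by ext z; rfl⟩
  by_cases hfin : Module.Finite ℂ (ModularForm (Γ.map (mapGL ℝ)) 2)
  · have h1 := LinearMap.finrank_range_add_finrank_ker (ctermMap Γ)
    have h2 : Module.finrank ℂ (LinearMap.range (ctermMap Γ)) ≤
        Module.finrank ℂ (LinearMap.ker (sumFun Γ)) := Submodule.finrank_mono hrange
    have h3 : Module.finrank ℂ (LinearMap.ker (ctermMap Γ)) ≤
        Module.finrank ℂ (LinearMap.range (CuspForm.toModularFormₗ :
          CuspForm (Γ.map (mapGL ℝ)) 2 →ₗ[ℂ] ModularForm (Γ.map (mapGL ℝ)) 2)) :=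
      Submodule.finrank_mono hkerL
    have h4 : Module.finrank ℂ (LinearMap.range (CuspForm.toModularFormₗ :
          CuspForm (Γ.map (mapGL ℝ)) 2 →ₗ[ℂ] ModularForm (Γ.map (mapGL ℝ)) 2)) =
        Module.finrank ℂ (CuspForm (Γ.map (mapGL ℝ)) 2) :=
      (LinearEquiv.ofInjective _ CuspForm.toModularFormₗ_injective).finrank_eq.symm
    omega
  · rw [Module.finrank_of_not_finite hfin]
    omega

end LinAlg

end Fermat.Agent.S20.helper1040
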