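import Mathlib.NumberTheory.ModularForms.NormTrace
import Mathlib.NumberTheory.ModularForms.LevelOne.DimensionFormula
import Mathlib.LinearAlgebra.Vandermonde

set_option autoImplicit false

open UpperHalfPlane ModularForm EisensteinSeries Filter Topology
open scoped MatrixGroups Manifold

namespace Fermat.Agent.S20.helper200

/-- Integer Hermite-normal-form data for `diag(N,1) * γ`. -/
theorem hnf_int (a b c d N : ℤ) (hdet : a * d - b * c = 1) (hN : 0 < N) :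
    ∃ t n c' u v : ℤ, 0 < t ∧ 0 < n ∧ N = n * t ∧ c = c' * t ∧ u * (n * a) + v * c' = 1 := by
  obtain ⟨g, hg⟩ : ∃ g : ℕ, g = Int.gcd c N := ⟨_, rfl⟩
  have hgpos : 0 < g := by rw [hg]; exact Int.gcd_pos_of_ne_zero_right _ hN.ne'
  have hgposZ : (0 : ℤ) < g := by exact_mod_cast hgpos
  obtain ⟨c', hc'⟩ : (g : ℤ) ∣ c := hg ▸ Int.gcd_dvd_left c N
  obtain ⟨n, hn⟩ : (g : ℤ) ∣ N := hg ▸ Int.gcd_dvd_right c N
  have hnpos : 0 < n := by
    by_contra hcon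
    have h1 : n ≤ 0 := not_lt.mp hcon
    have := mul_nonpos_of_nonneg_of_nonpos hgposZ.le h1
    omega
  have hcop : IsCoprime c' n := by
    rw [Int.isCoprime_iff_gcd_eq_one]
    have h2 : g = g * Int.gcd c' n := by
      conv_lhs => rw [hg, hc', hn, Int.gcd_mul_left]
      simp
    have : g * 1 = g * Int.gcd c' n := by simpa using h2
    exact (Nat.eq_of_mul_eq_mul_left hgpos this).symm
  have hcop2 : IsCoprime c' a := by
    refine ⟨-(b * g), d, ?_⟩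
    rw [hc'] at hdet
    linear_combination hdet
  have hcop3 : IsCoprime (n * a) c' := (hcop.mul_right hcop2).symm
  obtain ⟨u, v, huv⟩ := hcop3
  exact ⟨g, n, c', u, v, hgposZ, hnpos, by rw [hn]; ring, by rw [hc']; ring, huv⟩

/-- An upper triangular element of `GL(2, ℝ)`. -/
noncomputable def ut (t B D : ℝ) (h : t * D ≠ 0) : GL (Fin 2) ℝ :=
  Matrix.GeneralLinearGroup.mkOfDetNeZero !![t, B; 0, D] (by simpa [Matrix.det_fin_two] using h)

@[simp] lemma ut_val (t B D : ℝ) (h : t * D ≠ 0) : (ut t B D h).val = !![t, B; 0, D] := rfl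

lemma ut_det (t B D : ℝ) (h : t * D ≠ 0) : (ut t B D h).det.val = t * D := by
  simp [Matrix.GeneralLinearGroup.val_det_apply, ut_val, Matrix.det_fin_two]

lemma ut_denom (t B D : ℝ) (h : t * D ≠ 0) (z : ℂ) : denom (ut t B D h) z = D := by
  simp [denom, ut_val]

lemma ut_im_smul (t B D : ℝ) (ht : 0 < t) (hD : 0 < D) (z : ℍ) :
    (ut t B D (mul_pos ht hD).ne' • z).im = t / D * z.im := by
  rw [UpperHalfPlane.im_smul_eq_div_normSq, ut_det, ut_denom, abs_of_pos (mul_pos ht hD)]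
  simp only [Complex.normSq_ofReal]
  field_simp

lemma tendsto_ut_smul (t B D : ℝ) (ht : 0 < t) (hD : 0 < D) :
    Tendsto (fun z : ℍ => ut t B D (mul_pos ht hD).ne' • z) atImInfty atImInfty := by
  rw [atImInfty, tendsto_comap_iff]
  have : (UpperHalfPlane.im ∘ fun z : ℍ => ut t B D (mul_pos ht hD).ne' • z)
      = fun z : ℍ => t / D * z.im := by
    funext z; exact ut_im_smul t B D ht hD z
  rw [this]
  exact (tendsto_comap (f := UpperHalfPlane.im) (x := atTop)).const_mul_atTop (div_pos ht hD)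

lemma slash_ut (f : ℍ → ℂ) (k : ℤ) (t B D : ℝ) (ht : 0 < t) (hD : 0 < D) (z : ℍ) :
    (f ∣[k] ut t B D (mul_pos ht hD).ne') z
      = f (ut t B D (mul_pos ht hD).ne' • z) * ((t * D : ℝ) : ℂ) ^ (k - 1) * (D : ℂ) ^ (-k) := by
  rw [ModularForm.slash_apply, ut_det, ut_denom, abs_of_pos (mul_pos ht hD)]
  have : σ (ut t B D (mul_pos ht hD).ne') = ContinuousAlgEquiv.refl ℝ ℂ := by
    simp [σ, mul_pos ht hD]
  rw [this]
  rfl

lemma tendsto_slash_ut {f : ℍ → ℂ} {c : ℂ} (hf : Tendsto f atImInfty (𝓝 c)) (k : ℤ)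
    (t B D : ℝ) (ht : 0 < t) (hD : 0 < D) :
    Tendsto (f ∣[k] ut t B D (mul_pos ht hD).ne') atImInfty
      (𝓝 (c * ((t * D : ℝ) : ℂ) ^ (k - 1) * (D : ℂ) ^ (-k))) := by
  have h1 := hf.comp (tendsto_ut_smul t B D ht hD)
  have h2 := (h1.mul_const (((t * D : ℝ) : ℂ) ^ (k - 1))).mul_const ((D : ℂ) ^ (-k))
  refine h2.congr fun z => ?_
  rw [slash_ut f k t B D ht hD z]
  rfl

/-- `E₄` tends to `1` at `i∞`. -/
lemma tendsto_E₄_atImInfty : Tendsto (⇑E₄ : ℍ → ℂ) atImInfty (𝓝 1) := by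
  have han := ModularFormClass.analyticAt_cuspFunction_zero E₄ one_pos one_mem_strictPeriods_SL
  have hper := SlashInvariantFormClass.periodic_comp_ofComplex E₄ one_mem_strictPeriods_SL
  have h0 : cuspFunction 1 (⇑E₄) 0 = 1 := by
    rw [cuspFunction_apply_zero one_pos han hper, ← qExpansion_coeff_zero one_pos han hper]
    exact E_qExpansion_coeff_zero (by norm_num) ⟨2, rfl⟩
  have h1 : Tendsto (fun τ : ℍ => cuspFunction 1 (⇑E₄) (Function.Periodic.qParam 1 τ))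
      atImInfty (𝓝 (cuspFunction 1 (⇑E₄) 0)) :=
    han.continuousAt.tendsto.comp (qParam_tendsto_atImInfty one_pos)
  rw [h0] at h1
  refine h1.congr fun τ => ?_
  exact eq_cuspFunction τ one_ne_zero hper

/-- `diag(N, 1)` in `GL(2, ℝ)`. -/
noncomputable def alpha (N : ℕ) [NeZero N] : GL (Fin 2) ℝ :=
  ut N 0 1 (by simpa using NeZero.ne N)

lemma sl_det_expl (γ : SL(2, ℤ)) : γ 0 0 * γ 1 1 - γ 0 1 * γ 1 0 = 1 := by
  have := γ.det_coe
  rw [Matrix.det_fin_two] at this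
  exact this

/-- Hermite normal form: `diag(N,1) * γ = γ' * [t, B; 0, n]` with `n * t = N` and `t ∣ γ 1 0`. -/
theorem alpha_mul_eq (N : ℕ) [NeZero N] (γ : SL(2, ℤ)) :
    ∃ (t n c' B : ℤ) (γ' : SL(2, ℤ)) (ht : 0 < (t : ℝ)) (hn : 0 < (n : ℝ)),
      (N : ℤ) = n * t ∧ γ 1 0 = c' * t ∧
      alpha N * (Matrix.SpecialLinearGroup.mapGL ℝ γ)
        = (Matrix.SpecialLinearGroup.mapGL ℝ γ') * ut t B n (mul_pos ht hn).ne' := by
  have hNpos : (0 : ℤ) < N := by exact_mod_cast Nat.pos_of_ne_zero (NeZero.ne N)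
  obtain ⟨t, n, c', u, v, ht, hn, hN, hc, huv⟩ :=
    hnf_int (γ 0 0) (γ 0 1) (γ 1 0) (γ 1 1) N (sl_det_expl γ) hNpos
  have hdet := sl_det_expl γ
  obtain ⟨γ', h00, h01, h10, h11⟩ : ∃ γ' : SL(2, ℤ), γ' 0 0 = n * γ 0 0 ∧ γ' 0 1 = -v ∧
      γ' 1 0 = c' ∧ γ' 1 1 = u :=
    ⟨⟨!![n * γ 0 0, -v; c', u], by rw [Matrix.det_fin_two_of]; linarith⟩, rfl, rfl, rfl, rfl⟩
  refine ⟨t, n, c', u * N * γ 0 1 + v * γ 1 1, γ',
    by exact_mod_cast ht, by exact_mod_cast hn, hN, hc, ?_⟩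
  have hNR : (N : ℝ) = n * t := by exact_mod_cast hN
  have hcR : ((γ 1 0 : ℤ) : ℝ) = c' * t := by exact_mod_cast hc
  have hdetR : ((γ 0 0 : ℤ) : ℝ) * (γ 1 1 : ℤ) - (γ 0 1 : ℤ) * (γ 1 0 : ℤ) = 1 := by
    exact_mod_cast hdet
  have huvR : (u : ℝ) * (n * (γ 0 0 : ℤ)) + v * c' = 1 := by exact_mod_cast huv
  apply Units.ext
  ext i j
  fin_cases i <;> fin_cases j <;>
    simp [alpha, Matrix.mul_apply, Fin.sum_univ_two, Matrix.SpecialLinearGroup.mapGL_coe_matrix,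
      h00, h01, h10, h11]
  · rw [hNR]; ring
  · rw [hNR, hcR] at *
    linear_combination (-(n : ℝ) * t * (γ 0 1 : ℤ)) * huvR - ((n : ℝ) * v) * hdetR
  · rw [hcR]
  · rw [hNR, hcR] at *
    linear_combination (-((γ 1 1 : ℤ) : ℝ)) * huvR + ((u : ℝ) * n) * hdetR

/-- The function `E₄ ∣[4] diag(N, 1)`, i.e. `z ↦ N ^ 3 * E₄ (N z)`. -/
noncomputable def sepFun (N : ℕ) [NeZero N] : ℍ → ℂ := (⇑E₄ : ℍ → ℂ) ∣[(4 : ℤ)] alpha N

lemma E₄_slash_SL (γ : SL(2, ℤ)) :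
    (⇑E₄ : ℍ → ℂ) ∣[(4 : ℤ)] (Matrix.SpecialLinearGroup.mapGL ℝ γ) = ⇑E₄ :=
  SlashInvariantFormClass.slash_action_eq E₄ _ ⟨γ, rfl⟩

/-- Behaviour at `i∞` of every `SL(2, ℤ)`-translate of `sepFun N`. -/
theorem tendsto_sepFun_slash (N : ℕ) [NeZero N] (γ : SL(2, ℤ)) :
    ∃ (t n c' : ℤ), 0 < t ∧ 0 < n ∧ (N : ℤ) = n * t ∧ γ 1 0 = c' * t ∧
      Tendsto (sepFun N ∣[(4 : ℤ)] (Matrix.SpecialLinearGroup.mapGL ℝ γ)) atImInfty
        (𝓝 ((((t : ℝ) * n : ℝ) : ℂ) ^ (3 : ℤ) * ((n : ℝ) : ℂ) ^ (-4 : ℤ))) := by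
  obtain ⟨t, n, c', B, γ', ht, hn, hN, hc, hmul⟩ := alpha_mul_eq N γ
  refine ⟨t, n, c', by exact_mod_cast ht, by exact_mod_cast hn, hN, hc, ?_⟩
  have h1 : sepFun N ∣[(4 : ℤ)] (Matrix.SpecialLinearGroup.mapGL ℝ γ)
      = (⇑E₄ : ℍ → ℂ) ∣[(4 : ℤ)] ut t B n (mul_pos ht hn).ne' := by
    rw [sepFun, ← SlashAction.slash_mul, hmul, SlashAction.slash_mul, E₄_slash_SL]
  rw [h1]
  have := tendsto_slash_ut tendsto_E₄_atImInfty 4 t B n ht hn
  simpa using this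

lemma tendsto_sepFun (N : ℕ) [NeZero N] :
    Tendsto (sepFun N) atImInfty (𝓝 ((N : ℂ) ^ (3 : ℤ))) := by
  have hN : (0 : ℝ) < N := by exact_mod_cast Nat.pos_of_ne_zero (NeZero.ne N)
  have := tendsto_slash_ut tendsto_E₄_atImInfty 4 N 0 1 hN one_pos
  simpa [sepFun, alpha] using this

/-- The stabiliser of `sepFun N` in `SL(2, ℤ)` is contained in `Γ₀(N)`. -/
theorem mem_Gamma0_of_sepFun_slash_eq (N : ℕ) [NeZero N] (γ : SL(2, ℤ))
    (h : sepFun N ∣[(4 : ℤ)] (Matrix.SpecialLinearGroup.mapGL ℝ γ) = sepFun N) :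
    γ ∈ CongruenceSubgroup.Gamma0 N := by
  obtain ⟨t, n, c', ht, hn, hN, hc, hlim⟩ := tendsto_sepFun_slash N γ
  rw [h] at hlim
  have heq := tendsto_nhds_unique (tendsto_sepFun N) hlim
  have hnR : (0 : ℝ) < n := by exact_mod_cast hn
  have htR : (0 : ℝ) < t := by exact_mod_cast ht
  have hNR : (N : ℝ) = n * t := by exact_mod_cast hN
  -- turn `heq` into a real equation
  have heqR : (N : ℝ) ^ 3 = ((t : ℝ) * n) ^ 3 * ((n : ℝ) ^ 4)⁻¹ := by
    have : ((N : ℝ) ^ 3 : ℂ) = ((((t : ℝ) * n) ^ 3 * ((n : ℝ) ^ 4)⁻¹ : ℝ) : ℂ) := by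
      have h4 : ((n : ℝ) : ℂ) ^ (-4 : ℤ) = (((n : ℝ) : ℂ) ^ 4)⁻¹ := by
        rw [zpow_neg]; norm_cast
      have h3 : (((t : ℝ) * n : ℝ) : ℂ) ^ (3 : ℤ) = (((t : ℝ) * n : ℝ) : ℂ) ^ 3 := by norm_cast
      have h3' : (N : ℂ) ^ (3 : ℤ) = (N : ℂ) ^ 3 := by norm_cast
      rw [h3, h4, h3'] at heq
      push_cast
      push_cast at heq
      exact heq
    exact_mod_cast this
  have hn1 : (n : ℝ) = 1 := by
    rw [hNR] at heqR
    have h5 : (n : ℝ) ^ 4 = 1 := by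
      have hne : ((n : ℝ) * t) ^ 3 ≠ 0 := by positivity
      field_simp at heqR
      nlinarith [heqR, mul_pos hnR htR, pow_pos (mul_pos hnR htR) 3]
    exact (pow_eq_one_iff_of_nonneg hnR.le (by norm_num)).mp h5
  have hn1' : n = 1 := by exact_mod_cast hn1
  rw [hn1', one_mul] at hN
  rw [CongruenceSubgroup.Gamma0_mem, hc, ← hN]
  simp

/-- For `γ ∈ Γ₀(N)`, `diag(N,1) * γ = γ'' * diag(N,1)` with `γ'' ∈ SL(2, ℤ)`. -/
lemma alpha_mul_Gamma0 (N : ℕ) [NeZero N] (γ : SL(2, ℤ)) (hγ : γ ∈ CongruenceSubgroup.Gamma0 N) :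
    ∃ γ' : SL(2, ℤ), alpha N * (Matrix.SpecialLinearGroup.mapGL ℝ γ)
        = (Matrix.SpecialLinearGroup.mapGL ℝ γ') * alpha N := by
  rw [CongruenceSubgroup.Gamma0_mem, ZMod.intCast_zmod_eq_zero_iff_dvd] at hγ
  obtain ⟨c₀, hc₀⟩ := hγ
  have hdet := sl_det_expl γ
  obtain ⟨γ', h00, h01, h10, h11⟩ : ∃ γ' : SL(2, ℤ), γ' 0 0 = γ 0 0 ∧ γ' 0 1 = N * γ 0 1 ∧
      γ' 1 0 = c₀ ∧ γ' 1 1 = γ 1 1 :=
    ⟨⟨!![γ 0 0, N * γ 0 1; c₀, γ 1 1], by rw [Matrix.det_fin_two_of]; rw [hc₀] at hdet; linarith⟩,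
      rfl, rfl, rfl, rfl⟩
  refine ⟨γ', ?_⟩
  have hcR : ((γ 1 0 : ℤ) : ℝ) = N * c₀ := by exact_mod_cast hc₀
  apply Units.ext
  ext i j
  fin_cases i <;> fin_cases j <;>
    simp [alpha, Matrix.mul_apply, Fin.sum_univ_two, Matrix.SpecialLinearGroup.mapGL_coe_matrix,
      h00, h01, h10, h11]
  · ring
  · rw [hcR]; ring

lemma sepFun_slash_Gamma0 (N : ℕ) [NeZero N] (γ : SL(2, ℤ))
    (hγ : γ ∈ CongruenceSubgroup.Gamma0 N) :
    sepFun N ∣[(4 : ℤ)] (Matrix.SpecialLinearGroup.mapGL ℝ γ) = sepFun N := by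
  obtain ⟨γ', h⟩ := alpha_mul_Gamma0 N γ hγ
  rw [sepFun, ← SlashAction.slash_mul, h, SlashAction.slash_mul, E₄_slash_SL]

/-- The separating modular form `z ↦ N ^ 3 * E₄ (N z)` of weight `4` on `Γ₀(N)`. -/
noncomputable def sepForm (N : ℕ) [NeZero N] :
    ModularForm ((CongruenceSubgroup.Gamma0 N).map (Matrix.SpecialLinearGroup.mapGL ℝ)) 4 where
  toFun := sepFun N
  slash_action_eq' := by
    rintro g ⟨γ, hγ, rfl⟩
    exact sepFun_slash_Gamma0 N γ hγ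
  holo' := (ModularFormClass.holo E₄).slash 4 (alpha N)
  bdd_at_cusps' {c} hc := by
    rw [Subgroup.IsArithmetic.isCusp_iff_isCusp_SL2Z] at hc
    rw [OnePoint.isBoundedAt_iff_forall_SL2Z hc]
    intro γ _
    obtain ⟨t, n, c', _, _, _, _, hlim⟩ := tendsto_sepFun_slash N γ
    exact hlim.isBigO_one ℝ

@[simp] lemma coe_sepForm (N : ℕ) [NeZero N] : ⇑(sepForm N) = sepFun N := rfl

/-- The ring of holomorphic functions on `ℍ` has no zero divisors. -/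
lemma mdiff_mul_eq_zero {f g : ℍ → ℂ} (hf : MDiff f) (hg : MDiff g)
    (h : ∀ z, f z * g z = 0) : (∀ z, f z = 0) ∨ (∀ z, g z = 0) := by
  have hf' := (UpperHalfPlane.mdifferentiable_iff.mp hf).analyticOnNhd isOpen_upperHalfPlaneSet
  have hg' := (UpperHalfPlane.mdifferentiable_iff.mp hg).analyticOnNhd isOpen_upperHalfPlaneSet
  have hpre : IsPreconnected upperHalfPlaneSet := (convex_halfSpace_im_gt 0).isPreconnected
  rcases AnalyticOnNhd.eq_zero_or_eq_zero_of_mul_eq_zero hf' hg'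
    (fun z _ => by simp [h]) hpre with h1 | h1
  · left
    intro τ
    simpa [ofComplex_apply] using h1 τ τ.im_pos
  · right
    intro τ
    simpa [ofComplex_apply] using h1 τ τ.im_pos

/-- Finitely many nonzero holomorphic functions on `ℍ` have a common point of non-vanishing. -/
lemma exists_forall_ne_zero {ι : Type*} (s : Finset ι) (g : ι → ℍ → ℂ)
    (hg : ∀ i ∈ s, MDiff (g i)) (hne : ∀ i ∈ s, g i ≠ 0) : ∃ z, ∀ i ∈ s, g i z ≠ 0 := by
  classical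
  suffices H : MDiff (fun z => ∏ i ∈ s, g i z) ∧ ∃ z, ∏ i ∈ s, g i z ≠ 0 by
    obtain ⟨z, hz⟩ := H.2
    exact ⟨z, fun i hi => (Finset.prod_ne_zero_iff.mp hz) i hi⟩
  induction s using Finset.induction_on with
  | empty => exact ⟨by simpa using mdifferentiable_const, I, by simp⟩
  | insert a s ha ih =>
    have hga : MDiff (g a) := hg a (Finset.mem_insert_self a s)
    obtain ⟨hP, z₁, hz₁⟩ := ih (fun i hi => hg i (Finset.mem_insert_of_mem hi))
      (fun i hi => hne i (Finset.mem_insert_of_mem hi))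
    have hmd : MDiff (fun z => ∏ i ∈ insert a s, g i z) := by
      have : (fun z => ∏ i ∈ insert a s, g i z) = fun z => g a z * ∏ i ∈ s, g i z := by
        funext z; rw [Finset.prod_insert ha]
      rw [this]
      exact hga.mul hP
    refine ⟨hmd, ?_⟩
    by_contra hcon
    push Not at hcon
    have hzero : ∀ z, g a z * ∏ i ∈ s, g i z = 0 := fun z => by
      have := hcon z
      rwa [Finset.prod_insert ha] at this
    rcases mdiff_mul_eq_zero hga hP hzero with h1 | h1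
    · exact hne a (Finset.mem_insert_self a s) (funext h1)
    · exact hz₁ (h1 z₁)

section Quotient

variable (N : ℕ) [NeZero N]

/-- The image of `Γ₀(N)` in `GL(2, ℝ)`. -/
local notation "𝒢₀" =>
  Subgroup.map (Matrix.SpecialLinearGroup.mapGL ℝ) (CongruenceSubgroup.Gamma0 N)

/-- The `SL(2, ℤ)`-translates `quotientFunc (sepForm N) q` are pairwise distinct. -/
theorem quotientFunc_sepForm_injective :
    Function.Injective
      (fun q : ↥𝒮ℒ ⧸ (𝒢₀).subgroupOf 𝒮ℒ => SlashInvariantForm.quotientFunc (sepForm N) q) := by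
  intro q q'
  induction q using Quotient.inductionOn with | h g =>
  induction q' using Quotient.inductionOn with | h g' =>
  intro h
  simp only [SlashInvariantForm.quotientFunc_mk, coe_sepForm] at h
  -- `sepFun ∣ g⁻¹ = sepFun ∣ g'⁻¹`, so `sepFun ∣ (g⁻¹ * g') = sepFun`
  have h2 : sepFun N ∣[(4 : ℤ)] (g.val⁻¹ * g'.val) = sepFun N := by
    rw [SlashAction.slash_mul, h, ← SlashAction.slash_mul, inv_mul_cancel, SlashAction.slash_one]
  obtain ⟨γ, hγ⟩ : g.val⁻¹ * g'.val ∈ 𝒮ℒ := mul_mem (inv_mem g.2) g'.2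
  rw [← hγ] at h2
  have hmem := mem_Gamma0_of_sepFun_slash_eq N γ h2
  apply Quotient.sound
  refine QuotientGroup.leftRel_apply.mpr ?_
  rw [Subgroup.mem_subgroupOf]
  simp only [Subgroup.coe_mul, InvMemClass.coe_inv]
  rw [← hγ]
  exact ⟨γ, hmem, rfl⟩

lemma slash_pow_SL (f : ℍ → ℂ) (k : ℤ) (n : ℕ) (g : GL (Fin 2) ℝ) (hg : g ∈ 𝒮ℒ) :
    (f ^ n) ∣[(n : ℤ) * k] g = (f ∣[k] g) ^ n := by
  obtain ⟨γ, rfl⟩ := hg
  ext z
  change ((f ^ n) ∣[(n : ℤ) * k] γ) z = ((f ∣[k] γ) ^ n) z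
  rw [Pi.pow_apply, ModularForm.SL_slash_apply, ModularForm.SL_slash_apply, Pi.pow_apply, mul_pow,
    ← zpow_natCast (denom _ _ ^ (-k)), ← zpow_mul]
  congr 2
  ring

omit [NeZero N] in
lemma mdiff_quotientFunc {k : ℤ} (f : ModularForm 𝒢₀ k) (q : ↥𝒮ℒ ⧸ (𝒢₀).subgroupOf 𝒮ℒ) :
    MDiff (SlashInvariantForm.quotientFunc f q) := by
  induction q using Quotient.inductionOn with | h g =>
  rw [SlashInvariantForm.quotientFunc_mk]
  exact (ModularFormClass.holo f).slash k _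

lemma quotientFunc_pow {k : ℤ} (f : ModularForm 𝒢₀ k) (n : ℕ)
    (q : ↥𝒮ℒ ⧸ (𝒢₀).subgroupOf 𝒮ℒ) :
    SlashInvariantForm.quotientFunc (f.pow n) q = (SlashInvariantForm.quotientFunc f q) ^ n := by
  induction q using Quotient.inductionOn with | h g =>
  rw [SlashInvariantForm.quotientFunc_mk, SlashInvariantForm.quotientFunc_mk, ModularForm.coe_pow]
  exact slash_pow_SL _ k n _ (inv_mem g.2)

/-- There is a point of `ℍ` at which the `SL(2, ℤ)`-translates of `sepForm N` take pairwise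
distinct values. -/
theorem exists_injective_point :
    ∃ z₀ : ℍ, Function.Injective
      (fun q : ↥𝒮ℒ ⧸ (𝒢₀).subgroupOf 𝒮ℒ => SlashInvariantForm.quotientFunc (sepForm N) q z₀) := by
  classical
  let _ : Fintype (↥𝒮ℒ ⧸ (𝒢₀).subgroupOf 𝒮ℒ) := Fintype.ofFinite _
  obtain ⟨z₀, hz₀⟩ := exists_forall_ne_zero
    ((Finset.univ : Finset ((↥𝒮ℒ ⧸ (𝒢₀).subgroupOf 𝒮ℒ) × (↥𝒮ℒ ⧸ (𝒢₀).subgroupOf 𝒮ℒ))).filter
      (fun p => p.1 ≠ p.2))
    (fun p => SlashInvariantForm.quotientFunc (sepForm N) p.1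
      - SlashInvariantForm.quotientFunc (sepForm N) p.2)
    (fun p _ => (mdiff_quotientFunc N (sepForm N) p.1).sub (mdiff_quotientFunc N (sepForm N) p.2))
    (fun p hp => by
      have hne : p.1 ≠ p.2 := (Finset.mem_filter.mp hp).2
      intro h0
      exact hne (quotientFunc_sepForm_injective N (sub_eq_zero.mp h0)))
  refine ⟨z₀, fun q q' hqq' => ?_⟩
  by_contra hne
  have := hz₀ (q, q') (Finset.mem_filter.mpr ⟨Finset.mem_univ _, hne⟩)
  exact this (by simpa [sub_eq_zero] using hqq')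

/-- **Separation (Vandermonde form).** There is a point `z₀ ∈ ℍ` such that a vector `v` indexed
by the cosets is zero as soon as it is orthogonal to the value vectors of the forms
`(sepForm N) ^ n`, `n < μ`. -/
theorem exists_point_separating [Fintype (↥𝒮ℒ ⧸ (𝒢₀).subgroupOf 𝒮ℒ)] :
    ∃ z₀ : ℍ, ∀ v : (↥𝒮ℒ ⧸ (𝒢₀).subgroupOf 𝒮ℒ) → ℂ,
      (∀ n : ℕ, n < Fintype.card (↥𝒮ℒ ⧸ (𝒢₀).subgroupOf 𝒮ℒ) →
        ∑ q, v q * SlashInvariantForm.quotientFunc ((sepForm N).pow n) q z₀ = 0) → v = 0 := by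
  classical
  obtain ⟨z₀, hz₀⟩ := exists_injective_point N
  refine ⟨z₀, fun v hv => ?_⟩
  let e := Fintype.equivFin (↥𝒮ℒ ⧸ (𝒢₀).subgroupOf 𝒮ℒ)
  have hinj : Function.Injective
      (fun i => SlashInvariantForm.quotientFunc (sepForm N) (e.symm i) z₀) :=
    hz₀.comp e.symm.injective
  have hv' : ∀ i : Fin (Fintype.card (↥𝒮ℒ ⧸ (𝒢₀).subgroupOf 𝒮ℒ)),
      ∑ j, (v ∘ e.symm) j * (SlashInvariantForm.quotientFunc (sepForm N) (e.symm j) z₀) ^ (i : ℕ)
        = 0 := by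
    intro i
    have := hv i i.2
    rw [← Equiv.sum_comp e.symm] at this
    simpa [quotientFunc_pow] using this
  have h0 := Matrix.eq_zero_of_forall_pow_sum_mul_pow_eq_zero hinj hv'
  funext q
  have := congr_fun h0 (e q)
  simpa using this

/-- **Separation (linear independence form).** There is a point `z₀ ∈ ℍ` at which the value
vectors `q ↦ ((sepForm N) ^ n)_q (z₀)`, `n < μ`, are linearly independent in `ℂ^𝒬` (hence a
basis, as there are `μ = card 𝒬` of them). -/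
theorem exists_point_linearIndependent [Fintype (↥𝒮ℒ ⧸ (𝒢₀).subgroupOf 𝒮ℒ)] :
    ∃ z₀ : ℍ, LinearIndependent ℂ
      (fun n : Fin (Fintype.card (↥𝒮ℒ ⧸ (𝒢₀).subgroupOf 𝒮ℒ)) =>
        fun q : ↥𝒮ℒ ⧸ (𝒢₀).subgroupOf 𝒮ℒ =>
          SlashInvariantForm.quotientFunc ((sepForm N).pow n) q z₀) := by
  classical
  obtain ⟨z₀, hz₀⟩ := exists_injective_point N
  refine ⟨z₀, ?_⟩
  rw [Fintype.linearIndependent_iff]
  intro g hg
  let e := Fintype.equivFin (↥𝒮ℒ ⧸ (𝒢₀).subgroupOf 𝒮ℒ)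
  have hinj : Function.Injective
      (fun i => SlashInvariantForm.quotientFunc (sepForm N) (e.symm i) z₀) :=
    hz₀.comp e.symm.injective
  have h0 := Matrix.eq_zero_of_forall_index_sum_mul_pow_eq_zero (v := g) hinj (fun j => by
    have := congr_fun hg (e.symm j)
    simpa [quotientFunc_pow] using this)
  exact fun i => congr_fun h0 i

end Quotient

end Fermat.Agent.S20.helper200
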