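/-
S20, helper1040_Spec glue item G8 (seat helper116):
`Stmt_Sep (Gamma0 N)` — a "good tuple" of forms indexed by the cosets whose translate matrix is
invertible at some point — from the separating form `N^3 E₄(N z)` of `helper200_Separation`
(Vandermonde argument).  Also the general statement for any `Γ` with a form whose translates
are pairwise distinct.
-/
import Fermat.Agent.S20.helper1040_API
import Fermat.Agent.S20.helper200_Separation

set_option autoImplicit false

open UpperHalfPlane ModularForm Matrix.SpecialLinearGroup Filter Complex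
open scoped MatrixGroups ModularForm Manifold Topology Real

namespace Fermat.Agent.S20.helper116

open Fermat.Agent.S20.helper1040

variable {Γ : Subgroup SL(2, ℤ)}

/-- Powers of a modular form are modular forms (weights multiply). -/
theorem isMF_pow {K : ℤ} {h : ℍ → ℂ} (hh : IsMF Γ K h) (n : ℕ) : IsMF Γ ((n : ℤ) * K) (h ^ n) := by
  induction n with
  | zero =>
    have h1 : (h ^ 0 : ℍ → ℂ) = Function.const ℍ 1 := by
      funext z; simp
    rw [h1]
    exact (isMF_const Γ 1).congr_weight (by simp)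
  | succ n ih =>
    rw [pow_succ]
    exact (ih.mul hh).congr_weight (by push_cast; ring)

theorem tr_congr_weight {k k' : ℤ} (hk : k = k') (f : ℍ → ℂ) (x : SL(2, ℤ) ⧸ Γ) :
    tr Γ k f x = tr Γ k' f x := by
  subst hk; rfl

/-- Translates of a power are powers of the translates. -/
theorem tr_pow (Γ : Subgroup SL(2, ℤ)) (K : ℤ) (h : ℍ → ℂ) (n : ℕ) (x : SL(2, ℤ) ⧸ Γ) :
    tr Γ ((n : ℤ) * K) (h ^ n) x = (tr Γ K h x) ^ n := by
  induction n with
  | zero =>
    have h1 : (h ^ 0 : ℍ → ℂ) = Function.const ℍ 1 := by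
      funext z; simp
    rw [h1, pow_zero, tr_congr_weight (show ((0 : ℕ) : ℤ) * K = 0 by simp)]
    unfold tr
    rw [is_invariant_const]
    rfl
  | succ n ih =>
    rw [pow_succ, pow_succ,
      tr_congr_weight (show ((n + 1 : ℕ) : ℤ) * K = (n : ℤ) * K + K by push_cast; ring),
      tr_mul, ih]

/-- **Vandermonde separation.** A modular form of level `Γ` whose translates along the cosets
are pairwise distinct yields a good tuple. -/
theorem stmt_Sep_of_injective (Γ : Subgroup SL(2, ℤ)) [Fintype (SL(2, ℤ) ⧸ Γ)]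
    [DecidableEq (SL(2, ℤ) ⧸ Γ)] (K : ℤ) (h : ℍ → ℂ) (hh : IsMF Γ K h)
    (hinj : Function.Injective (tr Γ K h)) : Stmt_Sep Γ := by
  classical
  -- a point where the translates take pairwise distinct values
  obtain ⟨z, hz⟩ := Fermat.Agent.S20.helper200.exists_forall_ne_zero
    ((Finset.univ : Finset ((SL(2, ℤ) ⧸ Γ) × (SL(2, ℤ) ⧸ Γ))).filter (fun p => p.1 ≠ p.2))
    (fun p => tr Γ K h p.1 - tr Γ K h p.2)
    (fun p _ => (hh.tr_holo p.1).sub (hh.tr_holo p.2))
    (fun p hp => by
      have hne : p.1 ≠ p.2 := (Finset.mem_filter.mp hp).2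
      intro h0
      exact hne (hinj (sub_eq_zero.mp h0)))
  have hvinj : Function.Injective (fun x : SL(2, ℤ) ⧸ Γ => tr Γ K h x z) := by
    intro x y hxy
    by_contra hne
    have := hz (x, y) (Finset.mem_filter.mpr ⟨Finset.mem_univ _, hne⟩)
    exact this (by simpa [sub_eq_zero] using hxy)
  let e := Fintype.equivFin (SL(2, ℤ) ⧸ Γ)
  refine ⟨fun y => ((e y : ℕ) : ℤ) * K, fun y => h ^ (e y : ℕ), fun y => isMF_pow hh _, z, ?_⟩
  have hM : (Matrix.of fun x y => tr Γ (((e y : ℕ) : ℤ) * K) (h ^ (e y : ℕ)) x z :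
        Matrix (SL(2, ℤ) ⧸ Γ) (SL(2, ℤ) ⧸ Γ) ℂ)
      = (Matrix.vandermonde (fun i => tr Γ K h (e.symm i) z)).submatrix e e := by
    ext x y
    simp [Matrix.vandermonde_apply, tr_pow]
  rw [hM, Matrix.det_submatrix_equiv_self, Matrix.det_vandermonde_ne_zero_iff]
  exact hvinj.comp e.symm.injective

/-- The separating form `z ↦ N^3 E₄(N z)` is a modular form of weight `4` on `Γ₀(N)` in the
sense of the Spec. -/
theorem isMF_sepFun (N : ℕ) [NeZero N] :
    IsMF (CongruenceSubgroup.Gamma0 N) 4 (Fermat.Agent.S20.helper200.sepFun N) := by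
  have := isMF_of_modularForm (Γ := CongruenceSubgroup.Gamma0 N)
    (Fermat.Agent.S20.helper200.sepForm N)
  simpa using this

/-- The translates of the separating form along `SL(2,ℤ) ⧸ Γ₀(N)` are pairwise distinct. -/
theorem tr_sepFun_injective (N : ℕ) [NeZero N] :
    Function.Injective
      (tr (CongruenceSubgroup.Gamma0 N) 4 (Fermat.Agent.S20.helper200.sepFun N)) := by
  have hinv := (isMF_sepFun N).inv
  intro x y
  induction x using QuotientGroup.induction_on with
  | H g =>
  induction y using QuotientGroup.induction_on with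
  | H g' =>
  intro hxy
  rw [tr_mk hinv, tr_mk hinv] at hxy
  have h2 : Fermat.Agent.S20.helper200.sepFun N ∣[(4 : ℤ)] (g⁻¹ * g')
      = Fermat.Agent.S20.helper200.sepFun N := by
    rw [SlashAction.slash_mul, hxy, ← SlashAction.slash_mul, inv_mul_cancel,
      SlashAction.slash_one]
  have hmem := Fermat.Agent.S20.helper200.mem_Gamma0_of_sepFun_slash_eq N (g⁻¹ * g') h2
  exact QuotientGroup.eq.mpr hmem

/-- **G8.** `Stmt_Sep (Gamma0 N)`. -/
theorem stmt_Sep (N : ℕ) [NeZero N] [Fintype (SL(2, ℤ) ⧸ CongruenceSubgroup.Gamma0 N)]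
    [DecidableEq (SL(2, ℤ) ⧸ CongruenceSubgroup.Gamma0 N)] :
    Stmt_Sep (CongruenceSubgroup.Gamma0 N) :=
  stmt_Sep_of_injective _ 4 _ (isMF_sepFun N) (tr_sepFun_injective N)

end Fermat.Agent.S20.helper116
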