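/-
S20 helper file (seat helper1177): block discrete Fourier transform along the orbits of a
group element `g` acting on a finite coset space `G ⧸ H`.

Main result `exists_orbit_dft`: there are matrices `U`, `V` indexed by `G ⧸ H` and exponents
`s : G ⧸ H → ℝ` with `V * U = 1`, `0 ≤ s < 1`, the shift relation
`V x (g • x') = exp (2 π i s x) * V x x'` and `2 * ∑ s = card (G ⧸ H) - #orbits of g`.
-/
import Mathlib

set_option autoImplicit false

open Complex MulAction Subgroup Function
open scoped Real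

namespace Fermat.Agent.S20.helper1177

noncomputable section

/-- Sum of the canonical representatives of `ZMod n`. -/
theorem two_mul_sum_zmod_val (n : ℕ) [NeZero n] :
    2 * ∑ k : ZMod n, (k.val : ℝ) = (n : ℝ) * ((n : ℝ) - 1) := by
  cases n with
  | zero => exact absurd rfl (NeZero.ne 0)
  | succ m =>
    have h1 : ∑ k : ZMod (m + 1), (k.val : ℝ) = ∑ i ∈ Finset.range (m + 1), (i : ℝ) :=
      Fin.sum_univ_eq_sum_range (fun i => (i : ℝ)) (m + 1)
    rw [h1]
    have h2 := Finset.sum_range_id_mul_two (m + 1)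
    have h3 : ((∑ i ∈ Finset.range (m + 1), i : ℕ) : ℝ) * 2 = ((m + 1 : ℕ) : ℝ) * (m : ℝ) := by
      have := congrArg (fun t : ℕ => (t : ℝ)) h2
      simpa using this
    push_cast at h3 ⊢
    linarith

section OrbitDFT

variable {G : Type*} [Group G] (H : Subgroup G) (g : G)

/-- The sigma type of orbit coordinates: an orbit `q` of `g` on `G ⧸ H` and a position on it. -/
abbrev OrbCoord : Type _ :=
  Σ q : orbitRel.Quotient (zpowers g) (G ⧸ H), ZMod (minimalPeriod (g • ·) q.out)

/-- A `Fintype` structure on the orbit space (used locally). -/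
@[instance_reducible] def fintypeOrb [Finite (G ⧸ H)] : Fintype (orbitRel.Quotient (zpowers g) (G ⧸ H)) :=
  Fintype.ofFinite _

attribute [local instance] fintypeOrb

open Classical in
/-- The block inverse-DFT matrix in orbit coordinates. -/
def dftV [Finite (G ⧸ H)] : Matrix (OrbCoord H g) (OrbCoord H g) ℂ := fun p p' =>
  if p.1 = p'.1 then
    ((minimalPeriod (g • ·) p.1.out : ℕ) : ℂ)⁻¹ *
      ZMod.stdAddChar (N := minimalPeriod (g • ·) p.1.out)
        ((p.2.val : ZMod (minimalPeriod (g • ·) p.1.out)) * (p'.2.val : ZMod _))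
  else 0

open Classical in
/-- The block DFT matrix in orbit coordinates. -/
def dftU [Finite (G ⧸ H)] : Matrix (OrbCoord H g) (OrbCoord H g) ℂ := fun p' p =>
  if p.1 = p'.1 then
    ZMod.stdAddChar (N := minimalPeriod (g • ·) p.1.out)
      (-((p.2.val : ZMod (minimalPeriod (g • ·) p.1.out)) * (p'.2.val : ZMod _)))
  else 0

/-- The exponent attached to an orbit coordinate. -/
def dftS (p : OrbCoord H g) : ℝ :=
  (p.2.val : ℝ) / (minimalPeriod (g • ·) p.1.out : ℝ)

theorem dftV_mul_dftU [Finite (G ⧸ H)] [DecidableEq (OrbCoord H g)] :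
    dftV H g * dftU H g = 1 := by
  classical
  ext ⟨q, k⟩ ⟨q'', k''⟩
  rw [Matrix.mul_apply, Fintype.sum_sigma, Finset.sum_eq_single q]
  · by_cases hq : q'' = q
    · subst hq
      have key : ∀ k' : ZMod (minimalPeriod (g • ·) q''.out),
          dftV H g ⟨q'', k⟩ ⟨q'', k'⟩ * dftU H g ⟨q'', k'⟩ ⟨q'', k''⟩ =
            ((minimalPeriod (g • ·) q''.out : ℕ) : ℂ)⁻¹ * ZMod.stdAddChar (k' * (k - k'')) := by
        intro k'
        simp only [dftV, dftU, ↓reduceIte, ZMod.natCast_zmod_val]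
        rw [mul_assoc, ← AddChar.map_add_eq_mul]
        congr 2
        ring
      rw [Finset.sum_congr rfl (fun k' _ => key k'), ← Finset.mul_sum,
        AddChar.sum_mulShift _ (ZMod.isPrimitive_stdAddChar _), Matrix.one_apply]
      by_cases hk : k = k''
      · subst hk
        simp only [sub_self, ↓reduceIte, ZMod.card]
        have : ((minimalPeriod (g • ·) q''.out : ℕ) : ℂ) ≠ 0 :=
          Nat.cast_ne_zero.mpr (NeZero.ne _)
        field_simp
      · have h1 : k - k'' ≠ 0 := sub_ne_zero.mpr hk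
        have h2 : (⟨q'', k⟩ : OrbCoord H g) ≠ ⟨q'', k''⟩ := by
          intro h
          exact hk (eq_of_heq (Sigma.mk.inj h).2)
        simp [h1, h2]
    · have h2 : (⟨q, k⟩ : OrbCoord H g) ≠ ⟨q'', k''⟩ := by
        intro h
        exact hq (Sigma.mk.inj h).1.symm
      rw [Matrix.one_apply, if_neg h2]
      apply Finset.sum_eq_zero
      intro k' _
      simp [dftU, hq]
  · intro q' _ hq'
    apply Finset.sum_eq_zero
    intro k' _
    simp [dftV, Ne.symm hq']
  · simp

theorem shift_orbCoord (q : orbitRel.Quotient (zpowers g) (G ⧸ H))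
    (k : ZMod (minimalPeriod (g • ·) q.out)) :
    quotientEquivSigmaZMod H g (g • (quotientEquivSigmaZMod H g).symm ⟨q, k⟩) = ⟨q, k + 1⟩ := by
  rw [quotientEquivSigmaZMod_symm_apply, ← mul_smul, ← zpow_one_add,
    quotientEquivSigmaZMod_apply]
  congr 1
  push_cast
  exact add_comm _ _

theorem stdAddChar_eq_cexp (n : ℕ) [NeZero n] (k : ZMod n) :
    ZMod.stdAddChar k = cexp (2 * π * I * (((k.val : ℝ) / (n : ℝ) : ℝ) : ℂ)) := by
  have h := ZMod.stdAddChar_coe (N := n) (k.val : ℤ)
  rw [Int.cast_natCast, ZMod.natCast_zmod_val] at h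
  rw [h]
  congr 1
  push_cast
  ring

theorem dftV_shift [Finite (G ⧸ H)] (p : OrbCoord H g)
    (q' : orbitRel.Quotient (zpowers g) (G ⧸ H)) (k' : ZMod (minimalPeriod (g • ·) q'.out)) :
    dftV H g p ⟨q', k' + 1⟩ = cexp (2 * π * I * (dftS H g p : ℂ)) * dftV H g p ⟨q', k'⟩ := by
  obtain ⟨q, k⟩ := p
  by_cases hq : q = q'
  · subst hq
    simp only [dftV, dftS, ↓reduceIte, ZMod.natCast_zmod_val]
    rw [← stdAddChar_eq_cexp, mul_add, mul_one, AddChar.map_add_eq_mul]
    ring
  · simp [dftV, hq]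

theorem two_mul_sum_dftS [Finite (G ⧸ H)] :
    2 * ∑ p : OrbCoord H g, dftS H g p =
      (Fintype.card (OrbCoord H g) : ℝ) -
        (Fintype.card (orbitRel.Quotient (zpowers g) (G ⧸ H)) : ℝ) := by
  rw [Fintype.sum_sigma, Fintype.card_sigma, Finset.mul_sum]
  simp only [ZMod.card]
  have h1 : ∀ q : orbitRel.Quotient (zpowers g) (G ⧸ H),
      2 * ∑ k : ZMod (minimalPeriod (g • ·) q.out), dftS H g ⟨q, k⟩ =
        ((minimalPeriod (g • ·) q.out : ℕ) : ℝ) - 1 := by
    intro q
    have hn : ((minimalPeriod (g • ·) q.out : ℕ) : ℝ) ≠ 0 := Nat.cast_ne_zero.mpr (NeZero.ne _)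
    simp only [dftS]
    rw [← Finset.sum_div, ← mul_div_assoc, two_mul_sum_zmod_val]
    field_simp
  rw [Finset.sum_congr rfl (fun q _ => h1 q)]
  push_cast
  rw [Finset.sum_sub_distrib]
  simp

/-- **Block DFT along the orbits of `g` on `G ⧸ H`.** -/
theorem exists_orbit_dft [Fintype (G ⧸ H)] [DecidableEq (G ⧸ H)] :
    ∃ (U V : Matrix (G ⧸ H) (G ⧸ H) ℂ) (s : G ⧸ H → ℝ),
      V * U = 1 ∧ (∀ x, 0 ≤ s x ∧ s x < 1) ∧
      (∀ x x', V x (g • x') = cexp (2 * π * I * (s x : ℂ)) * V x x') ∧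
      2 * ∑ x, s x = (Nat.card (G ⧸ H) : ℝ) -
        (Nat.card (orbitRel.Quotient (zpowers g) (G ⧸ H)) : ℝ) := by
  classical
  refine ⟨(dftU H g).submatrix (quotientEquivSigmaZMod H g) (quotientEquivSigmaZMod H g),
    (dftV H g).submatrix (quotientEquivSigmaZMod H g) (quotientEquivSigmaZMod H g),
    fun x => dftS H g (quotientEquivSigmaZMod H g x), ?_, ?_, ?_, ?_⟩
  · rw [Matrix.submatrix_mul_equiv, dftV_mul_dftU, Matrix.submatrix_one_equiv]
  · intro x
    have hn : (0 : ℝ) < ((minimalPeriod (g • ·) (quotientEquivSigmaZMod H g x).1.out : ℕ) : ℝ) :=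
      Nat.cast_pos.mpr (Nat.pos_of_ne_zero (NeZero.ne _))
    refine ⟨div_nonneg (Nat.cast_nonneg _) hn.le, ?_⟩
    show ((quotientEquivSigmaZMod H g x).2.val : ℝ) / _ < 1
    rw [div_lt_one hn]
    exact_mod_cast ZMod.val_lt _
  · intro x x'
    obtain ⟨⟨q', k'⟩, rfl⟩ := (quotientEquivSigmaZMod H g).symm.surjective x'
    simp only [Matrix.submatrix_apply]
    rw [shift_orbCoord, Equiv.apply_symm_apply]
    exact dftV_shift H g _ q' k'
  · rw [Fintype.sum_equiv (quotientEquivSigmaZMod H g)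
      (fun x => dftS H g (quotientEquivSigmaZMod H g x)) (dftS H g) (fun _ => rfl),
      two_mul_sum_dftS, Nat.card_eq_fintype_card, Nat.card_eq_fintype_card,
      Fintype.card_congr (quotientEquivSigmaZMod H g)]

end OrbitDFT

end

end Fermat.Agent.S20.helper1177
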