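/-
S20 helper file (seat helper1177): proof of `helper1040.Stmt_CuspFact Γ` for every subgroup
`Γ ≤ SL(2,ℤ)` of finite index (exact shape of `helper1040_Spec`).

For a coset-indexed free basis `(G, κ)` with even weights there are cusp data: the block DFT
matrix `U` along the `T`-orbits on `SL(2,ℤ) ⧸ Γ`, exponents `s x ∈ [0,1)` with
`2 ∑ s = index - #cusps`, and an INVERTIBLE leading matrix `Λ` with
`exp (-2 π i s_x z) (U⁻¹ Φ(z))_{x,y} → Λ_{x,y}`.

Reusable pieces: `quasiPeriodic_limit` (limit of a twisted-periodic holomorphic function at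
`i∞`), `exists_eq_discriminant_mul` (division by `Δ` when all leading coefficients vanish),
`tr_slash`, `tr_vadd`, `tr_mul_levelOne`, closure lemmas for `IsMF`.
-/
import Mathlib
import Fermat.Agent.S20.helper1040_Spec
import Fermat.Agent.S20.helper1177_OrbitDFT

set_option autoImplicit false

open UpperHalfPlane hiding I
open ModularForm Matrix.SpecialLinearGroup Filter Complex Function
open scoped MatrixGroups ModularForm Manifold Topology Real

open Fermat.Agent.S20.helper1040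

namespace Fermat.Agent.S20.helper1177

/-! ### Part B: limits of quasi-periodic holomorphic functions at `i∞` -/

/-- A function on `ℍ` invariant under `z ↦ z + 1` gives a `1`-periodic function on `ℂ`. -/
theorem periodic_comp_ofComplex_of_vadd {F : ℍ → ℂ} (hF : ∀ z : ℍ, F ((1 : ℝ) +ᵥ z) = F z) :
    Periodic (F ∘ ofComplex) ((1 : ℝ) : ℂ) := by
  intro w
  by_cases hw : 0 < im w
  · have h1 : 0 < im (w + ((1 : ℝ) : ℂ)) := by simpa using hw
    simp only [comp_apply, ofComplex_apply_of_im_pos h1, ofComplex_apply_of_im_pos hw]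
    rw [← hF ⟨w, hw⟩]
    congr 1
    ext
    simp [add_comm]
  · push Not at hw
    have h1 : im (w + ((1 : ℝ) : ℂ)) ≤ 0 := by simpa using hw
    show F (ofComplex (w + ((1 : ℝ) : ℂ))) = F (ofComplex w)
    rw [ofComplex_apply_of_im_nonpos h1, ofComplex_apply_of_im_nonpos hw]

/-- The exponential `z ↦ exp (a z)` is holomorphic on `ℍ`. -/
theorem mdifferentiable_cexp_mul (a : ℂ) :
    MDifferentiable 𝓘(ℂ) 𝓘(ℂ) (fun z : ℍ => cexp (a * (z : ℂ))) := by
  rw [UpperHalfPlane.mdifferentiable_iff]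
  refine DifferentiableOn.congr (f := fun w : ℂ => cexp (a * w)) ?_ ?_
  · exact (Differentiable.cexp (differentiable_const a |>.mul differentiable_id)).differentiableOn
  · intro z hz
    simp [ofComplex_apply_of_im_pos hz]

theorem norm_cexp_mul_I_mul (a : ℝ) (z : ℍ) :
    ‖cexp (2 * (π : ℂ) * I * (a : ℂ) * (z : ℂ))‖ = Real.exp (-2 * π * a * z.im) := by
  rw [Complex.norm_exp]
  congr 1
  simp

theorem tendsto_exp_neg_im_atImInfty {c : ℝ} (hc : 0 < c) :
    Tendsto (fun z : ℍ => Real.exp (-c * z.im)) atImInfty (𝓝 0) := by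
  have h1 : Tendsto (fun z : ℍ => z.im) atImInfty atTop := tendsto_comap
  have h2 : Tendsto (fun t : ℝ => Real.exp (-c * t)) atTop (𝓝 0) := by
    have : Tendsto (fun t : ℝ => -c * t) atTop atBot :=
      tendsto_id.const_mul_atTop_of_neg (by linarith)
    exact Real.tendsto_exp_atBot.comp this
  exact h2.comp h1

/-- **Quasi-periodic limit lemma.** Let `h` be holomorphic on `ℍ`, bounded at `i∞`, with
`h (z + 1) = exp (2 π i s) h z` for some `0 ≤ s < 1`.  Then `exp (-2 π i s z) h z` has a limit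
`ℓ` at `i∞`; and if `ℓ = 0` then even `exp (-2 π i z) h z` is bounded at `i∞`. -/
theorem quasiPeriodic_limit {h : ℍ → ℂ} {s : ℝ} (hs0 : 0 ≤ s) (hs1 : s < 1)
    (hhol : MDifferentiable 𝓘(ℂ) 𝓘(ℂ) h) (hbdd : IsBoundedAtImInfty h)
    (hper : ∀ z : ℍ, h ((1 : ℝ) +ᵥ z) = cexp (2 * (π : ℂ) * Complex.I * (s : ℂ)) * h z) :
    ∃ ℓ : ℂ,
      Tendsto (fun z : ℍ => cexp (-(2 * (π : ℂ) * Complex.I * (s : ℂ) * (z : ℂ))) * h z)
        atImInfty (𝓝 ℓ) ∧
      (ℓ = 0 → IsBoundedAtImInfty (fun z : ℍ => cexp (-(2 * (π : ℂ) * Complex.I * (z : ℂ))) * h z)) := by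
  -- the twisted function `g`
  set g : ℍ → ℂ := fun z => cexp (-(2 * (π : ℂ) * Complex.I * (s : ℂ) * (z : ℂ))) * h z with hg
  have hg_hol : MDifferentiable 𝓘(ℂ) 𝓘(ℂ) g := by
    have h1 := mdifferentiable_cexp_mul (-(2 * (π : ℂ) * Complex.I * (s : ℂ)))
    have h2 : (fun z : ℍ => cexp (-(2 * (π : ℂ) * Complex.I * (s : ℂ)) * (z : ℂ))) =
        fun z : ℍ => cexp (-(2 * (π : ℂ) * Complex.I * (s : ℂ) * (z : ℂ))) := by
      funext z; congr 1; ring
    rw [h2] at h1
    exact h1.mul hhol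
  have hg_per : ∀ z : ℍ, g ((1 : ℝ) +ᵥ z) = g z := by
    intro z
    simp only [hg, hper, UpperHalfPlane.coe_vadd]
    rw [← mul_assoc, ← Complex.exp_add]
    congr 2
    push_cast
    ring
  have hg_perC := periodic_comp_ofComplex_of_vadd hg_per
  -- the auxiliary function `F = q * g`
  set F : ℍ → ℂ := fun z => cexp (2 * (π : ℂ) * Complex.I * (z : ℂ)) * g z with hF
  have hF_hol : MDifferentiable 𝓘(ℂ) 𝓘(ℂ) F :=
    (mdifferentiable_cexp_mul (2 * (π : ℂ) * Complex.I)).mul hg_hol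
  have hF_per : ∀ z : ℍ, F ((1 : ℝ) +ᵥ z) = F z := by
    intro z
    simp only [hF, hg_per, UpperHalfPlane.coe_vadd]
    congr 1
    have : 2 * (π : ℂ) * Complex.I * (((1 : ℝ) : ℂ) + (z : ℂ)) =
        2 * (π : ℂ) * Complex.I * (z : ℂ) + 2 * π * Complex.I := by push_cast; ring
    rw [this, Complex.exp_add, Complex.exp_two_pi_mul_I, mul_one]
  have hF_perC := periodic_comp_ofComplex_of_vadd hF_per
  have hF_eq : ∀ z : ℍ, F z = cexp (2 * (π : ℂ) * Complex.I * ((1 - s : ℝ) : ℂ) * (z : ℂ)) * h z := by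
    intro z
    simp only [hF, hg]
    rw [← mul_assoc, ← Complex.exp_add]
    congr 2
    push_cast
    ring
  have hF_zero : IsZeroAtImInfty F := by
    have h1 : Tendsto (fun z : ℍ => cexp (2 * (π : ℂ) * Complex.I * ((1 - s : ℝ) : ℂ) * (z : ℂ)))
        atImInfty (𝓝 0) := by
      rw [tendsto_zero_iff_norm_tendsto_zero]
      have h2 := tendsto_exp_neg_im_atImInfty (c := 2 * π * (1 - s)) (by positivity [sub_pos.mpr hs1])
      refine h2.congr fun z => ?_
      rw [norm_cexp_mul_I_mul]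
      congr 1
      ring
    have h3 : IsBoundedUnder (· ≤ ·) atImInfty (norm ∘ h) := by
      have : h =O[atImInfty] (fun _ : ℍ => (1 : ℝ)) := hbdd
      exact this.isBoundedUnder_le
    have h4 := h1.zero_mul_isBoundedUnder_le h3
    exact h4.congr fun z => (hF_eq z).symm
  have hF_decay := IsZeroAtImInfty.exp_decay_atImInfty hF_zero (h := 1) one_pos hF_perC hF_hol
    hF_zero.isBoundedAtImInfty
  have hg_eq : ∀ z : ℍ, g z = cexp (-(2 * (π : ℂ) * Complex.I * (z : ℂ))) * F z := by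
    intro z
    simp only [hF]
    rw [← mul_assoc, ← Complex.exp_add, neg_add_cancel, Complex.exp_zero, one_mul]
  have hnorm_neg : ∀ z : ℍ, ‖cexp (-(2 * (π : ℂ) * Complex.I * (z : ℂ)))‖ = Real.exp (2 * π * z.im) := by
    intro z
    have := norm_cexp_mul_I_mul (-1) z
    have h2 : 2 * (π : ℂ) * Complex.I * ((-1 : ℝ) : ℂ) * (z : ℂ) = -(2 * (π : ℂ) * Complex.I * (z : ℂ)) := by
      push_cast; ring
    rw [h2] at this
    rw [this]
    congr 1
    ring
  have hg_bdd : IsBoundedAtImInfty g := by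
    obtain ⟨C, hC⟩ := hF_decay.bound
    refine Asymptotics.IsBigO.of_bound C (hC.mono fun z hz => ?_)
    rw [hg_eq z, norm_mul, hnorm_neg]
    simp only [Pi.one_apply, norm_one, mul_one]
    rw [Real.norm_of_nonneg (Real.exp_pos _).le] at hz
    calc Real.exp (2 * π * z.im) * ‖F z‖ ≤ Real.exp (2 * π * z.im) * (C * Real.exp (-2 * π * z.im / 1)) :=
          mul_le_mul_of_nonneg_left hz (Real.exp_pos _).le
      _ = C * (Real.exp (2 * π * z.im) * Real.exp (-2 * π * z.im / 1)) := by ring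
      _ = C := by
          rw [← Real.exp_add]
          have : 2 * π * z.im + -2 * π * z.im / 1 = 0 := by ring
          rw [this, Real.exp_zero, mul_one]
  have hexp0 : Tendsto (fun z : ℍ => Real.exp (-2 * π * z.im / 1)) atImInfty (𝓝 0) := by
    have h2 := tendsto_exp_neg_im_atImInfty (c := 2 * π) (by positivity)
    refine h2.congr fun z => ?_
    congr 1
    ring
  have hg_lim : Tendsto g atImInfty (𝓝 (valueAtInfty g)) := by
    have h1 := UpperHalfPlane.exp_decay_sub_atImInfty (h := 1) one_pos hg_perC hg_hol hg_bdd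
    have h2 := h1.trans_tendsto hexp0
    have h3 := h2.add_const (valueAtInfty g)
    simpa using h3
  refine ⟨valueAtInfty g, hg_lim, fun h0 => ?_⟩
  have hg_zero : IsZeroAtImInfty g := by
    rw [h0] at hg_lim
    exact hg_lim
  have hg_decay := IsZeroAtImInfty.exp_decay_atImInfty hg_zero (h := 1) one_pos hg_perC hg_hol hg_bdd
  obtain ⟨C, hC⟩ := hg_decay.bound
  refine Asymptotics.IsBigO.of_bound C (hC.mono fun z hz => ?_)
  have h_eq : cexp (-(2 * (π : ℂ) * Complex.I * (z : ℂ))) * h z =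
      cexp (-(2 * (π : ℂ) * Complex.I * (z : ℂ))) * (cexp (2 * (π : ℂ) * Complex.I * (s : ℂ) * (z : ℂ)) * g z) := by
    simp only [hg]
    rw [← mul_assoc (cexp (2 * (π : ℂ) * Complex.I * (s : ℂ) * (z : ℂ))), ← Complex.exp_add, add_neg_cancel,
      Complex.exp_zero, one_mul]
  rw [h_eq, norm_mul, norm_mul, hnorm_neg, norm_cexp_mul_I_mul]
  simp only [Pi.one_apply, norm_one, mul_one]
  rw [Real.norm_of_nonneg (Real.exp_pos _).le] at hz
  have hle1 : Real.exp (-2 * π * s * z.im) ≤ 1 := by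
    rw [Real.exp_le_one_iff]
    have := z.im_pos
    have : 0 ≤ 2 * π * s * z.im := by positivity
    linarith
  calc Real.exp (2 * π * z.im) * (Real.exp (-2 * π * s * z.im) * ‖g z‖)
      ≤ Real.exp (2 * π * z.im) * (1 * (C * Real.exp (-2 * π * z.im / 1))) := by
        apply mul_le_mul_of_nonneg_left _ (Real.exp_pos _).le
        exact mul_le_mul hle1 hz (norm_nonneg _) zero_le_one
    _ = C * (Real.exp (2 * π * z.im) * Real.exp (-2 * π * z.im / 1)) := by ring
    _ = C := by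
        rw [← Real.exp_add]
        have : 2 * π * z.im + -2 * π * z.im / 1 = 0 := by ring
        rw [this, Real.exp_zero, mul_one]

/-! ### Part C: translates along the cosets -/

set_option backward.isDefEq.respectTransparency false in
theorem denom_T (z : ℍ) : denom ModularGroup.T z = 1 := by
  simp [ModularGroup.T, ModularGroup.denom_apply]

variable {Γ : Subgroup SL(2, ℤ)}

/-- The translate attached to the coset of `g` is `f ∣[k] g⁻¹`. -/
theorem tr_mk {k : ℤ} {f : ℍ → ℂ} (hinv : ∀ γ ∈ Γ, f ∣[k] γ = f) (g : SL(2, ℤ)) :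
    tr Γ k f (QuotientGroup.mk g) = f ∣[k] g⁻¹ := by
  obtain ⟨δ, hδ⟩ := QuotientGroup.mk_out_eq_mul Γ g
  unfold tr
  rw [hδ, mul_inv_rev, SlashAction.slash_mul, hinv _ (Γ.inv_mem δ.2)]

theorem tr_slash {k : ℤ} {f : ℍ → ℂ} (hinv : ∀ γ ∈ Γ, f ∣[k] γ = f) (x : SL(2, ℤ) ⧸ Γ)
    (γ : SL(2, ℤ)) : tr Γ k f x ∣[k] γ = tr Γ k f (γ⁻¹ • x) := by
  obtain ⟨g, rfl⟩ := QuotientGroup.mk_surjective x
  rw [MulAction.Quotient.smul_mk, tr_mk hinv, tr_mk hinv, ← SlashAction.slash_mul]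
  congr 1
  simp [mul_inv_rev]

theorem slash_eq_tr {k : ℤ} {f : ℍ → ℂ} (hinv : ∀ γ ∈ Γ, f ∣[k] γ = f) (γ : SL(2, ℤ)) :
    f ∣[k] γ = tr Γ k f (QuotientGroup.mk γ⁻¹) := by
  rw [tr_mk hinv, inv_inv]

theorem tr_vadd {k : ℤ} {f : ℍ → ℂ} (hinv : ∀ γ ∈ Γ, f ∣[k] γ = f) (x : SL(2, ℤ) ⧸ Γ) (z : ℍ) :
    tr Γ k f x ((1 : ℝ) +ᵥ z) = tr Γ k f (ModularGroup.T⁻¹ • x) z := by
  rw [← tr_slash hinv, SL_slash_apply, denom_T, one_zpow, mul_one, modular_T_smul]

theorem tr_mul_levelOne {a b k : ℤ} (hk : a + b = k) {P : ℍ → ℂ} (hP : IsMF1 a P) (f : ℍ → ℂ)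
    (x : SL(2, ℤ) ⧸ Γ) : tr Γ k (P * f) x = P * tr Γ b f x := by
  subst hk
  unfold tr
  rw [mul_slash_SL2, hP.inv _ (Subgroup.mem_top _)]

theorem tr_sum {ι : Type*} (s : Finset ι) (k : ℤ) (f : ι → ℍ → ℂ) (x : SL(2, ℤ) ⧸ Γ) :
    tr Γ k (∑ j ∈ s, f j) x = ∑ j ∈ s, tr Γ k (f j) x := by
  unfold tr
  rw [SlashAction.sum_slash]

theorem tr_smul (k : ℤ) (c : ℂ) (f : ℍ → ℂ) (x : SL(2, ℤ) ⧸ Γ) :
    tr Γ k (c • f) x = c • tr Γ k f x := by
  unfold tr
  rw [SL_smul_slash]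

theorem tr_mdiff {k : ℤ} {f : ℍ → ℂ} (hf : IsMF Γ k f) (x : SL(2, ℤ) ⧸ Γ) :
    MDifferentiable 𝓘(ℂ) 𝓘(ℂ) (tr Γ k f x) :=
  hf.holo.slash k _

theorem tr_bdd {k : ℤ} {f : ℍ → ℂ} (hf : IsMF Γ k f) (x : SL(2, ℤ) ⧸ Γ) :
    IsBoundedAtImInfty (tr Γ k f x) :=
  hf.bdd _


/-! ### Closure properties of `IsMF` -/

theorem isMF_zero (k : ℤ) : IsMF Γ k (0 : ℍ → ℂ) where
  holo := mdifferentiable_const
  inv := fun γ _ => SlashAction.zero_slash k γ
  bdd := fun γ => by
    rw [SlashAction.zero_slash]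
    exact (Filter.zero_zeroAtFilter _).boundedAtFilter

theorem isMF_add {k : ℤ} {f g : ℍ → ℂ} (hf : IsMF Γ k f) (hg : IsMF Γ k g) : IsMF Γ k (f + g) where
  holo := hf.holo.add hg.holo
  inv := fun γ hγ => by rw [SlashAction.add_slash, hf.inv γ hγ, hg.inv γ hγ]
  bdd := fun γ => by
    rw [SlashAction.add_slash]
    exact (hf.bdd γ).add (hg.bdd γ)

theorem isMF_smul {k : ℤ} {f : ℍ → ℂ} (hf : IsMF Γ k f) (c : ℂ) : IsMF Γ k (c • f) where
  holo := hf.holo.const_smul c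
  inv := fun γ hγ => by rw [SL_smul_slash, hf.inv γ hγ]
  bdd := fun γ => by
    rw [SL_smul_slash]
    exact (hf.bdd γ).smul c

theorem isMF_sub {k : ℤ} {f g : ℍ → ℂ} (hf : IsMF Γ k f) (hg : IsMF Γ k g) : IsMF Γ k (f - g) := by
  have h : f - g = f + (-1 : ℂ) • g := by
    funext z
    simp [sub_eq_add_neg]
  rw [h]
  exact isMF_add hf (isMF_smul hg _)

theorem isMF_sum {ι : Type*} {k : ℤ} (s : Finset ι) (f : ι → ℍ → ℂ)
    (h : ∀ j ∈ s, IsMF Γ k (f j)) : IsMF Γ k (∑ j ∈ s, f j) :=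
  Finset.sum_induction f (IsMF Γ k) (fun _ _ ha hb => isMF_add ha hb) (isMF_zero k) h

theorem isMF_bdd_self {k : ℤ} {f : ℍ → ℂ} (hf : IsMF Γ k f) : IsBoundedAtImInfty f := by
  have := hf.bdd 1
  rwa [SlashAction.slash_one] at this

theorem isMF_levelOne_mul {a b k : ℤ} (hk : a + b = k) {P f : ℍ → ℂ} (hP : IsMF1 a P)
    (hf : IsMF Γ b f) : IsMF Γ k (P * f) := by
  subst hk
  refine ⟨hP.holo.mul hf.holo, fun γ hγ => ?_, fun γ => ?_⟩
  · rw [mul_slash_SL2, hP.inv γ (Subgroup.mem_top _), hf.inv γ hγ]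
  · rw [mul_slash_SL2, hP.inv γ (Subgroup.mem_top _)]
    exact (isMF_bdd_self hP).mul (hf.bdd γ)

/-! ### Level one input -/

theorem isMF1_of_modularForm {k : ℤ} (P : ModularForm 𝒮ℒ k) : IsMF1 k ⇑P := by
  have hinv : ∀ γ : SL(2, ℤ), (⇑P : ℍ → ℂ) ∣[k] γ = ⇑P := fun γ => by
    rw [SL_slash]
    exact P.slash_action_eq' _ ⟨γ, rfl⟩
  refine ⟨P.holo', fun γ _ => hinv γ, fun γ => ?_⟩
  rw [hinv γ]
  exact ModularFormClass.bdd_at_infty P

theorem discriminant_slash (γ : SL(2, ℤ)) :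
    (ModularForm.discriminant : ℍ → ℂ) ∣[(12 : ℤ)] γ = ModularForm.discriminant :=
  SlashInvariantForm.slash_action_generators_SL2Z discriminant_S_invariant discriminant_T_invariant γ

theorem isMF1_discriminant : IsMF1 12 (ModularForm.discriminant : ℍ → ℂ) := by
  refine ⟨CuspForm.discriminant.holo', fun γ _ => discriminant_slash γ, fun γ => ?_⟩
  rw [discriminant_slash]
  exact discriminant_isZeroAtImInfty.isBoundedAtImInfty

/-- A `1`-periodic holomorphic function bounded at `i∞` tends to its value at infinity. -/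
theorem tendsto_valueAtInfty_of_periodic {f : ℍ → ℂ} (hper : Periodic (f ∘ ofComplex) ((1 : ℝ) : ℂ))
    (hhol : MDifferentiable 𝓘(ℂ) 𝓘(ℂ) f) (hbdd : IsBoundedAtImInfty f) :
    Tendsto f atImInfty (𝓝 (valueAtInfty f)) := by
  have hexp0 : Tendsto (fun z : ℍ => Real.exp (-2 * π * z.im / 1)) atImInfty (𝓝 0) := by
    have h2 := tendsto_exp_neg_im_atImInfty (c := 2 * π) (by positivity)
    refine h2.congr fun z => ?_
    congr 1
    ring
  have h1 := UpperHalfPlane.exp_decay_sub_atImInfty (h := 1) one_pos hper hhol hbdd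
  have h2 := h1.trans_tendsto hexp0
  have h3 := h2.add_const (valueAtInfty f)
  simpa using h3

theorem exists_isMF1_tendsto_one (m : ℤ) (hm : 4 ≤ m) (hev : Even m) :
    ∃ P : ℍ → ℂ, IsMF1 m P ∧ Tendsto P atImInfty (𝓝 1) := by
  obtain ⟨n, rfl⟩ : ∃ n : ℕ, m = (n : ℤ) := ⟨m.toNat, by omega⟩
  have hn : 3 ≤ n := by omega
  have hn2 : Even n := by exact_mod_cast hev
  refine ⟨⇑(E hn), isMF1_of_modularForm (E hn), ?_⟩
  have hper := SlashInvariantFormClass.periodic_comp_ofComplex (E hn) one_mem_strictPeriods_SL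
  have h1 := tendsto_valueAtInfty_of_periodic hper (E hn).holo' (ModularFormClass.bdd_at_infty (E hn))
  have h2 := UpperHalfPlane.qExpansion_coeff_zero (f := ⇑(E hn)) (h := 1) one_pos
    (ModularFormClass.analyticAt_cuspFunction_zero (E hn) one_pos one_mem_strictPeriods_SL) hper
  rw [EisensteinSeries.E_qExpansion_coeff_zero hn hn2] at h2
  rw [← h2] at h1
  exact h1

/-! ### The twisted translates -/

section twist

variable [Fintype (SL(2, ℤ) ⧸ Γ)]

/-- The `x`-th row of `V * Φ` for a single form `f` of weight `k`. -/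
noncomputable def twist (Γ : Subgroup SL(2, ℤ)) [Fintype (SL(2, ℤ) ⧸ Γ)]
    (V : Matrix (SL(2, ℤ) ⧸ Γ) (SL(2, ℤ) ⧸ Γ) ℂ) (k : ℤ) (f : ℍ → ℂ) (x : SL(2, ℤ) ⧸ Γ) : ℍ → ℂ :=
  fun z => ∑ x', V x x' * tr Γ k f x' z

variable {V U : Matrix (SL(2, ℤ) ⧸ Γ) (SL(2, ℤ) ⧸ Γ) ℂ} {s : SL(2, ℤ) ⧸ Γ → ℝ}

theorem twist_mdiff {k : ℤ} {f : ℍ → ℂ} (hf : IsMF Γ k f) (x : SL(2, ℤ) ⧸ Γ) :
    MDifferentiable 𝓘(ℂ) 𝓘(ℂ) (twist Γ V k f x) := by
  have h : twist Γ V k f x = ∑ x', (V x x') • tr Γ k f x' := by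
    funext z
    simp [twist]
  rw [h]
  exact MDifferentiable.sum fun x' _ => (tr_mdiff hf x').const_smul _

theorem twist_bdd {k : ℤ} {f : ℍ → ℂ} (hf : IsMF Γ k f) (x : SL(2, ℤ) ⧸ Γ) :
    IsBoundedAtImInfty (twist Γ V k f x) :=
  Asymptotics.IsBigO.fun_sum fun x' _ => (tr_bdd hf x').const_mul_left _

theorem twist_vadd {k : ℤ} {f : ℍ → ℂ} (hf : IsMF Γ k f)
    (hshift : ∀ x x', V x (ModularGroup.T • x') = cexp (2 * π * Complex.I * (s x : ℂ)) * V x x')
    (x : SL(2, ℤ) ⧸ Γ) (z : ℍ) :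
    twist Γ V k f x ((1 : ℝ) +ᵥ z) = cexp (2 * (π : ℂ) * Complex.I * (s x : ℂ)) * twist Γ V k f x z := by
  simp only [twist, tr_vadd hf.inv, Finset.mul_sum]
  refine Fintype.sum_equiv (MulAction.toPerm ModularGroup.T⁻¹) _ _ fun x' => ?_
  simp only [MulAction.toPerm_apply]
  have h := hshift x (ModularGroup.T⁻¹ • x')
  rw [smul_inv_smul] at h
  rw [h]
  ring

theorem exists_lead {k : ℤ} {f : ℍ → ℂ} (hf : IsMF Γ k f) (hs : ∀ x, 0 ≤ s x ∧ s x < 1)
    (hshift : ∀ x x', V x (ModularGroup.T • x') = cexp (2 * π * Complex.I * (s x : ℂ)) * V x x')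
    (x : SL(2, ℤ) ⧸ Γ) :
    ∃ ℓ : ℂ,
      Tendsto (fun z : ℍ => cexp (-(2 * (π : ℂ) * Complex.I * (s x : ℂ) * (z : ℂ))) * twist Γ V k f x z)
        atImInfty (𝓝 ℓ) ∧
      (ℓ = 0 → IsBoundedAtImInfty
        (fun z : ℍ => cexp (-(2 * (π : ℂ) * Complex.I * (z : ℂ))) * twist Γ V k f x z)) :=
  quasiPeriodic_limit (hs x).1 (hs x).2 (twist_mdiff hf x) (twist_bdd hf x)
    (twist_vadd hf hshift x)

end twist

/-! ### Division by `Δ` -/

theorem isBoundedAtImInfty_cexp_div_discriminant :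
    IsBoundedAtImInfty (fun z : ℍ => cexp (2 * (π : ℂ) * Complex.I * (z : ℂ)) / discriminant z) := by
  obtain ⟨C, hC⟩ := exp_isBigO_discriminant.bound
  refine Asymptotics.IsBigO.of_bound C (hC.mono fun z hz => ?_)
  have h1 : ‖cexp (2 * (π : ℂ) * Complex.I * (z : ℂ))‖ = Real.exp (-2 * π * z.im) := by
    have := norm_cexp_mul_I_mul 1 z
    simpa using this
  rw [Real.norm_of_nonneg (Real.exp_pos _).le] at hz
  have hΔ : 0 < ‖discriminant z‖ := norm_pos_iff.mpr (discriminant_ne_zero z)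
  simp only [Pi.one_apply, norm_one, mul_one]
  rw [norm_div, h1, div_le_iff₀ hΔ]
  exact hz

section division

variable [Fintype (SL(2, ℤ) ⧸ Γ)] [DecidableEq (SL(2, ℤ) ⧸ Γ)]

variable {V U : Matrix (SL(2, ℤ) ⧸ Γ) (SL(2, ℤ) ⧸ Γ) ℂ} {s : SL(2, ℤ) ⧸ Γ → ℝ}

theorem tr_eq_sum_twist (hVU : V * U = 1) (k : ℤ) (f : ℍ → ℂ) (x' : SL(2, ℤ) ⧸ Γ) (z : ℍ) :
    tr Γ k f x' z = ∑ x, U x' x * twist Γ V k f x z := by
  have hUV : U * V = 1 := mul_eq_one_comm.mp hVU
  simp only [twist, Finset.mul_sum]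
  rw [Finset.sum_comm]
  have h1 : ∀ x'', ∑ x, U x' x * (V x x'' * tr Γ k f x'' z) = (U * V) x' x'' * tr Γ k f x'' z := by
    intro x''
    rw [Matrix.mul_apply, Finset.sum_mul]
    exact Finset.sum_congr rfl fun _ _ => by ring
  simp only [h1, hUV, Matrix.one_apply, ite_mul, one_mul, zero_mul, Finset.sum_ite_eq,
    Finset.mem_univ, if_true]

/-- **Division by `Δ`.** If all leading coefficients of `f` vanish, then `f = Δ * h` with `h` a
modular form of weight `k - 12`. -/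
theorem exists_eq_discriminant_mul {k : ℤ} {f : ℍ → ℂ} (hf : IsMF Γ k f) (hVU : V * U = 1)
    (hs : ∀ x, 0 ≤ s x ∧ s x < 1)
    (hshift : ∀ x x', V x (ModularGroup.T • x') = cexp (2 * π * Complex.I * (s x : ℂ)) * V x x')
    (h0 : ∀ x, Tendsto
      (fun z : ℍ => cexp (-(2 * (π : ℂ) * Complex.I * (s x : ℂ) * (z : ℂ))) * twist Γ V k f x z)
      atImInfty (𝓝 0)) :
    ∃ h : ℍ → ℂ, IsMF Γ (k - 12) h ∧ f = (discriminant : ℍ → ℂ) * h := by
  have hb : ∀ x, IsBoundedAtImInfty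
      (fun z : ℍ => cexp (-(2 * (π : ℂ) * Complex.I * (z : ℂ))) * twist Γ V k f x z) := by
    intro x
    obtain ⟨ℓ, hℓ, hℓ0⟩ := exists_lead hf hs hshift x
    exact hℓ0 (tendsto_nhds_unique hℓ (h0 x))
  have hb' : ∀ x', IsBoundedAtImInfty
      (fun z : ℍ => cexp (-(2 * (π : ℂ) * Complex.I * (z : ℂ))) * tr Γ k f x' z) := by
    intro x'
    have h1 : (fun z : ℍ => cexp (-(2 * (π : ℂ) * Complex.I * (z : ℂ))) * tr Γ k f x' z) =
        fun z : ℍ => ∑ x, U x' x * (cexp (-(2 * (π : ℂ) * Complex.I * (z : ℂ))) * twist Γ V k f x z) := by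
      funext z
      rw [tr_eq_sum_twist hVU k f x' z, Finset.mul_sum]
      exact Finset.sum_congr rfl fun _ _ => by ring
    rw [h1]
    exact Asymptotics.IsBigO.fun_sum fun x _ => (hb x).const_mul_left _
  have hΔ0 : ∀ z : ℍ, discriminant z ≠ 0 := discriminant_ne_zero
  have hdiv : ∀ γ : SL(2, ℤ), (f / (discriminant : ℍ → ℂ)) ∣[k - 12] γ =
      (f ∣[k] γ) / (discriminant : ℍ → ℂ) := by
    intro γ
    rw [div_slash_SL2, discriminant_slash]
  refine ⟨f / (discriminant : ℍ → ℂ), ⟨?_, ?_, ?_⟩, ?_⟩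
  · rw [UpperHalfPlane.mdifferentiable_iff]
    have h1 := UpperHalfPlane.mdifferentiable_iff.mp hf.holo
    have h2 := UpperHalfPlane.mdifferentiable_iff.mp CuspForm.discriminant.holo'
    exact h1.div h2 fun w _ => hΔ0 _
  · intro γ hγ
    rw [hdiv, hf.inv γ hγ]
  · intro γ
    rw [hdiv, slash_eq_tr hf.inv]
    have h1 : tr Γ k f (QuotientGroup.mk γ⁻¹) / (discriminant : ℍ → ℂ) =
        (fun z : ℍ => cexp (-(2 * (π : ℂ) * Complex.I * (z : ℂ))) * tr Γ k f (QuotientGroup.mk γ⁻¹) z) *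
          (fun z : ℍ => cexp (2 * (π : ℂ) * Complex.I * (z : ℂ)) / discriminant z) := by
      funext z
      simp only [Pi.div_apply, Pi.mul_apply]
      rw [mul_div_assoc', mul_comm (cexp (-(2 * (π : ℂ) * Complex.I * (z : ℂ)))), mul_assoc,
        ← Complex.exp_add, neg_add_cancel, Complex.exp_zero, mul_one]
    rw [h1]
    exact (hb' _).mul isBoundedAtImInfty_cexp_div_discriminant
  · funext z
    simp only [Pi.mul_apply, Pi.div_apply]
    field_simp [hΔ0 z]

end division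

/-! ### The main theorem -/

/-- **`Stmt_CuspFact` of `helper1040_Spec`.**  For every coset-indexed free basis with even
weights there are cusp data: the block DFT `U` along the `T`-orbits, exponents `s`, and an
invertible leading matrix `Λ`. -/
theorem stmt_CuspFact (Γ : Subgroup SL(2, ℤ)) [Fintype (SL(2, ℤ) ⧸ Γ)]
    [DecidableEq (SL(2, ℤ) ⧸ Γ)] : Stmt_CuspFact Γ := by
  intro κ G hfree heven
  obtain ⟨hG, hspan, hindep⟩ := hfree
  obtain ⟨U, V, s, hVU, hs, hshift, hsum⟩ := exists_orbit_dft Γ ModularGroup.T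
  have hUinv : U⁻¹ = V := Matrix.inv_eq_left_inv hVU
  have hentry : ∀ x y z, (V * Phi Γ κ G z) x y = twist Γ V (κ y) (G y) x z := by
    intro x y z
    simp [Matrix.mul_apply, Phi, twist]
  have hlim : ∀ x y, ∃ ℓ : ℂ, Tendsto (fun z : ℍ =>
      cexp (-(2 * (π : ℂ) * Complex.I * (s x : ℂ) * (z : ℂ))) * twist Γ V (κ y) (G y) x z)
      atImInfty (𝓝 ℓ) := fun x y => (exists_lead (hG y) hs hshift x).imp fun ℓ h => h.1
  choose Λ hΛ using hlim
  refine ⟨U, Matrix.of Λ, s, (Matrix.isUnit_det_of_left_inverse hVU).ne_zero, ?_, hs, ?_, ?_⟩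
  · -- exactness: the leading matrix is invertible
    intro hdet
    obtain ⟨w, hw0, hw⟩ := Matrix.exists_mulVec_eq_zero_iff.mpr hdet
    set K : ℤ := 2 * (∑ y, |κ y|) + 4 with hK
    have hK4 : ∀ y, 4 ≤ K - κ y := by
      intro y
      have h1 : |κ y| ≤ ∑ y, |κ y| :=
        Finset.single_le_sum (fun i _ => abs_nonneg (κ i)) (Finset.mem_univ y)
      have h2 : κ y ≤ |κ y| := le_abs_self _
      have h3 : 0 ≤ |κ y| := abs_nonneg _
      linarith
    have hKev : ∀ y, Even (K - κ y) := by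
      intro y
      have h1 : Even K := by
        rw [hK]
        exact Even.add (even_two_mul _) ⟨2, rfl⟩
      exact h1.sub (heven y)
    have hP : ∀ y, ∃ P : ℍ → ℂ, IsMF1 (K - κ y) P ∧ Tendsto P atImInfty (𝓝 1) :=
      fun y => exists_isMF1_tendsto_one _ (hK4 y) (hKev y)
    choose P hP hP1 using hP
    set f : ℍ → ℂ := ∑ y, w y • (P y * G y) with hf
    have hfMF : IsMF Γ K f :=
      isMF_sum _ _ fun y _ => isMF_smul (isMF_levelOne_mul (by ring) (hP y) (hG y)) (w y)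
    have htw : ∀ x z, twist Γ V K f x z = ∑ y, w y * P y z * twist Γ V (κ y) (G y) x z := by
      intro x z
      have h1 : ∀ x', tr Γ K f x' z = ∑ y, w y * P y z * tr Γ (κ y) (G y) x' z := by
        intro x'
        rw [hf, tr_sum, Finset.sum_apply]
        refine Finset.sum_congr rfl fun y _ => ?_
        rw [tr_smul, tr_mul_levelOne (show (K - κ y) + κ y = K by ring) (hP y)]
        simp [mul_assoc]
      simp only [twist, h1, Finset.mul_sum]
      rw [Finset.sum_comm]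
      exact Finset.sum_congr rfl fun y _ => Finset.sum_congr rfl fun x' _ => by ring
    have h0 : ∀ x, Tendsto (fun z : ℍ =>
        cexp (-(2 * (π : ℂ) * Complex.I * (s x : ℂ) * (z : ℂ))) * twist Γ V K f x z)
        atImInfty (𝓝 0) := by
      intro x
      have h1 : Tendsto (fun z : ℍ => ∑ y, w y * P y z *
          (cexp (-(2 * (π : ℂ) * Complex.I * (s x : ℂ) * (z : ℂ))) * twist Γ V (κ y) (G y) x z))
          atImInfty (𝓝 (∑ y, w y * 1 * Λ x y)) :=
        tendsto_finsetSum _ fun y _ => (tendsto_const_nhds.mul (hP1 y)).mul (hΛ x y)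
      have h2 : ∑ y, w y * 1 * Λ x y = 0 := by
        have h3 := congrFun hw x
        simp only [Matrix.mulVec, dotProduct, Matrix.of_apply, Pi.zero_apply] at h3
        rw [← h3]
        exact Finset.sum_congr rfl fun y _ => by ring
      rw [h2] at h1
      refine h1.congr fun z => ?_
      rw [htw, Finset.mul_sum]
      exact Finset.sum_congr rfl fun y _ => by ring
    obtain ⟨h, hhMF, hfh⟩ := exists_eq_discriminant_mul hfMF hVU hs hshift h0
    obtain ⟨B, hB, hhB⟩ := hspan (K - 12) h hhMF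
    have hrel : ∑ y, (w y • P y - (discriminant : ℍ → ℂ) * B y) * G y = 0 := by
      have h1 : ∑ y, (w y • P y - (discriminant : ℍ → ℂ) * B y) * G y =
          f - (discriminant : ℍ → ℂ) * h := by
        rw [hf, hhB, Finset.mul_sum, ← Finset.sum_sub_distrib]
        refine Finset.sum_congr rfl fun y _ => ?_
        funext z
        simp only [Pi.mul_apply, Pi.sub_apply, Pi.smul_apply, smul_eq_mul]
        ring
      rw [h1, ← hfh, sub_self]
    have hA : ∀ y, IsMF1 (K - κ y) (w y • P y - (discriminant : ℍ → ℂ) * B y) := fun y =>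
      isMF_sub (isMF_smul (hP y) (w y))
        (isMF_levelOne_mul (by ring) isMF1_discriminant (hB y))
    have hzero := hindep K _ hA hrel
    apply hw0
    funext y
    have h1 : Tendsto (fun z : ℍ => w y * P y z - discriminant z * B y z) atImInfty
        (𝓝 (w y * 1 - 0)) := by
      refine Tendsto.sub (tendsto_const_nhds.mul (hP1 y)) ?_
      have hBb : IsBoundedUnder (· ≤ ·) atImInfty (norm ∘ B y) := by
        have : B y =O[atImInfty] (fun _ : ℍ => (1 : ℝ)) := isMF_bdd_self (hB y)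
        exact this.isBoundedUnder_le
      exact Tendsto.zero_mul_isBoundedUnder_le discriminant_isZeroAtImInfty hBb
    have h2 : (fun z : ℍ => w y * P y z - discriminant z * B y z) = fun _ => 0 := by
      funext z
      have := congrFun (hzero y) z
      simpa using this
    rw [h2] at h1
    have h3 := tendsto_nhds_unique h1 tendsto_const_nhds
    simpa using h3
  · simpa [Subgroup.index, cuspNum] using hsum
  · intro x y
    rw [hUinv]
    simp only [hentry]
    exact hΛ x y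

end Fermat.Agent.S20.helper1177
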