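import Mathlib

/-!
# Abstract graded algebra core for the freeness of `M_*(Γ)` over `ℂ[E₄, E₆]`

Everything here is Mathlib-only and contains no modular forms.
-/

namespace Fermat.Agent.S20.helper1235

open Finset

/-- Pure arithmetic (Hilbert series bookkeeping): if `q k = m k - m (k-4) - m (k-6) + m (k-10) ≥ 0`,
`m` vanishes in negative and odd degrees and `12 * m k ≤ μ * k + 12`, then all partial sums of `q`
are bounded by `μ`. -/
theorem sum_gen_le (μ : ℕ) (m q : ℤ → ℤ)
    (hm0 : ∀ k, k < 0 → m k = 0)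
    (hmodd : ∀ k, Odd k → m k = 0)
    (hq : ∀ k, 0 ≤ q k)
    (hid : ∀ k, q k + m (k - 4) + m (k - 6) = m k + m (k - 10))
    (hgr : ∀ k, 0 ≤ k → 12 * m k ≤ μ * k + 12) :
    ∀ K : ℕ, ∑ k ∈ range (K + 1), q (k : ℤ) ≤ μ := by
  -- closed form of the partial sums
  set H : ℤ → ℤ := fun K => m K + m (K - 1) + m (K - 2) + m (K - 3)
    - m (K - 6) - m (K - 7) - m (K - 8) - m (K - 9) with hH
  have hstep : ∀ K : ℤ, H (K + 1) = H K + q (K + 1) := by
    intro K
    have h1 := hid (K + 1)
    simp only [hH]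
    ring_nf at h1 ⊢
    linarith
  have hG : ∀ K : ℕ, ∑ k ∈ range (K + 1), q (k : ℤ) = H K := by
    intro K
    induction K with
    | zero =>
      have h1 := hid 0
      simp only [hH]
      norm_num at h1 ⊢
      rw [hm0 (-1) (by norm_num), hm0 (-2) (by norm_num), hm0 (-3) (by norm_num),
        hm0 (-6) (by norm_num), hm0 (-7) (by norm_num), hm0 (-8) (by norm_num),
        hm0 (-9) (by norm_num)]
      rw [hm0 (-4) (by norm_num), hm0 (-6) (by norm_num), hm0 (-10) (by norm_num)] at h1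
      linarith
    | succ K ih =>
      rw [Finset.sum_range_succ, ih]
      have := hstep K
      push_cast
      linarith
  -- monotonicity
  have hmono : ∀ K L : ℕ, K ≤ L → H K ≤ H L := by
    intro K L hKL
    induction L, hKL using Nat.le_induction with
    | base => exact le_rfl
    | succ L _ ih =>
      have := hstep L
      have := hq (L + 1)
      push_cast
      linarith
  have hHnonneg : ∀ K : ℕ, 0 ≤ H K := by
    intro K
    rw [← hG]
    exact Finset.sum_nonneg fun i _ => hq _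
  -- telescoping along arithmetic progressions of step 6
  have htel : ∀ L : ℕ, ∑ n ∈ range L, H (6 * (n : ℤ) + 3) =
      m (6 * L - 3) + m (6 * L - 4) + m (6 * L - 5) + m (6 * L - 6) := by
    intro L
    induction L with
    | zero =>
      norm_num
      rw [hm0 (-3) (by norm_num), hm0 (-4) (by norm_num), hm0 (-5) (by norm_num),
        hm0 (-6) (by norm_num)]
      norm_num
    | succ L ih =>
      rw [Finset.sum_range_succ, ih]
      simp only [hH]
      push_cast
      ring_nf
  intro K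
  rw [hG]
  by_contra hcon
  rw [not_le] at hcon
  -- H K ≥ μ + 1
  set L : ℕ := K * (μ + 1) + 3 with hL
  have hsum_le : ∑ n ∈ range L, H (6 * (n : ℤ) + 3) ≤ μ * L + 2 := by
    rw [htel]
    have hodd1 : m (6 * (L : ℤ) - 3) = 0 := hmodd _ ⟨3 * L - 2, by ring⟩
    have hodd2 : m (6 * (L : ℤ) - 5) = 0 := hmodd _ ⟨3 * L - 3, by ring⟩
    have hL1 : (1 : ℤ) ≤ L := by
      have : 3 ≤ L := by omega
      exact_mod_cast (by omega : 1 ≤ L)
    have h4 := hgr (6 * (L : ℤ) - 4) (by linarith)
    have h6 := hgr (6 * (L : ℤ) - 6) (by linarith)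
    have hμ : (0 : ℤ) ≤ μ := by positivity
    rw [hodd1, hodd2]
    nlinarith
  have hsum_ge : ((L : ℤ) - K) * (μ + 1) ≤ ∑ n ∈ range L, H (6 * (n : ℤ) + 3) := by
    have hKL : K ≤ L := by
      have : K ≤ K * (μ + 1) := Nat.le_mul_of_pos_right K (by omega)
      omega
    have hsplit : ∑ n ∈ range L, H (6 * (n : ℤ) + 3) =
        ∑ n ∈ range K, H (6 * (n : ℤ) + 3) + ∑ n ∈ Ico K L, H (6 * (n : ℤ) + 3) := by
      exact (Finset.sum_range_add_sum_Ico _ hKL).symm
    have h1 : 0 ≤ ∑ n ∈ range K, H (6 * (n : ℤ) + 3) := by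
      apply Finset.sum_nonneg
      intro n _
      have := hHnonneg (6 * n + 3)
      push_cast at this
      exact this
    have h2 : ∑ n ∈ Ico K L, ((μ : ℤ) + 1) ≤ ∑ n ∈ Ico K L, H (6 * (n : ℤ) + 3) := by
      apply Finset.sum_le_sum
      intro n hn
      rw [Finset.mem_Ico] at hn
      have h3 := hmono K (6 * n + 3) (by omega)
      push_cast at h3
      linarith
    rw [Finset.sum_const, Nat.card_Ico, nsmul_eq_mul] at h2
    rw [hsplit]
    have : ((L - K : ℕ) : ℤ) = (L : ℤ) - K := by push_cast [hKL]; ring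
    rw [this] at h2
    linarith
  have hLval : (L : ℤ) = K * (μ + 1) + 3 := by rw [hL]; push_cast; ring
  have hμ : (0 : ℤ) ≤ μ := by positivity
  have hK : (0 : ℤ) ≤ K := by positivity
  nlinarith


/-- Strong induction on integers for predicates that hold in negative degrees. -/
theorem int_strong_induction {P : ℤ → Prop} (hneg : ∀ k, k < 0 → P k)
    (hstep : ∀ k, 0 ≤ k → (∀ k', k' < k → P k') → P k) : ∀ k, P k := by
  have key : ∀ n : ℕ, ∀ k : ℤ, k < n → P k := by
    intro n
    induction n with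
    | zero => intro k hk; exact hneg k (by simpa using hk)
    | succ n ih =>
      intro k hk
      by_cases hk0 : k < 0
      · exact hneg k hk0
      · exact hstep k (by omega) (fun k' hk' => ih k' (by push_cast at hk; omega))
  intro k
  exact key (k.toNat + 1) k (by push_cast; omega)

section core

open Module

variable {K : Type*} [Field K] {A : Type*} [CommRing A] [Algebra K A]

theorem finrank_map_of_injOn (p : Submodule K A) (f : A →ₗ[K] A)
    (hf : ∀ v ∈ p, f v = 0 → v = 0) : finrank K (p.map f) = finrank K p := by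
  have hinj : Function.Injective (f.domRestrict p) := by
    rw [← LinearMap.ker_eq_bot, LinearMap.ker_eq_bot']
    intro v hv
    exact Subtype.ext (hf v v.2 (by simpa using hv))
  rw [← LinearMap.range_domRestrict, LinearMap.finrank_range_of_inj hinj]

/-- Hypotheses on a "graded module" `M` (a family of `K`-subspaces of the commutative `K`-algebra
`A`, bounded below, finite-dimensional in each degree) over the "graded ring" `R` generated by
`x` (degree `4`) and `y` (degree `6`), such that `x, y` is an `M`-regular sequence. -/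
structure RegSeqData (x y : A) (M R : ℤ → Submodule K A) : Prop where
  xM : ∀ k, ∀ f ∈ M k, x * f ∈ M (k + 4)
  yM : ∀ k, ∀ f ∈ M k, y * f ∈ M (k + 6)
  neg : ∀ k, k < 0 → M k = ⊥
  fin : ∀ k, Module.Finite K (M k)
  xreg : ∀ k, ∀ f ∈ M k, x * f = 0 → f = 0
  reg : ∀ k, ∀ c ∈ M k, ∀ b ∈ M (k + 2), y * c = x * b → ∃ h ∈ M (k - 4), c = x * h
  Rneg : ∀ m, m < 0 → R m = ⊥
  R0 : ∀ P ∈ R 0, ∃ c : K, P = algebraMap K A c
  oneR : (1 : A) ∈ R 0
  Rdec : ∀ m, m ≠ 0 → ∀ P ∈ R m, ∃ Q ∈ R (m - 4), ∃ S ∈ R (m - 6), P = x * Q + y * S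
  xR : ∀ m, ∀ P ∈ R m, x * P ∈ R (m + 4)
  yR : ∀ m, ∀ P ∈ R m, y * P ∈ R (m + 6)

namespace RegSeqData

variable {x y : A} {M R : ℤ → Submodule K A}

/-- `y` is also a non-zero-divisor on `M`. -/
theorem yreg (h : RegSeqData x y M R) : ∀ k, ∀ f ∈ M k, y * f = 0 → f = 0 := by
  apply int_strong_induction
  · intro k hk f hf _
    rw [h.neg k hk] at hf
    exact (Submodule.mem_bot K).mp hf
  · intro k _ ih f hf hyf
    obtain ⟨g, hg, rfl⟩ := h.reg k f hf 0 (Submodule.zero_mem _) (by rw [hyf, mul_zero])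
    have h1 : y * g ∈ M (k - 4 + 6) := h.yM _ _ hg
    have h2 : y * g = 0 := h.xreg _ _ h1 (by rw [← hyf]; ring)
    rw [ih (k - 4) (by omega) g hg h2, mul_zero]

/-- `R_m * M_k ⊆ M_{k+m}`. -/
theorem RM (h : RegSeqData x y M R) : ∀ m, ∀ P ∈ R m, ∀ k, ∀ f ∈ M k, P * f ∈ M (k + m) := by
  apply int_strong_induction
  · intro m hm P hP k f _
    rw [h.Rneg m hm] at hP
    rw [(Submodule.mem_bot K).mp hP, zero_mul]
    exact Submodule.zero_mem _
  · intro m _ ih P hP k f hf
    by_cases hm0 : m = 0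
    · subst hm0
      obtain ⟨c, rfl⟩ := h.R0 P hP
      rw [add_zero, ← Algebra.smul_def]
      exact Submodule.smul_mem _ _ hf
    · obtain ⟨Q, hQ, S, hS, rfl⟩ := h.Rdec m hm0 P hP
      have h1 : x * (Q * f) ∈ M (k + (m - 4) + 4) := h.xM _ _ (ih (m - 4) (by omega) Q hQ k f hf)
      have h2 : y * (S * f) ∈ M (k + (m - 6) + 6) := h.yM _ _ (ih (m - 6) (by omega) S hS k f hf)
      rw [show k + (m - 4) + 4 = k + m by ring] at h1
      rw [show k + (m - 6) + 6 = k + m by ring] at h2
      have : (x * Q + y * S) * f = x * (Q * f) + y * (S * f) := by ring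
      rw [this]
      exact Submodule.add_mem _ h1 h2

/-- Existence of expansions from a generating family. -/
theorem exists_expansion (h : RegSeqData x y M R) {ι : Type*} [Fintype ι] (wt : ι → ℤ) (F : ι → A)
    (hgen : ∀ k, ∀ f ∈ M k, ∃ c : ι → K, (∀ j, wt j ≠ k → c j = 0) ∧
      ∃ g ∈ M (k - 4), ∃ h' ∈ M (k - 6), f = x * g + y * h' + ∑ j, c j • F j) :
    ∀ k, ∀ f ∈ M k, ∃ P : ι → A, (∀ j, P j ∈ R (k - wt j)) ∧ f = ∑ j, P j * F j := by
  apply int_strong_induction
  · intro k hk f hf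
    refine ⟨0, fun j => by simp, ?_⟩
    rw [h.neg k hk] at hf
    simp [(Submodule.mem_bot K).mp hf]
  · intro k _ ih f hf
    obtain ⟨c, hc, g, hg, h', hh', rfl⟩ := hgen k f hf
    obtain ⟨Q, hQ, rfl⟩ := ih (k - 4) (by omega) g hg
    obtain ⟨S, hS, rfl⟩ := ih (k - 6) (by omega) h' hh'
    refine ⟨fun j => x * Q j + y * S j + algebraMap K A (c j), fun j => ?_, ?_⟩
    · refine Submodule.add_mem _ (Submodule.add_mem _ ?_ ?_) ?_
      · have := h.xR _ _ (hQ j)
        rwa [show k - 4 - wt j + 4 = k - wt j by ring] at this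
      · have := h.yR _ _ (hS j)
        rwa [show k - 6 - wt j + 6 = k - wt j by ring] at this
      · by_cases hj : wt j = k
        · rw [hj, sub_self, Algebra.algebraMap_eq_smul_one]
          exact Submodule.smul_mem _ _ h.oneR
        · rw [hc j hj, map_zero]
          exact Submodule.zero_mem _
    · simp only [add_mul, Finset.sum_add_distrib, Finset.mul_sum, Algebra.smul_def, mul_assoc]

/-- Uniqueness of expansions from a family that is independent modulo `x M + y M`. -/
theorem expansion_unique (h : RegSeqData x y M R) {ι : Type*} [Fintype ι] (wt : ι → ℤ) (F : ι → A)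
    (hwt : ∀ j, 0 ≤ wt j) (hF : ∀ j, F j ∈ M (wt j))
    (hex : ∀ k, ∀ f ∈ M k, ∃ P : ι → A, (∀ j, P j ∈ R (k - wt j)) ∧ f = ∑ j, P j * F j)
    (hind : ∀ k, ∀ c : ι → K, (∀ j, wt j ≠ k → c j = 0) →
      (∃ g ∈ M (k - 4), ∃ h' ∈ M (k - 6), ∑ j, c j • F j = x * g + y * h') → ∀ j, c j = 0) :
    ∀ k, ∀ P : ι → A, (∀ j, P j ∈ R (k - wt j)) → ∑ j, P j * F j = 0 → ∀ j, P j = 0 := by
  apply int_strong_induction
  · intro k hk P hP _ j
    have := hP j
    rw [h.Rneg _ (by have := hwt j; omega)] at this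
    exact (Submodule.mem_bot K).mp this
  · intro k _ ih P hP hsum
    -- decompose each `P j`
    have hdec : ∀ j, ∃ c : K, ∃ Q ∈ R (k - 4 - wt j), ∃ S ∈ R (k - 6 - wt j),
        (wt j ≠ k → c = 0) ∧ P j = algebraMap K A c + x * Q + y * S := by
      intro j
      by_cases hj : wt j = k
      · obtain ⟨c, hc⟩ := h.R0 (P j) (by have := hP j; rwa [hj, sub_self] at this)
        exact ⟨c, 0, Submodule.zero_mem _, 0, Submodule.zero_mem _, fun h' => absurd hj h',
          by simp [hc]⟩
      · obtain ⟨Q, hQ, S, hS, hPj⟩ :=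
          h.Rdec (k - wt j) (by intro h0; exact hj (by omega)) (P j) (hP j)
        refine ⟨0, Q, ?_, S, ?_, fun _ => rfl, by simp [hPj]⟩
        · rwa [show k - 4 - wt j = k - wt j - 4 by ring]
        · rwa [show k - 6 - wt j = k - wt j - 6 by ring]
    choose c Q hQ S hS hc hPeq using hdec
    have ha : ∑ j, Q j * F j ∈ M (k - 4) := Submodule.sum_mem _ fun j _ => by
      have := h.RM _ _ (hQ j) _ _ (hF j)
      rwa [show wt j + (k - 4 - wt j) = k - 4 by ring] at this
    have hb : ∑ j, S j * F j ∈ M (k - 6) := Submodule.sum_mem _ fun j _ => by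
      have := h.RM _ _ (hS j) _ _ (hF j)
      rwa [show wt j + (k - 6 - wt j) = k - 6 by ring] at this
    have hsum' : ∑ j, c j • F j + x * ∑ j, Q j * F j + y * ∑ j, S j * F j = 0 := by
      rw [← hsum]
      simp only [hPeq, add_mul, Finset.sum_add_distrib, Finset.mul_sum, Algebra.smul_def,
        mul_assoc]
    -- the constants vanish
    have hc0 : ∀ j, c j = 0 := hind k c hc ⟨-∑ j, Q j * F j, Submodule.neg_mem _ ha,
      -∑ j, S j * F j, Submodule.neg_mem _ hb, by linear_combination hsum'⟩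
    have hxy : x * ∑ j, Q j * F j + y * ∑ j, S j * F j = 0 := by
      simpa [hc0] using hsum'
    -- regularity
    obtain ⟨t, ht, hbt⟩ := h.reg (k - 6) _ hb (-∑ j, Q j * F j)
      (by rw [show k - 6 + 2 = k - 4 by ring]; exact Submodule.neg_mem _ ha)
      (by linear_combination hxy)
    obtain ⟨T, hT, rfl⟩ := hex (k - 6 - 4) t ht
    have hS' : ∀ j, S j = x * T j := by
      have := ih (k - 6) (by omega) (fun j => S j - x * T j)
        (fun j => Submodule.sub_mem _ (hS j) (by
          have := h.xR _ _ (hT j)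
          rwa [show k - 6 - 4 - wt j + 4 = k - 6 - wt j by ring] at this))
        (by
          simp only [sub_mul, Finset.sum_sub_distrib]
          rw [hbt, Finset.mul_sum]
          simp [mul_assoc])
      intro j
      exact sub_eq_zero.mp (this j)
    have hQ' : ∀ j, Q j = -(y * T j) := by
      have hzero : x * (∑ j, Q j * F j + y * ∑ j, T j * F j) = 0 := by
        rw [hbt] at hxy
        linear_combination hxy
      have hmem : ∑ j, Q j * F j + y * ∑ j, T j * F j ∈ M (k - 4) := by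
        refine Submodule.add_mem _ ha ?_
        have := h.yM _ _ ht
        rwa [show k - 6 - 4 + 6 = k - 4 by ring] at this
      have h0 := h.xreg _ _ hmem hzero
      have := ih (k - 4) (by omega) (fun j => Q j + y * T j)
        (fun j => Submodule.add_mem _ (hQ j) (by
          have := h.yR _ _ (hT j)
          rwa [show k - 6 - 4 - wt j + 6 = k - 4 - wt j by ring] at this))
        (by
          rw [← h0]
          simp only [add_mul, Finset.sum_add_distrib, Finset.mul_sum, mul_assoc])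
      intro j
      exact eq_neg_of_add_eq_zero_left (this j)
    intro j
    rw [hPeq, hc0, hS', hQ']
    simp only [map_zero, zero_add]
    ring

/-- The decomposable part `x * M_{k-4} + y * M_{k-6}` of `M_k`. -/
def decomp (x y : A) (M : ℤ → Submodule K A) (k : ℤ) : Submodule K A :=
  (M (k - 4)).map (LinearMap.mulLeft K x) ⊔ (M (k - 6)).map (LinearMap.mulLeft K y)

omit [Field K] [CommRing A] [Algebra K A] in
theorem mem_decomp_iff [Field K] [CommRing A] [Algebra K A] {x y : A} {M : ℤ → Submodule K A}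
    {k : ℤ} {f : A} :
    f ∈ decomp x y M k ↔ ∃ g ∈ M (k - 4), ∃ h' ∈ M (k - 6), f = x * g + y * h' := by
  unfold decomp
  rw [Submodule.mem_sup]
  constructor
  · rintro ⟨a, ha, b, hb, rfl⟩
    obtain ⟨g, hg, rfl⟩ := Submodule.mem_map.mp ha
    obtain ⟨h', hh', rfl⟩ := Submodule.mem_map.mp hb
    exact ⟨g, hg, h', hh', rfl⟩
  · rintro ⟨g, hg, h', hh', rfl⟩
    exact ⟨x * g, Submodule.mem_map.mpr ⟨g, hg, rfl⟩, y * h', Submodule.mem_map.mpr ⟨h', hh', rfl⟩,
      rfl⟩

theorem decomp_le (h : RegSeqData x y M R) (k : ℤ) : decomp x y M k ≤ M k := by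
  intro f hf
  obtain ⟨g, hg, h', hh', rfl⟩ := mem_decomp_iff.mp hf
  have h1 := h.xM _ _ hg
  have h2 := h.yM _ _ hh'
  rw [show k - 4 + 4 = k by ring] at h1
  rw [show k - 6 + 6 = k by ring] at h2
  exact Submodule.add_mem _ h1 h2

/-- Koszul exactness in terms of dimensions. -/
theorem finrank_decomp (h : RegSeqData x y M R) (k : ℤ) :
    finrank K (decomp x y M k) + finrank K (M (k - 10)) =
      finrank K (M (k - 4)) + finrank K (M (k - 6)) := by
  have := h.fin (k - 4)
  have := h.fin (k - 6)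
  have := h.fin (k - 10)
  have hinf : (M (k - 4)).map (LinearMap.mulLeft K x) ⊓ (M (k - 6)).map (LinearMap.mulLeft K y) =
      (M (k - 10)).map (LinearMap.mulLeft K (x * y)) := by
    ext f
    rw [Submodule.mem_inf]
    constructor
    · rintro ⟨h1, h2⟩
      obtain ⟨a, ha, rfl⟩ := Submodule.mem_map.mp h1
      obtain ⟨b, hb, hab⟩ := Submodule.mem_map.mp h2
      simp only [LinearMap.mulLeft_apply] at hab ⊢
      obtain ⟨t, ht, rfl⟩ := h.reg (k - 6) b hb a
        (by rw [show k - 6 + 2 = k - 4 by ring]; exact ha) hab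
      refine Submodule.mem_map.mpr ⟨t, by rwa [show k - 10 = k - 6 - 4 by ring], ?_⟩
      simp only [LinearMap.mulLeft_apply]
      rw [← hab]
      ring
    · intro hf
      obtain ⟨t, ht, rfl⟩ := Submodule.mem_map.mp hf
      simp only [LinearMap.mulLeft_apply]
      constructor
      · refine Submodule.mem_map.mpr ⟨y * t, ?_, by simp only [LinearMap.mulLeft_apply]; ring⟩
        have := h.yM _ _ ht
        rwa [show k - 10 + 6 = k - 4 by ring] at this
      · refine Submodule.mem_map.mpr ⟨x * t, ?_, by simp only [LinearMap.mulLeft_apply]; ring⟩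
        have := h.xM _ _ ht
        rwa [show k - 10 + 4 = k - 6 by ring] at this
  have h1 := Submodule.finrank_sup_add_finrank_inf_eq
    ((M (k - 4)).map (LinearMap.mulLeft K x)) ((M (k - 6)).map (LinearMap.mulLeft K y))
  rw [hinf] at h1
  have e1 : finrank K ((M (k - 4)).map (LinearMap.mulLeft K x)) = finrank K (M (k - 4)) :=
    finrank_map_of_injOn _ _ (fun v hv hv0 => h.xreg _ v hv (by simpa using hv0))
  have e2 : finrank K ((M (k - 6)).map (LinearMap.mulLeft K y)) = finrank K (M (k - 6)) :=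
    finrank_map_of_injOn _ _ (fun v hv hv0 => h.yreg _ v hv (by simpa using hv0))
  have e3 : finrank K ((M (k - 10)).map (LinearMap.mulLeft K (x * y))) = finrank K (M (k - 10)) :=
    finrank_map_of_injOn _ _ (fun v hv hv0 => by
      have h3 : x * (y * v) = 0 := by simpa [mul_assoc] using hv0
      exact h.yreg _ v hv (h.xreg _ _ (h.yM _ _ hv) h3))
  rw [e1, e2, e3] at h1
  exact h1

/-- Existence of a complement of the decomposable part inside `M_k`. -/
theorem exists_compl (h : RegSeqData x y M R) (k : ℤ) :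
    ∃ W : Submodule K A, W ≤ M k ∧ decomp x y M k ⊓ W = ⊥ ∧ decomp x y M k ⊔ W = M k := by
  obtain ⟨C, hC⟩ := Submodule.exists_isCompl (decomp x y M k)
  refine ⟨C ⊓ M k, inf_le_right, ?_, ?_⟩
  · rw [← inf_assoc, hC.inf_eq_bot, bot_inf_eq]
  · rw [← sup_inf_assoc_of_le _ (decomp_le h k), hC.sup_eq_top, top_inf_eq]

/-- Main theorem of the abstract core, with an arbitrary finite index type. -/
theorem exists_generators (h : RegSeqData x y M R) (μ : ℕ) (hodd : ∀ k, Odd k → M k = ⊥)
    (hgrowth : ∀ k, 0 ≤ k → 12 * (finrank K (M k) : ℤ) ≤ μ * k + 12) :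
    ∃ (ι : Type) (_ : Fintype ι) (wt : ι → ℤ) (F : ι → A), Fintype.card ι ≤ μ ∧
      (∀ j, 0 ≤ wt j) ∧ (∀ j, F j ∈ M (wt j)) ∧
      (∀ k, ∀ f ∈ M k, ∃ P : ι → A, (∀ j, P j ∈ R (k - wt j)) ∧ f = ∑ j, P j * F j) ∧
      (∀ k, ∀ P : ι → A, (∀ j, P j ∈ R (k - wt j)) → ∑ j, P j * F j = 0 → ∀ j, P j = 0) := by
  choose W hWle hWinf hWsup using h.exists_compl
  have hfinW : ∀ k, Module.Finite K (W k) := fun k => by
    have := h.fin k
    exact Submodule.finiteDimensional_of_le (hWle k)
  -- dimension identity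
  have hdim : ∀ k, (finrank K (W k) : ℤ) + finrank K (M (k - 4)) + finrank K (M (k - 6)) =
      finrank K (M k) + finrank K (M (k - 10)) := by
    intro k
    have := h.fin k
    have := hfinW k
    have hN : Module.Finite K (decomp x y M k) :=
      Submodule.finiteDimensional_of_le (decomp_le h k)
    have h1 := Submodule.finrank_sup_add_finrank_inf_eq (decomp x y M k) (W k)
    rw [hWsup k, hWinf k, finrank_bot, add_zero] at h1
    have h2 := finrank_decomp h k
    omega
  have hbound := sum_gen_le μ (fun k => (finrank K (M k) : ℤ)) (fun k => (finrank K (W k) : ℤ))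
    (fun k hk => by
      show ((finrank K (M k) : ℕ) : ℤ) = 0
      rw [h.neg k hk, finrank_bot]; rfl)
    (fun k hk => by
      show ((finrank K (M k) : ℕ) : ℤ) = 0
      rw [hodd k hk, finrank_bot]; rfl)
    (fun k => by positivity)
    hdim hgrowth
  -- stabilisation
  obtain ⟨K0, hK0⟩ : ∃ K0 : ℕ, ∀ k : ℤ, (K0 : ℤ) < k → W k = ⊥ := by
    let g : ℕ → ℕ := fun K' => ∑ k ∈ range (K' + 1), finrank K (W (k : ℤ))
    have hg : ∀ K', g K' ≤ μ := fun K' => by
      have := hbound K'
      exact_mod_cast this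
    have hne : (Set.range g).Nonempty := Set.range_nonempty g
    have hbdd : BddAbove (Set.range g) := ⟨μ, by rintro _ ⟨K', rfl⟩; exact hg K'⟩
    obtain ⟨K0, hK0⟩ := Nat.sSup_mem hne hbdd
    have hmax : ∀ K', g K' ≤ g K0 := fun K' => by rw [hK0]; exact le_csSup hbdd ⟨K', rfl⟩
    refine ⟨K0, fun k hk => ?_⟩
    obtain ⟨n, rfl⟩ := Int.eq_ofNat_of_zero_le (by omega : 0 ≤ k)
    have hn : K0 < n := by exact_mod_cast hk
    have h1 : g K0 + finrank K (W (n : ℤ)) ≤ g n := by
      obtain ⟨n', rfl⟩ : ∃ n', n = n' + 1 := ⟨n - 1, by omega⟩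
      have h2 : g (n' + 1) = g n' + finrank K (W ((n' + 1 : ℕ) : ℤ)) :=
        Finset.sum_range_succ _ _
      have h3 : g K0 ≤ g n' :=
        Finset.sum_le_sum_of_subset (by intro i hi; simp only [mem_range] at hi ⊢; omega)
      omega
    have h4 : finrank K (W (n : ℤ)) = 0 := by have := hmax n; omega
    have := hfinW n
    exact Submodule.finrank_eq_zero.mp h4
  have hWneg : ∀ k : ℤ, k < 0 → W k = ⊥ := fun k hk => by
    have := hWle k
    rw [h.neg k hk] at this
    exact le_bot_iff.mp this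
  -- generators
  let d : Fin (K0 + 1) → ℕ := fun κ => finrank K (W ((κ : ℕ) : ℤ))
  let b : ∀ κ : Fin (K0 + 1), Basis (Fin (d κ)) K (W ((κ : ℕ) : ℤ)) := fun κ =>
    haveI := hfinW ((κ : ℕ) : ℤ)
    Module.finBasis K _
  let wt : (Σ κ : Fin (K0 + 1), Fin (d κ)) → ℤ := fun j => ((j.1 : ℕ) : ℤ)
  let F : (Σ κ : Fin (K0 + 1), Fin (d κ)) → A := fun j => (b j.1 j.2 : A)
  have hFW : ∀ j, F j ∈ W (wt j) := fun j => (b j.1 j.2).2
  have hFmem : ∀ j, F j ∈ M (wt j) := fun j => hWle _ (hFW j)
  -- sums supported in one degree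
  have hsum_single : ∀ (κ : Fin (K0 + 1)) (c : (Σ κ : Fin (K0 + 1), Fin (d κ)) → K),
      (∀ j, wt j ≠ ((κ : ℕ) : ℤ) → c j = 0) →
      ∑ j, c j • F j = ∑ i : Fin (d κ), c ⟨κ, i⟩ • (b κ i : A) := by
    intro κ c hc
    rw [Fintype.sum_sigma]
    rw [Finset.sum_eq_single κ]
    · intro κ' _ hκ'
      apply Finset.sum_eq_zero
      intro i _
      rw [hc ⟨κ', i⟩ (by
        simp only [wt]
        intro h0
        exact hκ' (Fin.ext (by exact_mod_cast h0))), zero_smul]
    · intro h0
      exact absurd (Finset.mem_univ κ) h0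
  have hgen : ∀ k, ∀ f ∈ M k, ∃ c : (Σ κ : Fin (K0 + 1), Fin (d κ)) → K,
      (∀ j, wt j ≠ k → c j = 0) ∧
      ∃ g ∈ M (k - 4), ∃ h' ∈ M (k - 6), f = x * g + y * h' + ∑ j, c j • F j := by
    intro k f hf
    obtain ⟨n, hn, w, hw, rfl⟩ := Submodule.mem_sup.mp (by rw [hWsup k]; exact hf)
    obtain ⟨g, hg, h', hh', rfl⟩ := mem_decomp_iff.mp hn
    by_cases hk : 0 ≤ k ∧ k ≤ K0
    · obtain ⟨n, rfl⟩ := Int.eq_ofNat_of_zero_le hk.1
      have hnK : n < K0 + 1 := by have := hk.2; omega
      let κ : Fin (K0 + 1) := ⟨n, hnK⟩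
      let c : (Σ κ : Fin (K0 + 1), Fin (d κ)) → K := fun j =>
        if hj : j.1 = κ then (b κ).repr ⟨w, hw⟩ (hj ▸ j.2) else 0
      have hc : ∀ j, wt j ≠ (n : ℤ) → c j = 0 := by
        intro j hj
        have : j.1 ≠ κ := by
          intro h0
          apply hj
          simp only [wt, h0, κ]
        simp only [c, dif_neg this]
      refine ⟨c, hc, g, hg, h', hh', ?_⟩
      congr 1
      rw [hsum_single κ c hc]
      have h1 := congrArg Subtype.val ((b κ).sum_repr ⟨w, hw⟩)
      simp only [Submodule.coe_sum, Submodule.coe_smul] at h1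
      rw [← h1]
      apply Finset.sum_congr rfl
      intro i _
      simp only [c, dif_pos]
    · have hW0 : W k = ⊥ := by
        by_cases hk0 : k < 0
        · exact hWneg k hk0
        · exact hK0 k (by omega)
      rw [hW0] at hw
      rw [(Submodule.mem_bot K).mp hw]
      exact ⟨0, fun _ _ => rfl, g, hg, h', hh', by simp⟩
  have hind : ∀ k, ∀ c : (Σ κ : Fin (K0 + 1), Fin (d κ)) → K, (∀ j, wt j ≠ k → c j = 0) →
      (∃ g ∈ M (k - 4), ∃ h' ∈ M (k - 6), ∑ j, c j • F j = x * g + y * h') → ∀ j, c j = 0 := by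
    intro k c hc hdec j
    by_cases hj : wt j = k
    · subst hj
      obtain ⟨κ, i⟩ := j
      have hs := hsum_single κ c hc
      have hmemW : ∑ i : Fin (d κ), c ⟨κ, i⟩ • (b κ i : A) ∈ W ((κ : ℕ) : ℤ) :=
        Submodule.sum_mem _ fun i _ => Submodule.smul_mem _ _ (b κ i).2
      have hmemN : ∑ i : Fin (d κ), c ⟨κ, i⟩ • (b κ i : A) ∈ decomp x y M ((κ : ℕ) : ℤ) := by
        rw [← hs]
        exact mem_decomp_iff.mpr hdec
      have hzero : ∑ i : Fin (d κ), c ⟨κ, i⟩ • (b κ i : A) = 0 := by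
        have : ∑ i : Fin (d κ), c ⟨κ, i⟩ • (b κ i : A) ∈
            decomp x y M ((κ : ℕ) : ℤ) ⊓ W ((κ : ℕ) : ℤ) := ⟨hmemN, hmemW⟩
        rw [hWinf] at this
        exact (Submodule.mem_bot K).mp this
      have hzero' : ∑ i : Fin (d κ), c ⟨κ, i⟩ • b κ i = 0 := by
        apply Subtype.ext
        simp only [Submodule.coe_sum, Submodule.coe_smul, Submodule.coe_zero]
        exact hzero
      exact Fintype.linearIndependent_iff.mp (b κ).linearIndependent _ hzero' i
    · exact hc j hj
  have hwt : ∀ j, 0 ≤ wt j := fun j => by simp only [wt]; positivity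
  have hex := h.exists_expansion wt F hgen
  refine ⟨Σ κ : Fin (K0 + 1), Fin (d κ), inferInstance, wt, F, ?_, hwt, hFmem, hex,
    h.expansion_unique wt F hwt hFmem hex hind⟩
  rw [Fintype.card_sigma]
  simp only [Fintype.card_fin]
  have h1 := hbound K0
  rw [← Fin.sum_univ_eq_sum_range (fun k => (finrank K (W (k : ℤ)) : ℤ)) (K0 + 1)] at h1
  have h2 : ((∑ κ : Fin (K0 + 1), d κ : ℕ) : ℤ) ≤ μ := by
    push_cast
    exact h1
  exact_mod_cast h2

/-- Main theorem of the abstract core: `M` is free over `R` on finitely many homogeneous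
generators, at most `μ` of them, with unique expansions in every degree. -/
theorem exists_free_generators (h : RegSeqData x y M R) (μ : ℕ) (hodd : ∀ k, Odd k → M k = ⊥)
    (hgrowth : ∀ k, 0 ≤ k → 12 * (finrank K (M k) : ℤ) ≤ μ * k + 12) :
    ∃ (r : ℕ) (wt : Fin r → ℤ) (F : Fin r → A), r ≤ μ ∧ (∀ j, 0 ≤ wt j) ∧
      (∀ j, F j ∈ M (wt j)) ∧
      ∀ k, ∀ f ∈ M k, ∃! P : Fin r → A, (∀ j, P j ∈ R (k - wt j)) ∧ f = ∑ j, P j * F j := by
  obtain ⟨ι, _, wt, F, hcard, hwt, hF, hex, huniq⟩ := h.exists_generators μ hodd hgrowth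
  let e := Fintype.equivFin ι
  refine ⟨Fintype.card ι, wt ∘ e.symm, F ∘ e.symm, hcard, fun j => hwt _, fun j => hF _,
    fun k f hf => ?_⟩
  obtain ⟨P, hP, hfP⟩ := hex k f hf
  refine ⟨P ∘ e.symm, ⟨fun j => hP _, ?_⟩, ?_⟩
  · rw [hfP]
    exact (Equiv.sum_comp e.symm (fun j => P j * F j)).symm
  · rintro P' ⟨hP', hfP'⟩
    have hD := huniq k (fun j => P' (e j) - P j)
      (fun j => Submodule.sub_mem _ (by simpa using hP' (e j)) (hP j))
      (by
        have h1 : ∑ j, P' (e j) * F j = f := by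
          rw [hfP']
          have := Equiv.sum_comp e (fun i => P' i * (F ∘ e.symm) i)
          simpa using this
        simp only [sub_mul, Finset.sum_sub_distrib]
        rw [h1, hfP, sub_self])
    funext i
    have := hD (e.symm i)
    simp only [Equiv.apply_symm_apply] at this
    simpa using sub_eq_zero.mp this

end RegSeqData

end core

end Fermat.Agent.S20.helper1235
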