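/-
S20 (dim S₂(Γ₀(N)) = genus formula): common definitions for the elementary route
(free module over ℂ[E₄,E₆] + Serre derivative + duality).  Author seat: helper560.
All modular forms are handled as plain functions `ℍ → ℂ` lying in submodules.
-/
import Mathlib

set_option autoImplicit false

open UpperHalfPlane ModularForm
open scoped MatrixGroups Manifold Pointwise

namespace Fermat.Agent.S20.helper560

noncomputable section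

/-- Weight `k` modular forms for `𝒢`, as a `ℂ`-submodule of the functions `ℍ → ℂ`. -/
def MFG (𝒢 : Subgroup (GL (Fin 2) ℝ)) [𝒢.HasDetOne] (k : ℤ) : Submodule ℂ (ℍ → ℂ) where
  carrier := {f | ∃ F : ModularForm 𝒢 k, ⇑F = f}
  add_mem' := by
    rintro _ _ ⟨F, rfl⟩ ⟨G, rfl⟩
    exact ⟨F + G, rfl⟩
  zero_mem' := ⟨0, rfl⟩
  smul_mem' := by
    rintro c _ ⟨F, rfl⟩
    exact ⟨c • F, rfl⟩

/-- Weight `k` cusp forms for `𝒢`, as a `ℂ`-submodule of the functions `ℍ → ℂ`. -/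
def CFG (𝒢 : Subgroup (GL (Fin 2) ℝ)) [𝒢.HasDetOne] (k : ℤ) : Submodule ℂ (ℍ → ℂ) where
  carrier := {f | ∃ F : CuspForm 𝒢 k, ⇑F = f}
  add_mem' := by
    rintro _ _ ⟨F, rfl⟩ ⟨G, rfl⟩
    exact ⟨F + G, rfl⟩
  zero_mem' := ⟨0, rfl⟩
  smul_mem' := by
    rintro c _ ⟨F, rfl⟩
    exact ⟨c • F, rfl⟩

theorem mem_MFG {𝒢 : Subgroup (GL (Fin 2) ℝ)} [𝒢.HasDetOne] {k : ℤ} {f : ℍ → ℂ} :
    f ∈ MFG 𝒢 k ↔ ∃ F : ModularForm 𝒢 k, ⇑F = f := Iff.rfl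

theorem mem_CFG {𝒢 : Subgroup (GL (Fin 2) ℝ)} [𝒢.HasDetOne] {k : ℤ} {f : ℍ → ℂ} :
    f ∈ CFG 𝒢 k ↔ ∃ F : CuspForm 𝒢 k, ⇑F = f := Iff.rfl

/-- Level one modular forms of weight `k` (the graded pieces of the ring `ℂ[E₄,E₆]`). -/
abbrev RR (k : ℤ) : Submodule ℂ (ℍ → ℂ) := MFG 𝒮ℒ k

/-- The coset space `SL(2,ℤ)/𝒢` in the form used by Mathlib's `SlashInvariantForm.quotientFunc`. -/
abbrev Q (𝒢 : Subgroup (GL (Fin 2) ℝ)) : Type := 𝒮ℒ ⧸ 𝒢.subgroupOf 𝒮ℒ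

instance instFintypeQ (𝒢 : Subgroup (GL (Fin 2) ℝ)) [𝒢.IsArithmetic] : Fintype (Q 𝒢) :=
  Fintype.ofFinite _

/-- An element of `SL(2,ℤ)` as an element of the subgroup `𝒮ℒ` of `GL(2,ℝ)`. -/
def sl (γ : SL(2, ℤ)) : 𝒮ℒ := ⟨Matrix.SpecialLinearGroup.mapGL ℝ γ, γ, rfl⟩

/-- The translate of `f` (of weight `k`) attached to the coset `q = g𝒢`: it is `f ∣[k] g⁻¹`
(for the chosen representative `g = q.out`; independent of the choice when `f` is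
`𝒢`-invariant of weight `k`). -/
def tr (𝒢 : Subgroup (GL (Fin 2) ℝ)) (k : ℤ) (f : ℍ → ℂ) (q : Q 𝒢) : ℍ → ℂ :=
  f ∣[k] ((q.out : 𝒮ℒ) : GL (Fin 2) ℝ)⁻¹

/-- The index `[SL(2,ℤ) : 𝒢]`. -/
def mu (𝒢 : Subgroup (GL (Fin 2) ℝ)) : ℕ := Nat.card (Q 𝒢)

/-- Number of cosets fixed by `S` (elliptic points of order 2). -/
def e2 (𝒢 : Subgroup (GL (Fin 2) ℝ)) : ℕ :=
  Nat.card {q : Q 𝒢 // sl ModularGroup.S • q = q}

/-- Number of cosets fixed by `S * T` (elliptic points of order 3). -/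
def e3 (𝒢 : Subgroup (GL (Fin 2) ℝ)) : ℕ :=
  Nat.card {q : Q 𝒢 // sl (ModularGroup.S * ModularGroup.T) • q = q}

/-- Number of orbits of `T` on the cosets (cusps). -/
def cusps (𝒢 : Subgroup (GL (Fin 2) ℝ)) : ℕ :=
  Nat.card (MulAction.orbitRel.Quotient (Subgroup.zpowers (sl ModularGroup.T)) (Q 𝒢))

/-- Standing hypotheses on the level: `𝒢 ≤ SL(2,ℤ)`, `-1 ∈ 𝒢`, and every `SL(2,ℤ)`-conjugate
of `𝒢` contains the translation by `N` (true for congruence subgroups of level `N`). -/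
structure GoodLevel (𝒢 : Subgroup (GL (Fin 2) ℝ)) (N : ℕ) : Prop where
  le : 𝒢 ≤ 𝒮ℒ
  neg : -1 ∈ 𝒢
  pos : 0 < N
  per : ∀ γ : SL(2, ℤ),
    (N : ℝ) ∈ (ConjAct.toConjAct (Matrix.SpecialLinearGroup.mapGL ℝ γ) • 𝒢).strictPeriods

/-- `F : J → (ℍ → ℂ)` with weights `κ` is a homogeneous basis of the graded module
`V = ⨁ V k` over the graded ring `⨁ RR k` of level one forms. -/
def IsFreeBasis (V : ℤ → Submodule ℂ (ℍ → ℂ)) {J : Type} [Fintype J]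
    (κ : J → ℤ) (F : J → ℍ → ℂ) : Prop :=
  (∀ j, F j ∈ V (κ j)) ∧
    ∀ k, ∀ f ∈ V k, ∃! P : J → ℍ → ℂ, (∀ j, P j ∈ RR (k - κ j)) ∧ f = ∑ j, P j * F j

/-- The matrix of translates of a family `F` of weights `κ` evaluated at `z`. -/
def transMatrix (𝒢 : Subgroup (GL (Fin 2) ℝ)) {J : Type} (κ : J → ℤ) (F : J → ℍ → ℂ) (z : ℍ) :
    Matrix (Q 𝒢) J ℂ :=
  Matrix.of fun q j => tr 𝒢 (κ j) (F j) q z

/-- The determinant of the (square) matrix of translates of a family indexed by `Q 𝒢`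
(the "fundamental matrix" `Φ(z)`). -/
def fundDet (𝒢 : Subgroup (GL (Fin 2) ℝ)) [𝒢.IsArithmetic] (κ : Q 𝒢 → ℤ) (F : Q 𝒢 → ℍ → ℂ)
    (z : ℍ) : ℂ := by
  classical exact (transMatrix 𝒢 κ F z).det

/-- The elliptic point `ρ = e^{2πi/3}`, fixed by `S * T : z ↦ -1/(z+1)`. -/
def rho : ℍ := ⟨⟨-1 / 2, Real.sqrt 3 / 2⟩, by positivity⟩

/-- Existence of a form whose stabiliser in `SL(2,ℤ)` (for the slash action) is exactly `𝒢`. -/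
def Seed (𝒢 : Subgroup (GL (Fin 2) ℝ)) [𝒢.HasDetOne] : Prop :=
  ∃ (k : ℤ) (h : ℍ → ℂ), h ∈ MFG 𝒢 k ∧
    ∀ γ : SL(2, ℤ), h ∣[k] γ = h → Matrix.SpecialLinearGroup.mapGL ℝ γ ∈ 𝒢

/-- `tr` agrees with Mathlib's `quotientFunc` on genuine modular forms. -/
theorem tr_eq_quotientFunc {𝒢 : Subgroup (GL (Fin 2) ℝ)} [𝒢.HasDetOne] {k : ℤ}
    (F : ModularForm 𝒢 k) (q : Q 𝒢) :
    tr 𝒢 k ⇑F q = SlashInvariantForm.quotientFunc (ℋ := 𝒮ℒ) F q := by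
  conv_rhs => rw [← QuotientGroup.out_eq' q]
  rfl

/-- `tr` agrees with Mathlib's `quotientFunc` on genuine cusp forms. -/
theorem tr_eq_quotientFunc_cusp {𝒢 : Subgroup (GL (Fin 2) ℝ)} [𝒢.HasDetOne] {k : ℤ}
    (F : CuspForm 𝒢 k) (q : Q 𝒢) :
    tr 𝒢 k ⇑F q = SlashInvariantForm.quotientFunc (ℋ := 𝒮ℒ) F q := by
  conv_rhs => rw [← QuotientGroup.out_eq' q]
  rfl

end

end Fermat.Agent.S20.helper560
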