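/-
S20 (dim S₂(Γ₀(N)) = genus formula): SPEC / interface file (seat helper560).
Every intermediate result of the elementary route is a `Prop`-valued definition here
(`Goal_*`), to be proved in separate files in hypothesis-passing style.
The final assembly (S20 from the goals) is in `helper560_Assembly.lean`.

Notation: `MFG 𝒢 k`, `CFG 𝒢 k` = modular / cusp forms of weight `k` as submodules of `ℍ → ℂ`;
`RR k = MFG 𝒮ℒ k`; `Q 𝒢 = 𝒮ℒ ⧸ 𝒢`; `tr 𝒢 k f q` = translate of `f` attached to the coset `q`;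
`fundDet 𝒢 κ F z` = determinant of the matrix `(tr 𝒢 (κ j) (F j) q z)_{q,j}`.
-/
import Fermat.Agent.S20.helper560_Defs
import Fermat.Prelude.Def_ModularCurve_GenusNumerics

set_option autoImplicit false

open UpperHalfPlane ModularForm
open scoped MatrixGroups Manifold Pointwise

namespace Fermat.Agent.S20.helper560

noncomputable section

/-- The group `Γ₀(N)` inside `GL(2,ℝ)` (this is what `CuspForm (Gamma0 N) 2` uses). -/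
abbrev G0 (N : ℕ) : Subgroup (GL (Fin 2) ℝ) :=
  (CongruenceSubgroup.Gamma0 N).map (Matrix.SpecialLinearGroup.mapGL ℝ)

section general

variable (𝒢 : Subgroup (GL (Fin 2) ℝ)) [𝒢.IsArithmetic] [𝒢.HasDetOne]

/-- (DIV) `E₄, E₆` is a regular sequence on the graded module `V`. -/
def Stmt_Div (V : ℤ → Submodule ℂ (ℍ → ℂ)) : Prop :=
  ∀ (k : ℤ) (a b : ℍ → ℂ), a ∈ V (k - 4) → b ∈ V (k - 6) → ⇑E₆ * b = ⇑E₄ * a →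
    ∃ c ∈ V (k - 10), b = ⇑E₄ * c ∧ a = ⇑E₆ * c

/-- (BASIC) elementary structural facts about the graded modules `MFG 𝒢`, `CFG 𝒢`. -/
def Stmt_Basic : Prop :=
  (∀ k : ℤ, k < 0 → MFG 𝒢 k = ⊥) ∧
  (∀ k : ℤ, Odd k → MFG 𝒢 k = ⊥) ∧
  Module.finrank ℂ (MFG 𝒢 0) = 1 ∧
  (∀ k : ℤ, k ≤ 0 → CFG 𝒢 k = ⊥) ∧
  (∀ k : ℤ, CFG 𝒢 k ≤ MFG 𝒢 k) ∧
  (∀ (a b : ℤ) (P f : ℍ → ℂ), P ∈ RR a → f ∈ MFG 𝒢 b → P * f ∈ MFG 𝒢 (a + b)) ∧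
  (∀ (a b : ℤ) (P f : ℍ → ℂ), P ∈ RR a → f ∈ CFG 𝒢 b → P * f ∈ CFG 𝒢 (a + b)) ∧
  (∀ k : ℤ, Module.Finite ℂ (MFG 𝒢 k)) ∧
  Module.finrank ℂ (CFG 𝒢 2) = Module.finrank ℂ (CuspForm 𝒢 2)

/-- (BASIS) `V` has a homogeneous free basis over the level one ring, indexed by the cosets,
whose fundamental matrix is invertible at some point. -/
def Stmt_Basis (V : ℤ → Submodule ℂ (ℍ → ℂ)) : Prop :=
  ∃ (κ : Q 𝒢 → ℤ) (F : Q 𝒢 → ℍ → ℂ), IsFreeBasis V κ F ∧ ∃ z, fundDet 𝒢 κ F z ≠ 0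

/-- (ODE) for a free basis, the fundamental determinant vanishes nowhere on `ℍ` as soon as it
is not identically zero (Serre derivative + Liouville/Abel formula: `(det Φ)^12 = c Δ^K`). -/
def Stmt_ODE (V : ℤ → Submodule ℂ (ℍ → ℂ)) : Prop :=
  ∀ (κ : Q 𝒢 → ℤ) (F : Q 𝒢 → ℍ → ℂ), IsFreeBasis V κ F →
    (∃ z, fundDet 𝒢 κ F z ≠ 0) → ∀ z, fundDet 𝒢 κ F z ≠ 0

/-- (ELL-S) trace identity at the elliptic point `i` (fixed by `S`, automorphy factor `i`). -/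
def Stmt_EllS : Prop :=
  ∀ (κ : Q 𝒢 → ℤ) (F : Q 𝒢 → ℍ → ℂ), (∀ j, F j ∈ MFG 𝒢 (κ j)) →
    fundDet 𝒢 κ F UpperHalfPlane.I ≠ 0 →
    ∑ j, Complex.I ^ (-(κ j)) = (e2 𝒢 : ℂ)

/-- (ELL-ST) trace identity at the elliptic point `ρ` (fixed by `S * T`, automorphy factor
`ρ + 1`). -/
def Stmt_EllST : Prop :=
  ∀ (κ : Q 𝒢 → ℤ) (F : Q 𝒢 → ℍ → ℂ), (∀ j, F j ∈ MFG 𝒢 (κ j)) →
    fundDet 𝒢 κ F rho ≠ 0 →
    ∑ j, ((rho : ℂ) + 1) ^ (-(κ j)) = (e3 𝒢 : ℂ)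

/-- (CUSP) if `dim M_k - dim M_{k-12} = μ` (leading-coefficient map onto), then
`dim M_k - dim S_k` is the number of cusps. -/
def Stmt_Cusp : Prop :=
  ∀ k : ℤ, Module.finrank ℂ (MFG 𝒢 k) = Module.finrank ℂ (MFG 𝒢 (k - 12)) + mu 𝒢 →
    Module.finrank ℂ (MFG 𝒢 k) = Module.finrank ℂ (CFG 𝒢 k) + cusps 𝒢

/-- (DUAL) trace duality between the free bases of `M` and `S`: the generator weights match
up as `κ j + κ' (σ j) = 12`. -/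
def Stmt_Dual : Prop :=
  ∀ (κ κ' : Q 𝒢 → ℤ) (F G : Q 𝒢 → ℍ → ℂ),
    IsFreeBasis (MFG 𝒢) κ F → IsFreeBasis (CFG 𝒢) κ' G →
    (∀ z, fundDet 𝒢 κ F z ≠ 0) → (∀ z, fundDet 𝒢 κ' G z ≠ 0) →
    ∃ σ : Q 𝒢 ≃ Q 𝒢, ∀ j, κ j + κ' (σ j) = 12

end general

/-- (HILB) Hilbert function of a free graded module (pure linear algebra). -/
def Goal_Hilbert : Prop :=
  ∀ (V : ℤ → Submodule ℂ (ℍ → ℂ)) (J : Type) [Fintype J] (κ : J → ℤ) (F : J → ℍ → ℂ),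
    IsFreeBasis V κ F →
    (∀ (a b : ℤ) (P f : ℍ → ℂ), P ∈ RR a → f ∈ V b → P * f ∈ V (a + b)) →
    ∀ k : ℤ, Module.finrank ℂ (V k) = ∑ j, Module.finrank ℂ (RR (k - κ j))

/-- (RRDIM) the level one dimension formula, for all integer weights. -/
def Goal_RRdim : Prop :=
  ∀ k : ℤ, Module.finrank ℂ (RR k) =
    if k < 0 ∨ Odd k then 0 else if k % 12 = 2 then (k / 12).toNat else (k / 12).toNat + 1

/-! ### The goals (universally quantified over the level) -/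

def Goal_Basic : Prop :=
  ∀ (𝒢 : Subgroup (GL (Fin 2) ℝ)) [𝒢.IsArithmetic] [𝒢.HasDetOne] (N : ℕ),
    GoodLevel 𝒢 N → Stmt_Basic 𝒢

def Goal_DivM : Prop :=
  ∀ (𝒢 : Subgroup (GL (Fin 2) ℝ)) [𝒢.IsArithmetic] [𝒢.HasDetOne] (N : ℕ),
    GoodLevel 𝒢 N → Stmt_Div (MFG 𝒢)

def Goal_DivS : Prop :=
  ∀ (𝒢 : Subgroup (GL (Fin 2) ℝ)) [𝒢.IsArithmetic] [𝒢.HasDetOne] (N : ℕ),
    GoodLevel 𝒢 N → Stmt_Div (CFG 𝒢)

def Goal_BasisM : Prop :=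
  ∀ (𝒢 : Subgroup (GL (Fin 2) ℝ)) [𝒢.IsArithmetic] [𝒢.HasDetOne] (N : ℕ),
    GoodLevel 𝒢 N → Seed 𝒢 → Stmt_Basis 𝒢 (MFG 𝒢)

def Goal_BasisS : Prop :=
  ∀ (𝒢 : Subgroup (GL (Fin 2) ℝ)) [𝒢.IsArithmetic] [𝒢.HasDetOne] (N : ℕ),
    GoodLevel 𝒢 N → Seed 𝒢 → Stmt_Basis 𝒢 (CFG 𝒢)

def Goal_ODEM : Prop :=
  ∀ (𝒢 : Subgroup (GL (Fin 2) ℝ)) [𝒢.IsArithmetic] [𝒢.HasDetOne] (N : ℕ),
    GoodLevel 𝒢 N → Stmt_ODE 𝒢 (MFG 𝒢)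

def Goal_ODES : Prop :=
  ∀ (𝒢 : Subgroup (GL (Fin 2) ℝ)) [𝒢.IsArithmetic] [𝒢.HasDetOne] (N : ℕ),
    GoodLevel 𝒢 N → Stmt_ODE 𝒢 (CFG 𝒢)

def Goal_EllS : Prop :=
  ∀ (𝒢 : Subgroup (GL (Fin 2) ℝ)) [𝒢.IsArithmetic] [𝒢.HasDetOne] (N : ℕ),
    GoodLevel 𝒢 N → Stmt_EllS 𝒢

def Goal_EllST : Prop :=
  ∀ (𝒢 : Subgroup (GL (Fin 2) ℝ)) [𝒢.IsArithmetic] [𝒢.HasDetOne] (N : ℕ),
    GoodLevel 𝒢 N → Stmt_EllST 𝒢

def Goal_Cusp : Prop :=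
  ∀ (𝒢 : Subgroup (GL (Fin 2) ℝ)) [𝒢.IsArithmetic] [𝒢.HasDetOne] (N : ℕ),
    GoodLevel 𝒢 N → Stmt_Cusp 𝒢

def Goal_Dual : Prop :=
  ∀ (𝒢 : Subgroup (GL (Fin 2) ℝ)) [𝒢.IsArithmetic] [𝒢.HasDetOne] (N : ℕ),
    GoodLevel 𝒢 N → Stmt_Dual 𝒢

/-! ### Goals specific to `Γ₀(N)` -/

/-- `Γ₀(N)` satisfies the standing hypotheses with period `N`. -/
def Goal_GoodLevel : Prop := ∀ (N : ℕ) [NeZero N], GoodLevel (G0 N) N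

/-- a weight `k` form on `Γ₀(N)` with stabiliser exactly `Γ₀(N)` (e.g. `E₄(Nz)` or an
Eisenstein series of level `N`). -/
def Goal_Seed : Prop := ∀ (N : ℕ) [NeZero N], Seed (G0 N)

def Goal_Index : Prop := ∀ (N : ℕ) [NeZero N], mu (G0 N) = ModularCurve.dedekindPsi N

def Goal_E2 : Prop := ∀ (N : ℕ) [NeZero N], e2 (G0 N) = ModularCurve.nuTwo N

def Goal_E3 : Prop := ∀ (N : ℕ) [NeZero N], e3 (G0 N) = ModularCurve.nuThree N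

def Goal_Cusps : Prop := ∀ (N : ℕ) [NeZero N], cusps (G0 N) = ModularCurve.cuspCount N

/-- The statement S20 itself. -/
def Goal_S20 : Prop :=
  ∀ (N : ℕ) [NeZero N],
    (Module.finrank ℂ (CuspForm (CongruenceSubgroup.Gamma0 N) 2) : ℚ) = ModularCurve.genusFormula N

end

end Fermat.Agent.S20.helper560
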