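/-
S20, helper560 route: `Goal_RRdim` (level one dimension formula for all integer weights,
function-level) plus the linear equivalences `ModularForm 𝒢 k ≃ₗ[ℂ] MFG 𝒢 k`,
`CuspForm 𝒢 k ≃ₗ[ℂ] CFG 𝒢 k`.  Author seat: helper2805.
-/
import Fermat.Agent.S20.helper560_Spec

set_option autoImplicit false

open UpperHalfPlane ModularForm
open scoped MatrixGroups Manifold Pointwise

namespace Fermat.Agent.S20.helper2805

open Fermat.Agent.S20.helper560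

noncomputable section

/-- The coercion `ModularForm 𝒢 k → (ℍ → ℂ)` as a linear map. -/
def mfCoe (𝒢 : Subgroup (GL (Fin 2) ℝ)) [𝒢.HasDetOne] (k : ℤ) :
    ModularForm 𝒢 k →ₗ[ℂ] (ℍ → ℂ) where
  toFun F := ⇑F
  map_add' _ _ := rfl
  map_smul' _ _ := rfl

/-- The coercion `CuspForm 𝒢 k → (ℍ → ℂ)` as a linear map. -/
def cfCoe (𝒢 : Subgroup (GL (Fin 2) ℝ)) [𝒢.HasDetOne] (k : ℤ) :
    CuspForm 𝒢 k →ₗ[ℂ] (ℍ → ℂ) where
  toFun F := ⇑F
  map_add' _ _ := rfl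
  map_smul' _ _ := rfl

theorem mfCoe_injective (𝒢 : Subgroup (GL (Fin 2) ℝ)) [𝒢.HasDetOne] (k : ℤ) :
    Function.Injective (mfCoe 𝒢 k) := fun _ _ h => DFunLike.coe_injective h

theorem cfCoe_injective (𝒢 : Subgroup (GL (Fin 2) ℝ)) [𝒢.HasDetOne] (k : ℤ) :
    Function.Injective (cfCoe 𝒢 k) := fun _ _ h => DFunLike.coe_injective h

theorem range_mfCoe (𝒢 : Subgroup (GL (Fin 2) ℝ)) [𝒢.HasDetOne] (k : ℤ) :
    LinearMap.range (mfCoe 𝒢 k) = MFG 𝒢 k := by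
  ext f
  rfl

theorem range_cfCoe (𝒢 : Subgroup (GL (Fin 2) ℝ)) [𝒢.HasDetOne] (k : ℤ) :
    LinearMap.range (cfCoe 𝒢 k) = CFG 𝒢 k := by
  ext f
  rfl

/-- `ModularForm 𝒢 k` is linearly equivalent to the function-level submodule `MFG 𝒢 k`. -/
def mfgEquiv (𝒢 : Subgroup (GL (Fin 2) ℝ)) [𝒢.HasDetOne] (k : ℤ) :
    ModularForm 𝒢 k ≃ₗ[ℂ] MFG 𝒢 k :=
  (LinearEquiv.ofInjective (mfCoe 𝒢 k) (mfCoe_injective 𝒢 k)).trans
    (LinearEquiv.ofEq _ _ (range_mfCoe 𝒢 k))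

/-- `CuspForm 𝒢 k` is linearly equivalent to the function-level submodule `CFG 𝒢 k`. -/
def cfgEquiv (𝒢 : Subgroup (GL (Fin 2) ℝ)) [𝒢.HasDetOne] (k : ℤ) :
    CuspForm 𝒢 k ≃ₗ[ℂ] CFG 𝒢 k :=
  (LinearEquiv.ofInjective (cfCoe 𝒢 k) (cfCoe_injective 𝒢 k)).trans
    (LinearEquiv.ofEq _ _ (range_cfCoe 𝒢 k))

@[simp] theorem coe_mfgEquiv (𝒢 : Subgroup (GL (Fin 2) ℝ)) [𝒢.HasDetOne] (k : ℤ)
    (F : ModularForm 𝒢 k) : ((mfgEquiv 𝒢 k F : MFG 𝒢 k) : ℍ → ℂ) = ⇑F := rfl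

@[simp] theorem coe_cfgEquiv (𝒢 : Subgroup (GL (Fin 2) ℝ)) [𝒢.HasDetOne] (k : ℤ)
    (F : CuspForm 𝒢 k) : ((cfgEquiv 𝒢 k F : CFG 𝒢 k) : ℍ → ℂ) = ⇑F := rfl

theorem finrank_MFG (𝒢 : Subgroup (GL (Fin 2) ℝ)) [𝒢.HasDetOne] (k : ℤ) :
    Module.finrank ℂ (MFG 𝒢 k) = Module.finrank ℂ (ModularForm 𝒢 k) :=
  (mfgEquiv 𝒢 k).finrank_eq.symm

theorem finrank_CFG (𝒢 : Subgroup (GL (Fin 2) ℝ)) [𝒢.HasDetOne] (k : ℤ) :
    Module.finrank ℂ (CFG 𝒢 k) = Module.finrank ℂ (CuspForm 𝒢 k) :=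
  (cfgEquiv 𝒢 k).finrank_eq.symm

theorem rank_MFG (𝒢 : Subgroup (GL (Fin 2) ℝ)) [𝒢.HasDetOne] (k : ℤ) :
    Module.rank ℂ (MFG 𝒢 k) = Module.rank ℂ (ModularForm 𝒢 k) :=
  (mfgEquiv 𝒢 k).rank_eq.symm

/-- The level one dimension formula, as a `finrank`, for natural even weights. -/
theorem finrank_levelOne_nat (k : ℕ) (hk : Even k) :
    Module.finrank ℂ (ModularForm 𝒮ℒ (k : ℤ)) = if k % 12 = 2 then k / 12 else k / 12 + 1 := by
  have h := ModularForm.dimension_level_one k hk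
  unfold Module.finrank
  rw [h, Cardinal.toNat_natCast]
  simp only [Nat.ModEq]
  norm_num

/-- `Goal_RRdim` of `helper560_Spec`: the level one dimension formula, all integer weights. -/
theorem goal_RRdim : Goal_RRdim := by
  intro k
  rw [show RR k = MFG 𝒮ℒ k from rfl, finrank_MFG]
  by_cases hneg : k < 0
  · rw [if_pos (Or.inl hneg)]
    unfold Module.finrank
    rw [ModularForm.levelOne_neg_weight_rank_zero hneg]
    simp
  by_cases hodd : Odd k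
  · rw [if_pos (Or.inr hodd)]
    unfold Module.finrank
    rw [ModularForm.levelOne_odd_weight_rank_zero hodd]
    simp
  rw [if_neg (by tauto)]
  have hk0 : 0 ≤ k := not_lt.mp hneg
  have hev : Even k := Int.not_odd_iff_even.mp hodd
  lift k to ℕ using hk0
  have hev' : Even k := by exact_mod_cast hev
  rw [finrank_levelOne_nat k hev']
  have h1 : ((k : ℤ) % 12 = 2) ↔ (k % 12 = 2) := by omega
  have h2 : ((k : ℤ) / 12).toNat = k / 12 := by omega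
  simp only [h1, h2]

end

end Fermat.Agent.S20.helper2805
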