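/-
S20, helper560 route: `Goal_Basic` (elementary structural facts on the graded modules
`MFG 𝒢`, `CFG 𝒢`).  Author seat: helper2805.
-/
import Fermat.Agent.S20.helper2805_RRdim
import Fermat.Prelude.Thm_ModularForm_eq_zero_of_lt_order_qExpansion_of_isArithmetic

set_option autoImplicit false

open UpperHalfPlane ModularForm
open scoped MatrixGroups Manifold Pointwise

namespace Fermat.Agent.S20.helper2805

open Fermat.Agent.S20.helper560

noncomputable section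

variable {𝒢 : Subgroup (GL (Fin 2) ℝ)}

/-- Restriction of the level of a modular form to a smaller group. -/
def restrictMF {ℋ : Subgroup (GL (Fin 2) ℝ)} (h : 𝒢 ≤ ℋ) {k : ℤ} (P : ModularForm ℋ k) :
    ModularForm 𝒢 k where
  toFun := P
  slash_action_eq' γ hγ := P.slash_action_eq' γ (h hγ)
  holo' := P.holo'
  bdd_at_cusps' hc := P.bdd_at_cusps' (hc.mono h)

@[simp] theorem coe_restrictMF {ℋ : Subgroup (GL (Fin 2) ℝ)} (h : 𝒢 ≤ ℋ) {k : ℤ}
    (P : ModularForm ℋ k) : ⇑(restrictMF h P) = ⇑P := rfl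

/-- Restriction of the level of a cusp form to a smaller group. -/
def restrictCF {ℋ : Subgroup (GL (Fin 2) ℝ)} (h : 𝒢 ≤ ℋ) {k : ℤ} (P : CuspForm ℋ k) :
    CuspForm 𝒢 k where
  toFun := P
  slash_action_eq' γ hγ := P.slash_action_eq' γ (h hγ)
  holo' := P.holo'
  zero_at_cusps' hc := P.zero_at_cusps' (hc.mono h)

@[simp] theorem coe_restrictCF {ℋ : Subgroup (GL (Fin 2) ℝ)} (h : 𝒢 ≤ ℋ) {k : ℤ}
    (P : CuspForm ℋ k) : ⇑(restrictCF h P) = ⇑P := rfl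

theorem MFG_eq_bot_of_neg [𝒢.IsArithmetic] [𝒢.HasDetOne] {k : ℤ} (hk : k < 0) :
    MFG 𝒢 k = ⊥ := by
  rw [eq_bot_iff]
  rintro _ ⟨F, rfl⟩
  rw [ModularForm.isZero_of_neg_weight hk F]
  simp

theorem MFG_eq_bot_of_odd [𝒢.HasDetOne] (hneg : -1 ∈ 𝒢) {k : ℤ} (hk : Odd k) :
    MFG 𝒢 k = ⊥ := by
  rw [eq_bot_iff]
  rintro _ ⟨F, rfl⟩
  rw [ModularForm.eq_zero_of_neg_one_mem hneg hk F]
  simp

theorem CFG_le_MFG [𝒢.HasDetOne] (k : ℤ) : CFG 𝒢 k ≤ MFG 𝒢 k := by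
  rintro _ ⟨F, rfl⟩
  exact ⟨ModularFormClass.modularForm F, rfl⟩

theorem MFG_zero_eq_span [𝒢.IsArithmetic] [𝒢.HasDetOne] :
    MFG 𝒢 0 = Submodule.span ℂ {(1 : ℍ → ℂ)} := by
  apply le_antisymm
  · rintro _ ⟨F, rfl⟩
    obtain ⟨c, hc⟩ := ModularForm.eq_const_of_weight_zero F
    rw [hc, Submodule.mem_span_singleton]
    refine ⟨c, ?_⟩
    ext z
    simp
  · rw [Submodule.span_singleton_le_iff_mem]
    exact ⟨ModularForm.const 1, by ext z; simp⟩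

theorem finrank_MFG_zero [𝒢.IsArithmetic] [𝒢.HasDetOne] : Module.finrank ℂ (MFG 𝒢 0) = 1 := by
  rw [MFG_zero_eq_span]
  apply finrank_span_singleton
  intro h
  have := congrFun h UpperHalfPlane.I
  simp at this

theorem CFG_eq_bot_of_nonpos [𝒢.IsArithmetic] [𝒢.HasDetOne] {k : ℤ} (hk : k ≤ 0) :
    CFG 𝒢 k = ⊥ := by
  rw [eq_bot_iff]
  rintro _ ⟨F, rfl⟩
  rcases hk.lt_or_eq with hk | rfl
  · have := ModularForm.isZero_of_neg_weight hk (ModularFormClass.modularForm F)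
    have h0 : (⇑F : ℍ → ℂ) = 0 := by
      have := congrArg (fun G : ModularForm 𝒢 k => (⇑G : ℍ → ℂ)) this
      simpa using this
    rw [h0]
    simp
  · obtain ⟨c, hc⟩ := ModularForm.eq_const_of_weight_zero (ModularFormClass.modularForm F)
    have hc' : (⇑F : ℍ → ℂ) = Function.const ℍ c := hc
    have hz : IsZeroAtImInfty (⇑F : ℍ → ℂ) := CuspFormClass.zero_at_infty F
    rw [hc'] at hz
    have : c = 0 := tendsto_nhds_unique tendsto_const_nhds hz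
    rw [hc', this]
    exact Submodule.zero_mem _

theorem RR_mul_MFG [𝒢.HasDetOne] (hle : 𝒢 ≤ 𝒮ℒ) (a b : ℤ) (P f : ℍ → ℂ) (hP : P ∈ RR a)
    (hf : f ∈ MFG 𝒢 b) : P * f ∈ MFG 𝒢 (a + b) := by
  obtain ⟨P, rfl⟩ := hP
  obtain ⟨F, rfl⟩ := hf
  exact ⟨(restrictMF hle P).mul F, rfl⟩

theorem RR_mul_CFG [𝒢.HasDetOne] (hle : 𝒢 ≤ 𝒮ℒ) (a b : ℤ) (P f : ℍ → ℂ) (hP : P ∈ RR a)
    (hf : f ∈ CFG 𝒢 b) : P * f ∈ CFG 𝒢 (a + b) := by
  obtain ⟨P, rfl⟩ := hP
  obtain ⟨F, rfl⟩ := hf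
  refine ⟨CuspForm.mcast (add_comm b a) (F.mulModularForm (restrictMF hle P)), ?_⟩
  ext z
  show F z * P z = P z * F z
  ring

/-- The first `B + 1` coefficients of the `q`-expansion at period `N`, as a linear map. -/
def coeffMap (𝒢 : Subgroup (GL (Fin 2) ℝ)) [𝒢.HasDetOne] (k : ℤ) {N : ℕ} (hN : 0 < N)
    (hper : (N : ℝ) ∈ 𝒢.strictPeriods) (B : ℕ) :
    ModularForm 𝒢 k →ₗ[ℂ] (Fin (B + 1) → ℂ) where
  toFun F n := (qExpansion (N : ℝ) F).coeff n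
  map_add' F G := by
    funext n
    have : qExpansion (N : ℝ) (⇑F + ⇑G) = qExpansion (N : ℝ) ⇑F + qExpansion (N : ℝ) ⇑G :=
      ModularForm.qExpansion_add (Nat.cast_pos.mpr hN) hper F G
    show (qExpansion (N : ℝ) (⇑F + ⇑G)).coeff n = _
    rw [this]
    simp
  map_smul' c F := by
    funext n
    have : qExpansion (N : ℝ) (c • ⇑F) = c • qExpansion (N : ℝ) ⇑F :=
      ModularForm.qExpansion_smul (Nat.cast_pos.mpr hN) hper c F
    show (qExpansion (N : ℝ) (c • ⇑F)).coeff n = _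
    rw [this]
    simp

theorem finite_MF [𝒢.IsArithmetic] [𝒢.HasDetOne] {N : ℕ} (hG : GoodLevel 𝒢 N) (k : ℤ) :
    Module.Finite ℂ (ModularForm 𝒢 k) := by
  have hper : (N : ℝ) ∈ 𝒢.strictPeriods := by
    have := hG.per 1
    simpa using this
  set B : ℕ := N * ((k * 𝒢.relIndex 𝒮ℒ).toNat / 12) with hB
  have hinj : Function.Injective (coeffMap 𝒢 k hG.pos hper B) := by
    rw [← LinearMap.ker_eq_bot, LinearMap.ker_eq_bot']
    intro F hF
    apply ModularForm.eq_zero_of_lt_order_qExpansion_of_isArithmetic F hG.pos hG.per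
    rw [← hB]
    have h1 : ((B + 1 : ℕ) : ℕ∞) ≤ (qExpansion (N : ℝ) ⇑F).order := by
      apply PowerSeries.nat_le_order
      intro i hi
      exact congrFun hF ⟨i, hi⟩
    calc ((B : ℕ) : ℕ∞) < ((B + 1 : ℕ) : ℕ∞) := by exact_mod_cast Nat.lt_succ_self B
      _ ≤ _ := h1
  exact Module.Finite.of_injective _ hinj

theorem finite_MFG [𝒢.IsArithmetic] [𝒢.HasDetOne] {N : ℕ} (hG : GoodLevel 𝒢 N) (k : ℤ) :
    Module.Finite ℂ (MFG 𝒢 k) :=
  haveI := finite_MF hG k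
  Module.Finite.equiv (mfgEquiv 𝒢 k)

/-- `Goal_Basic` of `helper560_Spec`. -/
theorem goal_Basic : Goal_Basic := by
  intro 𝒢 _ _ N hG
  refine ⟨fun k hk => MFG_eq_bot_of_neg hk, fun k hk => MFG_eq_bot_of_odd hG.neg hk,
    finrank_MFG_zero, fun k hk => CFG_eq_bot_of_nonpos hk, CFG_le_MFG,
    RR_mul_MFG hG.le, RR_mul_CFG hG.le, finite_MFG hG, finrank_CFG 𝒢 2⟩

end

end Fermat.Agent.S20.helper2805
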