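/-
S20: the regular-sequence (division) lemma for `E₄, E₆` on modular forms and on cusp forms of
an arithmetic subgroup `𝒢 ≤ SL(2,ℤ)`:
`E₆ * b = E₄ * a`  ⟹  `b = E₄ * c`, `a = E₆ * c` with `c` of weight ten less.
Proves `helper560.Goal_DivM` and `helper560.Goal_DivS` (exact Spec shapes).
Author seat: helper813.
-/
import Fermat.Agent.S20.helper560_Spec

set_option autoImplicit false

open UpperHalfPlane ModularForm EisensteinSeries
open scoped MatrixGroups Manifold Pointwise Topology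

namespace Fermat.Agent.S20.helper813

noncomputable section

open Filter

local notation "Δ" => ModularForm.discriminant

/-! ### Behaviour of `E₄` at `i∞` -/

/-- `E₄ → 1` at `i∞`. -/
theorem tendsto_E₄_atImInfty : Tendsto (⇑E₄) atImInfty (𝓝 1) := by
  have han : AnalyticAt ℂ (cuspFunction 1 ⇑E₄) 0 :=
    ModularFormClass.analyticAt_cuspFunction_zero E₄ one_pos one_mem_strictPeriods_SL
  have h0 : cuspFunction 1 ⇑E₄ 0 = 1 := by
    have h := E_qExpansion_coeff_zero (k := 4) (by norm_num) ⟨2, rfl⟩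
    rw [qExpansion_coeff] at h
    simpa using h
  have hcomp : (cuspFunction 1 ⇑E₄ ∘ fun τ : ℍ ↦ Function.Periodic.qParam 1 τ) = ⇑E₄ := by
    funext τ
    exact SlashInvariantFormClass.eq_cuspFunction E₄ τ one_mem_strictPeriods_SL one_ne_zero
  have ht := han.continuousAt.tendsto.comp (qParam_tendsto_atImInfty one_pos)
  rw [h0, hcomp] at ht
  exact ht

/-- `E₄` does not vanish near `i∞`. -/
theorem eventually_E₄_ne_zero : ∀ᶠ z in atImInfty, E₄ z ≠ 0 :=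
  tendsto_E₄_atImInfty.eventually_ne one_ne_zero

/-- If `E₄ * c` is bounded at `i∞`, so is `c`. -/
theorem isBoundedAtImInfty_of_E₄_mul {c : ℍ → ℂ} (h : IsBoundedAtImInfty (⇑E₄ * c)) :
    IsBoundedAtImInfty c := by
  have hinv : IsBoundedAtImInfty (fun z ↦ (E₄ z)⁻¹) := by
    have ht : Tendsto (fun z ↦ (E₄ z)⁻¹) atImInfty (𝓝 (1 : ℂ)⁻¹) :=
      tendsto_E₄_atImInfty.inv₀ one_ne_zero
    exact ht.isBigO_one ℝ
  have hmul : IsBoundedAtImInfty ((⇑E₄ * c) * fun z ↦ (E₄ z)⁻¹) := h.mul hinv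
  refine Asymptotics.IsBigO.congr' hmul ?_ (EventuallyEq.refl _ _)
  filter_upwards [eventually_E₄_ne_zero] with z hz
  simp only [Pi.mul_apply]
  field_simp

/-- If `E₄ * c` tends to zero at `i∞`, so does `c`. -/
theorem isZeroAtImInfty_of_E₄_mul {c : ℍ → ℂ} (h : IsZeroAtImInfty (⇑E₄ * c)) :
    IsZeroAtImInfty c := by
  have ht : Tendsto (fun z ↦ (E₄ z)⁻¹) atImInfty (𝓝 (1 : ℂ)⁻¹) :=
    tendsto_E₄_atImInfty.inv₀ one_ne_zero
  have hmul : Tendsto ((⇑E₄ * c) * fun z ↦ (E₄ z)⁻¹) atImInfty (𝓝 (0 * (1 : ℂ)⁻¹)) :=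
    Tendsto.mul h ht
  rw [zero_mul] at hmul
  refine Tendsto.congr' ?_ hmul
  filter_upwards [eventually_E₄_ne_zero] with z hz
  simp only [Pi.mul_apply]
  field_simp

/-! ### Slash invariance of the level one forms -/

theorem E₄_slash (γ : SL(2, ℤ)) : (⇑E₄) ∣[(4 : ℤ)] γ = ⇑E₄ := by
  have hγ : (γ : GL (Fin 2) ℝ) ∈ 𝒮ℒ := ⟨γ, rfl⟩
  rw [SL_slash]
  exact SlashInvariantFormClass.slash_action_eq E₄ _ hγ

theorem E₆_slash (γ : SL(2, ℤ)) : (⇑E₆) ∣[(6 : ℤ)] γ = ⇑E₆ := by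
  have hγ : (γ : GL (Fin 2) ℝ) ∈ 𝒮ℒ := ⟨γ, rfl⟩
  rw [SL_slash]
  exact SlashInvariantFormClass.slash_action_eq E₆ _ hγ

theorem discriminant_slash (γ : SL(2, ℤ)) : Δ ∣[(12 : ℤ)] γ = Δ := by
  have hγ : (γ : GL (Fin 2) ℝ) ∈ 𝒮ℒ := ⟨γ, rfl⟩
  rw [SL_slash]
  exact SlashInvariantFormClass.slash_action_eq CuspForm.discriminant _ hγ

/-! ### The quotient `c = (E₄² b - E₆ a) / (1728 Δ)` -/

/-- The candidate quotient in the division lemma. -/
def divFun (a b : ℍ → ℂ) : ℍ → ℂ :=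
  (1728 : ℂ)⁻¹ • ((⇑E₄ * ⇑E₄ * b - ⇑E₆ * a) / Δ)

theorem divFun_apply (a b : ℍ → ℂ) (z : ℍ) :
    divFun a b z = (1728 : ℂ)⁻¹ * ((E₄ z * E₄ z * b z - E₆ z * a z) / Δ z) := rfl

theorem divFun_slash (a b : ℍ → ℂ) (k : ℤ) (γ : SL(2, ℤ)) :
    divFun a b ∣[k - 10] γ = divFun (a ∣[k - 4] γ) (b ∣[k - 6] γ) := by
  have h1 : (⇑E₄ * ⇑E₄ * b) ∣[k + 2] γ = ⇑E₄ * ⇑E₄ * (b ∣[k - 6] γ) := by
    rw [show k + 2 = (4 + 4) + (k - 6) by ring, mul_slash_SL2, mul_slash_SL2, E₄_slash]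
  have h2 : (⇑E₆ * a) ∣[k + 2] γ = ⇑E₆ * (a ∣[k - 4] γ) := by
    rw [show k + 2 = 6 + (k - 4) by ring, mul_slash_SL2, E₆_slash]
  have h3 : (⇑E₄ * ⇑E₄ * b - ⇑E₆ * a) ∣[k + 2] γ
      = ⇑E₄ * ⇑E₄ * (b ∣[k - 6] γ) - ⇑E₆ * (a ∣[k - 4] γ) := by
    rw [sub_eq_add_neg, SlashAction.add_slash, SlashAction.neg_slash, h1, h2, ← sub_eq_add_neg]
  unfold divFun
  rw [SL_smul_slash, show k - 10 = (k + 2) - 12 by ring, div_slash_SL2, h3, discriminant_slash]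

theorem E₄_mul_divFun {a b : ℍ → ℂ} (h : ⇑E₆ * b = ⇑E₄ * a) : ⇑E₄ * divFun a b = b := by
  funext z
  have hz : E₆ z * b z = E₄ z * a z := congrFun h z
  have hΔ : Δ z ≠ 0 := discriminant_ne_zero z
  have hΔ' := discriminant_eq_E₄_cube_sub_E₆_sq z
  have key : E₄ z * (E₄ z * E₄ z * b z - E₆ z * a z) = 1728 * Δ z * b z := by
    rw [hΔ']
    linear_combination (E₆ z) * hz
  simp only [Pi.mul_apply, divFun_apply]
  calc E₄ z * ((1728 : ℂ)⁻¹ * ((E₄ z * E₄ z * b z - E₆ z * a z) / Δ z))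
      = (E₄ z * (E₄ z * E₄ z * b z - E₆ z * a z)) / (1728 * Δ z) := by ring
    _ = (1728 * Δ z * b z) / (1728 * Δ z) := by rw [key]
    _ = b z := mul_div_cancel_left₀ _ (mul_ne_zero (by norm_num) hΔ)

theorem E₆_mul_divFun {a b : ℍ → ℂ} (h : ⇑E₆ * b = ⇑E₄ * a) : ⇑E₆ * divFun a b = a := by
  funext z
  have hz : E₆ z * b z = E₄ z * a z := congrFun h z
  have hΔ : Δ z ≠ 0 := discriminant_ne_zero z
  have hΔ' := discriminant_eq_E₄_cube_sub_E₆_sq z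
  have key : E₆ z * (E₄ z * E₄ z * b z - E₆ z * a z) = 1728 * Δ z * a z := by
    rw [hΔ']
    linear_combination (E₄ z) ^ 2 * hz
  simp only [Pi.mul_apply, divFun_apply]
  calc E₆ z * ((1728 : ℂ)⁻¹ * ((E₄ z * E₄ z * b z - E₆ z * a z) / Δ z))
      = (E₆ z * (E₄ z * E₄ z * b z - E₆ z * a z)) / (1728 * Δ z) := by ring
    _ = (1728 * Δ z * a z) / (1728 * Δ z) := by rw [key]
    _ = a z := mul_div_cancel_left₀ _ (mul_ne_zero (by norm_num) hΔ)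

theorem slash_rel {a b : ℍ → ℂ} (k : ℤ) (γ : SL(2, ℤ)) (h : ⇑E₆ * b = ⇑E₄ * a) :
    ⇑E₆ * (b ∣[k - 6] γ) = ⇑E₄ * (a ∣[k - 4] γ) := by
  have h1 : (⇑E₆ * b) ∣[k] γ = ⇑E₆ * (b ∣[k - 6] γ) := by
    rw [show k = 6 + (k - 6) by ring, mul_slash_SL2, E₆_slash]
    simp
  have h2 : (⇑E₄ * a) ∣[k] γ = ⇑E₄ * (a ∣[k - 4] γ) := by
    rw [show k = 4 + (k - 4) by ring, mul_slash_SL2, E₄_slash]
    simp
  rw [← h1, ← h2, h]

theorem mdifferentiable_divFun {a b : ℍ → ℂ} (ha : MDiff a) (hb : MDiff b) :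
    MDiff (divFun a b) := by
  have h4 : MDiff (⇑E₄) := ModularFormClass.holo E₄
  have h6 : MDiff (⇑E₆) := ModularFormClass.holo E₆
  have hΔ : MDiff Δ := CuspForm.discriminant.holo'
  have hnum : MDiff (⇑E₄ * ⇑E₄ * b - ⇑E₆ * a) := ((h4.mul h4).mul hb).sub (h6.mul ha)
  exact (hnum.div hΔ discriminant_ne_zero).const_smul _

/-! ### The division lemma -/

section level

variable {𝒢 : Subgroup (GL (Fin 2) ℝ)} [𝒢.IsArithmetic] [𝒢.HasDetOne]

/-- Division lemma, modular forms: the quotient as a modular form. -/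
def divMF (hle : 𝒢 ≤ 𝒮ℒ) {k : ℤ} (A : ModularForm 𝒢 (k - 4)) (B : ModularForm 𝒢 (k - 6))
    (h : ⇑E₆ * ⇑B = ⇑E₄ * ⇑A) : ModularForm 𝒢 (k - 10) where
  toFun := divFun A B
  slash_action_eq' g hg := by
    obtain ⟨γ, rfl⟩ := hle hg
    show divFun ⇑A ⇑B ∣[k - 10] γ = divFun ⇑A ⇑B
    rw [divFun_slash]
    congr 1
    · exact SlashInvariantFormClass.slash_action_eq A _ hg
    · exact SlashInvariantFormClass.slash_action_eq B _ hg
  holo' := mdifferentiable_divFun (ModularFormClass.holo A) (ModularFormClass.holo B)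
  bdd_at_cusps' {c} hc := by
    rw [Subgroup.IsArithmetic.isCusp_iff_isCusp_SL2Z] at hc
    rw [OnePoint.isBoundedAt_iff_forall_SL2Z hc]
    intro γ _
    apply isBoundedAtImInfty_of_E₄_mul
    rw [divFun_slash, E₄_mul_divFun (slash_rel k γ h)]
    exact ModularFormClass.bdd_at_infty_slash B γ

/-- Division lemma, cusp forms: the quotient as a cusp form. -/
def divCF (hle : 𝒢 ≤ 𝒮ℒ) {k : ℤ} (A : CuspForm 𝒢 (k - 4)) (B : CuspForm 𝒢 (k - 6))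
    (h : ⇑E₆ * ⇑B = ⇑E₄ * ⇑A) : CuspForm 𝒢 (k - 10) where
  toFun := divFun A B
  slash_action_eq' g hg := by
    obtain ⟨γ, rfl⟩ := hle hg
    show divFun ⇑A ⇑B ∣[k - 10] γ = divFun ⇑A ⇑B
    rw [divFun_slash]
    congr 1
    · exact SlashInvariantFormClass.slash_action_eq A _ hg
    · exact SlashInvariantFormClass.slash_action_eq B _ hg
  holo' := mdifferentiable_divFun (CuspFormClass.holo A) (CuspFormClass.holo B)
  zero_at_cusps' {c} hc := by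
    rw [Subgroup.IsArithmetic.isCusp_iff_isCusp_SL2Z] at hc
    rw [OnePoint.isZeroAt_iff_forall_SL2Z hc]
    intro γ _
    apply isZeroAtImInfty_of_E₄_mul
    rw [divFun_slash, E₄_mul_divFun (slash_rel k γ h)]
    exact CuspFormClass.zero_at_infty_slash B γ

/-- (DIV) for modular forms, in the shape of `helper560.Stmt_Div`. -/
theorem stmt_Div_MFG (hle : 𝒢 ≤ 𝒮ℒ) : helper560.Stmt_Div (helper560.MFG 𝒢) := by
  rintro k a b ⟨A, rfl⟩ ⟨B, rfl⟩ h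
  exact ⟨divFun A B, ⟨divMF hle A B h, rfl⟩, (E₄_mul_divFun h).symm, (E₆_mul_divFun h).symm⟩

/-- (DIV) for cusp forms, in the shape of `helper560.Stmt_Div`. -/
theorem stmt_Div_CFG (hle : 𝒢 ≤ 𝒮ℒ) : helper560.Stmt_Div (helper560.CFG 𝒢) := by
  rintro k a b ⟨A, rfl⟩ ⟨B, rfl⟩ h
  exact ⟨divFun A B, ⟨divCF hle A B h, rfl⟩, (E₄_mul_divFun h).symm, (E₆_mul_divFun h).symm⟩

end level

/-- `helper560.Goal_DivM`. -/
theorem goal_DivM : helper560.Goal_DivM := fun _ _ _ _ hG => stmt_Div_MFG hG.le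

/-- `helper560.Goal_DivS`. -/
theorem goal_DivS : helper560.Goal_DivS := fun _ _ _ _ hG => stmt_Div_CFG hG.le

end

end Fermat.Agent.S20.helper813
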