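/-
S20 / FREE: existence of a finite homogeneous free basis of `M_*(𝒢)` and of `S_*(𝒢)` over the
level-one ring, for every `GoodLevel 𝒢 N`, in the exact shape `helper560.IsFreeBasis`.
Inputs: the abstract core `helper1235_FreeCore` (regular sequence ⟹ free, finite generation by the
Koszul dimension count + a linear growth bound), the division lemma `helper813_Div`, the basic
facts `helper2805_Basic` and the Prelude Sturm-type bound.
Author seat: helper1235.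
-/
import Fermat.Agent.S20.helper1235_FreeCore
import Fermat.Agent.S20.helper813_Div
import Fermat.Agent.S20.helper2805_Basic

set_option autoImplicit false

open UpperHalfPlane ModularForm EisensteinSeries
open scoped MatrixGroups Manifold Pointwise Topology

namespace Fermat.Agent.S20.helper1235

open Fermat.Agent.S20.helper560

noncomputable section

local notation "Δ" => ModularForm.discriminant

/-! ### Level one -/

theorem E₄_fun_ne_zero : (⇑E₄ : ℍ → ℂ) ≠ 0 := by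
  intro h
  obtain ⟨z, hz⟩ := helper813.eventually_E₄_ne_zero.exists
  exact hz (by rw [h]; rfl)

theorem RR_mul_RR (a b : ℤ) (P f : ℍ → ℂ) (hP : P ∈ RR a) (hf : f ∈ RR b) : P * f ∈ RR (a + b) :=
  helper2805.RR_mul_MFG le_rfl a b P f hP hf

theorem RR_eq_bot_of_neg {m : ℤ} (hm : m < 0) : RR m = ⊥ := helper2805.MFG_eq_bot_of_neg hm

theorem one_mem_RR : (1 : ℍ → ℂ) ∈ RR 0 := ⟨ModularForm.const 1, by ext z; simp⟩

theorem RR_zero_const (P : ℍ → ℂ) (hP : P ∈ RR 0) : ∃ c : ℂ, P = algebraMap ℂ (ℍ → ℂ) c := by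
  obtain ⟨F, rfl⟩ := hP
  obtain ⟨c, hc⟩ := ModularForm.eq_const_of_weight_zero F
  exact ⟨c, by rw [hc]; rfl⟩

/-- A level one form of even weight `m ≥ 4` with constant term `1` which is decomposable. -/
theorem exists_unit_form (m : ℤ) (hm4 : 4 ≤ m) (hmeven : Even m) :
    ∃ G : ModularForm 𝒮ℒ m, (qExpansion 1 G).coeff 0 = 1 ∧
      ∃ Q ∈ RR (m - 4), ∃ S ∈ RR (m - 6), (⇑G : ℍ → ℂ) = ⇑E₄ * Q + ⇑E₆ * S := by
  have hcases : m = 4 ∨ m = 6 ∨ 8 ≤ m := by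
    obtain ⟨r, hr⟩ := hmeven
    omega
  rcases hcases with rfl | rfl | hm8
  · refine ⟨E₄, E_qExpansion_coeff_zero _ ⟨2, rfl⟩, 1, one_mem_RR, 0, Submodule.zero_mem _, ?_⟩
    simp
  · refine ⟨E₆, E_qExpansion_coeff_zero _ ⟨3, rfl⟩, 0, Submodule.zero_mem _, 1, ?_, ?_⟩
    · exact one_mem_RR
    · simp
  · obtain ⟨n, hn⟩ := Int.eq_ofNat_of_zero_le (by omega : 0 ≤ m - 4)
    have hn3 : 3 ≤ n := by omega
    have hneven : Even n := by
      obtain ⟨r, hr⟩ := hmeven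
      exact ⟨r.toNat - 2, by omega⟩
    have hw : (4 : ℤ) + (n : ℤ) = m := by omega
    refine ⟨ModularForm.mcast hw (E₄.mul (E hn3)), ?_, ⇑(E hn3), ?_, 0, Submodule.zero_mem _, ?_⟩
    · have h1 : (⇑(ModularForm.mcast hw (E₄.mul (E hn3))) : ℍ → ℂ) = ⇑(E₄.mul (E hn3)) := rfl
      rw [h1, ModularForm.qExpansion_mul one_pos one_mem_strictPeriods_SL, PowerSeries.coeff_mul]
      simp [E_qExpansion_coeff_zero _ ⟨2, rfl⟩, E_qExpansion_coeff_zero hn3 hneven]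
    · exact ⟨ModularForm.mcast hn.symm (E hn3), rfl⟩
    · ext z
      simp [ModularForm.mul]
      rfl

/-- Level one forms of nonzero weight are decomposable: `R_m = E₄ R_{m-4} + E₆ R_{m-6}`. -/
theorem RR_decomp (m : ℤ) (hm : m ≠ 0) (P : ℍ → ℂ) (hP : P ∈ RR m) :
    ∃ Q ∈ RR (m - 4), ∃ S ∈ RR (m - 6), P = ⇑E₄ * Q + ⇑E₆ * S := by
  obtain ⟨F, rfl⟩ := hP
  by_cases hzero : (⇑F : ℍ → ℂ) = 0
  · exact ⟨0, Submodule.zero_mem _, 0, Submodule.zero_mem _, by simp [hzero]⟩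
  have hm4 : 4 ≤ m ∧ Even m := by
    by_contra hcon
    apply hzero
    by_cases hneg : m < 0
    · exact ModularFormClass.levelOne_neg_weight_eq_zero hneg F
    by_cases hodd : Odd m
    · rw [ModularForm.levelOne_odd_weight_eq_zero hodd F]; rfl
    have hm2 : m = 2 := by
      rw [Int.not_odd_iff_even] at hodd
      obtain ⟨r, hr⟩ := hodd
      have : ¬ (4 ≤ m) := fun h4 => hcon ⟨h4, ⟨r, hr⟩⟩
      omega
    subst hm2
    have := rank_zero_iff_forall_zero.mp ModularForm.levelOne_weight_two_rank_zero F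
    rw [this]; rfl
  obtain ⟨G, hG0, Q, hQ, S, hS, hGdec⟩ := exists_unit_form m hm4.1 hm4.2
  obtain ⟨g, hg⟩ := ModularForm.sub_smul_isCuspForm F G hG0
  set c : ℂ := (qExpansion 1 F).coeff 0 with hc
  have hgz : ∀ z, g z = F z - c * G z := by
    intro z
    have := DFunLike.congr_fun hg z
    simpa using this
  set h := CuspForm.discriminantEquiv g with hh
  have hhz : ∀ z, Δ z * h z = g z := fun z => discriminant_mul_discriminantEquiv_apply g z
  have hhmem : (⇑h : ℍ → ℂ) ∈ RR (m - 12) := ⟨h, rfl⟩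
  have hE4 : (⇑E₄ : ℍ → ℂ) ∈ RR 4 := ⟨E₄, rfl⟩
  have hE6 : (⇑E₆ : ℍ → ℂ) ∈ RR 6 := ⟨E₆, rfl⟩
  have h1 : ⇑E₄ * (⇑E₄ * ⇑h) ∈ RR (m - 4) := by
    have := RR_mul_RR 4 (4 + (m - 12)) _ _ hE4 (RR_mul_RR 4 (m - 12) _ _ hE4 hhmem)
    rwa [show (4 : ℤ) + (4 + (m - 12)) = m - 4 by ring] at this
  have h2 : ⇑E₆ * ⇑h ∈ RR (m - 6) := by
    have := RR_mul_RR 6 (m - 12) _ _ hE6 hhmem
    rwa [show (6 : ℤ) + (m - 12) = m - 6 by ring] at this
  refine ⟨c • Q + (1728 : ℂ)⁻¹ • (⇑E₄ * (⇑E₄ * ⇑h)),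
    Submodule.add_mem _ (Submodule.smul_mem _ _ hQ) (Submodule.smul_mem _ _ h1),
    c • S - (1728 : ℂ)⁻¹ • (⇑E₆ * ⇑h),
    Submodule.sub_mem _ (Submodule.smul_mem _ _ hS) (Submodule.smul_mem _ _ h2), ?_⟩
  funext z
  have e1 := hgz z
  have e2 := hhz z
  have e3 := discriminant_eq_E₄_cube_sub_E₆_sq z
  have e4 := congrFun hGdec z
  simp only [Pi.add_apply, Pi.mul_apply, Pi.sub_apply, Pi.smul_apply, smul_eq_mul] at e4 ⊢
  have e5 : F z = c * G z + Δ z * h z := by rw [e2, e1]; ring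
  rw [e5, e4, e3]
  ring

/-! ### The regular-sequence data for `MFG 𝒢` and `CFG 𝒢` -/

section level

variable (𝒢 : Subgroup (GL (Fin 2) ℝ)) [𝒢.IsArithmetic] [𝒢.HasDetOne]

theorem regSeqData_MFG {N : ℕ} (hG : GoodLevel 𝒢 N) :
    RegSeqData (K := ℂ) (⇑E₄ : ℍ → ℂ) (⇑E₆ : ℍ → ℂ) (MFG 𝒢) RR where
  xM k f hf := by
    have := helper2805.RR_mul_MFG hG.le 4 k _ f ⟨E₄, rfl⟩ hf
    rwa [add_comm] at this
  yM k f hf := by
    have := helper2805.RR_mul_MFG hG.le 6 k _ f ⟨E₆, rfl⟩ hf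
    rwa [add_comm] at this
  neg k hk := helper2805.MFG_eq_bot_of_neg hk
  fin k := helper2805.finite_MFG hG k
  xreg k f hf h := by
    obtain ⟨F, rfl⟩ := hf
    exact ((UpperHalfPlane.mul_eq_zero_iff (ModularFormClass.holo E₄)
      (ModularFormClass.holo F)).mp h).resolve_left E₄_fun_ne_zero
  reg k c hc b hb h := by
    obtain ⟨c', hc', h1, _⟩ := helper813.stmt_Div_MFG hG.le (k + 6) b c
      (by rwa [show k + 6 - 4 = k + 2 by ring]) (by rwa [show k + 6 - 6 = k by ring]) h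
    exact ⟨c', by rwa [show k + 6 - 10 = k - 4 by ring] at hc', h1⟩
  Rneg m hm := RR_eq_bot_of_neg hm
  R0 := RR_zero_const
  oneR := one_mem_RR
  Rdec := RR_decomp
  xR m P hP := by
    have := RR_mul_RR 4 m _ P ⟨E₄, rfl⟩ hP
    rwa [add_comm] at this
  yR m P hP := by
    have := RR_mul_RR 6 m _ P ⟨E₆, rfl⟩ hP
    rwa [add_comm] at this

theorem regSeqData_CFG {N : ℕ} (hG : GoodLevel 𝒢 N) :
    RegSeqData (K := ℂ) (⇑E₄ : ℍ → ℂ) (⇑E₆ : ℍ → ℂ) (CFG 𝒢) RR where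
  xM k f hf := by
    have := helper2805.RR_mul_CFG hG.le 4 k _ f ⟨E₄, rfl⟩ hf
    rwa [add_comm] at this
  yM k f hf := by
    have := helper2805.RR_mul_CFG hG.le 6 k _ f ⟨E₆, rfl⟩ hf
    rwa [add_comm] at this
  neg k hk := helper2805.CFG_eq_bot_of_nonpos hk.le
  fin k := by
    have := helper2805.finite_MFG hG k
    exact Submodule.finiteDimensional_of_le (helper2805.CFG_le_MFG k)
  xreg k f hf h := by
    obtain ⟨F, rfl⟩ := hf
    exact ((UpperHalfPlane.mul_eq_zero_iff (ModularFormClass.holo E₄)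
      (CuspFormClass.holo F)).mp h).resolve_left E₄_fun_ne_zero
  reg k c hc b hb h := by
    obtain ⟨c', hc', h1, _⟩ := helper813.stmt_Div_CFG hG.le (k + 6) b c
      (by rwa [show k + 6 - 4 = k + 2 by ring]) (by rwa [show k + 6 - 6 = k by ring]) h
    exact ⟨c', by rwa [show k + 6 - 10 = k - 4 by ring] at hc', h1⟩
  Rneg m hm := RR_eq_bot_of_neg hm
  R0 := RR_zero_const
  oneR := one_mem_RR
  Rdec := RR_decomp
  xR m P hP := by
    have := RR_mul_RR 4 m _ P ⟨E₄, rfl⟩ hP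
    rwa [add_comm] at this
  yR m P hP := by
    have := RR_mul_RR 6 m _ P ⟨E₆, rfl⟩ hP
    rwa [add_comm] at this

/-- Linear growth of `dim M_k(𝒢)` (weak form, from the Prelude Sturm-type bound at period `N`). -/
theorem growth_MFG {N : ℕ} (hG : GoodLevel 𝒢 N) (k : ℤ) (hk : 0 ≤ k) :
    12 * (Module.finrank ℂ (MFG 𝒢 k) : ℤ) ≤ ((N * 𝒢.relIndex 𝒮ℒ : ℕ) : ℤ) * k + 12 := by
  have hper : (N : ℝ) ∈ 𝒢.strictPeriods := by
    have := hG.per 1
    simpa using this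
  set B : ℕ := N * ((k * 𝒢.relIndex 𝒮ℒ).toNat / 12) with hB
  have hinj : Function.Injective (helper2805.coeffMap 𝒢 k hG.pos hper B) := by
    rw [← LinearMap.ker_eq_bot, LinearMap.ker_eq_bot']
    intro F hF
    apply ModularForm.eq_zero_of_lt_order_qExpansion_of_isArithmetic F hG.pos hG.per
    rw [← hB]
    have h1 : ((B + 1 : ℕ) : ℕ∞) ≤ (qExpansion (N : ℝ) ⇑F).order := by
      apply PowerSeries.nat_le_order
      intro i hi
      exact congrFun hF ⟨i, hi⟩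
    calc ((B : ℕ) : ℕ∞) < ((B + 1 : ℕ) : ℕ∞) := by exact_mod_cast Nat.lt_succ_self B
      _ ≤ _ := h1
  have h1 : Module.finrank ℂ (ModularForm 𝒢 k) ≤ B + 1 := by
    have := LinearMap.finrank_le_finrank_of_injective hinj
    simpa using this
  rw [helper2805.finrank_MFG]
  obtain ⟨n, rfl⟩ := Int.eq_ofNat_of_zero_le hk
  have h2 : ((n : ℤ) * (𝒢.relIndex 𝒮ℒ : ℤ)).toNat = n * 𝒢.relIndex 𝒮ℒ := by
    rw [← Nat.cast_mul, Int.toNat_natCast]
  rw [h2] at hB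
  have h3 : 12 * (n * 𝒢.relIndex 𝒮ℒ / 12) ≤ n * 𝒢.relIndex 𝒮ℒ := Nat.mul_div_le _ _
  have h4 : 12 * (B + 1) ≤ N * 𝒢.relIndex 𝒮ℒ * n + 12 := by
    rw [hB]
    calc 12 * (N * (n * 𝒢.relIndex 𝒮ℒ / 12) + 1)
        = N * (12 * (n * 𝒢.relIndex 𝒮ℒ / 12)) + 12 := by ring
      _ ≤ N * (n * 𝒢.relIndex 𝒮ℒ) + 12 := by gcongr
      _ = N * 𝒢.relIndex 𝒮ℒ * n + 12 := by ring
  have h5 : 12 * Module.finrank ℂ (ModularForm 𝒢 (n : ℤ)) ≤ N * 𝒢.relIndex 𝒮ℒ * n + 12 :=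
    le_trans (Nat.mul_le_mul_left 12 h1) h4
  exact_mod_cast h5

/-- **FREE for modular forms**, in the shape of `helper560.IsFreeBasis`. -/
theorem free_MFG {N : ℕ} (hG : GoodLevel 𝒢 N) :
    ∃ (J : Type) (_ : Fintype J) (κ : J → ℤ) (F : J → ℍ → ℂ), IsFreeBasis (MFG 𝒢) κ F := by
  obtain ⟨r, wt, F, -, -, hF, hexp⟩ := (regSeqData_MFG 𝒢 hG).exists_free_generators
    (N * 𝒢.relIndex 𝒮ℒ) (fun k hk => helper2805.MFG_eq_bot_of_odd hG.neg hk) (growth_MFG 𝒢 hG)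
  exact ⟨Fin r, inferInstance, wt, F, hF, hexp⟩

/-- **FREE for cusp forms**, in the shape of `helper560.IsFreeBasis`. -/
theorem free_CFG {N : ℕ} (hG : GoodLevel 𝒢 N) :
    ∃ (J : Type) (_ : Fintype J) (κ : J → ℤ) (F : J → ℍ → ℂ), IsFreeBasis (CFG 𝒢) κ F := by
  obtain ⟨r, wt, F, -, -, hF, hexp⟩ := (regSeqData_CFG 𝒢 hG).exists_free_generators
    (N * 𝒢.relIndex 𝒮ℒ)
    (fun k hk => by
      have h1 := helper2805.CFG_le_MFG (𝒢 := 𝒢) k
      rw [helper2805.MFG_eq_bot_of_odd hG.neg hk] at h1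
      exact le_bot_iff.mp h1)
    (fun k hk => by
      have := helper2805.finite_MFG hG k
      have h1 : Module.finrank ℂ (CFG 𝒢 k) ≤ Module.finrank ℂ (MFG 𝒢 k) :=
        Submodule.finrank_mono (helper2805.CFG_le_MFG k)
      have h2 := growth_MFG 𝒢 hG k hk
      have h3 : (Module.finrank ℂ (CFG 𝒢 k) : ℤ) ≤ Module.finrank ℂ (MFG 𝒢 k) := by
        exact_mod_cast h1
      linarith)
  exact ⟨Fin r, inferInstance, wt, F, hF, hexp⟩

end level

end

end Fermat.Agent.S20.helper1235
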