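/-
S20: `Goal_GoodLevel` of `helper560_Spec` (seat helper1982).
`Γ₀(N)` (inside `GL(2,ℝ)`) is contained in `SL(2,ℤ)`, contains `-1`, and every
`SL(2,ℤ)`-conjugate of it contains the translation by `N`.
-/
import Fermat.Agent.S20.helper560_Spec

set_option autoImplicit false

open UpperHalfPlane ModularForm
open scoped MatrixGroups Pointwise

namespace Fermat.Agent.S20.helper1982

open Fermat.Agent.S20.helper560 CongruenceSubgroup Matrix Matrix.SpecialLinearGroup

/-- The image of `Γ₀(N)` in `GL(2,ℝ)` is contained in the image of `SL(2,ℤ)`. -/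
theorem G0_le (N : ℕ) : G0 N ≤ 𝒮ℒ := by
  rintro _ ⟨γ, -, rfl⟩
  exact ⟨γ, rfl⟩

/-- `-1` belongs to the image of `Γ₀(N)` in `GL(2,ℝ)`. -/
theorem neg_one_mem_G0 (N : ℕ) : (-1 : GL (Fin 2) ℝ) ∈ G0 N := by
  refine ⟨-1, ?_, ?_⟩
  · rw [SetLike.mem_coe, Gamma0_mem]
    simp
  · ext i j
    fin_cases i <;> fin_cases j <;> simp

/-- The translation by an integer `m`, as the image of `T ^ m`. -/
theorem upperRightHom_intCast (m : ℤ) :
    Matrix.GeneralLinearGroup.upperRightHom (m : ℝ) = mapGL ℝ (ModularGroup.T ^ m) := by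
  rw [Units.ext_iff, mapGL_coe_matrix, map_apply_coe]
  ext i j
  fin_cases i <;> fin_cases j <;> simp [ModularGroup.coe_T_zpow]

/-- The translation by `N`, as the image of `T ^ N`. -/
theorem upperRightHom_natCast (N : ℕ) :
    Matrix.GeneralLinearGroup.upperRightHom (N : ℝ) = mapGL ℝ (ModularGroup.T ^ (N : ℤ)) := by
  simpa only [Int.cast_natCast] using upperRightHom_intCast (N : ℤ)

/-- Every conjugate of `T ^ N` lies in `Γ₀(N)`. -/
theorem conj_T_pow_mem_Gamma0 (N : ℕ) (γ : SL(2, ℤ)) :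
    γ⁻¹ * ModularGroup.T ^ (N : ℤ) * γ ∈ Gamma0 N := by
  have h1 : ModularGroup.T ^ (N : ℤ) ∈ Gamma N := by
    simpa using ModularGroup_T_pow_mem_Gamma (N : ℤ) (N : ℤ) dvd_rfl
  have h2 : γ⁻¹ * ModularGroup.T ^ (N : ℤ) * γ ∈ Gamma N := by
    have := (Gamma_normal N).conj_mem _ h1 γ⁻¹
    simpa using this
  have h3 : Gamma N ≤ Gamma0 N := by
    intro A hA
    rw [Gamma_mem] at hA
    rw [Gamma0_mem]
    exact hA.2.2.1
  exact h3 h2

/-- `Goal_GoodLevel` of the S20 spec. -/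
theorem goal_GoodLevel : Goal_GoodLevel := by
  intro N _
  refine ⟨G0_le N, neg_one_mem_G0 N, Nat.pos_of_ne_zero (NeZero.ne N), ?_⟩
  intro γ
  rw [Subgroup.mem_strictPeriods_iff, Subgroup.mem_pointwise_smul_iff_inv_smul_mem,
    ← ConjAct.toConjAct_inv, ConjAct.toConjAct_smul, inv_inv, upperRightHom_natCast]
  refine ⟨γ⁻¹ * ModularGroup.T ^ (N : ℤ) * γ, conj_T_pow_mem_Gamma0 N γ, ?_⟩
  simp [map_mul, map_inv]

end Fermat.Agent.S20.helper1982
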