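/-
S20 / Track B leaf `hFree`: `helper1040.Stmt_Free (Gamma0 N)` in the exact Spec shape, with the
SHARP bound `r ≤ (Gamma0 N).index` on the number of generators (Prelude Sturm bound for `Γ₀(N)`
+ the Koszul dimension count of `helper1235_FreeCore`).
Author seat: helper1235.
-/
import Fermat.Agent.S20.helper1235_FreeGoodLevel
import Fermat.Agent.S20.helper1040_API
import Fermat.Agent.S20.helper1982_GoodLevel
import Fermat.Prelude.Thm_ModularForm_sturm_bound_Gamma0
import Fermat.Prelude.Thm_CongruenceSubgroup_one_mem_strictPeriods_Gamma0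

set_option autoImplicit false

open UpperHalfPlane ModularForm EisensteinSeries CongruenceSubgroup
open scoped MatrixGroups Manifold Pointwise Topology

namespace Fermat.Agent.S20.helper1235

open Fermat.Agent.S20.helper560

noncomputable section

/-- Sharp linear growth of `dim M_k(Γ₀(N))`: `12 · dim M_k ≤ index · k + 12`. -/
theorem growth_G0 (N : ℕ) [NeZero N] (k : ℤ) (hk : 0 ≤ k) :
    12 * (Module.finrank ℂ (MFG (G0 N) k) : ℤ) ≤ (((Gamma0 N).index : ℕ) : ℤ) * k + 12 := by
  have hper : ((1 : ℕ) : ℝ) ∈ (G0 N).strictPeriods := by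
    rw [Nat.cast_one]
    exact CongruenceSubgroup.one_mem_strictPeriods_Gamma0 N
  set B : ℕ := (k * (Gamma0 N).index).toNat / 12 with hB
  have hinj : Function.Injective (helper2805.coeffMap (G0 N) k Nat.one_pos hper B) := by
    rw [← LinearMap.ker_eq_bot, LinearMap.ker_eq_bot']
    intro F hF
    apply ModularForm.sturm_bound_Gamma0 N F
    intro n hn
    have := congrFun hF ⟨n, by omega⟩
    simpa [helper2805.coeffMap] using this
  have h1 : Module.finrank ℂ (ModularForm (G0 N) k) ≤ B + 1 := by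
    have := LinearMap.finrank_le_finrank_of_injective hinj
    simpa using this
  rw [helper2805.finrank_MFG]
  obtain ⟨n, rfl⟩ := Int.eq_ofNat_of_zero_le hk
  have h2 : ((n : ℤ) * ((Gamma0 N).index : ℤ)).toNat = n * (Gamma0 N).index := by
    rw [← Nat.cast_mul, Int.toNat_natCast]
  rw [h2] at hB
  have h3 : 12 * (n * (Gamma0 N).index / 12) ≤ n * (Gamma0 N).index := Nat.mul_div_le _ _
  have h5 : 12 * Module.finrank ℂ (ModularForm (G0 N) (n : ℤ)) ≤ (Gamma0 N).index * n + 12 := by
    calc 12 * Module.finrank ℂ (ModularForm (G0 N) (n : ℤ)) ≤ 12 * (B + 1) :=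
          Nat.mul_le_mul_left 12 h1
      _ = 12 * (n * (Gamma0 N).index / 12) + 12 := by rw [hB]; ring
      _ ≤ n * (Gamma0 N).index + 12 := by omega
      _ = (Gamma0 N).index * n + 12 := by ring
  exact_mod_cast h5

/-- A free basis of `M_*(Γ₀(N))` over level one with at most `index` generators
(function-level shape). -/
theorem exists_free_G0 (N : ℕ) [NeZero N] :
    ∃ (r : ℕ) (wt : Fin r → ℤ) (F : Fin r → ℍ → ℂ), r ≤ (Gamma0 N).index ∧ (∀ j, 0 ≤ wt j) ∧
      (∀ j, F j ∈ MFG (G0 N) (wt j)) ∧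
      ∀ k, ∀ f ∈ MFG (G0 N) k, ∃! P : Fin r → ℍ → ℂ, (∀ j, P j ∈ RR (k - wt j)) ∧
        f = ∑ j, P j * F j :=
  (regSeqData_MFG (G0 N) (helper1982.goal_GoodLevel N)).exists_free_generators
    (Gamma0 N).index
    (fun _ hk => helper2805.MFG_eq_bot_of_odd (helper1982.neg_one_mem_G0 N) hk) (growth_G0 N)

/-- **Track B leaf `hFree`**: `helper1040.Stmt_Free (Gamma0 N)`. -/
theorem stmt_Free (N : ℕ) [NeZero N] : helper1040.Stmt_Free (Gamma0 N) := by
  obtain ⟨r, wt, F, hr, -, hF, hexp⟩ := exists_free_G0 N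
  refine ⟨r, wt, F, ⟨?_, ?_, ?_⟩, hr⟩
  · intro j
    exact helper1040.isMF_iff.mpr (hF j)
  · intro k f hf
    obtain ⟨P, ⟨hP, hfP⟩, -⟩ := hexp k f (helper1040.isMF_iff.mp hf)
    exact ⟨P, fun j => helper1040.isMF1_iff.mpr (hP j), hfP⟩
  · intro k A hA hsum
    obtain ⟨P, -, huniq⟩ := hexp k 0 (Submodule.zero_mem _)
    have h1 := huniq A ⟨fun j => helper1040.isMF1_iff.mp (hA j), hsum.symm⟩
    have h2 := huniq 0 ⟨fun j => Submodule.zero_mem _, by simp⟩
    intro j
    rw [h1, ← h2]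
    rfl

end

end Fermat.Agent.S20.helper1235
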