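import Mathlib

set_option autoImplicit false

namespace Fermat.Agent.S20.helper1760

open UpperHalfPlane hiding I
open Real Complex Derivative Filter
open scoped Manifold MatrixGroups ModularForm Topology

/-- Cauchy estimate on the unit disc around a point high in the upper half plane. -/
theorem norm_D_le_of_bound {F : ℍ → ℂ} (hF : MDiff F) {M A : ℝ}
    (hM : ∀ z : ℍ, A ≤ z.im → ‖F z‖ ≤ M) (z : ℍ) (hz : max A 0 + 2 ≤ z.im) :
    ‖D F z‖ ≤ M := by
  rw [UpperHalfPlane.mdifferentiable_iff] at hF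
  have hsub : Metric.closedBall (z : ℂ) 1 ⊆ upperHalfPlaneSet := by
    intro w hw
    have h1 : |(w - (z : ℂ)).im| ≤ ‖w - (z : ℂ)‖ := Complex.abs_im_le_norm _
    have h2 : ‖w - (z : ℂ)‖ ≤ 1 := by simpa [dist_eq_norm] using hw
    have h3 := abs_le.mp (h1.trans h2)
    have h4 : (w - (z : ℂ)).im = w.im - z.im := by simp
    have : 0 < w.im := by
      have := le_max_right A 0
      linarith [h3.1]
    exact this
  have hdiff : DiffContOnCl ℂ (F ∘ ofComplex) (Metric.ball (z : ℂ) 1) :=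
    (hF.mono hsub).diffContOnCl_ball subset_rfl
  have hbound : ∀ w ∈ Metric.sphere (z : ℂ) 1, ‖(F ∘ ofComplex) w‖ ≤ M := by
    intro w hw
    have hw' : w ∈ Metric.closedBall (z : ℂ) 1 := Metric.sphere_subset_closedBall hw
    have hwim : 0 < w.im := hsub hw'
    have h1 : |(w - (z : ℂ)).im| ≤ ‖w - (z : ℂ)‖ := Complex.abs_im_le_norm _
    have h2 : ‖w - (z : ℂ)‖ ≤ 1 := by simpa [dist_eq_norm] using hw'
    have h3 := abs_le.mp (h1.trans h2)
    have h4 : (w - (z : ℂ)).im = w.im - z.im := by simp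
    simp only [Function.comp_apply, ofComplex_apply_of_im_pos hwim]
    apply hM
    have := le_max_left A 0
    show A ≤ w.im
    linarith [h3.1]
  have hc := Complex.norm_deriv_le_of_forall_mem_sphere_norm_le one_pos hdiff hbound
  have hnorm : ‖(2 * (π : ℂ) * I)⁻¹‖ ≤ 1 := by
    rw [norm_inv, norm_mul, norm_mul, Complex.norm_I, mul_one]
    simp only [Complex.norm_ofNat, Complex.norm_real, Real.norm_eq_abs, abs_of_pos Real.pi_pos]
    apply inv_le_one_of_one_le₀
    have := Real.pi_gt_three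
    linarith
  have hM0 : 0 ≤ M := (norm_nonneg _).trans hc |>.trans (by simp)
  calc ‖D F z‖ = ‖(2 * (π : ℂ) * I)⁻¹‖ * ‖deriv (F ∘ ofComplex) z‖ := by
        simp [normalizedDerivOfComplex]
    _ ≤ 1 * M := by
        apply mul_le_mul hnorm (by simpa using hc) (norm_nonneg _) zero_le_one
    _ = M := one_mul M

theorem isBoundedAtImInfty_D {F : ℍ → ℂ} (hF : MDiff F) (hb : IsBoundedAtImInfty F) :
    IsBoundedAtImInfty (D F) := by
  rw [UpperHalfPlane.isBoundedAtImInfty_iff] at hb ⊢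
  obtain ⟨M, A, hM⟩ := hb
  exact ⟨M, max A 0 + 2, fun z hz => norm_D_le_of_bound hF hM z hz⟩

theorem isZeroAtImInfty_D {F : ℍ → ℂ} (hF : MDiff F) (hb : IsZeroAtImInfty F) :
    IsZeroAtImInfty (D F) := by
  rw [UpperHalfPlane.isZeroAtImInfty_iff] at hb ⊢
  intro ε hε
  obtain ⟨A, hA⟩ := hb ε hε
  exact ⟨max A 0 + 2, fun z hz => norm_D_le_of_bound hF hA z hz⟩


section SerreDMF

variable {𝒢 : Subgroup (GL (Fin 2) ℝ)}

theorem serreDerivative_eq_sub_smul (k : ℂ) (F : ℍ → ℂ) :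
    serreDerivative k F = D F + (-(k * 12⁻¹)) • (EisensteinSeries.E2 * F) := by
  funext z
  simp [serreDerivative]
  ring

theorem isBoundedAtImInfty_serreDerivative (k : ℂ) {F : ℍ → ℂ} (hF : MDiff F)
    (hb : IsBoundedAtImInfty F) : IsBoundedAtImInfty (serreDerivative k F) := by
  rw [serreDerivative_eq_sub_smul]
  exact (isBoundedAtImInfty_D hF hb).add
    ((EisensteinSeries.isBoundedAtImInfty_E2.mul hb).smul _)

theorem isZeroAtImInfty_serreDerivative (k : ℂ) {F : ℍ → ℂ} (hF : MDiff F)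
    (hb : IsZeroAtImInfty F) : IsZeroAtImInfty (serreDerivative k F) := by
  rw [serreDerivative_eq_sub_smul]
  exact (isZeroAtImInfty_D hF hb).add
    ((EisensteinSeries.isBoundedAtImInfty_E2.mul_zeroAtFilter hb).smul _)

theorem serreDerivative_slash_of_mem (h𝒢 : 𝒢 ≤ 𝒮ℒ) {k : ℤ} {F : ℍ → ℂ} (hF : MDiff F)
    (hinv : ∀ γ ∈ 𝒢, F ∣[k] γ = F) (γ : GL (Fin 2) ℝ) (hγ : γ ∈ 𝒢) :
    serreDerivative k F ∣[k + 2] γ = serreDerivative k F := by
  obtain ⟨γ', rfl⟩ := h𝒢 hγ
  exact serreDerivative_slash_invariant hF (hinv _ hγ)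

theorem serreDerivative_isBoundedAt {k : ℤ} {F : ℍ → ℂ} (hF : MDiff F) {c : OnePoint ℝ}
    (hc : IsCusp c 𝒮ℒ) (hb : c.IsBoundedAt F k) :
    c.IsBoundedAt (serreDerivative k F) (k + 2) := by
  rw [OnePoint.isBoundedAt_iff_forall_SL2Z hc] at hb ⊢
  intro γ hγ
  rw [serreDerivative_slash_equivariant hF]
  exact isBoundedAtImInfty_serreDerivative k (hF.slash k _) (hb γ hγ)

theorem serreDerivative_isZeroAt {k : ℤ} {F : ℍ → ℂ} (hF : MDiff F) {c : OnePoint ℝ}
    (hc : IsCusp c 𝒮ℒ) (hb : c.IsZeroAt F k) :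
    c.IsZeroAt (serreDerivative k F) (k + 2) := by
  rw [OnePoint.isZeroAt_iff_forall_SL2Z hc] at hb ⊢
  intro γ hγ
  rw [serreDerivative_slash_equivariant hF]
  exact isZeroAtImInfty_serreDerivative k (hF.slash k _) (hb γ hγ)

variable [𝒢.IsArithmetic]

/-- The Serre derivative of a modular form, as a modular form of weight `k + 2`. -/
noncomputable def serreDMFaux (h𝒢 : 𝒢 ≤ 𝒮ℒ) (k : ℤ) (f : ModularForm 𝒢 k) :
    ModularForm 𝒢 (k + 2) where
  toFun := serreDerivative k f
  slash_action_eq' := serreDerivative_slash_of_mem h𝒢 (ModularFormClass.holo f)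
    (SlashInvariantFormClass.slash_action_eq f)
  holo' := serreDerivative_mdifferentiable k (ModularFormClass.holo f)
  bdd_at_cusps' := fun hc => serreDerivative_isBoundedAt (ModularFormClass.holo f)
    ((Subgroup.IsArithmetic.isCusp_iff_isCusp_SL2Z 𝒢).mp hc)
    (ModularFormClass.bdd_at_cusps f hc)

theorem coe_serreDMFaux (h𝒢 : 𝒢 ≤ 𝒮ℒ) (k : ℤ) (f : ModularForm 𝒢 k) :
    (serreDMFaux h𝒢 k f : ℍ → ℂ) = serreDerivative k f := rfl

/-- The Serre derivative of a cusp form, as a cusp form of weight `k + 2`. -/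
noncomputable def serreDCFaux (h𝒢 : 𝒢 ≤ 𝒮ℒ) (k : ℤ) (f : CuspForm 𝒢 k) :
    CuspForm 𝒢 (k + 2) where
  toFun := serreDerivative k f
  slash_action_eq' := serreDerivative_slash_of_mem h𝒢 (CuspFormClass.holo f)
    (SlashInvariantFormClass.slash_action_eq f)
  holo' := serreDerivative_mdifferentiable k (CuspFormClass.holo f)
  zero_at_cusps' := fun hc => serreDerivative_isZeroAt (CuspFormClass.holo f)
    ((Subgroup.IsArithmetic.isCusp_iff_isCusp_SL2Z 𝒢).mp hc)
    (CuspFormClass.zero_at_cusps f hc)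

theorem coe_serreDCFaux (h𝒢 : 𝒢 ≤ 𝒮ℒ) (k : ℤ) (f : CuspForm 𝒢 k) :
    (serreDCFaux h𝒢 k f : ℍ → ℂ) = serreDerivative k f := rfl

section QuotientFunc

open SlashInvariantForm

/-- The Serre derivative commutes with taking translates (`quotientFunc`) by `SL(2, ℤ)`. -/
theorem quotientFunc_serreDMFaux (h𝒢 : 𝒢 ≤ 𝒮ℒ) (k : ℤ) (f : ModularForm 𝒢 k)
    (q : 𝒮ℒ ⧸ 𝒢.subgroupOf 𝒮ℒ) :
    quotientFunc (serreDMFaux h𝒢 k f) q = serreDerivative k (quotientFunc f q) := by
  induction q using Quotient.inductionOn with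
  | h r =>
    obtain ⟨γ, hγ⟩ := (r⁻¹).2
    rw [quotientFunc_mk, quotientFunc_mk]
    have : ((r : GL (Fin 2) ℝ))⁻¹ = Matrix.SpecialLinearGroup.mapGL ℝ γ := by
      rw [hγ]; rfl
    rw [this, coe_serreDMFaux]
    exact serreDerivative_slash_equivariant (ModularFormClass.holo f)

/-- The Serre derivative commutes with taking translates (`quotientFunc`) by `SL(2, ℤ)`,
cusp form version. -/
theorem quotientFunc_serreDCFaux (h𝒢 : 𝒢 ≤ 𝒮ℒ) (k : ℤ) (f : CuspForm 𝒢 k)
    (q : 𝒮ℒ ⧸ 𝒢.subgroupOf 𝒮ℒ) :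
    quotientFunc (serreDCFaux h𝒢 k f) q = serreDerivative k (quotientFunc f q) := by
  induction q using Quotient.inductionOn with
  | h r =>
    obtain ⟨γ, hγ⟩ := (r⁻¹).2
    rw [quotientFunc_mk, quotientFunc_mk]
    have : ((r : GL (Fin 2) ℝ))⁻¹ = Matrix.SpecialLinearGroup.mapGL ℝ γ := by
      rw [hγ]; rfl
    rw [this, coe_serreDCFaux]
    exact serreDerivative_slash_equivariant (CuspFormClass.holo f)

/-- The differential equation satisfied by the translates of a modular form: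
`D f_q = (ϑ f)_q + (k/12) E₂ f_q`. -/
theorem D_quotientFunc (h𝒢 : 𝒢 ≤ 𝒮ℒ) (k : ℤ) (f : ModularForm 𝒢 k)
    (q : 𝒮ℒ ⧸ 𝒢.subgroupOf 𝒮ℒ) (z : ℍ) :
    D (quotientFunc f q) z = quotientFunc (serreDMFaux h𝒢 k f) q z
      + (k : ℂ) * 12⁻¹ * EisensteinSeries.E2 z * quotientFunc f q z := by
  rw [quotientFunc_serreDMFaux, serreDerivative_apply]
  ring

end QuotientFunc

variable [𝒢.HasDetOne]

/-- The Serre derivative as a linear map on modular forms for an arithmetic subgroup contained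
in the image of `SL(2, ℤ)`. -/
noncomputable def serreDMF (h𝒢 : 𝒢 ≤ 𝒮ℒ) (k : ℤ) :
    ModularForm 𝒢 k →ₗ[ℂ] ModularForm 𝒢 (k + 2) where
  toFun f := serreDMFaux h𝒢 k f
  map_add' f g := by
    apply DFunLike.coe_injective
    rw [coe_serreDMFaux, FunLike.coe_add, FunLike.coe_add, coe_serreDMFaux,
      coe_serreDMFaux]
    exact serreDerivative_add k f g (ModularFormClass.holo f) (ModularFormClass.holo g)
  map_smul' c f := by
    apply DFunLike.coe_injective
    rw [coe_serreDMFaux, RingHom.id_apply, FunLike.coe_smul, FunLike.coe_smul,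
      coe_serreDMFaux]
    exact serreDerivative_smul k c f (ModularFormClass.holo f)

@[simp]
theorem serreDMF_apply (h𝒢 : 𝒢 ≤ 𝒮ℒ) (k : ℤ) (f : ModularForm 𝒢 k) (z : ℍ) :
    serreDMF h𝒢 k f z = serreDerivative k f z := rfl

theorem coe_serreDMF (h𝒢 : 𝒢 ≤ 𝒮ℒ) (k : ℤ) (f : ModularForm 𝒢 k) :
    (serreDMF h𝒢 k f : ℍ → ℂ) = serreDerivative k f := rfl

/-- The Serre derivative as a linear map on cusp forms. -/
noncomputable def serreDCF (h𝒢 : 𝒢 ≤ 𝒮ℒ) (k : ℤ) :
    CuspForm 𝒢 k →ₗ[ℂ] CuspForm 𝒢 (k + 2) where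
  toFun f := serreDCFaux h𝒢 k f
  map_add' f g := by
    apply DFunLike.coe_injective
    rw [coe_serreDCFaux, FunLike.coe_add, FunLike.coe_add, coe_serreDCFaux,
      coe_serreDCFaux]
    exact serreDerivative_add k f g (CuspFormClass.holo f) (CuspFormClass.holo g)
  map_smul' c f := by
    apply DFunLike.coe_injective
    rw [coe_serreDCFaux, RingHom.id_apply, FunLike.coe_smul, FunLike.coe_smul,
      coe_serreDCFaux]
    exact serreDerivative_smul k c f (CuspFormClass.holo f)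

@[simp]
theorem serreDCF_apply (h𝒢 : 𝒢 ≤ 𝒮ℒ) (k : ℤ) (f : CuspForm 𝒢 k) (z : ℍ) :
    serreDCF h𝒢 k f z = serreDerivative k f z := rfl

theorem coe_serreDCF (h𝒢 : 𝒢 ≤ 𝒮ℒ) (k : ℤ) (f : CuspForm 𝒢 k) :
    (serreDCF h𝒢 k f : ℍ → ℂ) = serreDerivative k f := rfl

end SerreDMF

section Discriminant

/-- `D Δ = E₂ Δ`, where `D = (2πi)⁻¹ d/dz`. -/
theorem D_discriminant (z : ℍ) :
    D ModularForm.discriminant z = EisensteinSeries.E2 z * ModularForm.discriminant z := by
  have hz : (z : ℂ) ∈ upperHalfPlaneSet := z.2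
  have hη : DifferentiableAt ℂ ModularForm.eta z :=
    ModularForm.differentiableAt_eta_of_mem_upperHalfPlaneSet hz
  have heq : (ModularForm.discriminant ∘ ofComplex) =ᶠ[𝓝 (z : ℂ)]
      fun w => ModularForm.eta w ^ 24 := by
    filter_upwards [isOpen_upperHalfPlaneSet.mem_nhds hz] with w hw
    simp [ModularForm.discriminant, ofComplex_apply_of_im_pos hw]
  have hderiv : deriv (ModularForm.discriminant ∘ ofComplex) z =
      24 * ModularForm.eta z ^ 23 * deriv ModularForm.eta z := by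
    rw [heq.deriv_eq]
    have := (hη.hasDerivAt.pow 24).deriv
    rw [show (fun w => ModularForm.eta w ^ 24) = ModularForm.eta ^ 24 from rfl, this]
    norm_num
  have hlog := ModularForm.logDeriv_eta_eq_E2 z
  have hne : ModularForm.eta z ≠ 0 := ModularForm.eta_ne_zero hz
  have hd : deriv ModularForm.eta z =
      (π * I / 12) * EisensteinSeries.E2 z * ModularForm.eta z := by
    rw [logDeriv_apply] at hlog
    rw [div_eq_iff hne] at hlog
    exact hlog
  have hpi : (2 * (π : ℂ) * I) ≠ 0 := by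
    simp [Real.pi_ne_zero]
  simp only [normalizedDerivOfComplex, hderiv, hd, ModularForm.discriminant]
  field_simp
  ring

/-- The Serre derivative of weight 12 kills the discriminant. -/
theorem serreDerivative_discriminant :
    serreDerivative 12 ModularForm.discriminant = 0 := by
  funext z
  rw [serreDerivative_apply, D_discriminant]
  simp

end Discriminant

end Fermat.Agent.S20.helper1760
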