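/-
S20, seat helper1559 (board #294, SPEC-G4): proof of `helper1040.Stmt_Liouville`:
for every coset-indexed free basis `(κ, G)` of `M_*(Γ)` over the level one forms, the
fundamental determinant satisfies `(det Φ)^12 = c · Δ^(∑ κ)`.

Route: the Serre derivative of a basis element expands in the basis (SPAN), which gives the
linear ODE `D Φ = Φ · B` with `B = A + diag(κ_j / 12) · E₂`, where the diagonal of `A` consists of
level one forms of weight `2`, hence vanishes.  The column expansion of the derivative of a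
determinant gives `D (det Φ) = (∑ κ / 12) · E₂ · det Φ`, and `D Δ = E₂ · Δ` then shows that
`(det Φ)^12 · Δ^(-∑ κ)` has derivative zero on the upper half plane.

Also exported (Mathlib-only statements): `hasDerivAt_det` (column expansion of the derivative of
a determinant), `hasDerivAt_det_of_ode` (`M' = M · B ⟹ (det M)' = tr B · det M`),
`hasDerivAt_ofComplex`, and for the Spec predicates `isMF_serreDerivative`, `tr_serreDerivative`,
`exists_ode`, `D_det_Phi`.
-/
import Fermat.Agent.S20.helper1040_API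
import Fermat.Agent.S20.helper1760_SerreD

set_option autoImplicit false

open UpperHalfPlane hiding I
open ModularForm Matrix.SpecialLinearGroup Filter Complex Derivative
open scoped MatrixGroups ModularForm Manifold Topology Real

namespace Fermat.Agent.S20.helper1559

open Fermat.Agent.S20.helper1040

/-! ### Calculus: the derivative of a determinant -/

/-- Column expansion of the derivative of a determinant: if every entry of `M t` is
differentiable at `w`, then `(det M)' = ∑ⱼ det (M with column j replaced by its derivative)`. -/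
theorem hasDerivAt_det {ι : Type*} [Fintype ι] [DecidableEq ι] (M : ℂ → Matrix ι ι ℂ)
    (M' : Matrix ι ι ℂ) (w : ℂ) (h : ∀ i j, HasDerivAt (fun t => M t i j) (M' i j) w) :
    HasDerivAt (fun t => (M t).det)
      (∑ j, ((M w).updateCol j (fun i => M' i j)).det) w := by
  have h1 : ∀ σ : Equiv.Perm ι, HasDerivAt (fun t => ∏ i, M t (σ i) i)
      (∑ j, (∏ i ∈ Finset.univ.erase j, M w (σ i) i) • M' (σ j) j) w := fun σ =>
    HasDerivAt.fun_finsetProd (fun i _ => h (σ i) i)
  have h2 : HasDerivAt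
      (fun t => ∑ σ : Equiv.Perm ι, ((Equiv.Perm.sign σ : ℤ) : ℂ) * ∏ i, M t (σ i) i)
      (∑ σ : Equiv.Perm ι, ((Equiv.Perm.sign σ : ℤ) : ℂ) *
        ∑ j, (∏ i ∈ Finset.univ.erase j, M w (σ i) i) • M' (σ j) j) w :=
    HasDerivAt.fun_sum (fun σ _ => (h1 σ).const_mul _)
  have h3 : (∑ σ : Equiv.Perm ι, ((Equiv.Perm.sign σ : ℤ) : ℂ) *
        ∑ j, (∏ i ∈ Finset.univ.erase j, M w (σ i) i) • M' (σ j) j)
      = ∑ j, ((M w).updateCol j (fun i => M' i j)).det := by
    simp_rw [Matrix.det_apply', Finset.mul_sum]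
    rw [Finset.sum_comm]
    refine Finset.sum_congr rfl fun j _ => Finset.sum_congr rfl fun σ _ => ?_
    rw [← Finset.mul_prod_erase Finset.univ _ (Finset.mem_univ j), Matrix.updateCol_self]
    have h4 : ∏ i ∈ Finset.univ.erase j, (M w).updateCol j (fun i => M' i j) (σ i) i
        = ∏ i ∈ Finset.univ.erase j, M w (σ i) i :=
      Finset.prod_congr rfl fun i hi => Matrix.updateCol_ne (Finset.ne_of_mem_erase hi)
    rw [h4, smul_eq_mul]
    ring
  rw [← h3]
  have h5 : (fun t => (M t).det)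
      = fun t => ∑ σ : Equiv.Perm ι, ((Equiv.Perm.sign σ : ℤ) : ℂ) * ∏ i, M t (σ i) i := by
    funext t
    exact Matrix.det_apply' (M t)
  rw [h5]
  exact h2

/-- Abel–Liouville–Jacobi: if the matrix function `M` satisfies `M' = M · B` at `w`, then
`(det M)' = tr B · det M` at `w`. -/
theorem hasDerivAt_det_of_ode {ι : Type*} [Fintype ι] [DecidableEq ι] (M : ℂ → Matrix ι ι ℂ)
    (B : Matrix ι ι ℂ) (w : ℂ)
    (h : ∀ i j, HasDerivAt (fun t => M t i j) (∑ l, M w i l * B l j) w) :
    HasDerivAt (fun t => (M t).det) (B.trace * (M w).det) w := by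
  have h1 := hasDerivAt_det M (Matrix.of fun i j => ∑ l, M w i l * B l j) w h
  have h2 : (∑ j, ((M w).updateCol j
      (fun i => (Matrix.of fun i j => ∑ l, M w i l * B l j) i j)).det) = B.trace * (M w).det := by
    rw [Matrix.trace, Finset.sum_mul]
    refine Finset.sum_congr rfl fun j _ => ?_
    have h3 := Matrix.det_updateCol_sum (M w) j (fun l => B l j)
    simp only [smul_eq_mul] at h3
    rw [Matrix.diag_apply, ← h3]
    congr 2
    funext i
    simp only [Matrix.of_apply]
    exact Finset.sum_congr rfl fun l _ => mul_comm _ _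
  rw [← h2]
  exact h1

/-- The complex derivative of a holomorphic function on `ℍ`, in terms of `D = (2πi)⁻¹ d/dz`. -/
theorem hasDerivAt_ofComplex {F : ℍ → ℂ} (hF : MDiff F) (z : ℍ) :
    HasDerivAt (F ∘ ofComplex) (2 * π * I * D F z) (z : ℂ) := by
  have h := (UpperHalfPlane.mdifferentiableAt_iff.mp (hF z)).hasDerivAt
  have hpi : (2 * (π : ℂ) * I) ≠ 0 := by
    simp [Real.pi_ne_zero]
  have h2 : 2 * π * I * D F z = deriv (F ∘ ofComplex) (z : ℂ) := by
    simp only [normalizedDerivOfComplex]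
    field_simp
  rw [h2]
  exact h

/-! ### The Serre derivative and the Spec predicates -/

variable {Γ : Subgroup SL(2, ℤ)}

/-- The Serre derivative maps `M_k(Γ)` to `M_{k+2}(Γ)` (Spec predicate form). -/
theorem isMF_serreDerivative {k : ℤ} {f : ℍ → ℂ} (hf : IsMF Γ k f) :
    IsMF Γ (k + 2) (serreDerivative k f) where
  holo := serreDerivative_mdifferentiable k hf.holo
  inv γ hγ := serreDerivative_slash_invariant hf.holo (hf.inv γ hγ)
  bdd γ := by
    rw [serreDerivative_slash_equivariant hf.holo]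
    exact helper1760.isBoundedAtImInfty_serreDerivative k (hf.holo.slash k _) (hf.bdd γ)

/-- The Serre derivative maps `S_k(Γ)` to `S_{k+2}(Γ)` (Spec predicate form). -/
theorem isCF_serreDerivative {k : ℤ} {f : ℍ → ℂ} (hf : IsCF Γ k f) :
    IsCF Γ (k + 2) (serreDerivative k f) where
  holo := serreDerivative_mdifferentiable k hf.holo
  inv γ hγ := serreDerivative_slash_invariant hf.holo (hf.inv γ hγ)
  zero γ := by
    rw [serreDerivative_slash_equivariant hf.holo]
    exact helper1760.isZeroAtImInfty_serreDerivative k (hf.holo.slash k _) (hf.zero γ)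

/-- The Serre derivative commutes with translates. -/
theorem tr_serreDerivative {k : ℤ} {f : ℍ → ℂ} (hf : MDiff f) (x : SL(2, ℤ) ⧸ Γ) :
    tr Γ (k + 2) (serreDerivative k f) x = serreDerivative k (tr Γ k f x) := by
  unfold tr
  exact serreDerivative_slash_equivariant hf

/-- There is no nonzero level one form of weight `2`. -/
theorem isMF1_two_eq_zero {f : ℍ → ℂ} (hf : IsMF1 2 f) : f = 0 := by
  have h0 : hf.toModularForm1 = 0 :=
    rank_zero_iff_forall_zero.mp ModularForm.levelOne_weight_two_rank_zero _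
  have h1 := congrArg (fun F : ModularForm 𝒮ℒ 2 => (⇑F : ℍ → ℂ)) h0
  simpa using h1

/-- **The linear ODE of the translates of a free basis**: `D Φ = Φ · A + Φ · diag(κ/12 · E₂)`,
where the diagonal of `A` vanishes. -/
theorem exists_ode {ι : Type} [Fintype ι] {κ : ι → ℤ} {G : ι → ℍ → ℂ}
    (hG : IsFreeBasis Γ κ G) :
    ∃ A : ι → ι → ℍ → ℂ, (∀ i j, IsMF1 (κ j + 2 - κ i) (A i j)) ∧ (∀ j, A j j = 0) ∧
      ∀ (x : SL(2, ℤ) ⧸ Γ) (j : ι) (z : ℍ), D (tr Γ (κ j) (G j) x) z
        = ∑ i, tr Γ (κ i) (G i) x z * A i j z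
          + (κ j : ℂ) * 12⁻¹ * EisensteinSeries.E2 z * tr Γ (κ j) (G j) x z := by
  obtain ⟨hmf, hspan, -⟩ := hG
  have hexp : ∀ j, ∃ P : ι → ℍ → ℂ, (∀ i, IsMF1 (κ j + 2 - κ i) (P i)) ∧
      serreDerivative (κ j) (G j) = ∑ i, P i * G i :=
    fun j => hspan (κ j + 2) _ (isMF_serreDerivative (hmf j))
  choose P hP1 hP2 using hexp
  refine ⟨fun i j => P j i, fun i j => hP1 j i,
    fun j => isMF1_two_eq_zero ((hP1 j j).congr_weight (by ring)), ?_⟩
  intro x j z
  have e1 := tr_serreDerivative (Γ := Γ) (k := κ j) (hmf j).holo x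
  have e2 : tr Γ (κ j + 2) (∑ i, P j i * G i) x = ∑ i, P j i * tr Γ (κ i) (G i) x := by
    rw [tr_sum]
    refine Finset.sum_congr rfl fun i _ => ?_
    have h := tr_levelOne_mul Γ (hP1 j i) (κ i) (G i) x
    rwa [sub_add_cancel] at h
  have e3 : serreDerivative (κ j) (tr Γ (κ j) (G j) x) = ∑ i, P j i * tr Γ (κ i) (G i) x := by
    rw [← e1, hP2 j, e2]
  have e4 := congrFun e3 z
  rw [serreDerivative_apply, Finset.sum_apply] at e4
  simp only [Pi.mul_apply] at e4
  have e5 : ∑ i, tr Γ (κ i) (G i) x z * P j i z = ∑ i, P j i z * tr Γ (κ i) (G i) x z :=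
    Finset.sum_congr rfl fun i _ => mul_comm _ _
  rw [e5, ← e4]
  ring

/-- **Jacobi's formula for the fundamental determinant** (at the level of complex derivatives):
`(det Φ)' = 2πi · (∑ κ / 12) · E₂ · det Φ`. -/
theorem hasDerivAt_det_Phi [Fintype (SL(2, ℤ) ⧸ Γ)] [DecidableEq (SL(2, ℤ) ⧸ Γ)]
    {κ : SL(2, ℤ) ⧸ Γ → ℤ} {G : SL(2, ℤ) ⧸ Γ → ℍ → ℂ} (hG : IsFreeBasis Γ κ G) (z : ℍ) :
    HasDerivAt (fun t : ℂ => (Phi Γ κ G (ofComplex t)).det)
      (2 * π * I * (((∑ j, κ j : ℤ) : ℂ) * 12⁻¹ * EisensteinSeries.E2 z) *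
        (Phi Γ κ G z).det) (z : ℂ) := by
  obtain ⟨A, -, hA0, hode⟩ := exists_ode hG
  set B : Matrix (SL(2, ℤ) ⧸ Γ) (SL(2, ℤ) ⧸ Γ) ℂ := Matrix.of fun l j =>
    2 * π * I * (A l j z + if l = j then (κ j : ℂ) * 12⁻¹ * EisensteinSeries.E2 z else 0) with hB
  have hzz : ofComplex (z : ℂ) = z := ofComplex_apply z
  have hent : ∀ i j, HasDerivAt (fun t : ℂ => (Phi Γ κ G (ofComplex t)) i j)
      (∑ l, (Phi Γ κ G (ofComplex (z : ℂ))) i l * B l j) (z : ℂ) := by
    intro i j
    have h1 := hasDerivAt_ofComplex ((hG.1 j).tr_holo i) z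
    rw [hode] at h1
    have h2 : (∑ l, (Phi Γ κ G (ofComplex (z : ℂ))) i l * B l j)
        = 2 * π * I * (∑ l, tr Γ (κ l) (G l) i z * A l j z
          + (κ j : ℂ) * 12⁻¹ * EisensteinSeries.E2 z * tr Γ (κ j) (G j) i z) := by
      rw [hzz]
      simp only [hB, Phi, Matrix.of_apply, mul_add, Finset.sum_add_distrib, mul_ite, mul_zero,
        Finset.sum_ite_eq', Finset.mem_univ, if_true, Finset.mul_sum]
      congr 1
      · exact Finset.sum_congr rfl fun l _ => by ring
      · ring
    rw [h2]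
    exact h1
  have h3 := hasDerivAt_det_of_ode (fun t : ℂ => Phi Γ κ G (ofComplex t)) B (z : ℂ) hent
  have h4 : B.trace = 2 * π * I * (((∑ j, κ j : ℤ) : ℂ) * 12⁻¹ * EisensteinSeries.E2 z) := by
    simp only [Matrix.trace, Matrix.diag_apply, hB, Matrix.of_apply, if_true]
    have h5 : ∀ j, A j j z = 0 := fun j => by rw [hA0 j]; rfl
    simp only [h5, zero_add]
    rw [← Finset.mul_sum, ← Finset.sum_mul, ← Finset.sum_mul]
    push_cast
    ring
  rw [h4, hzz] at h3
  exact h3

/-- **SPEC-G4**: `(det Φ)^12 = c · Δ^(∑ κ)` for every coset-indexed free basis. -/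
theorem stmt_liouville (Γ : Subgroup SL(2, ℤ)) [Fintype (SL(2, ℤ) ⧸ Γ)]
    [DecidableEq (SL(2, ℤ) ⧸ Γ)] : Stmt_Liouville Γ := by
  intro κ G hG
  set K : ℤ := ∑ x, κ x with hK
  set H : ℂ → ℂ := fun t =>
    (Phi Γ κ G (ofComplex t)).det ^ 12 * (ModularForm.discriminant (ofComplex t)) ^ (-K) with hH
  have hderiv : ∀ t ∈ upperHalfPlaneSet, HasDerivAt H 0 t := by
    intro t ht
    set z : ℍ := ⟨t, ht⟩ with hz
    have hzt : ofComplex t = z := ofComplex_apply_of_im_pos ht
    have hdet := hasDerivAt_det_Phi hG z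
    have hdisc : HasDerivAt (fun s : ℂ => ModularForm.discriminant (ofComplex s))
        (2 * π * I * (EisensteinSeries.E2 z * ModularForm.discriminant z)) (z : ℂ) := by
      have h1 := hasDerivAt_ofComplex isMF1_discriminant.holo z
      rw [helper1760.D_discriminant] at h1
      exact h1
    have hne : ModularForm.discriminant z ≠ 0 := ModularForm.discriminant_ne_zero z
    have hzz : ofComplex (z : ℂ) = z := ofComplex_apply z
    have hzp : HasDerivAt (fun s : ℂ => (ModularForm.discriminant (ofComplex s)) ^ (-K))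
        (((-K : ℤ) : ℂ) * (ModularForm.discriminant z) ^ (-K - 1) *
          (2 * π * I * (EisensteinSeries.E2 z * ModularForm.discriminant z))) (z : ℂ) := by
      have h1 := (hasDerivAt_zpow (-K) (ModularForm.discriminant (ofComplex (z : ℂ)))
        (Or.inl (by rw [hzz]; exact hne))).comp (z : ℂ) hdisc
      rw [hzz] at h1
      exact h1
    have hprod := (hdet.pow 12).mul hzp
    have hval : (12 : ℕ) * (Phi Γ κ G (ofComplex (z : ℂ))).det ^ (12 - 1) *
          (2 * π * I * (((∑ j, κ j : ℤ) : ℂ) * 12⁻¹ * EisensteinSeries.E2 z) *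
            (Phi Γ κ G z).det) * (ModularForm.discriminant (ofComplex (z : ℂ))) ^ (-K) +
        (Phi Γ κ G (ofComplex (z : ℂ))).det ^ 12 *
          (((-K : ℤ) : ℂ) * (ModularForm.discriminant z) ^ (-K - 1) *
            (2 * π * I * (EisensteinSeries.E2 z * ModularForm.discriminant z))) = 0 := by
      rw [hzz]
      have hz1 : (ModularForm.discriminant z) ^ (-K) =
          (ModularForm.discriminant z) ^ (-K - 1) * ModularForm.discriminant z := by
        rw [← zpow_add_one₀ hne, sub_add_cancel]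
      rw [hz1, ← hK]
      push_cast
      ring
    have hfun : H = (fun t : ℂ => (Phi Γ κ G (ofComplex t)).det) ^ 12 *
        fun s : ℂ => (ModularForm.discriminant (ofComplex s)) ^ (-K) := by
      funext s
      simp [hH]
    rw [hfun, ← hval]
    exact hprod
  have hopen : IsOpen upperHalfPlaneSet := isOpen_upperHalfPlaneSet
  have hconn : IsPreconnected upperHalfPlaneSet := (convex_halfSpace_im_gt 0).isPreconnected
  have hdiff : DifferentiableOn ℂ H upperHalfPlaneSet := fun t ht =>
    (hderiv t ht).differentiableAt.differentiableWithinAt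
  have hzero : upperHalfPlaneSet.EqOn (deriv H) 0 := fun t ht => (hderiv t ht).deriv
  refine ⟨H (UpperHalfPlane.I : ℍ), fun z => ?_⟩
  have hc : H (z : ℂ) = H ((UpperHalfPlane.I : ℍ) : ℂ) :=
    hopen.is_const_of_deriv_eq_zero hconn hdiff hzero z.2 (UpperHalfPlane.I : ℍ).2
  rw [← hc]
  have hne : ModularForm.discriminant z ≠ 0 := ModularForm.discriminant_ne_zero z
  simp only [hH, ofComplex_apply]
  rw [mul_assoc, ← zpow_add₀ hne, neg_add_cancel, zpow_zero, mul_one]

end Fermat.Agent.S20.helper1559
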