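/-
S20 project, board row #293 (SPEC-G3), helper2507:  `Stmt_Basic Γ`.

The weights of a homogeneous free basis of `⨁_k M_k(Γ)` over `⨁_k M_k(SL(2,ℤ))` are `≥ 0`,
even (as `-1 ∈ Γ`), and exactly one of them is `0`.
-/
import Fermat.Agent.S20.helper1040_API

set_option autoImplicit false

open UpperHalfPlane ModularForm Matrix.SpecialLinearGroup Filter Complex
open scoped MatrixGroups ModularForm Manifold Topology Real

namespace Fermat.Agent.S20.helper2507

open Fermat.Agent.S20.helper1040

/-- A member of a free basis is not the zero function. -/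
theorem IsFreeBasis.ne_zero {Γ : Subgroup SL(2, ℤ)} {ι : Type} [Fintype ι] {κ : ι → ℤ}
    {G : ι → ℍ → ℂ} (hG : IsFreeBasis Γ κ G) (j : ι) : G j ≠ 0 := by
  classical
  intro h0
  obtain ⟨_, _, hindep⟩ := hG
  have hA : ∀ i, IsMF1 (κ j - κ i) (if i = j then Function.const ℍ (1 : ℂ) else 0) := by
    intro i
    by_cases hij : i = j
    · subst hij
      simp only [if_true]
      exact (isMF_const ⊤ 1).congr_weight (sub_self _).symm
    · simp only [if_neg hij]
      exact isMF_zero ⊤ _
  have hsum : ∑ i, (if i = j then Function.const ℍ (1 : ℂ) else 0) * G i = 0 := by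
    apply Finset.sum_eq_zero
    intro i _
    by_cases hij : i = j
    · subst hij
      simp [h0]
    · simp [hij]
  have := hindep (κ j) _ hA hsum j
  simp only [if_true] at this
  have h1 := congrFun this UpperHalfPlane.I
  simp at h1

/-- BASIC (board #293): weights of a free basis are `≥ 0`, even, and exactly one is `0`. -/
theorem stmt_basic (Γ : Subgroup SL(2, ℤ)) [Γ.FiniteIndex] (hneg : -1 ∈ Γ) : Stmt_Basic Γ := by
  classical
  intro ι _ κ G hG
  have hne : ∀ j, G j ≠ 0 := fun j => IsFreeBasis.ne_zero hG j
  have hMF : ∀ j, IsMF Γ (κ j) (G j) := hG.1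
  have hnonneg : ∀ j, 0 ≤ κ j := by
    intro j
    by_contra hlt
    exact hne j ((hMF j).eq_zero_of_neg_weight (not_le.mp hlt))
  have heven : ∀ j, Even (κ j) := by
    intro j
    by_contra hodd
    exact hne j ((hMF j).eq_zero_of_odd hneg (Int.not_even_iff_odd.mp hodd))
  refine ⟨hnonneg, heven, ?_⟩
  -- existence of a weight-zero generator
  have hex : ∃ j, κ j = 0 := by
    by_contra hnone'
    have hnone : ∀ j, κ j ≠ 0 := fun j h => hnone' ⟨j, h⟩
    obtain ⟨A, hA, hsum⟩ := hG.2.1 0 (Function.const ℍ (1 : ℂ)) (isMF_const Γ 1)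
    have hA0 : ∀ j, A j = 0 := by
      intro j
      have hpos : 0 < κ j := lt_of_le_of_ne (hnonneg j) (Ne.symm (hnone j))
      exact (hA j).eq_zero_of_neg_weight (by omega)
    have h1 := congrFun hsum UpperHalfPlane.I
    simp [hA0] at h1
  -- uniqueness
  have huniq : ∀ i j, κ i = 0 → κ j = 0 → i = j := by
    intro i j hi hj
    by_contra hij
    obtain ⟨ci, hci⟩ := ((hMF i).congr_weight hi).eq_const_of_weight_zero
    obtain ⟨cj, hcj⟩ := ((hMF j).congr_weight hj).eq_const_of_weight_zero
    have hcj0 : cj ≠ 0 := by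
      rintro rfl
      exact hne j (by rw [hcj]; rfl)
    set A : ι → ℍ → ℂ := fun l =>
      if l = i then Function.const ℍ cj else if l = j then Function.const ℍ (-ci) else 0 with hAdef
    have hA : ∀ l, IsMF1 (0 - κ l) (A l) := by
      intro l
      by_cases hli : l = i
      · subst hli
        simp only [hAdef, if_true]
        exact (isMF_const ⊤ cj).congr_weight (by rw [hi]; simp)
      · by_cases hlj : l = j
        · subst hlj
          simp only [hAdef, if_neg hli, if_true]
          exact (isMF_const ⊤ (-ci)).congr_weight (by rw [hj]; simp)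
        · simp only [hAdef, if_neg hli, if_neg hlj]
          exact isMF_zero ⊤ _
    have hsum : ∑ l, A l * G l = 0 := by
      have hsub : ∀ l ∈ (Finset.univ : Finset ι), l ∉ ({i, j} : Finset ι) → A l * G l = 0 := by
        intro l _ hl
        have hli : l ≠ i := fun h => hl (by simp [h])
        have hlj : l ≠ j := fun h => hl (by simp [h])
        simp [hAdef, hli, hlj]
      rw [← Finset.sum_subset (Finset.subset_univ ({i, j} : Finset ι)) hsub,
        Finset.sum_pair hij]
      have hji : j ≠ i := fun h => hij h.symm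
      ext z
      simp only [hAdef, if_true, if_neg hji, Pi.add_apply, Pi.mul_apply, Pi.zero_apply,
        Function.const_apply]
      rw [hci, hcj]
      simp only [Function.const_apply]
      ring
    have := hG.2.2 0 A hA hsum i
    simp only [hAdef, if_true] at this
    have h1 := congrFun this UpperHalfPlane.I
    simp only [Function.const_apply, Pi.zero_apply] at h1
    exact hcj0 h1
  rw [Nat.card_eq_one_iff_unique]
  obtain ⟨j0, hj0⟩ := hex
  exact ⟨⟨fun a b => Subtype.ext (huniq a b a.2 b.2)⟩, ⟨⟨j0, hj0⟩⟩⟩

end Fermat.Agent.S20.helper2507
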