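import Mathlib

/-!
# Bridge between `SL(2, ℤ) ⧸ Γ` and the `GL(2, ℝ)`-side quotient used by Mathlib's `quotientFunc`

For `Γ : Subgroup SL(2, ℤ)` with image `𝒢 = Γ.map (mapGL ℝ)` in `GL(2, ℝ)`, Mathlib's norm/trace
machinery uses the coset space `𝒮ℒ ⧸ 𝒢.subgroupOf 𝒮ℒ`.  We give the `SL(2, ℤ)`-equivariant
bijection with `SL(2, ℤ) ⧸ Γ` and transfer cardinalities of the coset space, of fixed-point sets
and of orbit spaces of cyclic subgroups.
-/

set_option autoImplicit false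

open scoped MatrixGroups
open Matrix.SpecialLinearGroup

namespace Fermat.Agent.S20.helper2600

/-- `SL(2, ℤ) → 𝒮ℒ`, the corestriction of `mapGL ℝ` to its range. -/
noncomputable def toSL : SL(2, ℤ) →* 𝒮ℒ :=
  (mapGL ℝ : SL(2, ℤ) →* GL (Fin 2) ℝ).rangeRestrict

@[simp] theorem toSL_coe (g : SL(2, ℤ)) : ((toSL g : 𝒮ℒ) : GL (Fin 2) ℝ) = mapGL ℝ g := rfl

theorem toSL_injective : Function.Injective toSL := by
  intro g g' h
  have := congrArg (Subtype.val) h
  simpa using mapGL_injective this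

theorem toSL_surjective : Function.Surjective toSL :=
  MonoidHom.rangeRestrict_surjective _

variable (Γ : Subgroup SL(2, ℤ))

/-- The `GL(2, ℝ)`-side coset space attached to `Γ ≤ SL(2, ℤ)`. -/
abbrev QGL : Type := 𝒮ℒ ⧸ (Γ.map (mapGL ℝ : SL(2, ℤ) →* GL (Fin 2) ℝ)).subgroupOf 𝒮ℒ

theorem toSL_mem_iff (g : SL(2, ℤ)) :
    toSL g ∈ (Γ.map (mapGL ℝ : SL(2, ℤ) →* GL (Fin 2) ℝ)).subgroupOf 𝒮ℒ ↔ g ∈ Γ := by
  rw [Subgroup.mem_subgroupOf, toSL_coe, Subgroup.mem_map]
  constructor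
  · rintro ⟨h, hh, he⟩
    rwa [← mapGL_injective he]
  · intro h
    exact ⟨g, h, rfl⟩

theorem mk_toSL_eq_iff (g g' : SL(2, ℤ)) :
    (QuotientGroup.mk (toSL g) : QGL Γ) = QuotientGroup.mk (toSL g') ↔
      (QuotientGroup.mk g : SL(2, ℤ) ⧸ Γ) = QuotientGroup.mk g' := by
  rw [QuotientGroup.eq, QuotientGroup.eq, ← map_inv, ← map_mul, toSL_mem_iff]

/-- The bijection `SL(2, ℤ) ⧸ Γ ≃ 𝒮ℒ ⧸ 𝒢.subgroupOf 𝒮ℒ`. -/
noncomputable def bridge : SL(2, ℤ) ⧸ Γ ≃ QGL Γ :=
  Equiv.ofBijective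
    (Quotient.lift (fun g : SL(2, ℤ) => (QuotientGroup.mk (toSL g) : QGL Γ)) (by
      intro g g' h
      exact (mk_toSL_eq_iff Γ g g').mpr (Quotient.sound h)))
    (by
      constructor
      · intro x y
        induction x using QuotientGroup.induction_on with
        | H g =>
          induction y using QuotientGroup.induction_on with
          | H g' =>
            intro h
            exact (mk_toSL_eq_iff Γ g g').mp h
      · intro q
        induction q using QuotientGroup.induction_on with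
        | H s =>
          obtain ⟨g, rfl⟩ := toSL_surjective s
          exact ⟨QuotientGroup.mk g, rfl⟩)

@[simp] theorem bridge_mk (g : SL(2, ℤ)) :
    bridge Γ (QuotientGroup.mk g) = QuotientGroup.mk (toSL g) := rfl

theorem bridge_smul (g : SL(2, ℤ)) (x : SL(2, ℤ) ⧸ Γ) :
    bridge Γ (g • x) = toSL g • bridge Γ x := by
  induction x using QuotientGroup.induction_on with
  | H h =>
    rw [MulAction.Quotient.smul_mk, bridge_mk, bridge_mk, MulAction.Quotient.smul_mk]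
    simp

/-- `[SL(2, ℤ) : Γ]` computed on the `GL(2, ℝ)` side. -/
theorem card_QGL : Nat.card (QGL Γ) = Γ.index := by
  rw [Subgroup.index, Nat.card_congr (bridge Γ)]

/-- Fixed points of `g` on both sides. -/
theorem card_fixed_QGL (g : SL(2, ℤ)) :
    Nat.card {q : QGL Γ // toSL g • q = q} = Nat.card (MulAction.fixedBy (SL(2, ℤ) ⧸ Γ) g) := by
  symm
  refine Nat.card_congr ((bridge Γ).subtypeEquiv ?_)
  intro x
  rw [MulAction.mem_fixedBy, ← bridge_smul, (bridge Γ).apply_eq_iff_eq]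

theorem orbitRel_zpowers_iff {G α : Type*} [Group G] [MulAction G α] (g : G) (a b : α) :
    MulAction.orbitRel (Subgroup.zpowers g) α a b ↔ ∃ n : ℤ, g ^ n • b = a := by
  rw [MulAction.orbitRel_apply, MulAction.mem_orbit_iff]
  constructor
  · rintro ⟨⟨h, hh⟩, rfl⟩
    obtain ⟨n, rfl⟩ := Subgroup.mem_zpowers_iff.mp hh
    exact ⟨n, rfl⟩
  · rintro ⟨n, rfl⟩
    exact ⟨⟨g ^ n, Subgroup.zpow_mem_zpowers g n⟩, rfl⟩

/-- Orbits of the cyclic group generated by `g` on both sides. -/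
theorem card_orbits_QGL (g : SL(2, ℤ)) :
    Nat.card (MulAction.orbitRel.Quotient (Subgroup.zpowers (toSL g)) (QGL Γ)) =
      Nat.card (MulAction.orbitRel.Quotient (Subgroup.zpowers g) (SL(2, ℤ) ⧸ Γ)) := by
  symm
  refine Nat.card_congr (Quotient.congr (bridge Γ) ?_)
  intro a b
  refine (orbitRel_zpowers_iff g a b).trans
    (Iff.trans ?_ (orbitRel_zpowers_iff (toSL g) (bridge Γ a) (bridge Γ b)).symm)
  constructor
  · rintro ⟨n, rfl⟩
    exact ⟨n, by rw [bridge_smul, map_zpow]⟩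
  · rintro ⟨n, hn⟩
    refine ⟨n, (bridge Γ).injective ?_⟩
    rw [bridge_smul, map_zpow, hn]

end Fermat.Agent.S20.helper2600
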