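import Mathlib
import Fermat.Prelude.Def_ModularCurve_GenusNumerics

/-!
# Coset combinatorics of `Γ₀(N)` in `SL(2, ℤ)` (S20 route step 8, board row 46)

`X := SL(2, ℤ) ⧸ Γ₀(N)` with the left action of `SL(2, ℤ)`.

* `mk_eq_mk_iff` : coset criterion via first columns.
* `card_fixedBy_S` : `#Fix(S on X) = nuTwo N`.
* `card_fixedBy_ST` : `#Fix(S * T on X) = nuThree N`.
-/

set_option autoImplicit false

open scoped MatrixGroups
open CongruenceSubgroup Matrix

namespace Fermat.Agent.S20.helper2600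

theorem inv_mul_apply_one_zero (g g' : SL(2, ℤ)) :
    (g⁻¹ * g') 1 0 = g 0 0 * g' 1 0 - g 1 0 * g' 0 0 := by
  simp [Matrix.mul_apply, Fin.sum_univ_two, Matrix.adjugate_fin_two]
  ring

/-- Coset criterion: `g Γ₀(N) = g' Γ₀(N)` iff the first columns are proportional mod `N`. -/
theorem mk_eq_mk_iff (N : ℕ) (g g' : SL(2, ℤ)) :
    (QuotientGroup.mk g : SL(2, ℤ) ⧸ Gamma0 N) = QuotientGroup.mk g' ↔
      ((g 0 0 * g' 1 0 - g 1 0 * g' 0 0 : ℤ) : ZMod N) = 0 := by
  rw [QuotientGroup.eq, Gamma0_mem, inv_mul_apply_one_zero]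

theorem S_mul_apply_zero_zero (g : SL(2, ℤ)) : (ModularGroup.S * g) 0 0 = - g 1 0 := by
  simp [ModularGroup.S, Matrix.mul_apply, Fin.sum_univ_two]

theorem S_mul_apply_one_zero (g : SL(2, ℤ)) : (ModularGroup.S * g) 1 0 = g 0 0 := by
  simp [ModularGroup.S, Matrix.mul_apply, Fin.sum_univ_two]

theorem ST_mul_apply_zero_zero (g : SL(2, ℤ)) :
    (ModularGroup.S * ModularGroup.T * g) 0 0 = - g 1 0 := by
  simp [ModularGroup.S, ModularGroup.T, Matrix.mul_apply, Fin.sum_univ_two]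

theorem ST_mul_apply_one_zero (g : SL(2, ℤ)) :
    (ModularGroup.S * ModularGroup.T * g) 1 0 = g 0 0 + g 1 0 := by
  simp [ModularGroup.S, ModularGroup.T, Matrix.mul_apply, Fin.sum_univ_two]

theorem T_zpow_mul_apply_zero_zero (k : ℤ) (g : SL(2, ℤ)) :
    (ModularGroup.T ^ k * g) 0 0 = g 0 0 + k * g 1 0 := by
  simp [ModularGroup.coe_T_zpow, Matrix.mul_apply, Fin.sum_univ_two]

theorem T_zpow_mul_apply_one_zero (k : ℤ) (g : SL(2, ℤ)) :
    (ModularGroup.T ^ k * g) 1 0 = g 1 0 := by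
  simp

theorem det_eq_one' (g : SL(2, ℤ)) : g 0 0 * g 1 1 - g 0 1 * g 1 0 = 1 := by
  have := g.det_coe
  rw [Matrix.det_fin_two] at this
  exact this

/-- The matrix `[x, -1; 1, 0]`, a representative of the coset with first column `(x : 1)`. -/
def colRep (x : ℤ) : SL(2, ℤ) := ⟨!![x, -1; 1, 0], by simp [Matrix.det_fin_two]⟩

@[simp] theorem colRep_zero_zero (x : ℤ) : (colRep x) 0 0 = x := by simp [colRep]

@[simp] theorem colRep_one_zero (x : ℤ) : (colRep x) 1 0 = 1 := by simp [colRep]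

theorem mem_fixedBy_S_iff (N : ℕ) (g : SL(2, ℤ)) :
    (QuotientGroup.mk g : SL(2, ℤ) ⧸ Gamma0 N) ∈
        MulAction.fixedBy (SL(2, ℤ) ⧸ Gamma0 N) ModularGroup.S ↔
      ((g 0 0 : ℤ) : ZMod N) ^ 2 + ((g 1 0 : ℤ) : ZMod N) ^ 2 = 0 := by
  rw [MulAction.mem_fixedBy, MulAction.Quotient.smul_mk, smul_eq_mul, mk_eq_mk_iff,
    S_mul_apply_zero_zero, S_mul_apply_one_zero]
  push_cast
  constructor
  · intro h; linear_combination -h
  · intro h; linear_combination -h

theorem mem_fixedBy_ST_iff (N : ℕ) (g : SL(2, ℤ)) :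
    (QuotientGroup.mk g : SL(2, ℤ) ⧸ Gamma0 N) ∈
        MulAction.fixedBy (SL(2, ℤ) ⧸ Gamma0 N) (ModularGroup.S * ModularGroup.T) ↔
      ((g 0 0 : ℤ) : ZMod N) ^ 2 + ((g 0 0 : ℤ) : ZMod N) * ((g 1 0 : ℤ) : ZMod N)
        + ((g 1 0 : ℤ) : ZMod N) ^ 2 = 0 := by
  rw [MulAction.mem_fixedBy, MulAction.Quotient.smul_mk, smul_eq_mul, mk_eq_mk_iff,
    ST_mul_apply_zero_zero, ST_mul_apply_one_zero]
  push_cast
  constructor
  · intro h; linear_combination -h
  · intro h; linear_combination -h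

theorem det_cast (N : ℕ) (g : SL(2, ℤ)) :
    ((g 0 0 : ℤ) : ZMod N) * ((g 1 1 : ℤ) : ZMod N)
      - ((g 0 1 : ℤ) : ZMod N) * ((g 1 0 : ℤ) : ZMod N) = 1 := by
  have := congrArg (Int.cast : ℤ → ZMod N) (det_eq_one' g)
  push_cast at this
  exact this

/-- `#Fix(S) = nuTwo N` on `SL(2, ℤ) ⧸ Γ₀(N)`. -/
theorem card_fixedBy_S (N : ℕ) [NeZero N] :
    Nat.card (MulAction.fixedBy (SL(2, ℤ) ⧸ Gamma0 N) ModularGroup.S) = ModularCurve.nuTwo N := by
  unfold ModularCurve.nuTwo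
  symm
  let f : {x : ZMod N // x ^ 2 + 1 = 0} →
      MulAction.fixedBy (SL(2, ℤ) ⧸ Gamma0 N) ModularGroup.S := fun x =>
    ⟨QuotientGroup.mk (colRep (ZMod.cast x.1 : ℤ)), by
      rw [mem_fixedBy_S_iff]
      simpa using x.2⟩
  refine Nat.card_eq_of_bijective f ⟨?_, ?_⟩
  · intro x y hxy
    have h := congrArg Subtype.val hxy
    simp only [f] at h
    rw [mk_eq_mk_iff] at h
    simp only [colRep_zero_zero, colRep_one_zero] at h
    push_cast at h
    simp only [mul_one, one_mul] at h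
    exact Subtype.ext (sub_eq_zero.mp h)
  · rintro ⟨q, hq⟩
    obtain ⟨g, rfl⟩ := QuotientGroup.mk_surjective q
    rw [mem_fixedBy_S_iff] at hq
    have hdet := det_cast N g
    set a : ZMod N := ((g 0 0 : ℤ) : ZMod N) with ha
    set b : ZMod N := ((g 0 1 : ℤ) : ZMod N) with hb
    set c : ZMod N := ((g 1 0 : ℤ) : ZMod N) with hc
    set d : ZMod N := ((g 1 1 : ℤ) : ZMod N) with hd
    -- explicit inverse of `c`
    let e : ZMod N := -(2 * b + b ^ 2 * c + c * d ^ 2)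
    have hce : c * e = 1 := by
      simp only [e]
      linear_combination (-d ^ 2) * hq + (1 + b * c + a * d) * hdet
    have hx : (a * e) ^ 2 + 1 = 0 := by
      linear_combination e ^ 2 * hq - (c * e + 1) * hce
    refine ⟨⟨a * e, hx⟩, ?_⟩
    apply Subtype.ext
    simp only [f]
    rw [mk_eq_mk_iff]
    simp only [colRep_zero_zero, colRep_one_zero]
    push_cast
    simp only [one_mul]
    rw [← hc, ← ha]
    linear_combination a * hce

/-- `#Fix(S * T) = nuThree N` on `SL(2, ℤ) ⧸ Γ₀(N)`. -/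
theorem card_fixedBy_ST (N : ℕ) [NeZero N] :
    Nat.card (MulAction.fixedBy (SL(2, ℤ) ⧸ Gamma0 N) (ModularGroup.S * ModularGroup.T)) =
      ModularCurve.nuThree N := by
  unfold ModularCurve.nuThree
  symm
  let f : {x : ZMod N // x ^ 2 + x + 1 = 0} →
      MulAction.fixedBy (SL(2, ℤ) ⧸ Gamma0 N) (ModularGroup.S * ModularGroup.T) := fun x =>
    ⟨QuotientGroup.mk (colRep (ZMod.cast x.1 : ℤ)), by
      rw [mem_fixedBy_ST_iff]
      simpa using x.2⟩
  refine Nat.card_eq_of_bijective f ⟨?_, ?_⟩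
  · intro x y hxy
    have h := congrArg Subtype.val hxy
    simp only [f] at h
    rw [mk_eq_mk_iff] at h
    simp only [colRep_zero_zero, colRep_one_zero] at h
    push_cast at h
    simp only [mul_one, one_mul] at h
    exact Subtype.ext (sub_eq_zero.mp h)
  · rintro ⟨q, hq⟩
    obtain ⟨g, rfl⟩ := QuotientGroup.mk_surjective q
    rw [mem_fixedBy_ST_iff] at hq
    have hdet := det_cast N g
    set a : ZMod N := ((g 0 0 : ℤ) : ZMod N) with ha
    set b : ZMod N := ((g 0 1 : ℤ) : ZMod N) with hb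
    set c : ZMod N := ((g 1 0 : ℤ) : ZMod N) with hc
    set d : ZMod N := ((g 1 1 : ℤ) : ZMod N) with hd
    let e : ZMod N := -(2 * b + b ^ 2 * c + d + b * c * d + c * d ^ 2)
    have hce : c * e = 1 := by
      simp only [e]
      linear_combination (-d ^ 2) * hq + (1 + b * c + a * d + c * d) * hdet
    have hx : (a * e) ^ 2 + a * e + 1 = 0 := by
      linear_combination e ^ 2 * hq - (c * e + 1 + a * e) * hce
    refine ⟨⟨a * e, hx⟩, ?_⟩
    apply Subtype.ext
    simp only [f]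
    rw [mk_eq_mk_iff]
    simp only [colRep_zero_zero, colRep_one_zero]
    push_cast
    simp only [one_mul]
    rw [← hc, ← ha]
    linear_combination a * hce

end Fermat.Agent.S20.helper2600
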