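import Fermat.Agent.S20.helper560_Spec
import Fermat.Agent.S20.helper2600_Counts
import Fermat.Agent.S20.helper2600_Bridge
import Fermat.Agent.S24.helper227_CuspCount
import Fermat.Agent.S20.helper1040_Spec
import Fermat.Agent.Lib.helper804_Gamma0Cosets

/-!
# The counting goals of the S20 spec (`helper560_Spec`) for `Γ₀(N)`

* `goal_E2 : Goal_E2` and `goal_E3 : Goal_E3` (unconditional).
* `goal_Index_of`, `goal_Cusps_of` : `Goal_Index`, `Goal_Cusps` from the corresponding statements
  on `SL(2, ℤ) ⧸ Γ₀(N)`.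
* `goal_Cusps : Goal_Cusps` (unconditional, via `Fermat.Agent.S24.helper227.card_orbits_T`).
* `stmt_EllTwo`, `stmt_EllThree`, `stmt_CuspNum` : the counting statements of `helper1040_Spec`.
* `goal_Index : Goal_Index`, `stmt_Index` (via `Fermat.Agent.Lib.helper804.index_Gamma0`).
-/

set_option autoImplicit false

open scoped MatrixGroups
open CongruenceSubgroup

namespace Fermat.Agent.S20.helper2600

open Fermat.Agent.S20.helper560

theorem sl_eq_toSL (γ : SL(2, ℤ)) : sl γ = toSL γ := rfl

/-- `#Fix(S) = nuTwo N` in the shape of the spec. -/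
theorem goal_E2 : Goal_E2 := by
  intro N _
  exact (card_fixed_QGL (Gamma0 N) ModularGroup.S).trans (card_fixedBy_S N)

/-- `#Fix(S * T) = nuThree N` in the shape of the spec. -/
theorem goal_E3 : Goal_E3 := by
  intro N _
  exact (card_fixed_QGL (Gamma0 N) (ModularGroup.S * ModularGroup.T)).trans (card_fixedBy_ST N)

/-- `Goal_Index` from the index formula in `SL(2, ℤ)`. -/
theorem goal_Index_of
    (h : ∀ (N : ℕ) [NeZero N], (Gamma0 N).index = ModularCurve.dedekindPsi N) : Goal_Index := by
  intro N _
  exact (card_QGL (Gamma0 N)).trans (h N)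

/-- `Goal_Cusps` from the orbit count on `SL(2, ℤ) ⧸ Γ₀(N)`. -/
theorem goal_Cusps_of
    (h : ∀ (N : ℕ) [NeZero N],
      Nat.card (MulAction.orbitRel.Quotient (Subgroup.zpowers ModularGroup.T)
        (SL(2, ℤ) ⧸ Gamma0 N)) = ModularCurve.cuspCount N) : Goal_Cusps := by
  intro N _
  exact (card_orbits_QGL (Gamma0 N) ModularGroup.T).trans (h N)

/-- `#T-orbits = cuspCount N` in the shape of the spec (orbit count by helper227). -/
theorem goal_Cusps : Goal_Cusps :=
  goal_Cusps_of fun N _ => Fermat.Agent.S24.helper227.card_orbits_T N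

/-! ### The same counts in the shapes of `helper1040_Spec` -/

theorem stmt_EllTwo (N : ℕ) [NeZero N] : Fermat.Agent.S20.helper1040.Stmt_EllTwo N :=
  card_fixedBy_S N

theorem stmt_EllThree (N : ℕ) [NeZero N] : Fermat.Agent.S20.helper1040.Stmt_EllThree N :=
  card_fixedBy_ST N

theorem stmt_CuspNum (N : ℕ) [NeZero N] : Fermat.Agent.S20.helper1040.Stmt_CuspNum N :=
  Fermat.Agent.S24.helper227.card_orbits_T N

/-! ### The index (proved by helper804 in `Fermat.Agent.Lib.helper804_Gamma0Cosets`) -/

/-- `μ = dedekindPsi N` in the shape of `helper560_Spec`. -/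
theorem goal_Index : Goal_Index :=
  goal_Index_of fun N _ => Fermat.Agent.Lib.helper804.index_Gamma0 N

theorem stmt_Index (N : ℕ) [NeZero N] : Fermat.Agent.S20.helper1040.Stmt_Index N :=
  Fermat.Agent.Lib.helper804.index_Gamma0 N

end Fermat.Agent.S20.helper2600
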