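/-
S20 project, board row 295 (SPEC-G5): `Stmt_Ell Γ` for every subgroup `Γ ≤ SL(2,ℤ)` with finitely
many cosets.  (helper5021)

Evaluation of the everywhere invertible fundamental matrix `Φ` at the elliptic points `i` and `ρ`:
if `g • z₀ = z₀` then `Φ(z₀)_{g • x, j} = denom g z₀ ^ κ j * Φ(z₀)_{x, j}`, i.e.
`P_g Φ(z₀) = Φ(z₀) diag(denom g z₀ ^ κ j)` for the permutation matrix `P_g`; taking traces gives
`∑ j, denom g z₀ ^ κ j = #Fix(g)`.  For `g = S`, `z₀ = i` the left side is
`#{κ ≡ 0 mod 4} - #{κ ≡ 2 mod 4}`, for `g = S * T`, `z₀ = ρ` it is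
`#{κ ≡ 0 mod 6} + ρ #{κ ≡ 2 mod 6} + ρ² #{κ ≡ 4 mod 6}`.
-/
import Fermat.Agent.S20.helper1040_API

set_option autoImplicit false

open UpperHalfPlane ModularForm Matrix.SpecialLinearGroup Filter Complex
open scoped MatrixGroups ModularForm Manifold Topology Real

namespace Fermat.Agent.S20.helper5021

open Fermat.Agent.S20.helper1040

/-! ### Linear algebra -/

/-- Pure linear algebra: if an invertible matrix `M` satisfies `M (σ x) j = c j * M x j` for a
self-map `σ` of the row index, then `∑ j, c j` is the number of fixed points of `σ`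
(trace of `P_σ = M diag(c) M⁻¹`). -/
theorem sum_eq_card_fixed {X : Type*} [Fintype X] [DecidableEq X] (σ : X → X)
    (M : Matrix X X ℂ) (hM : M.det ≠ 0) (c : X → ℂ)
    (h : ∀ x j, M (σ x) j = c j * M x j) :
    ∑ j, c j = (Fintype.card {x : X // σ x = x} : ℂ) := by
  classical
  set P : Matrix X X ℂ := Matrix.of fun x y => if y = σ x then 1 else 0 with hP
  have hPM : P * M = M * Matrix.diagonal c := by
    ext x j
    rw [Matrix.mul_diagonal, Matrix.mul_apply]
    simp [hP, h, mul_comm]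
  have hunit : IsUnit M.det := isUnit_iff_ne_zero.mpr hM
  have h1 : P = M * Matrix.diagonal c * M⁻¹ := by
    rw [← hPM, Matrix.mul_assoc, Matrix.mul_nonsing_inv _ hunit, Matrix.mul_one]
  have h2 : Matrix.trace P = ∑ j, c j := by
    rw [h1, Matrix.trace_mul_comm, ← Matrix.mul_assoc, Matrix.nonsing_inv_mul _ hunit,
      Matrix.one_mul, Matrix.trace_diagonal]
  rw [← h2]
  simp only [hP, Matrix.trace, Matrix.diag_apply, Matrix.of_apply]
  rw [Finset.sum_boole, Fintype.card_subtype]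
  congr 2
  ext x
  simp [eq_comm]

/-! ### Trace identity at a fixed point -/

section

variable (Γ : Subgroup SL(2, ℤ)) [Fintype (SL(2, ℤ) ⧸ Γ)] [DecidableEq (SL(2, ℤ) ⧸ Γ)]

/-- Trace identity at a fixed point `z₀` of `g`: `∑ j, denom g z₀ ^ κ j = #Fix(g on SL(2,ℤ)⧸Γ)`. -/
theorem sum_denom_zpow_eq_card_fixed
    (κ : SL(2, ℤ) ⧸ Γ → ℤ) (G : SL(2, ℤ) ⧸ Γ → ℍ → ℂ)
    (hG : ∀ j, ∀ γ ∈ Γ, G j ∣[κ j] γ = G j) (g : SL(2, ℤ)) (z₀ : ℍ) (hz : g • z₀ = z₀)
    (hdet : (Phi Γ κ G z₀).det ≠ 0) :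
    ∑ j, denom g z₀ ^ κ j = (Nat.card {x : SL(2, ℤ) ⧸ Γ // g • x = x} : ℂ) := by
  rw [Nat.card_eq_fintype_card]
  refine sum_eq_card_fixed (fun x => g • x) (Phi Γ κ G z₀) hdet _ ?_
  intro x j
  have := tr_smul_apply (hG j) x g z₀
  rw [hz] at this
  simpa [Phi] using this

end

/-! ### The elliptic points -/

theorem S_smul_I : ModularGroup.S • UpperHalfPlane.I = UpperHalfPlane.I := by
  rw [modular_S_smul]
  ext
  simp [UpperHalfPlane.I]

theorem denom_S_I : denom ModularGroup.S UpperHalfPlane.I = Complex.I := by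
  rw [ModularGroup.denom_S]
  rfl

/-- The point `ρ = e^{2πi/3}` of the upper half plane. -/
noncomputable def rho : ℍ := ⟨⟨-1/2, Real.sqrt 3 / 2⟩, by simp⟩

theorem rho_sq : (rho : ℂ) ^ 2 + (rho : ℂ) + 1 = 0 := by
  have h3 : Real.sqrt 3 ^ 2 = 3 := Real.sq_sqrt (by norm_num)
  apply Complex.ext
  · simp [rho, pow_two]
    nlinarith
  · simp [rho, pow_two]
    ring

theorem ST_apply_one_zero : (ModularGroup.S * ModularGroup.T : SL(2, ℤ)) 1 0 = 1 := by decide

theorem ST_apply_one_one : (ModularGroup.S * ModularGroup.T : SL(2, ℤ)) 1 1 = 1 := by decide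

theorem denom_ST_rho :
    denom (ModularGroup.S * ModularGroup.T : SL(2, ℤ)) rho = (rho : ℂ) + 1 := by
  rw [ModularGroup.denom_apply, ST_apply_one_zero, ST_apply_one_one]
  simp

theorem ST_smul_rho : (ModularGroup.S * ModularGroup.T) • rho = rho := by
  rw [mul_smul, modular_T_smul, modular_S_smul]
  ext
  simp
  have h := rho_sq
  symm
  apply eq_inv_of_mul_eq_one_left
  linear_combination -h

/-! ### Powers of `i` and of `ρ + 1` -/

theorem I_zpow_of_even (k : ℤ) (hk : Even k) :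
    Complex.I ^ k = if k % 4 = 0 then 1 else -1 := by
  obtain ⟨m, rfl⟩ := hk
  have h1 : Complex.I ^ (m + m) = (-1 : ℂ) ^ m := by
    rw [← two_mul, zpow_mul, zpow_two, Complex.I_mul_I]
  rw [h1]
  rcases Int.even_or_odd m with hm | hm
  · rw [hm.neg_one_zpow, if_pos]
    obtain ⟨n, rfl⟩ := hm
    omega
  · rw [hm.neg_one_zpow, if_neg]
    obtain ⟨n, rfl⟩ := hm
    omega

theorem rho_add_one_zpow_of_even (k : ℤ) (hk : Even k) :
    ((rho : ℂ) + 1) ^ k =
      if k % 6 = 0 then 1 else if k % 6 = 2 then (rho : ℂ) else (rho : ℂ) ^ 2 := by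
  obtain ⟨m, rfl⟩ := hk
  have hsq : ((rho : ℂ) + 1) ^ 2 = rho := by linear_combination rho_sq
  have hcube : (rho : ℂ) ^ 3 = 1 := by linear_combination ((rho : ℂ) - 1) * rho_sq
  have hne : (rho : ℂ) ≠ 0 := by
    intro h0
    have := rho_sq
    rw [h0] at this
    norm_num at this
  have h1 : ((rho : ℂ) + 1) ^ (m + m) = (rho : ℂ) ^ m := by
    rw [← two_mul, zpow_mul, zpow_two, ← pow_two, hsq]
  rw [h1]
  have hm : m = 3 * (m / 3) + m % 3 := (Int.mul_ediv_add_emod m 3).symm
  have h2 : (rho : ℂ) ^ m = (rho : ℂ) ^ (m % 3) := by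
    conv_lhs => rw [hm]
    rw [zpow_add₀ hne, zpow_mul, zpow_ofNat, hcube, one_zpow, one_mul]
  rw [h2]
  have h3 : m % 3 = 0 ∨ m % 3 = 1 ∨ m % 3 = 2 := by omega
  rcases h3 with h3 | h3 | h3
  · rw [h3, if_pos (by omega)]
    simp
  · rw [h3, if_neg (by omega), if_pos (by omega)]
    simp
  · rw [h3, if_neg (by omega), if_neg (by omega)]
    rfl

/-! ### Counting -/

theorem sum_ite_one_neg_one {X : Type*} [Fintype X] (p : X → Prop) [DecidablePred p] :
    ∑ j, (if p j then (1 : ℂ) else -1) =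
      2 * (Fintype.card {x // p x} : ℂ) - (Fintype.card X : ℂ) := by
  have h : ∀ j, (if p j then (1 : ℂ) else -1) = 2 * (if p j then 1 else 0) - 1 := by
    intro j
    split_ifs <;> norm_num
  simp_rw [h]
  rw [Finset.sum_sub_distrib, ← Finset.mul_sum, Finset.sum_boole, Fintype.card_subtype]
  simp

theorem sum_ite_three {X : Type*} [Fintype X] (f : X → ℤ)
    (hf : ∀ x, f x = 0 ∨ f x = 2 ∨ f x = 4) (a b c : ℂ) :
    ∑ j, (if f j = 0 then a else if f j = 2 then b else c) =
      (Fintype.card {x // f x = 0} : ℂ) * a + (Fintype.card {x // f x = 2} : ℂ) * b +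
        (Fintype.card {x // f x = 4} : ℂ) * c := by
  have h : ∀ j, (if f j = 0 then a else if f j = 2 then b else c) =
      (if f j = 0 then 1 else 0) * a + (if f j = 2 then 1 else 0) * b +
        (if f j = 4 then 1 else 0) * c := by
    intro j
    rcases hf j with h | h | h <;> simp [h]
  simp_rw [h]
  rw [Finset.sum_add_distrib, Finset.sum_add_distrib, ← Finset.sum_mul, ← Finset.sum_mul,
    ← Finset.sum_mul, Finset.sum_boole, Finset.sum_boole, Finset.sum_boole,
    Fintype.card_subtype, Fintype.card_subtype, Fintype.card_subtype]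

theorem card_split_three {X : Type*} [Fintype X] (f : X → ℤ)
    (hf : ∀ x, f x = 0 ∨ f x = 2 ∨ f x = 4) :
    Fintype.card {x // f x = 0} + Fintype.card {x // f x = 2} + Fintype.card {x // f x = 4} =
      Fintype.card X := by
  have h := sum_ite_three f hf 1 1 1
  simp only [ite_self, Finset.sum_const, Finset.card_univ, nsmul_eq_mul, mul_one] at h
  exact_mod_cast h.symm

/-! ### The statement -/

/-- Board row 295 (SPEC-G5): `Stmt_Ell Γ`. -/
theorem stmt_ell (Γ : Subgroup SL(2, ℤ)) [Fintype (SL(2, ℤ) ⧸ Γ)]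
    [DecidableEq (SL(2, ℤ) ⧸ Γ)] : Stmt_Ell Γ := by
  intro κ G hfree heven hdet
  have hG : ∀ j, ∀ γ ∈ Γ, G j ∣[κ j] γ = G j := fun j => (hfree.1 j).inv
  have hidx : Γ.index = Fintype.card (SL(2, ℤ) ⧸ Γ) := by
    rw [Subgroup.index, Nat.card_eq_fintype_card]
  -- `S` at `i`
  have hS := sum_denom_zpow_eq_card_fixed Γ κ G hG ModularGroup.S UpperHalfPlane.I S_smul_I
    (hdet _)
  rw [denom_S_I] at hS
  simp_rw [fun j => I_zpow_of_even (κ j) (heven j)] at hS
  rw [sum_ite_one_neg_one] at hS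
  -- `S * T` at `ρ`
  have hU := sum_denom_zpow_eq_card_fixed Γ κ G hG (ModularGroup.S * ModularGroup.T) rho
    ST_smul_rho (hdet _)
  rw [denom_ST_rho] at hU
  simp_rw [fun j => rho_add_one_zpow_of_even (κ j) (heven j)] at hU
  have hmod6 : ∀ x, κ x % 6 = 0 ∨ κ x % 6 = 2 ∨ κ x % 6 = 4 := by
    intro x
    obtain ⟨m, hm⟩ := heven x
    omega
  rw [sum_ite_three (fun x => κ x % 6) hmod6] at hU
  have hsplit := card_split_three (fun x => κ x % 6) hmod6
  simp only [Nat.card_eq_fintype_card, ellTwo, ellThree, hidx]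
  set n0 := Fintype.card {x // κ x % 6 = 0} with hn0
  set n2 := Fintype.card {x // κ x % 6 = 2} with hn2
  set n4 := Fintype.card {x // κ x % 6 = 4} with hn4
  set e2 := Fintype.card {x : SL(2, ℤ) ⧸ Γ // ModularGroup.S • x = x} with he2
  set e3 := Fintype.card {x : SL(2, ℤ) ⧸ Γ // (ModularGroup.S * ModularGroup.T) • x = x} with he3
  set m0 := Fintype.card {x // κ x % 4 = 0} with hm0
  set c := Fintype.card (SL(2, ℤ) ⧸ Γ) with hc
  rw [Nat.card_eq_fintype_card] at hS hU
  -- the `S`-identity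
  have hS' : 2 * m0 = c + e2 := by
    have : (2 * (m0 : ℂ)) = (c : ℂ) + (e2 : ℂ) := by linear_combination hS
    exact_mod_cast this
  -- the `S * T`-identity: real and imaginary parts
  have key : ((n0 : ℂ) - n4 - e3) + ((n2 : ℂ) - n4) * (rho : ℂ) = 0 := by
    linear_combination hU - (n4 : ℂ) * rho_sq
  have him := congrArg Complex.im key
  simp only [Complex.add_im, Complex.sub_im, Complex.natCast_im, Complex.mul_im, Complex.sub_re,
    Complex.natCast_re, Complex.zero_im, sub_zero, zero_mul, add_zero, zero_add] at him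
  have h24 : (n2 : ℝ) = n4 := by
    have hne : (rho : ℂ).im ≠ 0 := rho.im_ne_zero
    have := (mul_eq_zero.mp him).resolve_right hne
    linarith
  have h24' : n2 = n4 := by exact_mod_cast h24
  have hre := congrArg Complex.re key
  simp only [Complex.add_re, Complex.sub_re, Complex.natCast_re, Complex.mul_re, Complex.sub_im,
    Complex.natCast_im, Complex.zero_re, sub_zero, zero_mul] at hre
  rw [h24] at hre
  have h04 : (n0 : ℝ) = n4 + e3 := by linarith
  have h04' : n0 = n4 + e3 := by exact_mod_cast h04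
  refine ⟨hS', ?_, ?_, ?_⟩ <;> omega

end Fermat.Agent.S20.helper5021
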