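import Mathlib
import Fermat.Prelude.Def_ModularCurve_X0

set_option autoImplicit false

open scoped MatrixGroups
open CongruenceSubgroup

namespace Fermat.Agent.S20.helper34

/-- The index of a subgroup is the cardinality of the range of any map that classifies its
left cosets. -/
theorem index_eq_card_range {G Y : Type*} [Group G] (H : Subgroup G) (φ : G → Y)
    (h : ∀ g g' : G, φ g = φ g' ↔ g⁻¹ * g' ∈ H) : H.index = Nat.card (Set.range φ) := by
  rw [Subgroup.index_eq_card]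
  let e : G ⧸ H → Set.range φ :=
    Quotient.lift (fun g => (⟨φ g, Set.mem_range_self g⟩ : Set.range φ)) (by
      intro a b hab
      exact Subtype.ext ((h a b).2 (QuotientGroup.leftRel_apply.1 hab)))
  refine Nat.card_congr (Equiv.ofBijective e ⟨?_, ?_⟩)
  · intro x y
    induction x using Quotient.inductionOn with
    | h a =>
      induction y using Quotient.inductionOn with
      | h b =>
        intro hab
        have hab' : φ a = φ b := congrArg Subtype.val hab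
        exact Quotient.sound (QuotientGroup.leftRel_apply.2 ((h a b).1 hab'))
  · rintro ⟨y, g, rfl⟩
    exact ⟨Quotient.mk _ g, rfl⟩


/-! ### The recursion for `dedekindPsi` -/

open ModularCurve in
theorem dedekindPsi_prime_mul_of_dvd {N p : ℕ} (hN : N ≠ 0) (hp : p.Prime) (h : p ∣ N) :
    dedekindPsi (p * N) = p * dedekindPsi N := by
  unfold dedekindPsi
  have hset : (p * N).divisors.filter (fun d => Squarefree d) =
      N.divisors.filter (fun d => Squarefree d) := by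
    ext d
    simp only [Finset.mem_filter, Nat.mem_divisors]
    constructor
    · rintro ⟨⟨hd, _⟩, hsq⟩
      refine ⟨⟨?_, hN⟩, hsq⟩
      have : d ∣ N ^ 2 := hd.trans (by rw [sq]; exact mul_dvd_mul_right h N)
      exact (hsq.dvd_pow_iff_dvd two_ne_zero).1 this
    · rintro ⟨⟨hd, _⟩, hsq⟩
      exact ⟨⟨hd.mul_left p, mul_ne_zero hp.ne_zero hN⟩, hsq⟩
  rw [hset, Finset.mul_sum]
  refine Finset.sum_congr rfl fun d hd => ?_
  have hd' : d ∣ N := (Nat.mem_divisors.1 (Finset.mem_filter.1 hd).1).1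
  exact Nat.mul_div_assoc p hd'

open ModularCurve in
theorem dedekindPsi_prime_mul_of_not_dvd {N p : ℕ} (hN : N ≠ 0) (hp : p.Prime) (h : ¬ p ∣ N) :
    dedekindPsi (p * N) = (p + 1) * dedekindPsi N := by
  unfold dedekindPsi
  have hset : (p * N).divisors.filter (fun d => Squarefree d) =
      N.divisors.filter (fun d => Squarefree d) ∪
        (N.divisors.filter (fun d => Squarefree d)).image (fun e => p * e) := by
    ext d
    simp only [Finset.mem_filter, Nat.mem_divisors, Finset.mem_union, Finset.mem_image]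
    constructor
    · rintro ⟨⟨hd, _⟩, hsq⟩
      by_cases hpd : p ∣ d
      · right
        obtain ⟨e, rfl⟩ := hpd
        refine ⟨e, ⟨⟨?_, hN⟩, hsq.of_mul_right⟩, rfl⟩
        exact (Nat.mul_dvd_mul_iff_left hp.pos).1 hd
      · left
        refine ⟨⟨?_, hN⟩, hsq⟩
        have hcop : Nat.Coprime d p := (Nat.Prime.coprime_iff_not_dvd hp).2 hpd |>.symm
        exact hcop.dvd_of_dvd_mul_left hd
    · rintro (⟨⟨hd, _⟩, hsq⟩ | ⟨e, ⟨⟨he, _⟩, hsq⟩, rfl⟩)
      · exact ⟨⟨hd.mul_left p, mul_ne_zero hp.ne_zero hN⟩, hsq⟩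
      · refine ⟨⟨mul_dvd_mul_left p he, mul_ne_zero hp.ne_zero hN⟩, ?_⟩
        have hcop : Nat.Coprime p e :=
          (Nat.Prime.coprime_iff_not_dvd hp).2 fun hpe => h (hpe.trans he)
        exact (Nat.squarefree_mul hcop).2 ⟨hp.squarefree, hsq⟩
  have hdisj : Disjoint (N.divisors.filter (fun d => Squarefree d))
      ((N.divisors.filter (fun d => Squarefree d)).image (fun e => p * e)) := by
    rw [Finset.disjoint_left]
    intro d hd hd2
    obtain ⟨e, _, rfl⟩ := Finset.mem_image.1 hd2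
    exact h ((dvd_mul_right p e).trans (Nat.mem_divisors.1 (Finset.mem_filter.1 hd).1).1)
  rw [hset, Finset.sum_union hdisj,
    Finset.sum_image (fun x _ y _ hxy => Nat.eq_of_mul_eq_mul_left hp.pos hxy), add_mul, one_mul,
    Finset.mul_sum]
  congr 1
  · refine Finset.sum_congr rfl fun d hd => ?_
    have hd' : d ∣ N := (Nat.mem_divisors.1 (Finset.mem_filter.1 hd).1).1
    exact Nat.mul_div_assoc p hd'
  · refine Finset.sum_congr rfl fun d _ => ?_
    exact Nat.mul_div_mul_left N d hp.pos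


/-! ### Cosets of `Γ₀(p N)` in `Γ₀(N)` -/

theorem Gamma0_prime_mul_le (p N : ℕ) : Gamma0 (p * N) ≤ Gamma0 N := by
  intro A hA
  rw [Gamma0_mem, ZMod.intCast_zmod_eq_zero_iff_dvd] at hA ⊢
  exact (Dvd.intro_left (p : ℤ) (by push_cast; ring)).trans hA

theorem inv_mul_apply_one_zero (g g' : SL(2, ℤ)) :
    (g⁻¹ * g') 1 0 = g 0 0 * g' 1 0 - g 1 0 * g' 0 0 := by
  rw [Matrix.SpecialLinearGroup.coe_mul, Matrix.SpecialLinearGroup.coe_inv,
    Matrix.adjugate_fin_two, Matrix.mul_apply, Fin.sum_univ_two]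
  simp
  ring

theorem det_entries (g : SL(2, ℤ)) : g 0 0 * g 1 1 - g 0 1 * g 1 0 = 1 := by
  have := g.det_coe
  rwa [Matrix.det_fin_two] at this

open Classical in
/-- The point `(A : C)` of the projective line, encoded as `C / A` or `none`. -/
noncomputable def optInv {F : Type*} [Field F] (A C : F) : Option F :=
  if A = 0 then none else some (C / A)

theorem optInv_eq_iff {F : Type*} [Field F] {A C A' C' : F}
    (h : ¬ (A = 0 ∧ C = 0)) (h' : ¬ (A' = 0 ∧ C' = 0)) :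
    optInv A C = optInv A' C' ↔ A * C' - C * A' = 0 := by
  unfold optInv
  by_cases hA : A = 0 <;> by_cases hA' : A' = 0
  · simp [hA, hA']
  · have hC : C ≠ 0 := fun hC => h ⟨hA, hC⟩
    simp [hA, hA', hC]
  · have hC : C' ≠ 0 := fun hC => h' ⟨hA', hC⟩
    simp [hA, hA', hC]
  · simp only [hA, hA', if_false, Option.some.injEq]
    rw [div_eq_div_iff hA hA', sub_eq_zero]
    constructor <;> intro hh <;> linear_combination (-1 : F) * hh

/-- The invariant classifying the left cosets of `Γ₀(p N)` in `Γ₀(N)`. -/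
noncomputable def cosetInv (p N : ℕ) [Fact p.Prime] (g : Gamma0 N) : Option (ZMod p) :=
  optInv (((g : SL(2, ℤ)) 0 0 : ℤ) : ZMod p) ((((g : SL(2, ℤ)) 1 0 / (N : ℤ) : ℤ)) : ZMod p)

theorem Gamma0_lower_left (N : ℕ) (g : Gamma0 N) :
    (g : SL(2, ℤ)) 1 0 = (N : ℤ) * ((g : SL(2, ℤ)) 1 0 / (N : ℤ)) := by
  have h := g.2
  rw [Gamma0_mem, ZMod.intCast_zmod_eq_zero_iff_dvd] at h
  exact (Int.mul_ediv_cancel' h).symm

theorem cosetInv_nondeg (p N : ℕ) [Fact p.Prime] (g : Gamma0 N) :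
    ¬ ((((g : SL(2, ℤ)) 0 0 : ℤ) : ZMod p) = 0 ∧
      ((((g : SL(2, ℤ)) 1 0 / (N : ℤ) : ℤ)) : ZMod p) = 0) := by
  rintro ⟨h1, h2⟩
  have hdet := det_entries (g : SL(2, ℤ))
  rw [Gamma0_lower_left N g] at hdet
  have := congrArg (fun x : ℤ => (x : ZMod p)) hdet
  simp only [Int.cast_sub, Int.cast_mul, h1, h2, Int.cast_one] at this
  simp at this

theorem cosetInv_eq_iff {p N : ℕ} [Fact p.Prime] (hN : N ≠ 0) (g g' : Gamma0 N) :
    cosetInv p N g = cosetInv p N g' ↔ g⁻¹ * g' ∈ (Gamma0 (p * N)).subgroupOf (Gamma0 N) := by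
  unfold cosetInv
  rw [optInv_eq_iff (cosetInv_nondeg p N g) (cosetInv_nondeg p N g'), Subgroup.mem_subgroupOf,
    Subgroup.coe_mul, Subgroup.coe_inv, Gamma0_mem, inv_mul_apply_one_zero,
    ZMod.intCast_zmod_eq_zero_iff_dvd]
  set a := (g : SL(2, ℤ)) 0 0
  set a' := (g' : SL(2, ℤ)) 0 0
  set c₁ := (g : SL(2, ℤ)) 1 0 / (N : ℤ) with hc₁
  set c₁' := (g' : SL(2, ℤ)) 1 0 / (N : ℤ) with hc₁'
  have hc : (g : SL(2, ℤ)) 1 0 = (N : ℤ) * c₁ := Gamma0_lower_left N g
  have hc' : (g' : SL(2, ℤ)) 1 0 = (N : ℤ) * c₁' := Gamma0_lower_left N g'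
  rw [hc, hc']
  have hN' : (N : ℤ) ≠ 0 := by exact_mod_cast hN
  have e1 : a * ((N : ℤ) * c₁') - (N : ℤ) * c₁ * a' = (N : ℤ) * (a * c₁' - c₁ * a') := by ring
  have e2 : (((p * N : ℕ)) : ℤ) = (N : ℤ) * (p : ℤ) := by push_cast; ring
  rw [e1, e2, mul_dvd_mul_iff_left hN', ← ZMod.intCast_zmod_eq_zero_iff_dvd]
  push_cast
  rfl


/-- The element `[1, 0; N t, 1]` of `SL(2, ℤ)`. -/
def lowerUniSL (N : ℕ) (t : ℤ) : SL(2, ℤ) :=
  ⟨!![1, 0; (N : ℤ) * t, 1], by simp [Matrix.det_fin_two]⟩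

theorem lowerUniSL_zero_zero (N : ℕ) (t : ℤ) : lowerUniSL N t 0 0 = 1 := rfl

theorem lowerUniSL_one_zero (N : ℕ) (t : ℤ) : lowerUniSL N t 1 0 = (N : ℤ) * t := rfl

theorem lowerUniSL_mem (N : ℕ) (t : ℤ) : lowerUniSL N t ∈ Gamma0 N := by
  rw [Gamma0_mem, lowerUniSL_one_zero]
  simp

/-- The element `[1, 0; N t, 1]` of `Γ₀(N)`. -/
def lowerUni (N : ℕ) (t : ℤ) : Gamma0 N := ⟨lowerUniSL N t, lowerUniSL_mem N t⟩

theorem cosetInv_lowerUni {p N : ℕ} [Fact p.Prime] (hN : N ≠ 0) (t : ℤ) :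
    cosetInv p N (lowerUni N t) = some (t : ZMod p) := by
  have hN' : (N : ℤ) ≠ 0 := by exact_mod_cast hN
  have h1 : ((lowerUni N t : Gamma0 N) : SL(2, ℤ)) 0 0 = 1 := rfl
  have h2 : ((lowerUni N t : Gamma0 N) : SL(2, ℤ)) 1 0 = (N : ℤ) * t := rfl
  unfold cosetInv
  rw [h1, h2, Int.mul_ediv_cancel_left _ hN']
  simp [optInv]

theorem cosetInv_ne_none {p N : ℕ} [Fact p.Prime] (h : p ∣ N) (g : Gamma0 N) :
    cosetInv p N g ≠ none := by
  have ha : (((g : SL(2, ℤ)) 0 0 : ℤ) : ZMod p) ≠ 0 := by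
    intro h1
    have hdet := det_entries (g : SL(2, ℤ))
    rw [Gamma0_lower_left N g] at hdet
    have := congrArg (fun x : ℤ => (x : ZMod p)) hdet
    have hNp : ((N : ℤ) : ZMod p) = 0 := by
      rw [Int.cast_natCast]; exact (ZMod.natCast_eq_zero_iff N p).2 h
    simp only [Int.cast_sub, Int.cast_mul, h1, hNp, Int.cast_one] at this
    simp at this
  simp [cosetInv, optInv, ha]

theorem exists_cosetInv_eq_none {p N : ℕ} [Fact p.Prime] (h : ¬ p ∣ N) :
    ∃ g : Gamma0 N, cosetInv p N g = none := by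
  have hp : p.Prime := Fact.out
  have hcop : IsCoprime (p : ℤ) (N : ℤ) :=
    Nat.isCoprime_iff_coprime.2 ((Nat.Prime.coprime_iff_not_dvd hp).2 h)
  obtain ⟨u, v, huv⟩ := hcop
  let A : SL(2, ℤ) := ⟨!![(p : ℤ), -v; (N : ℤ), u], by rw [Matrix.det_fin_two_of]; linarith⟩
  have hA0 : A 0 0 = (p : ℤ) := rfl
  have hA1 : A 1 0 = (N : ℤ) := rfl
  have hA : A ∈ Gamma0 N := by
    rw [Gamma0_mem, hA1]
    simp
  refine ⟨⟨A, hA⟩, ?_⟩
  unfold cosetInv
  have h1 : ((⟨A, hA⟩ : Gamma0 N) : SL(2, ℤ)) 0 0 = (p : ℤ) := hA0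
  rw [h1]
  simp [optInv]

theorem relIndex_Gamma0_prime_mul_of_dvd {N p : ℕ} (hN : N ≠ 0) (hp : p.Prime) (h : p ∣ N) :
    (Gamma0 (p * N)).relIndex (Gamma0 N) = p := by
  have : Fact p.Prime := ⟨hp⟩
  rw [Subgroup.relIndex, index_eq_card_range _ (cosetInv p N) (cosetInv_eq_iff hN)]
  have hrange : Set.range (cosetInv p N) = Set.range (some : ZMod p → Option (ZMod p)) := by
    ext y
    constructor
    · rintro ⟨g, rfl⟩
      obtain ⟨t, ht⟩ := Option.ne_none_iff_exists'.1 (cosetInv_ne_none h g)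
      exact ⟨t, ht.symm⟩
    · rintro ⟨t, rfl⟩
      exact ⟨lowerUni N (t.val : ℤ), by rw [cosetInv_lowerUni hN]; simp⟩
  rw [hrange, Nat.card_range_of_injective (Option.some_injective _), Nat.card_zmod]

theorem relIndex_Gamma0_prime_mul_of_not_dvd {N p : ℕ} (hN : N ≠ 0) (hp : p.Prime)
    (h : ¬ p ∣ N) : (Gamma0 (p * N)).relIndex (Gamma0 N) = p + 1 := by
  have : Fact p.Prime := ⟨hp⟩
  rw [Subgroup.relIndex, index_eq_card_range _ (cosetInv p N) (cosetInv_eq_iff hN)]
  have hrange : Set.range (cosetInv p N) = Set.univ := by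
    rw [Set.eq_univ_iff_forall]
    rintro (_ | t)
    · exact exists_cosetInv_eq_none h
    · exact ⟨lowerUni N (t.val : ℤ), by rw [cosetInv_lowerUni hN]; simp⟩
  rw [hrange, Nat.card_univ, Nat.card_eq_fintype_card, Fintype.card_option, ZMod.card]

/-! ### The index formula -/

theorem index_Gamma0_of_ne_zero :
    ∀ N : ℕ, N ≠ 0 → (Gamma0 N).index = ModularCurve.dedekindPsi N := by
  intro N
  induction N using induction_on_primes with
  | zero => intro h; exact absurd rfl h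
  | one =>
    intro _
    have : Gamma0 1 = ⊤ := by
      ext A
      simp [Gamma0_mem, Subsingleton.elim ((A 1 0 : ℤ) : ZMod 1) 0]
    rw [this, Subgroup.index_top, ModularCurve.dedekindPsi_one]
  | prime_mul p a hp ih =>
    intro hpa
    have ha : a ≠ 0 := fun h => hpa (by rw [h, mul_zero])
    rw [← Subgroup.relIndex_mul_index (Gamma0_prime_mul_le p a), ih ha]
    by_cases h : p ∣ a
    · rw [relIndex_Gamma0_prime_mul_of_dvd ha hp h, dedekindPsi_prime_mul_of_dvd ha hp h]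
    · rw [relIndex_Gamma0_prime_mul_of_not_dvd ha hp h,
        dedekindPsi_prime_mul_of_not_dvd ha hp h]

/-- **Index of `Γ₀(N)`**: `[SL(2, ℤ) : Γ₀(N)] = ψ(N)` (Dedekind psi function). -/
theorem index_Gamma0 (N : ℕ) [NeZero N] :
    (CongruenceSubgroup.Gamma0 N).index = ModularCurve.dedekindPsi N :=
  index_Gamma0_of_ne_zero N (NeZero.ne N)


/-- The index formula in the shape used by Mathlib's `NormTrace` file: the relative index in
`𝒮ℒ` of the image of `Γ₀(N)` in `GL(2, ℝ)`. -/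
theorem relIndex_Gamma0_SL (N : ℕ) [NeZero N] :
    ((CongruenceSubgroup.Gamma0 N).map (Matrix.SpecialLinearGroup.mapGL ℝ)).relIndex 𝒮ℒ =
      ModularCurve.dedekindPsi N := by
  rw [MonoidHom.range_eq_map,
    Subgroup.relIndex_map_map_of_injective _ _ Matrix.SpecialLinearGroup.mapGL_injective,
    Subgroup.relIndex_top_right, index_Gamma0]

/-- The index formula as the cardinality of the coset space used by
`SlashInvariantForm.quotientFunc`. -/
theorem card_quotient_Gamma0 (N : ℕ) [NeZero N] :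
    Nat.card (𝒮ℒ ⧸ ((CongruenceSubgroup.Gamma0 N).map
      (Matrix.SpecialLinearGroup.mapGL ℝ)).subgroupOf 𝒮ℒ) = ModularCurve.dedekindPsi N :=
  relIndex_Gamma0_SL N

end Fermat.Agent.S20.helper34
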