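/-
S20 SPEC-G7 (helper4608): `Stmt_Dual Γ` of `helper1040_Spec`:
the dual basis `Δ · Φ⁻¹` consists of cusp forms of weights `12 - κ`; hence every `κ x < 12`
and `finrank S₂(Γ) = #{x | κ x = 10}`.
-/
import Fermat.Agent.S20.helper1040_API

set_option autoImplicit false

open UpperHalfPlane ModularForm Matrix.SpecialLinearGroup Filter Complex
open scoped MatrixGroups ModularForm Manifold Topology Real

namespace Fermat.Agent.S20.helper4608

open Fermat.Agent.S20.helper1040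

/-! ### Holomorphic matrix functions -/

section matrix

variable {n : Type} [Fintype n] [DecidableEq n]

/-- The determinant of a matrix of holomorphic functions is holomorphic. -/
theorem mdiff_det (M : ℍ → Matrix n n ℂ)
    (hM : ∀ i j, MDifferentiable 𝓘(ℂ) 𝓘(ℂ) (fun z => M z i j)) :
    MDifferentiable 𝓘(ℂ) 𝓘(ℂ) (fun z => (M z).det) := by
  have h : (fun z => (M z).det) =
      ∑ σ : Equiv.Perm n, (fun _ : ℍ => ((Equiv.Perm.sign σ : ℤ) : ℂ)) *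
        ∏ i, (fun z => M z (σ i) i) := by
    funext z
    simp [Matrix.det_apply']
  rw [h]
  refine MDifferentiable.sum (fun σ _ => ?_)
  refine MDifferentiable.mul mdifferentiable_const ?_
  exact MDifferentiable.prod (fun i _ => hM (σ i) i)

/-- The entries of the inverse of an everywhere invertible matrix of holomorphic functions are
holomorphic. -/
theorem mdiff_inv_entry (M : ℍ → Matrix n n ℂ)
    (hM : ∀ i j, MDifferentiable 𝓘(ℂ) 𝓘(ℂ) (fun z => M z i j))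
    (hdet : ∀ z, (M z).det ≠ 0) (i j : n) :
    MDifferentiable 𝓘(ℂ) 𝓘(ℂ) (fun z => (M z)⁻¹ i j) := by
  have h1 : (fun z => (M z)⁻¹ i j) =
      fun z => ((M z).det)⁻¹ * ((M z).updateRow j (Pi.single i 1)).det := by
    funext z
    rw [Matrix.inv_def, Ring.inverse_eq_inv', Matrix.smul_apply, Matrix.adjugate_apply,
      smul_eq_mul]
  rw [h1]
  refine MDifferentiable.mul ((mdiff_det M hM).inv hdet) (mdiff_det _ (fun a c => ?_))
  by_cases ha : a = j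
  · subst ha
    simp only [Matrix.updateRow_self]
    exact mdifferentiable_const
  · simp only [Matrix.updateRow_ne ha]
    exact hM a c

end matrix

/-! ### The fundamental matrix and its inverse -/

section phi

variable {Γ : Subgroup SL(2, ℤ)} [Fintype (SL(2, ℤ) ⧸ Γ)] [DecidableEq (SL(2, ℤ) ⧸ Γ)]
  {κ : SL(2, ℤ) ⧸ Γ → ℤ} {G : SL(2, ℤ) ⧸ Γ → ℍ → ℂ}

omit [Fintype (SL(2, ℤ) ⧸ Γ)] [DecidableEq (SL(2, ℤ) ⧸ Γ)] in
theorem Phi_apply (z : ℍ) (x j : SL(2, ℤ) ⧸ Γ) :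
    Phi Γ κ G z x j = tr Γ (κ j) (G j) x z := rfl

omit [Fintype (SL(2, ℤ) ⧸ Γ)] [DecidableEq (SL(2, ℤ) ⧸ Γ)] in
theorem Phi_holo (hG : ∀ j, IsMF Γ (κ j) (G j)) (x j : SL(2, ℤ) ⧸ Γ) :
    MDifferentiable 𝓘(ℂ) 𝓘(ℂ) (fun z => Phi Γ κ G z x j) :=
  (hG j).tr_holo x

omit [Fintype (SL(2, ℤ) ⧸ Γ)] [DecidableEq (SL(2, ℤ) ⧸ Γ)] in
/-- Transformation law of the fundamental matrix. -/
theorem Phi_smul (hG : ∀ j, IsMF Γ (κ j) (G j)) (h : SL(2, ℤ)) (z : ℍ)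
    (x j : SL(2, ℤ) ⧸ Γ) :
    Phi Γ κ G (h • z) (h • x) j = denom h z ^ κ j * Phi Γ κ G z x j := by
  rw [Phi_apply, Phi_apply]
  exact tr_smul_apply (hG j).inv x h z

/-- Transformation law of the inverse of the fundamental matrix. -/
theorem Phi_inv_smul (hG : ∀ j, IsMF Γ (κ j) (G j)) (h : SL(2, ℤ)) (z : ℍ)
    (hdet : (Phi Γ κ G z).det ≠ 0) (j x : SL(2, ℤ) ⧸ Γ) :
    (Phi Γ κ G (h • z))⁻¹ j x = denom h z ^ (-κ j) * (Phi Γ κ G z)⁻¹ j (h⁻¹ • x) := by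
  set N : Matrix (SL(2, ℤ) ⧸ Γ) (SL(2, ℤ) ⧸ Γ) ℂ :=
    Matrix.of fun j x => denom h z ^ (-κ j) * (Phi Γ κ G z)⁻¹ j (h⁻¹ • x) with hN
  have hunit : IsUnit (Phi Γ κ G z).det := isUnit_iff_ne_zero.mpr hdet
  have key : N * Phi Γ κ G (h • z) = 1 := by
    ext j j'
    rw [Matrix.mul_apply]
    have h1 : ∀ x', N j (h • x') * Phi Γ κ G (h • z) (h • x') j' =
        denom h z ^ (-κ j) * denom h z ^ κ j' *
          ((Phi Γ κ G z)⁻¹ j x' * Phi Γ κ G z x' j') := by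
      intro x'
      rw [Phi_smul hG, hN, Matrix.of_apply, inv_smul_smul]
      ring
    have h2 : ∑ x, N j x * Phi Γ κ G (h • z) x j' =
        ∑ x', N j (h • x') * Phi Γ κ G (h • z) (h • x') j' :=
      (Equiv.sum_comp (MulAction.toPerm h)
        (fun x => N j x * Phi Γ κ G (h • z) x j')).symm
    rw [h2, Finset.sum_congr rfl (fun x' _ => h1 x'), ← Finset.mul_sum, ← Matrix.mul_apply,
      Matrix.nonsing_inv_mul _ hunit, Matrix.one_apply]
    by_cases hjj : j = j'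
    · subst hjj
      rw [if_pos rfl, mul_one, ← zpow_add₀ (denom_ne_zero h z)]
      simp
    · rw [if_neg hjj, mul_zero]
  have := Matrix.inv_eq_left_inv key
  rw [this, hN, Matrix.of_apply]

end phi

/-! ### Decay of `Δ` against the cusp exponents -/

theorem tendsto_disc_mul_exp {s : ℝ} (hs : s < 1) :
    Tendsto (fun z : ℍ => ModularForm.discriminant z *
        cexp (-(2 * (π : ℂ) * Complex.I * (s : ℂ) * (z : ℂ)))) atImInfty (𝓝 0) := by
  have h1 : (⇑CuspForm.discriminant : ℍ → ℂ) =O[atImInfty]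
      fun τ : ℍ => Real.exp (-2 * π * τ.im / 1) :=
    CuspFormClass.exp_decay_atImInfty (h := 1) CuspForm.discriminant one_pos
      one_mem_strictPeriods_SL
  have h3 : (fun z : ℍ => cexp (-(2 * (π : ℂ) * Complex.I * (s : ℂ) * (z : ℂ)))) =O[atImInfty]
      fun τ : ℍ => Real.exp (2 * π * s * τ.im) := by
    refine Asymptotics.IsBigO.of_norm_le (fun z => ?_)
    rw [Complex.norm_exp]
    apply le_of_eq
    congr 1
    simp
  have h4 := h1.mul h3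
  have h5 : (fun τ : ℍ => Real.exp (-2 * π * τ.im / 1) * Real.exp (2 * π * s * τ.im)) =
      fun τ : ℍ => Real.exp (-(2 * π * (1 - s)) * τ.im) := by
    funext τ
    rw [← Real.exp_add]
    congr 1
    ring
  rw [h5] at h4
  have him : Tendsto (fun τ : ℍ => τ.im) atImInfty atTop := tendsto_comap
  have hc : -(2 * π * (1 - s)) < 0 := by
    have : 0 < 2 * π * (1 - s) := mul_pos Real.two_pi_pos (by linarith)
    linarith
  have h6 : Tendsto (fun τ : ℍ => Real.exp (-(2 * π * (1 - s)) * τ.im)) atImInfty (𝓝 0) :=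
    Real.tendsto_exp_atBot.comp (him.const_mul_atTop_of_neg hc)
  exact h4.trans_tendsto h6

/-! ### The dual functions `Δ · Φ⁻¹` -/

section dual

variable (Γ : Subgroup SL(2, ℤ)) [Fintype (SL(2, ℤ) ⧸ Γ)] [DecidableEq (SL(2, ℤ) ⧸ Γ)]
  (κ : SL(2, ℤ) ⧸ Γ → ℤ) (G : SL(2, ℤ) ⧸ Γ → ℍ → ℂ)

/-- The dual functions `h_{j,x}(z) = Δ(z) · (Φ(z)⁻¹)_{j,x}`. -/
noncomputable def dualFun (j x : SL(2, ℤ) ⧸ Γ) : ℍ → ℂ :=
  fun z => ModularForm.discriminant z * (Phi Γ κ G z)⁻¹ j x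

variable {Γ κ G}

theorem dualFun_holo (hG : ∀ j, IsMF Γ (κ j) (G j)) (hdet : ∀ z, (Phi Γ κ G z).det ≠ 0)
    (j x : SL(2, ℤ) ⧸ Γ) : MDifferentiable 𝓘(ℂ) 𝓘(ℂ) (dualFun Γ κ G j x) :=
  MDifferentiable.mul isCF1_discriminant.holo
    (mdiff_inv_entry _ (fun x j => Phi_holo hG x j) hdet j x)

theorem discriminant_smul (γ : SL(2, ℤ)) (z : ℍ) :
    ModularForm.discriminant (γ • z) = denom γ z ^ (12 : ℤ) * ModularForm.discriminant z := by
  have h := congrFun (isCF1_discriminant.inv γ (Subgroup.mem_top _)) z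
  rw [SL_slash_apply] at h
  rw [← h, mul_comm, mul_assoc, ← zpow_add₀ (denom_ne_zero γ z)]
  simp

theorem dualFun_slash (hG : ∀ j, IsMF Γ (κ j) (G j)) (hdet : ∀ z, (Phi Γ κ G z).det ≠ 0)
    (j x : SL(2, ℤ) ⧸ Γ) (γ : SL(2, ℤ)) :
    (dualFun Γ κ G j x) ∣[12 - κ j] γ = dualFun Γ κ G j (γ⁻¹ • x) := by
  funext z
  rw [SL_slash_apply]
  simp only [dualFun]
  rw [Phi_inv_smul hG γ z (hdet z), discriminant_smul]
  have hd := denom_ne_zero γ z
  have e : denom γ z ^ (12 : ℤ) * denom γ z ^ (-κ j) * denom γ z ^ (-(12 - κ j)) = 1 := by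
    rw [← zpow_add₀ hd, ← zpow_add₀ hd]
    have : (12 : ℤ) + -κ j + -(12 - κ j) = 0 := by ring
    rw [this, zpow_zero]
  linear_combination (ModularForm.discriminant z * (Phi Γ κ G z)⁻¹ j (γ⁻¹ • x)) * e

theorem dualFun_zero {U Λ : Matrix (SL(2, ℤ) ⧸ Γ) (SL(2, ℤ) ⧸ Γ) ℂ} {s : SL(2, ℤ) ⧸ Γ → ℝ}
    (hCD : CuspData Γ κ G U Λ s) (hdet : ∀ z, (Phi Γ κ G z).det ≠ 0)
    (j x : SL(2, ℤ) ⧸ Γ) : IsZeroAtImInfty (dualFun Γ κ G j x) := by
  obtain ⟨hU, hΛ, hs, -, hlim⟩ := hCD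
  set C : ℍ → Matrix (SL(2, ℤ) ⧸ Γ) (SL(2, ℤ) ⧸ Γ) ℂ := fun z => Matrix.of fun x y =>
    cexp (-(2 * (π : ℂ) * Complex.I * (s x : ℂ) * (z : ℂ))) * (U⁻¹ * Phi Γ κ G z) x y with hC
  set E' : ℍ → Matrix (SL(2, ℤ) ⧸ Γ) (SL(2, ℤ) ⧸ Γ) ℂ := fun z => Matrix.diagonal fun x =>
    cexp (-(2 * (π : ℂ) * Complex.I * (s x : ℂ) * (z : ℂ))) with hE'
  have hCE : ∀ z, C z = E' z * (U⁻¹ * Phi Γ κ G z) := by
    intro z
    ext x y
    simp only [hC, hE', Matrix.of_apply, Matrix.diagonal_mul]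
  have hCdet : ∀ z, (C z).det ≠ 0 := by
    intro z
    rw [hCE, Matrix.det_mul, Matrix.det_mul, Matrix.det_diagonal]
    refine mul_ne_zero (Finset.prod_ne_zero_iff.mpr fun x _ => Complex.exp_ne_zero _)
      (mul_ne_zero ?_ (hdet z))
    rw [Matrix.det_nonsing_inv, Ring.inverse_eq_inv']
    exact inv_ne_zero hU
  have hinv : ∀ z, (Phi Γ κ G z)⁻¹ = (C z)⁻¹ * E' z * U⁻¹ := by
    intro z
    apply Matrix.inv_eq_left_inv
    rw [Matrix.mul_assoc, Matrix.mul_assoc, ← hCE]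
    exact Matrix.nonsing_inv_mul _ (isUnit_iff_ne_zero.mpr (hCdet z))
  have hClim : Tendsto C atImInfty (𝓝 Λ) := by
    refine tendsto_pi_nhds.mpr (fun x => tendsto_pi_nhds.mpr (fun y => ?_))
    exact hlim x y
  have hCinv : Tendsto (fun z => (C z)⁻¹) atImInfty (𝓝 Λ⁻¹) := by
    have hcont : ContinuousAt Inv.inv Λ := continuousAt_matrix_inv Λ (by
      rw [Ring.inverse_eq_inv']
      exact continuousAt_inv₀ hΛ)
    exact hcont.tendsto.comp hClim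
  have hentry : ∀ j y, Tendsto (fun z => (C z)⁻¹ j y) atImInfty (𝓝 (Λ⁻¹ j y)) := by
    intro j y
    exact ((_root_.continuous_apply y).tendsto _).comp
      (((_root_.continuous_apply j).tendsto _).comp hCinv)
  have hexp : dualFun Γ κ G j x = fun z => ∑ y, (C z)⁻¹ j y *
      (ModularForm.discriminant z * cexp (-(2 * (π : ℂ) * Complex.I * (s y : ℂ) * (z : ℂ)))) *
      U⁻¹ y x := by
    funext z
    simp only [dualFun]
    rw [hinv z, Matrix.mul_apply, Finset.mul_sum]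
    refine Finset.sum_congr rfl (fun y _ => ?_)
    rw [hE', Matrix.mul_diagonal]
    ring
  rw [IsZeroAtImInfty, ZeroAtFilter, hexp]
  have h0 : (0 : ℂ) = ∑ y, Λ⁻¹ j y * 0 * U⁻¹ y x := by simp
  rw [h0]
  exact tendsto_finsetSum _ fun y _ =>
    ((hentry j y).mul (tendsto_disc_mul_exp (hs y).2)).mul tendsto_const_nhds

end dual

/-! ### The dual basis consists of cusp forms -/

section final

variable {Γ : Subgroup SL(2, ℤ)} [Fintype (SL(2, ℤ) ⧸ Γ)] [DecidableEq (SL(2, ℤ) ⧸ Γ)]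
  {κ : SL(2, ℤ) ⧸ Γ → ℤ} {G : SL(2, ℤ) ⧸ Γ → ℍ → ℂ}

omit [Fintype (SL(2, ℤ) ⧸ Γ)] [DecidableEq (SL(2, ℤ) ⧸ Γ)] in
theorem inv_smul_one_coset {γ : SL(2, ℤ)} (hγ : γ ∈ Γ) :
    γ⁻¹ • ((1 : SL(2, ℤ)) : SL(2, ℤ) ⧸ Γ) = ((1 : SL(2, ℤ)) : SL(2, ℤ) ⧸ Γ) := by
  rw [MulAction.Quotient.smul_mk, smul_eq_mul, mul_one, QuotientGroup.eq]
  simpa using hγ

/-- `H_j = Δ · (Φ⁻¹)_{j,⟦1⟧}` is a cusp form of weight `12 - κ j` and level `Γ`. -/
theorem dualFun_isCF {U Λ : Matrix (SL(2, ℤ) ⧸ Γ) (SL(2, ℤ) ⧸ Γ) ℂ} {s : SL(2, ℤ) ⧸ Γ → ℝ}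
    (hG : ∀ j, IsMF Γ (κ j) (G j)) (hdet : ∀ z, (Phi Γ κ G z).det ≠ 0)
    (hCD : CuspData Γ κ G U Λ s) (j : SL(2, ℤ) ⧸ Γ) :
    IsCF Γ (12 - κ j) (dualFun Γ κ G j ((1 : SL(2, ℤ)) : SL(2, ℤ) ⧸ Γ)) where
  holo := dualFun_holo hG hdet j _
  inv γ hγ := by rw [dualFun_slash hG hdet, inv_smul_one_coset hγ]
  zero γ := by
    rw [dualFun_slash hG hdet]
    exact dualFun_zero hCD hdet j _

/-- The translates of `H_j` are the `h_{j,x}`. -/
theorem tr_dualFun (hG : ∀ j, IsMF Γ (κ j) (G j)) (hdet : ∀ z, (Phi Γ κ G z).det ≠ 0)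
    (j x : SL(2, ℤ) ⧸ Γ) :
    tr Γ (12 - κ j) (dualFun Γ κ G j ((1 : SL(2, ℤ)) : SL(2, ℤ) ⧸ Γ)) x = dualFun Γ κ G j x := by
  unfold tr
  rw [dualFun_slash hG hdet, inv_inv, MulAction.Quotient.smul_mk, smul_eq_mul, mul_one,
    QuotientGroup.out_eq']

/-- All weights of the free basis are `< 12`. -/
theorem kappa_lt_twelve [Γ.FiniteIndex]
    {U Λ : Matrix (SL(2, ℤ) ⧸ Γ) (SL(2, ℤ) ⧸ Γ) ℂ} {s : SL(2, ℤ) ⧸ Γ → ℝ}
    (hG : ∀ j, IsMF Γ (κ j) (G j)) (hdet : ∀ z, (Phi Γ κ G z).det ≠ 0)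
    (hCD : CuspData Γ κ G U Λ s) (j : SL(2, ℤ) ⧸ Γ) : κ j < 12 := by
  by_contra hcon
  rw [not_lt] at hcon
  have hcf := dualFun_isCF hG hdet hCD j
  have hzero : dualFun Γ κ G j ((1 : SL(2, ℤ)) : SL(2, ℤ) ⧸ Γ) = 0 := by
    rcases lt_or_eq_of_le (show 12 - κ j ≤ 0 by omega) with hlt | heq
    · exact hcf.isMF.eq_zero_of_neg_weight hlt
    · obtain ⟨c, hc⟩ := (hcf.isMF.congr_weight heq).eq_const_of_weight_zero
      have h0 := hcf.zero 1
      rw [SlashAction.slash_one, hc] at h0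
      have hc0 : c = 0 := tendsto_nhds_unique tendsto_const_nhds h0
      rw [hc, hc0]
      rfl
  have hall : ∀ x, dualFun Γ κ G j x = 0 := by
    intro x
    rw [← tr_dualFun hG hdet j x, hzero]
    unfold tr
    exact SlashAction.zero_slash _ _
  have h1 : ((Phi Γ κ G UpperHalfPlane.I)⁻¹ * Phi Γ κ G UpperHalfPlane.I) j j = 1 := by
    rw [Matrix.nonsing_inv_mul _ (isUnit_iff_ne_zero.mpr (hdet _)), Matrix.one_apply_eq]
  rw [Matrix.mul_apply] at h1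
  have h2 : ∀ x, (Phi Γ κ G UpperHalfPlane.I)⁻¹ j x = 0 := by
    intro x
    have := congrFun (hall x) UpperHalfPlane.I
    simp only [dualFun, Pi.zero_apply] at this
    exact (mul_eq_zero.mp this).resolve_left (ModularForm.discriminant_ne_zero _)
  simp [h2] at h1

omit [DecidableEq (SL(2, ℤ) ⧸ Γ)] in
/-- The level one trace of `G_j · H` for a cusp form `H`. -/
theorem trace_isCF (hG : ∀ j, IsMF Γ (κ j) (G j)) {k : ℤ} {H : ℍ → ℂ} (hH : IsCF Γ k H)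
    (j : SL(2, ℤ) ⧸ Γ) :
    IsCF ⊤ (κ j + k) (∑ x, tr Γ (κ j) (G j) x * tr Γ k H x) := by
  have hinv : ∀ γ : SL(2, ℤ), (∑ x, tr Γ (κ j) (G j) x * tr Γ k H x) ∣[κ j + k] γ =
      ∑ x, tr Γ (κ j) (G j) x * tr Γ k H x := by
    intro γ
    rw [SlashAction.sum_slash]
    have h1 : ∀ x, (tr Γ (κ j) (G j) x * tr Γ k H x) ∣[κ j + k] γ =
        tr Γ (κ j) (G j) (γ⁻¹ • x) * tr Γ k H (γ⁻¹ • x) := by
      intro x
      rw [mul_slash_SL2, tr_slash (hG j).inv, tr_slash hH.inv]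
    rw [Finset.sum_congr rfl (fun x _ => h1 x)]
    exact Equiv.sum_comp (MulAction.toPerm γ⁻¹) (fun x => tr Γ (κ j) (G j) x * tr Γ k H x)
  have hzero : IsZeroAtImInfty (∑ x, tr Γ (κ j) (G j) x * tr Γ k H x) := by
    have h0 : ∀ x, Tendsto (tr Γ (κ j) (G j) x * tr Γ k H x) atImInfty (𝓝 0) := fun x => by
      have := (hH.tr_zero x).mul_boundedAtFilter ((hG j).tr_bdd x)
      rw [mul_comm]
      exact this
    have hfun : (∑ x, tr Γ (κ j) (G j) x * tr Γ k H x) =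
        fun z => ∑ x, (tr Γ (κ j) (G j) x * tr Γ k H x) z := by
      funext z
      rw [Finset.sum_apply]
    have h00 : (0 : ℂ) = ∑ _x : SL(2, ℤ) ⧸ Γ, (0 : ℂ) := by simp
    rw [IsZeroAtImInfty, ZeroAtFilter, hfun, h00]
    exact tendsto_finsetSum _ fun x _ => h0 x
  refine ⟨?_, fun γ _ => hinv γ, fun γ => ?_⟩
  · exact MDifferentiable.sum (fun x _ => ((hG j).tr_holo x).mul (hH.isMF.tr_holo x))
  · rw [hinv γ]
    exact hzero

/-- Every cusp form of level `Γ` is a combination of the `H_j` with level one coefficients. -/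
theorem exists_expansion (hG : ∀ j, IsMF Γ (κ j) (G j)) (hdet : ∀ z, (Phi Γ κ G z).det ≠ 0)
    {k : ℤ} {H : ℍ → ℂ} (hH : IsCF Γ k H) :
    ∃ b : SL(2, ℤ) ⧸ Γ → ℍ → ℂ, (∀ j, IsMF1 (κ j + k - 12) (b j)) ∧
      H = ∑ j, b j * dualFun Γ κ G j ((1 : SL(2, ℤ)) : SL(2, ℤ) ⧸ Γ) := by
  refine ⟨fun j => ⇑(CuspForm.discriminantEquiv (trace_isCF hG hH j).toCuspForm1),
    fun j => isMF1_of_modularForm _, ?_⟩
  funext z
  rw [Finset.sum_apply]
  have hΔ := ModularForm.discriminant_ne_zero z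
  have hb : ∀ j, (⇑(CuspForm.discriminantEquiv (trace_isCF hG hH j).toCuspForm1) *
      dualFun Γ κ G j ((1 : SL(2, ℤ)) : SL(2, ℤ) ⧸ Γ)) z =
      ∑ x, tr Γ k H x z *
        (Phi Γ κ G z x j * (Phi Γ κ G z)⁻¹ j ((1 : SL(2, ℤ)) : SL(2, ℤ) ⧸ Γ)) := by
    intro j
    rw [Pi.mul_apply, CuspForm.discriminantEquiv_apply, IsCF.coe_toCuspForm1]
    simp only [dualFun, Finset.sum_apply, Pi.mul_apply, Phi_apply]
    rw [div_mul_eq_mul_div, mul_comm (ModularForm.discriminant z), ← mul_assoc,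
      mul_div_assoc, div_self hΔ, mul_one, Finset.sum_mul]
    refine Finset.sum_congr rfl (fun x _ => ?_)
    ring
  rw [Finset.sum_congr rfl (fun j _ => hb j), Finset.sum_comm]
  have h3 : ∀ x, ∑ j, tr Γ k H x z *
      (Phi Γ κ G z x j * (Phi Γ κ G z)⁻¹ j ((1 : SL(2, ℤ)) : SL(2, ℤ) ⧸ Γ)) =
      tr Γ k H x z * (1 : Matrix (SL(2, ℤ) ⧸ Γ) (SL(2, ℤ) ⧸ Γ) ℂ) x
        ((1 : SL(2, ℤ)) : SL(2, ℤ) ⧸ Γ) := by
    intro x
    rw [← Finset.mul_sum, ← Matrix.mul_apply,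
      Matrix.mul_nonsing_inv _ (isUnit_iff_ne_zero.mpr (hdet z))]
  rw [Finset.sum_congr rfl (fun x _ => h3 x)]
  simp only [Matrix.one_apply, mul_ite, mul_one, mul_zero, Finset.sum_ite_eq',
    Finset.mem_univ, if_true]
  rw [tr_one_coset hH.inv]

/-- **SPEC-G7**: `Stmt_Dual Γ` for every finite index `Γ ≤ SL(2,ℤ)`. -/
theorem stmt_dual (Γ : Subgroup SL(2, ℤ)) [Γ.FiniteIndex] [Fintype (SL(2, ℤ) ⧸ Γ)]
    [DecidableEq (SL(2, ℤ) ⧸ Γ)] : Stmt_Dual Γ := by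
  intro κ G U Λ s hfree heven hdet hCD
  have hG := hfree.1
  have hlt : ∀ x, κ x < 12 := fun x => kappa_lt_twelve hG hdet hCD x
  refine ⟨hlt, ?_⟩
  have hw : ∀ j : {x : SL(2, ℤ) ⧸ Γ // κ x = 10}, (12 : ℤ) - κ j.1 = 2 := fun j => by
    rw [j.2]
    norm_num
  -- the cusp forms `H_j`, `κ j = 10`
  set Hc : {x : SL(2, ℤ) ⧸ Γ // κ x = 10} → CuspForm (Γ.map (mapGL ℝ)) 2 := fun j =>
    ((dualFun_isCF hG hdet hCD j.1).congr_weight (hw j)).toCuspForm with hHc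
  have hHc_coe : ∀ j, (⇑(Hc j) : ℍ → ℂ) =
      dualFun Γ κ G j.1 ((1 : SL(2, ℤ)) : SL(2, ℤ) ⧸ Γ) := fun j => rfl
  set L : ({x : SL(2, ℤ) ⧸ Γ // κ x = 10} → ℂ) →ₗ[ℂ] CuspForm (Γ.map (mapGL ℝ)) 2 :=
    Fintype.linearCombination ℂ Hc with hL
  have hL_apply : ∀ (c : {x : SL(2, ℤ) ⧸ Γ // κ x = 10} → ℂ) (z : ℍ),
      L c z = ∑ j, c j * dualFun Γ κ G j.1 ((1 : SL(2, ℤ)) : SL(2, ℤ) ⧸ Γ) z := by
    intro c z
    rw [hL, Fintype.linearCombination_apply, sum_apply]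
    refine Finset.sum_congr rfl (fun j _ => ?_)
    rw [smul_apply, hHc_coe, smul_eq_mul]
  have hinj : Function.Injective L := by
    rw [← LinearMap.ker_eq_bot, LinearMap.ker_eq_bot']
    intro c hc
    -- `∑_j c_j H_j = 0` as a function
    have hfun : (∑ j : {x : SL(2, ℤ) ⧸ Γ // κ x = 10},
        c j • dualFun Γ κ G j.1 ((1 : SL(2, ℤ)) : SL(2, ℤ) ⧸ Γ)) = 0 := by
      funext z
      have := hL_apply c z
      rw [hc] at this
      rw [Finset.sum_apply]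
      simp only [Pi.smul_apply, smul_eq_mul, Pi.zero_apply]
      rw [← this]
      rfl
    -- translate to every coset
    have htr : ∀ x : SL(2, ℤ) ⧸ Γ, (∑ j : {x : SL(2, ℤ) ⧸ Γ // κ x = 10},
        c j • dualFun Γ κ G j.1 x) = 0 := by
      intro x
      have h1 := congrArg (fun f => tr Γ 2 f x) hfun
      simp only [tr_sum, tr_smul_const] at h1
      have h2 : ∀ j : {x : SL(2, ℤ) ⧸ Γ // κ x = 10},
          tr Γ 2 (dualFun Γ κ G j.1 ((1 : SL(2, ℤ)) : SL(2, ℤ) ⧸ Γ)) x =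
            dualFun Γ κ G j.1 x := by
        intro j
        rw [← hw j]
        exact tr_dualFun hG hdet j.1 x
      rw [Finset.sum_congr rfl (fun j _ => by rw [h2 j])] at h1
      rw [h1]
      unfold tr
      exact SlashAction.zero_slash _ _
    funext j'
    -- evaluate at `I` and multiply by `Φ`
    have hz : ∀ x : SL(2, ℤ) ⧸ Γ, ∑ j : {x : SL(2, ℤ) ⧸ Γ // κ x = 10},
        c j * (Phi Γ κ G UpperHalfPlane.I)⁻¹ j.1 x = 0 := by
      intro x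
      have h1 := congrFun (htr x) UpperHalfPlane.I
      rw [Finset.sum_apply] at h1
      simp only [Pi.smul_apply, smul_eq_mul, dualFun, Pi.zero_apply] at h1
      have h2 : ModularForm.discriminant UpperHalfPlane.I *
          ∑ j : {x : SL(2, ℤ) ⧸ Γ // κ x = 10},
            c j * (Phi Γ κ G UpperHalfPlane.I)⁻¹ j.1 x = 0 := by
        rw [Finset.mul_sum, ← h1]
        refine Finset.sum_congr rfl (fun j _ => ?_)
        ring
      exact (mul_eq_zero.mp h2).resolve_left (ModularForm.discriminant_ne_zero _)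
    have h3 : ∑ x : SL(2, ℤ) ⧸ Γ, (∑ j : {x : SL(2, ℤ) ⧸ Γ // κ x = 10},
        c j * (Phi Γ κ G UpperHalfPlane.I)⁻¹ j.1 x) * Phi Γ κ G UpperHalfPlane.I x j'.1 = 0 := by
      refine Finset.sum_eq_zero (fun x _ => ?_)
      rw [hz x, zero_mul]
    have h4 : ∑ x : SL(2, ℤ) ⧸ Γ, (∑ j : {x : SL(2, ℤ) ⧸ Γ // κ x = 10},
        c j * (Phi Γ κ G UpperHalfPlane.I)⁻¹ j.1 x) * Phi Γ κ G UpperHalfPlane.I x j'.1 =
        ∑ j : {x : SL(2, ℤ) ⧸ Γ // κ x = 10}, c j *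
          ((Phi Γ κ G UpperHalfPlane.I)⁻¹ * Phi Γ κ G UpperHalfPlane.I) j.1 j'.1 := by
      simp only [Finset.sum_mul, Matrix.mul_apply, Finset.mul_sum]
      rw [Finset.sum_comm]
      refine Finset.sum_congr rfl (fun j _ => Finset.sum_congr rfl (fun x _ => ?_))
      ring
    rw [h4, Matrix.nonsing_inv_mul _ (isUnit_iff_ne_zero.mpr (hdet _))] at h3
    simp only [Matrix.one_apply, Subtype.coe_inj, mul_ite, mul_one, mul_zero,
      Finset.sum_ite_eq', Finset.mem_univ, if_true] at h3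
    exact h3
  have hsurj : Function.Surjective L := by
    intro F
    have hF : IsCF Γ 2 (⇑F) := isCF_of_cuspForm F
    obtain ⟨b, hb, hexp⟩ := exists_expansion hG hdet hF
    -- coefficients: `b j` is a constant if `κ j = 10` and zero otherwise
    have hconst : ∀ j : {x : SL(2, ℤ) ⧸ Γ // κ x = 10}, ∃ a : ℂ, b j.1 = Function.const ℍ a := by
      intro j
      have h0 : κ j.1 + 2 - 12 = 0 := by
        rw [j.2]
        norm_num
      exact ((hb j.1).congr_weight h0).eq_const_of_weight_zero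
    choose a ha using hconst
    have hzero : ∀ x : SL(2, ℤ) ⧸ Γ, κ x ≠ 10 → b x = 0 := by
      intro x hx
      have hlt10 : κ x + 2 - 12 < 0 := by
        have h12 := hlt x
        obtain ⟨m, hm⟩ := heven x
        omega
      exact (hb x).eq_zero_of_neg_weight hlt10
    refine ⟨a, ?_⟩
    ext z
    rw [hL_apply, hexp, Finset.sum_apply]
    have hsplit : ∑ x : SL(2, ℤ) ⧸ Γ,
        (b x * dualFun Γ κ G x ((1 : SL(2, ℤ)) : SL(2, ℤ) ⧸ Γ)) z =
        ∑ j : {x : SL(2, ℤ) ⧸ Γ // κ x = 10},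
          (b j.1 * dualFun Γ κ G j.1 ((1 : SL(2, ℤ)) : SL(2, ℤ) ⧸ Γ)) z := by
      rw [← Finset.sum_filter_of_ne (s := Finset.univ) (p := fun x => κ x = 10)
        (f := fun x => (b x * dualFun Γ κ G x ((1 : SL(2, ℤ)) : SL(2, ℤ) ⧸ Γ)) z)]
      · exact Finset.sum_subtype _ (fun x => by simp) _
      · intro x _ hx
        by_contra hne
        apply hx
        rw [hzero x hne]
        simp
    rw [hsplit]
    refine Finset.sum_congr rfl (fun j _ => ?_)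
    rw [Pi.mul_apply, ha j]
    rfl
  have e := LinearEquiv.ofBijective L ⟨hinj, hsurj⟩
  rw [← e.finrank_eq, Module.finrank_fintype_fun_eq_card, Nat.card_eq_fintype_card]

end final

end Fermat.Agent.S20.helper4608
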