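/-
S20, cusp chunk (seat helper4760): general toolkit for `q`-expansions (with an arbitrary
period `h`) of holomorphic, periodic, bounded functions on the upper half plane.
-/
import Mathlib
import Fermat.Prelude.Thm_UpperHalfPlane_qExpansion_coeff_nat_mul

set_option autoImplicit false

open UpperHalfPlane hiding I
open Complex Filter Function
open scoped Real Manifold Topology ModularForm MatrixGroups

namespace Fermat.Agent.S20.helper4760

local notation "𝕢" => Function.Periodic.qParam

/-- `F` is holomorphic on `ℍ`, `h`-periodic and bounded at `i∞`. -/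
structure Nice (h : ℝ) (F : ℍ → ℂ) : Prop where
  hol : MDiff F
  per : Function.Periodic (F ∘ ofComplex) h
  bdd : IsBoundedAtImInfty F

/-- The `n`-th coefficient of the `q_h`-expansion. -/
noncomputable def cf (h : ℝ) (F : ℍ → ℂ) (n : ℕ) : ℂ := (qExpansion h F).coeff n

variable {h : ℝ} {F G : ℍ → ℂ}

theorem Nice.analyticAt (hF : Nice h F) (hh : 0 < h) : AnalyticAt ℂ (cuspFunction h F) 0 :=
  analyticAt_cuspFunction_zero hh hF.per hF.hol hF.bdd

theorem Nice.hasSum (hF : Nice h F) (hh : 0 < h) (τ : ℍ) :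
    HasSum (fun m : ℕ => cf h F m • 𝕢 h τ ^ m) (F τ) := by
  unfold cf
  exact hasSum_qExpansion hh hF.per hF.hol hF.bdd τ

theorem Nice.cf_unique (hF : Nice h F) (hh : 0 < h) {c : ℕ → ℂ}
    (hc : ∀ τ : ℍ, HasSum (fun m : ℕ => c m • 𝕢 h τ ^ m) (F τ)) (m : ℕ) :
    c m = cf h F m := by
  let _ : FunLike (ℍ → ℂ) ℍ ℂ := { coe := id, coe_injective := fun _ _ h => h }
  exact qExpansion_coeff_unique (F := ℍ → ℂ) F hh (hF.analyticAt hh) hc m

theorem Nice.add (hF : Nice h F) (hG : Nice h G) : Nice h (F + G) where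
  hol := hF.hol.add hG.hol
  per := by
    intro w
    have h1 := hF.per w
    have h2 := hG.per w
    simp only [comp_apply, Pi.add_apply] at h1 h2 ⊢
    rw [h1, h2]
  bdd := hF.bdd.add hG.bdd

theorem Nice.mul (hF : Nice h F) (hG : Nice h G) : Nice h (F * G) where
  hol := hF.hol.mul hG.hol
  per := by
    intro w
    have h1 := hF.per w
    have h2 := hG.per w
    simp only [comp_apply, Pi.mul_apply] at h1 h2 ⊢
    rw [h1, h2]
  bdd := hF.bdd.mul hG.bdd

theorem Nice.smul (hF : Nice h F) (c : ℂ) : Nice h (c • F) where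
  hol := hF.hol.const_smul c
  per := by
    intro w
    have h1 := hF.per w
    simp only [comp_apply, Pi.smul_apply] at h1 ⊢
    rw [h1]
  bdd := hF.bdd.const_smul_left c

theorem cf_add (hF : Nice h F) (hG : Nice h G) (hh : 0 < h) (n : ℕ) :
    cf h (F + G) n = cf h F n + cf h G n := by
  simp [cf, qExpansion_add (hF.analyticAt hh) (hG.analyticAt hh)]

theorem cf_smul (hF : Nice h F) (hh : 0 < h) (c : ℂ) (n : ℕ) :
    cf h (c • F) n = c * cf h F n := by
  simp [cf, qExpansion_smul (hF.analyticAt hh) c]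

theorem cf_mul (hF : Nice h F) (hG : Nice h G) (hh : 0 < h) (n : ℕ) :
    cf h (F * G) n = ∑ p ∈ Finset.HasAntidiagonal.antidiagonal n, cf h F p.1 * cf h G p.2 := by
  simp [cf, qExpansion_mul (hF.analyticAt hh) (hG.analyticAt hh), PowerSeries.coeff_mul]

/-! ### Changing the period -/

theorem Nice.nat_mul (hF : Nice h F) (M : ℕ) : Nice ((M : ℝ) * h) F where
  hol := hF.hol
  per := by
    have := hF.per.nat_mul M
    simpa using this
  bdd := hF.bdd

theorem cf_nat_mul (hF : Nice h F) (hh : 0 < h) {M : ℕ} (hM : 0 < M) (n : ℕ) :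
    cf ((M : ℝ) * h) F n = if M ∣ n then cf h F (n / M) else 0 :=
  UpperHalfPlane.qExpansion_coeff_nat_mul hh hF.per hF.hol hF.bdd hM n

theorem Nice.of_one (hF : Nice 1 F) (N : ℕ) : Nice (N : ℝ) F := by
  simpa using hF.nat_mul N

theorem cf_of_one (hF : Nice 1 F) {N : ℕ} (hN : 0 < N) (n : ℕ) :
    cf (N : ℝ) F n = if N ∣ n then cf 1 F (n / N) else 0 := by
  simpa using cf_nat_mul hF one_pos hN n

/-- Multiplying by a `1`-periodic function does not change the first `N` coefficients of a
`q_N`-expansion, up to the value at infinity. -/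
theorem cf_mul_of_one (hP : Nice 1 F) {N : ℕ} (hN : 0 < N) (hG : Nice (N : ℝ) G)
    {n : ℕ} (hn : n < N ∨ (n = N ∧ cf (N : ℝ) G 0 = 0)) :
    cf (N : ℝ) (F * G) n = cf 1 F 0 * cf (N : ℝ) G n := by
  have hN' : (0 : ℝ) < N := by exact_mod_cast hN
  rw [cf_mul (hP.of_one N) hG hN']
  rw [Finset.sum_eq_single (0, n)]
  · rw [cf_of_one hP hN]
    simp
  · rintro ⟨i, j⟩ hij hne
    rw [Finset.HasAntidiagonal.mem_antidiagonal] at hij
    simp only at hij
    rw [cf_of_one hP hN]
    by_cases hi : i = 0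
    · subst hi
      exact absurd (by simpa using hij) hne
    · rcases hn with hn | ⟨hn, h0⟩
      · have : ¬ N ∣ i := Nat.not_dvd_of_pos_of_lt (Nat.pos_of_ne_zero hi) (by omega)
        simp [this]
      · by_cases hiN : i = N
        · have hj : j = 0 := by omega
          subst hj
          simp [h0]
        · have : ¬ N ∣ i := Nat.not_dvd_of_pos_of_lt (Nat.pos_of_ne_zero hi) (by omega)
          simp [this]
  · intro hmem
    exact absurd (by simp) hmem

/-! ### Real translations -/

/-- The translate `z ↦ F (t + z)` by a real number `t`. -/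
def vshift (t : ℝ) (F : ℍ → ℂ) : ℍ → ℂ := fun z => F (t +ᵥ z)

theorem vshift_comp_ofComplex (t : ℝ) (F : ℍ → ℂ) {w : ℂ} (hw : 0 < w.im) :
    (vshift t F ∘ ofComplex) w = (F ∘ ofComplex) (t + w) := by
  have hw' : 0 < ((t : ℂ) + w).im := by simpa using hw
  simp only [comp_apply, vshift, ofComplex_apply_of_im_pos hw, ofComplex_apply_of_im_pos hw']
  congr 1

theorem Nice.vshift (hF : Nice h F) (t : ℝ) : Nice h (vshift t F) where
  hol := by
    have h1 := UpperHalfPlane.mdifferentiable_iff.mp hF.hol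
    rw [UpperHalfPlane.mdifferentiable_iff]
    have h2 : DifferentiableOn ℂ ((F ∘ ofComplex) ∘ (fun w : ℂ => (t : ℂ) + w))
        {z | 0 < z.im} := by
      apply DifferentiableOn.comp (t := {z | 0 < z.im}) h1
      · exact (differentiableOn_const _).add differentiableOn_id
      · intro w hw
        simpa using hw
    exact h2.congr fun w hw => vshift_comp_ofComplex t F hw
  per := by
    intro w
    by_cases hw : 0 < w.im
    · have hw' : 0 < (w + h).im := by simpa using hw
      rw [vshift_comp_ofComplex t F hw, vshift_comp_ofComplex t F hw']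
      have := hF.per (t + w)
      rw [← this]
      congr 1
      ring
    · have hw1 : w.im ≤ 0 := not_lt.mp hw
      have hw' : (w + h).im ≤ 0 := by simpa using hw1
      simp [ofComplex_apply_of_im_nonpos hw1, ofComplex_apply_of_im_nonpos hw']
  bdd := by
    have htend : Tendsto (fun z : ℍ => (t +ᵥ z : ℍ)) atImInfty atImInfty := by
      rw [atImInfty, tendsto_comap_iff]
      have : (UpperHalfPlane.im ∘ fun z : ℍ => (t +ᵥ z : ℍ)) = UpperHalfPlane.im := by
        funext z
        simp [UpperHalfPlane.vadd_im]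
      rw [this]
      exact tendsto_comap
    exact hF.bdd.comp_tendsto htend

theorem cf_vshift (hF : Nice h F) (hh : 0 < h) (t : ℝ) (n : ℕ) :
    cf h (vshift t F) n = cexp (2 * π * I * t / h) ^ n * cf h F n := by
  symm
  refine (hF.vshift t).cf_unique hh
    (c := fun m => cexp (2 * π * I * t / h) ^ m * cf h F m) (fun τ => ?_) n
  have := hF.hasSum hh (t +ᵥ τ)
  convert this using 2 with m
  · rw [UpperHalfPlane.coe_vadd]
    have : 𝕢 h ((t : ℂ) + (τ : ℂ)) = cexp (2 * π * I * t / h) * 𝕢 h τ := by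
      simp only [Function.Periodic.qParam]
      rw [← Complex.exp_add]
      congr 1
      ring
    rw [this, mul_pow]
    simp only [smul_eq_mul]
    ring
  · rfl

/-! ### Decay from vanishing of the first coefficients -/

theorem Nice.hasFPowerSeriesOnBall (hF : Nice h F) (hh : 0 < h) :
    HasFPowerSeriesOnBall (cuspFunction h F) (.ofScalars ℂ (cf h F)) 0 1 :=
  hasFPowerSeriesOnBall_cuspFunction hh (hF.analyticAt hh) (hF.hasSum hh)

theorem Nice.eq_cuspFunction (hF : Nice h F) (hh : 0 < h) (τ : ℍ) :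
    cuspFunction h F (𝕢 h τ) = F τ :=
  UpperHalfPlane.eq_cuspFunction τ hh.ne' hF.per

/-- If the first `M` coefficients of the `q_h`-expansion vanish, then `F = O(|q_h|^M)`. -/
theorem Nice.isBigO_of_cf_eq_zero (hF : Nice h F) (hh : 0 < h) (M : ℕ)
    (hM : ∀ n < M, cf h F n = 0) :
    F =O[atImInfty] fun τ : ℍ => Real.exp (-2 * π * M * τ.im / h) := by
  have h1 := (hF.hasFPowerSeriesOnBall hh).hasFPowerSeriesAt.isBigO_sub_partialSum_pow M
  have h2 : ∀ y : ℂ, (FormalMultilinearSeries.ofScalars ℂ (cf h F)).partialSum M y = 0 := by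
    intro y
    rw [FormalMultilinearSeries.partialSum]
    apply Finset.sum_eq_zero
    intro k hk
    rw [FormalMultilinearSeries.ofScalars_apply_eq, hM k (Finset.mem_range.mp hk)]
    simp
  simp only [h2, sub_zero, zero_add] at h1
  have h3 := h1.comp_tendsto (qParam_tendsto_atImInfty hh)
  refine (h3.congr' ?_ ?_)
  · exact Eventually.of_forall fun τ => by simp [hF.eq_cuspFunction hh τ]
  · refine Eventually.of_forall fun τ => ?_
    simp only [comp_apply, Function.Periodic.norm_qParam]
    rw [← Real.exp_nat_mul]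
    congr 1
    simp only [UpperHalfPlane.coe_im]
    field_simp

/-! ### Functions of `q` -/

theorem qParam_comp_ofComplex_eq {g : ℂ → ℂ} {w : ℂ} (hw : 0 < w.im) :
    ((fun τ : ℍ => g (𝕢 h τ)) ∘ ofComplex) w = g (𝕢 h w) := by
  simp [comp_apply, ofComplex_apply_of_im_pos hw]

theorem hasSum_comp_qParam {g : ℂ → ℂ} (hg : DifferentiableOn ℂ g (Metric.ball 0 1))
    (hh : 0 < h) (τ : ℍ) :
    HasSum (fun m : ℕ => ((m.factorial : ℂ)⁻¹ * iteratedDeriv m g 0) • 𝕢 h τ ^ m)
      (g (𝕢 h τ)) := by
  have hq : 𝕢 h τ ∈ Metric.ball (0 : ℂ) 1 := by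
    simpa using Function.Periodic.norm_qParam_lt_one hh τ.im_pos
  have := Complex.hasSum_taylorSeries_on_ball hg hq
  have h2 : (fun m : ℕ => ((m.factorial : ℂ)⁻¹ * iteratedDeriv m g 0) • 𝕢 h τ ^ m) =
      (fun n : ℕ => (n.factorial : ℂ)⁻¹ • (𝕢 h τ - 0) ^ n • iteratedDeriv n g 0) := by
    funext m
    simp only [smul_eq_mul, sub_zero]
    ring
  rw [h2]
  exact this

theorem nice_comp_qParam {g : ℂ → ℂ} (hg : DifferentiableOn ℂ g (Metric.ball 0 1))
    (hh : 0 < h) : Nice h (fun τ : ℍ => g (𝕢 h τ)) where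
  hol := by
    rw [UpperHalfPlane.mdifferentiable_iff]
    have h2 : DifferentiableOn ℂ (g ∘ 𝕢 h) {z | 0 < z.im} := by
      apply DifferentiableOn.comp (t := Metric.ball 0 1) hg
      · exact Function.Periodic.differentiable_qParam.differentiableOn
      · intro w hw
        simpa using Function.Periodic.norm_qParam_lt_one hh hw
    exact h2.congr fun w hw => qParam_comp_ofComplex_eq hw
  per := by
    intro w
    by_cases hw : 0 < w.im
    · have hw' : 0 < (w + h).im := by simpa using hw
      rw [qParam_comp_ofComplex_eq hw, qParam_comp_ofComplex_eq hw']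
      congr 1
      simp only [Function.Periodic.qParam]
      rw [show 2 * (π : ℂ) * I * (w + h) / h = 2 * π * I * w / h + 2 * π * I by
        have : (h : ℂ) ≠ 0 := by exact_mod_cast hh.ne'
        field_simp]
      rw [Complex.exp_add, Complex.exp_two_pi_mul_I, mul_one]
    · have hw1 : w.im ≤ 0 := not_lt.mp hw
      have hw' : (w + h).im ≤ 0 := by simpa using hw1
      simp [ofComplex_apply_of_im_nonpos hw1, ofComplex_apply_of_im_nonpos hw']
  bdd := isBoundedAtImInfty_of_hasSum_qExpansion hh (hasSum_comp_qParam hg hh)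

theorem cf_comp_qParam {g : ℂ → ℂ} (hg : DifferentiableOn ℂ g (Metric.ball 0 1))
    (hh : 0 < h) (m : ℕ) :
    cf h (fun τ : ℍ => g (𝕢 h τ)) m = (m.factorial : ℂ)⁻¹ * iteratedDeriv m g 0 :=
  ((nice_comp_qParam hg hh).cf_unique hh (hasSum_comp_qParam hg hh) m).symm

/-! ### The derivative `D = (2πi)⁻¹ d/dz` -/

open Derivative

theorem hasDerivAt_qParam (h : ℝ) (z : ℂ) :
    HasDerivAt (𝕢 h) (2 * π * I / h * 𝕢 h z) z := by
  have h1 : HasDerivAt (fun w : ℂ => 2 * π * I * w / h) (2 * π * I / h) z := by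
    simpa using ((hasDerivAt_id z).const_mul (2 * π * I)).div_const (h : ℂ)
  have h2 := h1.cexp
  show HasDerivAt (fun x : ℂ => cexp (2 * π * I * x / h))
    (2 * π * I / h * cexp (2 * π * I * z / h)) z
  rw [mul_comm (2 * (π : ℂ) * I / h)]
  exact h2

theorem D_eq_comp_qParam (hF : Nice h F) (hh : 0 < h) (τ : ℍ) :
    D F τ = (h : ℂ)⁻¹ * (𝕢 h τ * deriv (cuspFunction h F) (𝕢 h τ)) := by
  have hτ : (τ : ℂ) ∈ {z : ℂ | 0 < z.im} := τ.im_pos
  have hev : (F ∘ ofComplex) =ᶠ[𝓝 (τ : ℂ)] (cuspFunction h F ∘ 𝕢 h) := by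
    filter_upwards [isOpen_upperHalfPlaneSet.mem_nhds hτ] with w hw
    have := hF.eq_cuspFunction hh ⟨w, hw⟩
    simp only [comp_apply, ofComplex_apply_of_im_pos hw]
    exact this.symm
  have hq : ‖𝕢 h τ‖ < 1 := Function.Periodic.norm_qParam_lt_one hh τ.im_pos
  have hG : DifferentiableAt ℂ (cuspFunction h F) (𝕢 h τ) :=
    differentiableAt_cuspFunction hh hF.per hF.hol hF.bdd hq
  have hcomp := (hG.hasDerivAt.comp (τ : ℂ) (hasDerivAt_qParam h τ)).deriv
  rw [normalizedDerivOfComplex, hev.deriv_eq, hcomp]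
  have hpi : (2 * (π : ℂ) * I) ≠ 0 := by simp [Real.pi_ne_zero]
  have hhc : (h : ℂ) ≠ 0 := by exact_mod_cast hh.ne'
  field_simp

theorem differentiableOn_D_aux (hF : Nice h F) (hh : 0 < h) :
    DifferentiableOn ℂ (fun q : ℂ => (h : ℂ)⁻¹ * (q * deriv (cuspFunction h F) q))
      (Metric.ball 0 1) := by
  have hGd : DifferentiableOn ℂ (cuspFunction h F) (Metric.ball 0 1) :=
    differentiableOn_cuspFunction_ball hh hF.per hF.hol hF.bdd
  have hG' : DifferentiableOn ℂ (deriv (cuspFunction h F)) (Metric.ball 0 1) :=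
    hGd.deriv Metric.isOpen_ball
  exact (differentiableOn_id.mul hG').const_mul _

theorem Nice.D (hF : Nice h F) (hh : 0 < h) : Nice h (D F) := by
  have : D F = fun τ : ℍ => (fun q : ℂ => (h : ℂ)⁻¹ * (q * deriv (cuspFunction h F) q))
      (𝕢 h τ) := funext (D_eq_comp_qParam hF hh)
  rw [this]
  exact nice_comp_qParam (differentiableOn_D_aux hF hh) hh

/-- `D` multiplies the `n`-th coefficient of the `q_h`-expansion by `n / h`. -/
theorem cf_D (hF : Nice h F) (hh : 0 < h) (n : ℕ) :
    cf h (D F) n = (n : ℂ) / h * cf h F n := by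
  have : D F = fun τ : ℍ => (fun q : ℂ => (h : ℂ)⁻¹ * (q * deriv (cuspFunction h F) q))
      (𝕢 h τ) := funext (D_eq_comp_qParam hF hh)
  rw [this, cf_comp_qParam (differentiableOn_D_aux hF hh) hh]
  have hGd : DifferentiableOn ℂ (cuspFunction h F) (Metric.ball 0 1) :=
    differentiableOn_cuspFunction_ball hh hF.per hF.hol hF.bdd
  have h0 : Metric.ball (0 : ℂ) 1 ∈ 𝓝 (0 : ℂ) := Metric.ball_mem_nhds 0 one_pos
  have hG' : DifferentiableOn ℂ (deriv (cuspFunction h F)) (Metric.ball 0 1) :=
    hGd.deriv Metric.isOpen_ball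
  have hcd : ContDiffAt ℂ n (deriv (cuspFunction h F)) 0 :=
    (hG'.analyticAt h0).contDiffAt
  have hid : ContDiffAt ℂ n (id : ℂ → ℂ) 0 := contDiffAt_id
  rw [iteratedDeriv_const_mul_field]
  have hmul : iteratedDeriv n (fun q : ℂ => q * deriv (cuspFunction h F) q) 0 =
      n * iteratedDeriv n (cuspFunction h F) 0 := by
    have := iteratedDeriv_mul (n := n) hid hcd
    rw [show (id * deriv (cuspFunction h F)) = fun q : ℂ => q * deriv (cuspFunction h F) q
      from rfl] at this
    rw [this]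
    rcases Nat.eq_zero_or_pos n with rfl | hn
    · simp [iteratedDeriv_id]
    · rw [Finset.sum_eq_single 1]
      · simp only [Nat.choose_one_right, iteratedDeriv_id]
        simp only [one_ne_zero, if_false, if_true, mul_one]
        congr 1
        obtain ⟨m, rfl⟩ := Nat.exists_eq_succ_of_ne_zero hn.ne'
        simp [iteratedDeriv_succ']
      · intro i _ hi
        simp only [iteratedDeriv_id]
        by_cases hi0 : i = 0
        · simp [hi0]
        · simp [hi0, hi]
      · intro h1
        exact absurd (Finset.mem_range.mpr (by omega)) h1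
  rw [hmul, cf, qExpansion_coeff]
  have hhc : (h : ℂ) ≠ 0 := by exact_mod_cast hh.ne'
  field_simp

end Fermat.Agent.S20.helper4760
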