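/-
S20 (helper146): cusp toolkit for the `helper1040_Spec` interface.

* Part A: twisted-periodic functions on `ℍ`: if `Ψ` is holomorphic, bounded at `i∞` and
  `Ψ(z+1) = e^{2πi s} Ψ(z)` with `s < 1`, then `e^{-2πi s z} Ψ(z)` has a limit at `i∞`
  (`untwist_tendsto`); if the limit is `0` then `Ψ = O(e^{-2π Im z})`
  (`decay_of_untwist_tendsto_zero`).
* Part B: API for `helper1040.IsMF` (sums, products, level one forms, translates `tr`)
  and division by the discriminant (`isMF_div_discriminant`).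
* Part C: orbits of one group element `g` on a finite set: base point `ob`, orbit length `ow`,
  position `oidx`; the block discrete Fourier transform `dftV` with inverse `dftW`, and
  `2 * ∑ x, oidx x / ow x = card X - #orbits`.

Everything is sorry-free; imports Mathlib + helper1040_Spec only.
-/
import Fermat.Agent.S20.helper1040_Spec

set_option autoImplicit false

open UpperHalfPlane ModularForm Matrix.SpecialLinearGroup Filter Complex Asymptotics
open scoped MatrixGroups ModularForm Manifold Topology Real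

namespace Fermat.Agent.S20.helper146

open Fermat.Agent.S20.helper1040

/-! ## Part A: twisted periodic functions on the upper half plane -/

theorem mdiff_cexp_mul (c : ℂ) : MDiff (fun z : ℍ => cexp (c * (z : ℂ))) := by
  have h1 : Differentiable ℂ (fun w : ℂ => cexp (c * w)) := by fun_prop
  exact h1.mdifferentiable.comp mdifferentiable_coe

theorem tendsto_rexp_neg_im : Tendsto (fun τ : ℍ => Real.exp (-2 * π * τ.im)) atImInfty (𝓝 0) := by
  have h1 : Tendsto (fun τ : ℍ => τ.im) atImInfty atTop := tendsto_comap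
  have h2 : Tendsto (fun τ : ℍ => (2 * π) * τ.im) atImInfty atTop :=
    h1.const_mul_atTop (by positivity)
  have h3 := Real.tendsto_exp_neg_atTop_nhds_zero.comp h2
  refine h3.congr fun τ => ?_
  simp only [Function.comp_apply]
  congr 1
  ring

/-- The normalised function `h(z) = e^{-2πi s z} Ψ(z)` attached to a twisted-periodic `Ψ`. -/
noncomputable def untwist (s : ℝ) (Ψ : ℍ → ℂ) : ℍ → ℂ :=
  fun z => cexp (-(2 * (π : ℂ) * Complex.I * (s : ℂ) * (z : ℂ))) * Ψ z

theorem untwist_mdiff (s : ℝ) {Ψ : ℍ → ℂ} (hΨ : MDiff Ψ) : MDiff (untwist s Ψ) := by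
  have h1 : MDiff (fun z : ℍ => cexp (-(2 * (π : ℂ) * Complex.I * (s : ℂ) * (z : ℂ)))) := by
    have h0 := mdiff_cexp_mul (-(2 * (π : ℂ) * Complex.I * (s : ℂ)))
    have he : (fun z : ℍ => cexp (-(2 * (π : ℂ) * Complex.I * (s : ℂ) * (z : ℂ)))) =
        fun z : ℍ => cexp (-(2 * (π : ℂ) * Complex.I * (s : ℂ)) * (z : ℂ)) := by
      funext z
      congr 1
      ring
    rw [he]
    exact h0
  exact h1.mul hΨ

theorem untwist_periodic (s : ℝ) {Ψ : ℍ → ℂ}
    (hper : ∀ z : ℍ, Ψ ((1 : ℝ) +ᵥ z) = cexp (2 * π * Complex.I * s) * Ψ z) :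
    Function.Periodic (untwist s Ψ ∘ ofComplex) ((1 : ℝ) : ℂ) := by
  intro w
  by_cases hw : 0 < w.im
  · have hw1 : 0 < (w + ((1 : ℝ) : ℂ)).im := by simpa using hw
    simp only [Function.comp_apply, ofComplex_apply_of_im_pos hw1, ofComplex_apply_of_im_pos hw]
    have hz : (⟨w + ((1 : ℝ) : ℂ), hw1⟩ : ℍ) = (1 : ℝ) +ᵥ (⟨w, hw⟩ : ℍ) := by
      ext
      simp [add_comm]
    rw [hz]
    simp only [untwist, hper, coe_vadd, ofReal_one]
    rw [← mul_assoc, ← Complex.exp_add]
    congr 2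
    ring
  · have hw' : w.im ≤ 0 := not_lt.mp hw
    have hw1 : (w + ((1 : ℝ) : ℂ)).im ≤ 0 := by simpa using hw'
    rw [Function.comp_apply, Function.comp_apply, ofComplex_apply_of_im_nonpos hw1,
      ofComplex_apply_of_im_nonpos hw']

theorem untwist_bounded {s : ℝ} (hs1 : s < 1) {Ψ : ℍ → ℂ} (hΨ : MDiff Ψ)
    (hb : IsBoundedAtImInfty Ψ)
    (hper : ∀ z : ℍ, Ψ ((1 : ℝ) +ᵥ z) = cexp (2 * π * Complex.I * s) * Ψ z) :
    IsBoundedAtImInfty (untwist s Ψ) := by
  -- `g = q * h` is periodic, holomorphic and tends to zero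
  set g : ℍ → ℂ := fun z => Function.Periodic.qParam 1 z * untwist s Ψ z with hg
  have hq_mdiff : MDiff (fun z : ℍ => Function.Periodic.qParam 1 (z : ℂ)) := by
    have h0 := mdiff_cexp_mul (2 * (π : ℂ) * Complex.I)
    have he : (fun z : ℍ => Function.Periodic.qParam 1 (z : ℂ)) =
        fun z : ℍ => cexp (2 * (π : ℂ) * Complex.I * (z : ℂ)) := by
      funext z
      simp [Function.Periodic.qParam]
    rw [he]
    exact h0
  have hg_mdiff : MDiff g := hq_mdiff.mul (untwist_mdiff s hΨ)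
  have hg_per : Function.Periodic (g ∘ ofComplex) ((1 : ℝ) : ℂ) := by
    intro w
    have h1 := untwist_periodic s hper w
    simp only [Function.comp_apply] at h1 ⊢
    simp only [hg]
    rw [h1]
    by_cases hw : 0 < w.im
    · have hw1 : 0 < (w + ((1 : ℝ) : ℂ)).im := by simpa using hw
      simp only [ofComplex_apply_of_im_pos hw1, ofComplex_apply_of_im_pos hw, UpperHalfPlane.coe_mk]
      congr 1
      simp only [Function.Periodic.qParam, ofReal_one, div_one]
      rw [mul_add, Complex.exp_add, mul_one, Complex.exp_two_pi_mul_I, mul_one]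
    · have hw' : w.im ≤ 0 := not_lt.mp hw
      have hw1 : (w + ((1 : ℝ) : ℂ)).im ≤ 0 := by simpa using hw'
      rw [ofComplex_apply_of_im_nonpos hw1, ofComplex_apply_of_im_nonpos hw']
  have hu : Tendsto (fun z : ℍ => Function.Periodic.qParam (1 / (1 - s)) (z : ℂ)) atImInfty (𝓝 0) :=
    qParam_tendsto_atImInfty (by have : 0 < 1 - s := by linarith
                                 positivity)
  have hg_eq : g = fun z : ℍ => Function.Periodic.qParam (1 / (1 - s)) (z : ℂ) * Ψ z := by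
    funext z
    simp only [hg, untwist, Function.Periodic.qParam, ← mul_assoc, ← Complex.exp_add]
    congr 2
    have h1s : ((1 : ℂ) - s) ≠ 0 := by
      have : ((1 - s : ℝ) : ℂ) ≠ 0 := by
        exact_mod_cast (by linarith : (1 - s : ℝ) ≠ 0)
      simpa using this
    push_cast
    field_simp
    ring
  have hg_zero : IsZeroAtImInfty g := by
    rw [hg_eq]
    have h1 : (fun z : ℍ => Function.Periodic.qParam (1 / (1 - s)) (z : ℂ)) =o[atImInfty]
        (fun _ : ℍ => (1 : ℝ)) := (isLittleO_one_iff ℝ).mpr hu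
    have h2 : Ψ =O[atImInfty] (fun _ : ℍ => (1 : ℝ)) := hb
    have h3 := h1.mul_isBigO h2
    simp only [mul_one] at h3
    exact (isLittleO_one_iff ℝ).mp h3
  have hdecay := hg_zero.exp_decay_atImInfty one_pos hg_per hg_mdiff hg_zero.isBoundedAtImInfty
  -- divide by `q`
  have hqinv : (fun z : ℍ => (Function.Periodic.qParam 1 (z : ℂ))⁻¹) =O[atImInfty]
      (fun z : ℍ => Real.exp (2 * π * z.im)) := by
    refine isBigO_of_le _ fun z => ?_
    rw [norm_inv, Function.Periodic.norm_qParam, Real.norm_of_nonneg (Real.exp_pos _).le,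
      ← Real.exp_neg]
    apply le_of_eq
    congr 1
    simp
  have h4 := hdecay.mul hqinv
  have h5 : (fun z : ℍ => g z * (Function.Periodic.qParam 1 (z : ℂ))⁻¹) = untwist s Ψ := by
    funext z
    simp only [hg]
    have : Function.Periodic.qParam 1 (z : ℂ) ≠ 0 := Function.Periodic.qParam_ne_zero _
    field_simp
  have h6 : (fun z : ℍ => Real.exp (-2 * π * z.im / 1) * Real.exp (2 * π * z.im)) =
      fun _ => (1 : ℝ) := by
    funext z
    rw [← Real.exp_add]
    simp
  rw [h5, h6] at h4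
  exact h4

/-- **Twisted-periodic limit lemma.**  If `Ψ` is holomorphic and bounded at `i∞` with
`Ψ(z+1) = e^{2πi s} Ψ(z)`, `s < 1`, then `e^{-2πi s z} Ψ(z)` has a limit at `i∞`. -/
theorem untwist_tendsto {s : ℝ} (hs1 : s < 1) {Ψ : ℍ → ℂ} (hΨ : MDiff Ψ)
    (hb : IsBoundedAtImInfty Ψ)
    (hper : ∀ z : ℍ, Ψ ((1 : ℝ) +ᵥ z) = cexp (2 * π * Complex.I * s) * Ψ z) :
    Tendsto (untwist s Ψ) atImInfty (𝓝 (valueAtInfty (untwist s Ψ))) := by
  have h1 := exp_decay_sub_atImInfty one_pos (untwist_periodic s hper) (untwist_mdiff s hΨ)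
    (untwist_bounded hs1 hΨ hb hper)
  have h2 : Tendsto (fun τ : ℍ => Real.exp (-2 * π * τ.im / 1)) atImInfty (𝓝 0) := by
    simpa using tendsto_rexp_neg_im
  have h3 := h1.trans_tendsto h2
  exact tendsto_sub_nhds_zero_iff.mp h3

/-- If moreover the limit is `0` (and `0 ≤ s`), then `Ψ = O(e^{-2π Im z})`. -/
theorem decay_of_untwist_tendsto_zero {s : ℝ} (hs0 : 0 ≤ s) (hs1 : s < 1) {Ψ : ℍ → ℂ}
    (hΨ : MDiff Ψ) (hb : IsBoundedAtImInfty Ψ)
    (hper : ∀ z : ℍ, Ψ ((1 : ℝ) +ᵥ z) = cexp (2 * π * Complex.I * s) * Ψ z)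
    (h0 : Tendsto (untwist s Ψ) atImInfty (𝓝 0)) :
    Ψ =O[atImInfty] fun z : ℍ => Real.exp (-2 * π * z.im) := by
  have hz : IsZeroAtImInfty (untwist s Ψ) := h0
  have h1 := hz.exp_decay_atImInfty one_pos (untwist_periodic s hper) (untwist_mdiff s hΨ)
    (untwist_bounded hs1 hΨ hb hper)
  have h2 : (fun z : ℍ => cexp (2 * (π : ℂ) * Complex.I * (s : ℂ) * (z : ℂ))) =O[atImInfty]
      (fun _ : ℍ => (1 : ℝ)) := by
    refine isBigO_of_le _ fun z => ?_
    rw [Complex.norm_exp, norm_one]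
    have : (2 * (π : ℂ) * Complex.I * (s : ℂ) * (z : ℂ)).re = -(2 * π * s * z.im) := by
      simp [mul_re, mul_im]
    rw [this, Real.exp_le_one_iff]
    have := z.im_pos
    have : 0 ≤ 2 * π * s * z.im := by positivity
    linarith
  have h3 := h2.mul h1
  have h4 : (fun z : ℍ => cexp (2 * (π : ℂ) * Complex.I * (s : ℂ) * (z : ℂ)) * untwist s Ψ z) = Ψ := by
    funext z
    simp only [untwist, ← mul_assoc, ← Complex.exp_add]
    simp
  rw [h4] at h3
  simpa using h3

/-! ## Part B: `IsMF` API -/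

section IsMFapi

variable {Γ : Subgroup SL(2, ℤ)}

theorem isMF_cast {k k' : ℤ} {f : ℍ → ℂ} (h : IsMF Γ k f) (hk : k = k') : IsMF Γ k' f := hk ▸ h

theorem isMF_add {k : ℤ} {f g : ℍ → ℂ} (hf : IsMF Γ k f) (hg : IsMF Γ k g) :
    IsMF Γ k (f + g) where
  holo := hf.holo.add hg.holo
  inv γ hγ := by rw [SlashAction.add_slash, hf.inv γ hγ, hg.inv γ hγ]
  bdd γ := by
    rw [SlashAction.add_slash]
    exact (hf.bdd γ).add (hg.bdd γ)

theorem isMF_smul {k : ℤ} {f : ℍ → ℂ} (c : ℂ) (hf : IsMF Γ k f) : IsMF Γ k (c • f) where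
  holo := hf.holo.const_smul c
  inv γ hγ := by rw [ModularForm.SL_smul_slash, hf.inv γ hγ]
  bdd γ := by
    rw [ModularForm.SL_smul_slash]
    exact (hf.bdd γ).smul c

theorem isMF_sub {k : ℤ} {f g : ℍ → ℂ} (hf : IsMF Γ k f) (hg : IsMF Γ k g) :
    IsMF Γ k (f - g) := by
  have := isMF_add hf (isMF_smul (-1) hg)
  simpa [sub_eq_add_neg] using this

theorem isMF_zero (k : ℤ) : IsMF Γ k 0 where
  holo := mdifferentiable_const
  inv γ _ := SlashAction.zero_slash _ _
  bdd γ := by
    rw [SlashAction.zero_slash]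
    exact zero_form_isBoundedAtImInfty

theorem isMF_sum {ι : Type*} (s : Finset ι) {k : ℤ} {f : ι → ℍ → ℂ}
    (hf : ∀ i ∈ s, IsMF Γ k (f i)) : IsMF Γ k (∑ i ∈ s, f i) := by
  classical
  induction s using Finset.induction_on with
  | empty => simpa using isMF_zero k
  | insert a s ha ih =>
    rw [Finset.sum_insert ha]
    exact isMF_add (hf a (Finset.mem_insert_self a s))
      (ih fun i hi => hf i (Finset.mem_insert_of_mem hi))

theorem isMF_mul {k₁ k₂ : ℤ} {f g : ℍ → ℂ} (hf : IsMF Γ k₁ f) (hg : IsMF Γ k₂ g) :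
    IsMF Γ (k₁ + k₂) (f * g) where
  holo := hf.holo.mul hg.holo
  inv γ hγ := by rw [mul_slash_SL2, hf.inv γ hγ, hg.inv γ hγ]
  bdd γ := by
    rw [mul_slash_SL2]
    exact (hf.bdd γ).mul (hg.bdd γ)

theorem isMF_of_top {k : ℤ} {f : ℍ → ℂ} (hf : IsMF1 k f) : IsMF Γ k f where
  holo := hf.holo
  inv γ _ := hf.inv γ (Subgroup.mem_top γ)
  bdd := hf.bdd

theorem isMF1_one : IsMF1 0 (1 : ℍ → ℂ) where
  holo := mdifferentiable_const
  inv γ _ := is_invariant_one γ
  bdd γ := by
    rw [is_invariant_one]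
    exact const_boundedAtFilter _ (1 : ℂ)

theorem isMF_pow {k : ℤ} {f : ℍ → ℂ} (hf : IsMF Γ k f) (n : ℕ) : IsMF Γ (n * k) (f ^ n) := by
  induction n with
  | zero => simpa using (isMF_of_top isMF1_one : IsMF Γ 0 1)
  | succ n ih =>
    rw [pow_succ]
    exact isMF_cast (isMF_mul ih hf) (by push_cast; ring)

theorem isMF1_of_modularForm {k : ℤ} (F : ModularForm 𝒮ℒ k) : IsMF1 k ⇑F := by
  have hinv : ∀ γ : SL(2, ℤ), (⇑F) ∣[k] γ = ⇑F := fun γ => by
    rw [ModularForm.SL_slash]
    exact SlashInvariantFormClass.slash_action_eq F _ ⟨γ, rfl⟩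
  exact
  { holo := ModularFormClass.holo F
    inv := fun γ _ => hinv γ
    bdd := fun γ => by
      rw [hinv γ]
      exact ModularFormClass.bdd_at_infty F }

theorem isMF1_discriminant : IsMF1 12 ModularForm.discriminant := by
  have hinv : ∀ γ : SL(2, ℤ), ModularForm.discriminant ∣[(12 : ℤ)] γ = ModularForm.discriminant :=
    fun γ => by
      rw [ModularForm.SL_slash]
      exact SlashInvariantFormClass.slash_action_eq CuspForm.discriminant _ ⟨γ, rfl⟩
  exact
  { holo := CuspFormClass.holo CuspForm.discriminant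
    inv := fun γ _ => hinv γ
    bdd := fun γ => by
      rw [hinv γ]
      exact discriminant_isZeroAtImInfty.isBoundedAtImInfty }

/-- A level one modular form tends to its value at infinity. -/
theorem tendsto_modularForm_valueAtInfty {k : ℤ} (F : ModularForm 𝒮ℒ k) :
    Tendsto (⇑F) atImInfty (𝓝 (valueAtInfty ⇑F)) := by
  have h1 := exp_decay_sub_atImInfty one_pos
    (SlashInvariantFormClass.periodic_comp_ofComplex F one_mem_strictPeriods_SL)
    (ModularFormClass.holo F) (ModularFormClass.bdd_at_infty F)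
  have h2 : Tendsto (fun τ : ℍ => Real.exp (-2 * π * τ.im / 1)) atImInfty (𝓝 0) := by
    have h1 : Tendsto (fun τ : ℍ => τ.im) atImInfty atTop := tendsto_comap
    have h2 : Tendsto (fun τ : ℍ => (2 * π) * τ.im) atImInfty atTop :=
      h1.const_mul_atTop (by positivity)
    have h3 := Real.tendsto_exp_neg_atTop_nhds_zero.comp h2
    refine h3.congr fun τ => ?_
    simp only [Function.comp_apply]
    congr 1
    ring
  exact tendsto_sub_nhds_zero_iff.mp (h1.trans_tendsto h2)

theorem tendsto_E_one {k : ℕ} (hk : 3 ≤ k) (hk2 : Even k) :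
    Tendsto (⇑(E hk)) atImInfty (𝓝 1) := by
  have h1 := tendsto_modularForm_valueAtInfty (E hk)
  have h2 : (UpperHalfPlane.qExpansion 1 ⇑(E hk)).coeff 0 = valueAtInfty ⇑(E hk) :=
    UpperHalfPlane.qExpansion_coeff_zero one_pos
      (ModularFormClass.analyticAt_cuspFunction_zero (E hk) one_pos one_mem_strictPeriods_SL)
      (SlashInvariantFormClass.periodic_comp_ofComplex (E hk) one_mem_strictPeriods_SL)
  rw [← h2, EisensteinSeries.E_qExpansion_coeff_zero hk hk2] at h1
  exact h1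

/-- For every even `n ≥ 4` there is a level one form of weight `n` tending to `1` at `i∞`
(a monomial in `E₄`, `E₆`). -/
theorem exists_isMF1_tendsto_one {n : ℤ} (hn : 4 ≤ n) (he : Even n) :
    ∃ P : ℍ → ℂ, IsMF1 n P ∧ Tendsto P atImInfty (𝓝 1) := by
  obtain ⟨m, hm⟩ := he
  have hm2 : 2 ≤ m := by omega
  -- n = 2 m = 4 a + 6 b
  obtain ⟨a, b, hab⟩ : ∃ a b : ℕ, (4 : ℤ) * a + 6 * b = n := by
    rcases Int.emod_two_eq_zero_or_one m with h | h
    · exact ⟨(m / 2).toNat, 0, by
        have : 0 ≤ m / 2 := by omega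
        rw [Int.toNat_of_nonneg this]; omega⟩
    · exact ⟨((m - 3) / 2).toNat, 1, by
        have : 0 ≤ (m - 3) / 2 := by omega
        rw [Int.toNat_of_nonneg this]; omega⟩
  refine ⟨(⇑E₄) ^ a * (⇑E₆) ^ b, ?_, ?_⟩
  · have h4 := isMF_pow (isMF1_of_modularForm E₄) a
    have h6 := isMF_pow (isMF1_of_modularForm E₆) b
    exact isMF_cast (isMF_mul h4 h6) (by rw [← hab]; ring)
  · have h4 : Tendsto (⇑E₄) atImInfty (𝓝 1) := tendsto_E_one _ ⟨2, rfl⟩
    have h6 : Tendsto (⇑E₆) atImInfty (𝓝 1) := tendsto_E_one _ ⟨3, rfl⟩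
    have := (h4.pow a).mul (h6.pow b)
    rw [one_pow, one_pow, mul_one] at this
    exact this

/-! ### Translates -/

theorem tr_mk {k : ℤ} {f : ℍ → ℂ} (hinv : ∀ γ ∈ Γ, f ∣[k] γ = f) (g : SL(2, ℤ)) :
    tr Γ k f (QuotientGroup.mk g : SL(2, ℤ) ⧸ Γ) = f ∣[k] g⁻¹ := by
  obtain ⟨h, hh⟩ := QuotientGroup.mk_out_eq_mul Γ g
  unfold tr
  rw [hh, mul_inv_rev, SlashAction.slash_mul, hinv _ (Γ.inv_mem h.2)]

theorem tr_smul {k : ℤ} {f : ℍ → ℂ} (hinv : ∀ γ ∈ Γ, f ∣[k] γ = f) (g : SL(2, ℤ))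
    (x : SL(2, ℤ) ⧸ Γ) : tr Γ k f (g • x) = (tr Γ k f x) ∣[k] g⁻¹ := by
  induction x using QuotientGroup.induction_on with
  | H a =>
    rw [MulAction.Quotient.smul_mk, tr_mk hinv, tr_mk hinv, smul_eq_mul, mul_inv_rev,
      SlashAction.slash_mul]

theorem slash_T_apply (k : ℤ) (F : ℍ → ℂ) (z : ℍ) :
    (F ∣[k] ModularGroup.T) z = F ((1 : ℝ) +ᵥ z) := by
  rw [SL_slash_apply, modular_T_smul]
  have : denom (toGL ((Matrix.SpecialLinearGroup.map (Int.castRingHom ℝ)) ModularGroup.T))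
      (z : ℂ) = 1 := by
    have := ModularGroup.denom_apply ModularGroup.T z
    rw [ModularGroup.coe_T] at this
    simpa using this
  rw [this, one_zpow, mul_one]

theorem slash_T_inv_apply (k : ℤ) (F : ℍ → ℂ) (z : ℍ) :
    (F ∣[k] ModularGroup.T⁻¹) ((1 : ℝ) +ᵥ z) = F z := by
  rw [← slash_T_apply k (F ∣[k] ModularGroup.T⁻¹) z, ← SlashAction.slash_mul, inv_mul_cancel,
    SlashAction.slash_one]

theorem tr_T_smul_vadd {k : ℤ} {f : ℍ → ℂ} (hinv : ∀ γ ∈ Γ, f ∣[k] γ = f)
    (x : SL(2, ℤ) ⧸ Γ) (z : ℍ) :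
    tr Γ k f (ModularGroup.T • x) ((1 : ℝ) +ᵥ z) = tr Γ k f x z := by
  rw [tr_smul hinv, slash_T_inv_apply]

theorem tr_add (k : ℤ) (f g : ℍ → ℂ) (x : SL(2, ℤ) ⧸ Γ) :
    tr Γ k (f + g) x = tr Γ k f x + tr Γ k g x := by
  unfold tr
  rw [SlashAction.add_slash]

theorem tr_zero (k : ℤ) (x : SL(2, ℤ) ⧸ Γ) : tr Γ k 0 x = 0 := by
  unfold tr
  rw [SlashAction.zero_slash]

theorem tr_sum {ι : Type*} (s : Finset ι) (k : ℤ) (f : ι → ℍ → ℂ) (x : SL(2, ℤ) ⧸ Γ) :
    tr Γ k (∑ i ∈ s, f i) x = ∑ i ∈ s, tr Γ k (f i) x := by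
  classical
  induction s using Finset.induction_on with
  | empty => simp [tr_zero]
  | insert a s ha ih => rw [Finset.sum_insert ha, Finset.sum_insert ha, tr_add, ih]

theorem tr_smul_const (k : ℤ) (c : ℂ) (f : ℍ → ℂ) (x : SL(2, ℤ) ⧸ Γ) :
    tr Γ k (c • f) x = c • tr Γ k f x := by
  unfold tr
  rw [ModularForm.SL_smul_slash]

theorem tr_mul_of_isMF1 {k₁ k₂ : ℤ} {P : ℍ → ℂ} (hP : IsMF1 k₁ P) (f : ℍ → ℂ)
    (x : SL(2, ℤ) ⧸ Γ) : tr Γ (k₁ + k₂) (P * f) x = P * tr Γ k₂ f x := by
  unfold tr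
  rw [mul_slash_SL2, hP.inv _ (Subgroup.mem_top _)]

theorem tr_mdiff {k : ℤ} {f : ℍ → ℂ} (hf : MDiff f) (x : SL(2, ℤ) ⧸ Γ) : MDiff (tr Γ k f x) := by
  unfold tr
  rw [ModularForm.SL_slash]
  exact hf.slash k _

theorem slash_eq_tr {k : ℤ} {f : ℍ → ℂ} (hinv : ∀ γ ∈ Γ, f ∣[k] γ = f) (γ : SL(2, ℤ)) :
    f ∣[k] γ = tr Γ k f (QuotientGroup.mk γ⁻¹ : SL(2, ℤ) ⧸ Γ) := by
  rw [tr_mk hinv, inv_inv]

/-! ### Division by the discriminant -/

theorem div_discriminant_slash {k : ℤ} (f : ℍ → ℂ) (γ : SL(2, ℤ)) :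
    (fun z => f z / ModularForm.discriminant z) ∣[k - 12] γ =
      fun z => (f ∣[k] γ) z / ModularForm.discriminant z := by
  funext z
  rw [SL_slash_apply, SL_slash_apply]
  set d := denom (toGL ((Matrix.SpecialLinearGroup.map (Int.castRingHom ℝ)) γ)) (z : ℂ) with hd
  have hd0 : d ≠ 0 := denom_ne_zero _ z
  have hΔ : ModularForm.discriminant (γ • z) = ModularForm.discriminant z * d ^ (12 : ℤ) := by
    have h1 := congrFun (isMF1_discriminant.inv γ (Subgroup.mem_top γ)) z
    rw [SL_slash_apply] at h1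
    rw [← h1, mul_assoc, ← zpow_add₀ hd0]
    simp
  rw [hΔ, show -(k - 12) = -k + 12 by ring, zpow_add₀ hd0]
  have h12 : d ^ (12 : ℤ) ≠ 0 := zpow_ne_zero _ hd0
  have hΔ0 := ModularForm.discriminant_ne_zero z
  field_simp

theorem isMF_div_discriminant {k : ℤ} {f : ℍ → ℂ} (hf : IsMF Γ k f)
    (hdecay : ∀ γ : SL(2, ℤ),
      (f ∣[k] γ) =O[atImInfty] fun z : ℍ => Real.exp (-2 * π * z.im)) :
    IsMF Γ (k - 12) (fun z => f z / ModularForm.discriminant z) where
  holo := by
    have h1 := UpperHalfPlane.mdifferentiable_iff.mp hf.holo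
    have h2 := UpperHalfPlane.mdifferentiable_iff.mp isMF1_discriminant.holo
    rw [UpperHalfPlane.mdifferentiable_iff]
    exact h1.div h2 (fun w _ => ModularForm.discriminant_ne_zero _)
  inv γ hγ := by rw [div_discriminant_slash, hf.inv γ hγ]
  bdd γ := by
    rw [div_discriminant_slash]
    have h1 := (hdecay γ).trans exp_isBigO_discriminant
    obtain ⟨C, hC⟩ := h1.bound
    refine IsBigO.of_bound C ?_
    filter_upwards [hC] with z hz
    rw [norm_div, Pi.one_apply, norm_one, mul_one]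
    have hΔ0 : 0 < ‖ModularForm.discriminant z‖ :=
      norm_pos_iff.mpr (ModularForm.discriminant_ne_zero z)
    rw [div_le_iff₀ hΔ0]
    exact hz

end IsMFapi

/-! ## Part C: orbits of a single group element on a finite set, block DFT -/

section Orbits

variable {G : Type*} [Group G] {X : Type*} [MulAction G X] [Finite X] (g : G)

/-- Base point of the `⟨g⟩`-orbit of `x`. -/
noncomputable def ob (x : X) : X :=
  (Quotient.mk (MulAction.orbitRel (Subgroup.zpowers g) X) x).out

/-- Length of the `⟨g⟩`-orbit of `x`. -/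
noncomputable def ow (x : X) : ℕ := MulAction.period g (ob g x)

theorem period_pos' (a : X) : 0 < MulAction.period g a := by
  have hinj : Function.Injective (fun x : X => g • x) := MulAction.injective g
  exact Function.minimalPeriod_pos_of_mem_periodicPts (hinj.mem_periodicPts a)

theorem ow_pos (x : X) : 0 < ow g x := period_pos' g _

theorem exists_pow_smul_ob (x : X) : ∃ n : ℕ, g ^ n • ob g x = x := by
  have h : (MulAction.orbitRel (Subgroup.zpowers g) X) (ob g x) x := Quotient.mk_out x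
  have h' : x ∈ MulAction.orbit (Subgroup.zpowers g) (ob g x) :=
    MulAction.orbitRel_apply.mp ((MulAction.orbitRel (Subgroup.zpowers g) X).symm h)
  obtain ⟨⟨γ, hγ⟩, hx⟩ := MulAction.mem_orbit_iff.mp h'
  obtain ⟨n, rfl⟩ := Subgroup.mem_zpowers_iff.mp hγ
  have hp := period_pos' g (ob g x)
  have hnn : 0 ≤ n % (MulAction.period g (ob g x) : ℤ) := Int.emod_nonneg _ (by positivity)
  refine ⟨(n % (MulAction.period g (ob g x) : ℤ)).toNat, ?_⟩
  rw [← zpow_natCast, Int.toNat_of_nonneg hnn, MulAction.zpow_mod_period_smul]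
  exact hx

/-- Position of `x` in its orbit: `x = g ^ oidx • ob`, `oidx < ow`. -/
noncomputable def oidx (x : X) : ℕ := (Classical.choose (exists_pow_smul_ob g x)) % ow g x

theorem pow_oidx_smul (x : X) : g ^ oidx g x • ob g x = x := by
  unfold oidx ow
  rw [MulAction.pow_mod_period_smul]
  exact Classical.choose_spec (exists_pow_smul_ob g x)

theorem oidx_lt (x : X) : oidx g x < ow g x := Nat.mod_lt _ (ow_pos g x)

omit [Finite X] in
theorem ob_smul (x : X) : ob g (g • x) = ob g x := by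
  unfold ob
  congr 1
  apply Quotient.sound
  show (MulAction.orbitRel (Subgroup.zpowers g) X) (g • x) x
  rw [MulAction.orbitRel_apply]
  exact ⟨⟨g, Subgroup.mem_zpowers g⟩, rfl⟩

omit [Finite X] in
theorem ob_pow_smul (n : ℕ) (x : X) : ob g (g ^ n • x) = ob g x := by
  induction n with
  | zero => simp
  | succ n ih => rw [pow_succ', mul_smul, ob_smul, ih]

theorem ob_ob (x : X) : ob g (ob g x) = ob g x := by
  have := ob_pow_smul g (oidx g x) (ob g x)
  rw [pow_oidx_smul] at this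
  exact this.symm

omit [Finite X] in
theorem ow_smul (x : X) : ow g (g • x) = ow g x := by
  unfold ow
  rw [ob_smul]

omit [Finite X] in
theorem ow_eq_of_ob_eq {x y : X} (h : ob g y = ob g x) : ow g y = ow g x := by
  unfold ow
  rw [h]

/-- Exponents are determined modulo the orbit length. -/
theorem modEq_oidx {n : ℕ} {x y : X} (h : g ^ n • ob g x = y) : n ≡ oidx g y [MOD ow g x] := by
  have hb : ob g y = ob g x := by rw [← h, ob_pow_smul, ob_ob]
  have h2 : g ^ oidx g y • ob g x = g ^ n • ob g x := by rw [h, ← hb, pow_oidx_smul]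
  have h3 : g ^ (-(oidx g y : ℤ) + (n : ℤ)) • ob g x = ob g x := by
    rw [zpow_add, mul_smul, zpow_neg, zpow_natCast, zpow_natCast, ← h2, inv_smul_smul]
  have h4 := MulAction.zpow_smul_eq_iff_period_dvd.mp h3
  rw [neg_add_eq_sub] at h4
  have h5 : (oidx g y : ℤ) ≡ (n : ℤ) [ZMOD (ow g x : ℤ)] := (Int.modEq_iff_dvd).mpr h4
  exact (Int.natCast_modEq_iff.mp h5).symm

theorem oidx_pow_smul_ob {m : ℕ} {x : X} (hm : m < ow g x) : oidx g (g ^ m • ob g x) = m := by
  have h1 := modEq_oidx g (x := x) (n := m) rfl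
  have h2 : ow g (g ^ m • ob g x) = ow g x := ow_eq_of_ob_eq g (by rw [ob_pow_smul, ob_ob])
  have h3 : oidx g (g ^ m • ob g x) < ow g x := h2 ▸ oidx_lt g _
  exact (Nat.ModEq.eq_of_lt_of_lt h1 hm h3).symm

theorem eq_of_ob_eq_of_oidx_eq {x y : X} (h1 : ob g x = ob g y) (h2 : oidx g x = oidx g y) :
    x = y := by
  rw [← pow_oidx_smul g x, ← pow_oidx_smul g y, h1, h2]

/-- Summation over one orbit. -/
theorem sum_orbit [Fintype X] [DecidableEq X] {M : Type*} [AddCommMonoid M] (F : X → M) (x : X) :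
    ∑ y, (if ob g y = ob g x then F y else 0) =
      ∑ m ∈ Finset.range (ow g x), F (g ^ m • ob g x) := by
  rw [← Finset.sum_filter]
  refine Finset.sum_nbij' (fun y => oidx g y) (fun m => g ^ m • ob g x) ?_ ?_ ?_ ?_ ?_
  · intro y hy
    simp only [Finset.mem_filter, Finset.mem_univ, true_and] at hy
    simp only [Finset.mem_range]
    exact (ow_eq_of_ob_eq g hy) ▸ oidx_lt g y
  · intro m _
    simp only [Finset.mem_filter, Finset.mem_univ, true_and]
    rw [ob_pow_smul, ob_ob]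
  · intro y hy
    simp only [Finset.mem_filter, Finset.mem_univ, true_and] at hy
    show g ^ oidx g y • ob g x = y
    rw [← hy, pow_oidx_smul]
  · intro m hm
    exact oidx_pow_smul_ob g (Finset.mem_range.mp hm)
  · intro y hy
    simp only [Finset.mem_filter, Finset.mem_univ, true_and] at hy
    rw [← hy, pow_oidx_smul]

/-- Decomposition of a sum over `X` along the `⟨g⟩`-orbits. -/
theorem sum_eq_sum_orbits [Fintype X] [DecidableEq X]
    [Fintype (MulAction.orbitRel.Quotient (Subgroup.zpowers g) X)]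
    {M : Type*} [AddCommMonoid M] (F : X → M) :
    ∑ x, F x = ∑ q : MulAction.orbitRel.Quotient (Subgroup.zpowers g) X,
      ∑ m ∈ Finset.range (ow g q.out), F (g ^ m • ob g q.out) := by
  classical
  rw [← Finset.sum_fiberwise (Finset.univ)
    (fun x => (Quotient.mk (MulAction.orbitRel (Subgroup.zpowers g) X) x :
      MulAction.orbitRel.Quotient (Subgroup.zpowers g) X)) F]
  refine Finset.sum_congr rfl fun q _ => ?_
  rw [Finset.sum_filter, ← sum_orbit g F q.out]
  refine Finset.sum_congr rfl fun x _ => ?_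
  have hiff : (Quotient.mk (MulAction.orbitRel (Subgroup.zpowers g) X) x = q) ↔
      ob g x = ob g q.out := by
    unfold ob
    rw [Quotient.out_eq]
    exact ⟨fun h => by rw [h], fun h => Quotient.out_injective h⟩
  by_cases hx : ob g x = ob g q.out
  · rw [if_pos hx, if_pos (hiff.mpr hx)]
  · rw [if_neg hx, if_neg (fun h => hx (hiff.mp h))]

theorem sum_range_cast_id (n : ℕ) : ∑ m ∈ Finset.range n, (m : ℝ) = (n : ℝ) * ((n : ℝ) - 1) / 2 := by
  induction n with
  | zero => simp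
  | succ n ih =>
    rw [Finset.sum_range_succ, ih]
    push_cast
    ring

/-- The exponents `s x = oidx x / ow x` add up to `(card X - #orbits) / 2`. -/
theorem two_mul_sum_oidx_div_ow [Fintype X] [DecidableEq X]
    [Fintype (MulAction.orbitRel.Quotient (Subgroup.zpowers g) X)] :
    2 * ∑ x : X, ((oidx g x : ℝ) / (ow g x : ℝ)) =
      (Fintype.card X : ℝ) -
        (Fintype.card (MulAction.orbitRel.Quotient (Subgroup.zpowers g) X) : ℝ) := by
  have h1 : ∑ x : X, ((oidx g x : ℝ) / (ow g x : ℝ)) =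
      ∑ q : MulAction.orbitRel.Quotient (Subgroup.zpowers g) X, ((ow g q.out : ℝ) - 1) / 2 := by
    rw [sum_eq_sum_orbits g]
    refine Finset.sum_congr rfl fun q _ => ?_
    have hw : (ow g q.out : ℝ) ≠ 0 := by exact_mod_cast (ow_pos g q.out).ne'
    have h2 : ∀ m ∈ Finset.range (ow g q.out),
        (oidx g (g ^ m • ob g q.out) : ℝ) / (ow g (g ^ m • ob g q.out) : ℝ) =
          (m : ℝ) / (ow g q.out : ℝ) := by
      intro m hm
      rw [oidx_pow_smul_ob g (Finset.mem_range.mp hm),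
        ow_eq_of_ob_eq g (x := q.out) (by rw [ob_pow_smul, ob_ob])]
    rw [Finset.sum_congr rfl h2, ← Finset.sum_div, sum_range_cast_id]
    field_simp
  have h3 : (Fintype.card X : ℝ) =
      ∑ q : MulAction.orbitRel.Quotient (Subgroup.zpowers g) X, (ow g q.out : ℝ) := by
    have := sum_eq_sum_orbits g (fun _ : X => (1 : ℝ))
    simpa using this
  rw [h1, h3, Finset.mul_sum]
  have h4 : ∀ q : MulAction.orbitRel.Quotient (Subgroup.zpowers g) X,
      2 * (((ow g q.out : ℝ) - 1) / 2) = (ow g q.out : ℝ) - 1 := fun q => by ring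
  rw [Finset.sum_congr rfl (fun q _ => h4 q), Finset.sum_sub_distrib]
  simp

end Orbits

section DFT

variable {G : Type*} [Group G] {X : Type*} [MulAction G X] [Fintype X] [DecidableEq X] (g : G)

/-- The standard primitive `n`-th root of unity. -/
noncomputable def zeta (n : ℕ) : ℂ := cexp (2 * π * Complex.I / n)

theorem zeta_isPrimitiveRoot {n : ℕ} (hn : n ≠ 0) : IsPrimitiveRoot (zeta n) n :=
  Complex.isPrimitiveRoot_exp n hn

theorem zeta_pow_self {n : ℕ} (hn : n ≠ 0) : zeta n ^ n = 1 :=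
  (zeta_isPrimitiveRoot hn).pow_eq_one

theorem zeta_ne_zero (n : ℕ) : zeta n ≠ 0 := Complex.exp_ne_zero _

/-- Block discrete Fourier transform along the `⟨g⟩`-orbits. -/
noncomputable def dftV (x y : X) : ℂ :=
  if ob g y = ob g x then zeta (ow g x) ^ (oidx g x * oidx g y) else 0

/-- The inverse block discrete Fourier transform. -/
noncomputable def dftW (y x : X) : ℂ :=
  if ob g y = ob g x then (zeta (ow g x))⁻¹ ^ (oidx g x * oidx g y) / (ow g x : ℂ) else 0

theorem dftV_smul (x y : X) :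
    dftV g x (g • y) = zeta (ow g x) ^ (oidx g x) * dftV g x y := by
  unfold dftV
  rw [ob_smul]
  by_cases hy : ob g y = ob g x
  · rw [if_pos hy, if_pos hy]
    have h1 : g ^ (oidx g y + 1) • ob g y = g • y := by
      rw [pow_succ', mul_smul, pow_oidx_smul]
    have h2 := modEq_oidx g h1
    rw [ow_eq_of_ob_eq g hy] at h2
    have hw : ow g x ≠ 0 := (ow_pos g x).ne'
    have hζ : (zeta (ow g x) ^ oidx g x) ^ ow g x = 1 := by
      rw [← pow_mul, mul_comm, pow_mul, zeta_pow_self hw, one_pow]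
    have h3 : zeta (ow g x) ^ (oidx g x * oidx g (g • y)) =
        zeta (ow g x) ^ (oidx g x * (oidx g y + 1)) := by
      rw [pow_mul, pow_mul, pow_eq_pow_mod _ hζ, pow_eq_pow_mod (oidx g y + 1) hζ]
      congr 1
      exact h2.symm
    rw [h3, mul_add, mul_one, pow_add, mul_comm]
  · rw [if_neg hy, if_neg hy, mul_zero]

theorem dftV_mul_dftW :
    (Matrix.of (dftV g) : Matrix X X ℂ) * Matrix.of (dftW g) = 1 := by
  ext x x'
  rw [Matrix.mul_apply]
  simp only [Matrix.of_apply]
  by_cases hb : ob g x' = ob g x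
  · have hw : ow g x' = ow g x := ow_eq_of_ob_eq g hb
    have hw0 : ow g x ≠ 0 := (ow_pos g x).ne'
    have hwC : (ow g x : ℂ) ≠ 0 := by exact_mod_cast hw0
    set ζ := zeta (ow g x) with hζdef
    set ω : ℂ := ζ ^ oidx g x * ζ⁻¹ ^ oidx g x' with hω
    have hterm : ∀ y : X, dftV g x y * dftW g y x' =
        if ob g y = ob g x then ω ^ oidx g y / (ow g x : ℂ) else 0 := by
      intro y
      unfold dftV dftW
      by_cases hy : ob g y = ob g x
      · rw [if_pos hy, if_pos (hy.trans hb.symm), if_pos hy, hw, hω, mul_pow, ← pow_mul, ← pow_mul]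
        ring
      · rw [if_neg hy, zero_mul, if_neg hy]
    rw [Finset.sum_congr rfl (fun y _ => hterm y), sum_orbit g (fun y => ω ^ oidx g y / (ow g x : ℂ)) x]
    rw [Finset.sum_congr rfl (fun m hm => by
      rw [oidx_pow_smul_ob g (Finset.mem_range.mp hm)] :
        ∀ m ∈ Finset.range (ow g x), ω ^ oidx g (g ^ m • ob g x) / (ow g x : ℂ) = ω ^ m / (ow g x : ℂ))]
    rw [← Finset.sum_div]
    by_cases hr : oidx g x = oidx g x'
    · have hxx : x = x' := eq_of_ob_eq_of_oidx_eq g hb.symm hr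
      have hω1 : ω = 1 := by
        rw [hω, ← hr, ← mul_pow, mul_inv_cancel₀ (zeta_ne_zero _), one_pow]
      rw [hxx, Matrix.one_apply_eq, hω1]
      simp only [one_pow, Finset.sum_const, Finset.card_range, nsmul_eq_mul, mul_one]
      rw [← hxx]
      exact div_self hwC
    · have hxx : x ≠ x' := fun h => hr (by rw [h])
      have hω1 : ω ≠ 1 := by
        intro h
        apply hr
        have h' : ζ ^ oidx g x = ζ ^ oidx g x' := by
          have hne : ζ ^ oidx g x' ≠ 0 := pow_ne_zero _ (zeta_ne_zero _)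
          rw [hω, inv_pow] at h
          field_simp at h
          exact h
        exact (zeta_isPrimitiveRoot hw0).pow_inj (oidx_lt g x) (hw ▸ oidx_lt g x') h'
      have hωw : ω ^ ow g x = 1 := by
        rw [hω, mul_pow, ← pow_mul, ← pow_mul, mul_comm (oidx g x), mul_comm (oidx g x'),
          pow_mul, pow_mul, inv_pow, zeta_pow_self hw0]
        simp
      rw [Matrix.one_apply_ne hxx, geom_sum_eq hω1, hωw]
      simp
  · have hxx : x ≠ x' := fun h => hb (by rw [h])
    rw [Matrix.one_apply_ne hxx]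
    refine Finset.sum_eq_zero fun y _ => ?_
    unfold dftV dftW
    by_cases hy : ob g y = ob g x
    · rw [if_neg (fun h : ob g y = ob g x' => hb (h.symm.trans hy)), mul_zero]
    · rw [if_neg hy, zero_mul]

theorem dftW_mul_dftV :
    (Matrix.of (dftW g) : Matrix X X ℂ) * Matrix.of (dftV g) = 1 :=
  mul_eq_one_comm.mp (dftV_mul_dftW g)

theorem isUnit_det_dftV : IsUnit (Matrix.of (dftV g) : Matrix X X ℂ).det :=
  Matrix.isUnit_det_of_right_inverse (dftV_mul_dftW g)

end DFT

end Fermat.Agent.S20.helper146
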