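/-
S20 project, helper1040 spec: `Stmt_Free (Γ₀(N))` from the function-level freeness theorem
`Fermat.Agent.Lib.helper460.exists_free_generators_Gamma0`.
-/
import Fermat.Agent.S20.helper1040_API
import Fermat.Agent.Lib.helper460_FreeModule

set_option autoImplicit false

open UpperHalfPlane ModularForm Matrix.SpecialLinearGroup Filter Complex
open scoped MatrixGroups ModularForm Manifold Topology Real

namespace Fermat.Agent.S20.helper1040

/-- **FREE** for `Γ₀(N)` in the shape of `helper1040_Spec`. -/
theorem stmt_free_Gamma0 (N : ℕ) [NeZero N] : Stmt_Free (CongruenceSubgroup.Gamma0 N) := by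
  obtain ⟨n, κ, F, hn, -, -, hGen, hUniq⟩ := Fermat.Agent.Lib.helper460.exists_free_generators_Gamma0 N
  refine ⟨n, κ, fun j => ⇑(F j), ⟨fun j => isMF_of_modularForm (F j), ?_, ?_⟩, hn⟩
  · intro k f hf
    obtain ⟨P, hP⟩ := hGen k hf.toModularForm
    refine ⟨fun j => ⇑(P j), fun j => isMF1_of_modularForm (P j), ?_⟩
    funext z
    have h := hP z
    rw [Finset.sum_apply]
    simpa using h
  · intro k A hA hsum j
    have h := hUniq k (fun j => (hA j).toModularForm1) (fun z => by
      have h1 := congrFun hsum z
      rw [Finset.sum_apply] at h1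
      simpa using h1) j
    have h2 := congrArg (fun G : ModularForm 𝒮ℒ (k - κ j) => (⇑G : ℍ → ℂ)) h
    simpa using h2

end Fermat.Agent.S20.helper1040
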