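/-
S20 project, helper1040 spec: LOWER-BOUND assembly (no duality needed).

  genusFormula N ≤ finrank S_2(Γ₀(N))

from: free basis indexed by the cosets with invertible fundamental matrix (FREE + SEP + LIOUVILLE),
BASIC, ELL, the sum-of-weights inequality `∑ κ ≤ 6 (index - cusps)` and the constant term bound
(Lo) of `helper1040_Lower`.
-/
import Fermat.Agent.S20.helper1040_Assembly
import Fermat.Agent.S20.helper1040_Lower

set_option autoImplicit false

open UpperHalfPlane ModularForm Matrix.SpecialLinearGroup Filter Complex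
open scoped MatrixGroups ModularForm Manifold Topology Real

namespace Fermat.Agent.S20.helper1040

/-! ## The weight two part of a free basis -/

/-- If `(κ, G)` is a free basis with nonnegative even weights, then the `G j` of weight two form a
basis of `M_2(Γ)`; in particular `dim M_2(Γ) = #{j | κ j = 2}`. -/
theorem finrank_modularForm_two_eq (Γ : Subgroup SL(2, ℤ)) [Γ.FiniteIndex] {ι : Type} [Fintype ι]
    [DecidableEq ι] (κ : ι → ℤ) (G : ι → ℍ → ℂ) (hB : IsFreeBasis Γ κ G)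
    (hnonneg : ∀ j, 0 ≤ κ j) (heven : ∀ j, Even (κ j)) :
    Module.finrank ℂ (ModularForm (Γ.map (mapGL ℝ)) 2) = Nat.card {j // κ j = 2} := by
  classical
  obtain ⟨hG, hSpan, hIndep⟩ := hB
  -- the candidate basis
  let b : {j // κ j = 2} → ModularForm (Γ.map (mapGL ℝ)) 2 := fun j =>
    ((hG j.1).congr_weight j.2).toModularForm
  have hb : ∀ (j : {j // κ j = 2}) (z : ℍ), b j z = G j.1 z := fun j z => rfl
  -- the reindexing identity
  have key : ∀ (c' : ι → ℂ) (z : ℍ),
      ∑ i : ι, (if κ i = 2 then c' i else 0) * G i z = ∑ j : {j // κ j = 2}, c' j.1 * G j.1 z := by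
    intro c' z
    rw [← Finset.sum_subtype (Finset.univ.filter fun i => κ i = 2) (by simp)
      (fun i => c' i * G i z), Finset.sum_filter]
    refine Finset.sum_congr rfl fun i _ => ?_
    split_ifs <;> simp
  have hA : ∀ (c' : ι → ℂ) (i : ι),
      IsMF1 (2 - κ i) (if κ i = 2 then Function.const ℍ (c' i) else 0) := by
    intro c' i
    split_ifs with h
    · exact (isMF_const ⊤ (c' i)).congr_weight (by omega)
    · exact isMF_zero _ _
  have hsumfun : ∀ (c' : ι → ℂ) (z : ℍ),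
      (∑ i : ι, (if κ i = 2 then Function.const ℍ (c' i) else 0) * G i) z =
        ∑ i : ι, (if κ i = 2 then c' i else 0) * G i z := by
    intro c' z
    rw [Finset.sum_apply]
    refine Finset.sum_congr rfl fun i _ => ?_
    rw [Pi.mul_apply]
    split_ifs <;> simp
  have hcoe : ∀ (g : {j // κ j = 2} → ℂ) (z : ℍ),
      (∑ j, g j • b j) z = ∑ j : {j // κ j = 2}, g j * G j.1 z := by
    intro g z
    rw [FunLike.coe_sum, Finset.sum_apply]
    refine Finset.sum_congr rfl fun j _ => ?_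
    rw [FunLike.coe_smul, Pi.smul_apply, smul_eq_mul, hb]
  have hli : LinearIndependent ℂ b := by
    rw [Fintype.linearIndependent_iff]
    intro g hg j
    let c' : ι → ℂ := fun i => if h : κ i = 2 then g ⟨i, h⟩ else 0
    have hc' : ∀ j : {j // κ j = 2}, c' j.1 = g j := fun j => by
      simp only [c', dif_pos j.2]
    have h0 : ∑ i : ι, (if κ i = 2 then Function.const ℍ (c' i) else 0) * G i = 0 := by
      funext z
      rw [hsumfun, key, Pi.zero_apply]
      have h1 := hcoe g z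
      rw [hg] at h1
      rw [Finset.sum_congr rfl fun j _ => by rw [hc' j]]
      exact h1.symm
    have h2 := hIndep 2 _ (hA c') h0 j.1
    rw [if_pos j.2] at h2
    have h3 := congrFun h2 UpperHalfPlane.I
    simp only [Function.const_apply, Pi.zero_apply] at h3
    rw [← hc' j, h3]
  have hsp : ⊤ ≤ Submodule.span ℂ (Set.range b) := by
    intro F _
    obtain ⟨A, hAmf, hfA⟩ := hSpan 2 F (isMF_of_modularForm F)
    let c' : ι → ℂ := fun i => A i UpperHalfPlane.I
    have hAi : ∀ i z, A i z = if κ i = 2 then c' i else 0 := by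
      intro i z
      split_ifs with h
      · have h1 : IsMF1 0 (A i) := (hAmf i).congr_weight (by omega)
        obtain ⟨c, hc⟩ := h1.eq_const_of_weight_zero
        simp only [c', hc, Function.const_apply]
      · have h0 := hnonneg i
        obtain ⟨m, hm⟩ := heven i
        by_cases h4 : κ i = 0
        · have h1 : IsMF1 2 (A i) := (hAmf i).congr_weight (by omega)
          rw [h1.eq_zero_of_levelOne_weight_two]
          rfl
        · have h1 : A i = 0 := (hAmf i).eq_zero_of_neg_weight (by omega)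
          rw [h1]
          rfl
    have hF : F = ∑ j : {j // κ j = 2}, c' j.1 • b j := by
      ext z
      rw [hcoe, ← key]
      have h1 := congrFun hfA z
      rw [h1, Finset.sum_apply]
      refine Finset.sum_congr rfl fun i _ => ?_
      rw [Pi.mul_apply, hAi i z]
    rw [hF]
    exact Submodule.sum_mem _ fun j _ => Submodule.smul_mem _ _ (Submodule.subset_span ⟨j, rfl⟩)
  rw [Module.finrank_eq_card_basis (Module.Basis.mk hli hsp), Nat.card_eq_fintype_card]

/-! ## The arithmetic -/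

/-- The pointwise inequality behind the count of weight two generators. -/
theorem weight_two_pointwise (κ : ℤ) (h0 : 0 ≤ κ) (hev : Even κ) :
    10 - κ - 6 * (if κ % 4 = 0 then 1 else 0) - 4 * (if κ % 6 = 0 then 1 else 0)
      + 4 * (if κ % 6 = 2 then 1 else 0) ≤ 12 * (if κ = 2 then (1 : ℤ) else 0) := by
  obtain ⟨m, rfl⟩ := hev
  split_ifs <;> omega

/-- Counting: a lower bound for the number of weight two generators. -/
theorem weight_two_count {X : Type} [Fintype X] (κ : X → ℤ) (h0 : ∀ x, 0 ≤ κ x)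
    (hev : ∀ x, Even (κ x)) (μ e2 e3 c : ℤ) (hμ : (Fintype.card X : ℤ) = μ)
    (h4 : 2 * (Nat.card {x // κ x % 4 = 0} : ℤ) = μ + e2)
    (h6a : 3 * (Nat.card {x // κ x % 6 = 0} : ℤ) = μ + 2 * e3)
    (h6b : 3 * (Nat.card {x // κ x % 6 = 2} : ℤ) + e3 = μ)
    (hsum : ∑ x, κ x ≤ 6 * (μ - c)) :
    μ + 6 * c - 3 * e2 - 4 * e3 ≤ 12 * (Nat.card {x // κ x = 2} : ℤ) := by
  classical
  have hcard : ∀ (p : ℤ → Prop) [DecidablePred p],
      (Nat.card {x // p (κ x)} : ℤ) = ∑ x : X, if p (κ x) then (1 : ℤ) else 0 := by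
    intro p _
    rw [natCard_subtype_eq, Finset.card_filter]
    push_cast
    rfl
  rw [hcard (fun k => k % 4 = 0)] at h4
  rw [hcard (fun k => k % 6 = 0)] at h6a
  rw [hcard (fun k => k % 6 = 2)] at h6b
  rw [hcard (fun k => k = 2)]
  have hpt := Finset.sum_le_sum (s := Finset.univ) fun x _ => weight_two_pointwise (κ x) (h0 x) (hev x)
  simp only [Finset.sum_add_distrib, Finset.sum_sub_distrib, ← Finset.mul_sum, Finset.sum_const,
    Finset.card_univ, nsmul_eq_mul] at hpt
  rw [hμ] at hpt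
  linarith

/-! ## The lower bound from the statements -/

/-- SUMLE: the sum of the weights of a coset-indexed free basis with everywhere invertible
fundamental matrix is at most `6 ([SL₂ℤ:Γ] - #cusps)` (the hard half of `Stmt_SumKappa`). -/
def Stmt_SumLe (Γ : Subgroup SL(2, ℤ)) [Fintype (SL(2, ℤ) ⧸ Γ)] [DecidableEq (SL(2, ℤ) ⧸ Γ)] :
    Prop :=
  ∀ (κ : SL(2, ℤ) ⧸ Γ → ℤ) (G : SL(2, ℤ) ⧸ Γ → ℍ → ℂ), IsFreeBasis Γ κ G →
    (∀ x, Even (κ x)) → (∀ z : ℍ, (Phi Γ κ G z).det ≠ 0) →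
    ∑ x, κ x ≤ 6 * ((Γ.index : ℤ) - (cuspNum Γ : ℤ))

/-- `Stmt_SumLe` from the cusp factorisation and Liouville. -/
theorem stmt_sumLe_of_cuspFact (Γ : Subgroup SL(2, ℤ)) [Fintype (SL(2, ℤ) ⧸ Γ)]
    [DecidableEq (SL(2, ℤ) ⧸ Γ)] (hLiou : Stmt_Liouville Γ) (hCusp : Stmt_CuspFact Γ) :
    Stmt_SumLe Γ := by
  intro κ G hB heven hdet
  obtain ⟨c, hc⟩ := hLiou κ G hB
  have hc0 : c ≠ 0 := by
    rintro rfl
    have h := hc UpperHalfPlane.I
    rw [zero_mul] at h
    exact hdet _ (pow_eq_zero_iff (by norm_num) |>.mp h)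
  obtain ⟨U, Λ, s, hCD⟩ := hCusp κ G hB heven
  exact (stmt_sumKappa Γ κ G U Λ s c hCD hc0 hc).le

/-- Core of the lower bound, in terms of the invariants of `Γ`. -/
theorem genus_le_of_facts (Γ : Subgroup SL(2, ℤ)) [Γ.FiniteIndex] [Fintype (SL(2, ℤ) ⧸ Γ)]
    [DecidableEq (SL(2, ℤ) ⧸ Γ)]
    (hFreeX : Stmt_FreeX Γ) (hLiou : Stmt_Liouville Γ) (hBasic : Stmt_Basic Γ)
    (hEll : Stmt_Ell Γ) (hSum : Stmt_SumLe Γ) :
    1 + (Γ.index : ℚ) / 12 - (ellTwo Γ : ℚ) / 4 - (ellThree Γ : ℚ) / 3 - (cuspNum Γ : ℚ) / 2 ≤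
      (Module.finrank ℂ (CuspForm (Γ.map (mapGL ℝ)) 2) : ℚ) := by
  classical
  obtain ⟨κ, G, hB, z₀, hz₀⟩ := hFreeX
  obtain ⟨c, hc⟩ := hLiou κ G hB
  have hc0 : c ≠ 0 := by
    rintro rfl
    have h := hc z₀
    rw [zero_mul] at h
    exact hz₀ (pow_eq_zero_iff (by norm_num) |>.mp h)
  have hdet : ∀ z : ℍ, (Phi Γ κ G z).det ≠ 0 := by
    intro z h
    have h1 := hc z
    rw [h, zero_pow (by norm_num)] at h1
    have h2 : (ModularForm.discriminant z) ^ (∑ x, κ x) ≠ 0 :=
      zpow_ne_zero _ (discriminant_ne_zero z)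
    exact (mul_ne_zero hc0 h2) h1.symm
  obtain ⟨hnonneg, heven, -⟩ := hBasic κ G hB
  have hsum := hSum κ G hB heven hdet
  obtain ⟨h4, h6a, h6b, -⟩ := hEll κ G hB heven hdet
  have hμ : (Fintype.card (SL(2, ℤ) ⧸ Γ) : ℤ) = (Γ.index : ℤ) := by
    rw [Subgroup.index, Nat.card_eq_fintype_card]
  have hcount := weight_two_count κ hnonneg heven (Γ.index) (ellTwo Γ) (ellThree Γ) (cuspNum Γ) hμ
    (by exact_mod_cast h4) (by exact_mod_cast h6a) (by exact_mod_cast h6b) hsum
  have hM := finrank_modularForm_two_eq Γ κ G hB hnonneg heven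
  have hLo := finrank_modularForm_two_add_one_le Γ
  rw [hM] at hLo
  have hLo' : (Nat.card {x // κ x = 2} : ℚ) + 1 ≤
      (Module.finrank ℂ (CuspForm (Γ.map (mapGL ℝ)) 2) : ℚ) + (cuspNum Γ : ℚ) := by
    exact_mod_cast hLo
  have hcount' : (Γ.index : ℚ) + 6 * (cuspNum Γ : ℚ) - 3 * (ellTwo Γ : ℚ) - 4 * (ellThree Γ : ℚ) ≤
      12 * (Nat.card {x // κ x = 2} : ℚ) := by
    exact_mod_cast hcount
  linarith

/-- **Lower bound for S20 from the statements** (`Γ = Γ₀(N)`). -/
theorem genus_le_of_stmts (N : ℕ) [NeZero N]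
    [Fintype (SL(2, ℤ) ⧸ CongruenceSubgroup.Gamma0 N)]
    [DecidableEq (SL(2, ℤ) ⧸ CongruenceSubgroup.Gamma0 N)]
    (hFree : Stmt_Free (CongruenceSubgroup.Gamma0 N))
    (hSep : Stmt_Sep (CongruenceSubgroup.Gamma0 N))
    (hLiou : Stmt_Liouville (CongruenceSubgroup.Gamma0 N))
    (hBasic : Stmt_Basic (CongruenceSubgroup.Gamma0 N))
    (hEll : Stmt_Ell (CongruenceSubgroup.Gamma0 N))
    (hSum : Stmt_SumLe (CongruenceSubgroup.Gamma0 N))
    (hIdx : Stmt_Index N) (hE2 : Stmt_EllTwo N) (hE3 : Stmt_EllThree N) (hCN : Stmt_CuspNum N) :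
    ModularCurve.genusFormula N ≤
      (Module.finrank ℂ (CuspForm (CongruenceSubgroup.Gamma0 N) 2) : ℚ) := by
  have h := genus_le_of_facts (CongruenceSubgroup.Gamma0 N) (stmt_freeX_of _ hFree hSep) hLiou
    hBasic hEll hSum
  unfold Stmt_Index at hIdx
  unfold Stmt_EllTwo at hE2
  unfold Stmt_EllThree at hE3
  unfold Stmt_CuspNum at hCN
  rw [hIdx, hE2, hE3, hCN] at h
  rw [ModularCurve.genusFormula]
  exact h

end Fermat.Agent.S20.helper1040
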