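import Mathlib

/-!
# Freeness of the graded module of modular forms over `ℂ[E₄, E₆]` (function level)

For an arithmetic subgroup `𝒢 ≤ 𝒮ℒ` we show that `⨁ₖ Mₖ(𝒢)` has a homogeneous basis
over the graded ring of level-one forms.  Everything is stated for plain functions `ℍ → ℂ`.
-/

set_option autoImplicit false

open UpperHalfPlane ModularForm MatrixGroups EisensteinSeries Filter Topology
open scoped Manifold

namespace Fermat.Agent.S20.helper1161

/-- The space of (coercions of) modular forms of weight `k` for `𝒢`, as a submodule of the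
space of all functions `ℍ → ℂ`. -/
def mfSub (𝒢 : Subgroup (GL (Fin 2) ℝ)) [𝒢.HasDetOne] (k : ℤ) : Submodule ℂ (ℍ → ℂ) where
  carrier := {f | ∃ F : ModularForm 𝒢 k, ⇑F = f}
  add_mem' := by
    rintro _ _ ⟨F, rfl⟩ ⟨G, rfl⟩
    exact ⟨F + G, rfl⟩
  zero_mem' := ⟨0, rfl⟩
  smul_mem' := by
    rintro c _ ⟨F, rfl⟩
    exact ⟨c • F, rfl⟩

theorem mem_mfSub {𝒢 : Subgroup (GL (Fin 2) ℝ)} [𝒢.HasDetOne] {k : ℤ} {f : ℍ → ℂ} :
    f ∈ mfSub 𝒢 k ↔ ∃ F : ModularForm 𝒢 k, ⇑F = f := Iff.rfl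

theorem coe_mem_mfSub {𝒢 : Subgroup (GL (Fin 2) ℝ)} [𝒢.HasDetOne] {k : ℤ} (F : ModularForm 𝒢 k) :
    ⇑F ∈ mfSub 𝒢 k := ⟨F, rfl⟩

theorem mfSub_cast {𝒢 : Subgroup (GL (Fin 2) ℝ)} [𝒢.HasDetOne] {k k' : ℤ} (h : k = k')
    {f : ℍ → ℂ} (hf : f ∈ mfSub 𝒢 k) : f ∈ mfSub 𝒢 k' := h ▸ hf

/-- Build a modular form for an arithmetic group from function-level data. -/
noncomputable def mkMF {𝒢 : Subgroup (GL (Fin 2) ℝ)} [𝒢.IsArithmetic] {k : ℤ} (f : ℍ → ℂ)
    (hol : MDiff f) (inv : ∀ γ ∈ 𝒢, f ∣[k] γ = f)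
    (bdd : ∀ γ : SL(2, ℤ), IsBoundedAtImInfty (f ∣[k] γ)) : ModularForm 𝒢 k where
  toFun := f
  slash_action_eq' := inv
  holo' := hol
  bdd_at_cusps' {c} hc := by
    rw [Subgroup.IsArithmetic.isCusp_iff_isCusp_SL2Z] at hc
    rw [OnePoint.isBoundedAt_iff_forall_SL2Z hc]
    exact fun γ _ => bdd γ

theorem mem_mfSub_of {𝒢 : Subgroup (GL (Fin 2) ℝ)} [𝒢.IsArithmetic] [𝒢.HasDetOne] {k : ℤ}
    {f : ℍ → ℂ} (hol : MDiff f) (inv : ∀ γ ∈ 𝒢, f ∣[k] γ = f)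
    (bdd : ∀ γ : SL(2, ℤ), IsBoundedAtImInfty (f ∣[k] γ)) : f ∈ mfSub 𝒢 k :=
  ⟨mkMF f hol inv bdd, rfl⟩

theorem mfSub_mdiff {𝒢 : Subgroup (GL (Fin 2) ℝ)} [𝒢.HasDetOne] {k : ℤ} {f : ℍ → ℂ}
    (hf : f ∈ mfSub 𝒢 k) : MDiff f := by
  obtain ⟨F, rfl⟩ := hf
  exact F.holo'

theorem mfSub_slash {𝒢 : Subgroup (GL (Fin 2) ℝ)} [𝒢.HasDetOne] {k : ℤ} {f : ℍ → ℂ}
    (hf : f ∈ mfSub 𝒢 k) {γ : GL (Fin 2) ℝ} (hγ : γ ∈ 𝒢) : f ∣[k] γ = f := by
  obtain ⟨F, rfl⟩ := hf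
  exact F.slash_action_eq' γ hγ

theorem mfSub_bdd {𝒢 : Subgroup (GL (Fin 2) ℝ)} [𝒢.IsArithmetic] [𝒢.HasDetOne] {k : ℤ}
    {f : ℍ → ℂ} (hf : f ∈ mfSub 𝒢 k) (γ : SL(2, ℤ)) : IsBoundedAtImInfty (f ∣[k] γ) := by
  obtain ⟨F, rfl⟩ := hf
  exact ModularFormClass.bdd_at_infty_slash F γ

/-- Level-one forms are forms for every arithmetic subgroup of `𝒮ℒ`. -/
theorem mfSub_levelOne_le {𝒢 : Subgroup (GL (Fin 2) ℝ)} [𝒢.IsArithmetic] [𝒢.HasDetOne]
    (h𝒢 : 𝒢 ≤ 𝒮ℒ) (k : ℤ) : mfSub 𝒮ℒ k ≤ mfSub 𝒢 k := by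
  intro f hf
  exact mem_mfSub_of (mfSub_mdiff hf) (fun γ hγ => mfSub_slash hf (h𝒢 hγ)) (mfSub_bdd hf)

theorem mfSub_mul {𝒢 : Subgroup (GL (Fin 2) ℝ)} [𝒢.IsArithmetic] [𝒢.HasDetOne] {i j : ℤ}
    {f g : ℍ → ℂ} (hf : f ∈ mfSub 𝒢 i) (hg : g ∈ mfSub 𝒢 j) : f * g ∈ mfSub 𝒢 (i + j) := by
  obtain ⟨F, rfl⟩ := hf
  obtain ⟨G, rfl⟩ := hg
  exact ⟨F.mul G, rfl⟩

/-- Product of a level-one form with a form on `𝒢`. -/
theorem mfSub_mul' {𝒢 : Subgroup (GL (Fin 2) ℝ)} [𝒢.IsArithmetic] [𝒢.HasDetOne]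
    (h𝒢 : 𝒢 ≤ 𝒮ℒ) {i j k : ℤ} (hk : i + j = k)
    {f g : ℍ → ℂ} (hf : f ∈ mfSub 𝒮ℒ i) (hg : g ∈ mfSub 𝒢 j) : f * g ∈ mfSub 𝒢 k :=
  hk ▸ mfSub_mul (mfSub_levelOne_le h𝒢 i hf) hg

theorem mfSub_eq_bot_of_neg {𝒢 : Subgroup (GL (Fin 2) ℝ)} [𝒢.IsArithmetic] [𝒢.HasDetOne]
    {k : ℤ} (hk : k < 0) : mfSub 𝒢 k = ⊥ := by
  rw [eq_bot_iff]
  rintro _ ⟨F, rfl⟩
  rw [ModularForm.isZero_of_neg_weight hk F]
  rfl

theorem E₄_mem : ⇑E₄ ∈ mfSub 𝒮ℒ 4 := ⟨E₄, rfl⟩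

theorem E₆_mem : ⇑E₆ ∈ mfSub 𝒮ℒ 6 := ⟨E₆, rfl⟩


theorem tendsto_levelOne_atImInfty {k : ℤ} (f : ModularForm 𝒮ℒ k) :
    Tendsto f atImInfty (𝓝 ((qExpansion 1 f).coeff 0)) := by
  have hanal := ModularFormClass.analyticAt_cuspFunction_zero f one_pos
    one_mem_strictPeriods_SL
  have hper := SlashInvariantFormClass.periodic_comp_ofComplex f
    one_mem_strictPeriods_SL
  have h0 : (qExpansion 1 f).coeff 0 = cuspFunction 1 f 0 := by
    simp [qExpansion_coeff]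
  rw [h0]
  exact (hanal.continuousAt.tendsto.comp (qParam_tendsto_atImInfty one_pos)).congr
    (fun τ => eq_cuspFunction τ one_ne_zero hper)

theorem tendsto_E₄_atImInfty : Tendsto E₄ atImInfty (𝓝 1) := by
  have := tendsto_levelOne_atImInfty E₄
  rwa [E_qExpansion_coeff_zero _ ⟨2, rfl⟩] at this

theorem tendsto_E₆_atImInfty : Tendsto E₆ atImInfty (𝓝 1) := by
  have := tendsto_levelOne_atImInfty E₆
  rwa [E_qExpansion_coeff_zero _ ⟨3, rfl⟩] at this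

theorem discriminant_mem : ModularForm.discriminant ∈ mfSub 𝒮ℒ 12 :=
  ⟨CuspForm.discriminant, rfl⟩

theorem one_mem : (1 : ℍ → ℂ) ∈ mfSub 𝒮ℒ 0 := ⟨1, ModularForm.one_coe_eq_one⟩

theorem const_mem (c : ℂ) : (fun _ => c : ℍ → ℂ) ∈ mfSub 𝒮ℒ 0 := ⟨ModularForm.const c, rfl⟩

/-- Every level-one form of weight `m` is a multiple of a given form `g` with limit `1`
at `i∞`, modulo `Δ * M_{m-12}`. -/
theorem ideal_core {m : ℤ} {P g : ℍ → ℂ} (hP : P ∈ mfSub 𝒮ℒ m) (hg : g ∈ mfSub 𝒮ℒ m)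
    (hg1 : Tendsto g atImInfty (𝓝 1)) :
    ∃ c : ℂ, ∃ Q ∈ mfSub 𝒮ℒ (m - 12), P = c • g + ModularForm.discriminant * Q := by
  obtain ⟨P', rfl⟩ := hP
  obtain ⟨G', rfl⟩ := hg
  set c : ℂ := (qExpansion 1 P').coeff 0 with hc
  have hlim : Tendsto (⇑(P' - c • G')) atImInfty (𝓝 (c - c • 1)) :=
    (tendsto_levelOne_atImInfty P').sub (hg1.const_smul c)
  have h0 : (qExpansion 1 (P' - c • G')).coeff 0 = 0 := by
    have := tendsto_nhds_unique (tendsto_levelOne_atImInfty (P' - c • G')) hlim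
    simpa using this
  refine ⟨c, ⇑(CuspForm.discriminantEquiv (toCuspForm (P' - c • G') h0)), ⟨_, rfl⟩, ?_⟩
  funext z
  have := discriminant_mul_discriminantEquiv_apply (toCuspForm (P' - c • G') h0) z
  simp only [Pi.add_apply, Pi.smul_apply, Pi.mul_apply, smul_eq_mul]
  rw [this]
  simp

/-- Forms with limit `1` at `i∞` exist in every even weight `≠ 2`, `≥ 0`. -/
theorem exists_unit_form (n : ℕ) : ∀ m : ℤ, m = 2 * n → m ≠ 2 →
    ∃ g ∈ mfSub 𝒮ℒ m, Tendsto g atImInfty (𝓝 1) := by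
  induction n using Nat.strong_induction_on with
  | _ n ih =>
    intro m hm hm2
    rcases Nat.lt_or_ge n 4 with hn | hn
    · interval_cases n
      · have : m = 0 := by omega
        subst this
        exact ⟨1, one_mem, tendsto_const_nhds⟩
      · omega
      · have : m = 4 := by omega
        subst this
        exact ⟨_, E₄_mem, tendsto_E₄_atImInfty⟩
      · have : m = 6 := by omega
        subst this
        exact ⟨_, E₆_mem, tendsto_E₆_atImInfty⟩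
    · obtain ⟨g, hg, hg1⟩ := ih (n - 2) (by omega) (m - 4) (by omega) (by omega)
      refine ⟨⇑E₄ * g, mfSub_cast (by ring) (mfSub_mul E₄_mem hg), ?_⟩
      have := tendsto_E₄_atImInfty.mul hg1
      rwa [one_mul] at this

/-- Ideal lemma: a level-one form of positive weight lies in `E₄ * M_{m-4} + E₆ * M_{m-6}`. -/
theorem ideal_lemma {m : ℤ} (hm : 0 < m) {P : ℍ → ℂ} (hP : P ∈ mfSub 𝒮ℒ m) :
    ∃ a ∈ mfSub 𝒮ℒ (m - 4), ∃ b ∈ mfSub 𝒮ℒ (m - 6), P = ⇑E₄ * a + ⇑E₆ * b := by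
  rcases Int.even_or_odd m with hev | hodd
  swap
  · obtain ⟨P', rfl⟩ := hP
    rw [levelOne_odd_weight_eq_zero hodd P']
    exact ⟨0, Submodule.zero_mem _, 0, Submodule.zero_mem _, by simp⟩
  obtain ⟨n, hn⟩ := hev
  have hn0 : 0 < n := by omega
  obtain ⟨n, rfl⟩ := Int.eq_ofNat_of_zero_le hn0.le
  have hm' : m = 2 * (n : ℤ) := by omega
  by_cases h2 : m = 2
  · subst h2
    obtain ⟨P', rfl⟩ := hP
    have := (rank_zero_iff_forall_zero.mp levelOne_weight_two_rank_zero) P'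
    rw [this]
    exact ⟨0, Submodule.zero_mem _, 0, Submodule.zero_mem _, by simp⟩
  -- a form `g` of weight `m` with limit one, of the shape `E₄ * g'` or `E₆ * g'`
  have key : ∃ g ∈ mfSub 𝒮ℒ m, Tendsto g atImInfty (𝓝 1) ∧
      ∃ a ∈ mfSub 𝒮ℒ (m - 4), ∃ b ∈ mfSub 𝒮ℒ (m - 6), g = ⇑E₄ * a + ⇑E₆ * b := by
    by_cases h6 : m = 6
    · subst h6
      refine ⟨_, E₆_mem, tendsto_E₆_atImInfty, 0, Submodule.zero_mem _, 1, one_mem, ?_⟩
      simp
    · obtain ⟨g', hg', hg1'⟩ := exists_unit_form (n - 2) (m - 4) (by omega) (by omega)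
      refine ⟨⇑E₄ * g', mfSub_cast (by ring) (mfSub_mul E₄_mem hg'), ?_, g', hg', 0,
        Submodule.zero_mem _, by simp⟩
      have := tendsto_E₄_atImInfty.mul hg1'
      rwa [one_mul] at this
  obtain ⟨g, hg, hg1, a, ha, b, hb, hgab⟩ := key
  obtain ⟨c, Q, hQ, hPQ⟩ := ideal_core hP hg hg1
  refine ⟨c • a + (1 / 1728 : ℂ) • ((⇑E₄ * ⇑E₄) * Q), ?_, c • b - (1 / 1728 : ℂ) • (⇑E₆ * Q), ?_, ?_⟩
  · refine Submodule.add_mem _ (Submodule.smul_mem _ _ ha) (Submodule.smul_mem _ _ ?_)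
    exact mfSub_cast (by ring) (mfSub_mul (mfSub_mul E₄_mem E₄_mem) hQ)
  · refine Submodule.sub_mem _ (Submodule.smul_mem _ _ hb) (Submodule.smul_mem _ _ ?_)
    exact mfSub_cast (by ring) (mfSub_mul E₆_mem hQ)
  · rw [hPQ, hgab]
    funext z
    have e := discriminant_eq_E₄_cube_sub_E₆_sq z
    simp only [Pi.add_apply, Pi.smul_apply, Pi.mul_apply, Pi.sub_apply, smul_eq_mul]
    rw [e]
    ring

/-- Regular-sequence lemma: if `E₄ * a = E₆ * b` for forms `a`, `b` on `𝒢` of weights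
`k - 4` and `k - 6`, then `a = E₆ * h`, `b = E₄ * h` for a form `h` of weight `k - 10`. -/
theorem regular_seq {𝒢 : Subgroup (GL (Fin 2) ℝ)} [𝒢.IsArithmetic] [𝒢.HasDetOne]
    (h𝒢 : 𝒢 ≤ 𝒮ℒ) {k : ℤ} {a b : ℍ → ℂ} (ha : a ∈ mfSub 𝒢 (k - 4))
    (hb : b ∈ mfSub 𝒢 (k - 6)) (hab : ⇑E₄ * a = ⇑E₆ * b) :
    ∃ h ∈ mfSub 𝒢 (k - 10), a = ⇑E₆ * h ∧ b = ⇑E₄ * h := by
  -- the numerator, a form of weight `k + 2`
  set num : ℍ → ℂ := (1 / 1728 : ℂ) • ((⇑E₄ * ⇑E₄) * b - ⇑E₆ * a) with hnum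
  have hnum_mem : num ∈ mfSub 𝒢 (k + 2) := by
    refine Submodule.smul_mem _ _ (Submodule.sub_mem _ ?_ ?_)
    · exact mfSub_mul' h𝒢 (by ring) (mfSub_mul E₄_mem E₄_mem) hb
    · exact mfSub_mul' h𝒢 (by ring) E₆_mem ha
  set h : ℍ → ℂ := num / ModularForm.discriminant with hh
  have hΔ : ∀ z, ModularForm.discriminant z ≠ 0 := discriminant_ne_zero
  have habz : ∀ z, E₄ z * a z = E₆ z * b z := fun z => congrFun hab z
  have h1 : ⇑E₆ * h = a := by
    funext z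
    have e := discriminant_eq_E₄_cube_sub_E₆_sq z
    have hd := hΔ z
    simp only [hh, hnum, Pi.mul_apply, Pi.div_apply, Pi.smul_apply, Pi.sub_apply, smul_eq_mul]
    rw [e] at hd ⊢
    have hd' : E₄ z ^ 3 - E₆ z ^ 2 ≠ 0 := by
      intro h0; apply hd; rw [h0]; simp
    field_simp
    linear_combination (- E₄ z ^ 2) * habz z
  have h2 : ⇑E₄ * h = b := by
    funext z
    have e := discriminant_eq_E₄_cube_sub_E₆_sq z
    have hd := hΔ z
    simp only [hh, hnum, Pi.mul_apply, Pi.div_apply, Pi.smul_apply, Pi.sub_apply, smul_eq_mul]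
    rw [e] at hd ⊢
    have hd' : E₄ z ^ 3 - E₆ z ^ 2 ≠ 0 := by
      intro h0; apply hd; rw [h0]; simp
    field_simp
    linear_combination (- E₆ z) * habz z
  refine ⟨h, ?_, h1.symm, h2.symm⟩
  refine mem_mfSub_of ?_ ?_ ?_
  · exact (mfSub_mdiff hnum_mem).div CuspForm.discriminant.holo' discriminant_ne_zero
  · intro γ hγ
    obtain ⟨γ', rfl⟩ := h𝒢 hγ
    have e1 : num ∣[k + 2] γ' = num := mfSub_slash hnum_mem hγ
    have e2 : ModularForm.discriminant ∣[(12 : ℤ)] γ' = ModularForm.discriminant :=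
      mfSub_slash discriminant_mem ⟨γ', rfl⟩
    have e3 := div_slash_SL2 (k + 2) 12 γ' num ModularForm.discriminant
    rw [e1, e2] at e3
    have hk : k + 2 - 12 = k - 10 := by ring
    rw [hk] at e3
    exact e3
  · intro γ
    have e1 : ⇑E₄ ∣[(4 : ℤ)] γ = ⇑E₄ := mfSub_slash E₄_mem ⟨γ, rfl⟩
    have e3 := mul_slash_SL2 4 (k - 10) γ ⇑E₄ h
    rw [h2, e1] at e3
    have hk : (4 : ℤ) + (k - 10) = k - 6 := by ring
    rw [hk] at e3
    -- `b ∣ γ = E₄ * (h ∣ γ)`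
    have hbdd : IsBoundedAtImInfty (b ∣[k - 6] γ) := mfSub_bdd hb γ
    have hev : ∀ᶠ τ in atImInfty, (1 / 2 : ℝ) ≤ ‖E₄ τ‖ := by
      have := tendsto_E₄_atImInfty.norm
      rw [norm_one] at this
      exact this.eventually (eventually_ge_nhds (by norm_num))
    have hO : (h ∣[k - 10] γ) =O[atImInfty] (b ∣[k - 6] γ) := by
      refine Asymptotics.IsBigO.of_bound 2 ?_
      filter_upwards [hev] with τ hτ
      have := congrFun e3 τ
      simp only [Pi.mul_apply] at this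
      rw [this, norm_mul]
      have hn := norm_nonneg ((h ∣[k - 10] γ) τ)
      nlinarith
    exact hO.trans hbdd


section Abstract

variable {J : Type} (wt : J → ℤ) (F : J → ℍ → ℂ)

noncomputable def evalA (P : J →₀ (ℍ → ℂ)) : ℍ → ℂ := P.sum fun j p => p * F j

def IsCoeff (k : ℤ) (P : J →₀ (ℍ → ℂ)) : Prop := ∀ j, P j ∈ mfSub 𝒮ℒ (k - wt j)

noncomputable def mulC (g : ℍ → ℂ) (P : J →₀ (ℍ → ℂ)) : J →₀ (ℍ → ℂ) :=
  P.mapRange (fun p => g * p) (mul_zero g)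

@[simp] theorem mulC_apply (g : ℍ → ℂ) (P : J →₀ (ℍ → ℂ)) (j : J) : mulC g P j = g * P j := by
  simp [mulC]

@[simp] theorem evalA_zero : evalA F 0 = 0 := by simp [evalA]

theorem evalA_add (P Q : J →₀ (ℍ → ℂ)) : evalA F (P + Q) = evalA F P + evalA F Q := by
  unfold evalA
  exact Finsupp.sum_add_index' (fun j => zero_mul _) (fun j a b => add_mul _ _ _)

theorem evalA_neg (P : J →₀ (ℍ → ℂ)) : evalA F (-P) = -evalA F P := by
  have h := evalA_add F P (-P)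
  rw [add_neg_cancel, evalA_zero] at h
  exact eq_neg_of_add_eq_zero_right h.symm

theorem evalA_sub (P Q : J →₀ (ℍ → ℂ)) : evalA F (P - Q) = evalA F P - evalA F Q := by
  rw [sub_eq_add_neg, evalA_add, evalA_neg, sub_eq_add_neg]

theorem evalA_mulC (g : ℍ → ℂ) (P : J →₀ (ℍ → ℂ)) : evalA F (mulC g P) = g * evalA F P := by
  unfold evalA mulC
  rw [Finsupp.sum_mapRange_index (fun j => zero_mul _), Finsupp.mul_sum]
  refine Finsupp.sum_congr fun j _ => ?_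
  rw [mul_assoc]

theorem evalA_single (j : J) (p : ℍ → ℂ) : evalA F (Finsupp.single j p) = p * F j := by
  unfold evalA
  rw [Finsupp.sum_single_index (zero_mul _)]

variable {wt}

theorem IsCoeff.zero (k : ℤ) : IsCoeff wt k (0 : J →₀ (ℍ → ℂ)) := fun _ => Submodule.zero_mem _

theorem IsCoeff.add {k : ℤ} {P Q : J →₀ (ℍ → ℂ)} (hP : IsCoeff wt k P) (hQ : IsCoeff wt k Q) :
    IsCoeff wt k (P + Q) := fun j => by
  rw [Finsupp.add_apply]; exact Submodule.add_mem _ (hP j) (hQ j)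

theorem IsCoeff.neg {k : ℤ} {P : J →₀ (ℍ → ℂ)} (hP : IsCoeff wt k P) :
    IsCoeff wt k (-P) := fun j => by
  rw [Finsupp.neg_apply]; exact Submodule.neg_mem _ (hP j)

theorem IsCoeff.sub {k : ℤ} {P Q : J →₀ (ℍ → ℂ)} (hP : IsCoeff wt k P) (hQ : IsCoeff wt k Q) :
    IsCoeff wt k (P - Q) := fun j => by
  rw [Finsupp.sub_apply]; exact Submodule.sub_mem _ (hP j) (hQ j)

theorem IsCoeff.mulC {k i k' : ℤ} {g : ℍ → ℂ} (hg : g ∈ mfSub 𝒮ℒ i) (hk : i + k = k')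
    {P : J →₀ (ℍ → ℂ)} (hP : IsCoeff wt k P) : IsCoeff wt k' (mulC g P) := fun j => by
  rw [mulC_apply]
  exact mfSub_cast (by rw [← hk]; ring) (mfSub_mul hg (hP j))

theorem IsCoeff.single {k : ℤ} {j : J} {p : ℍ → ℂ} (hp : p ∈ mfSub 𝒮ℒ (k - wt j)) :
    IsCoeff wt k (Finsupp.single j p) := fun j' => by
  classical
  rw [Finsupp.single_apply]
  split_ifs with h
  · subst h; exact hp
  · exact Submodule.zero_mem _

variable {F}

theorem evalA_mem {𝒢 : Subgroup (GL (Fin 2) ℝ)} [𝒢.IsArithmetic] [𝒢.HasDetOne]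
    (h𝒢 : 𝒢 ≤ 𝒮ℒ) (hF : ∀ j, F j ∈ mfSub 𝒢 (wt j)) {k : ℤ} {P : J →₀ (ℍ → ℂ)}
    (hP : IsCoeff wt k P) : evalA F P ∈ mfSub 𝒢 k := by
  unfold evalA
  refine Submodule.sum_mem _ fun j _ => ?_
  exact mfSub_mul' h𝒢 (by ring) (hP j) (hF j)

variable (wt F)

/-- The span of the `F j` over the graded ring of level-one forms, in weight `k`. -/
def spanA (k : ℤ) : Submodule ℂ (ℍ → ℂ) where
  carrier := {f | ∃ P : J →₀ (ℍ → ℂ), IsCoeff wt k P ∧ evalA F P = f}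
  add_mem' := by
    rintro _ _ ⟨P, hP, rfl⟩ ⟨Q, hQ, rfl⟩
    exact ⟨P + Q, hP.add hQ, evalA_add F P Q⟩
  zero_mem' := ⟨0, IsCoeff.zero k, evalA_zero F⟩
  smul_mem' := by
    rintro c _ ⟨P, hP, rfl⟩
    refine ⟨mulC (fun _ => c) P, hP.mulC (const_mem c) (by ring), ?_⟩
    rw [evalA_mulC]
    rfl

variable {wt F}

theorem mem_spanA {k : ℤ} {f : ℍ → ℂ} :
    f ∈ spanA wt F k ↔ ∃ P : J →₀ (ℍ → ℂ), IsCoeff wt k P ∧ evalA F P = f := Iff.rfl

theorem mul_mem_spanA {i k k' : ℤ} {g f : ℍ → ℂ} (hg : g ∈ mfSub 𝒮ℒ i) (hk : i + k = k')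
    (hf : f ∈ spanA wt F k) : g * f ∈ spanA wt F k' := by
  obtain ⟨P, hP, rfl⟩ := hf
  exact ⟨mulC g P, hP.mulC hg hk, evalA_mulC F g P⟩

theorem gen_mem_spanA {k : ℤ} {j : J} (hj : wt j = k) : F j ∈ spanA wt F k := by
  refine ⟨Finsupp.single j 1, IsCoeff.single (mfSub_cast (by rw [hj]; ring) one_mem), ?_⟩
  rw [evalA_single, one_mul]

/-- The "ideal part" in weight `k`: `E₄ * M_{k-4}(𝒢) + E₆ * M_{k-6}(𝒢)`. -/
def idealSub (𝒢 : Subgroup (GL (Fin 2) ℝ)) [𝒢.HasDetOne] (k : ℤ) : Submodule ℂ (ℍ → ℂ) where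
  carrier := {f | ∃ a ∈ mfSub 𝒢 (k - 4), ∃ b ∈ mfSub 𝒢 (k - 6), f = ⇑E₄ * a + ⇑E₆ * b}
  add_mem' := by
    rintro _ _ ⟨a, ha, b, hb, rfl⟩ ⟨a', ha', b', hb', rfl⟩
    exact ⟨a + a', Submodule.add_mem _ ha ha', b + b', Submodule.add_mem _ hb hb', by ring⟩
  zero_mem' := ⟨0, Submodule.zero_mem _, 0, Submodule.zero_mem _, by simp⟩
  smul_mem' := by
    rintro c _ ⟨a, ha, b, hb, rfl⟩
    refine ⟨c • a, Submodule.smul_mem _ _ ha, c • b, Submodule.smul_mem _ _ hb, ?_⟩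
    rw [smul_add, mul_smul_comm, mul_smul_comm]

theorem mem_idealSub {𝒢 : Subgroup (GL (Fin 2) ℝ)} [𝒢.HasDetOne] {k : ℤ} {f : ℍ → ℂ} :
    f ∈ idealSub 𝒢 k ↔
      ∃ a ∈ mfSub 𝒢 (k - 4), ∃ b ∈ mfSub 𝒢 (k - 6), f = ⇑E₄ * a + ⇑E₆ * b := Iff.rfl

theorem idealSub_le {𝒢 : Subgroup (GL (Fin 2) ℝ)} [𝒢.IsArithmetic] [𝒢.HasDetOne]
    (h𝒢 : 𝒢 ≤ 𝒮ℒ) (k : ℤ) : idealSub 𝒢 k ≤ mfSub 𝒢 k := by
  rintro _ ⟨a, ha, b, hb, rfl⟩
  exact Submodule.add_mem _ (mfSub_mul' h𝒢 (by ring) E₄_mem ha) (mfSub_mul' h𝒢 (by ring) E₆_mem hb)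

/-- Generation: if the `F j` of weight `k` span `M_k(𝒢)` modulo the ideal part for every `k`,
then the `F j` generate `M_*(𝒢)` over the level-one forms. -/
theorem generation {𝒢 : Subgroup (GL (Fin 2) ℝ)} [𝒢.IsArithmetic] [𝒢.HasDetOne]
    (hgen : ∀ k, mfSub 𝒢 k ≤ idealSub 𝒢 k ⊔ Submodule.span ℂ (F '' {j | wt j = k})) :
    ∀ k, mfSub 𝒢 k ≤ spanA wt F k := by
  have key : ∀ n : ℕ, ∀ k : ℤ, k < n → mfSub 𝒢 k ≤ spanA wt F k := by
    intro n
    induction n with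
    | zero =>
      intro k hk
      rw [mfSub_eq_bot_of_neg (by simpa using hk)]
      exact bot_le
    | succ n ih =>
      intro k hk
      refine (hgen k).trans (sup_le ?_ ?_)
      · rintro _ ⟨a, ha, b, hb, rfl⟩
        have ha' := ih (k - 4) (by push_cast at hk; omega) ha
        have hb' := ih (k - 6) (by push_cast at hk; omega) hb
        exact Submodule.add_mem _ (mul_mem_spanA E₄_mem (by ring) ha')
          (mul_mem_spanA E₆_mem (by ring) hb')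
      · rw [Submodule.span_le]
        rintro _ ⟨j, hj, rfl⟩
        exact gen_mem_spanA hj
  intro k
  exact key (k.toNat + 1) k (by push_cast; omega)


theorem levelOne_weight_zero_eq_const {p : ℍ → ℂ} (hp : p ∈ mfSub 𝒮ℒ 0) (z : ℍ) :
    p = fun _ => p z := by
  obtain ⟨P', rfl⟩ := hp
  obtain ⟨c, hc⟩ := ModularFormClass.levelOne_weight_zero_const P'
  rw [hc]
  rfl

theorem exists_decomp (P : J →₀ (ℍ → ℂ)) (X Y : J → Submodule ℂ (ℍ → ℂ))
    (h : ∀ j, ∃ a ∈ X j, ∃ b ∈ Y j, P j = ⇑E₄ * a + ⇑E₆ * b) :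
    ∃ A B : J →₀ (ℍ → ℂ), (∀ j, A j ∈ X j) ∧ (∀ j, B j ∈ Y j) ∧
      P = mulC ⇑E₄ A + mulC ⇑E₆ B := by
  classical
  choose a ha b hb hab using h
  refine ⟨Finsupp.onFinset P.support (fun j => if P j = 0 then 0 else a j) ?_,
    Finsupp.onFinset P.support (fun j => if P j = 0 then 0 else b j) ?_, ?_, ?_, ?_⟩
  · intro j hj
    rw [Finsupp.mem_support_iff]
    intro h0
    simp [h0] at hj
  · intro j hj
    rw [Finsupp.mem_support_iff]
    intro h0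
    simp [h0] at hj
  · intro j
    rw [Finsupp.onFinset_apply]
    split_ifs
    · exact Submodule.zero_mem _
    · exact ha j
  · intro j
    rw [Finsupp.onFinset_apply]
    split_ifs
    · exact Submodule.zero_mem _
    · exact hb j
  · ext1 j
    rw [Finsupp.add_apply, mulC_apply, mulC_apply, Finsupp.onFinset_apply, Finsupp.onFinset_apply]
    split_ifs with h0
    · simp [h0]
    · exact hab j

/-- Uniqueness of expansions (freeness). -/
theorem uniqueness {𝒢 : Subgroup (GL (Fin 2) ℝ)} [𝒢.IsArithmetic] [𝒢.HasDetOne]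
    (h𝒢 : 𝒢 ≤ 𝒮ℒ) (hF : ∀ j, F j ∈ mfSub 𝒢 (wt j)) (hwt : ∀ j, 0 ≤ wt j)
    (hgen : ∀ k, mfSub 𝒢 k ≤ spanA wt F k)
    (hind : ∀ k, ∀ c : J →₀ ℂ, (∀ j ∈ c.support, wt j = k) →
      (c.sum fun j x => x • F j) ∈ idealSub 𝒢 k → c = 0) :
    ∀ k, ∀ P : J →₀ (ℍ → ℂ), IsCoeff wt k P → evalA F P = 0 → P = 0 := by
  classical
  have key : ∀ n : ℕ, ∀ k : ℤ, k < n → ∀ P : J →₀ (ℍ → ℂ), IsCoeff wt k P →
      evalA F P = 0 → P = 0 := by
    intro n
    induction n with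
    | zero =>
      intro k hk P hP _
      ext1 j
      have := hP j
      rw [mfSub_eq_bot_of_neg (by have := hwt j; push_cast at hk; omega)] at this
      simpa using this
    | succ n ih =>
      intro k hk P hP hP0
      set P₀ := P.filter (fun j => wt j = k) with hP₀def
      set P₁ := P.filter (fun j => ¬ wt j = k) with hP₁def
      have hsplit : P₀ + P₁ = P := Finsupp.filter_add_filter_not P _
      have h1 : ∀ j, ∃ a ∈ mfSub 𝒮ℒ (k - 4 - wt j), ∃ b ∈ mfSub 𝒮ℒ (k - 6 - wt j),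
          P₁ j = ⇑E₄ * a + ⇑E₆ * b := by
        intro j
        by_cases hj : wt j = k
        · refine ⟨0, Submodule.zero_mem _, 0, Submodule.zero_mem _, ?_⟩
          rw [hP₁def, Finsupp.filter_apply_neg (fun j => ¬ wt j = k) P (not_not.mpr hj)]
          simp
        · have e : P₁ j = P j := Finsupp.filter_apply_pos _ _ hj
          rw [e]
          rcases lt_or_gt_of_ne hj with hlt | hgt
          · obtain ⟨a, ha, b, hb, hab⟩ := ideal_lemma (m := k - wt j) (by omega) (hP j)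
            exact ⟨a, mfSub_cast (by ring) ha, b, mfSub_cast (by ring) hb, hab⟩
          · refine ⟨0, Submodule.zero_mem _, 0, Submodule.zero_mem _, ?_⟩
            have := hP j
            rw [mfSub_eq_bot_of_neg (by omega)] at this
            rw [(Submodule.mem_bot ℂ).mp this]
            simp
      obtain ⟨A, B, hA, hB, hAB⟩ := exists_decomp P₁ _ _ h1
      have hA' : IsCoeff wt (k - 4) A := hA
      have hB' : IsCoeff wt (k - 6) B := hB
      have hα : evalA F A ∈ mfSub 𝒢 (k - 4) := evalA_mem h𝒢 hF hA'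
      have hβ : evalA F B ∈ mfSub 𝒢 (k - 6) := evalA_mem h𝒢 hF hB'
      -- the constants
      set c : J →₀ ℂ := P₀.mapRange (fun p => p UpperHalfPlane.I) rfl with hcdef
      have hc_supp : ∀ j ∈ c.support, wt j = k := by
        intro j hj
        by_contra hne
        have h0 : P₀ j = 0 := Finsupp.filter_apply_neg _ _ hne
        rw [Finsupp.mem_support_iff] at hj
        apply hj
        simp [hcdef, h0]
      have hP₀c : ∀ j, P₀ j = fun _ => c j := by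
        intro j
        by_cases hj : wt j = k
        · have e : P₀ j = P j := Finsupp.filter_apply_pos _ _ hj
          have hmem : P₀ j ∈ mfSub 𝒮ℒ 0 := by
            rw [e]; exact mfSub_cast (by rw [hj]; ring) (hP j)
          have := levelOne_weight_zero_eq_const hmem UpperHalfPlane.I
          rw [this]
          funext z
          simp [hcdef]
        · have h0 : P₀ j = 0 := Finsupp.filter_apply_neg _ _ hj
          funext z
          simp [hcdef, h0]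
      have hev0 : evalA F P₀ = c.sum fun j x => x • F j := by
        unfold evalA
        have e1 : c.sum (fun j x => x • F j) = P₀.sum (fun j p => p UpperHalfPlane.I • F j) :=
          Finsupp.sum_mapRange_index (h := fun j (x : ℂ) => x • F j) (fun j => zero_smul ℂ (F j))
        rw [e1]
        refine Finsupp.sum_congr fun j _ => ?_
        have e2 : P₀ j UpperHalfPlane.I = c j := by simp [hcdef]
        rw [e2]
        conv_lhs => rw [hP₀c j]
        funext z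
        simp
      have htot : evalA F P₀ + (⇑E₄ * evalA F A + ⇑E₆ * evalA F B) = 0 := by
        rw [← hsplit, evalA_add, hAB, evalA_add, evalA_mulC, evalA_mulC] at hP0
        exact hP0
      have hc0 : c = 0 := by
        refine hind k c hc_supp ?_
        rw [← hev0, eq_neg_of_add_eq_zero_left htot]
        exact Submodule.neg_mem _ ⟨_, hα, _, hβ, rfl⟩
      have hP₀ : P₀ = 0 := by
        ext1 j
        rw [hP₀c j, hc0]
        rfl
      have hab : ⇑E₄ * evalA F A = ⇑E₆ * (-evalA F B) := by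
        rw [hP₀, evalA_zero, zero_add] at htot
        linear_combination htot
      obtain ⟨h, hh, h1', h2'⟩ := regular_seq h𝒢 hα (Submodule.neg_mem _ hβ) hab
      obtain ⟨H, hH, rfl⟩ := hgen (k - 10) hh
      have hA0 : A - mulC ⇑E₆ H = 0 := by
        refine ih (k - 4) (by push_cast at hk; omega) _
          (hA'.sub (hH.mulC E₆_mem (by ring))) ?_
        rw [evalA_sub, evalA_mulC]
        exact sub_eq_zero.mpr h1'
      have hB0 : B + mulC ⇑E₄ H = 0 := by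
        refine ih (k - 6) (by push_cast at hk; omega) _
          (hB'.add (hH.mulC E₄_mem (by ring))) ?_
        rw [evalA_add, evalA_mulC, ← h2']
        simp
      have hP₁ : P₁ = 0 := by
        rw [hAB]
        ext1 j
        have eA : A j = ⇑E₆ * H j := by
          have := congrArg (fun Q : J →₀ (ℍ → ℂ) => Q j) hA0
          simp only [Finsupp.sub_apply, mulC_apply, Finsupp.zero_apply] at this
          exact sub_eq_zero.mp this
        have eB : B j = -(⇑E₄ * H j) := by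
          have := congrArg (fun Q : J →₀ (ℍ → ℂ) => Q j) hB0
          simp only [Finsupp.add_apply, mulC_apply, Finsupp.zero_apply] at this
          exact eq_neg_of_add_eq_zero_left this
        rw [Finsupp.add_apply, mulC_apply, mulC_apply, eA, eB, Finsupp.zero_apply]
        ring
      rw [← hsplit, hP₀, hP₁, add_zero]
  intro k
  exact key (k.toNat + 1) k (by push_cast; omega)

end Abstract


section Construct

variable (𝒢 : Subgroup (GL (Fin 2) ℝ)) [𝒢.IsArithmetic] [𝒢.HasDetOne]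

theorem exists_compl (h𝒢 : 𝒢 ≤ 𝒮ℒ) (k : ℤ) : ∃ C : Submodule ℂ (ℍ → ℂ),
    C ≤ mfSub 𝒢 k ∧ idealSub 𝒢 k ⊓ C = ⊥ ∧ idealSub 𝒢 k ⊔ C = mfSub 𝒢 k := by
  obtain ⟨C', hC'⟩ := Submodule.exists_isCompl (idealSub 𝒢 k)
  refine ⟨C' ⊓ mfSub 𝒢 k, inf_le_right, ?_, ?_⟩
  · rw [← inf_assoc, hC'.inf_eq_bot, bot_inf_eq]
  · rw [← sup_inf_assoc_of_le _ (idealSub_le h𝒢 k), hC'.sup_eq_top, top_inf_eq]

/-- **Freeness** of `⨁ₖ Mₖ(𝒢)` over the graded ring of level-one forms: there is a family of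
homogeneous generators `F j` (of weights `wt j ≥ 0`) such that every form of weight `k` is
`∑ⱼ Pⱼ * Fⱼ` with `Pⱼ` level-one forms of weight `k - wt j`, and such expansions are unique. -/
theorem exists_free_basis (h𝒢 : 𝒢 ≤ 𝒮ℒ) :
    ∃ (J : Type) (wt : J → ℤ) (F : J → ℍ → ℂ),
      (∀ j, F j ∈ mfSub 𝒢 (wt j)) ∧ (∀ j, 0 ≤ wt j) ∧
      (∀ k, mfSub 𝒢 k ≤ spanA wt F k) ∧
      (∀ k, ∀ P : J →₀ (ℍ → ℂ), IsCoeff wt k P → evalA F P = 0 → P = 0) := by
  classical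
  choose C hC1 hC2 hC3 using exists_compl 𝒢 h𝒢
  let ι : ℤ → Type := fun k => ↥(Module.Basis.ofVectorSpaceIndex ℂ ↥(C k))
  let b : ∀ k, Module.Basis (ι k) ℂ ↥(C k) := fun k => Module.Basis.ofVectorSpace ℂ ↥(C k)
  let J : Type := Σ k, ι k
  let wt : J → ℤ := Sigma.fst
  let F : J → ℍ → ℂ := fun j => ((b j.1 j.2 : ↥(C j.1)) : ℍ → ℂ)
  have hFC : ∀ j : J, F j ∈ C (wt j) := fun j => (b j.1 j.2).2
  have hFmem : ∀ j : J, F j ∈ mfSub 𝒢 (wt j) := fun j => hC1 _ (hFC j)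
  have hwt : ∀ j : J, 0 ≤ wt j := by
    rintro ⟨k, i⟩
    by_contra hneg
    have hbot : mfSub 𝒢 k = ⊥ := mfSub_eq_bot_of_neg (not_le.mp hneg)
    have h0 : ((b k i : ↥(C k)) : ℍ → ℂ) = 0 := by
      have := hC1 k (b k i).2
      rw [hbot] at this
      exact (Submodule.mem_bot ℂ).mp this
    exact (b k).ne_zero i (Subtype.ext h0)
  have hgen : ∀ k, mfSub 𝒢 k ≤ idealSub 𝒢 k ⊔ Submodule.span ℂ (F '' {j | wt j = k}) := by
    intro k
    rw [← hC3 k]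
    refine sup_le_sup_left ?_ _
    intro x hx
    have hx' : (⟨x, hx⟩ : ↥(C k)) ∈ Submodule.span ℂ (Set.range (b k)) := by
      rw [(b k).span_eq]; exact Submodule.mem_top
    have := Submodule.mem_map_of_mem (f := (C k).subtype) hx'
    rw [Submodule.map_span] at this
    refine Submodule.span_mono ?_ this
    rintro _ ⟨_, ⟨i, rfl⟩, rfl⟩
    exact ⟨⟨k, i⟩, rfl, rfl⟩
  have hind : ∀ k, ∀ c : J →₀ ℂ, (∀ j ∈ c.support, wt j = k) →
      (c.sum fun j x => x • F j) ∈ idealSub 𝒢 k → c = 0 := by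
    intro k c hsupp hmem
    have hC : (c.sum fun j x => x • F j) ∈ C k := by
      refine Submodule.sum_mem _ fun j hj => Submodule.smul_mem _ _ ?_
      have := hsupp j hj
      rw [← this]
      exact hFC j
    have h0 : (c.sum fun j x => x • F j) = 0 := by
      have : (c.sum fun j x => x • F j) ∈ idealSub 𝒢 k ⊓ C k := ⟨hmem, hC⟩
      rw [hC2 k] at this
      exact (Submodule.mem_bot ℂ).mp this
    have hli : LinearIndependent ℂ (fun i : ι k => ((b k i : ↥(C k)) : ℍ → ℂ)) :=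
      (b k).linearIndependent.map' (C k).subtype (Submodule.ker_subtype _)
    have hsplit0 : ∀ k', k' ≠ k → c.split k' = 0 := by
      intro k' hk'
      ext i
      rw [Finsupp.split_apply]
      by_contra hne
      exact hk' (hsupp ⟨k', i⟩ (Finsupp.mem_support_iff.mpr hne))
    have hsum : (c.sum fun j x => x • F j) = (c.split k).sum fun i x => x • F ⟨k, i⟩ := by
      rw [Finsupp.sigma_sum]
      by_cases hk : k ∈ c.splitSupport
      · refine Finset.sum_eq_single_of_mem k hk ?_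
        intro k' _ hk'
        rw [hsplit0 k' hk']
        simp
      · have hk0 : c.split k = 0 := by
          by_contra hne
          exact hk ((Finsupp.mem_splitSupport_iff_nonzero c k).mpr hne)
        rw [hk0]
        simp only [Finsupp.sum_zero_index]
        refine Finset.sum_eq_zero ?_
        intro k' hk'
        have : k' ≠ k := fun h => hk (h ▸ hk')
        rw [hsplit0 k' this]
        simp
    have hk0 : c.split k = 0 := by
      refine linearIndependent_iff.mp hli (c.split k) ?_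
      rw [Finsupp.linearCombination_apply, ← h0, hsum]
    ext ⟨k', i⟩
    by_cases hk' : k' = k
    · subst hk'
      rw [← Finsupp.split_apply, hk0]
      rfl
    · have := congrArg (fun f => f i) (hsplit0 k' hk')
      simpa [Finsupp.split_apply] using this
  exact ⟨J, wt, F, hFmem, hwt, generation hgen,
    uniqueness h𝒢 hFmem hwt (generation hgen) hind⟩

end Construct


section Final

variable (𝒢 : Subgroup (GL (Fin 2) ℝ)) [𝒢.IsArithmetic] [𝒢.HasDetOne]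

/-- Unfolded form of `exists_free_basis`. -/
theorem exists_free_basis' (h𝒢 : 𝒢 ≤ 𝒮ℒ) :
    ∃ (J : Type) (wt : J → ℤ) (F : J → ℍ → ℂ),
      (∀ j, F j ∈ mfSub 𝒢 (wt j)) ∧ (∀ j, 0 ≤ wt j) ∧
      (∀ k, ∀ f ∈ mfSub 𝒢 k, ∃ P : J →₀ (ℍ → ℂ),
        (∀ j, P j ∈ mfSub 𝒮ℒ (k - wt j)) ∧ f = P.sum fun j p => p * F j) ∧
      (∀ k, ∀ P : J →₀ (ℍ → ℂ), (∀ j, P j ∈ mfSub 𝒮ℒ (k - wt j)) →
        (P.sum fun j p => p * F j) = 0 → P = 0) := by
  obtain ⟨J, wt, F, h1, h2, h3, h4⟩ := exists_free_basis 𝒢 h𝒢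
  refine ⟨J, wt, F, h1, h2, fun k f hf => ?_, h4⟩
  obtain ⟨P, hP, rfl⟩ := h3 k hf
  exact ⟨P, hP, rfl⟩

/-- The image in `GL(2, ℝ)` of a subgroup of `SL(2, ℤ)` is contained in `𝒮ℒ`. -/
theorem map_le_SL (Γ : Subgroup SL(2, ℤ)) :
    (Γ.map (Matrix.SpecialLinearGroup.mapGL ℝ)) ≤ 𝒮ℒ := by
  rintro _ ⟨γ, _, rfl⟩
  exact ⟨γ, rfl⟩

end Final

end Fermat.Agent.S20.helper1161
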