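import Mathlib
import Fermat.Prelude.Thm_UpperHalfPlane_qExpansion_coeff_nat_mul

set_option autoImplicit false

open UpperHalfPlane ModularForm MatrixGroups CongruenceSubgroup Matrix.SpecialLinearGroup Function
open Filter Asymptotics
open scoped ModularForm Real Manifold

namespace Fermat.Agent.S20.helper1220

noncomputable section

variable {N : ℕ} {k : ℤ} {Γ : Subgroup SL(2, ℤ)} {F : Type*} [FunLike F ℍ ℂ]

/-- `γ T^N γ⁻¹ ∈ Γ` whenever `Γ(N) ≤ Γ`. -/
lemma conj_T_pow_mem (hΓ : Gamma N ≤ Γ) (γ : SL(2, ℤ)) :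
    γ * ModularGroup.T ^ (N : ℤ) * γ⁻¹ ∈ Γ := by
  apply hΓ
  have h1 : ModularGroup.T ^ (N : ℤ) ∈ Gamma N := by
    simpa using ModularGroup_T_pow_mem_Gamma (N : ℤ) (N : ℤ) dvd_rfl
  exact (Gamma_normal N).conj_mem _ h1 γ

/-- The slash action of `T^m` is translation by `m`. -/
lemma slash_T_zpow_apply (f : ℍ → ℂ) (m : ℤ) (z : ℍ) :
    (f ∣[k] (ModularGroup.T ^ m)) z = f ((m : ℝ) +ᵥ z) := by
  rw [SL_slash_apply, modular_T_zpow_smul]
  have h2 : denom (ModularGroup.T ^ m : SL(2, ℤ)) z = 1 := by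
    rw [ModularGroup.denom_apply]
    simp [ModularGroup.coe_T_zpow]
  rw [h2]
  simp

/-- Slash invariance under elements of `Γ ≤ SL(2,ℤ)`. -/
lemma slash_eq_of_mem [SlashInvariantFormClass F Γ k] (f : F) {g : SL(2, ℤ)} (hg : g ∈ Γ) :
    (⇑f ∣[k] g) = ⇑f := by
  rw [SL_slash]
  exact SlashInvariantForm.slash_action_eqn f _ (Subgroup.mem_map_of_mem _ hg)

/-- (K1a) Every `SL(2,ℤ)`-translate of a `Γ`-invariant form is invariant under `z ↦ z + N`
when `Γ(N) ≤ Γ`. -/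
lemma slash_vadd_natCast [SlashInvariantFormClass F Γ k] (hΓ : Gamma N ≤ Γ) (f : F)
    (γ : SL(2, ℤ)) (z : ℍ) :
    (⇑f ∣[k] γ) ((N : ℝ) +ᵥ z) = (⇑f ∣[k] γ) z := by
  have h1 := slash_T_zpow_apply (k := k) (⇑f ∣[k] γ) (N : ℤ) z
  have h2 : (⇑f ∣[k] γ) ∣[k] (ModularGroup.T ^ (N : ℤ)) = ⇑f ∣[k] γ := by
    rw [← SlashAction.slash_mul]
    have : γ * ModularGroup.T ^ (N : ℤ) = (γ * ModularGroup.T ^ (N : ℤ) * γ⁻¹) * γ := by group
    rw [this, SlashAction.slash_mul, slash_eq_of_mem f (conj_T_pow_mem hΓ γ)]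
  rw [h2] at h1
  simpa using h1.symm

/-- (K1b) Periodicity (in the form used by Mathlib's `q`-expansion API) of translates. -/
lemma periodic_slash [SlashInvariantFormClass F Γ k] (hΓ : Gamma N ≤ Γ) (f : F)
    (γ : SL(2, ℤ)) : Periodic ((⇑f ∣[k] γ) ∘ ofComplex) ((N : ℝ) : ℂ) := by
  intro w
  by_cases! hw : 0 < Complex.im w
  · have : 0 < Complex.im (w + ((N : ℝ) : ℂ)) := by simp [hw]
    simp only [comp_apply, ofComplex_apply_of_im_pos this, ofComplex_apply_of_im_pos hw]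
    convert slash_vadd_natCast hΓ f γ ⟨w, hw⟩ using 2
    ext
    simp [add_comm]
  · have : Complex.im (w + ((N : ℝ) : ℂ)) ≤ 0 := by simpa using hw
    simp only [comp_apply]
    rw [ofComplex_apply_of_im_nonpos this, ofComplex_apply_of_im_nonpos hw]

/-- Translates of modular forms are holomorphic. -/
lemma mdiff_slash [ModularFormClass F Γ k] (f : F) (γ : SL(2, ℤ)) :
    MDiff (⇑f ∣[k] γ) := by
  rw [SL_slash]
  exact (ModularFormClass.holo f).slash k _

/-- Translates of modular forms are bounded at `i∞`. -/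
lemma bdd_slash [Γ.FiniteIndex] [ModularFormClass F Γ k] (f : F) (γ : SL(2, ℤ)) :
    IsBoundedAtImInfty (⇑f ∣[k] γ) :=
  ModularFormClass.bdd_at_infty_slash f γ

/-- Translates of cusp forms vanish at `i∞`. -/
lemma zero_slash [Γ.FiniteIndex] [CuspFormClass F Γ k] (f : F) (γ : SL(2, ℤ)) :
    IsZeroAtImInfty (⇑f ∣[k] γ) :=
  CuspFormClass.zero_at_infty_slash f γ

/-- The `n`-th coefficient of the `q_N`-expansion of the translate `f ∣[k] γ`. -/
def cuspCoeff (N : ℕ) (k : ℤ) (f : ℍ → ℂ) (γ : SL(2, ℤ)) (n : ℕ) : ℂ :=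
  (qExpansion (N : ℝ) (f ∣[k] γ)).coeff n

/-- (K1c) The `q_N`-expansion of every translate converges to it. -/
lemma hasSum_cuspCoeff [NeZero N] [Γ.FiniteIndex] [ModularFormClass F Γ k] (hΓ : Gamma N ≤ Γ)
    (f : F) (γ : SL(2, ℤ)) (z : ℍ) :
    HasSum (fun n : ℕ ↦ cuspCoeff N k f γ n * Periodic.qParam (N : ℝ) z ^ n) ((⇑f ∣[k] γ) z) := by
  have hN : (0 : ℝ) < N := by exact_mod_cast Nat.pos_of_ne_zero (NeZero.ne N)
  simpa [cuspCoeff] using
    hasSum_qExpansion hN (periodic_slash hΓ f γ) (mdiff_slash f γ) (bdd_slash f γ) z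

/-- The cusp function of every translate is analytic at `0`. -/
lemma analyticAt_cuspFunction_slash [NeZero N] [Γ.FiniteIndex] [ModularFormClass F Γ k]
    (hΓ : Gamma N ≤ Γ) (f : F) (γ : SL(2, ℤ)) :
    AnalyticAt ℂ (cuspFunction (N : ℝ) (⇑f ∣[k] γ)) 0 := by
  have hN : (0 : ℝ) < N := by exact_mod_cast Nat.pos_of_ne_zero (NeZero.ne N)
  exact analyticAt_cuspFunction_zero hN (periodic_slash hΓ f γ) (mdiff_slash f γ) (bdd_slash f γ)

/-- Uniqueness of the `q_N`-expansion of a translate. -/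
lemma cuspCoeff_unique [NeZero N] [Γ.FiniteIndex] [ModularFormClass F Γ k] (hΓ : Gamma N ≤ Γ)
    (f : F) (γ : SL(2, ℤ)) {c : ℕ → ℂ}
    (hc : ∀ z : ℍ, HasSum (fun n : ℕ ↦ c n * Periodic.qParam (N : ℝ) z ^ n) ((⇑f ∣[k] γ) z))
    (n : ℕ) : c n = cuspCoeff N k f γ n := by
  have hN : (0 : ℝ) < N := by exact_mod_cast Nat.pos_of_ne_zero (NeZero.ne N)
  have h := qExpansion_coeff_unique (ModularForm.translate f (γ : GL (Fin 2) ℝ)) (c := c) hN
    (analyticAt_cuspFunction_slash hΓ f γ) (fun z ↦ by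
      have h0 := hc z
      simp only [smul_eq_mul]
      exact h0) n
  exact h

/-- `q_N (z + 1) = ζ_N * q_N z`. -/
lemma qParam_one_vadd [NeZero N] (z : ℍ) :
    Periodic.qParam (N : ℝ) (((1 : ℝ) +ᵥ z : ℍ) : ℂ) =
      Complex.exp (2 * π * Complex.I / N) * Periodic.qParam (N : ℝ) z := by
  have hN : (N : ℂ) ≠ 0 := by exact_mod_cast NeZero.ne N
  rw [Periodic.qParam, Periodic.qParam, ← Complex.exp_add]
  congr 1
  simp only [coe_vadd, Complex.ofReal_one, Complex.ofReal_natCast]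
  field_simp

/-- (K2) **T-twist**: the `q_N`-coefficients of `f ∣ (γ T)` are those of `f ∣ γ` twisted by
powers of `ζ_N = exp (2πi/N)`. -/
lemma cuspCoeff_mul_T [NeZero N] [Γ.FiniteIndex] [ModularFormClass F Γ k] (hΓ : Gamma N ≤ Γ)
    (f : F) (γ : SL(2, ℤ)) (n : ℕ) :
    cuspCoeff N k f (γ * ModularGroup.T) n =
      Complex.exp (2 * π * Complex.I / N) ^ n * cuspCoeff N k f γ n := by
  symm
  refine cuspCoeff_unique hΓ f (γ * ModularGroup.T)
    (c := fun n ↦ Complex.exp (2 * π * Complex.I / N) ^ n * cuspCoeff N k f γ n) (fun z ↦ ?_) n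
  have h1 : (⇑f ∣[k] (γ * ModularGroup.T)) z = (⇑f ∣[k] γ) ((1 : ℝ) +ᵥ z) := by
    rw [SlashAction.slash_mul]
    simpa using slash_T_zpow_apply (k := k) (⇑f ∣[k] γ) 1 z
  rw [h1]
  convert hasSum_cuspCoeff hΓ f γ ((1 : ℝ) +ᵥ z) using 2 with m
  rw [qParam_one_vadd, mul_pow]
  ring

/-- If the first `m` `q_N`-coefficients of `f ∣ γ` vanish then `f ∣ γ = O(|q_N|^m)` at `i∞`. -/
lemma isBigO_slash_of_cuspCoeff_eq_zero [NeZero N] [Γ.FiniteIndex] [ModularFormClass F Γ k]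
    (hΓ : Gamma N ≤ Γ) (f : F) (γ : SL(2, ℤ)) (m : ℕ)
    (h : ∀ n < m, cuspCoeff N k f γ n = 0) :
    (⇑f ∣[k] γ) =O[atImInfty] fun z : ℍ ↦ ‖Periodic.qParam (N : ℝ) z‖ ^ m := by
  have hN : (0 : ℝ) < N := by exact_mod_cast Nat.pos_of_ne_zero (NeZero.ne N)
  set g := ModularForm.translate f (γ : GL (Fin 2) ℝ) with hg
  have hps : HasFPowerSeriesAt (cuspFunction (N : ℝ) (⇑f ∣[k] γ))
      (qExpansionFormalMultilinearSeries (N : ℝ) g) 0 :=
    (hasFPowerSeries_cuspFunction g hN (analyticAt_cuspFunction_slash hΓ f γ)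
      (c := cuspCoeff N k f γ) (fun z ↦ by
        have h0 := hasSum_cuspCoeff hΓ f γ z
        simp only [smul_eq_mul]
        exact h0)).hasFPowerSeriesAt
  have hO := hps.isBigO_sub_partialSum_pow m
  have hpart : ∀ y : ℂ, (qExpansionFormalMultilinearSeries (N : ℝ) g).partialSum m y = 0 := by
    intro y
    rw [FormalMultilinearSeries.partialSum]
    refine Finset.sum_eq_zero fun i hi ↦ ?_
    rw [qExpansionFormalMultilinearSeries, FormalMultilinearSeries.ofScalars_apply_eq]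
    have := h i (Finset.mem_range.mp hi)
    rw [cuspCoeff] at this
    change (PowerSeries.coeff i) (qExpansion (N : ℝ) (⇑f ∣[k] γ)) • y ^ i = 0
    rw [this, zero_smul]
  simp only [hpart, sub_zero, zero_add] at hO
  have hO' := hO.comp_tendsto (qParam_tendsto_atImInfty hN)
  refine (IsBigO.congr' hO' ?_ ?_)
  · filter_upwards with z
    simp only [comp_apply]
    exact eq_cuspFunction z hN.ne' (periodic_slash hΓ f γ)
  · filter_upwards with z
    rfl

local notation "Δ" => ModularForm.discriminant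

/-- `‖q_N z‖ ^ N = exp (-2π Im z)`. -/
lemma norm_qParam_pow [NeZero N] (z : ℍ) :
    ‖Periodic.qParam (N : ℝ) z‖ ^ N = Real.exp (-2 * π * z.im) := by
  have hN : (N : ℝ) ≠ 0 := by exact_mod_cast NeZero.ne N
  rw [Periodic.norm_qParam, ← Real.exp_nat_mul]
  congr 1
  simp only [coe_im]
  field_simp

/-- `Δ` is invariant under all of `SL(2,ℤ)`. -/
lemma discriminant_slash (γ : SL(2, ℤ)) : (Δ ∣[(12 : ℤ)] γ) = Δ := by
  rw [SL_slash]
  exact SlashInvariantForm.slash_action_eqn CuspForm.discriminant _ ⟨γ, rfl⟩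

/-- Translates of `f / Δ`. -/
lemma div_discriminant_slash (f : ℍ → ℂ) (γ : SL(2, ℤ)) :
    (fun z ↦ f z / Δ z) ∣[k - 12] γ = fun z ↦ (f ∣[k] γ) z / Δ z := by
  change (f / Δ) ∣[k - 12] γ = (f ∣[k] γ) / Δ
  rw [div_slash_SL2, discriminant_slash]

/-- (K4) **Division by `Δ`**: if all translates of `f ∈ M_k(Γ)` have vanishing `q_N`-coefficients
below `N` (i.e. vanish to order `≥ 1` in `q` at every cusp), then `f = Δ · g` with
`g ∈ M_{k-12}(Γ)`. -/
theorem exists_eq_discriminant_mul [NeZero N] [Γ.FiniteIndex] [ModularFormClass F Γ k]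
    (hΓ : Gamma N ≤ Γ) (f : F) (h : ∀ γ : SL(2, ℤ), ∀ n < N, cuspCoeff N k f γ n = 0) :
    ∃ g : ModularForm Γ (k - 12), ∀ z, f z = Δ z * g z := by
  refine ⟨{ toFun := fun z ↦ f z / Δ z
            slash_action_eq' := ?_
            holo' := ?_
            bdd_at_cusps' := ?_ }, fun z ↦ ?_⟩
  · rintro _ ⟨γ, hγ, rfl⟩
    have h1 := div_discriminant_slash (k := k) (⇑f) γ
    rw [slash_eq_of_mem f hγ] at h1
    exact h1
  · exact (ModularFormClass.holo f).div CuspForm.discriminant.holo' discriminant_ne_zero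
  · intro c hc
    rw [Subgroup.IsArithmetic.isCusp_iff_isCusp_SL2Z] at hc
    rw [OnePoint.isBoundedAt_iff_forall_SL2Z hc]
    intro γ _
    rw [div_discriminant_slash (k := k) (⇑f) γ, IsBoundedAtImInfty, BoundedAtFilter]
    have h1 := isBigO_slash_of_cuspCoeff_eq_zero hΓ f γ N (h γ)
    have h2 : (⇑f ∣[k] γ) =O[atImInfty] Δ := by
      refine h1.trans ?_
      simp_rw [norm_qParam_pow]
      exact exp_isBigO_discriminant
    exact (div_isBoundedUnder_of_isBigO h2).isBigO_one ℝ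
  · change f z = Δ z * (f z / Δ z)
    field_simp [discriminant_ne_zero z]

/-- (K4, cusp version) If all translates of `f ∈ M_k(Γ)` have vanishing `q_N`-coefficients up to
and including `N` (i.e. vanish to order `> 1` in `q` at every cusp), then `f = Δ · g` with
`g ∈ S_{k-12}(Γ)`. -/
theorem exists_cuspForm_eq_discriminant_mul [NeZero N] [Γ.FiniteIndex] [ModularFormClass F Γ k]
    (hΓ : Gamma N ≤ Γ) (f : F) (h : ∀ γ : SL(2, ℤ), ∀ n < N + 1, cuspCoeff N k f γ n = 0) :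
    ∃ g : CuspForm Γ (k - 12), ∀ z, f z = Δ z * g z := by
  have hN : (0 : ℝ) < N := by exact_mod_cast Nat.pos_of_ne_zero (NeZero.ne N)
  refine ⟨{ toFun := fun z ↦ f z / Δ z
            slash_action_eq' := ?_
            holo' := ?_
            zero_at_cusps' := ?_ }, fun z ↦ ?_⟩
  · rintro _ ⟨γ, hγ, rfl⟩
    have h1 := div_discriminant_slash (k := k) (⇑f) γ
    rw [slash_eq_of_mem f hγ] at h1
    exact h1
  · exact (ModularFormClass.holo f).div CuspForm.discriminant.holo' discriminant_ne_zero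
  · intro c hc
    rw [Subgroup.IsArithmetic.isCusp_iff_isCusp_SL2Z] at hc
    rw [OnePoint.isZeroAt_iff_forall_SL2Z hc]
    intro γ _
    rw [div_discriminant_slash (k := k) (⇑f) γ, IsZeroAtImInfty, ZeroAtFilter]
    have h1 := isBigO_slash_of_cuspCoeff_eq_zero hΓ f γ (N + 1) (h γ)
    have h3 : (fun z : ℍ ↦ ‖Periodic.qParam (N : ℝ) z‖ ^ N) =O[atImInfty] Δ := by
      simp_rw [norm_qParam_pow]
      exact exp_isBigO_discriminant
    have h4 : (fun z : ℍ ↦ (Δ z)⁻¹) =O[atImInfty]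
        fun z : ℍ ↦ (‖Periodic.qParam (N : ℝ) z‖ ^ N)⁻¹ := by
      refine h3.inv_rev (Eventually.of_forall fun z hz ↦ ?_)
      exact absurd hz (pow_ne_zero _ (norm_ne_zero_iff.mpr (Periodic.qParam_ne_zero _)))
    have h5 := h1.mul h4
    have h6 : (fun z : ℍ ↦ (⇑f ∣[k] γ) z / Δ z) =O[atImInfty]
        fun z : ℍ ↦ ‖Periodic.qParam (N : ℝ) z‖ := by
      refine h5.congr' (Eventually.of_forall fun z ↦ by simp [div_eq_mul_inv])
        (Eventually.of_forall fun z ↦ ?_)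
      have hne : ‖Periodic.qParam (N : ℝ) (z : ℂ)‖ ≠ 0 :=
        norm_ne_zero_iff.mpr (Periodic.qParam_ne_zero _)
      simp only
      rw [pow_succ]
      field_simp
    refine h6.trans_tendsto ?_
    exact tendsto_zero_iff_norm_tendsto_zero.mp (qParam_tendsto_atImInfty hN)
  · change f z = Δ z * (f z / Δ z)
    field_simp [discriminant_ne_zero z]

/-! ### Finite Fourier inversion and the `T`-twist -/

/-- `ζ_N = exp (2πi/N)`. -/
def zetaN (N : ℕ) : ℂ := Complex.exp (2 * π * Complex.I / N)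

lemma zetaN_isPrimitiveRoot [NeZero N] : IsPrimitiveRoot (zetaN N) N :=
  Complex.isPrimitiveRoot_exp N (NeZero.ne N)

lemma zetaN_ne_zero (N : ℕ) : zetaN N ≠ 0 := Complex.exp_ne_zero _

/-- (K2') Iterated `T`-twist. -/
lemma cuspCoeff_mul_T_pow [NeZero N] [Γ.FiniteIndex] [ModularFormClass F Γ k] (hΓ : Gamma N ≤ Γ)
    (f : F) (γ : SL(2, ℤ)) (m n : ℕ) :
    cuspCoeff N k f (γ * ModularGroup.T ^ m) n = zetaN N ^ (n * m) * cuspCoeff N k f γ n := by
  induction m with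
  | zero => simp
  | succ m ih =>
    rw [pow_succ, ← mul_assoc, cuspCoeff_mul_T hΓ, ih, ← zetaN]
    ring

/-- Orthogonality of characters of `ℤ/N`. -/
lemma sum_zetaN_pow_mul [NeZero N] {a b : ℕ} (ha : a < N) (hb : b < N) :
    ∑ m ∈ Finset.range N, (zetaN N ^ (b * m))⁻¹ * zetaN N ^ (a * m) =
      if a = b then (N : ℂ) else 0 := by
  have hζ := zetaN_isPrimitiveRoot (N := N)
  set ω : ℂ := (zetaN N ^ b)⁻¹ * zetaN N ^ a with hω
  have hterm : ∀ m : ℕ, (zetaN N ^ (b * m))⁻¹ * zetaN N ^ (a * m) = ω ^ m := by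
    intro m
    rw [hω, mul_pow, inv_pow, ← pow_mul, ← pow_mul]
  simp_rw [hterm]
  split_ifs with hab
  · have : ω = 1 := by
      rw [hω, hab]
      exact inv_mul_cancel₀ (pow_ne_zero _ (zetaN_ne_zero N))
    simp [this]
  · have hω1 : ω ≠ 1 := by
      intro h1
      apply hab
      apply hζ.pow_inj ha hb
      have hb0 : zetaN N ^ b ≠ 0 := pow_ne_zero _ (zetaN_ne_zero N)
      rw [hω, inv_mul_eq_one₀ hb0] at h1
      exact h1.symm
    have hωN : ω ^ N = 1 := by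
      rw [hω, mul_pow, inv_pow, ← pow_mul, ← pow_mul, mul_comm b N, mul_comm a N, pow_mul,
        pow_mul, hζ.pow_eq_one]
      simp
    rw [geom_sum_eq hω1, hωN]
    simp

/-- (K3) **Finite Fourier inversion**. -/
lemma fourier_inversion [NeZero N] (c : ℕ → ℂ) {l : ℕ} (hl : l < N) :
    ∑ m ∈ Finset.range N, (zetaN N ^ (l * m))⁻¹ *
      ∑ n ∈ Finset.range N, zetaN N ^ (n * m) * c n = N * c l := by
  simp_rw [Finset.mul_sum]
  rw [Finset.sum_comm]
  have : ∀ n ∈ Finset.range N, ∑ m ∈ Finset.range N,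
      (zetaN N ^ (l * m))⁻¹ * (zetaN N ^ (n * m) * c n) = (if n = l then (N : ℂ) else 0) * c n := by
    intro n hn
    rw [← sum_zetaN_pow_mul (Finset.mem_range.mp hn) hl, Finset.sum_mul]
    refine Finset.sum_congr rfl fun m _ ↦ by ring
  rw [Finset.sum_congr rfl this]
  simp [Finset.sum_ite_eq', hl]

/-- (K3, shifted) Finite Fourier inversion for exponents `1, …, N`. -/
lemma fourier_inversion_succ [NeZero N] (c : ℕ → ℂ) {l : ℕ} (hl : l < N) :
    ∑ m ∈ Finset.range N, (zetaN N ^ ((l + 1) * m))⁻¹ *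
      ∑ n ∈ Finset.range N, zetaN N ^ ((n + 1) * m) * c n = N * c l := by
  rw [← fourier_inversion c hl]
  refine Finset.sum_congr rfl fun m _ ↦ ?_
  have h0 : zetaN N ^ m ≠ 0 := pow_ne_zero _ (zetaN_ne_zero N)
  have h1 : ∀ n : ℕ, zetaN N ^ ((n + 1) * m) = zetaN N ^ (n * m) * zetaN N ^ m := by
    intro n; rw [← pow_add]; congr 1; ring
  simp_rw [h1, mul_inv, Finset.mul_sum]
  refine Finset.sum_congr rfl fun n _ ↦ ?_
  field_simp

/-- The "leading sum" `L'(f)(γ) = ∑_{n<N} a_n(f ∣ γ)`. -/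
def leadSum (N : ℕ) (k : ℤ) (f : ℍ → ℂ) (γ : SL(2, ℤ)) : ℂ :=
  ∑ n ∈ Finset.range N, cuspCoeff N k f γ n

/-- The cuspidal "leading sum" `L''(f)(γ) = ∑_{1 ≤ n ≤ N} a_n(f ∣ γ)`. -/
def leadSumCusp (N : ℕ) (k : ℤ) (f : ℍ → ℂ) (γ : SL(2, ℤ)) : ℂ :=
  ∑ n ∈ Finset.range N, cuspCoeff N k f γ (n + 1)

lemma leadSum_mul_T_pow [NeZero N] [Γ.FiniteIndex] [ModularFormClass F Γ k] (hΓ : Gamma N ≤ Γ)
    (f : F) (γ : SL(2, ℤ)) (m : ℕ) :
    leadSum N k f (γ * ModularGroup.T ^ m) =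
      ∑ n ∈ Finset.range N, zetaN N ^ (n * m) * cuspCoeff N k f γ n := by
  simp_rw [leadSum, cuspCoeff_mul_T_pow hΓ]

lemma leadSumCusp_mul_T_pow [NeZero N] [Γ.FiniteIndex] [ModularFormClass F Γ k]
    (hΓ : Gamma N ≤ Γ) (f : F) (γ : SL(2, ℤ)) (m : ℕ) :
    leadSumCusp N k f (γ * ModularGroup.T ^ m) =
      ∑ n ∈ Finset.range N, zetaN N ^ ((n + 1) * m) * cuspCoeff N k f γ (n + 1) := by
  simp_rw [leadSumCusp, cuspCoeff_mul_T_pow hΓ]

/-- (K5a) Recovery of every coefficient `a_l`, `l < N`, from the leading sums along the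
`T`-orbit. -/
lemma natCast_mul_cuspCoeff_eq [NeZero N] [Γ.FiniteIndex] [ModularFormClass F Γ k]
    (hΓ : Gamma N ≤ Γ) (f : F) (γ : SL(2, ℤ)) {l : ℕ} (hl : l < N) :
    (N : ℂ) * cuspCoeff N k f γ l =
      ∑ m ∈ Finset.range N, (zetaN N ^ (l * m))⁻¹ * leadSum N k f (γ * ModularGroup.T ^ m) := by
  simp_rw [leadSum_mul_T_pow hΓ]
  exact (fourier_inversion (fun n ↦ cuspCoeff N k f γ n) hl).symm

/-- (K5a, cusp version) Recovery of `a_{l+1}`, `l < N`, from the cuspidal leading sums. -/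
lemma natCast_mul_cuspCoeff_succ_eq [NeZero N] [Γ.FiniteIndex] [ModularFormClass F Γ k]
    (hΓ : Gamma N ≤ Γ) (f : F) (γ : SL(2, ℤ)) {l : ℕ} (hl : l < N) :
    (N : ℂ) * cuspCoeff N k f γ (l + 1) =
      ∑ m ∈ Finset.range N, (zetaN N ^ ((l + 1) * m))⁻¹ *
        leadSumCusp N k f (γ * ModularGroup.T ^ m) := by
  simp_rw [leadSumCusp_mul_T_pow hΓ]
  exact (fourier_inversion_succ (fun n ↦ cuspCoeff N k f γ (n + 1)) hl).symm

/-- (K5b) The constant term is the average of the leading sums along the `T`-orbit. -/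
lemma natCast_mul_cuspCoeff_zero_eq [NeZero N] [Γ.FiniteIndex] [ModularFormClass F Γ k]
    (hΓ : Gamma N ≤ Γ) (f : F) (γ : SL(2, ℤ)) :
    (N : ℂ) * cuspCoeff N k f γ 0 =
      ∑ m ∈ Finset.range N, leadSum N k f (γ * ModularGroup.T ^ m) := by
  rw [natCast_mul_cuspCoeff_eq hΓ f γ (Nat.pos_of_ne_zero (NeZero.ne N))]
  simp

/-- (K5c) If all leading sums vanish, then all coefficients below `N` vanish. -/
lemma cuspCoeff_eq_zero_of_leadSum_eq_zero [NeZero N] [Γ.FiniteIndex] [ModularFormClass F Γ k]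
    (hΓ : Gamma N ≤ Γ) (f : F) (h : ∀ γ : SL(2, ℤ), leadSum N k f γ = 0) (γ : SL(2, ℤ)) {n : ℕ}
    (hn : n < N) : cuspCoeff N k f γ n = 0 := by
  have hN : (N : ℂ) ≠ 0 := by exact_mod_cast NeZero.ne N
  have := natCast_mul_cuspCoeff_eq hΓ f γ hn
  simp only [h, mul_zero, Finset.sum_const_zero] at this
  exact (mul_eq_zero.mp this).resolve_left hN

/-- (K5c, cusp version) If all cuspidal leading sums vanish, then the coefficients
`a_1, …, a_N` vanish. -/
lemma cuspCoeff_succ_eq_zero_of_leadSumCusp_eq_zero [NeZero N] [Γ.FiniteIndex]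
    [ModularFormClass F Γ k] (hΓ : Gamma N ≤ Γ) (f : F)
    (h : ∀ γ : SL(2, ℤ), leadSumCusp N k f γ = 0) (γ : SL(2, ℤ)) {n : ℕ} (hn : n < N) :
    cuspCoeff N k f γ (n + 1) = 0 := by
  have hN : (N : ℂ) ≠ 0 := by exact_mod_cast NeZero.ne N
  have := natCast_mul_cuspCoeff_succ_eq hΓ f γ hn
  simp only [h, mul_zero, Finset.sum_const_zero] at this
  exact (mul_eq_zero.mp this).resolve_left hN

end

end Fermat.Agent.S20.helper1220
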