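/-
S20, cusp analysis in the `helper560_Defs` setting (seat helper1220).

The analytic `q_N`-expansion toolkit of `helper1220_CuspToolkit`, for an arithmetic subgroup
`𝒢 ≤ GL(2,ℝ)` with `GoodLevel 𝒢 N` (period `N` at every cusp) instead of `Γ(N) ≤ Γ`.
Translates are `f ∣[k] γ` with `γ : SL(2,ℤ)`; coefficients are `cuspCoeff N k f γ n`.
-/
import Mathlib
import Fermat.Agent.S20.helper560_Defs
import Fermat.Agent.S20.helper1220_CuspToolkit

set_option autoImplicit false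

open UpperHalfPlane ModularForm MatrixGroups CongruenceSubgroup Matrix.SpecialLinearGroup Function
open Filter Asymptotics
open scoped ModularForm Real Manifold Pointwise

namespace Fermat.Agent.S20.helper1220.G

open Fermat.Agent.S20.helper560

noncomputable section

variable {N : ℕ} {k : ℤ} {𝒢 : Subgroup (GL (Fin 2) ℝ)} {F : Type*} [FunLike F ℍ ℂ]

/-- The translation by `N`, as the image of `T ^ N`. -/
theorem upperRightHom_natCast (N : ℕ) :
    Matrix.GeneralLinearGroup.upperRightHom (N : ℝ) = mapGL ℝ (ModularGroup.T ^ (N : ℤ)) := by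
  have h : ∀ m : ℤ, Matrix.GeneralLinearGroup.upperRightHom (m : ℝ) =
      mapGL ℝ (ModularGroup.T ^ m) := by
    intro m
    rw [Units.ext_iff, mapGL_coe_matrix, map_apply_coe]
    ext i j
    fin_cases i <;> fin_cases j <;> simp [ModularGroup.coe_T_zpow]
  simpa only [Int.cast_natCast] using h (N : ℤ)

/-- `γ T^N γ⁻¹ ∈ 𝒢` for every `γ ∈ SL(2,ℤ)` when `𝒢` has good level `N`. -/
lemma conj_T_pow_mem (hG : GoodLevel 𝒢 N) (γ : SL(2, ℤ)) :
    mapGL ℝ (γ * ModularGroup.T ^ (N : ℤ) * γ⁻¹) ∈ 𝒢 := by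
  have h := hG.per γ⁻¹
  rw [Subgroup.mem_strictPeriods_iff, Subgroup.mem_pointwise_smul_iff_inv_smul_mem,
    ← ConjAct.toConjAct_inv, ConjAct.toConjAct_smul, inv_inv, upperRightHom_natCast] at h
  simpa [map_mul, map_inv] using h

/-- Slash invariance under elements of `SL(2,ℤ)` lying in `𝒢`. -/
lemma slash_eq_of_mem [SlashInvariantFormClass F 𝒢 k] (f : F) {g : SL(2, ℤ)}
    (hg : mapGL ℝ g ∈ 𝒢) : (⇑f ∣[k] g) = ⇑f := by
  rw [SL_slash]
  exact SlashInvariantForm.slash_action_eqn f _ hg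

/-- (K1a) Every `SL(2,ℤ)`-translate of a `𝒢`-invariant form is invariant under `z ↦ z + N`. -/
lemma slash_vadd_natCast [SlashInvariantFormClass F 𝒢 k] (hG : GoodLevel 𝒢 N) (f : F)
    (γ : SL(2, ℤ)) (z : ℍ) :
    (⇑f ∣[k] γ) ((N : ℝ) +ᵥ z) = (⇑f ∣[k] γ) z := by
  have h1 := slash_T_zpow_apply (k := k) (⇑f ∣[k] γ) (N : ℤ) z
  have h2 : (⇑f ∣[k] γ) ∣[k] (ModularGroup.T ^ (N : ℤ)) = ⇑f ∣[k] γ := by
    rw [← SlashAction.slash_mul]
    have : γ * ModularGroup.T ^ (N : ℤ) = (γ * ModularGroup.T ^ (N : ℤ) * γ⁻¹) * γ := by group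
    rw [this, SlashAction.slash_mul, slash_eq_of_mem f (conj_T_pow_mem hG γ)]
  rw [h2] at h1
  simpa using h1.symm

/-- (K1b) Periodicity of translates, in the form used by Mathlib's `q`-expansion API. -/
lemma periodic_slash [SlashInvariantFormClass F 𝒢 k] (hG : GoodLevel 𝒢 N) (f : F)
    (γ : SL(2, ℤ)) : Periodic ((⇑f ∣[k] γ) ∘ ofComplex) ((N : ℝ) : ℂ) := by
  intro w
  by_cases! hw : 0 < Complex.im w
  · have : 0 < Complex.im (w + ((N : ℝ) : ℂ)) := by simp [hw]
    simp only [comp_apply, ofComplex_apply_of_im_pos this, ofComplex_apply_of_im_pos hw]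
    convert slash_vadd_natCast hG f γ ⟨w, hw⟩ using 2
    ext
    simp [add_comm]
  · have : Complex.im (w + ((N : ℝ) : ℂ)) ≤ 0 := by simpa using hw
    simp only [comp_apply]
    rw [ofComplex_apply_of_im_nonpos this, ofComplex_apply_of_im_nonpos hw]

/-- Translates of modular forms are holomorphic. -/
lemma mdiff_slash [ModularFormClass F 𝒢 k] (f : F) (γ : SL(2, ℤ)) :
    MDiff (⇑f ∣[k] γ) := by
  rw [SL_slash]
  exact (ModularFormClass.holo f).slash k _

/-- Translates of modular forms are bounded at `i∞`. -/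
lemma bdd_slash [𝒢.IsArithmetic] [ModularFormClass F 𝒢 k] (f : F) (γ : SL(2, ℤ)) :
    IsBoundedAtImInfty (⇑f ∣[k] γ) :=
  ModularFormClass.bdd_at_infty_slash f γ

/-- Translates of cusp forms vanish at `i∞`. -/
lemma zero_slash [𝒢.IsArithmetic] [CuspFormClass F 𝒢 k] (f : F) (γ : SL(2, ℤ)) :
    IsZeroAtImInfty (⇑f ∣[k] γ) :=
  CuspFormClass.zero_at_infty_slash f γ

/-- (K1c) The `q_N`-expansion of every translate converges to it. -/
lemma hasSum_cuspCoeff [𝒢.IsArithmetic] [ModularFormClass F 𝒢 k] (hG : GoodLevel 𝒢 N)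
    (f : F) (γ : SL(2, ℤ)) (z : ℍ) :
    HasSum (fun n : ℕ ↦ cuspCoeff N k f γ n * Periodic.qParam (N : ℝ) z ^ n) ((⇑f ∣[k] γ) z) := by
  have hN : (0 : ℝ) < N := by exact_mod_cast hG.pos
  simpa [cuspCoeff] using
    hasSum_qExpansion hN (periodic_slash hG f γ) (mdiff_slash f γ) (bdd_slash f γ) z

/-- The cusp function of every translate is analytic at `0`. -/
lemma analyticAt_cuspFunction_slash [𝒢.IsArithmetic] [ModularFormClass F 𝒢 k]
    (hG : GoodLevel 𝒢 N) (f : F) (γ : SL(2, ℤ)) :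
    AnalyticAt ℂ (cuspFunction (N : ℝ) (⇑f ∣[k] γ)) 0 := by
  have hN : (0 : ℝ) < N := by exact_mod_cast hG.pos
  exact analyticAt_cuspFunction_zero hN (periodic_slash hG f γ) (mdiff_slash f γ) (bdd_slash f γ)

/-- Uniqueness of the `q_N`-expansion of a translate. -/
lemma cuspCoeff_unique [𝒢.IsArithmetic] [ModularFormClass F 𝒢 k] (hG : GoodLevel 𝒢 N)
    (f : F) (γ : SL(2, ℤ)) {c : ℕ → ℂ}
    (hc : ∀ z : ℍ, HasSum (fun n : ℕ ↦ c n * Periodic.qParam (N : ℝ) z ^ n) ((⇑f ∣[k] γ) z))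
    (n : ℕ) : c n = cuspCoeff N k f γ n := by
  have hN : (0 : ℝ) < N := by exact_mod_cast hG.pos
  have h := qExpansion_coeff_unique (ModularForm.translate f (γ : GL (Fin 2) ℝ)) (c := c) hN
    (analyticAt_cuspFunction_slash hG f γ) (fun z ↦ by
      have h0 := hc z
      simp only [smul_eq_mul]
      exact h0) n
  exact h

/-- (K2) **T-twist**: the `q_N`-coefficients of `f ∣ (γ T)` are those of `f ∣ γ` twisted by
powers of `ζ_N = exp (2πi/N)`. -/
lemma cuspCoeff_mul_T [𝒢.IsArithmetic] [ModularFormClass F 𝒢 k] (hG : GoodLevel 𝒢 N)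
    (f : F) (γ : SL(2, ℤ)) (n : ℕ) :
    cuspCoeff N k f (γ * ModularGroup.T) n = zetaN N ^ n * cuspCoeff N k f γ n := by
  have : NeZero N := ⟨hG.pos.ne'⟩
  symm
  refine cuspCoeff_unique hG f (γ * ModularGroup.T)
    (c := fun n ↦ zetaN N ^ n * cuspCoeff N k f γ n) (fun z ↦ ?_) n
  have h1 : (⇑f ∣[k] (γ * ModularGroup.T)) z = (⇑f ∣[k] γ) ((1 : ℝ) +ᵥ z) := by
    rw [SlashAction.slash_mul]
    simpa using slash_T_zpow_apply (k := k) (⇑f ∣[k] γ) 1 z
  rw [h1]
  convert hasSum_cuspCoeff hG f γ ((1 : ℝ) +ᵥ z) using 2 with m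
  rw [qParam_one_vadd, mul_pow, zetaN]
  ring

/-- (K2') Iterated `T`-twist. -/
lemma cuspCoeff_mul_T_pow [𝒢.IsArithmetic] [ModularFormClass F 𝒢 k] (hG : GoodLevel 𝒢 N)
    (f : F) (γ : SL(2, ℤ)) (m n : ℕ) :
    cuspCoeff N k f (γ * ModularGroup.T ^ m) n = zetaN N ^ (n * m) * cuspCoeff N k f γ n := by
  induction m with
  | zero => simp
  | succ m ih =>
    rw [pow_succ, ← mul_assoc, cuspCoeff_mul_T hG, ih]
    ring

/-- If the first `m` `q_N`-coefficients of `f ∣ γ` vanish then `f ∣ γ = O(|q_N|^m)` at `i∞`. -/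
lemma isBigO_slash_of_cuspCoeff_eq_zero [𝒢.IsArithmetic] [ModularFormClass F 𝒢 k]
    (hG : GoodLevel 𝒢 N) (f : F) (γ : SL(2, ℤ)) (m : ℕ)
    (h : ∀ n < m, cuspCoeff N k f γ n = 0) :
    (⇑f ∣[k] γ) =O[atImInfty] fun z : ℍ ↦ ‖Periodic.qParam (N : ℝ) z‖ ^ m := by
  have hN : (0 : ℝ) < N := by exact_mod_cast hG.pos
  set g := ModularForm.translate f (γ : GL (Fin 2) ℝ) with hg
  have hps : HasFPowerSeriesAt (cuspFunction (N : ℝ) (⇑f ∣[k] γ))
      (qExpansionFormalMultilinearSeries (N : ℝ) g) 0 :=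
    (hasFPowerSeries_cuspFunction g hN (analyticAt_cuspFunction_slash hG f γ)
      (c := cuspCoeff N k f γ) (fun z ↦ by
        have h0 := hasSum_cuspCoeff hG f γ z
        simp only [smul_eq_mul]
        exact h0)).hasFPowerSeriesAt
  have hO := hps.isBigO_sub_partialSum_pow m
  have hpart : ∀ y : ℂ, (qExpansionFormalMultilinearSeries (N : ℝ) g).partialSum m y = 0 := by
    intro y
    rw [FormalMultilinearSeries.partialSum]
    refine Finset.sum_eq_zero fun i hi ↦ ?_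
    rw [qExpansionFormalMultilinearSeries, FormalMultilinearSeries.ofScalars_apply_eq]
    have := h i (Finset.mem_range.mp hi)
    rw [cuspCoeff] at this
    change (PowerSeries.coeff i) (qExpansion (N : ℝ) (⇑f ∣[k] γ)) • y ^ i = 0
    rw [this, zero_smul]
  simp only [hpart, sub_zero, zero_add] at hO
  have hO' := hO.comp_tendsto (qParam_tendsto_atImInfty hN)
  refine (IsBigO.congr' hO' ?_ ?_)
  · filter_upwards with z
    simp only [comp_apply]
    exact eq_cuspFunction z hN.ne' (periodic_slash hG f γ)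
  · filter_upwards with z
    rfl

local notation "Δ" => ModularForm.discriminant

/-- (K4) **Division by `Δ`**: if all translates of `f ∈ M_k(𝒢)` have vanishing `q_N`-coefficients
below `N` (i.e. vanish to order `≥ 1` in `q` at every cusp), then `f = Δ · g` with
`g ∈ M_{k-12}(𝒢)`. -/
theorem exists_eq_discriminant_mul [𝒢.IsArithmetic] [ModularFormClass F 𝒢 k]
    (hG : GoodLevel 𝒢 N) (f : F) (h : ∀ γ : SL(2, ℤ), ∀ n < N, cuspCoeff N k f γ n = 0) :
    ∃ g : ModularForm 𝒢 (k - 12), ∀ z, f z = Δ z * g z := by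
  have : NeZero N := ⟨hG.pos.ne'⟩
  refine ⟨{ toFun := fun z ↦ f z / Δ z
            slash_action_eq' := ?_
            holo' := ?_
            bdd_at_cusps' := ?_ }, fun z ↦ ?_⟩
  · intro g hg
    obtain ⟨γ, rfl⟩ := hG.le hg
    have h1 := div_discriminant_slash (k := k) (⇑f) γ
    rw [slash_eq_of_mem f hg] at h1
    exact h1
  · exact (ModularFormClass.holo f).div CuspForm.discriminant.holo' discriminant_ne_zero
  · intro c hc
    rw [Subgroup.IsArithmetic.isCusp_iff_isCusp_SL2Z] at hc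
    rw [OnePoint.isBoundedAt_iff_forall_SL2Z hc]
    intro γ _
    rw [div_discriminant_slash (k := k) (⇑f) γ, IsBoundedAtImInfty, BoundedAtFilter]
    have h1 := isBigO_slash_of_cuspCoeff_eq_zero hG f γ N (h γ)
    have h2 : (⇑f ∣[k] γ) =O[atImInfty] Δ := by
      refine h1.trans ?_
      simp_rw [norm_qParam_pow]
      exact exp_isBigO_discriminant
    exact (div_isBoundedUnder_of_isBigO h2).isBigO_one ℝ
  · change f z = Δ z * (f z / Δ z)
    field_simp [discriminant_ne_zero z]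

/-- (K4, cusp version) If all translates of `f ∈ M_k(𝒢)` have vanishing `q_N`-coefficients up to
and including `N`, then `f = Δ · g` with `g ∈ S_{k-12}(𝒢)`. -/
theorem exists_cuspForm_eq_discriminant_mul [𝒢.IsArithmetic] [ModularFormClass F 𝒢 k]
    (hG : GoodLevel 𝒢 N) (f : F) (h : ∀ γ : SL(2, ℤ), ∀ n < N + 1, cuspCoeff N k f γ n = 0) :
    ∃ g : CuspForm 𝒢 (k - 12), ∀ z, f z = Δ z * g z := by
  have : NeZero N := ⟨hG.pos.ne'⟩
  have hN : (0 : ℝ) < N := by exact_mod_cast hG.pos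
  refine ⟨{ toFun := fun z ↦ f z / Δ z
            slash_action_eq' := ?_
            holo' := ?_
            zero_at_cusps' := ?_ }, fun z ↦ ?_⟩
  · intro g hg
    obtain ⟨γ, rfl⟩ := hG.le hg
    have h1 := div_discriminant_slash (k := k) (⇑f) γ
    rw [slash_eq_of_mem f hg] at h1
    exact h1
  · exact (ModularFormClass.holo f).div CuspForm.discriminant.holo' discriminant_ne_zero
  · intro c hc
    rw [Subgroup.IsArithmetic.isCusp_iff_isCusp_SL2Z] at hc
    rw [OnePoint.isZeroAt_iff_forall_SL2Z hc]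
    intro γ _
    rw [div_discriminant_slash (k := k) (⇑f) γ, IsZeroAtImInfty, ZeroAtFilter]
    have h1 := isBigO_slash_of_cuspCoeff_eq_zero hG f γ (N + 1) (h γ)
    have h3 : (fun z : ℍ ↦ ‖Periodic.qParam (N : ℝ) z‖ ^ N) =O[atImInfty] Δ := by
      simp_rw [norm_qParam_pow]
      exact exp_isBigO_discriminant
    have h4 : (fun z : ℍ ↦ (Δ z)⁻¹) =O[atImInfty]
        fun z : ℍ ↦ (‖Periodic.qParam (N : ℝ) z‖ ^ N)⁻¹ := by
      refine h3.inv_rev (Eventually.of_forall fun z hz ↦ ?_)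
      exact absurd hz (pow_ne_zero _ (norm_ne_zero_iff.mpr (Periodic.qParam_ne_zero _)))
    have h5 := h1.mul h4
    have h6 : (fun z : ℍ ↦ (⇑f ∣[k] γ) z / Δ z) =O[atImInfty]
        fun z : ℍ ↦ ‖Periodic.qParam (N : ℝ) z‖ := by
      refine h5.congr' (Eventually.of_forall fun z ↦ by simp [div_eq_mul_inv])
        (Eventually.of_forall fun z ↦ ?_)
      have hne : ‖Periodic.qParam (N : ℝ) (z : ℂ)‖ ≠ 0 :=
        norm_ne_zero_iff.mpr (Periodic.qParam_ne_zero _)
      simp only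
      rw [pow_succ]
      field_simp
    refine h6.trans_tendsto ?_
    exact tendsto_zero_iff_norm_tendsto_zero.mp (qParam_tendsto_atImInfty hN)
  · change f z = Δ z * (f z / Δ z)
    field_simp [discriminant_ne_zero z]

/-! ### Leading sums along `T`-orbits -/

lemma leadSum_mul_T_pow [𝒢.IsArithmetic] [ModularFormClass F 𝒢 k] (hG : GoodLevel 𝒢 N)
    (f : F) (γ : SL(2, ℤ)) (m : ℕ) :
    leadSum N k f (γ * ModularGroup.T ^ m) =
      ∑ n ∈ Finset.range N, zetaN N ^ (n * m) * cuspCoeff N k f γ n := by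
  simp_rw [leadSum, cuspCoeff_mul_T_pow hG]

lemma leadSumCusp_mul_T_pow [𝒢.IsArithmetic] [ModularFormClass F 𝒢 k]
    (hG : GoodLevel 𝒢 N) (f : F) (γ : SL(2, ℤ)) (m : ℕ) :
    leadSumCusp N k f (γ * ModularGroup.T ^ m) =
      ∑ n ∈ Finset.range N, zetaN N ^ ((n + 1) * m) * cuspCoeff N k f γ (n + 1) := by
  simp_rw [leadSumCusp, cuspCoeff_mul_T_pow hG]

/-- (K5a) Recovery of every coefficient `a_l`, `l < N`, from the leading sums along the
`T`-orbit. -/
lemma natCast_mul_cuspCoeff_eq [𝒢.IsArithmetic] [ModularFormClass F 𝒢 k]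
    (hG : GoodLevel 𝒢 N) (f : F) (γ : SL(2, ℤ)) {l : ℕ} (hl : l < N) :
    (N : ℂ) * cuspCoeff N k f γ l =
      ∑ m ∈ Finset.range N, (zetaN N ^ (l * m))⁻¹ * leadSum N k f (γ * ModularGroup.T ^ m) := by
  have : NeZero N := ⟨hG.pos.ne'⟩
  simp_rw [leadSum_mul_T_pow hG]
  exact (fourier_inversion (fun n ↦ cuspCoeff N k f γ n) hl).symm

/-- (K5a, cusp version) Recovery of `a_{l+1}`, `l < N`, from the cuspidal leading sums. -/
lemma natCast_mul_cuspCoeff_succ_eq [𝒢.IsArithmetic] [ModularFormClass F 𝒢 k]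
    (hG : GoodLevel 𝒢 N) (f : F) (γ : SL(2, ℤ)) {l : ℕ} (hl : l < N) :
    (N : ℂ) * cuspCoeff N k f γ (l + 1) =
      ∑ m ∈ Finset.range N, (zetaN N ^ ((l + 1) * m))⁻¹ *
        leadSumCusp N k f (γ * ModularGroup.T ^ m) := by
  have : NeZero N := ⟨hG.pos.ne'⟩
  simp_rw [leadSumCusp_mul_T_pow hG]
  exact (fourier_inversion_succ (fun n ↦ cuspCoeff N k f γ (n + 1)) hl).symm

/-- (K5b) The constant term is the average of the leading sums along the `T`-orbit. -/
lemma natCast_mul_cuspCoeff_zero_eq [𝒢.IsArithmetic] [ModularFormClass F 𝒢 k]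
    (hG : GoodLevel 𝒢 N) (f : F) (γ : SL(2, ℤ)) :
    (N : ℂ) * cuspCoeff N k f γ 0 =
      ∑ m ∈ Finset.range N, leadSum N k f (γ * ModularGroup.T ^ m) := by
  rw [natCast_mul_cuspCoeff_eq hG f γ hG.pos]
  simp

/-- (K5c) If all leading sums vanish, then all coefficients below `N` vanish. -/
lemma cuspCoeff_eq_zero_of_leadSum_eq_zero [𝒢.IsArithmetic] [ModularFormClass F 𝒢 k]
    (hG : GoodLevel 𝒢 N) (f : F) (h : ∀ γ : SL(2, ℤ), leadSum N k f γ = 0) (γ : SL(2, ℤ)) {n : ℕ}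
    (hn : n < N) : cuspCoeff N k f γ n = 0 := by
  have hN : (N : ℂ) ≠ 0 := by exact_mod_cast hG.pos.ne'
  have := natCast_mul_cuspCoeff_eq hG f γ hn
  simp only [h, mul_zero, Finset.sum_const_zero] at this
  exact (mul_eq_zero.mp this).resolve_left hN

/-- (K5c, cusp version) If all cuspidal leading sums vanish, then the coefficients
`a_1, …, a_N` vanish. -/
lemma cuspCoeff_succ_eq_zero_of_leadSumCusp_eq_zero [𝒢.IsArithmetic]
    [ModularFormClass F 𝒢 k] (hG : GoodLevel 𝒢 N) (f : F)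
    (h : ∀ γ : SL(2, ℤ), leadSumCusp N k f γ = 0) (γ : SL(2, ℤ)) {n : ℕ} (hn : n < N) :
    cuspCoeff N k f γ (n + 1) = 0 := by
  have hN : (N : ℂ) ≠ 0 := by exact_mod_cast hG.pos.ne'
  have := natCast_mul_cuspCoeff_succ_eq hG f γ hn
  simp only [h, mul_zero, Finset.sum_const_zero] at this
  exact (mul_eq_zero.mp this).resolve_left hN

end

end Fermat.Agent.S20.helper1220.G
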