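/-
S20: `Goal_Cusp` of `helper560_Spec` (seat helper1220).

Coset layer on top of `helper1220_CuspGL`: the translates `tr 𝒢 k f q` are slashes by
representatives `rep q : SL(2,ℤ)`; the leading map `lead` (sum of the `q_N`-coefficients
`0 ≤ n < N` of every translate) and the constant-term map `cst` are linear maps on `MFG 𝒢 k`.
`ker lead` injects into `MFG 𝒢 (k-12)` (division by `Δ`), `ker cst = CFG 𝒢 k`, and the range
of `cst` is the space of `T`-invariant functions on the cosets as soon as `lead` is onto.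
-/
import Mathlib
import Fermat.Agent.S20.helper560_Spec
import Fermat.Agent.S20.helper1220_CuspGL

set_option autoImplicit false

open UpperHalfPlane ModularForm MatrixGroups CongruenceSubgroup Matrix.SpecialLinearGroup Function
open Filter Asymptotics
open scoped ModularForm Real Manifold Pointwise

namespace Fermat.Agent.S20.helper1220.G

open Fermat.Agent.S20.helper560

noncomputable section

variable {N : ℕ} {k : ℤ} {𝒢 : Subgroup (GL (Fin 2) ℝ)}

local notation "Δ" => ModularForm.discriminant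

/-! ### Coset representatives -/

/-- An element of `SL(2,ℤ)` representing the inverse of the chosen representative of `q`. -/
def rep (q : Q 𝒢) : SL(2, ℤ) := Classical.choose ((q.out)⁻¹ : 𝒮ℒ).2

lemma mapGL_rep (q : Q 𝒢) : mapGL ℝ (rep q) = ((q.out : 𝒮ℒ) : GL (Fin 2) ℝ)⁻¹ :=
  Classical.choose_spec ((q.out)⁻¹ : 𝒮ℒ).2

/-- The translate attached to `q` is the slash by `rep q`. -/
lemma tr_eq_slash_rep (k : ℤ) (f : ℍ → ℂ) (q : Q 𝒢) : tr 𝒢 k f q = f ∣[k] rep q := by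
  unfold tr
  rw [← mapGL_rep]
  rfl

lemma sl_rep_inv (q : Q 𝒢) : (sl (rep q))⁻¹ = q.out := by
  apply Subtype.ext
  simp [sl, mapGL_rep]

lemma sl_mul (a b : SL(2, ℤ)) : sl (a * b) = sl a * sl b := by
  apply Subtype.ext
  simp [sl, map_mul]

section invariant

variable {F : Type*} [FunLike F ℍ ℂ]

/-- If `γ⁻¹` represents the coset `q`, then `f ∣ rep q = f ∣ γ` for `𝒢`-invariant `f`. -/
lemma slash_rep_eq [SlashInvariantFormClass F 𝒢 k] (f : F) (q : Q 𝒢) (γ : SL(2, ℤ))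
    (h : (((sl γ)⁻¹ : 𝒮ℒ) : Q 𝒢) = q) : ⇑f ∣[k] rep q = ⇑f ∣[k] γ := by
  have h1 : (((sl γ)⁻¹ : 𝒮ℒ) : Q 𝒢) = ((q.out : 𝒮ℒ) : Q 𝒢) := by rw [h, QuotientGroup.out_eq']
  rw [QuotientGroup.eq, inv_inv] at h1
  have h2 : mapGL ℝ (γ * (rep q)⁻¹) ∈ 𝒢 := by
    rw [Subgroup.mem_subgroupOf] at h1
    simpa [sl, map_mul, map_inv, mapGL_rep] using h1
  have h3 : γ = (γ * (rep q)⁻¹) * rep q := by group
  conv_rhs => rw [h3, SlashAction.slash_mul, slash_eq_of_mem f h2]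

lemma slash_rep_mk [SlashInvariantFormClass F 𝒢 k] (f : F) (γ : SL(2, ℤ)) :
    ⇑f ∣[k] rep ((((sl γ)⁻¹ : 𝒮ℒ) : Q 𝒢)) = ⇑f ∣[k] γ :=
  slash_rep_eq f _ γ rfl

/-- The translate attached to `T⁻¹ • q` is the translate attached to `q`, slashed by `T`. -/
lemma slash_rep_smul [SlashInvariantFormClass F 𝒢 k] (f : F) (q : Q 𝒢) :
    ⇑f ∣[k] rep ((sl ModularGroup.T)⁻¹ • q) = ⇑f ∣[k] (rep q * ModularGroup.T) := by
  apply slash_rep_eq
  have h1 : (sl (rep q * ModularGroup.T))⁻¹ = (sl ModularGroup.T)⁻¹ * q.out := by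
    rw [← sl_rep_inv q, ← mul_inv_rev, sl_mul]
  rw [h1]
  conv_rhs => rw [← QuotientGroup.out_eq' q]
  rfl

lemma slash_rep_pow_smul [SlashInvariantFormClass F 𝒢 k] (f : F) (q : Q 𝒢) (m : ℕ) :
    ⇑f ∣[k] rep ((sl ModularGroup.T)⁻¹ ^ m • q) = ⇑f ∣[k] (rep q * ModularGroup.T ^ m) := by
  induction m with
  | zero => simp
  | succ m ih =>
    rw [pow_succ', mul_smul, slash_rep_smul, SlashAction.slash_mul, ih, ← SlashAction.slash_mul,
      pow_succ, mul_assoc]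

end invariant

lemma cuspCoeff_congr {f : ℍ → ℂ} {γ γ' : SL(2, ℤ)} (h : f ∣[k] γ = f ∣[k] γ') (n : ℕ) :
    cuspCoeff N k f γ n = cuspCoeff N k f γ' n := by
  simp only [cuspCoeff, h]

lemma leadSum_congr {f : ℍ → ℂ} {γ γ' : SL(2, ℤ)} (h : f ∣[k] γ = f ∣[k] γ') :
    leadSum N k f γ = leadSum N k f γ' := by
  simp only [leadSum, cuspCoeff, h]

/-! ### Linearity of the coefficients -/

section linear

variable [𝒢.IsArithmetic] [𝒢.HasDetOne]

omit [𝒢.HasDetOne] in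
lemma cuspCoeff_add (hG : GoodLevel 𝒢 N) (f g : ModularForm 𝒢 k) (γ : SL(2, ℤ)) (n : ℕ) :
    cuspCoeff N k (⇑f + ⇑g) γ n = cuspCoeff N k f γ n + cuspCoeff N k g γ n := by
  symm
  refine cuspCoeff_unique hG (f + g) γ
    (c := fun n ↦ cuspCoeff N k f γ n + cuspCoeff N k g γ n) (fun z ↦ ?_) n
  have h1 : (⇑(f + g) ∣[k] γ) z = (⇑f ∣[k] γ) z + (⇑g ∣[k] γ) z := by
    rw [FunLike.coe_add, SlashAction.add_slash]
    rfl
  rw [h1]
  simp only [add_mul]
  exact (hasSum_cuspCoeff hG f γ z).add (hasSum_cuspCoeff hG g γ z)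

lemma cuspCoeff_smul (hG : GoodLevel 𝒢 N) (c : ℂ) (f : ModularForm 𝒢 k) (γ : SL(2, ℤ)) (n : ℕ) :
    cuspCoeff N k (c • ⇑f) γ n = c * cuspCoeff N k f γ n := by
  symm
  refine cuspCoeff_unique hG (c • f) γ
    (c := fun n ↦ c * cuspCoeff N k f γ n) (fun z ↦ ?_) n
  have h1 : (⇑(c • f) ∣[k] γ) z = c * (⇑f ∣[k] γ) z := by
    rw [FunLike.coe_smul, SL_smul_slash]
    rfl
  rw [h1]
  simp only [mul_assoc]
  exact (hasSum_cuspCoeff hG f γ z).mul_left c

/-- The `n`-th `q_N`-coefficient of the translate by `γ`, as a linear form on `MFG 𝒢 k`. -/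
def coeffLin (hG : GoodLevel 𝒢 N) (k : ℤ) (γ : SL(2, ℤ)) (n : ℕ) : ↥(MFG 𝒢 k) →ₗ[ℂ] ℂ where
  toFun f := cuspCoeff N k (f : ℍ → ℂ) γ n
  map_add' := by
    rintro ⟨_, f, rfl⟩ ⟨_, g, rfl⟩
    exact cuspCoeff_add hG f g γ n
  map_smul' := by
    rintro c ⟨_, f, rfl⟩
    exact cuspCoeff_smul hG c f γ n

/-- The leading map: `lead f q = ∑_{n<N} a_n(tr f q)`. -/
def lead (hG : GoodLevel 𝒢 N) (k : ℤ) : ↥(MFG 𝒢 k) →ₗ[ℂ] (Q 𝒢 → ℂ) :=
  LinearMap.pi fun q ↦ ∑ n ∈ Finset.range N, coeffLin hG k (rep q) n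

/-- The constant-term map: `cst f q = a_0(tr f q)`. -/
def cst (hG : GoodLevel 𝒢 N) (k : ℤ) : ↥(MFG 𝒢 k) →ₗ[ℂ] (Q 𝒢 → ℂ) :=
  LinearMap.pi fun q ↦ coeffLin hG k (rep q) 0

lemma lead_apply (hG : GoodLevel 𝒢 N) (f : ↥(MFG 𝒢 k)) (q : Q 𝒢) :
    lead hG k f q = leadSum N k (f : ℍ → ℂ) (rep q) := by
  simp [lead, coeffLin, leadSum]

lemma cst_apply (hG : GoodLevel 𝒢 N) (f : ↥(MFG 𝒢 k)) (q : Q 𝒢) :
    cst hG k f q = cuspCoeff N k (f : ℍ → ℂ) (rep q) 0 := rfl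

/-- In terms of the spec's translates. -/
lemma lead_apply' (hG : GoodLevel 𝒢 N) (f : ↥(MFG 𝒢 k)) (q : Q 𝒢) :
    lead hG k f q =
      ∑ n ∈ Finset.range N, (qExpansion (N : ℝ) (tr 𝒢 k (f : ℍ → ℂ) q)).coeff n := by
  rw [lead_apply, tr_eq_slash_rep]
  rfl

lemma cst_apply' (hG : GoodLevel 𝒢 N) (f : ↥(MFG 𝒢 k)) (q : Q 𝒢) :
    cst hG k f q = (qExpansion (N : ℝ) (tr 𝒢 k (f : ℍ → ℂ) q)).coeff 0 := by
  rw [cst_apply, tr_eq_slash_rep]
  rfl

/-! ### Multiplication by `Δ` and the kernel of the leading map -/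

/-- Multiplication by `Δ` on functions. -/
def mulDisc : (ℍ → ℂ) →ₗ[ℂ] (ℍ → ℂ) where
  toFun g := fun z ↦ Δ z * g z
  map_add' := by intros; funext z; simp [mul_add]
  map_smul' := by intros; funext z; simp [mul_left_comm]

lemma mulDisc_injective : Function.Injective mulDisc := by
  intro g h hgh
  funext z
  exact mul_left_cancel₀ (discriminant_ne_zero z) (congrFun hgh z)

lemma mulDisc_mem (hG : GoodLevel 𝒢 N) {g : ℍ → ℂ} (hg : g ∈ MFG 𝒢 (k - 12)) :
    mulDisc g ∈ MFG 𝒢 k := by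
  obtain ⟨g, rfl⟩ := hg
  have hsl : ∀ γ : SL(2, ℤ), (fun z ↦ Δ z * g z) ∣[k] γ = Δ * (⇑g ∣[k - 12] γ) := by
    intro γ
    have h1 : (Δ * ⇑g) ∣[(12 : ℤ) + (k - 12)] γ = (Δ ∣[(12 : ℤ)] γ) * (⇑g ∣[k - 12] γ) :=
      mul_slash_SL2 12 (k - 12) γ _ _
    rw [discriminant_slash] at h1
    have h2 : (12 : ℤ) + (k - 12) = k := by ring
    rw [h2] at h1
    exact h1
  refine ⟨{ toFun := fun z ↦ Δ z * g z
            slash_action_eq' := ?_
            holo' := ?_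
            bdd_at_cusps' := ?_ }, rfl⟩
  · intro A hA
    obtain ⟨γ, rfl⟩ := hG.le hA
    have h1 := hsl γ
    rw [slash_eq_of_mem g hA] at h1
    exact h1
  · exact CuspForm.discriminant.holo'.mul g.holo'
  · intro c hc
    rw [Subgroup.IsArithmetic.isCusp_iff_isCusp_SL2Z] at hc
    rw [OnePoint.isBoundedAt_iff_forall_SL2Z hc]
    intro γ _
    rw [hsl γ]
    exact (ModularFormClass.bdd_at_infty CuspForm.discriminant).mul (bdd_slash g γ)

/-- (ker L) A form with vanishing leading map is divisible by `Δ`. -/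
lemma exists_of_lead_eq_zero (hG : GoodLevel 𝒢 N) (f : ↥(MFG 𝒢 k)) (hf : lead hG k f = 0) :
    ∃ g ∈ MFG 𝒢 (k - 12), (f : ℍ → ℂ) = mulDisc g := by
  obtain ⟨f, F, rfl⟩ := f
  have h1 : ∀ γ : SL(2, ℤ), leadSum N k F γ = 0 := by
    intro γ
    rw [← leadSum_congr (slash_rep_mk F γ)]
    have := congrFun hf (((sl γ)⁻¹ : 𝒮ℒ) : Q 𝒢)
    simpa [lead_apply] using this
  obtain ⟨g, hg⟩ := exists_eq_discriminant_mul hG F
    (fun γ n hn ↦ cuspCoeff_eq_zero_of_leadSum_eq_zero hG F h1 γ hn)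
  exact ⟨g, ⟨g, rfl⟩, funext hg⟩

lemma finrank_ker_lead_le (hG : GoodLevel 𝒢 N) [Module.Finite ℂ (MFG 𝒢 k)] :
    Module.finrank ℂ (LinearMap.ker (lead hG k)) ≤ Module.finrank ℂ (MFG 𝒢 (k - 12)) := by
  have h1 : (MFG 𝒢 (k - 12)).map mulDisc ≤ MFG 𝒢 k := by
    rintro _ ⟨g, hg, rfl⟩
    exact mulDisc_mem hG hg
  have h2 : (LinearMap.ker (lead hG k)).map (MFG 𝒢 k).subtype ≤ (MFG 𝒢 (k - 12)).map mulDisc := by
    rintro _ ⟨f, hf, rfl⟩
    obtain ⟨g, hg, hfg⟩ := exists_of_lead_eq_zero hG f (LinearMap.mem_ker.mp hf)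
    exact ⟨g, hg, hfg.symm⟩
  have : Module.Finite ℂ ↥((MFG 𝒢 (k - 12)).map mulDisc) :=
    Submodule.finiteDimensional_of_le h1
  calc Module.finrank ℂ (LinearMap.ker (lead hG k))
      = Module.finrank ℂ ↥((LinearMap.ker (lead hG k)).map (MFG 𝒢 k).subtype) :=
        (Submodule.finrank_map_subtype_eq _ _).symm
    _ ≤ Module.finrank ℂ ↥((MFG 𝒢 (k - 12)).map mulDisc) := Submodule.finrank_mono h2
    _ = Module.finrank ℂ (MFG 𝒢 (k - 12)) :=
        (LinearEquiv.finrank_eq (Submodule.equivMapOfInjective mulDisc mulDisc_injective _)).symm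

/-- (onto) If `dim M_k = dim M_{k-12} + μ`, the leading map is onto. -/
lemma lead_surjective (hG : GoodLevel 𝒢 N)
    (hk : Module.finrank ℂ (MFG 𝒢 k) = Module.finrank ℂ (MFG 𝒢 (k - 12)) + mu 𝒢) :
    Function.Surjective (lead hG k) := by
  have hmu : 0 < mu 𝒢 := Nat.card_pos
  have hfin : Module.Finite ℂ (MFG 𝒢 k) := Module.finite_of_finrank_pos (by omega)
  have h1 := LinearMap.finrank_range_add_finrank_ker (lead hG k)
  have h2 := finrank_ker_lead_le (k := k) hG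
  have h3 : Module.finrank ℂ (Q 𝒢 → ℂ) = mu 𝒢 := by
    rw [Module.finrank_fintype_fun_eq_card, mu, Nat.card_eq_fintype_card]
  have h4 : Module.finrank ℂ (LinearMap.range (lead hG k)) ≤ Module.finrank ℂ (Q 𝒢 → ℂ) :=
    Submodule.finrank_le _
  rw [← LinearMap.range_eq_top]
  apply Submodule.eq_top_of_finrank_eq
  omega

/-! ### The constant-term map -/

omit [𝒢.IsArithmetic] in
lemma CFG_le_MFG : CFG 𝒢 k ≤ MFG 𝒢 k := by
  rintro _ ⟨F, rfl⟩
  exact ⟨⟨F.toSlashInvariantForm, F.holo', fun hc ↦ ModularFormClass.bdd_at_cusps F hc⟩, rfl⟩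

/-- A form all of whose translates have vanishing constant term is a cusp form. -/
lemma mem_CFG_of_cst_eq_zero (hG : GoodLevel 𝒢 N) (f : ↥(MFG 𝒢 k)) (hf : cst hG k f = 0) :
    (f : ℍ → ℂ) ∈ CFG 𝒢 k := by
  have hN : (0 : ℝ) < N := by exact_mod_cast hG.pos
  obtain ⟨f, F, rfl⟩ := f
  refine ⟨{ toSlashInvariantForm := F.toSlashInvariantForm
            holo' := F.holo'
            zero_at_cusps' := ?_ }, rfl⟩
  intro c hc
  rw [Subgroup.IsArithmetic.isCusp_iff_isCusp_SL2Z] at hc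
  rw [OnePoint.isZeroAt_iff_forall_SL2Z hc]
  intro γ _
  have h0 : cuspCoeff N k F γ 0 = 0 := by
    rw [← cuspCoeff_congr (slash_rep_mk F γ)]
    exact congrFun hf _
  have h1 := isBigO_slash_of_cuspCoeff_eq_zero hG F γ 1
    (by intro n hn; interval_cases n; exact h0)
  refine h1.trans_tendsto ?_
  simpa using tendsto_zero_iff_norm_tendsto_zero.mp (qParam_tendsto_atImInfty hN)

/-- The translates of a cusp form have vanishing constant term. -/
lemma cst_eq_zero_of_mem_CFG (hG : GoodLevel 𝒢 N) (f : ↥(MFG 𝒢 k))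
    (hf : (f : ℍ → ℂ) ∈ CFG 𝒢 k) : cst hG k f = 0 := by
  have hN : (0 : ℝ) < N := by exact_mod_cast hG.pos
  obtain ⟨G, hG'⟩ := hf
  funext q
  rw [cst_apply, ← hG', cuspCoeff, qExpansion_coeff_zero hN
    (analyticAt_cuspFunction_slash hG G _) (periodic_slash hG G _)]
  exact (zero_slash G _).valueAtInfty_eq_zero

lemma ker_cst (hG : GoodLevel 𝒢 N) :
    LinearMap.ker (cst hG k) = (CFG 𝒢 k).comap (MFG 𝒢 k).subtype := by
  ext f
  exact ⟨fun h ↦ mem_CFG_of_cst_eq_zero hG f (LinearMap.mem_ker.mp h),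
    fun h ↦ LinearMap.mem_ker.mpr (cst_eq_zero_of_mem_CFG hG f h)⟩

lemma finrank_ker_cst (hG : GoodLevel 𝒢 N) :
    Module.finrank ℂ (LinearMap.ker (cst hG k)) = Module.finrank ℂ (CFG 𝒢 k) := by
  rw [ker_cst]
  exact LinearEquiv.finrank_eq (Submodule.comapSubtypeEquivOfLe CFG_le_MFG)

/-! ### `T`-invariance -/

lemma cst_smul (hG : GoodLevel 𝒢 N) (f : ↥(MFG 𝒢 k)) (q : Q 𝒢) :
    cst hG k f ((sl ModularGroup.T)⁻¹ • q) = cst hG k f q := by
  obtain ⟨f, F, rfl⟩ := f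
  change cuspCoeff N k F (rep ((sl ModularGroup.T)⁻¹ • q)) 0 = cuspCoeff N k F (rep q) 0
  rw [cuspCoeff_congr (slash_rep_smul F q), cuspCoeff_mul_T hG]
  simp

/-- The constant term is the average of the leading map along the `T`-orbit. -/
lemma natCast_mul_cst (hG : GoodLevel 𝒢 N) (f : ↥(MFG 𝒢 k)) (q : Q 𝒢) :
    (N : ℂ) * cst hG k f q =
      ∑ m ∈ Finset.range N, lead hG k f ((sl ModularGroup.T)⁻¹ ^ m • q) := by
  simp only [lead_apply]
  obtain ⟨f, F, rfl⟩ := f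
  change (N : ℂ) * cuspCoeff N k F (rep q) 0 = _
  rw [natCast_mul_cuspCoeff_zero_eq hG F (rep q)]
  refine Finset.sum_congr rfl fun m _ ↦ ?_
  exact (leadSum_congr (slash_rep_pow_smul F q m)).symm

omit [𝒢.IsArithmetic] [𝒢.HasDetOne] in
/-- Invariance under `T⁻¹` implies invariance under the group generated by `T`. -/
lemma invariant_zpowers {v : Q 𝒢 → ℂ} (hv : ∀ q, v ((sl ModularGroup.T)⁻¹ • q) = v q)
    (g : Subgroup.zpowers (sl ModularGroup.T)) (q : Q 𝒢) : v (g • q) = v q := by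
  have h2 : ∀ q, v (sl ModularGroup.T • q) = v q := by
    intro q
    have := hv (sl ModularGroup.T • q)
    rw [inv_smul_smul] at this
    exact this.symm
  obtain ⟨g, j, rfl⟩ := g
  change v ((sl ModularGroup.T) ^ j • q) = v q
  induction j using Int.induction_on generalizing q with
  | zero => simp
  | succ i ih => rw [zpow_add_one, mul_smul, ih, h2]
  | pred i ih => rw [zpow_sub_one, mul_smul, ih, hv]

/-- The `T`-orbits on the cosets. -/
abbrev Orb (𝒢 : Subgroup (GL (Fin 2) ℝ)) : Type :=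
  MulAction.orbitRel.Quotient (Subgroup.zpowers (sl ModularGroup.T)) (Q 𝒢)

/-- (range of cst) If the leading map is onto, the range of the constant-term map is the space
of `T`-invariant functions on the cosets. -/
lemma range_cst (hG : GoodLevel 𝒢 N) (hsurj : Function.Surjective (lead hG k)) :
    LinearMap.range (cst hG k) =
      LinearMap.range (LinearMap.funLeft ℂ ℂ (Quotient.mk'' : Q 𝒢 → Orb 𝒢)) := by
  have hN : (N : ℂ) ≠ 0 := by exact_mod_cast hG.pos.ne'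
  apply le_antisymm
  · rintro _ ⟨f, rfl⟩
    refine ⟨Quotient.lift (cst hG k f) ?_, ?_⟩
    · intro a b hab
      obtain ⟨g, rfl⟩ := hab
      exact invariant_zpowers (cst_smul hG f) g b
    · funext q
      rfl
  · rintro _ ⟨w, rfl⟩
    obtain ⟨f, hf⟩ := hsurj (LinearMap.funLeft ℂ ℂ (Quotient.mk'' : Q 𝒢 → Orb 𝒢) w)
    refine ⟨f, ?_⟩
    funext q
    have h1 := natCast_mul_cst hG f q
    rw [hf] at h1
    have h2 : ∀ m : ℕ, LinearMap.funLeft ℂ ℂ (Quotient.mk'' : Q 𝒢 → Orb 𝒢) w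
        ((sl ModularGroup.T)⁻¹ ^ m • q) =
        LinearMap.funLeft ℂ ℂ (Quotient.mk'' : Q 𝒢 → Orb 𝒢) w q := by
      intro m
      simp only [LinearMap.funLeft_apply]
      congr 1
      apply Quotient.sound
      exact ⟨⟨(sl ModularGroup.T)⁻¹ ^ m,
        Subgroup.pow_mem _ (Subgroup.inv_mem _ (Subgroup.mem_zpowers _)) m⟩, rfl⟩
    simp only [h2, Finset.sum_const, Finset.card_range, nsmul_eq_mul] at h1
    exact mul_left_cancel₀ hN h1

lemma finrank_range_cst (hG : GoodLevel 𝒢 N) (hsurj : Function.Surjective (lead hG k)) :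
    Module.finrank ℂ (LinearMap.range (cst hG k)) = cusps 𝒢 := by
  classical
  have : Fintype (Orb 𝒢) := Fintype.ofFinite _
  rw [range_cst hG hsurj, LinearMap.finrank_range_of_inj
    (LinearMap.funLeft_injective_of_surjective ℂ ℂ _ Quotient.mk''_surjective),
    Module.finrank_fintype_fun_eq_card, cusps, Nat.card_eq_fintype_card]

/-- **(CUSP)** `Stmt_Cusp` of the S20 spec. -/
theorem stmt_Cusp (hG : GoodLevel 𝒢 N) : Stmt_Cusp 𝒢 := by
  intro k hk
  have hmu : 0 < mu 𝒢 := Nat.card_pos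
  have hfin : Module.Finite ℂ (MFG 𝒢 k) := Module.finite_of_finrank_pos (by omega)
  have hsurj := lead_surjective hG hk
  have h1 := LinearMap.finrank_range_add_finrank_ker (cst hG k)
  rw [finrank_ker_cst hG, finrank_range_cst hG hsurj] at h1
  omega

end linear

/-- **`Goal_Cusp`** of `helper560_Spec`. -/
theorem goal_Cusp : Goal_Cusp := fun _ _ _ _ hG ↦ stmt_Cusp hG

end

end Fermat.Agent.S20.helper1220.G
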