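/-
S20 (seat helper1220): the leading vectors of a free basis are linearly independent.

`cuspCoeff_levelOne_mul` : `a_n((P·f)∣γ) = P(∞)·a_n(f∣γ)` for `n < N`, `P` of level one;
`lead_indep` : for a homogeneous free basis `(κ, F)` of `MFG 𝒢`, the vectors
`q ↦ ∑_{n<N} a_n(tr (F j) q)` are linearly independent (homogenise with Eisenstein series,
divide by `Δ`, use uniqueness of expansions).
-/
import Mathlib
import Fermat.Agent.S20.helper560_Spec
import Fermat.Agent.S20.helper1220_Cusp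
import Fermat.Agent.S20.helper2805_Basic

set_option autoImplicit false

open UpperHalfPlane ModularForm MatrixGroups CongruenceSubgroup Matrix.SpecialLinearGroup Function
open Filter Asymptotics
open scoped ModularForm Real Manifold Pointwise

namespace Fermat.Agent.S20.helper1220.G

open Fermat.Agent.S20.helper560

noncomputable section

variable {N : ℕ} {k : ℤ} {𝒢 : Subgroup (GL (Fin 2) ℝ)}

local notation "Δ" => ModularForm.discriminant

/-! ### Level one multipliers -/

lemma periodic_levelOne {a : ℤ} (P : ModularForm 𝒮ℒ a) :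
    Periodic (⇑P ∘ ofComplex) ((1 : ℝ) : ℂ) :=
  SlashInvariantFormClass.periodic_comp_ofComplex P one_mem_strictPeriods_SL

lemma analyticAt_cuspFunction_levelOne (hN : 0 < N) {a : ℤ} (P : ModularForm 𝒮ℒ a) :
    AnalyticAt ℂ (cuspFunction (N : ℝ) ⇑P) 0 := by
  have hN' : (0 : ℝ) < N := by exact_mod_cast hN
  have hper : Periodic (⇑P ∘ ofComplex) ((N : ℝ) : ℂ) := by
    have := (periodic_levelOne P).nat_mul N
    simpa using this
  exact analyticAt_cuspFunction_zero hN' hper (ModularFormClass.holo P)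
    (ModularFormClass.bdd_at_infty P)

/-- The `q_N`-coefficients of a level one form: only the multiples of `N` occur. -/
lemma qExpansion_levelOne_coeff (hN : 0 < N) {a : ℤ} (P : ModularForm 𝒮ℒ a) (n : ℕ) :
    (qExpansion (N : ℝ) ⇑P).coeff n = if N ∣ n then (qExpansion 1 ⇑P).coeff (n / N) else 0 := by
  have := UpperHalfPlane.qExpansion_coeff_nat_mul (h := 1) one_pos (F := ⇑P)
    (periodic_levelOne P) (ModularFormClass.holo P) (ModularFormClass.bdd_at_infty P) hN n
  simpa using this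

/-- **Product rule**: `a_n((P·f)∣γ) = P(∞)·a_n(f∣γ)` for `n < N` and `P` of level one. -/
lemma cuspCoeff_levelOne_mul [𝒢.IsArithmetic] (hG : GoodLevel 𝒢 N) {a b : ℤ}
    (P : ModularForm 𝒮ℒ a) (f : ModularForm 𝒢 b) (γ : SL(2, ℤ)) {n : ℕ} (hn : n < N) :
    cuspCoeff N (a + b) (⇑P * ⇑f) γ n = (qExpansion 1 ⇑P).coeff 0 * cuspCoeff N b f γ n := by
  have h1 : (⇑P * ⇑f) ∣[a + b] γ = ⇑P * (⇑f ∣[b] γ) := by
    rw [mul_slash_SL2]
    congr 1
    rw [SL_slash]
    exact SlashInvariantForm.slash_action_eqn P _ ⟨γ, rfl⟩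
  rw [cuspCoeff, h1, qExpansion_mul (analyticAt_cuspFunction_levelOne hG.pos P)
    (analyticAt_cuspFunction_slash hG f γ), PowerSeries.coeff_mul]
  rw [Finset.sum_eq_single (0, n)]
  · rw [qExpansion_levelOne_coeff hG.pos]
    simp [cuspCoeff]
  · rintro ⟨i, j⟩ hij hne
    have hsum : i + j = n := by simpa using hij
    have hi : i ≠ 0 := by
      rintro rfl
      apply hne
      simp only [zero_add] at hsum
      rw [hsum]
    rw [qExpansion_levelOne_coeff hG.pos, if_neg, zero_mul]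
    intro hdvd
    have := Nat.le_of_dvd (Nat.pos_of_ne_zero hi) hdvd
    omega
  · intro h
    exact absurd (by simp) h

/-! ### Nonvanishing and parity of the generators -/

lemma one_mem_RR_zero : (1 : ℍ → ℂ) ∈ RR 0 := ⟨1, rfl⟩

lemma freeBasis_ne_zero [𝒢.HasDetOne] {J : Type} [Fintype J] {κ : J → ℤ} {F : J → ℍ → ℂ}
    (hF : IsFreeBasis (MFG 𝒢) κ F) (j : J) : F j ≠ 0 := by
  classical
  intro h0
  have h := (hF.2 (κ j) 0 (zero_mem _)).unique (y₁ := 0) (y₂ := Pi.single j 1)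
    ⟨fun i ↦ zero_mem _, by simp⟩ ⟨fun i ↦ ?_, ?_⟩
  · have := congrFun (congrFun h j) UpperHalfPlane.I
    simp at this
  · by_cases hij : i = j
    · subst hij
      rw [Pi.single_eq_same, sub_self]
      exact one_mem_RR_zero
    · rw [Pi.single_eq_of_ne hij]
      exact zero_mem _
  · rw [Finset.sum_eq_single j]
    · simp [h0]
    · intro i _ hij
      rw [Pi.single_eq_of_ne hij, zero_mul]
    · intro h
      exact absurd (Finset.mem_univ j) h

lemma freeBasis_even [𝒢.HasDetOne] (hneg : -1 ∈ 𝒢) {J : Type} [Fintype J] {κ : J → ℤ}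
    {F : J → ℍ → ℂ} (hF : IsFreeBasis (MFG 𝒢) κ F) (j : J) : Even (κ j) := by
  by_contra hodd
  rw [Int.not_even_iff_odd] at hodd
  have h1 := hF.1 j
  rw [helper2805.MFG_eq_bot_of_odd hneg hodd, Submodule.mem_bot] at h1
  exact freeBasis_ne_zero hF j h1

/-! ### Linear independence of the leading vectors -/

section indep

variable [𝒢.IsArithmetic] [𝒢.HasDetOne]

omit [𝒢.HasDetOne] in
/-- The leading map of a product with a level one form. -/
lemma leadSum_levelOne_mul (hG : GoodLevel 𝒢 N) {a b : ℤ}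
    (P : ModularForm 𝒮ℒ a) (f : ModularForm 𝒢 b) (γ : SL(2, ℤ)) :
    leadSum N (a + b) (⇑P * ⇑f) γ = (qExpansion 1 ⇑P).coeff 0 * leadSum N b f γ := by
  rw [leadSum, leadSum, Finset.mul_sum]
  exact Finset.sum_congr rfl fun n hn ↦ cuspCoeff_levelOne_mul hG P f γ (Finset.mem_range.mp hn)

/-- **(L1)** The leading vectors of a homogeneous free basis are linearly independent. -/
theorem lead_indep (hG : GoodLevel 𝒢 N) {J : Type} [Fintype J] {κ : J → ℤ} {F : J → ℍ → ℂ}
    (hF : IsFreeBasis (MFG 𝒢) κ F) (c : J → ℂ)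
    (hc : ∀ q : Q 𝒢, ∑ j, c j * leadSum N (κ j) (F j) (rep q) = 0) : c = 0 := by
  classical
  -- a common weight `k` with `k - κ j ≥ 4` even
  set k : ℤ := 2 * (2 + ∑ j, |κ j|) with hk
  have hm : ∀ j, ∃ m : ℕ, 3 ≤ m ∧ Even m ∧ (m : ℤ) + κ j = k := by
    intro j
    obtain ⟨t, ht⟩ := freeBasis_even hG.neg hF j
    have h1 : |κ j| ≤ ∑ i, |κ i| :=
      Finset.single_le_sum (f := fun i ↦ |κ i|) (fun i _ ↦ abs_nonneg _) (Finset.mem_univ j)
    have h2 : κ j ≤ |κ j| := le_abs_self _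
    have h3 : 0 ≤ |κ j| := abs_nonneg _
    refine ⟨(2 * (2 + ∑ i, |κ i| - t)).toNat, ?_, ?_, ?_⟩
    · omega
    · refine ⟨(2 + ∑ i, |κ i| - t).toNat, ?_⟩
      omega
    · omega
  choose m hm3 hmeven hmk using hm
  -- the multipliers: Eisenstein series with constant term `1`
  let E : ∀ j, ModularForm 𝒮ℒ ((m j : ℕ) : ℤ) := fun j ↦ ModularForm.E (hm3 j)
  have hE0 : ∀ j, (qExpansion 1 ⇑(E j)).coeff 0 = 1 := fun j ↦
    EisensteinSeries.E_qExpansion_coeff_zero (hm3 j) (hmeven j)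
  have hERR : ∀ j, ⇑(E j) ∈ RR (k - κ j) := fun j ↦ by
    have : k - κ j = (m j : ℤ) := by have := hmk j; omega
    rw [this]
    exact ⟨E j, rfl⟩
  choose Fm hFm using hF.1
  have hmem : ∀ j, ⇑(E j) * F j ∈ MFG 𝒢 k := fun j ↦ by
    have := helper2805.RR_mul_MFG hG.le (m j : ℤ) (κ j) _ _ ⟨E j, rfl⟩ (hF.1 j)
    rwa [hmk j] at this
  let f : ↥(MFG 𝒢 k) := ∑ j, c j • (⟨⇑(E j) * F j, hmem j⟩ : ↥(MFG 𝒢 k))
  have hfcoe : (f : ℍ → ℂ) = ∑ j, (c j • ⇑(E j)) * F j := by
    simp only [f, Submodule.coe_sum, Submodule.coe_smul, smul_mul_assoc]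
  -- its leading map vanishes
  have hlead : lead hG k f = 0 := by
    funext q
    simp only [f, map_sum, map_smul, Finset.sum_apply, Pi.smul_apply, smul_eq_mul, Pi.zero_apply]
    rw [← hc q]
    refine Finset.sum_congr rfl fun j _ ↦ ?_
    congr 1
    rw [lead_apply]
    change leadSum N k (⇑(E j) * F j) (rep q) = _
    have h1 := leadSum_levelOne_mul hG (E j) (Fm j) (rep q)
    rw [hE0 j, one_mul, hmk j, hFm j] at h1
    exact h1
  -- hence `f = Δ · g`
  obtain ⟨g, hg, hfg⟩ := exists_of_lead_eq_zero hG f hlead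
  obtain ⟨R, ⟨hR, hgR⟩, -⟩ := hF.2 (k - 12) g hg
  have hΔ : (Δ : ℍ → ℂ) ∈ RR 12 := CFG_le_MFG ⟨CuspForm.discriminant, rfl⟩
  have huniq := (hF.2 k f.1 f.2).unique (y₁ := fun j ↦ c j • ⇑(E j)) (y₂ := fun j ↦ Δ * R j)
    ⟨fun j ↦ Submodule.smul_mem _ _ (hERR j), hfcoe⟩ ⟨fun j ↦ ?_, ?_⟩
  · funext j
    have h1 := congrFun huniq j
    obtain ⟨Rm, hRm⟩ := hR j
    have h2 : (qExpansion 1 (c j • ⇑(E j))).coeff 0 = c j := by
      rw [qExpansion_smul (ModularFormClass.analyticAt_cuspFunction_zero (E j) one_pos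
        one_mem_strictPeriods_SL)]
      simp [hE0 j]
    have h3 : (qExpansion 1 (Δ * R j)).coeff 0 = 0 := by
      have hmul := qExpansion_mul_coeff_zero (h := 1) (f := (Δ : ℍ → ℂ)) (g := ⇑Rm)
        (ModularFormClass.analyticAt_cuspFunction_zero CuspForm.discriminant one_pos
          one_mem_strictPeriods_SL).continuousAt
        (ModularFormClass.analyticAt_cuspFunction_zero Rm one_pos
          one_mem_strictPeriods_SL).continuousAt
      have : (qExpansion 1 (Δ : ℍ → ℂ)).coeff 0 = 0 :=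
        CuspFormClass.qExpansion_coeff_zero CuspForm.discriminant one_pos one_mem_strictPeriods_SL
      rw [← hRm, hmul, this, zero_mul]
    rw [h1, h3] at h2
    exact h2.symm
  · have := helper2805.RR_mul_MFG (𝒢 := 𝒮ℒ) le_rfl 12 (k - 12 - κ j) _ _ hΔ (hR j)
    have h12 : (12 : ℤ) + (k - 12 - κ j) = k - κ j := by ring
    rwa [h12] at this
  · rw [hfg, hgR]
    funext z
    simp [mulDisc, mul_assoc]

end indep

end

end Fermat.Agent.S20.helper1220.G
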