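/-
S20 (helper146): `Stmt_CuspFact` of `helper1040_Spec`, proved for every subgroup
`Γ ≤ SL(2,ℤ)` with finite coset space (in particular `Γ₀(N)`).

For a coset-indexed free basis `(κ, G)` with even weights we produce cusp data `(U, Λ, s)`:
* `U⁻¹ = dftV T` is the block discrete Fourier transform along the `T`-orbits on `SL(2,ℤ) ⧸ Γ`,
* `s x = r / w` for `x = T^r • b` in a `T`-orbit of length `w`, so `2 ∑ s = index - #cusps`,
* `Λ = leadMat Γ κ G` is the matrix of limits at `i∞` of the normalised Fourier components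
  `e^{-2πi s_x z} (U⁻¹ Φ(z))_{x,j}`; it is invertible (`leadMat_det_ne_zero`): a kernel vector `c`
  gives `f = ∑ c_j P_j G_j` (`P_j` monomials in `E₄, E₆`, `P_j(∞) = 1`) all of whose translates are
  `O(e^{-2π Im z})`, so `f = Δ · g` with `g` a modular form, and freeness forces `c = 0`.

Main results: `stmt_CuspFact`, `leadMat_det_ne_zero`, `tendsto_leadMat`.
Sorry-free; imports Mathlib + helper1040_Spec + helper146_CuspToolkit.
-/
import Fermat.Agent.S20.helper146_CuspToolkit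

set_option autoImplicit false

open UpperHalfPlane ModularForm Matrix.SpecialLinearGroup Filter Complex Asymptotics
open scoped MatrixGroups ModularForm Manifold Topology Real

namespace Fermat.Agent.S20.helper146

open Fermat.Agent.S20.helper1040

section PsiSection

variable {Γ : Subgroup SL(2, ℤ)} [Fintype (SL(2, ℤ) ⧸ Γ)]

/-- The exponent `s x = r / w` of the coset `x = T^r • b` in a `T`-orbit of length `w`. -/
noncomputable def sExp (x : SL(2, ℤ) ⧸ Γ) : ℝ :=
  (oidx ModularGroup.T x : ℝ) / (ow ModularGroup.T x : ℝ)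

theorem sExp_nonneg (x : SL(2, ℤ) ⧸ Γ) : 0 ≤ sExp x := by
  unfold sExp
  positivity

theorem sExp_lt_one (x : SL(2, ℤ) ⧸ Γ) : sExp x < 1 := by
  unfold sExp
  have hw : (0 : ℝ) < (ow ModularGroup.T x : ℝ) := by exact_mod_cast ow_pos ModularGroup.T x
  rw [div_lt_one hw]
  exact_mod_cast oidx_lt ModularGroup.T x

theorem zeta_pow_eq_cexp (x : SL(2, ℤ) ⧸ Γ) :
    zeta (ow ModularGroup.T x) ^ oidx ModularGroup.T x =
      cexp (2 * π * Complex.I * (sExp x : ℂ)) := by
  unfold zeta sExp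
  rw [← Complex.exp_nat_mul]
  congr 1
  push_cast
  ring

variable [DecidableEq (SL(2, ℤ) ⧸ Γ)]

/-- The Fourier components along the `T`-orbits of a family `F` indexed by the cosets. -/
noncomputable def Psi (F : SL(2, ℤ) ⧸ Γ → ℍ → ℂ) (x : SL(2, ℤ) ⧸ Γ) : ℍ → ℂ :=
  fun z => ∑ y, dftV ModularGroup.T x y * F y z

theorem Psi_twist {F : SL(2, ℤ) ⧸ Γ → ℍ → ℂ}
    (hF : ∀ y z, F (ModularGroup.T • y) ((1 : ℝ) +ᵥ z) = F y z) (x : SL(2, ℤ) ⧸ Γ) (z : ℍ) :
    Psi F x ((1 : ℝ) +ᵥ z) = cexp (2 * π * Complex.I * (sExp x : ℂ)) * Psi F x z := by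
  unfold Psi
  rw [← Equiv.sum_comp (MulAction.toPerm (ModularGroup.T : SL(2, ℤ)))
    (fun y => dftV ModularGroup.T x y * F y ((1 : ℝ) +ᵥ z)), Finset.mul_sum]
  refine Finset.sum_congr rfl fun y _ => ?_
  rw [MulAction.toPerm_apply, hF, dftV_smul, zeta_pow_eq_cexp, mul_assoc]

theorem Psi_mdiff {F : SL(2, ℤ) ⧸ Γ → ℍ → ℂ} (hF : ∀ y, MDiff (F y)) (x : SL(2, ℤ) ⧸ Γ) :
    MDiff (Psi F x) := by
  rw [UpperHalfPlane.mdifferentiable_iff]
  have h : ∀ y ∈ (Finset.univ : Finset (SL(2, ℤ) ⧸ Γ)),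
      DifferentiableOn ℂ (fun w => dftV ModularGroup.T x y * (F y ∘ ofComplex) w)
        {z | 0 < z.im} :=
    fun y _ => (UpperHalfPlane.mdifferentiable_iff.mp (hF y)).const_mul _
  exact (DifferentiableOn.fun_sum h).congr fun w _ => by simp [Psi]

theorem Psi_eq_sum (F : SL(2, ℤ) ⧸ Γ → ℍ → ℂ) (x : SL(2, ℤ) ⧸ Γ) :
    Psi F x = ∑ y, dftV ModularGroup.T x y • F y := by
  funext z
  simp [Psi, Finset.sum_apply]

theorem Psi_bdd {F : SL(2, ℤ) ⧸ Γ → ℍ → ℂ} (hF : ∀ y, IsBoundedAtImInfty (F y))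
    (x : SL(2, ℤ) ⧸ Γ) : IsBoundedAtImInfty (Psi F x) := by
  rw [Psi_eq_sum]
  exact (boundedAtImInftySubalgebra ℂ).sum_mem fun y _ =>
    (boundedAtImInftySubalgebra ℂ).smul_mem (hF y) _

/-- Fourier inversion. -/
theorem sum_dftW_Psi (F : SL(2, ℤ) ⧸ Γ → ℍ → ℂ) (y : SL(2, ℤ) ⧸ Γ) (z : ℍ) :
    ∑ x, dftW ModularGroup.T y x * Psi F x z = F y z := by
  unfold Psi
  simp_rw [Finset.mul_sum, ← mul_assoc]
  rw [Finset.sum_comm]
  have h1 : ∀ y' : SL(2, ℤ) ⧸ Γ,
      ∑ x, dftW ModularGroup.T y x * dftV ModularGroup.T x y' * F y' z =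
        (1 : Matrix (SL(2, ℤ) ⧸ Γ) (SL(2, ℤ) ⧸ Γ) ℂ) y y' * F y' z := by
    intro y'
    rw [← dftW_mul_dftV (ModularGroup.T : SL(2, ℤ)), Matrix.mul_apply, Finset.sum_mul]
    rfl
  rw [Finset.sum_congr rfl fun y' _ => h1 y']
  simp [Matrix.one_apply]

theorem decay_of_Psi_decay {F : SL(2, ℤ) ⧸ Γ → ℍ → ℂ}
    (h : ∀ x, Psi F x =O[atImInfty] fun z : ℍ => Real.exp (-2 * π * z.im))
    (y : SL(2, ℤ) ⧸ Γ) : F y =O[atImInfty] fun z : ℍ => Real.exp (-2 * π * z.im) := by
  have h1 : F y = ∑ x, fun z => dftW ModularGroup.T y x * Psi F x z := by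
    funext z
    rw [Finset.sum_apply]
    exact (sum_dftW_Psi F y z).symm
  rw [h1]
  exact IsBigO.sum fun x _ => (h x).const_mul_left _

theorem Psi_comb {ι : Type*} [Fintype ι] (a : ι → ℍ → ℂ) (F : ι → SL(2, ℤ) ⧸ Γ → ℍ → ℂ)
    (x : SL(2, ℤ) ⧸ Γ) (z : ℍ) :
    Psi (fun y z => ∑ j, a j z * F j y z) x z = ∑ j, a j z * Psi (F j) x z := by
  unfold Psi
  simp_rw [Finset.mul_sum]
  rw [Finset.sum_comm]
  refine Finset.sum_congr rfl fun j _ => Finset.sum_congr rfl fun y _ => ?_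
  ring

end PsiSection

section Main

variable (Γ : Subgroup SL(2, ℤ)) [Fintype (SL(2, ℤ) ⧸ Γ)] [DecidableEq (SL(2, ℤ) ⧸ Γ)]

/-- The leading matrix at `i∞` of a family `G` of forms of weights `κ`: the limits of the
normalised Fourier components of the translates. -/
noncomputable def leadMat {ι : Type} (κ : ι → ℤ) (G : ι → ℍ → ℂ) : Matrix (SL(2, ℤ) ⧸ Γ) ι ℂ :=
  Matrix.of fun x j => valueAtInfty (untwist (sExp x) (Psi (fun y => tr Γ (κ j) (G j) y) x))

theorem tendsto_leadMat {ι : Type} {κ : ι → ℤ} {G : ι → ℍ → ℂ} (hG : ∀ j, IsMF Γ (κ j) (G j))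
    (x : SL(2, ℤ) ⧸ Γ) (j : ι) :
    Tendsto (untwist (sExp x) (Psi (fun y => tr Γ (κ j) (G j) y) x)) atImInfty
      (𝓝 (leadMat Γ κ G x j)) :=
  untwist_tendsto (sExp_lt_one x) (Psi_mdiff (fun y => tr_mdiff (hG j).holo y) x)
    (Psi_bdd (fun _ => (hG j).bdd _) x) (Psi_twist (fun y z => tr_T_smul_vadd (hG j).inv y z) x)

/-- **Exactness at the cusps**: the leading matrix of a coset-indexed free basis (even weights)
is invertible. -/
theorem leadMat_det_ne_zero {κ : SL(2, ℤ) ⧸ Γ → ℤ} {G : SL(2, ℤ) ⧸ Γ → ℍ → ℂ}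
    (hfree : IsFreeBasis Γ κ G) (heven : ∀ x, Even (κ x)) : (leadMat Γ κ G).det ≠ 0 := by
  intro hdet
  obtain ⟨c, hc0, hc⟩ := Matrix.exists_mulVec_eq_zero_iff.mpr hdet
  obtain ⟨hG, hspan, hindep⟩ := hfree
  -- a common weight
  set k : ℤ := 4 + 2 * ∑ j, |κ j| with hk
  have hk4 : ∀ j, 4 ≤ k - κ j := by
    intro j
    have h1 : κ j ≤ |κ j| := le_abs_self _
    have h2 : |κ j| ≤ ∑ i, |κ i| :=
      Finset.single_le_sum (fun i _ => abs_nonneg (κ i)) (Finset.mem_univ j)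
    have h3 : 0 ≤ ∑ i, |κ i| := Finset.sum_nonneg (fun i _ => abs_nonneg _)
    linarith
  have hkeven : ∀ j, Even (k - κ j) := fun j => by
    refine Even.sub ?_ (heven j)
    rw [hk]
    exact Even.add ⟨2, rfl⟩ (even_two_mul _)
  choose P hP hPlim using fun j => exists_isMF1_tendsto_one (hk4 j) (hkeven j)
  set f : ℍ → ℂ := ∑ j, (c j • P j) * G j with hf
  have hfMF : IsMF Γ k f := isMF_sum _ fun j _ =>
    isMF_cast (isMF_mul (isMF_of_top (isMF_smul (c j) (hP j))) (hG j)) (sub_add_cancel k (κ j))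
  -- translates of `f`
  have htr : ∀ y z, tr Γ k f y z = ∑ j, (c j * P j z) * tr Γ (κ j) (G j) y z := by
    intro y z
    rw [hf, tr_sum, Finset.sum_apply]
    refine Finset.sum_congr rfl fun j _ => ?_
    have h1 : tr Γ k ((c j • P j) * G j) y = tr Γ ((k - κ j) + κ j) ((c j • P j) * G j) y := by
      rw [sub_add_cancel]
    rw [h1, tr_mul_of_isMF1 (isMF_smul (c j) (hP j))]
    simp [Pi.mul_apply, Pi.smul_apply]
  have hPsi : ∀ x z, Psi (fun y => tr Γ k f y) x z =
      ∑ j, (c j * P j z) * Psi (fun y => tr Γ (κ j) (G j) y) x z := by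
    intro x z
    have h1 : (fun y => tr Γ k f y) = fun y z => ∑ j, (c j * P j z) * tr Γ (κ j) (G j) y z := by
      funext y z
      exact htr y z
    rw [h1]
    exact Psi_comb (fun j z => c j * P j z) (fun j y => tr Γ (κ j) (G j) y) x z
  -- the normalised Fourier components of `f` tend to zero
  have hlim : ∀ x, Tendsto (untwist (sExp x) (Psi (fun y => tr Γ k f y) x)) atImInfty (𝓝 0) := by
    intro x
    have h1 : ∀ j ∈ (Finset.univ : Finset (SL(2, ℤ) ⧸ Γ)),
        Tendsto (fun z => (c j * P j z) *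
          untwist (sExp x) (Psi (fun y => tr Γ (κ j) (G j) y) x) z) atImInfty
          (𝓝 ((c j * 1) * leadMat Γ κ G x j)) :=
      fun j _ => ((hPlim j).const_mul (c j)).mul (tendsto_leadMat Γ hG x j)
    have h2 := tendsto_finsetSum _ h1
    have h3 : ∑ j, (c j * 1) * leadMat Γ κ G x j = 0 := by
      have := congrFun hc x
      simp only [Matrix.mulVec, dotProduct, Pi.zero_apply] at this
      rw [← this]
      refine Finset.sum_congr rfl fun j _ => by ring
    rw [h3] at h2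
    refine h2.congr fun z => ?_
    simp only [untwist, hPsi, Finset.mul_sum]
    refine Finset.sum_congr rfl fun j _ => by ring
  have hdecayPsi : ∀ x, Psi (fun y => tr Γ k f y) x =O[atImInfty]
      fun z : ℍ => Real.exp (-2 * π * z.im) :=
    fun x => decay_of_untwist_tendsto_zero (sExp_nonneg x) (sExp_lt_one x)
      (Psi_mdiff (fun y => tr_mdiff hfMF.holo y) x) (Psi_bdd (fun _ => hfMF.bdd _) x)
      (Psi_twist (fun y z => tr_T_smul_vadd hfMF.inv y z) x) (hlim x)
  have hdecay : ∀ γ : SL(2, ℤ),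
      (f ∣[k] γ) =O[atImInfty] fun z : ℍ => Real.exp (-2 * π * z.im) := by
    intro γ
    rw [slash_eq_tr hfMF.inv γ]
    exact decay_of_Psi_decay hdecayPsi _
  have hdiv := isMF_div_discriminant hfMF hdecay
  obtain ⟨B, hB, hfB⟩ := hspan (k - 12) _ hdiv
  set A : SL(2, ℤ) ⧸ Γ → ℍ → ℂ := fun j => c j • P j - ModularForm.discriminant * B j with hA
  have hAMF : ∀ j, IsMF1 (k - κ j) (A j) := fun j =>
    isMF_sub (isMF_smul (c j) (hP j))
      (isMF_cast (isMF_mul isMF1_discriminant (hB j)) (by ring))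
  have hsum : ∑ j, A j * G j = 0 := by
    have h1 : ∑ j, A j * G j = f - ModularForm.discriminant * ∑ j, B j * G j := by
      rw [hf, Finset.mul_sum, ← Finset.sum_sub_distrib]
      refine Finset.sum_congr rfl fun j _ => ?_
      simp only [hA]
      ring
    rw [h1, ← hfB]
    funext z
    simp only [Pi.sub_apply, Pi.mul_apply, Pi.zero_apply]
    field_simp [ModularForm.discriminant_ne_zero z]
    ring
  have hA0 := hindep k A hAMF hsum
  apply hc0
  funext j
  have h1 : ∀ z, c j * P j z = ModularForm.discriminant z * B j z := by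
    intro z
    have := congrFun (hA0 j) z
    simp only [hA, Pi.sub_apply, Pi.smul_apply, Pi.mul_apply, smul_eq_mul, Pi.zero_apply] at this
    exact sub_eq_zero.mp this
  have h2 : Tendsto (fun z => c j * P j z) atImInfty (𝓝 (c j * 1)) := (hPlim j).const_mul (c j)
  have h3 : Tendsto (fun z => ModularForm.discriminant z * B j z) atImInfty (𝓝 0) := by
    have hb : IsBoundedAtImInfty (B j) := by
      have := (hB j).bdd 1
      rwa [SlashAction.slash_one] at this
    have hb' : B j =O[atImInfty] (fun _ : ℍ => (1 : ℝ)) := hb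
    have h1 : ModularForm.discriminant =o[atImInfty] (fun _ : ℍ => (1 : ℝ)) :=
      (isLittleO_one_iff ℝ).mpr discriminant_isZeroAtImInfty
    have h3 := h1.mul_isBigO hb'
    simp only [mul_one] at h3
    exact (isLittleO_one_iff ℝ).mp h3
  have h4 := tendsto_nhds_unique (h2.congr h1) h3
  simpa using h4

/-- **`Stmt_CuspFact` of `helper1040_Spec`** for every subgroup with finite coset space. -/
theorem stmt_CuspFact : Stmt_CuspFact Γ := by
  intro κ G hfree heven
  have hV := isUnit_det_dftV (ModularGroup.T : SL(2, ℤ)) (X := SL(2, ℤ) ⧸ Γ)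
  refine ⟨(Matrix.of (dftV ModularGroup.T))⁻¹, leadMat Γ κ G, sExp, ?_,
    leadMat_det_ne_zero Γ hfree heven, fun x => ⟨sExp_nonneg x, sExp_lt_one x⟩, ?_, ?_⟩
  · exact (Matrix.isUnit_nonsing_inv_det _ hV).ne_zero
  · let inst : Fintype (MulAction.orbitRel.Quotient (Subgroup.zpowers (ModularGroup.T : SL(2, ℤ)))
        (SL(2, ℤ) ⧸ Γ)) := Fintype.ofFinite _
    have := @two_mul_sum_oidx_div_ow _ _ (SL(2, ℤ) ⧸ Γ) _ _ (ModularGroup.T : SL(2, ℤ)) _ _ inst
    rw [Subgroup.index, cuspNum, Nat.card_eq_fintype_card, Nat.card_eq_fintype_card]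
    exact this
  · intro x y
    rw [Matrix.nonsing_inv_nonsing_inv _ hV]
    refine (tendsto_leadMat Γ hfree.1 x y).congr fun z => ?_
    simp [untwist, Psi, Matrix.mul_apply, Phi]

end Main

end Fermat.Agent.S20.helper146
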