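/-
S20: the two elliptic-point trace identities of `helper560_Spec` (`Goal_EllS`, `Goal_EllST`).
Seat: helper1520.

If `h ∈ SL(2,ℤ)` fixes `z ∈ ℍ` with automorphy factor `c = denom h z`, then the matrix of
translates `Φ(z) = (tr (F j) q z)_{q,j}` satisfies `Φ(h⁻¹ • q, j) = c ^ (-κ j) * Φ(q, j)`.
Hence `P * Φ = Φ * D` with `P` a permutation matrix and `D` diagonal, so if `det Φ ≠ 0`
the traces agree: `∑ j, c ^ (-κ j) = #Fix(h)`.
-/
import Fermat.Agent.S20.helper560_Spec

set_option autoImplicit false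

open UpperHalfPlane ModularForm
open scoped MatrixGroups Manifold Pointwise

namespace Fermat.Agent.S20.helper1520

open Fermat.Agent.S20.helper560

noncomputable section

/-- Pure linear algebra: a square matrix `Φ` with nonzero determinant whose rows are permuted
by `σ` up to the column scalars `lam` forces `∑ lam = #Fix σ` (trace of the permutation matrix
computed in two bases). -/
theorem sum_eq_card_fixed {X : Type*} [Fintype X] [DecidableEq X] (σ : Equiv.Perm X)
    (Φ : Matrix X X ℂ) (lam : X → ℂ) (hdet : Φ.det ≠ 0)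
    (h : ∀ q j, Φ (σ q) j = lam j * Φ q j) :
    ∑ j, lam j = (Fintype.card {q : X // σ q = q} : ℂ) := by
  classical
  set P : Matrix X X ℂ := Matrix.of fun q q' => if q' = σ q then (1 : ℂ) else 0 with hP
  have hPΦ : P * Φ = Φ * Matrix.diagonal lam := by
    ext q j
    rw [Matrix.mul_apply, Matrix.mul_diagonal]
    simp only [hP, Matrix.of_apply, ite_mul, one_mul, zero_mul, Finset.sum_ite_eq',
      Finset.mem_univ, if_true]
    rw [h, mul_comm]
  have hunit : IsUnit Φ.det := isUnit_iff_ne_zero.mpr hdet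
  have hP' : P = Φ * Matrix.diagonal lam * Φ⁻¹ := by
    rw [← hPΦ, Matrix.mul_assoc, Matrix.mul_nonsing_inv _ hunit, Matrix.mul_one]
  have htr : P.trace = ∑ j, lam j := by
    rw [hP', Matrix.trace_mul_cycle, Matrix.nonsing_inv_mul _ hunit, Matrix.one_mul,
      Matrix.trace_diagonal]
  rw [← htr, Matrix.trace, Fintype.card_subtype]
  simp only [Matrix.diag_apply, hP, Matrix.of_apply]
  rw [Finset.sum_boole]
  congr 2
  ext q
  simp [eq_comm]

variable {𝒢 : Subgroup (GL (Fin 2) ℝ)} [𝒢.IsArithmetic] [𝒢.HasDetOne]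

omit [𝒢.IsArithmetic] [𝒢.HasDetOne] in
/-- Evaluation of the translates at a fixed point `z` of `γ ∈ SL(2,ℤ)`. -/
theorem quotientFunc_inv_smul_apply_of_fixed {k : ℤ} (G : ModularForm 𝒢 k) (γ : SL(2, ℤ))
    (z : ℍ) (hz : γ • z = z) (q : Q 𝒢) :
    SlashInvariantForm.quotientFunc (ℋ := 𝒮ℒ) G ((sl γ)⁻¹ • q) z =
      SlashInvariantForm.quotientFunc (ℋ := 𝒮ℒ) G q z *
        denom (Matrix.SpecialLinearGroup.toGL
          ((Matrix.SpecialLinearGroup.map (Int.castRingHom ℝ)) γ)) z ^ (-k) := by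
  have h1 := SlashInvariantForm.quotientFunc_smul (ℋ := 𝒮ℒ) G (sl γ).2 q
  have h2 : (⟨((sl γ : 𝒮ℒ) : GL (Fin 2) ℝ), (sl γ).2⟩ : 𝒮ℒ) = sl γ := rfl
  rw [h2] at h1
  rw [← h1]
  have h3 : SlashInvariantForm.quotientFunc (ℋ := 𝒮ℒ) G q ∣[k] ((sl γ : 𝒮ℒ) : GL (Fin 2) ℝ)
      = SlashInvariantForm.quotientFunc (ℋ := 𝒮ℒ) G q ∣[k] γ := by
    rw [SL_slash]
    rfl
  rw [h3, SL_slash_apply, hz]

/-- The general trace identity at a fixed point. -/
theorem sum_denom_zpow_eq_card_fixed (γ : SL(2, ℤ)) (z : ℍ) (hz : γ • z = z)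
    (κ : Q 𝒢 → ℤ) (F : Q 𝒢 → ℍ → ℂ) (hF : ∀ j, F j ∈ MFG 𝒢 (κ j))
    (hdet : fundDet 𝒢 κ F z ≠ 0) :
    ∑ j, denom (Matrix.SpecialLinearGroup.toGL
          ((Matrix.SpecialLinearGroup.map (Int.castRingHom ℝ)) γ)) z ^ (-(κ j)) =
      (Nat.card {q : Q 𝒢 // sl γ • q = q} : ℂ) := by
  classical
  have key := sum_eq_card_fixed (MulAction.toPerm ((sl γ)⁻¹ : 𝒮ℒ) : Equiv.Perm (Q 𝒢))
    (transMatrix 𝒢 κ F z)
    (fun j => denom (Matrix.SpecialLinearGroup.toGL
          ((Matrix.SpecialLinearGroup.map (Int.castRingHom ℝ)) γ)) z ^ (-(κ j))) ?_ ?_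
  · rw [key, Nat.card_eq_fintype_card]
    congr 1
    apply Fintype.card_congr
    refine Equiv.subtypeEquivRight fun q => ?_
    simp only [MulAction.toPerm_apply]
    constructor
    · intro h
      have := congrArg (fun x => sl γ • x) h
      simpa using this.symm
    · intro h
      have := congrArg (fun x => (sl γ)⁻¹ • x) h
      simpa using this.symm
  · have : fundDet 𝒢 κ F z = (transMatrix 𝒢 κ F z).det := by
      unfold fundDet
      congr
    rwa [this] at hdet
  · intro q j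
    obtain ⟨G, hG⟩ := hF j
    simp only [transMatrix, Matrix.of_apply, MulAction.toPerm_apply]
    rw [← hG, tr_eq_quotientFunc, tr_eq_quotientFunc,
      quotientFunc_inv_smul_apply_of_fixed G γ z hz q, mul_comm]

theorem S_smul_I : (ModularGroup.S : SL(2, ℤ)) • UpperHalfPlane.I = UpperHalfPlane.I := by
  rw [UpperHalfPlane.modular_S_smul]
  ext
  simp

theorem goal_EllS : Goal_EllS := by
  intro 𝒢 _ _ N _ κ F hF hdet
  have h := sum_denom_zpow_eq_card_fixed (𝒢 := 𝒢) ModularGroup.S UpperHalfPlane.I S_smul_I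
    κ F hF hdet
  simp only [ModularGroup.denom_S] at h
  simpa [e2] using h

theorem rho_sq_add : ((rho : ℍ) : ℂ) ^ 2 + (rho : ℂ) + 1 = 0 := by
  apply Complex.ext
  · simp [rho, pow_two, Complex.add_re, Complex.mul_re]
    have := Real.mul_self_sqrt (show (0:ℝ) ≤ 3 by norm_num)
    nlinarith
  · simp [rho, pow_two, Complex.add_im, Complex.mul_im]
    ring

theorem denom_ST (z : ℍ) : denom (Matrix.SpecialLinearGroup.toGL
    ((Matrix.SpecialLinearGroup.map (Int.castRingHom ℝ)) (ModularGroup.S * ModularGroup.T))) z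
      = z + 1 := by
  simp [denom, ModularGroup.coe_S, ModularGroup.coe_T, Matrix.mul_apply, Fin.sum_univ_two]

theorem ST_smul_rho : (ModularGroup.S * ModularGroup.T : SL(2, ℤ)) • rho = rho := by
  rw [UpperHalfPlane.specialLinearGroup_apply]
  ext
  simp only [ModularGroup.coe_S, ModularGroup.coe_T, Matrix.SpecialLinearGroup.coe_mul,
    Matrix.mul_apply, Fin.sum_univ_two]
  simp
  have h := rho_sq_add
  have hne : (rho : ℂ) + 1 ≠ 0 := by
    intro h0
    have : (rho : ℂ) = -1 := by linear_combination h0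
    rw [this] at h
    norm_num at h
  rw [div_eq_iff hne]
  linear_combination -h

theorem goal_EllST : Goal_EllST := by
  intro 𝒢 _ _ N _ κ F hF hdet
  have h := sum_denom_zpow_eq_card_fixed (𝒢 := 𝒢) (ModularGroup.S * ModularGroup.T) rho
    ST_smul_rho κ F hF hdet
  simp only [denom_ST] at h
  simpa [e3] using h

end

end Fermat.Agent.S20.helper1520
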