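import Fermat.Agent.S20.helper1760_SerreD

/-!
Abstract (function-level, Mathlib-only) Jacobi and Liouville formulas for matrices of holomorphic
functions on the upper half plane: seat helper1760.
-/

set_option autoImplicit false

namespace Fermat.Agent.S20.helper1760.Abs

open Fermat.Agent.S20.helper1760
open UpperHalfPlane hiding I
open Real Complex Derivative Filter
open scoped Manifold MatrixGroups ModularForm Topology

section Jacobi

variable {n : Type*} [Fintype n] [DecidableEq n]

/-- Jacobi's formula: the derivative of a determinant is the sum over the columns of the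
determinants with that column differentiated. -/
theorem hasDerivAt_det {M : ℂ → Matrix n n ℂ} {M' : Matrix n n ℂ} {x : ℂ}
    (h : ∀ i j, HasDerivAt (fun z => M z i j) (M' i j) x) :
    HasDerivAt (fun z => (M z).det)
      (∑ j, ((M x).updateCol j (fun i => M' i j)).det) x := by
  have h1 : ∀ σ : Equiv.Perm n, HasDerivAt (fun z => ∏ i, M z (σ i) i)
      (∑ j, (∏ i ∈ Finset.univ.erase j, M x (σ i) i) * M' (σ j) j) x := by
    intro σ
    have := HasDerivAt.finsetProd (u := Finset.univ) (f := fun i z => M z (σ i) i)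
      (f' := fun i => M' (σ i) i) (fun i _ => h (σ i) i)
    have e : (fun z => ∏ i, M z (σ i) i) = ∏ i, fun z => M z (σ i) i := by
      ext z
      simp [Finset.prod_apply]
    rw [e]
    simpa only [smul_eq_mul] using this
  have h2 := HasDerivAt.fun_sum (u := Finset.univ)
    (fun σ _ => (h1 σ).const_mul (((Equiv.Perm.sign σ : ℤ) : ℂ)))
  have e1 : (fun z => (M z).det) =
      fun z => ∑ σ : Equiv.Perm n, ((Equiv.Perm.sign σ : ℤ) : ℂ) * ∏ i, M z (σ i) i := by
    ext z
    rw [Matrix.det_apply']
  rw [e1]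
  have e2 : (∑ j, ((M x).updateCol j (fun i => M' i j)).det) =
      ∑ σ : Equiv.Perm n, ((Equiv.Perm.sign σ : ℤ) : ℂ) *
        ∑ j, (∏ i ∈ Finset.univ.erase j, M x (σ i) i) * M' (σ j) j := by
    simp only [Matrix.det_apply']
    rw [Finset.sum_comm]
    refine Finset.sum_congr rfl fun σ _ => ?_
    rw [Finset.mul_sum]
    refine Finset.sum_congr rfl fun j _ => ?_
    congr 1
    rw [← Finset.prod_erase_mul _ _ (Finset.mem_univ j)]
    congr 1
    · refine Finset.prod_congr rfl fun i hi => ?_
      rw [Matrix.updateCol_apply, if_neg (Finset.ne_of_mem_erase hi)]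
    · rw [Matrix.updateCol_apply, if_pos rfl]
  rw [e2]
  exact h2

/-- Liouville/Abel: if `M' = M * A` entrywise at `x`, then `(det M)' = tr A * det M` at `x`. -/
theorem hasDerivAt_det_of_mul {M : ℂ → Matrix n n ℂ} {A : Matrix n n ℂ} {x : ℂ}
    (h : ∀ i j, HasDerivAt (fun z => M z i j) ((M x * A) i j) x) :
    HasDerivAt (fun z => (M z).det) (A.trace * (M x).det) x := by
  have h1 := hasDerivAt_det h
  have e : (∑ j, ((M x).updateCol j (fun i => (M x * A) i j)).det) = A.trace * (M x).det := by
    rw [Matrix.trace, Finset.sum_mul]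
    refine Finset.sum_congr rfl fun j _ => ?_
    have := Matrix.det_updateCol_sum (M x) j (fun l => A l j)
    rw [Matrix.diag_apply]
    refine Eq.trans ?_ this
    congr 2
    ext i
    simp [Matrix.mul_apply, mul_comm]
  rw [e] at h1
  exact h1

end Jacobi

section Liouville

variable {n : Type*} [Fintype n] [DecidableEq n]

theorem hasDerivAt_comp_ofComplex {F : ℍ → ℂ} (hF : MDiff F) (z : ℍ) :
    HasDerivAt (F ∘ ofComplex) (2 * π * I * D F z) z := by
  have h := (UpperHalfPlane.mdifferentiableAt_iff.mp (hF z)).hasDerivAt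
  have hpi : (2 * (π : ℂ) * I) ≠ 0 := by simp [Real.pi_ne_zero]
  have e : 2 * π * I * D F z = deriv (F ∘ ofComplex) z := by
    simp only [normalizedDerivOfComplex]
    field_simp
  rw [e]
  exact h

/-- Liouville's formula for a fundamental matrix of translates: if the matrix `Φ` of holomorphic
functions on `ℍ` satisfies `D Φ = Φ * B + Φ * diag(κ/12) E₂` with `B` having zero diagonal, then
`(det Φ) ^ 12 = c * Δ ^ (∑ κ)` for a constant `c`. -/
theorem exists_det_pow_eq (Φ : n → n → ℍ → ℂ) (hΦ : ∀ q j, MDiff (Φ q j))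
    (B : n → n → ℍ → ℂ) (κ : n → ℤ) (hB : ∀ j z, B j j z = 0)
    (hode : ∀ q j z, D (Φ q j) z =
      ∑ i, Φ q i z * B i j z + (κ j : ℂ) * 12⁻¹ * EisensteinSeries.E2 z * Φ q j z) :
    ∃ c : ℂ, ∀ z : ℍ, (Matrix.of fun q j => Φ q j z).det ^ 12 =
      c * ModularForm.discriminant z ^ (∑ j, κ j) := by
  set K : ℤ := ∑ j, κ j with hK
  -- the matrix as a function on `ℂ`
  set M : ℂ → Matrix n n ℂ := fun w => Matrix.of fun q j => (Φ q j ∘ ofComplex) w with hM
  set Δc : ℂ → ℂ := ModularForm.discriminant ∘ ofComplex with hΔc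
  have hMz : ∀ w : ℍ, M w = Matrix.of fun q j => Φ q j w := by
    intro w
    ext q j
    simp [hM]
  -- derivative of the determinant
  have hdet : ∀ w : ℍ, HasDerivAt (fun u => (M u).det)
      (2 * π * I * ((K : ℂ) * 12⁻¹ * EisensteinSeries.E2 w) * (M w).det) w := by
    intro w
    set A : Matrix n n ℂ := Matrix.of fun i j =>
      2 * π * I * (B i j w + if i = j then (κ j : ℂ) * 12⁻¹ * EisensteinSeries.E2 w else 0)
      with hA
    have h1 : ∀ q j, HasDerivAt (fun u => M u q j) ((M w * A) q j) w := by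
      intro q j
      have h2 := hasDerivAt_comp_ofComplex (hΦ q j) w
      have e : (M w * A) q j = 2 * π * I * D (Φ q j) w := by
        rw [hode q j w, Matrix.mul_apply, hMz w]
        simp only [hA, Matrix.of_apply, mul_add, Finset.sum_add_distrib, mul_ite, mul_zero,
          Finset.sum_ite_eq', Finset.mem_univ, if_true]
        rw [Finset.mul_sum]
        congr 1
        · refine Finset.sum_congr rfl fun i _ => ?_
          ring
        · ring
      rw [e]
      exact h2
    have h3 := hasDerivAt_det_of_mul h1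
    have e : A.trace = 2 * π * I * ((K : ℂ) * 12⁻¹ * EisensteinSeries.E2 w) := by
      simp only [Matrix.trace, Matrix.diag_apply, hA, Matrix.of_apply, hB, zero_add, if_true]
      rw [← Finset.mul_sum, hK]
      push_cast
      rw [Finset.sum_mul, Finset.sum_mul]
    rw [e] at h3
    exact h3
  -- derivative of the discriminant
  have hΔ : ∀ w : ℍ, HasDerivAt Δc (2 * π * I * (EisensteinSeries.E2 w * Δc w)) w := by
    intro w
    have hmd : MDiff ModularForm.discriminant := by
      exact (CuspForm.discriminant).holo'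
    have := hasDerivAt_comp_ofComplex hmd w
    rw [D_discriminant] at this
    simpa [hΔc] using this
  have hΔne : ∀ w : ℍ, Δc w ≠ 0 := by
    intro w
    simpa [hΔc] using ModularForm.discriminant_ne_zero w
  have hΔz : ∀ w : ℍ, Δc w = ModularForm.discriminant w := by
    intro w
    simp [hΔc]
  -- the function `g = det ^ 12 * Δ ^ (-K)` has zero derivative on `ℍ`
  set g : ℂ → ℂ := fun u => (M u).det ^ 12 * Δc u ^ (-K) with hg
  have hgderiv : ∀ w : ℍ, HasDerivAt g 0 w := by
    intro w
    have h1 := (hdet w).pow 12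
    have h2 := (hasDerivAt_zpow (-K) (Δc w) (Or.inl (hΔne w))).comp (w : ℂ) (hΔ w)
    have h3 := h1.mul h2
    have e : (12 * (M w).det ^ (12 - 1) *
        (2 * π * I * ((K : ℂ) * 12⁻¹ * EisensteinSeries.E2 w) * (M w).det)) * Δc w ^ (-K)
        + (M w).det ^ 12 * (((-K : ℤ) : ℂ) * Δc w ^ (-K - 1) *
          (2 * π * I * (EisensteinSeries.E2 w * Δc w))) = 0 := by
      rw [zpow_sub_one₀ (hΔne w)]
      have := hΔne w
      field_simp
      push_cast
      ring
    rw [← e]
    exact h3
  have hconst : ∀ w w' : ℍ, g w = g w' := by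
    intro w w'
    have hopen : IsOpen upperHalfPlaneSet := isOpen_upperHalfPlaneSet
    have hconn : IsPreconnected upperHalfPlaneSet :=
      (convex_halfSpace_im_gt 0).isPreconnected
    have hdiff : DifferentiableOn ℂ g upperHalfPlaneSet := by
      intro u hu
      exact (hgderiv ⟨u, hu⟩).differentiableAt.differentiableWithinAt
    have hd0 : Set.EqOn (deriv g) 0 upperHalfPlaneSet := by
      intro u hu
      exact (hgderiv ⟨u, hu⟩).deriv
    exact hopen.is_const_of_deriv_eq_zero hconn hdiff hd0 w.2 w'.2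
  refine ⟨g UpperHalfPlane.I, fun z => ?_⟩
  rw [hconst UpperHalfPlane.I z]
  simp only [hg]
  rw [hMz z, hΔz z, mul_assoc, ← zpow_add₀ (ModularForm.discriminant_ne_zero z)]
  simp

/-- Consequence of Liouville's formula: the determinant of the fundamental matrix is nowhere
zero as soon as it is nonzero at one point. -/
theorem det_ne_zero_of_exists (Φ : n → n → ℍ → ℂ) (hΦ : ∀ q j, MDiff (Φ q j))
    (B : n → n → ℍ → ℂ) (κ : n → ℤ) (hB : ∀ j z, B j j z = 0)
    (hode : ∀ q j z, D (Φ q j) z =
      ∑ i, Φ q i z * B i j z + (κ j : ℂ) * 12⁻¹ * EisensteinSeries.E2 z * Φ q j z)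
    (z₀ : ℍ) (h0 : (Matrix.of fun q j => Φ q j z₀).det ≠ 0) (z : ℍ) :
    (Matrix.of fun q j => Φ q j z).det ≠ 0 := by
  obtain ⟨c, hc⟩ := exists_det_pow_eq Φ hΦ B κ hB hode
  have hc0 : c ≠ 0 := by
    rintro rfl
    have := hc z₀
    rw [zero_mul] at this
    exact h0 (pow_eq_zero_iff (by norm_num) |>.mp this)
  intro hz
  have := hc z
  rw [hz, zero_pow (by norm_num)] at this
  exact mul_ne_zero hc0 (zpow_ne_zero _ (ModularForm.discriminant_ne_zero z)) this.symm

end Liouville

end Fermat.Agent.S20.helper1760.Abs
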