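import Fermat.Agent.S20.helper1760_SerreD
import Fermat.Agent.S20.helper560_Spec

set_option autoImplicit false

namespace Fermat.Agent.S20.helper1760

open UpperHalfPlane hiding I
open Real Complex Derivative Filter
open scoped Manifold MatrixGroups ModularForm Topology

section Jacobi

variable {n : Type*} [Fintype n] [DecidableEq n]

/-- Jacobi's formula: the derivative of a determinant is the sum over the columns of the
determinants with that column differentiated. -/
theorem hasDerivAt_det {M : ℂ → Matrix n n ℂ} {M' : Matrix n n ℂ} {x : ℂ}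
    (h : ∀ i j, HasDerivAt (fun z => M z i j) (M' i j) x) :
    HasDerivAt (fun z => (M z).det)
      (∑ j, ((M x).updateCol j (fun i => M' i j)).det) x := by
  have h1 : ∀ σ : Equiv.Perm n, HasDerivAt (fun z => ∏ i, M z (σ i) i)
      (∑ j, (∏ i ∈ Finset.univ.erase j, M x (σ i) i) * M' (σ j) j) x := by
    intro σ
    have := HasDerivAt.finsetProd (u := Finset.univ) (f := fun i z => M z (σ i) i)
      (f' := fun i => M' (σ i) i) (fun i _ => h (σ i) i)
    have e : (fun z => ∏ i, M z (σ i) i) = ∏ i, fun z => M z (σ i) i := by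
      ext z
      simp [Finset.prod_apply]
    rw [e]
    simpa only [smul_eq_mul] using this
  have h2 := HasDerivAt.fun_sum (u := Finset.univ)
    (fun σ _ => (h1 σ).const_mul (((Equiv.Perm.sign σ : ℤ) : ℂ)))
  have e1 : (fun z => (M z).det) =
      fun z => ∑ σ : Equiv.Perm n, ((Equiv.Perm.sign σ : ℤ) : ℂ) * ∏ i, M z (σ i) i := by
    ext z
    rw [Matrix.det_apply']
  rw [e1]
  have e2 : (∑ j, ((M x).updateCol j (fun i => M' i j)).det) =
      ∑ σ : Equiv.Perm n, ((Equiv.Perm.sign σ : ℤ) : ℂ) *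
        ∑ j, (∏ i ∈ Finset.univ.erase j, M x (σ i) i) * M' (σ j) j := by
    simp only [Matrix.det_apply']
    rw [Finset.sum_comm]
    refine Finset.sum_congr rfl fun σ _ => ?_
    rw [Finset.mul_sum]
    refine Finset.sum_congr rfl fun j _ => ?_
    congr 1
    rw [← Finset.prod_erase_mul _ _ (Finset.mem_univ j)]
    congr 1
    · refine Finset.prod_congr rfl fun i hi => ?_
      rw [Matrix.updateCol_apply, if_neg (Finset.ne_of_mem_erase hi)]
    · rw [Matrix.updateCol_apply, if_pos rfl]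
  rw [e2]
  exact h2

/-- Liouville/Abel: if `M' = M * A` entrywise at `x`, then `(det M)' = tr A * det M` at `x`. -/
theorem hasDerivAt_det_of_mul {M : ℂ → Matrix n n ℂ} {A : Matrix n n ℂ} {x : ℂ}
    (h : ∀ i j, HasDerivAt (fun z => M z i j) ((M x * A) i j) x) :
    HasDerivAt (fun z => (M z).det) (A.trace * (M x).det) x := by
  have h1 := hasDerivAt_det h
  have e : (∑ j, ((M x).updateCol j (fun i => (M x * A) i j)).det) = A.trace * (M x).det := by
    rw [Matrix.trace, Finset.sum_mul]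
    refine Finset.sum_congr rfl fun j _ => ?_
    have := Matrix.det_updateCol_sum (M x) j (fun l => A l j)
    rw [Matrix.diag_apply]
    refine Eq.trans ?_ this
    congr 2
    ext i
    simp [Matrix.mul_apply, mul_comm]
  rw [e] at h1
  exact h1

end Jacobi

section Liouville

variable {n : Type*} [Fintype n] [DecidableEq n]

theorem hasDerivAt_comp_ofComplex {F : ℍ → ℂ} (hF : MDiff F) (z : ℍ) :
    HasDerivAt (F ∘ ofComplex) (2 * π * I * D F z) z := by
  have h := (UpperHalfPlane.mdifferentiableAt_iff.mp (hF z)).hasDerivAt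
  have hpi : (2 * (π : ℂ) * I) ≠ 0 := by simp [Real.pi_ne_zero]
  have e : 2 * π * I * D F z = deriv (F ∘ ofComplex) z := by
    simp only [normalizedDerivOfComplex]
    field_simp
  rw [e]
  exact h

/-- Liouville's formula for a fundamental matrix of translates: if the matrix `Φ` of holomorphic
functions on `ℍ` satisfies `D Φ = Φ * B + Φ * diag(κ/12) E₂` with `B` having zero diagonal, then
`det Φ` is nowhere zero as soon as it is nonzero at one point. -/
theorem det_ne_zero_of_ode (Φ : n → n → ℍ → ℂ) (hΦ : ∀ q j, MDiff (Φ q j))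
    (B : n → n → ℍ → ℂ) (κ : n → ℤ) (hB : ∀ j z, B j j z = 0)
    (hode : ∀ q j z, D (Φ q j) z =
      ∑ i, Φ q i z * B i j z + (κ j : ℂ) * 12⁻¹ * EisensteinSeries.E2 z * Φ q j z)
    (z₀ : ℍ) (h0 : (Matrix.of fun q j => Φ q j z₀).det ≠ 0) (z : ℍ) :
    (Matrix.of fun q j => Φ q j z).det ≠ 0 := by
  set K : ℤ := ∑ j, κ j with hK
  -- the matrix as a function on `ℂ`
  set M : ℂ → Matrix n n ℂ := fun w => Matrix.of fun q j => (Φ q j ∘ ofComplex) w with hM
  set Δc : ℂ → ℂ := ModularForm.discriminant ∘ ofComplex with hΔc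
  have hMz : ∀ w : ℍ, M w = Matrix.of fun q j => Φ q j w := by
    intro w
    ext q j
    simp [hM]
  -- derivative of the determinant
  have hdet : ∀ w : ℍ, HasDerivAt (fun u => (M u).det)
      (2 * π * I * ((K : ℂ) * 12⁻¹ * EisensteinSeries.E2 w) * (M w).det) w := by
    intro w
    set A : Matrix n n ℂ := Matrix.of fun i j =>
      2 * π * I * (B i j w + if i = j then (κ j : ℂ) * 12⁻¹ * EisensteinSeries.E2 w else 0)
      with hA
    have h1 : ∀ q j, HasDerivAt (fun u => M u q j) ((M w * A) q j) w := by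
      intro q j
      have h2 := hasDerivAt_comp_ofComplex (hΦ q j) w
      have e : (M w * A) q j = 2 * π * I * D (Φ q j) w := by
        rw [hode q j w, Matrix.mul_apply, hMz w]
        simp only [hA, Matrix.of_apply, mul_add, Finset.sum_add_distrib, mul_ite, mul_zero,
          Finset.sum_ite_eq', Finset.mem_univ, if_true]
        rw [Finset.mul_sum]
        congr 1
        · refine Finset.sum_congr rfl fun i _ => ?_
          ring
        · ring
      rw [e]
      exact h2
    have h3 := hasDerivAt_det_of_mul h1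
    have e : A.trace = 2 * π * I * ((K : ℂ) * 12⁻¹ * EisensteinSeries.E2 w) := by
      simp only [Matrix.trace, Matrix.diag_apply, hA, Matrix.of_apply, hB, zero_add, if_true]
      rw [← Finset.mul_sum, hK]
      push_cast
      rw [Finset.sum_mul, Finset.sum_mul]
    rw [e] at h3
    exact h3
  -- derivative of the discriminant
  have hΔ : ∀ w : ℍ, HasDerivAt Δc (2 * π * I * (EisensteinSeries.E2 w * Δc w)) w := by
    intro w
    have hmd : MDiff ModularForm.discriminant := by
      exact (CuspForm.discriminant).holo'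
    have := hasDerivAt_comp_ofComplex hmd w
    rw [D_discriminant] at this
    simpa [hΔc] using this
  have hΔne : ∀ w : ℍ, Δc w ≠ 0 := by
    intro w
    simpa [hΔc] using ModularForm.discriminant_ne_zero w
  -- the function `g = det ^ 12 * Δ ^ (-K)` has zero derivative on `ℍ`
  set g : ℂ → ℂ := fun u => (M u).det ^ 12 * Δc u ^ (-K) with hg
  have hgderiv : ∀ w : ℍ, HasDerivAt g 0 w := by
    intro w
    have h1 := (hdet w).pow 12
    have h2 := (hasDerivAt_zpow (-K) (Δc w) (Or.inl (hΔne w))).comp (w : ℂ) (hΔ w)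
    have h3 := h1.mul h2
    have e : (12 * (M w).det ^ (12 - 1) *
        (2 * π * I * ((K : ℂ) * 12⁻¹ * EisensteinSeries.E2 w) * (M w).det)) * Δc w ^ (-K)
        + (M w).det ^ 12 * (((-K : ℤ) : ℂ) * Δc w ^ (-K - 1) *
          (2 * π * I * (EisensteinSeries.E2 w * Δc w))) = 0 := by
      rw [zpow_sub_one₀ (hΔne w)]
      have := hΔne w
      field_simp
      push_cast
      ring
    rw [← e]
    exact h3
  have hconst : ∀ w w' : ℍ, g w = g w' := by
    intro w w'
    have hopen : IsOpen upperHalfPlaneSet := isOpen_upperHalfPlaneSet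
    have hconn : IsPreconnected upperHalfPlaneSet :=
      (convex_halfSpace_im_gt 0).isPreconnected
    have hdiff : DifferentiableOn ℂ g upperHalfPlaneSet := by
      intro u hu
      exact (hgderiv ⟨u, hu⟩).differentiableAt.differentiableWithinAt
    have hd0 : Set.EqOn (deriv g) 0 upperHalfPlaneSet := by
      intro u hu
      exact (hgderiv ⟨u, hu⟩).deriv
    exact hopen.is_const_of_deriv_eq_zero hconn hdiff hd0 w.2 w'.2
  intro hz
  have h1 : g z = 0 := by
    simp only [hg]
    rw [hMz z, hz]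
    simp
  have h2 : g z₀ ≠ 0 := by
    simp only [hg]
    rw [hMz z₀]
    exact mul_ne_zero (pow_ne_zero _ h0) (zpow_ne_zero _ (hΔne z₀))
  exact h2 ((hconst z₀ z).trans h1)

end Liouville

section Spec

open Fermat.Agent.S20.helper560

/-- Slash of a product of a level one form with a function. -/
theorem mul_slash_of_invariant (a b c : ℤ) (h : c = a + b) (γ : SL(2, ℤ)) (P F : ℍ → ℂ)
    (hP : P ∣[a] γ = P) : (P * F) ∣[c] γ = P * (F ∣[b] γ) := by
  subst h
  rw [ModularForm.mul_slash_SL2, hP]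

theorem slash_eq_self_of_mem_RR {a : ℤ} {P : ℍ → ℂ} (hP : P ∈ RR a) (γ : SL(2, ℤ)) :
    P ∣[a] γ = P := by
  obtain ⟨P', rfl⟩ := hP
  exact SlashInvariantFormClass.slash_action_eq P' _ ⟨γ, rfl⟩

theorem eq_zero_of_mem_RR_two {P : ℍ → ℂ} (hP : P ∈ RR 2) : P = 0 := by
  obtain ⟨P', rfl⟩ := hP
  have := rank_zero_iff_forall_zero.mp ModularForm.levelOne_weight_two_rank_zero P'
  rw [this]
  rfl

/-- The differential equation satisfied by a translate `f ∣[k] γ` when the Serre derivative of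
`f` is expanded in a family `F` with level one coefficients. -/
theorem D_slash_of_expansion {J : Type} [Fintype J] (γ : SL(2, ℤ)) (k : ℤ) (f : ℍ → ℂ)
    (hf : MDiff f) (κ : J → ℤ) (F : J → ℍ → ℂ) (P : J → ℍ → ℂ)
    (hP : ∀ i, P i ∈ RR (k + 2 - κ i))
    (hexp : serreDerivative k f = ∑ i, P i * F i) (z : ℍ) :
    D (f ∣[k] γ) z = ∑ i, (F i ∣[κ i] γ) z * P i z
      + (k : ℂ) * 12⁻¹ * EisensteinSeries.E2 z * (f ∣[k] γ) z := by
  have h1 : D (f ∣[k] γ) z = serreDerivative k (f ∣[k] γ) z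
      + (k : ℂ) * 12⁻¹ * EisensteinSeries.E2 z * (f ∣[k] γ) z := by
    rw [serreDerivative_apply]
    ring
  rw [h1, ← serreDerivative_slash_equivariant hf, hexp, SlashAction.sum_slash]
  congr 1
  rw [Finset.sum_apply]
  refine Finset.sum_congr rfl fun i _ => ?_
  rw [mul_slash_of_invariant (k + 2 - κ i) (κ i) (k + 2) (by ring) γ (P i) (F i)
    (slash_eq_self_of_mem_RR (hP i) γ)]
  simp [mul_comm]

variable (𝒢 : Subgroup (GL (Fin 2) ℝ)) [𝒢.IsArithmetic] [𝒢.HasDetOne]

omit [𝒢.HasDetOne] in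
/-- Generic form of the ODE goal: for a graded family of submodules `V` of holomorphic functions
stable under the Serre derivative, the fundamental determinant of a free basis is nowhere zero
as soon as it is nonzero somewhere. -/
theorem stmt_ODE_of_serre_stable (V : ℤ → Submodule ℂ (ℍ → ℂ))
    (hV : ∀ (k : ℤ) (f : ℍ → ℂ), f ∈ V k → MDiff f ∧ serreDerivative k f ∈ V (k + 2)) :
    Stmt_ODE 𝒢 V := by
  classical
  intro κ F hbasis ⟨z₀, hz₀⟩ z
  obtain ⟨hmem, hexp⟩ := hbasis
  -- expansions of the Serre derivatives of the basis elements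
  have hex : ∀ j, ∃ P : Q 𝒢 → ℍ → ℂ, (∀ i, P i ∈ RR (κ j + 2 - κ i)) ∧
      serreDerivative (κ j) (F j) = ∑ i, P i * F i := by
    intro j
    obtain ⟨P, ⟨hP1, hP2⟩, -⟩ := hexp (κ j + 2) _ (hV (κ j) (F j) (hmem j)).2
    exact ⟨P, hP1, hP2⟩
  choose P hP1 hP2 using hex
  -- representatives in `SL(2, ℤ)` of the inverses of the chosen coset representatives
  have hγ : ∀ q : Q 𝒢, ∃ γ : SL(2, ℤ),
      Matrix.SpecialLinearGroup.mapGL ℝ γ = ((q.out : 𝒮ℒ) : GL (Fin 2) ℝ)⁻¹ := by
    intro q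
    obtain ⟨γ, hγ⟩ := ((q.out)⁻¹ : 𝒮ℒ).2
    exact ⟨γ, hγ⟩
  choose γ hγ using hγ
  have htr : ∀ (k : ℤ) (f : ℍ → ℂ) (q : Q 𝒢), tr 𝒢 k f q = f ∣[k] (γ q) := by
    intro k f q
    unfold tr
    rw [← hγ q]
    rfl
  have hdiag : ∀ j (w : ℍ), P j j w = 0 := by
    intro j w
    have h2 : P j j ∈ RR 2 := by
      have := hP1 j j
      rwa [show κ j + 2 - κ j = 2 by ring] at this
    rw [eq_zero_of_mem_RR_two h2]
    rfl
  have hode : ∀ q j (w : ℍ), D (tr 𝒢 (κ j) (F j) q) w =
      ∑ i, tr 𝒢 (κ i) (F i) q w * P j i w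
        + (κ j : ℂ) * 12⁻¹ * EisensteinSeries.E2 w * tr 𝒢 (κ j) (F j) q w := by
    intro q j w
    simp only [htr]
    exact D_slash_of_expansion (γ q) (κ j) (F j) (hV _ _ (hmem j)).1 κ F (P j) (hP1 j) (hP2 j) w
  have hΦ : ∀ q j, MDiff (tr 𝒢 (κ j) (F j) q) := by
    intro q j
    rw [htr]
    exact (hV _ _ (hmem j)).1.slash _ _
  have := det_ne_zero_of_ode (fun q j => tr 𝒢 (κ j) (F j) q) hΦ (fun i j => P j i) κ hdiag hode
    z₀ (by simpa [fundDet, transMatrix] using hz₀) z
  simpa [fundDet, transMatrix] using this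

theorem stmt_ODE_MFG (h𝒢 : 𝒢 ≤ 𝒮ℒ) : Stmt_ODE 𝒢 (MFG 𝒢) := by
  apply stmt_ODE_of_serre_stable
  rintro k _ ⟨f, rfl⟩
  exact ⟨ModularFormClass.holo f, ⟨serreDMFaux h𝒢 k f, rfl⟩⟩

theorem stmt_ODE_CFG (h𝒢 : 𝒢 ≤ 𝒮ℒ) : Stmt_ODE 𝒢 (CFG 𝒢) := by
  apply stmt_ODE_of_serre_stable
  rintro k _ ⟨f, rfl⟩
  exact ⟨CuspFormClass.holo f, ⟨serreDCFaux h𝒢 k f, rfl⟩⟩

/-- The goal `Goal_ODEM` of the S20 spec. -/
theorem goal_ODEM : Goal_ODEM := fun 𝒢 _ _ _ hG => stmt_ODE_MFG 𝒢 hG.le

/-- The goal `Goal_ODES` of the S20 spec. -/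
theorem goal_ODES : Goal_ODES := fun 𝒢 _ _ _ hG => stmt_ODE_CFG 𝒢 hG.le

end Spec

end Fermat.Agent.S20.helper1760
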