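/-
S20: the elliptic-point trace identities `Goal_EllS` and `Goal_EllST` of `helper560_Spec`,
proved in their exact shape (seat helper1774).

Idea: for `f ∈ MFG 𝒢 k` the translate attached to `g⁻¹ • q` is `(tr f q) ∣[k] g`.  At a fixed
point `z₀` of `γ` this reads `Φ (γ⁻¹ • q) j = Φ q j * denom γ z₀ ^ (-κ j)`, i.e.
`P * Φ(z₀) = Φ(z₀) * D` with `P` a permutation matrix and `D` diagonal; taking traces
(`Φ(z₀)` invertible) gives `∑ j, denom γ z₀ ^ (-κ j) = #Fix(γ)`.
-/
import Fermat.Agent.S20.helper560_Spec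

set_option autoImplicit false

open UpperHalfPlane ModularForm
open scoped MatrixGroups Manifold Pointwise

namespace Fermat.Agent.S20.helper1774

open Fermat.Agent.S20.helper560

noncomputable section

/-- Linear algebra core: if an invertible matrix `A` satisfies `A (σ q) j = A q j * d j`
(i.e. `P_σ * A = A * diag d`), then `∑ d j` is the number of fixed points of `σ`. -/
theorem sum_eq_card_fixed {n : Type*} [Fintype n] [DecidableEq n] (A : Matrix n n ℂ)
    (hA : A.det ≠ 0) (σ : n → n) (d : n → ℂ) (h : ∀ q j, A (σ q) j = A q j * d j) :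
    ∑ j, d j = (Fintype.card {q // σ q = q} : ℂ) := by
  classical
  set P : Matrix n n ℂ := Matrix.of fun q q' => if σ q = q' then (1 : ℂ) else 0 with hP
  have hPA : P * A = A * Matrix.diagonal d := by
    ext q j
    rw [Matrix.mul_apply, Matrix.mul_diagonal]
    simp only [hP, Matrix.of_apply, ite_mul, one_mul, zero_mul]
    rw [Finset.sum_ite_eq]
    simp [h q j]
  have hdet : IsUnit A.det := isUnit_iff_ne_zero.mpr hA
  have hPeq : P = A * Matrix.diagonal d * A⁻¹ := by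
    rw [← hPA, Matrix.mul_nonsing_inv_cancel_right _ _ hdet]
  have htr : Matrix.trace P = ∑ j, d j := by
    rw [hPeq, Matrix.trace_mul_cycle, Matrix.nonsing_inv_mul _ hdet, Matrix.one_mul,
      Matrix.trace_diagonal]
  rw [← htr, Matrix.trace]
  simp only [hP, Matrix.diag_apply, Matrix.of_apply]
  rw [Finset.sum_boole, Fintype.card_subtype]

/-- The translate attached to the coset `g⁻¹ • q` is the slash by `g` of the translate
attached to `q`. -/
theorem tr_inv_smul {𝒢 : Subgroup (GL (Fin 2) ℝ)} [𝒢.HasDetOne] {k : ℤ} {f : ℍ → ℂ}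
    (hf : f ∈ MFG 𝒢 k) (g : 𝒮ℒ) (q : Q 𝒢) :
    tr 𝒢 k f (g⁻¹ • q) = (tr 𝒢 k f q) ∣[k] (g : GL (Fin 2) ℝ) := by
  obtain ⟨F, rfl⟩ := hf
  have hq : g⁻¹ • q = QuotientGroup.mk (g⁻¹ * q.out) := by
    conv_lhs => rw [← QuotientGroup.out_eq' q]
    rfl
  obtain ⟨h, hh⟩ := QuotientGroup.mk_out_eq_mul (𝒢.subgroupOf 𝒮ℒ) (g⁻¹ * q.out)
  unfold tr
  rw [hq, hh]
  have hinv : (((g⁻¹ * q.out * (h : 𝒮ℒ) : 𝒮ℒ) : GL (Fin 2) ℝ))⁻¹ =
      ((h : 𝒮ℒ) : GL (Fin 2) ℝ)⁻¹ * ((q.out : 𝒮ℒ) : GL (Fin 2) ℝ)⁻¹ * (g : GL (Fin 2) ℝ) := by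
    simp [mul_assoc]
  rw [hinv, SlashAction.slash_mul, SlashAction.slash_mul]
  congr 2
  exact SlashInvariantFormClass.slash_action_eq F _ (inv_mem (Subgroup.mem_subgroupOf.mp h.2))

/-- Evaluation of the translate attached to `(sl γ)⁻¹ • q`. -/
theorem tr_sl_inv_smul_apply {𝒢 : Subgroup (GL (Fin 2) ℝ)} [𝒢.HasDetOne] {k : ℤ} {f : ℍ → ℂ}
    (hf : f ∈ MFG 𝒢 k) (γ : SL(2, ℤ)) (q : Q 𝒢) (z : ℍ) :
    tr 𝒢 k f ((sl γ)⁻¹ • q) z = tr 𝒢 k f q (γ • z) * denom γ z ^ (-k) := by
  rw [tr_inv_smul hf]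
  exact SL_slash_apply _ γ z

theorem S_smul_I : ModularGroup.S • UpperHalfPlane.I = UpperHalfPlane.I := by
  rw [modular_S_smul, UpperHalfPlane.ext_iff]
  norm_num

theorem denom_S_I : denom ModularGroup.S UpperHalfPlane.I = Complex.I := by
  rw [ModularGroup.denom_S]
  rfl

theorem rho_coe : (rho : ℂ) = ⟨-1 / 2, Real.sqrt 3 / 2⟩ := rfl

theorem rho_sq_add : (rho : ℂ) ^ 2 + (rho : ℂ) + 1 = 0 := by
  have h3 : Real.sqrt 3 * Real.sqrt 3 = 3 := Real.mul_self_sqrt (by norm_num)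
  rw [rho_coe]
  apply Complex.ext
  · simp [pow_two]
    nlinarith [h3]
  · simp [pow_two]
    ring

theorem ST_smul_rho : (ModularGroup.S * ModularGroup.T) • rho = rho := by
  rw [mul_smul, modular_T_smul, modular_S_smul, UpperHalfPlane.ext_iff]
  simp only [coe_vadd]
  apply inv_eq_of_mul_eq_one_right
  push_cast
  linear_combination -rho_sq_add

theorem denom_ST_rho :
    denom ((ModularGroup.S * ModularGroup.T : SL(2, ℤ)) : GL (Fin 2) ℝ) rho = (rho : ℂ) + 1 := by
  have h10 : (ModularGroup.S * ModularGroup.T : SL(2, ℤ)) 1 0 = 1 := by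
    rw [Matrix.SpecialLinearGroup.coe_mul]
    simp [ModularGroup.S, ModularGroup.T, Matrix.mul_apply, Fin.sum_univ_two]
  have h11 : (ModularGroup.S * ModularGroup.T : SL(2, ℤ)) 1 1 = 1 := by
    rw [Matrix.SpecialLinearGroup.coe_mul]
    simp [ModularGroup.S, ModularGroup.T, Matrix.mul_apply, Fin.sum_univ_two]
  rw [ModularGroup.denom_apply, h10, h11]
  simp

/-- **Goal_EllS** of `helper560_Spec`, in its exact shape. -/
theorem goal_EllS : Goal_EllS := by
  intro 𝒢 _ _ N _ κ F hF hdet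
  classical
  unfold fundDet at hdet
  have key := sum_eq_card_fixed (transMatrix 𝒢 κ F UpperHalfPlane.I) hdet
    (fun q => (sl ModularGroup.S)⁻¹ • q) (fun j => Complex.I ^ (-(κ j))) (by
      intro q j
      simp only [transMatrix, Matrix.of_apply]
      rw [tr_sl_inv_smul_apply (hF j), S_smul_I, denom_S_I])
  rw [key]
  unfold e2
  rw [Nat.card_eq_fintype_card]
  congr 1
  apply Fintype.card_congr
  exact Equiv.subtypeEquivRight (fun q => by rw [inv_smul_eq_iff, eq_comm])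

/-- **Goal_EllST** of `helper560_Spec`, in its exact shape. -/
theorem goal_EllST : Goal_EllST := by
  intro 𝒢 _ _ N _ κ F hF hdet
  classical
  unfold fundDet at hdet
  have key := sum_eq_card_fixed (transMatrix 𝒢 κ F rho) hdet
    (fun q => (sl (ModularGroup.S * ModularGroup.T))⁻¹ • q)
    (fun j => ((rho : ℂ) + 1) ^ (-(κ j))) (by
      intro q j
      simp only [transMatrix, Matrix.of_apply]
      rw [tr_sl_inv_smul_apply (hF j), ST_smul_rho, denom_ST_rho])
  rw [key]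
  unfold e3
  rw [Nat.card_eq_fintype_card]
  congr 1
  apply Fintype.card_congr
  exact Equiv.subtypeEquivRight (fun q => by rw [inv_smul_eq_iff, eq_comm])

end

end Fermat.Agent.S20.helper1774
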