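/-
S20, cusp chunk (`helper560.Goal_Cusp`): for a good level `𝒢` (every `SL(2,ℤ)`-conjugate contains
the translation by `N`), if `dim M_k(𝒢) = dim M_{k-12}(𝒢) + [SL(2,ℤ) : 𝒢]` then
`dim M_k(𝒢) = dim S_k(𝒢) + #cusps`.   Author seat: helper1855.

Everything is function level (`f ∈ MFG 𝒢 k`, translates `tr 𝒢 k f q`, `q : Q 𝒢`), so that the
lemmas can be reused by the other cusp-analysis chunks:

* `Nice N φ`            : `φ` holomorphic on `ℍ`, `N`-periodic, bounded at `i∞`;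
* `coefQ 𝒢 N k f q n`   : `n`-th `q_N`-coefficient of the translate `tr 𝒢 k f q`;
* `coefQ_T`             : `T`-twist `a_n(f, T⁻¹•q) = ζ_N^n a_n(f, q)`;
* `natCast_mul_coefQ`   : finite Fourier inversion along `T`-orbits;
* `exists_eq_discriminant_mul` : division by `Δ` inside `MFG`;
* `mem_CFG_iff_coefQ_zero`     : cusp form criterion;
* `leadMap`, `cstMap`   : leading-sum and constant-term linear maps, their kernels and ranges.
-/
import Fermat.Agent.S20.helper560_Spec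
import Fermat.Agent.S20.helper1220_CuspToolkit

set_option autoImplicit false
set_option linter.unusedSectionVars false

open UpperHalfPlane ModularForm Function Filter Asymptotics
open scoped MatrixGroups Manifold Pointwise Real Topology

namespace Fermat.Agent.S20.helper1855

open Fermat.Agent.S20.helper560
open Fermat.Agent.S20.helper1220 (zetaN fourier_inversion norm_qParam_pow qParam_one_vadd
  slash_T_zpow_apply discriminant_slash div_discriminant_slash)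

noncomputable section

local notation "𝕢" => Periodic.qParam
local notation "Δ" => ModularForm.discriminant

/-! ### Function level: holomorphic `N`-periodic functions bounded at `i∞` -/

/-- `φ` is holomorphic on `ℍ`, `N`-periodic and bounded at `i∞`. -/
structure Nice (N : ℕ) (φ : ℍ → ℂ) : Prop where
  per : Periodic (φ ∘ ofComplex) ((N : ℝ) : ℂ)
  holo : MDiff φ
  bdd : IsBoundedAtImInfty φ

section nice

variable {N : ℕ} {φ ψ : ℍ → ℂ}

lemma Nice.analyticAt (hN : 0 < N) (hφ : Nice N φ) :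
    AnalyticAt ℂ (cuspFunction (N : ℝ) φ) 0 :=
  analyticAt_cuspFunction_zero (by exact_mod_cast hN) hφ.per hφ.holo hφ.bdd

lemma Nice.hasSum (hN : 0 < N) (hφ : Nice N φ) (z : ℍ) :
    HasSum (fun n : ℕ ↦ (qExpansion (N : ℝ) φ).coeff n * 𝕢 (N : ℝ) z ^ n) (φ z) := by
  have hN' : (0 : ℝ) < N := by exact_mod_cast hN
  have := UpperHalfPlane.hasSum_qExpansion hN' hφ.per hφ.holo hφ.bdd z
  simpa only [smul_eq_mul] using this

lemma Nice.hasFPowerSeriesAt (hN : 0 < N) (hφ : Nice N φ) :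
    HasFPowerSeriesAt (cuspFunction (N : ℝ) φ)
      (FormalMultilinearSeries.ofScalars ℂ fun n ↦ (qExpansion (N : ℝ) φ).coeff n) 0 := by
  have hN' : (0 : ℝ) < N := by exact_mod_cast hN
  exact (hasFPowerSeriesOnBall_cuspFunction hN' (hφ.analyticAt hN) (fun z ↦ by
    simpa only [smul_eq_mul] using hφ.hasSum hN z)).hasFPowerSeriesAt

lemma Nice.coeff_unique (hN : 0 < N) (hφ : Nice N φ) {c : ℕ → ℂ}
    (hc : ∀ z : ℍ, HasSum (fun n : ℕ ↦ c n * 𝕢 (N : ℝ) z ^ n) (φ z)) (n : ℕ) :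
    c n = (qExpansion (N : ℝ) φ).coeff n := by
  have hN' : (0 : ℝ) < N := by exact_mod_cast hN
  have h1 := (hasFPowerSeriesOnBall_cuspFunction hN' (hφ.analyticAt hN) (fun z ↦ by
    simpa only [smul_eq_mul] using hc z)).hasFPowerSeriesAt
  have h2 := hφ.hasFPowerSeriesAt hN
  have := congr_arg (FormalMultilinearSeries.coeff · n) (h1.eq_formalMultilinearSeries h2)
  simpa [FormalMultilinearSeries.coeff_ofScalars] using this

/-- Shifting the argument by `1` twists the `q_N`-coefficients by powers of `ζ_N`. -/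
lemma Nice.coeff_shift (hN : 0 < N) (hφ : Nice N φ) (hψ : Nice N ψ)
    (h : ∀ z : ℍ, ψ z = φ ((1 : ℝ) +ᵥ z)) (n : ℕ) :
    (qExpansion (N : ℝ) ψ).coeff n = zetaN N ^ n * (qExpansion (N : ℝ) φ).coeff n := by
  have : NeZero N := ⟨hN.ne'⟩
  symm
  refine hψ.coeff_unique hN (c := fun n ↦ zetaN N ^ n * (qExpansion (N : ℝ) φ).coeff n)
    (fun z ↦ ?_) n
  rw [h z]
  convert hφ.hasSum hN ((1 : ℝ) +ᵥ z) using 2 with m
  rw [qParam_one_vadd, mul_pow, zetaN]
  ring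

/-- If the first `m` `q_N`-coefficients vanish then `φ = O(|q_N|^m)` at `i∞`. -/
lemma Nice.isBigO_of_coeff_eq_zero (hN : 0 < N) (hφ : Nice N φ) (m : ℕ)
    (h : ∀ n < m, (qExpansion (N : ℝ) φ).coeff n = 0) :
    φ =O[atImInfty] fun z : ℍ ↦ ‖𝕢 (N : ℝ) z‖ ^ m := by
  have hN' : (0 : ℝ) < N := by exact_mod_cast hN
  have hO := (hφ.hasFPowerSeriesAt hN).isBigO_sub_partialSum_pow m
  have hpart : ∀ y : ℂ, (FormalMultilinearSeries.ofScalars ℂ
      fun n ↦ (qExpansion (N : ℝ) φ).coeff n).partialSum m y = 0 := by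
    intro y
    rw [FormalMultilinearSeries.partialSum]
    refine Finset.sum_eq_zero fun i hi ↦ ?_
    rw [FormalMultilinearSeries.ofScalars_apply_eq]
    rw [h i (Finset.mem_range.mp hi), zero_smul]
  simp only [hpart, sub_zero, zero_add] at hO
  have hO' := hO.comp_tendsto (qParam_tendsto_atImInfty hN')
  refine (IsBigO.congr' hO' ?_ ?_)
  · filter_upwards with z
    simp only [comp_apply]
    exact eq_cuspFunction z hN'.ne' hφ.per
  · filter_upwards with z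
    rfl

/-- A nice function with vanishing constant term tends to `0` at `i∞`. -/
lemma Nice.isZeroAtImInfty (hN : 0 < N) (hφ : Nice N φ)
    (h : (qExpansion (N : ℝ) φ).coeff 0 = 0) : IsZeroAtImInfty φ := by
  have hN' : (0 : ℝ) < N := by exact_mod_cast hN
  have h1 := hφ.isBigO_of_coeff_eq_zero hN 1 (fun n hn ↦ by
    obtain rfl : n = 0 := by omega
    exact h)
  refine h1.trans_tendsto ?_
  simpa using tendsto_zero_iff_norm_tendsto_zero.mp (qParam_tendsto_atImInfty hN')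

/-- The constant term of a function vanishing at `i∞` is `0`. -/
lemma coeff_zero_of_isZeroAtImInfty (hN : 0 < N) (h : IsZeroAtImInfty φ) :
    (qExpansion (N : ℝ) φ).coeff 0 = 0 := by
  have hN' : (0 : ℝ) < N := by exact_mod_cast hN
  simp [qExpansion_coeff, h.cuspFunction_apply_zero hN']

end nice

/-! ### Translates of modular forms of a good level -/

section level

variable {𝒢 : Subgroup (GL (Fin 2) ℝ)} [𝒢.IsArithmetic] [𝒢.HasDetOne] {N : ℕ} {k : ℤ}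

/-- `SL(2,ℤ)`-translates of modular forms of a good level are nice. -/
lemma nice_slash (hG : GoodLevel 𝒢 N) (F : ModularForm 𝒢 k) (γ : SL(2, ℤ)) :
    Nice N (⇑F ∣[k] γ) := by
  have hper : (N : ℝ) ∈ (ConjAct.toConjAct
      (Matrix.SpecialLinearGroup.mapGL ℝ γ)⁻¹ • 𝒢).strictPeriods := by
    simpa using hG.per γ⁻¹
  refine ⟨?_, ?_, ModularFormClass.bdd_at_infty_slash F γ⟩
  · exact SlashInvariantFormClass.periodic_comp_ofComplex
      (ModularForm.translate F (Matrix.SpecialLinearGroup.mapGL ℝ γ)) hper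
  · exact (ModularForm.translate F (Matrix.SpecialLinearGroup.mapGL ℝ γ)).holo'

/-- A representative `γ ∈ SL(2,ℤ)` of the inverse of the chosen representative of `q`. -/
def rep (𝒢 : Subgroup (GL (Fin 2) ℝ)) (q : Q 𝒢) : SL(2, ℤ) :=
  Classical.choose (q.out⁻¹).property

lemma mapGL_rep (q : Q 𝒢) :
    Matrix.SpecialLinearGroup.mapGL ℝ (rep 𝒢 q) = ((q.out : 𝒮ℒ) : GL (Fin 2) ℝ)⁻¹ :=
  Classical.choose_spec (q.out⁻¹).property

lemma tr_eq_slash_rep (f : ℍ → ℂ) (q : Q 𝒢) : tr 𝒢 k f q = f ∣[k] (rep 𝒢 q) := by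
  change tr 𝒢 k f q = f ∣[k] (Matrix.SpecialLinearGroup.mapGL ℝ (rep 𝒢 q))
  rw [mapGL_rep]
  rfl

/-- Every `SL(2,ℤ)`-translate of a modular form is one of the `tr`. -/
lemma slash_eq_tr (F : ModularForm 𝒢 k) (γ : SL(2, ℤ)) :
    ⇑F ∣[k] γ = tr 𝒢 k ⇑F (QuotientGroup.mk (sl γ)⁻¹) := by
  rw [tr_eq_quotientFunc]
  change _ = SlashInvariantForm.quotientFunc (ℋ := 𝒮ℒ) F ⟦(sl γ)⁻¹⟧
  rw [SlashInvariantForm.quotientFunc_mk]
  simp only [sl, InvMemClass.coe_inv, inv_inv]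
  rfl

lemma nice_tr (hG : GoodLevel 𝒢 N) {f : ℍ → ℂ} (hf : f ∈ MFG 𝒢 k) (q : Q 𝒢) :
    Nice N (tr 𝒢 k f q) := by
  obtain ⟨F, rfl⟩ := hf
  rw [tr_eq_slash_rep]
  exact nice_slash hG F _

lemma tr_add (f g : ℍ → ℂ) (q : Q 𝒢) : tr 𝒢 k (f + g) q = tr 𝒢 k f q + tr 𝒢 k g q := by
  simp only [tr_eq_slash_rep, SlashAction.add_slash]

lemma tr_smul (c : ℂ) (f : ℍ → ℂ) (q : Q 𝒢) : tr 𝒢 k (c • f) q = c • tr 𝒢 k f q := by
  simp only [tr_eq_slash_rep, SL_smul_slash]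

/-- The translate at `T⁻¹ • q` is the translate at `q` slashed by `T`. -/
lemma tr_T_inv_smul {f : ℍ → ℂ} (hf : f ∈ MFG 𝒢 k) (q : Q 𝒢) :
    tr 𝒢 k f ((sl ModularGroup.T)⁻¹ • q) = tr 𝒢 k f q ∣[k] ModularGroup.T := by
  obtain ⟨F, rfl⟩ := hf
  rw [tr_eq_quotientFunc, tr_eq_quotientFunc, SL_slash]
  exact (SlashInvariantForm.quotientFunc_smul (ℋ := 𝒮ℒ) F (sl ModularGroup.T).property q).symm

lemma tr_T_inv_smul_apply {f : ℍ → ℂ} (hf : f ∈ MFG 𝒢 k) (q : Q 𝒢) (z : ℍ) :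
    tr 𝒢 k f ((sl ModularGroup.T)⁻¹ • q) z = tr 𝒢 k f q ((1 : ℝ) +ᵥ z) := by
  rw [tr_T_inv_smul hf]
  simpa using slash_T_zpow_apply (k := k) (tr 𝒢 k f q) 1 z

/-- The `n`-th coefficient of the `q_N`-expansion of the translate `tr 𝒢 k f q`. -/
def coefQ (𝒢 : Subgroup (GL (Fin 2) ℝ)) (N : ℕ) (k : ℤ) (f : ℍ → ℂ) (q : Q 𝒢) (n : ℕ) : ℂ :=
  (qExpansion (N : ℝ) (tr 𝒢 k f q)).coeff n

/-- The leading sum `∑_{n<N} a_n(f, q)`. -/
def leadQ (𝒢 : Subgroup (GL (Fin 2) ℝ)) (N : ℕ) (k : ℤ) (f : ℍ → ℂ) (q : Q 𝒢) : ℂ :=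
  ∑ n ∈ Finset.range N, coefQ 𝒢 N k f q n

lemma hasSum_coefQ (hG : GoodLevel 𝒢 N) {f : ℍ → ℂ} (hf : f ∈ MFG 𝒢 k) (q : Q 𝒢) (z : ℍ) :
    HasSum (fun n : ℕ ↦ coefQ 𝒢 N k f q n * 𝕢 (N : ℝ) z ^ n) (tr 𝒢 k f q z) :=
  (nice_tr hG hf q).hasSum hG.pos z

lemma coefQ_add (hG : GoodLevel 𝒢 N) {f g : ℍ → ℂ} (hf : f ∈ MFG 𝒢 k) (hg : g ∈ MFG 𝒢 k)
    (q : Q 𝒢) (n : ℕ) : coefQ 𝒢 N k (f + g) q n = coefQ 𝒢 N k f q n + coefQ 𝒢 N k g q n := by
  rw [coefQ, tr_add, qExpansion_add ((nice_tr hG hf q).analyticAt hG.pos)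
    ((nice_tr hG hg q).analyticAt hG.pos)]
  rfl

lemma coefQ_smul (hG : GoodLevel 𝒢 N) (c : ℂ) {f : ℍ → ℂ} (hf : f ∈ MFG 𝒢 k)
    (q : Q 𝒢) (n : ℕ) : coefQ 𝒢 N k (c • f) q n = c * coefQ 𝒢 N k f q n := by
  rw [coefQ, tr_smul, qExpansion_smul ((nice_tr hG hf q).analyticAt hG.pos)]
  simp [coefQ]

/-- **`T`-twist**: `a_n(f, T⁻¹ • q) = ζ_N^n a_n(f, q)`. -/
lemma coefQ_T (hG : GoodLevel 𝒢 N) {f : ℍ → ℂ} (hf : f ∈ MFG 𝒢 k) (q : Q 𝒢) (n : ℕ) :
    coefQ 𝒢 N k f ((sl ModularGroup.T)⁻¹ • q) n = zetaN N ^ n * coefQ 𝒢 N k f q n :=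
  (nice_tr hG hf q).coeff_shift hG.pos (nice_tr hG hf _) (tr_T_inv_smul_apply hf q) n

/-- Iterated `T`-twist. -/
lemma coefQ_T_pow (hG : GoodLevel 𝒢 N) {f : ℍ → ℂ} (hf : f ∈ MFG 𝒢 k) (q : Q 𝒢) (m n : ℕ) :
    coefQ 𝒢 N k f (((sl ModularGroup.T)⁻¹) ^ m • q) n = zetaN N ^ (n * m) * coefQ 𝒢 N k f q n := by
  induction m with
  | zero => simp
  | succ m ih =>
    rw [pow_succ', mul_smul, coefQ_T hG hf, ih]
    ring

lemma leadQ_T_pow (hG : GoodLevel 𝒢 N) {f : ℍ → ℂ} (hf : f ∈ MFG 𝒢 k) (q : Q 𝒢) (m : ℕ) :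
    leadQ 𝒢 N k f (((sl ModularGroup.T)⁻¹) ^ m • q) =
      ∑ n ∈ Finset.range N, zetaN N ^ (n * m) * coefQ 𝒢 N k f q n := by
  simp_rw [leadQ, coefQ_T_pow hG hf]

/-- **Finite Fourier inversion** along the `T`-orbit of `q`. -/
lemma natCast_mul_coefQ (hG : GoodLevel 𝒢 N) {f : ℍ → ℂ} (hf : f ∈ MFG 𝒢 k) (q : Q 𝒢)
    {l : ℕ} (hl : l < N) :
    (N : ℂ) * coefQ 𝒢 N k f q l = ∑ m ∈ Finset.range N,
      (zetaN N ^ (l * m))⁻¹ * leadQ 𝒢 N k f (((sl ModularGroup.T)⁻¹) ^ m • q) := by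
  have : NeZero N := ⟨hG.pos.ne'⟩
  simp_rw [leadQ_T_pow hG hf]
  exact (fourier_inversion (fun n ↦ coefQ 𝒢 N k f q n) hl).symm

/-- The constant term is the average of the leading sums along the `T`-orbit. -/
lemma natCast_mul_coefQ_zero (hG : GoodLevel 𝒢 N) {f : ℍ → ℂ} (hf : f ∈ MFG 𝒢 k) (q : Q 𝒢) :
    (N : ℂ) * coefQ 𝒢 N k f q 0 =
      ∑ m ∈ Finset.range N, leadQ 𝒢 N k f (((sl ModularGroup.T)⁻¹) ^ m • q) := by
  rw [natCast_mul_coefQ hG hf q hG.pos]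
  simp

/-- If all leading sums vanish then all coefficients below `N` vanish. -/
lemma coefQ_eq_zero_of_leadQ (hG : GoodLevel 𝒢 N) {f : ℍ → ℂ} (hf : f ∈ MFG 𝒢 k)
    (h : ∀ q : Q 𝒢, leadQ 𝒢 N k f q = 0) (q : Q 𝒢) {n : ℕ} (hn : n < N) :
    coefQ 𝒢 N k f q n = 0 := by
  have hN : (N : ℂ) ≠ 0 := by exact_mod_cast hG.pos.ne'
  have := natCast_mul_coefQ hG hf q hn
  simp only [h, mul_zero, Finset.sum_const_zero] at this
  exact (mul_eq_zero.mp this).resolve_left hN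

/-! ### Multiplication and division by `Δ` -/

/-- `Δ` is a modular form of weight `12` for every arithmetic subgroup of `SL(2,ℤ)`. -/
lemma discriminant_mem_MFG (hle : 𝒢 ≤ 𝒮ℒ) : (Δ : ℍ → ℂ) ∈ MFG 𝒢 12 := by
  refine ⟨{ toFun := Δ
            slash_action_eq' := ?_
            holo' := CuspForm.discriminant.holo'
            bdd_at_cusps' := ?_ }, rfl⟩
  · intro γ hγ
    obtain ⟨γ', rfl⟩ := hle hγ
    exact discriminant_slash γ'
  · intro c hc
    rw [Subgroup.IsArithmetic.isCusp_iff_isCusp_SL2Z] at hc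
    rw [OnePoint.isBoundedAt_iff_forall_SL2Z hc]
    intro γ _
    rw [discriminant_slash]
    exact discriminant_isZeroAtImInfty.isBoundedAtImInfty

lemma discriminant_mul_mem_MFG (hle : 𝒢 ≤ 𝒮ℒ) {g : ℍ → ℂ} (hg : g ∈ MFG 𝒢 (k - 12)) :
    Δ * g ∈ MFG 𝒢 k := by
  obtain ⟨D, hD⟩ := discriminant_mem_MFG (𝒢 := 𝒢) hle
  obtain ⟨G, rfl⟩ := hg
  refine ⟨ModularForm.mcast (by ring) (D.mul G), ?_⟩
  rw [← hD]
  rfl

/-- **Division by `Δ`**: if all translates of `f ∈ M_k(𝒢)` have vanishing `q_N`-coefficients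
below `N`, then `f = Δ · g` with `g ∈ M_{k-12}(𝒢)`. -/
theorem exists_eq_discriminant_mul (hG : GoodLevel 𝒢 N) {f : ℍ → ℂ} (hf : f ∈ MFG 𝒢 k)
    (h : ∀ q : Q 𝒢, ∀ n < N, coefQ 𝒢 N k f q n = 0) :
    ∃ g ∈ MFG 𝒢 (k - 12), f = Δ * g := by
  obtain ⟨F, rfl⟩ := hf
  have key : ∀ γ : SL(2, ℤ), (⇑F ∣[k] γ) =O[atImInfty] Δ := by
    intro γ
    have h1 := (nice_slash hG F γ).isBigO_of_coeff_eq_zero hG.pos N (fun n hn ↦ by
      have := h (QuotientGroup.mk (sl γ)⁻¹) n hn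
      rwa [coefQ, ← slash_eq_tr] at this)
    have : NeZero N := ⟨hG.pos.ne'⟩
    refine h1.trans ?_
    simp_rw [norm_qParam_pow]
    exact exp_isBigO_discriminant
  refine ⟨fun z ↦ F z / Δ z, ⟨{ toFun := fun z ↦ F z / Δ z
                                slash_action_eq' := ?_
                                holo' := ?_
                                bdd_at_cusps' := ?_ }, rfl⟩, ?_⟩
  · intro γ hγ
    obtain ⟨γ', rfl⟩ := hG.le hγ
    have h1 := div_discriminant_slash (k := k) (⇑F) γ'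
    have h2 : (⇑F ∣[k] γ') = ⇑F := SlashInvariantForm.slash_action_eqn F _ hγ
    rw [h2] at h1
    exact h1
  · exact (ModularFormClass.holo F).div CuspForm.discriminant.holo' discriminant_ne_zero
  · intro c hc
    rw [Subgroup.IsArithmetic.isCusp_iff_isCusp_SL2Z] at hc
    rw [OnePoint.isBoundedAt_iff_forall_SL2Z hc]
    intro γ _
    rw [div_discriminant_slash (k := k) (⇑F) γ, IsBoundedAtImInfty, BoundedAtFilter]
    exact (div_isBoundedUnder_of_isBigO (key γ)).isBigO_one ℝ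
  · ext z
    simp only [Pi.mul_apply]
    field_simp [discriminant_ne_zero z]

/-! ### The cusp form criterion -/

/-- Cusp forms are modular forms. -/
lemma CFG_le_MFG : CFG 𝒢 k ≤ MFG 𝒢 k := by
  rintro _ ⟨G, rfl⟩
  exact ⟨ModularFormClass.modularForm G, rfl⟩

/-- `f ∈ M_k(𝒢)` is a cusp form iff the constant terms of all its translates vanish. -/
theorem mem_CFG_iff_coefQ_zero (hG : GoodLevel 𝒢 N) {f : ℍ → ℂ} (hf : f ∈ MFG 𝒢 k) :
    f ∈ CFG 𝒢 k ↔ ∀ q : Q 𝒢, coefQ 𝒢 N k f q 0 = 0 := by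
  constructor
  · rintro ⟨G, rfl⟩ q
    rw [coefQ, tr_eq_slash_rep]
    exact coeff_zero_of_isZeroAtImInfty hG.pos (CuspFormClass.zero_at_infty_slash G _)
  · intro h
    obtain ⟨F, rfl⟩ := hf
    refine ⟨{ F with zero_at_cusps' := ?_ }, rfl⟩
    intro c hc
    rw [Subgroup.IsArithmetic.isCusp_iff_isCusp_SL2Z] at hc
    rw [OnePoint.isZeroAt_iff_forall_SL2Z hc]
    intro γ _
    refine (nice_slash hG F γ).isZeroAtImInfty hG.pos ?_
    have := h (QuotientGroup.mk (sl γ)⁻¹)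
    rwa [coefQ, ← slash_eq_tr] at this

/-! ### The leading-sum map and the constant-term map -/

/-- The leading-sum map `f ↦ (∑_{n<N} a_n(f, q))_q`. -/
def leadMap (hG : GoodLevel 𝒢 N) (k : ℤ) : MFG 𝒢 k →ₗ[ℂ] (Q 𝒢 → ℂ) where
  toFun f q := leadQ 𝒢 N k f q
  map_add' f g := by
    funext q
    simp only [leadQ, Submodule.coe_add, Pi.add_apply, coefQ_add hG f.2 g.2,
      Finset.sum_add_distrib]
  map_smul' c f := by
    funext q
    simp only [leadQ, Submodule.coe_smul, coefQ_smul hG c f.2, Pi.smul_apply, smul_eq_mul,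
      Finset.mul_sum, RingHom.id_apply]

/-- The constant-term map `f ↦ (a_0(f, q))_q`. -/
def cstMap (hG : GoodLevel 𝒢 N) (k : ℤ) : MFG 𝒢 k →ₗ[ℂ] (Q 𝒢 → ℂ) where
  toFun f q := coefQ 𝒢 N k f q 0
  map_add' f g := by
    funext q
    simp only [Submodule.coe_add, Pi.add_apply, coefQ_add hG f.2 g.2]
  map_smul' c f := by
    funext q
    simp only [Submodule.coe_smul, coefQ_smul hG c f.2, Pi.smul_apply, smul_eq_mul,
      RingHom.id_apply]

@[simp] lemma leadMap_apply (hG : GoodLevel 𝒢 N) (f : MFG 𝒢 k) (q : Q 𝒢) :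
    leadMap hG k f q = leadQ 𝒢 N k f q := rfl

@[simp] lemma cstMap_apply (hG : GoodLevel 𝒢 N) (f : MFG 𝒢 k) (q : Q 𝒢) :
    cstMap hG k f q = coefQ 𝒢 N k f q 0 := rfl

/-- Multiplication by `Δ` as a linear map `M_{k-12}(𝒢) → M_k(𝒢)`. -/
def mulDelta (hle : 𝒢 ≤ 𝒮ℒ) (k : ℤ) : MFG 𝒢 (k - 12) →ₗ[ℂ] MFG 𝒢 k where
  toFun g := ⟨Δ * g, discriminant_mul_mem_MFG hle g.2⟩
  map_add' g h := by
    apply Subtype.ext
    simp [mul_add]
  map_smul' c g := by
    apply Subtype.ext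
    simp

lemma mulDelta_injective (hle : 𝒢 ≤ 𝒮ℒ) (k : ℤ) : Function.Injective (mulDelta hle k) := by
  intro g h hgh
  have h1 : (Δ : ℍ → ℂ) * g = Δ * h := congrArg Subtype.val hgh
  apply Subtype.ext
  funext z
  have h2 := congrFun h1 z
  simp only [Pi.mul_apply] at h2
  exact mul_left_cancel₀ (discriminant_ne_zero z) h2

/-- The kernel of the leading-sum map consists of multiples of `Δ`. -/
lemma ker_leadMap_le (hG : GoodLevel 𝒢 N) (k : ℤ) :
    LinearMap.ker (leadMap hG k) ≤ LinearMap.range (mulDelta hG.le k) := by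
  intro f hf
  have h0 : ∀ q, leadQ 𝒢 N k f q = 0 := fun q ↦ congrFun (LinearMap.mem_ker.mp hf) q
  obtain ⟨g, hg, hfg⟩ := exists_eq_discriminant_mul hG f.2
    (fun q n hn ↦ coefQ_eq_zero_of_leadQ hG f.2 h0 q hn)
  exact ⟨⟨g, hg⟩, Subtype.ext hfg.symm⟩

lemma mu_pos (𝒢 : Subgroup (GL (Fin 2) ℝ)) [𝒢.IsArithmetic] : 0 < mu 𝒢 := Nat.card_pos

lemma finrank_fun_Q (𝒢 : Subgroup (GL (Fin 2) ℝ)) [𝒢.IsArithmetic] :
    Module.finrank ℂ (Q 𝒢 → ℂ) = mu 𝒢 := by
  rw [Module.finrank_fintype_fun_eq_card, mu, Nat.card_eq_fintype_card]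

/-- Under the rank hypothesis the leading-sum map is onto. -/
theorem leadMap_surjective (hG : GoodLevel 𝒢 N) (k : ℤ)
    (hk : Module.finrank ℂ (MFG 𝒢 k) = Module.finrank ℂ (MFG 𝒢 (k - 12)) + mu 𝒢) :
    Function.Surjective (leadMap hG k) := by
  have hmu := mu_pos 𝒢
  have hfin : Module.Finite ℂ (MFG 𝒢 k) := Module.finite_of_finrank_pos (by omega)
  have h1 := LinearMap.finrank_range_add_finrank_ker (leadMap hG k)
  have h2 : Module.finrank ℂ (LinearMap.ker (leadMap hG k)) ≤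
      Module.finrank ℂ (MFG 𝒢 (k - 12)) := by
    calc Module.finrank ℂ (LinearMap.ker (leadMap hG k))
        ≤ Module.finrank ℂ (LinearMap.range (mulDelta hG.le k)) :=
          Submodule.finrank_mono (ker_leadMap_le hG k)
      _ = Module.finrank ℂ (MFG 𝒢 (k - 12)) :=
          LinearMap.finrank_range_of_inj (mulDelta_injective hG.le k)
  have h3 := finrank_fun_Q 𝒢
  have h4 : Module.finrank ℂ (LinearMap.range (leadMap hG k)) ≤ Module.finrank ℂ (Q 𝒢 → ℂ) :=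
    Submodule.finrank_le _
  rw [← LinearMap.range_eq_top]
  exact Submodule.eq_top_of_finrank_eq (by omega)

/-! ### `T`-invariant functions on the cosets -/

/-- The orbits of `T` on the cosets (the cusps). -/
abbrev Orb (𝒢 : Subgroup (GL (Fin 2) ℝ)) : Type :=
  MulAction.orbitRel.Quotient (Subgroup.zpowers (sl ModularGroup.T)) (Q 𝒢)

instance instFintypeOrb (𝒢 : Subgroup (GL (Fin 2) ℝ)) [𝒢.IsArithmetic] : Fintype (Orb 𝒢) :=
  Fintype.ofFinite _

/-- Pull back a function on the `T`-orbits to a function on the cosets. -/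
def pull (𝒢 : Subgroup (GL (Fin 2) ℝ)) : (Orb 𝒢 → ℂ) →ₗ[ℂ] (Q 𝒢 → ℂ) where
  toFun w q := w (Quotient.mk'' q)
  map_add' _ _ := rfl
  map_smul' _ _ := rfl

lemma pull_injective (𝒢 : Subgroup (GL (Fin 2) ℝ)) : Function.Injective (pull 𝒢) := by
  intro w w' h
  funext x
  induction x using Quotient.inductionOn with
  | h q => exact congrFun h q

lemma pull_smul (w : Orb 𝒢 → ℂ) {t : 𝒮ℒ} (ht : t ∈ Subgroup.zpowers (sl ModularGroup.T))
    (q : Q 𝒢) : pull 𝒢 w (t • q) = pull 𝒢 w q := by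
  change w (Quotient.mk'' (t • q)) = w (Quotient.mk'' q)
  congr 1
  exact Quotient.sound' ⟨⟨t, ht⟩, rfl⟩

/-- A function invariant under `T⁻¹` is invariant under the group generated by `T`. -/
lemma eq_of_mem_zpowers {v : Q 𝒢 → ℂ} (hv : ∀ q, v ((sl ModularGroup.T)⁻¹ • q) = v q)
    {t : 𝒮ℒ} (ht : t ∈ Subgroup.zpowers (sl ModularGroup.T)) (q : Q 𝒢) : v (t • q) = v q := by
  let S : Subgroup 𝒮ℒ :=
    { carrier := {g | ∀ q, v (g • q) = v q}
      mul_mem' := fun {a b} ha hb q ↦ by rw [mul_smul, ha, hb]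
      one_mem' := fun q ↦ by rw [one_smul]
      inv_mem' := fun {g} hg q ↦ by
        have := hg (g⁻¹ • q)
        rw [smul_inv_smul] at this
        exact this.symm }
  have h1 : (sl ModularGroup.T)⁻¹ ∈ S := hv
  have h2 : sl ModularGroup.T ∈ S := by simpa using S.inv_mem h1
  exact (Subgroup.zpowers_le.mpr h2) ht q

/-- Under surjectivity of the leading-sum map, the range of the constant-term map is the space
of `T`-invariant functions on the cosets. -/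
lemma range_cstMap (hG : GoodLevel 𝒢 N) (k : ℤ) (hsurj : Function.Surjective (leadMap hG k)) :
    LinearMap.range (cstMap hG k) = LinearMap.range (pull 𝒢) := by
  apply le_antisymm
  · rintro _ ⟨f, rfl⟩
    have hT : ∀ q, cstMap hG k f ((sl ModularGroup.T)⁻¹ • q) = cstMap hG k f q := fun q ↦ by
      simpa using coefQ_T hG f.2 q 0
    refine ⟨Quotient.lift (cstMap hG k f) ?_, ?_⟩
    · rintro a b ⟨⟨t, ht⟩, rfl⟩
      exact eq_of_mem_zpowers hT ht b
    · funext q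
      rfl
  · rintro _ ⟨w, rfl⟩
    obtain ⟨f, hf⟩ := hsurj (pull 𝒢 w)
    refine ⟨f, ?_⟩
    funext q
    have hN : (N : ℂ) ≠ 0 := by exact_mod_cast hG.pos.ne'
    have h1 := natCast_mul_coefQ_zero hG f.2 q
    have h2 : ∀ m ∈ Finset.range N,
        leadQ 𝒢 N k f (((sl ModularGroup.T)⁻¹) ^ m • q) = pull 𝒢 w q := by
      intro m _
      rw [← leadMap_apply hG, hf]
      exact pull_smul w (Subgroup.pow_mem _ (Subgroup.inv_mem _ (Subgroup.mem_zpowers _)) m) q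
    rw [Finset.sum_congr rfl h2, Finset.sum_const, Finset.card_range, nsmul_eq_mul] at h1
    exact mul_left_cancel₀ hN h1

/-! ### The count -/

theorem stmt_Cusp (hG : GoodLevel 𝒢 N) : Stmt_Cusp 𝒢 := by
  intro k hk
  have hmu := mu_pos 𝒢
  have hfin : Module.Finite ℂ (MFG 𝒢 k) := Module.finite_of_finrank_pos (by omega)
  have hsurj := leadMap_surjective hG k hk
  have h1 := LinearMap.finrank_range_add_finrank_ker (cstMap hG k)
  have h2 : Module.finrank ℂ (LinearMap.range (cstMap hG k)) = cusps 𝒢 := by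
    rw [range_cstMap hG k hsurj, LinearMap.finrank_range_of_inj (pull_injective 𝒢),
      Module.finrank_fintype_fun_eq_card, cusps, Nat.card_eq_fintype_card]
  have h3 : Module.finrank ℂ (LinearMap.ker (cstMap hG k)) = Module.finrank ℂ (CFG 𝒢 k) := by
    have h4 : Submodule.map (MFG 𝒢 k).subtype (LinearMap.ker (cstMap hG k)) = CFG 𝒢 k := by
      ext f
      constructor
      · rintro ⟨g, hg, rfl⟩
        exact (mem_CFG_iff_coefQ_zero hG g.2).mpr
          (fun q ↦ congrFun (LinearMap.mem_ker.mp hg) q)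
      · intro hf
        have hfM := CFG_le_MFG hf
        exact ⟨⟨f, hfM⟩, LinearMap.mem_ker.mpr
          (funext fun q ↦ (mem_CFG_iff_coefQ_zero hG hfM).mp hf q), rfl⟩
    rw [← h4]
    exact (Submodule.equivSubtypeMap _ _).finrank_eq
  omega

end level

/-- **`Goal_Cusp`** of `helper560_Spec`. -/
theorem goal_Cusp : Goal_Cusp := fun _ _ _ _ hG ↦ stmt_Cusp hG

end

end Fermat.Agent.S20.helper1855
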