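/-
S20, exactness at the cusps (seat helper1855): the leading vectors of a free basis of
`M_*(𝒢)` over the level one ring are linearly independent.

`lead_indep` : if `(κ, F)` is a free basis of `MFG 𝒢` (any finite index type) and
`∑ j, c j * leadQ 𝒢 N (κ j) (F j) q = 0` for all cosets `q`, then `c = 0`.
This is hypothesis `hinj` of `helper687.sum_int_weights_eq_of_injective` (sum of the generator
weights) and the invertibility of the leading matrix used by the duality rows.

Proof: homogenise with Eisenstein series `A j` of weight `k - κ j` and constant term `1`;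
`f = ∑ c j • A j * F j` has vanishing leading vector, hence `f = Δ * g` (division by `Δ`);
expanding `g` in the basis and using uniqueness gives `c j • A j = Δ * B j`, so `c j = 0`.
-/
import Fermat.Agent.S20.helper1855_Cusp

set_option autoImplicit false
set_option linter.unusedSectionVars false

open UpperHalfPlane ModularForm Function Filter Asymptotics
open scoped MatrixGroups Manifold Pointwise Real Topology

namespace Fermat.Agent.S20.helper1855

open Fermat.Agent.S20.helper560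

noncomputable section

local notation "𝕢" => Periodic.qParam
local notation "Δ" => ModularForm.discriminant

/-! ### Level one forms as `N`-periodic functions -/

section levelOne

variable {N : ℕ}

/-- Level one modular forms are nice for every period `N`. -/
lemma nice_levelOne (N : ℕ) {a : ℤ} {P : ℍ → ℂ} (hP : P ∈ RR a) : Nice N P := by
  obtain ⟨P', rfl⟩ := hP
  have h1 : Periodic (⇑P' ∘ ofComplex) ((1 : ℝ) : ℂ) :=
    SlashInvariantFormClass.periodic_comp_ofComplex P' one_mem_strictPeriods_SL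
  refine ⟨?_, ModularFormClass.holo P', ModularFormClass.bdd_at_infty P'⟩
  have := h1.nat_mul N
  simpa using this

/-- The `q_N`-coefficients of a level one form. -/
lemma coeff_levelOne (hN : 0 < N) {a : ℤ} {P : ℍ → ℂ} (hP : P ∈ RR a) (n : ℕ) :
    (qExpansion (N : ℝ) P).coeff n = if N ∣ n then (qExpansion 1 P).coeff (n / N) else 0 := by
  obtain ⟨P', rfl⟩ := hP
  have h1 : Periodic (⇑P' ∘ ofComplex) ((1 : ℝ) : ℂ) :=
    SlashInvariantFormClass.periodic_comp_ofComplex P' one_mem_strictPeriods_SL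
  have := UpperHalfPlane.qExpansion_coeff_nat_mul (h := 1) one_pos (F := ⇑P') h1
    (ModularFormClass.holo P') (ModularFormClass.bdd_at_infty P') hN n
  simpa using this

/-- Multiplying by a level one form multiplies the first `N` `q_N`-coefficients by its
constant term. -/
lemma coeff_levelOne_mul (hN : 0 < N) {a : ℤ} {P : ℍ → ℂ} (hP : P ∈ RR a) {φ : ℍ → ℂ}
    (hφ : Nice N φ) {n : ℕ} (hn : n < N) :
    (qExpansion (N : ℝ) (P * φ)).coeff n =
      (qExpansion 1 P).coeff 0 * (qExpansion (N : ℝ) φ).coeff n := by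
  rw [qExpansion_mul ((nice_levelOne N hP).analyticAt hN) (hφ.analyticAt hN),
    PowerSeries.coeff_mul]
  rw [Finset.sum_eq_single (0, n)]
  · rw [coeff_levelOne hN hP]
    simp
  · rintro ⟨i, j⟩ hij hne
    have hi : i + j = n := Finset.HasAntidiagonal.mem_antidiagonal.mp hij
    have hi0 : i ≠ 0 := by
      rintro rfl
      simp only [zero_add] at hi
      exact hne (by rw [hi])
    rw [coeff_levelOne hN hP, if_neg, zero_mul]
    intro hdvd
    exact absurd (Nat.le_of_dvd (Nat.pos_of_ne_zero hi0) hdvd) (by omega)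
  · intro h
    exact absurd (Finset.HasAntidiagonal.mem_antidiagonal.mpr (zero_add n)) h

/-- For every even weight `m ≥ 4` there is a level one form with constant term `1`. -/
lemma exists_RR_coeff_zero_eq_one {m : ℤ} (hm : 4 ≤ m) (hm2 : Even m) :
    ∃ A ∈ RR m, (qExpansion 1 A).coeff 0 = 1 := by
  obtain ⟨n, rfl⟩ : ∃ n : ℕ, m = n := ⟨m.toNat, (Int.toNat_of_nonneg (by omega)).symm⟩
  have hn : 3 ≤ n := by omega
  have hn2 : Even n := by exact_mod_cast hm2
  exact ⟨⇑(ModularForm.E hn), ⟨ModularForm.E hn, rfl⟩,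
    EisensteinSeries.E_qExpansion_coeff_zero hn hn2⟩

end levelOne

section level

variable {𝒢 : Subgroup (GL (Fin 2) ℝ)} [𝒢.IsArithmetic] [𝒢.HasDetOne] {N : ℕ} {k : ℤ}

/-- Level one forms are modular forms for every arithmetic subgroup of `SL(2,ℤ)`. -/
lemma RR_le_MFG (hle : 𝒢 ≤ 𝒮ℒ) (a : ℤ) : RR a ≤ MFG 𝒢 a := by
  rintro _ ⟨P, rfl⟩
  exact ⟨{ toFun := P
           slash_action_eq' := fun γ hγ ↦ P.slash_action_eq' γ (hle hγ)
           holo' := P.holo'
           bdd_at_cusps' := fun hc ↦ P.bdd_at_cusps' (hc.mono hle) }, rfl⟩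

lemma mul_mem_MFG {a b : ℤ} {f g : ℍ → ℂ} (hf : f ∈ MFG 𝒢 a) (hg : g ∈ MFG 𝒢 b) :
    f * g ∈ MFG 𝒢 (a + b) := by
  obtain ⟨F, rfl⟩ := hf
  obtain ⟨G, rfl⟩ := hg
  exact ⟨F.mul G, rfl⟩

/-- Translates of a product with a level one form. -/
lemma tr_levelOne_mul {a b : ℤ} {P : ℍ → ℂ} (hP : P ∈ RR a) (g : ℍ → ℂ) (q : Q 𝒢) :
    tr 𝒢 (a + b) (P * g) q = P * tr 𝒢 b g q := by
  obtain ⟨P', rfl⟩ := hP
  rw [tr_eq_slash_rep, tr_eq_slash_rep, mul_slash_SL2]
  congr 1
  exact SlashInvariantForm.slash_action_eqn P' _ ⟨_, rfl⟩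

lemma coefQ_levelOne_mul (hG : GoodLevel 𝒢 N) {a b : ℤ} {P g : ℍ → ℂ} (hP : P ∈ RR a)
    (hg : g ∈ MFG 𝒢 b) (q : Q 𝒢) {n : ℕ} (hn : n < N) :
    coefQ 𝒢 N (a + b) (P * g) q n = (qExpansion 1 P).coeff 0 * coefQ 𝒢 N b g q n := by
  rw [coefQ, tr_levelOne_mul hP, coeff_levelOne_mul hG.pos hP (nice_tr hG hg q) hn]
  rfl

lemma leadQ_levelOne_mul (hG : GoodLevel 𝒢 N) {a b k : ℤ} (hk : a + b = k) {P g : ℍ → ℂ}
    (hP : P ∈ RR a) (hg : g ∈ MFG 𝒢 b) (q : Q 𝒢) :
    leadQ 𝒢 N k (P * g) q = (qExpansion 1 P).coeff 0 * leadQ 𝒢 N b g q := by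
  subst hk
  rw [leadQ, leadQ, Finset.mul_sum]
  exact Finset.sum_congr rfl fun n hn ↦ coefQ_levelOne_mul hG hP hg q (Finset.mem_range.mp hn)

/-- The members of a free basis are nonzero. -/
lemma freeBasis_ne_zero {V : ℤ → Submodule ℂ (ℍ → ℂ)} {J : Type} [Fintype J] {κ : J → ℤ}
    {F : J → ℍ → ℂ} (hF : IsFreeBasis V κ F) (j : J) : F j ≠ 0 := by
  classical
  intro hj
  obtain ⟨P, -, hPu⟩ := hF.2 (κ j) 0 (zero_mem _)
  have h1 : (fun _ ↦ 0 : J → ℍ → ℂ) = P := hPu _ ⟨fun i ↦ zero_mem _, by simp⟩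
  have h2 : (fun i ↦ if i = j then (1 : ℍ → ℂ) else 0) = P := hPu _ ⟨fun i ↦ by
    beta_reduce
    split_ifs with hij
    · subst hij
      rw [sub_self]
      exact ⟨1, rfl⟩
    · exact zero_mem _, by simp [hj]⟩
  have := congrFun (congrFun (h1.trans h2.symm) j) UpperHalfPlane.I
  simp at this

/-- **Exactness at the cusps**: the leading vectors of a free basis are linearly independent. -/
theorem lead_indep (hG : GoodLevel 𝒢 N) {J : Type} [Fintype J] (κ : J → ℤ) (F : J → ℍ → ℂ)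
    (hF : IsFreeBasis (MFG 𝒢) κ F) (c : J → ℂ)
    (h : ∀ q : Q 𝒢, ∑ j, c j * leadQ 𝒢 N (κ j) (F j) q = 0) : c = 0 := by
  classical
  have hFne := freeBasis_ne_zero hF
  obtain ⟨hFmem, hFuniq⟩ := hF
  -- the weights are even
  have hev : ∀ j, Even (κ j) := by
    intro j
    by_contra hodd
    rw [Int.not_even_iff_odd] at hodd
    obtain ⟨F', hF'⟩ := hFmem j
    have := ModularForm.eq_zero_of_neg_one_mem hG.neg hodd F'
    exact hFne j (by rw [← hF', this]; rfl)
  -- a common weight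
  set k : ℤ := 2 * ∑ j, |κ j| + 4 with hkdef
  have hk : ∀ j, 4 ≤ k - κ j ∧ Even (k - κ j) := by
    intro j
    have h1 : |κ j| ≤ ∑ i, |κ i| :=
      Finset.single_le_sum (f := fun i ↦ |κ i|) (fun i _ ↦ abs_nonneg _) (Finset.mem_univ j)
    have h2 : κ j ≤ |κ j| := le_abs_self _
    have h3 : 0 ≤ |κ j| := abs_nonneg _
    refine ⟨by linarith, ?_⟩
    exact (Even.add (even_two_mul _) (by decide : Even (4 : ℤ))).sub (hev j)
  choose A hA hA0 using fun j ↦ exists_RR_coeff_zero_eq_one (hk j).1 (hk j).2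
  -- the homogenised combination
  have hmem : ∀ j, A j * F j ∈ MFG 𝒢 k := fun j ↦ by
    have := mul_mem_MFG (RR_le_MFG hG.le _ (hA j)) (hFmem j)
    rwa [sub_add_cancel] at this
  set f : MFG 𝒢 k := ∑ j, c j • (⟨A j * F j, hmem j⟩ : MFG 𝒢 k) with hfdef
  have hfcoe : (f : ℍ → ℂ) = ∑ j, (c j • A j) * F j := by
    rw [hfdef, Submodule.coe_sum]
    refine Finset.sum_congr rfl fun j _ ↦ ?_
    rw [Submodule.coe_smul, smul_mul_assoc]
  have hlead : leadMap hG k f = 0 := by
    funext q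
    rw [hfdef, map_sum, Finset.sum_apply, Pi.zero_apply, ← h q]
    refine Finset.sum_congr rfl fun j _ ↦ ?_
    rw [map_smul, Pi.smul_apply, smul_eq_mul, leadMap_apply]
    congr 1
    rw [leadQ_levelOne_mul hG (sub_add_cancel k (κ j)) (hA j) (hFmem j) q, hA0 j, one_mul]
  obtain ⟨g, hg⟩ := ker_leadMap_le hG k (LinearMap.mem_ker.mpr hlead)
  have hfg : (f : ℍ → ℂ) = Δ * (g : ℍ → ℂ) := (congrArg Subtype.val hg).symm
  -- expand `g` in the basis
  obtain ⟨B, ⟨hB, hgB⟩, -⟩ := hFuniq (k - 12) g g.2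
  -- two expansions of `f`
  obtain ⟨P, -, hPu⟩ := hFuniq k f f.2
  have hΔ : (Δ : ℍ → ℂ) ∈ RR 12 := discriminant_mem_MFG (𝒢 := 𝒮ℒ) le_rfl
  have h1 : (fun j ↦ c j • A j) = P :=
    hPu _ ⟨fun j ↦ Submodule.smul_mem _ _ (hA j), hfcoe⟩
  have h2 : (fun j ↦ Δ * B j) = P := by
    refine hPu _ ⟨fun j ↦ ?_, ?_⟩
    · have := mul_mem_MFG hΔ (hB j)
      rwa [show (12 : ℤ) + (k - 12 - κ j) = k - κ j by ring] at this
    · rw [hfg, hgB, Finset.mul_sum]
      exact Finset.sum_congr rfl fun j _ ↦ (mul_assoc _ _ _).symm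
  funext j
  have h3 : c j • A j = Δ * B j := congrFun (h1.trans h2.symm) j
  -- take the limit at `i∞`
  obtain ⟨B', hB'⟩ := hB j
  have hbdd : IsBoundedAtImInfty (B j) := by
    rw [← hB']
    exact ModularFormClass.bdd_at_infty B'
  have hz : IsZeroAtImInfty (c j • A j) := by
    rw [h3]
    exact discriminant_isZeroAtImInfty.zero_mul_isBoundedUnder_le hbdd.isBoundedUnder_le
  have h4 := coeff_zero_of_isZeroAtImInfty (N := 1) one_pos hz
  simp only [Nat.cast_one] at h4
  have hAan : AnalyticAt ℂ (cuspFunction 1 (A j)) 0 := by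
    simpa using (nice_levelOne 1 (hA j)).analyticAt one_pos
  rw [qExpansion_smul hAan] at h4
  simpa [hA0 j] using h4

end level

end

end Fermat.Agent.S20.helper1855
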