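/-
S20, bridge towards `helper560.Goal_Dual` (seat helper321).

`DualFamily 𝒢 κ F H` says that `H j` are cusp forms of weight `12 - κ j` whose translates are
`Δ`-dual to those of the family `F`:  `∑ q, (F i)_q (H j)_q = Δ` if `i = j` and `0` otherwise
(this is what the "dual basis" `Δ · Φ⁻¹` of the fundamental matrix `Φ` satisfies).

Main results (pure algebra on top of Mathlib's trace of cusp forms, no cusp analysis):
* `exists_perm_of_dualFamily` : a dual family of `F` + ANY free basis `(κ', G)` of the cusp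
  forms  ⟹  `∃ σ, ∀ j, κ j + κ' (σ j) = 12`.
* `stmt_Dual_of_dualFamily` : `helper560.Stmt_Dual 𝒢` from the existence of dual families.
* `dualFamily_of_inverse` : the shape `tr (H j) q z = Δ z * (Φ z)⁻¹ j q` gives a dual family.
-/
import Fermat.Agent.S20.helper560_Spec

set_option autoImplicit false

open UpperHalfPlane ModularForm
open scoped MatrixGroups Manifold

namespace Fermat.Agent.S20.helper321

open Fermat.Agent.S20.helper560

noncomputable section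

local notation "Δ" => ModularForm.discriminant

/-- `H` is a `Δ`-dual family of cusp forms for the family `F` (weights `κ`). -/
def DualFamily (𝒢 : Subgroup (GL (Fin 2) ℝ)) [𝒢.IsArithmetic] [𝒢.HasDetOne]
    (κ : Q 𝒢 → ℤ) (F H : Q 𝒢 → ℍ → ℂ) : Prop :=
  (∀ j, H j ∈ CFG 𝒢 (12 - κ j)) ∧
  (∀ j z, ∑ q, tr 𝒢 (κ j) (F j) q z * tr 𝒢 (12 - κ j) (H j) q z = Δ z) ∧
  (∀ i j, i ≠ j → ∀ z, ∑ q, tr 𝒢 (κ i) (F i) q z * tr 𝒢 (12 - κ j) (H j) q z = 0)

section basics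

variable {𝒢 : Subgroup (GL (Fin 2) ℝ)}

/-- Every translate `tr 𝒢 k f q` is the slash of `f` by one element of `SL(2,ℤ)` (depending
only on the coset `q`). -/
theorem exists_SL_tr_eq (q : Q 𝒢) :
    ∃ γ : SL(2, ℤ), ∀ (k : ℤ) (f : ℍ → ℂ), tr 𝒢 k f q = f ∣[k] γ := by
  have h : ((q.out : 𝒮ℒ) : GL (Fin 2) ℝ)⁻¹ ∈ 𝒮ℒ := inv_mem (q.out : 𝒮ℒ).2
  obtain ⟨γ, hγ⟩ := h
  refine ⟨γ, fun k f => ?_⟩
  rw [ModularForm.SL_slash, tr]
  congr 1
  exact hγ.symm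

theorem tr_sum {ι : Type} (s : Finset ι) (k : ℤ) (f : ι → ℍ → ℂ) (q : Q 𝒢) :
    tr 𝒢 k (∑ l ∈ s, f l) q = ∑ l ∈ s, tr 𝒢 k (f l) q := by
  unfold tr
  exact SlashAction.sum_slash ..

theorem tr_mul (a b : ℤ) (f g : ℍ → ℂ) (q : Q 𝒢) :
    tr 𝒢 (a + b) (f * g) q = tr 𝒢 a f q * tr 𝒢 b g q := by
  obtain ⟨γ, hγ⟩ := exists_SL_tr_eq q
  rw [hγ, hγ, hγ, ModularForm.mul_slash_SL2]

theorem tr_RR {a : ℤ} {P : ℍ → ℂ} (hP : P ∈ RR a) (q : Q 𝒢) : tr 𝒢 a P q = P := by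
  obtain ⟨γ, hγ⟩ := exists_SL_tr_eq q
  obtain ⟨P', rfl⟩ := hP
  rw [hγ, ModularForm.SL_slash]
  exact SlashInvariantFormClass.slash_action_eq P' _ ⟨γ, rfl⟩

theorem tr_mul_RR {a b : ℤ} {P : ℍ → ℂ} (hP : P ∈ RR a) (g : ℍ → ℂ) (q : Q 𝒢) :
    tr 𝒢 (a + b) (P * g) q = P * tr 𝒢 b g q := by
  rw [tr_mul, tr_RR hP]

/-- Level one forms of negative weight vanish. -/
theorem eq_zero_of_mem_RR_of_neg {k : ℤ} (hk : k < 0) {P : ℍ → ℂ} (hP : P ∈ RR k) : P = 0 := by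
  obtain ⟨P', rfl⟩ := hP
  exact ModularFormClass.levelOne_neg_weight_eq_zero hk P'

/-- Level one cusp forms of weight `< 12` vanish. -/
theorem eq_zero_of_mem_CFG_SL_of_lt {k : ℤ} (hk : k < 12) {f : ℍ → ℂ} (hf : f ∈ CFG 𝒮ℒ k) :
    f = 0 := by
  obtain ⟨f', rfl⟩ := hf
  have h := CuspForm.rank_eq_zero_of_weight_lt_twelve hk
  rw [rank_zero_iff_forall_zero] at h
  rw [h f']
  rfl

end basics

variable {𝒢 : Subgroup (GL (Fin 2) ℝ)} [𝒢.IsArithmetic] [𝒢.HasDetOne]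

/-- The trace pairing of a modular form and a cusp form is a level one cusp form. -/
theorem sum_tr_mul_mem_CFG {a b : ℤ} {f g : ℍ → ℂ} (hf : f ∈ MFG 𝒢 a) (hg : g ∈ CFG 𝒢 b) :
    (fun z => ∑ q, tr 𝒢 a f q z * tr 𝒢 b g q z) ∈ CFG 𝒮ℒ (b + a) := by
  obtain ⟨F, rfl⟩ := hf
  obtain ⟨G, rfl⟩ := hg
  refine ⟨CuspForm.trace 𝒮ℒ (G.mulModularForm F), ?_⟩
  ext z
  rw [CuspForm.coe_trace, Finset.sum_apply]
  refine Finset.sum_congr rfl fun q _ => ?_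
  rw [← tr_eq_quotientFunc_cusp, CuspForm.coe_mulModularForm, tr_mul, Pi.mul_apply, mul_comm]

/-- **Bridge.** A `Δ`-dual family of `F` and any free basis `(κ', G)` of the cusp forms force
the weights to pair up to `12`. -/
theorem exists_perm_of_dualFamily {κ κ' : Q 𝒢 → ℤ} {F G H : Q 𝒢 → ℍ → ℂ}
    (hF : ∀ j, F j ∈ MFG 𝒢 (κ j)) (hG : IsFreeBasis (CFG 𝒢) κ' G)
    (hH : DualFamily 𝒢 κ F H) :
    ∃ σ : Q 𝒢 ≃ Q 𝒢, ∀ j, κ j + κ' (σ j) = 12 := by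
  classical
  obtain ⟨hHmem, hdiag, hoff⟩ := hH
  -- expand the dual family in the free basis `G`
  have hexp : ∀ j, ∃ P : Q 𝒢 → ℍ → ℂ,
      (∀ l, P l ∈ RR (12 - κ j - κ' l)) ∧ H j = ∑ l, P l * G l :=
    fun j => (hG.2 _ _ (hHmem j)).exists
  choose B hB hHB using hexp
  -- the trace pairing matrix
  set T : Q 𝒢 → Q 𝒢 → ℍ → ℂ :=
    fun i l z => ∑ q, tr 𝒢 (κ i) (F i) q z * tr 𝒢 (κ' l) (G l) q z with hTdef
  have hT : ∀ i l, κ i + κ' l < 12 → T i l = 0 := by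
    intro i l hlt
    have hmem := sum_tr_mul_mem_CFG (hF i) (hG.1 l)
    exact eq_zero_of_mem_CFG_SL_of_lt (by linarith) hmem
  have hBzero : ∀ j l, 12 < κ j + κ' l → B j l = 0 := by
    intro j l hlt
    exact eq_zero_of_mem_RR_of_neg (by linarith) (hB j l)
  -- translates of the dual family
  have htr : ∀ j q, tr 𝒢 (12 - κ j) (H j) q = ∑ l, B j l * tr 𝒢 (κ' l) (G l) q := by
    intro j q
    rw [hHB j, tr_sum]
    refine Finset.sum_congr rfl fun l _ => ?_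
    have hw : (12 - κ j) = (12 - κ j - κ' l) + κ' l := by ring
    rw [hw]
    exact tr_mul_RR (hB j l) _ q
  -- matrix identity `T * B = Δ`
  have hmat : ∀ z i j, ∑ l, T i l z * B j l z = if i = j then Δ z else 0 := by
    intro z i j
    have h1 : ∑ l, T i l z * B j l z
        = ∑ q, tr 𝒢 (κ i) (F i) q z * tr 𝒢 (12 - κ j) (H j) q z := by
      simp only [hTdef, htr, Finset.sum_apply, Pi.mul_apply, Finset.sum_mul, Finset.mul_sum]
      rw [Finset.sum_comm]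
      refine Finset.sum_congr rfl fun q _ => Finset.sum_congr rfl fun l _ => ?_
      ring
    rw [h1]
    split_ifs with hij
    · subst hij
      exact hdiag i z
    · exact hoff i j hij z
  -- evaluate at a point
  let z₀ : ℍ := UpperHalfPlane.I
  let Tm : Matrix (Q 𝒢) (Q 𝒢) ℂ := Matrix.of fun i l => T i l z₀
  let Bm : Matrix (Q 𝒢) (Q 𝒢) ℂ := Matrix.of fun l j => B j l z₀
  have hprod : Tm * Bm = Δ z₀ • (1 : Matrix (Q 𝒢) (Q 𝒢) ℂ) := by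
    ext i j
    rw [Matrix.mul_apply, Matrix.smul_apply, Matrix.one_apply, smul_eq_mul, mul_ite, mul_one,
      mul_zero]
    exact hmat z₀ i j
  have hdet : Tm.det * Bm.det ≠ 0 := by
    rw [← Matrix.det_mul, hprod, Matrix.det_smul, Matrix.det_one, mul_one]
    exact pow_ne_zero _ (ModularForm.discriminant_ne_zero z₀)
  have hperm : ∀ M : Matrix (Q 𝒢) (Q 𝒢) ℂ, M.det ≠ 0 →
      ∃ σ : Equiv.Perm (Q 𝒢), ∀ i, M (σ i) i ≠ 0 := by
    intro M hM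
    by_contra hcon
    apply hM
    rw [Matrix.det_apply]
    refine Finset.sum_eq_zero fun σ _ => ?_
    have hex : ∃ i, M (σ i) i = 0 := by
      by_contra hno
      exact hcon ⟨σ, fun i hi => hno ⟨i, hi⟩⟩
    obtain ⟨i, hi⟩ := hex
    have hz : ∏ i, M (σ i) i = 0 := Finset.prod_eq_zero (Finset.mem_univ i) hi
    rw [hz, smul_zero]
  obtain ⟨σ, hσ⟩ := hperm Tm (left_ne_zero_of_mul hdet)
  obtain ⟨τ, hτ⟩ := hperm Bm (right_ne_zero_of_mul hdet)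
  have h1 : ∀ l, 12 ≤ κ (σ l) + κ' l := by
    intro l
    by_contra hlt
    exact hσ l (by simp only [Tm, Matrix.of_apply]; rw [hT _ _ (not_le.mp hlt)]; rfl)
  have h2 : ∀ j, κ j + κ' (τ j) ≤ 12 := by
    intro j
    by_contra hlt
    exact hτ j (by simp only [Bm, Matrix.of_apply]; rw [hBzero _ _ (not_le.mp hlt)]; rfl)
  have hs1 : ∑ l, (κ (σ l) + κ' l - 12) = ∑ l, κ l + ∑ l, κ' l - ∑ _l : Q 𝒢, (12 : ℤ) := by
    rw [Finset.sum_sub_distrib, Finset.sum_add_distrib, Equiv.sum_comp σ κ]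
  have hs2 : ∑ j, (12 - (κ j + κ' (τ j))) = ∑ _l : Q 𝒢, (12 : ℤ) - (∑ l, κ l + ∑ l, κ' l) := by
    rw [Finset.sum_sub_distrib, Finset.sum_add_distrib, Equiv.sum_comp τ κ']
  have hnn1 : ∀ l ∈ Finset.univ, 0 ≤ κ (σ l) + κ' l - 12 := fun l _ => by linarith [h1 l]
  have hnn2 : 0 ≤ ∑ j, (12 - (κ j + κ' (τ j))) :=
    Finset.sum_nonneg fun j _ => by linarith [h2 j]
  have hzero : ∑ l, (κ (σ l) + κ' l - 12) = 0 := by
    have := Finset.sum_nonneg hnn1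
    linarith
  have hall := (Finset.sum_eq_zero_iff_of_nonneg hnn1).mp hzero
  refine ⟨σ.symm, fun j => ?_⟩
  have := hall (σ.symm j) (Finset.mem_univ _)
  rw [Equiv.apply_symm_apply] at this
  linarith

/-- `helper560.Stmt_Dual 𝒢` follows as soon as every free basis of the modular forms with
everywhere invertible fundamental matrix has a `Δ`-dual family of cusp forms. -/
theorem stmt_Dual_of_dualFamily
    (h : ∀ (κ : Q 𝒢 → ℤ) (F : Q 𝒢 → ℍ → ℂ), IsFreeBasis (MFG 𝒢) κ F →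
      (∀ z, fundDet 𝒢 κ F z ≠ 0) → ∃ H : Q 𝒢 → ℍ → ℂ, DualFamily 𝒢 κ F H) :
    Stmt_Dual 𝒢 := by
  intro κ κ' F G hF hG hdF _
  obtain ⟨H, hH⟩ := h κ F hF hdF
  exact exists_perm_of_dualFamily hF.1 hG hH

/-- The inverse-matrix shape of the dual family: if the translates of `H j` are the rows of
`Δ · Φ⁻¹` (`Φ = transMatrix 𝒢 κ F` the fundamental matrix), then `H` is a `Δ`-dual family. -/
theorem dualFamily_of_inverse [DecidableEq (Q 𝒢)] {κ : Q 𝒢 → ℤ} {F H : Q 𝒢 → ℍ → ℂ}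
    (hH : ∀ j, H j ∈ CFG 𝒢 (12 - κ j))
    (hdet : ∀ z, (transMatrix 𝒢 κ F z).det ≠ 0)
    (hinv : ∀ j q z, tr 𝒢 (12 - κ j) (H j) q z = Δ z * (transMatrix 𝒢 κ F z)⁻¹ j q) :
    DualFamily 𝒢 κ F H := by
  have key : ∀ i j z, ∑ q, tr 𝒢 (κ i) (F i) q z * tr 𝒢 (12 - κ j) (H j) q z
      = Δ z * (1 : Matrix (Q 𝒢) (Q 𝒢) ℂ) j i := by
    intro i j z
    have hmul : (transMatrix 𝒢 κ F z)⁻¹ * transMatrix 𝒢 κ F z = 1 :=
      Matrix.nonsing_inv_mul _ ((hdet z).isUnit)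
    rw [← hmul, Matrix.mul_apply, Finset.mul_sum]
    refine Finset.sum_congr rfl fun q _ => ?_
    rw [hinv j q z]
    simp only [transMatrix, Matrix.of_apply]
    ring
  refine ⟨hH, fun j z => ?_, fun i j hij z => ?_⟩
  · rw [key, Matrix.one_apply_eq, mul_one]
  · rw [key, Matrix.one_apply_ne (Ne.symm hij), mul_zero]

omit [𝒢.HasDetOne] in
/-- `fundDet` is the determinant of `transMatrix`, for any decidable equality on the cosets. -/
theorem fundDet_eq_det [DecidableEq (Q 𝒢)] (κ : Q 𝒢 → ℤ) (F : Q 𝒢 → ℍ → ℂ) (z : ℍ) :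
    fundDet 𝒢 κ F z = (transMatrix 𝒢 κ F z).det := by
  unfold fundDet
  congr

/-- `helper560.Stmt_Dual 𝒢` from the inverse-matrix shape of the dual family. -/
theorem stmt_Dual_of_inverse [DecidableEq (Q 𝒢)]
    (h : ∀ (κ : Q 𝒢 → ℤ) (F : Q 𝒢 → ℍ → ℂ), IsFreeBasis (MFG 𝒢) κ F →
      (∀ z, fundDet 𝒢 κ F z ≠ 0) → ∃ H : Q 𝒢 → ℍ → ℂ, (∀ j, H j ∈ CFG 𝒢 (12 - κ j)) ∧
        ∀ j q z, tr 𝒢 (12 - κ j) (H j) q z = Δ z * (transMatrix 𝒢 κ F z)⁻¹ j q) :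
    Stmt_Dual 𝒢 := by
  refine stmt_Dual_of_dualFamily fun κ F hF hdF => ?_
  obtain ⟨H, hH, hinv⟩ := h κ F hF hdF
  exact ⟨H, dualFamily_of_inverse hH (fun z => by rw [← fundDet_eq_det]; exact hdF z) hinv⟩

end

end Fermat.Agent.S20.helper321
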