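/-
S20 (seat helper1880): LEADMAT, the leading matrix of a free basis of `M_*(𝒢)` over the level
one ring has linearly independent columns.  Coefficient-free, in the `helper560_Defs` setting
(`GoodLevel 𝒢 N`, translates `tr 𝒢 k f q`), on top of the on-main toolkits
`helper500_Twist` (`tw`, `lead`), `helper1220_CuspGL` (translates are good functions) and
`helper321_DualBridge` (elementary facts on `tr`).

Main results:
* `good_tr` : every translate `tr 𝒢 k f q` of `f ∈ MFG 𝒢 k` is `helper500.Good N`;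
* `tr_T_inv_smul` : `tr 𝒢 k f (T⁻¹ • q) z = tr 𝒢 k f q (1 +ᵥ z)`;
* `exists_eq_discriminant_mul` : if every translate of `f ∈ MFG 𝒢 k` is `O(exp(-2π Im z))`
  then `f = Δ * g` with `g ∈ MFG 𝒢 (k - 12)`;
* `lead_twist` : `lead N n (tr f (T⁻¹ ^ m • q)) = eN N n m * lead N n (tr f q)`;
* `lead_indep` : for a free basis `(κ, F)` (any finite index type) the vectors
  `q ↦ ∑ n < N, lead N n (tr 𝒢 (κ j) (F j) q)` are linearly independent.
-/
import Fermat.Agent.S20.helper500_Twist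
import Fermat.Agent.S20.helper1220_CuspGL
import Fermat.Agent.S20.helper321_DualBridge

set_option autoImplicit false

open UpperHalfPlane ModularForm Filter Asymptotics
open scoped MatrixGroups Manifold Pointwise Topology

namespace Fermat.Agent.S20.helper1880

open Fermat.Agent.S20.helper560 Fermat.Agent.S20.helper500

noncomputable section

local notation "Δ" => ModularForm.discriminant

variable {𝒢 : Subgroup (GL (Fin 2) ℝ)} [𝒢.IsArithmetic] [𝒢.HasDetOne] {N : ℕ}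

/-- Every translate of a modular form of good level `N` is `N`-periodic, holomorphic and
bounded at `i∞`. -/
theorem good_tr (hG : GoodLevel 𝒢 N) {k : ℤ} {f : ℍ → ℂ} (hf : f ∈ MFG 𝒢 k) (q : Q 𝒢) :
    Good N (tr 𝒢 k f q) := by
  obtain ⟨F, rfl⟩ := hf
  obtain ⟨γ, hγ⟩ := helper321.exists_SL_tr_eq q
  rw [hγ]
  exact ⟨helper1220.G.slash_vadd_natCast hG F γ, helper1220.G.mdiff_slash F γ,
    helper1220.G.bdd_slash F γ⟩

/-- Level one forms are `1`-periodic, holomorphic and bounded. -/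
theorem good_RR {a : ℤ} {P : ℍ → ℂ} (hP : P ∈ RR a) : Good 1 P := by
  obtain ⟨P', rfl⟩ := hP
  refine ⟨fun z => ?_, ModularFormClass.holo P', ModularFormClass.bdd_at_infty P'⟩
  simpa using SlashInvariantForm.vAdd_apply_of_mem_strictPeriods P' z one_mem_strictPeriods_SL

omit [𝒢.IsArithmetic] in
/-- The translate attached to `T⁻¹ • q` is the translate attached to `q` shifted by `1`. -/
theorem tr_T_inv_smul {k : ℤ} {f : ℍ → ℂ} (hf : f ∈ MFG 𝒢 k) (q : Q 𝒢) (z : ℍ) :
    tr 𝒢 k f ((sl ModularGroup.T)⁻¹ • q) z = tr 𝒢 k f q ((1 : ℝ) +ᵥ z) := by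
  obtain ⟨F, rfl⟩ := hf
  rw [tr_eq_quotientFunc, tr_eq_quotientFunc]
  have h1 := SlashInvariantForm.quotientFunc_smul (ℋ := 𝒮ℒ) F (sl ModularGroup.T).2 q
  have h2 : (⟨(sl ModularGroup.T : GL (Fin 2) ℝ), (sl ModularGroup.T).2⟩ : 𝒮ℒ)
      = sl ModularGroup.T := rfl
  rw [h2] at h1
  rw [← h1]
  have h3 := helper1220.slash_T_zpow_apply (k := k)
    (SlashInvariantForm.quotientFunc (ℋ := 𝒮ℒ) F q) 1 z
  simp only [zpow_one, Int.cast_one] at h3
  exact h3

/-! ### Level one forms with value `1` at `i∞` -/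

/-- In every even weight `≥ 4` there is a level one form with value `1` at `i∞`. -/
theorem exists_RR_valueAtInfty_one {m : ℤ} (hm : 4 ≤ m) (he : Even m) :
    ∃ A : ℍ → ℂ, A ∈ RR m ∧ valueAtInfty A = 1 := by
  obtain ⟨k, rfl⟩ : ∃ k : ℕ, m = k := ⟨m.toNat, by omega⟩
  have hk : 3 ≤ k := by omega
  have hk2 : Even k := by exact_mod_cast he
  refine ⟨⇑(E hk), ⟨E hk, rfl⟩, ?_⟩
  rw [← UpperHalfPlane.qExpansion_coeff_zero one_pos
    (ModularFormClass.analyticAt_cuspFunction_zero (E hk) one_pos one_mem_strictPeriods_SL)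
    (SlashInvariantFormClass.periodic_comp_ofComplex (E hk) one_mem_strictPeriods_SL)]
  exact EisensteinSeries.E_qExpansion_coeff_zero hk hk2

/-- `Δ` times a level one form is a level one form. -/
theorem discriminant_mul_mem_RR {a b : ℤ} (hab : b = 12 + a) {P : ℍ → ℂ} (hP : P ∈ RR a) :
    (Δ : ℍ → ℂ) * P ∈ RR b := by
  subst hab
  obtain ⟨P', rfl⟩ := hP
  exact ⟨(CuspForm.toModularFormₗ CuspForm.discriminant).mul P', rfl⟩

/-- A level one form times `Δ` tends to `0` at `i∞`. -/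
theorem tendsto_discriminant_mul {a : ℤ} {P : ℍ → ℂ} (hP : P ∈ RR a) :
    Tendsto ((Δ : ℍ → ℂ) * P) atImInfty (𝓝 0) := by
  have hbd := (good_RR hP).bdd.isBoundedUnder_le
  exact discriminant_isZeroAtImInfty.zero_mul_isBoundedUnder_le hbd

/-! ### Division by `Δ` -/

omit [𝒢.IsArithmetic] in
/-- Every `SL(2,ℤ)`-translate of a form is one of the `tr`. -/
theorem exists_tr_eq_slash {k : ℤ} (F : ModularForm 𝒢 k) (γ : SL(2, ℤ)) :
    ∃ q : Q 𝒢, (⇑F ∣[k] γ) = tr 𝒢 k ⇑F q := by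
  refine ⟨((sl γ)⁻¹ : 𝒮ℒ), ?_⟩
  rw [tr_eq_quotientFunc]
  have h := SlashInvariantForm.quotientFunc_mk (ℋ := 𝒮ℒ) F ((sl γ)⁻¹ : 𝒮ℒ)
  rw [h]
  simp only [InvMemClass.coe_inv, inv_inv]
  rfl

/-- If every translate of `f ∈ M_k(𝒢)` is `O(exp(-2π Im z))`, then `f = Δ g` with
`g ∈ M_{k-12}(𝒢)`. -/
theorem exists_eq_discriminant_mul (hG : GoodLevel 𝒢 N) {k : ℤ} {f : ℍ → ℂ} (hf : f ∈ MFG 𝒢 k)
    (hO : ∀ q : Q 𝒢, tr 𝒢 k f q =O[atImInfty] fun τ : ℍ => Real.exp (-2 * Real.pi * τ.im)) :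
    ∃ g : ℍ → ℂ, g ∈ MFG 𝒢 (k - 12) ∧ f = (Δ : ℍ → ℂ) * g := by
  obtain ⟨F, rfl⟩ := hf
  have hg : ∃ g' : ModularForm 𝒢 (k - 12), ∀ z, g' z = F z / Δ z := by
    refine ⟨{ toFun := fun z ↦ F z / Δ z
              slash_action_eq' := ?_
              holo' := ?_
              bdd_at_cusps' := ?_ }, fun z => rfl⟩
    · intro g hg
      obtain ⟨γ, rfl⟩ := hG.le hg
      have h1 := helper1220.div_discriminant_slash (k := k) (⇑F) γ
      rw [helper1220.G.slash_eq_of_mem F hg] at h1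
      exact h1
    · exact (ModularFormClass.holo F).div CuspForm.discriminant.holo' discriminant_ne_zero
    · intro c hc
      rw [Subgroup.IsArithmetic.isCusp_iff_isCusp_SL2Z] at hc
      rw [OnePoint.isBoundedAt_iff_forall_SL2Z hc]
      intro γ _
      rw [helper1220.div_discriminant_slash (k := k) (⇑F) γ, IsBoundedAtImInfty, BoundedAtFilter]
      obtain ⟨q, hq⟩ := exists_tr_eq_slash F γ
      have h2 : (⇑F ∣[k] γ) =O[atImInfty] (Δ : ℍ → ℂ) := by
        rw [hq]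
        exact (hO q).trans exp_isBigO_discriminant
      exact (div_isBoundedUnder_of_isBigO h2).isBigO_one ℝ
  obtain ⟨g', hg'⟩ := hg
  refine ⟨⇑g', ⟨g', rfl⟩, ?_⟩
  funext z
  rw [Pi.mul_apply, hg' z]
  field_simp [discriminant_ne_zero z]

/-! ### Twist and the kernel of the leading map -/

/-- Twist: the `n`-th leading coefficient of the translate attached to `T⁻ᵐ • q`. -/
theorem lead_twist (hG : GoodLevel 𝒢 N) {k : ℤ} {f : ℍ → ℂ} (hf : f ∈ MFG 𝒢 k) (m : ℕ)
    (q : Q 𝒢) {n : ℕ} (hn : n < N) :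
    lead N n (tr 𝒢 k f (((sl ModularGroup.T)⁻¹) ^ m • q))
      = eN N n (m : ℂ) * lead N n (tr 𝒢 k f q) := by
  induction m generalizing q with
  | zero => simp [eN_zero_right]
  | succ m ih =>
    rw [pow_succ', mul_smul]
    have h1 : tr 𝒢 k f ((sl ModularGroup.T)⁻¹ • ((sl ModularGroup.T)⁻¹ ^ m • q))
        = fun w => tr 𝒢 k f ((sl ModularGroup.T)⁻¹ ^ m • q) ((1 : ℝ) +ᵥ w) :=
      funext fun w => tr_T_inv_smul hf _ w
    rw [h1, lead_translate hn (good_tr hG hf _), ih q, ← mul_assoc]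
    congr 1
    push_cast
    rw [eN_add, mul_comm]

/-- Finite Fourier inversion along the `T`-orbits: if the leading sums of all translates of `f`
vanish, then all leading coefficients vanish. -/
theorem lead_eq_zero_of_sum (hG : GoodLevel 𝒢 N) {k : ℤ} {f : ℍ → ℂ} (hf : f ∈ MFG 𝒢 k)
    (hS : ∀ q : Q 𝒢, ∑ n ∈ Finset.range N, lead N n (tr 𝒢 k f q) = 0) (q : Q 𝒢) {n : ℕ}
    (hn : n < N) : lead N n (tr 𝒢 k f q) = 0 := by
  refine eq_zero_of_sum_eN_eq_zero hG.pos.ne' (fun n => lead N n (tr 𝒢 k f q)) (fun m _ => ?_)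
    n hn
  rw [← hS (((sl ModularGroup.T)⁻¹) ^ m • q)]
  exact (Finset.sum_congr rfl fun n hn => (lead_twist hG hf m q (Finset.mem_range.mp hn)).symm)

/-- The kernel of the leading map is `Δ · M_{k-12}(𝒢)`. -/
theorem exists_eq_discriminant_mul_of_lead (hG : GoodLevel 𝒢 N) {k : ℤ} {f : ℍ → ℂ}
    (hf : f ∈ MFG 𝒢 k)
    (hS : ∀ q : Q 𝒢, ∑ n ∈ Finset.range N, lead N n (tr 𝒢 k f q) = 0) :
    ∃ g : ℍ → ℂ, g ∈ MFG 𝒢 (k - 12) ∧ f = (Δ : ℍ → ℂ) * g :=
  exists_eq_discriminant_mul hG hf fun q =>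
    isBigO_of_lead_eq_zero hG.pos.ne' (good_tr hG hf q) fun _ hn =>
      lead_eq_zero_of_sum hG hf hS q hn

/-! ### The leading matrix of a free basis has independent columns -/

section LeadMat

variable {J : Type} [Fintype J] {κ : J → ℤ} {F : J → ℍ → ℂ}

omit [𝒢.IsArithmetic] in
/-- The generators of a free basis are nonzero. -/
theorem F_ne_zero (hF : IsFreeBasis (MFG 𝒢) κ F) (j : J) : F j ≠ 0 := by
  classical
  intro h0
  have h1 := hF.2 (κ j) 0 (Submodule.zero_mem _)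
  have hone : (1 : ℍ → ℂ) ∈ RR 0 := ⟨1, rfl⟩
  have e1 : (fun _ : J => (0 : ℍ → ℂ)) = Pi.single j (1 : ℍ → ℂ) := by
    refine h1.unique ⟨fun i => Submodule.zero_mem _, by simp⟩ ⟨fun i => ?_, ?_⟩
    · by_cases hij : i = j
      · subst hij
        rw [Pi.single_eq_same, sub_self]
        exact hone
      · rw [Pi.single_eq_of_ne hij]
        exact Submodule.zero_mem _
    · rw [Finset.sum_eq_single j]
      · rw [Pi.single_eq_same, h0, mul_zero]
      · intro i _ hij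
        rw [Pi.single_eq_of_ne hij, zero_mul]
      · intro h
        exact absurd (Finset.mem_univ j) h
  have e2 := congrFun (congrFun e1 j) UpperHalfPlane.I
  simp at e2

omit [𝒢.IsArithmetic] in
/-- The weights of a free basis are even. -/
theorem even_weight (hB : Stmt_Basic 𝒢) (hF : IsFreeBasis (MFG 𝒢) κ F) (j : J) : Even (κ j) := by
  by_contra hodd
  rw [Int.not_even_iff_odd] at hodd
  have h := hB.2.1 (κ j) hodd
  have hmem := hF.1 j
  rw [h, Submodule.mem_bot] at hmem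
  exact F_ne_zero hF j hmem

/-- **LEADMAT**: the leading vectors `q ↦ ∑ n < N, lead N n (tr (F j) q)` of a free basis are
linearly independent. -/
theorem lead_indep (hG : GoodLevel 𝒢 N) (hB : Stmt_Basic 𝒢) (hF : IsFreeBasis (MFG 𝒢) κ F)
    (c : J → ℂ)
    (hc : ∀ q : Q 𝒢, ∑ j, c j * ∑ n ∈ Finset.range N, lead N n (tr 𝒢 (κ j) (F j) q) = 0) :
    c = 0 := by
  classical
  -- common weight
  obtain ⟨M, hM⟩ : ∃ M : ℤ, ∀ j, κ j ≤ M := by
    obtain ⟨M, hM⟩ := (Set.finite_range κ).bddAbove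
    exact ⟨M, fun j => hM ⟨j, rfl⟩⟩
  set k0 : ℤ := 2 * |M| + 4 with hk0
  have hk0ge : ∀ j, 4 ≤ k0 - κ j := fun j => by
    have h1 := hM j
    have h2 := le_abs_self M
    have h3 := abs_nonneg M
    omega
  have hk0even : ∀ j, Even (k0 - κ j) := fun j => by
    have h1 := even_weight hB hF j
    have h2 : Even k0 := ⟨|M| + 2, by omega⟩
    exact h2.sub h1
  choose A hA hA1 using fun j => exists_RR_valueAtInfty_one (hk0ge j) (hk0even j)
  -- the homogenised combination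
  set P1 : J → ℍ → ℂ := fun j => c j • A j with hP1
  have hP1mem : ∀ j, P1 j ∈ RR (k0 - κ j) := fun j => Submodule.smul_mem _ _ (hA j)
  set f : ℍ → ℂ := ∑ j, P1 j * F j with hf
  have hmul := hB.2.2.2.2.2.1
  have hfmem : f ∈ MFG 𝒢 k0 := by
    refine Submodule.sum_mem _ fun j _ => ?_
    have := hmul (k0 - κ j) (κ j) (P1 j) (F j) (hP1mem j) (hF.1 j)
    rwa [sub_add_cancel] at this
  -- translates of `f`
  have htr : ∀ q : Q 𝒢, tr 𝒢 k0 f q = fun w => ∑ j, c j * ((A j * tr 𝒢 (κ j) (F j) q) w) := by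
    intro q
    rw [hf, helper321.tr_sum]
    funext w
    rw [Finset.sum_apply]
    refine Finset.sum_congr rfl fun j _ => ?_
    have h1 := helper321.tr_mul_RR (𝒢 := 𝒢) (b := κ j) (hP1mem j) (F j) q
    rw [sub_add_cancel] at h1
    rw [h1]
    simp [hP1, mul_assoc]
  have hgood : ∀ (j : J) (q : Q 𝒢), Good N (A j * tr 𝒢 (κ j) (F j) q) := fun j q =>
    ((good_RR (hA j)).of_one N).mul (good_tr hG (hF.1 j) q)
  -- leading coefficients of `f`
  have hlead : ∀ (q : Q 𝒢) (n : ℕ), n < N →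
      lead N n (tr 𝒢 k0 f q) = ∑ j, c j * lead N n (tr 𝒢 (κ j) (F j) q) := by
    intro q n hn
    rw [htr q, lead_sum hn Finset.univ (g := fun j w => c j * ((A j * tr 𝒢 (κ j) (F j) q) w))
      (fun j _ => (hgood j q).const_mul (c j))]
    refine Finset.sum_congr rfl fun j _ => ?_
    rw [lead_const_mul hn (c j) (hgood j q),
      lead_mul_periodic hn (good_RR (hA j)) (good_tr hG (hF.1 j) q), hA1 j, one_mul]
  -- the sum over `n` of the leading coefficients vanishes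
  have hS : ∀ q : Q 𝒢, ∑ n ∈ Finset.range N, lead N n (tr 𝒢 k0 f q) = 0 := by
    intro q
    rw [Finset.sum_congr rfl fun n hn => hlead q n (Finset.mem_range.mp hn), Finset.sum_comm]
    simp_rw [← Finset.mul_sum]
    exact hc q
  -- division by `Δ`
  obtain ⟨g, hgmem, hfg⟩ := exists_eq_discriminant_mul_of_lead hG hfmem hS
  obtain ⟨P, hP, hgP⟩ := (hF.2 (k0 - 12) g hgmem).exists
  -- two expansions of `f`
  have hP2mem : ∀ j, (Δ : ℍ → ℂ) * P j ∈ RR (k0 - κ j) := fun j =>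
    discriminant_mul_mem_RR (by ring) (hP j)
  have hf2 : f = ∑ j, ((Δ : ℍ → ℂ) * P j) * F j := by
    rw [hfg, hgP, Finset.mul_sum]
    exact Finset.sum_congr rfl fun j _ => (mul_assoc _ _ _).symm
  have huniq := (hF.2 k0 f hfmem).unique ⟨hP1mem, hf⟩ ⟨hP2mem, hf2⟩
  -- limits
  funext j
  have e1 : c j • A j = (Δ : ℍ → ℂ) * P j := congrFun huniq j
  have hA1' : ∀ z : ℍ, A j ((1 : ℝ) +ᵥ z) = A j z := fun z => by
    simpa using (good_RR (hA j)).per z
  have t1 : Tendsto (c j • A j) atImInfty (𝓝 (c j • valueAtInfty (A j))) :=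
    (tendsto_valueAtInfty hA1' (good_RR (hA j)).holo (good_RR (hA j)).bdd).const_smul (c j)
  rw [e1, hA1 j, smul_eq_mul, mul_one] at t1
  exact tendsto_nhds_unique t1 (tendsto_discriminant_mul (hP j))

end LeadMat

end

end Fermat.Agent.S20.helper1880
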