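/-
S20-CUSP-TRACE (board #220): the finite linear algebra behind
`sum of generator weights = 6 * (index - number of cusps)`.

Pure linear algebra over `ℂ`; no modular forms.  Author: helper687.
-/
import Mathlib

namespace Fermat.Agent.S20.helper687

open Finset

section RootsOfUnity

/-- Orthogonality of characters of `ℤ/N`. -/
theorem sum_pow_mul_inv_pow {ζ : ℂ} {N : ℕ} (hζ : IsPrimitiveRoot ζ N) {n l : ℕ}
    (hn : n < N) (hl : l < N) :
    ∑ m ∈ range N, ζ ^ (n * m) * ζ⁻¹ ^ (l * m) = if n = l then (N : ℂ) else 0 := by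
  have hN : 0 < N := by omega
  have hζ0 : ζ ≠ 0 := hζ.ne_zero hN.ne'
  have hrw : ∀ m : ℕ, ζ ^ (n * m) * ζ⁻¹ ^ (l * m) = (ζ ^ n * ζ⁻¹ ^ l) ^ m := by
    intro m
    rw [mul_pow, ← pow_mul, ← pow_mul]
  simp_rw [hrw]
  split_ifs with h
  · subst h
    have h1 : ζ ^ n * ζ⁻¹ ^ n = 1 := by
      rw [← mul_pow, mul_inv_cancel₀ hζ0, one_pow]
    rw [h1]
    simp
  · have hne : ζ ^ n * ζ⁻¹ ^ l ≠ 1 := by
      intro h1
      apply h
      apply hζ.pow_inj hn hl
      have h2 : ζ ^ l ≠ 0 := pow_ne_zero _ hζ0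
      rw [inv_pow] at h1
      calc ζ ^ n = ζ ^ n * (ζ ^ l)⁻¹ * ζ ^ l := by
            rw [mul_assoc, inv_mul_cancel₀ h2, mul_one]
        _ = ζ ^ l := by rw [h1, one_mul]
    have hpow : (ζ ^ n * ζ⁻¹ ^ l) ^ N = 1 := by
      rw [mul_pow, ← pow_mul, ← pow_mul, mul_comm n, mul_comm l, pow_mul, pow_mul, inv_pow,
        hζ.pow_eq_one]
      simp
    rw [geom_sum_eq hne, hpow]
    simp

/-- Reindexing a sum over the multiples of `w` below `w * d`. -/
theorem sum_range_mul_ite_dvd {M : Type*} [AddCommMonoid M] (w d : ℕ) (hw : 0 < w) (F : ℕ → M) :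
    ∑ m ∈ range (w * d), (if w ∣ m then F m else 0) = ∑ t ∈ range d, F (w * t) := by
  induction d with
  | zero => simp
  | succ d ih =>
    rw [Nat.mul_succ, sum_range_add, ih, sum_range_succ]
    congr 1
    rw [sum_eq_single 0]
    · simp
    · intro i hi hi0
      have hi' : i < w := mem_range.mp hi
      have : ¬ w ∣ w * d + i := by
        intro h
        have h2 : w ∣ i := (Nat.dvd_add_right (dvd_mul_right w d)).mp h
        exact hi0 (Nat.eq_zero_of_dvd_of_lt h2 hi')
      simp [this]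
    · intro h
      exact absurd (mem_range.mpr hw) h

theorem sum_range_natCast (w : ℕ) : ∑ s ∈ range w, (s : ℂ) = (w : ℂ) * ((w : ℂ) - 1) / 2 := by
  induction w with
  | zero => simp
  | succ w ih =>
    rw [sum_range_succ, ih]
    push_cast
    ring

/-- The diagonal entry of the weighted sum of spectral projectors at a point of period `w`. -/
theorem sum_weighted_projector {ξ : ℂ} {N w : ℕ} (hN : 0 < N) (hξ : IsPrimitiveRoot ξ N)
    (hw : w ∣ N) :
    ∑ l ∈ range N, ((l : ℂ) / N) * ((1 / (N : ℂ)) *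
        ∑ m ∈ range N, (if w ∣ m then ξ ^ (l * m) else 0)) = ((w : ℂ) - 1) / (2 * w) := by
  obtain ⟨d, rfl⟩ := hw
  have hw0 : 0 < w := Nat.pos_of_mul_pos_right hN |> fun h => by
    rcases Nat.eq_zero_or_pos w with h0 | h0
    · simp [h0] at hN
    · exact h0
  have hd0 : 0 < d := by
    rcases Nat.eq_zero_or_pos d with h0 | h0
    · simp [h0] at hN
    · exact h0
  have hη : IsPrimitiveRoot (ξ ^ w) d := hξ.pow hN rfl
  have inner : ∀ l : ℕ, ∑ m ∈ range (w * d), (if w ∣ m then ξ ^ (l * m) else 0)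
      = if d ∣ l then (d : ℂ) else 0 := by
    intro l
    rw [sum_range_mul_ite_dvd w d hw0 (fun m => ξ ^ (l * m))]
    have hrw : ∀ t : ℕ, ξ ^ (l * (w * t)) = ((ξ ^ w) ^ l) ^ t := by
      intro t
      rw [← pow_mul, ← pow_mul]
      congr 1
      ring
    simp_rw [hrw]
    split_ifs with h
    · rw [(hη.pow_eq_one_iff_dvd l).mpr h]
      simp
    · have hne : (ξ ^ w) ^ l ≠ 1 := fun h1 => h ((hη.pow_eq_one_iff_dvd l).mp h1)
      have hpow : ((ξ ^ w) ^ l) ^ d = 1 := by
        rw [← pow_mul, mul_comm, pow_mul, hη.pow_eq_one, one_pow]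
      rw [geom_sum_eq hne, hpow]
      simp
  simp_rw [inner]
  have h2 : ∀ l : ℕ, ((l : ℂ) / ((w * d : ℕ) : ℂ)) * ((1 / ((w * d : ℕ) : ℂ)) *
      (if d ∣ l then (d : ℂ) else 0)) =
      (if d ∣ l then ((l : ℂ) / ((w * d : ℕ) : ℂ)) * ((1 / ((w * d : ℕ) : ℂ)) * (d : ℂ)) else 0) := by
    intro l
    split_ifs <;> simp
  simp_rw [h2]
  rw [mul_comm w d, sum_range_mul_ite_dvd d w hd0
    (fun l => ((l : ℂ) / ((d * w : ℕ) : ℂ)) * ((1 / ((d * w : ℕ) : ℂ)) * (d : ℂ)))]
  have hwC : (w : ℂ) ≠ 0 := Nat.cast_ne_zero.mpr hw0.ne'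
  have hdC : (d : ℂ) ≠ 0 := Nat.cast_ne_zero.mpr hd0.ne'
  have h3 : ∀ s : ℕ, (((d * s : ℕ) : ℂ) / ((d * w : ℕ) : ℂ)) * ((1 / ((d * w : ℕ) : ℂ)) * (d : ℂ))
      = (s : ℂ) / ((w : ℂ) * w) := by
    intro s
    push_cast
    field_simp
  simp_rw [h3]
  rw [← Finset.sum_div, sum_range_natCast]
  field_simp

end RootsOfUnity

section Orbits

variable {G Q : Type*} [Group G] [MulAction G Q] [Fintype Q]

/-- `∑_q 1 / |orbit of q| = number of orbits`, for the cyclic group generated by `g`,
with orbit sizes expressed as minimal periods. -/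
theorem sum_inv_minimalPeriod (g : G) :
    ∑ q : Q, (1 : ℂ) / (Function.minimalPeriod (g • ·) q : ℂ)
      = (Nat.card (MulAction.orbitRel.Quotient (Subgroup.zpowers g) Q) : ℂ) := by
  classical
  set Ω := MulAction.orbitRel.Quotient (Subgroup.zpowers g) Q
  have : Fintype Ω := Fintype.ofFinite Ω
  let π : Q → Ω := fun q => Quotient.mk'' q
  have hper : ∀ q : Q, Function.minimalPeriod (g • ·) q
      = (univ.filter (fun q' : Q => π q' = π q)).card := by
    intro q
    have h1 := MulAction.minimalPeriod_eq_card (a := g) (b := q)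
    rw [h1, ← Set.toFinset_card]
    congr 1
    ext q'
    simp only [Set.mem_toFinset, mem_filter, mem_univ, true_and, π]
    rw [Quotient.eq'']
    exact Iff.rfl
  rw [Nat.card_eq_fintype_card, ← Finset.card_univ, Finset.card_eq_sum_ones, Nat.cast_sum]
  rw [← Finset.sum_fiberwise (s := univ) (g := π)]
  apply Finset.sum_congr rfl
  intro ω _
  obtain ⟨q0, rfl⟩ := Quotient.exists_rep ω
  have hne : (univ.filter (fun q' : Q => π q' = π q0)).card ≠ 0 := by
    apply Finset.card_ne_zero.mpr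
    exact ⟨q0, by simp⟩
  have : ∀ q ∈ univ.filter (fun q' : Q => π q' = (⟦q0⟧ : Ω)),
      (1 : ℂ) / (Function.minimalPeriod (g • ·) q : ℂ)
        = 1 / ((univ.filter (fun q' : Q => π q' = π q0)).card : ℂ) := by
    intro q hq
    have hq' : π q = π q0 := (mem_filter.mp hq).2
    rw [hper q, hq']
  rw [Finset.sum_congr rfl this, Finset.sum_const, nsmul_eq_mul]
  have hcast : (((univ.filter (fun q' : Q => π q' = π q0)).card : ℕ) : ℂ) ≠ 0 :=
    Nat.cast_ne_zero.mpr hne
  have hπ : (⟦q0⟧ : Ω) = π q0 := rfl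
  rw [hπ]
  simp only [Nat.cast_one]
  field_simp

end Orbits

section Main

/-- Iterating the equivariance `a (g • q) n = ζ ^ n * a q n`. -/
theorem coeff_pow_smul {G Q : Type*} [Group G] [MulAction G Q] (g : G) (N : ℕ) (ζ : ℂ) (a : Q → ℕ → ℂ)
    (ha : ∀ q n, n < N → a (g • q) n = ζ ^ n * a q n) (m : ℕ) (q : Q) (n : ℕ) (hn : n < N) :
    a (g ^ m • q) n = ζ ^ (n * m) * a q n := by
  induction m with
  | zero => simp
  | succ m ih =>
    rw [pow_succ', mul_smul, ha _ _ hn, ih, Nat.mul_succ, pow_add]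
    ring

/-- Finite Fourier inversion along the orbit: the `l`-th coefficient is recovered from the
"leading sums" `∑ n < N, a (g ^ m • q) n`. -/
theorem fourier_inversion {G Q : Type*} [Group G] [MulAction G Q] (g : G) (N : ℕ) (ζ : ℂ) (hζ : IsPrimitiveRoot ζ N) (a : Q → ℕ → ℂ)
    (ha : ∀ q n, n < N → a (g • q) n = ζ ^ n * a q n) (q : Q) (l : ℕ) (hl : l < N) :
    (N : ℂ) * a q l = ∑ m ∈ range N, ζ⁻¹ ^ (l * m) * ∑ n ∈ range N, a (g ^ m • q) n := by
  calc (N : ℂ) * a q l = ∑ n ∈ range N, (if n = l then (N : ℂ) else 0) * a q n := by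
        rw [Finset.sum_eq_single l]
        · simp
        · intro n _ hnl
          simp [hnl]
        · intro h
          exact absurd (mem_range.mpr hl) h
    _ = ∑ n ∈ range N, (∑ m ∈ range N, ζ ^ (n * m) * ζ⁻¹ ^ (l * m)) * a q n := by
        apply Finset.sum_congr rfl
        intro n hn
        rw [sum_pow_mul_inv_pow hζ (mem_range.mp hn) hl]
    _ = ∑ m ∈ range N, ζ⁻¹ ^ (l * m) * ∑ n ∈ range N, a (g ^ m • q) n := by
        simp_rw [Finset.sum_mul, Finset.mul_sum]
        rw [Finset.sum_comm]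
        apply Finset.sum_congr rfl
        intro m _
        apply Finset.sum_congr rfl
        intro n hn
        rw [coeff_pow_smul g N ζ a ha m q n (mem_range.mp hn)]
        ring

variable {G Q J : Type*} [Group G] [MulAction G Q] [Fintype Q] [Fintype J]
  [DecidableEq Q] [DecidableEq J]

/-- **Abstract cusp trace lemma** (two-sided inverse version).

`Q` a finite `G`-set, `g : G` with `g ^ N` acting trivially, `ζ` a primitive `N`-th root of unity,
coefficient functions `a j q n` (`n < N`) with `a j (g • q) n = ζ ^ n * a j q n`, whose leading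
matrix `C q j = ∑ n < N, a j q n` is invertible, and which satisfy the "derivative relation"
`(n / N - k j / 12) * a j q n = ∑ i, B i j * a i q n` with `B j j = 0`.  Then
`∑ j, k j = 6 * (card Q - number of ⟨g⟩-orbits on Q)`. -/
theorem sum_weights_eq_of_inverse
    (g : G) (N : ℕ) (hN : 0 < N) (hg : ∀ q : Q, g ^ N • q = q)
    (ζ : ℂ) (hζ : IsPrimitiveRoot ζ N)
    (a : J → Q → ℕ → ℂ)
    (ha : ∀ j q n, n < N → a j (g • q) n = ζ ^ n * a j q n)
    (D : Matrix J Q ℂ)
    (hCD : (Matrix.of fun q j => ∑ n ∈ range N, a j q n) * D = 1)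
    (hDC : D * (Matrix.of fun q j => ∑ n ∈ range N, a j q n) = 1)
    (k : J → ℂ) (B : Matrix J J ℂ) (hB : ∀ j, B j j = 0)
    (hD : ∀ j q n, n < N → ((n : ℂ) / N - k j / 12) * a j q n = ∑ i, B i j * a i q n) :
    ∑ j, k j = 6 * ((Fintype.card Q : ℂ)
      - (Nat.card (MulAction.orbitRel.Quotient (Subgroup.zpowers g) Q) : ℂ)) := by
  classical
  have hNC : (N : ℂ) ≠ 0 := Nat.cast_ne_zero.mpr hN.ne'
  set C : Matrix Q J ℂ := Matrix.of fun q j => ∑ n ∈ range N, a j q n with hC
  set M : Matrix Q J ℂ := Matrix.of fun q j => ∑ l ∈ range N, ((l : ℂ) / N) * a j q l with hM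
  -- the derivative relation in matrix form
  have hMC : M = C * (B + Matrix.diagonal fun j => k j / 12) := by
    ext q j
    simp only [hM, hC, Matrix.of_apply, Matrix.mul_apply, Matrix.add_apply, Matrix.diagonal_apply]
    have h1 : ∑ l ∈ range N, ((l : ℂ) / N) * a j q l
        = ∑ l ∈ range N, (∑ i, B i j * a i q l + k j / 12 * a j q l) := by
      apply Finset.sum_congr rfl
      intro l hl
      rw [← hD j q l (mem_range.mp hl)]
      ring
    rw [h1, Finset.sum_add_distrib, Finset.sum_comm]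
    simp_rw [mul_add]
    rw [Finset.sum_add_distrib]
    congr 1
    · apply Finset.sum_congr rfl
      intro i _
      rw [Finset.sum_mul]
      apply Finset.sum_congr rfl
      intro n _
      ring
    · rw [Finset.sum_eq_single j]
      · rw [if_pos rfl, Finset.sum_mul]
        apply Finset.sum_congr rfl
        intro n _
        ring
      · intro i _ hij
        simp [hij]
      · intro h
        exact absurd (mem_univ j) h
  -- first computation of the trace
  have htr1 : Matrix.trace (M * D) = ∑ j, k j / 12 := by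
    rw [hMC, Matrix.trace_mul_comm, ← Matrix.mul_assoc, hDC, Matrix.one_mul, Matrix.trace_add,
      Matrix.trace_diagonal]
    simp [Matrix.trace, hB]
  -- entries of `A_l * D`
  have hentry : ∀ q q' : Q, ∀ l, l < N → ∑ j, a j q l * D j q'
      = (1 / (N : ℂ)) * ∑ m ∈ range N, (if g ^ m • q = q' then ζ⁻¹ ^ (l * m) else 0) := by
    intro q q' l hl
    have h1 : (N : ℂ) * ∑ j, a j q l * D j q'
        = ∑ m ∈ range N, (if g ^ m • q = q' then ζ⁻¹ ^ (l * m) else 0) := by
      calc (N : ℂ) * ∑ j, a j q l * D j q' = ∑ j, ((N : ℂ) * a j q l) * D j q' := by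
            rw [Finset.mul_sum]
            apply Finset.sum_congr rfl
            intro j _
            ring
        _ = ∑ j, (∑ m ∈ range N, ζ⁻¹ ^ (l * m) * C (g ^ m • q) j) * D j q' := by
            apply Finset.sum_congr rfl
            intro j _
            rw [fourier_inversion g N ζ hζ (a j) (ha j) q l hl]
            simp [hC]
        _ = ∑ m ∈ range N, ζ⁻¹ ^ (l * m) * (C * D) (g ^ m • q) q' := by
            simp_rw [Finset.sum_mul]
            rw [Finset.sum_comm]
            apply Finset.sum_congr rfl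
            intro m _
            rw [Matrix.mul_apply, Finset.mul_sum]
            apply Finset.sum_congr rfl
            intro j _
            ring
        _ = ∑ m ∈ range N, (if g ^ m • q = q' then ζ⁻¹ ^ (l * m) else 0) := by
            rw [hCD]
            apply Finset.sum_congr rfl
            intro m _
            rw [Matrix.one_apply]
            split_ifs <;> simp
    rw [← h1]
    field_simp
  -- periods
  have hperiodic : ∀ q : Q, Function.IsPeriodicPt (g • · : Q → Q) N q := by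
    intro q
    show (g • · : Q → Q)^[N] q = q
    rw [smul_iterate]
    exact hg q
  have hdvd : ∀ q : Q, Function.minimalPeriod (g • · : Q → Q) q ∣ N := fun q =>
    (hperiodic q).minimalPeriod_dvd
  have hpos : ∀ q : Q, 0 < Function.minimalPeriod (g • · : Q → Q) q := fun q =>
    (hperiodic q).minimalPeriod_pos hN
  have hfix : ∀ (q : Q) (m : ℕ), g ^ m • q = q ↔ Function.minimalPeriod (g • · : Q → Q) q ∣ m := by
    intro q m
    rw [← Function.isPeriodicPt_iff_minimalPeriod_dvd]
    show _ ↔ (g • · : Q → Q)^[m] q = q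
    rw [smul_iterate]
  -- second computation of the trace
  have htr2 : Matrix.trace (M * D)
      = ∑ q : Q, ((Function.minimalPeriod (g • · : Q → Q) q : ℂ) - 1)
          / (2 * (Function.minimalPeriod (g • · : Q → Q) q : ℂ)) := by
    rw [Matrix.trace]
    apply Finset.sum_congr rfl
    intro q _
    rw [Matrix.diag_apply, Matrix.mul_apply]
    rw [← sum_weighted_projector hN hζ.inv (hdvd q)]
    simp only [hM, Matrix.of_apply]
    simp_rw [Finset.sum_mul]
    rw [Finset.sum_comm]
    apply Finset.sum_congr rfl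
    intro l hl
    have h2 := hentry q q l (mem_range.mp hl)
    simp_rw [hfix q] at h2
    rw [← h2, Finset.mul_sum]
    apply Finset.sum_congr rfl
    intro j _
    ring
  -- conclusion
  have hsum : ∑ q : Q, ((Function.minimalPeriod (g • · : Q → Q) q : ℂ) - 1)
          / (2 * (Function.minimalPeriod (g • · : Q → Q) q : ℂ))
      = ((Fintype.card Q : ℂ)
        - (Nat.card (MulAction.orbitRel.Quotient (Subgroup.zpowers g) Q) : ℂ)) / 2 := by
    rw [← sum_inv_minimalPeriod g, ← Finset.card_univ, Finset.card_eq_sum_ones, Nat.cast_sum,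
      ← Finset.sum_sub_distrib, Finset.sum_div]
    apply Finset.sum_congr rfl
    intro q _
    have : (Function.minimalPeriod (g • · : Q → Q) q : ℂ) ≠ 0 :=
      Nat.cast_ne_zero.mpr (hpos q).ne'
    field_simp
    push_cast
    ring
  have hfinal : ∑ j, k j / 12 = ((Fintype.card Q : ℂ)
        - (Nat.card (MulAction.orbitRel.Quotient (Subgroup.zpowers g) Q) : ℂ)) / 2 := by
    rw [← htr1, htr2, hsum]
  rw [← Finset.sum_div] at hfinal
  linear_combination 12 * hfinal

/-- A rectangular matrix that becomes invertible after reindexing has a two-sided inverse. -/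
theorem exists_inverse_of_isUnit_reindex (e : J ≃ Q) (C : Matrix Q J ℂ)
    (h : IsUnit (Matrix.of fun q x => C q (e.symm x) : Matrix Q Q ℂ)) :
    ∃ D : Matrix J Q ℂ, C * D = 1 ∧ D * C = 1 := by
  set C' : Matrix Q Q ℂ := Matrix.of fun q x => C q (e.symm x) with hC'
  have hdet : IsUnit C'.det := (Matrix.isUnit_iff_isUnit_det C').mp h
  refine ⟨Matrix.of fun j q => C'⁻¹ (e j) q, ?_, ?_⟩
  · ext q q'
    rw [Matrix.mul_apply, ← Matrix.mul_nonsing_inv C' hdet, Matrix.mul_apply,
      ← Equiv.sum_comp e]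
    apply Finset.sum_congr rfl
    intro j _
    simp [hC']
  · ext j j'
    rw [Matrix.mul_apply]
    have h1 := congrFun (congrFun (Matrix.nonsing_inv_mul C' hdet) (e j)) (e j')
    rw [Matrix.mul_apply] at h1
    have h2 : ∑ q, (Matrix.of fun j q => C'⁻¹ (e j) q) j q * C q j'
        = ∑ q, C'⁻¹ (e j) q * C' q (e j') := by
      apply Finset.sum_congr rfl
      intro q _
      simp [hC']
    rw [h2, h1, Matrix.one_apply, Matrix.one_apply]
    simp [e.injective.eq_iff]

/-- **Abstract cusp trace lemma**, surjective version: the leading vectors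
`q ↦ ∑ n < N, a j q n` span `Q → ℂ` and there are exactly `card Q` of them. -/
theorem sum_weights_eq_of_surjective
    (g : G) (N : ℕ) (hN : 0 < N) (hg : ∀ q : Q, g ^ N • q = q)
    (ζ : ℂ) (hζ : IsPrimitiveRoot ζ N)
    (a : J → Q → ℕ → ℂ)
    (ha : ∀ j q n, n < N → a j (g • q) n = ζ ^ n * a j q n)
    (hcard : Fintype.card J = Fintype.card Q)
    (hsurj : ∀ v : Q → ℂ, ∃ c : J → ℂ, ∀ q, ∑ j, c j * ∑ n ∈ range N, a j q n = v q)
    (k : J → ℂ) (B : Matrix J J ℂ) (hB : ∀ j, B j j = 0)
    (hD : ∀ j q n, n < N → ((n : ℂ) / N - k j / 12) * a j q n = ∑ i, B i j * a i q n) :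
    ∑ j, k j = 6 * ((Fintype.card Q : ℂ)
      - (Nat.card (MulAction.orbitRel.Quotient (Subgroup.zpowers g) Q) : ℂ)) := by
  classical
  let e : J ≃ Q := Fintype.equivOfCardEq hcard
  have hunit : IsUnit (Matrix.of fun q x => (Matrix.of fun q j => ∑ n ∈ range N, a j q n :
      Matrix Q J ℂ) q (e.symm x) : Matrix Q Q ℂ) := by
    rw [← Matrix.mulVec_surjective_iff_isUnit]
    intro v
    obtain ⟨c, hc⟩ := hsurj v
    refine ⟨fun x => c (e.symm x), ?_⟩
    ext q
    rw [← hc q, Matrix.mulVec, dotProduct, ← Equiv.sum_comp e]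
    apply Finset.sum_congr rfl
    intro j _
    simp [mul_comm]
  obtain ⟨D, hCD, hDC⟩ := exists_inverse_of_isUnit_reindex e _ hunit
  exact sum_weights_eq_of_inverse g N hN hg ζ hζ a ha D hCD hDC k B hB hD

/-- **Abstract cusp trace lemma**, injective version: the leading vectors
`q ↦ ∑ n < N, a j q n` are linearly independent and there are exactly `card Q` of them. -/
theorem sum_weights_eq_of_injective
    (g : G) (N : ℕ) (hN : 0 < N) (hg : ∀ q : Q, g ^ N • q = q)
    (ζ : ℂ) (hζ : IsPrimitiveRoot ζ N)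
    (a : J → Q → ℕ → ℂ)
    (ha : ∀ j q n, n < N → a j (g • q) n = ζ ^ n * a j q n)
    (hcard : Fintype.card J = Fintype.card Q)
    (hinj : ∀ c : J → ℂ, (∀ q, ∑ j, c j * ∑ n ∈ range N, a j q n = 0) → c = 0)
    (k : J → ℂ) (B : Matrix J J ℂ) (hB : ∀ j, B j j = 0)
    (hD : ∀ j q n, n < N → ((n : ℂ) / N - k j / 12) * a j q n = ∑ i, B i j * a i q n) :
    ∑ j, k j = 6 * ((Fintype.card Q : ℂ)
      - (Nat.card (MulAction.orbitRel.Quotient (Subgroup.zpowers g) Q) : ℂ)) := by
  classical
  let e : J ≃ Q := Fintype.equivOfCardEq hcard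
  have hunit : IsUnit (Matrix.of fun q x => (Matrix.of fun q j => ∑ n ∈ range N, a j q n :
      Matrix Q J ℂ) q (e.symm x) : Matrix Q Q ℂ) := by
    rw [← Matrix.mulVec_injective_iff_isUnit]
    have key : ∀ u : Q → ℂ, (Matrix.of fun q x => (Matrix.of fun q j => ∑ n ∈ range N, a j q n :
        Matrix Q J ℂ) q (e.symm x) : Matrix Q Q ℂ).mulVec u = 0 → u = 0 := by
      intro u hu
      have h0 : (fun j => u (e j)) = 0 := by
        apply hinj
        intro q
        have h1 := congrFun hu q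
        rw [Matrix.mulVec, dotProduct, ← Equiv.sum_comp e] at h1
        have h2 : (0 : Q → ℂ) q = 0 := rfl
        rw [h2] at h1
        rw [← h1]
        apply Finset.sum_congr rfl
        intro j _
        simp [mul_comm]
      ext x
      have := congrFun h0 (e.symm x)
      simpa using this
    intro u u' huu'
    have := key (u - u') (by rw [Matrix.mulVec_sub, huu', sub_self])
    exact sub_eq_zero.mp this
  obtain ⟨D, hCD, hDC⟩ := exists_inverse_of_isUnit_reindex e _ hunit
  exact sum_weights_eq_of_inverse g N hN hg ζ hζ a ha D hCD hDC k B hB hD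

/-- **Abstract cusp trace lemma**, square version (`J = Q`, nonzero determinant). -/
theorem sum_weights_eq_of_det_ne_zero
    (g : G) (N : ℕ) (hN : 0 < N) (hg : ∀ q : Q, g ^ N • q = q)
    (ζ : ℂ) (hζ : IsPrimitiveRoot ζ N)
    (a : Q → Q → ℕ → ℂ)
    (ha : ∀ j q n, n < N → a j (g • q) n = ζ ^ n * a j q n)
    (hdet : (Matrix.of fun q j => ∑ n ∈ range N, a j q n : Matrix Q Q ℂ).det ≠ 0)
    (k : Q → ℂ) (B : Matrix Q Q ℂ) (hB : ∀ j, B j j = 0)
    (hD : ∀ j q n, n < N → ((n : ℂ) / N - k j / 12) * a j q n = ∑ i, B i j * a i q n) :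
    ∑ j, k j = 6 * ((Fintype.card Q : ℂ)
      - (Nat.card (MulAction.orbitRel.Quotient (Subgroup.zpowers g) Q) : ℂ)) := by
  have hu : IsUnit (Matrix.of fun q j => ∑ n ∈ range N, a j q n : Matrix Q Q ℂ).det :=
    isUnit_iff_ne_zero.mpr hdet
  exact sum_weights_eq_of_inverse g N hN hg ζ hζ a ha _ (Matrix.mul_nonsing_inv _ hu)
    (Matrix.nonsing_inv_mul _ hu) k B hB hD

/-- Integer-weight form of `sum_weights_eq_of_surjective`. -/
theorem sum_int_weights_eq_of_surjective
    (g : G) (N : ℕ) (hN : 0 < N) (hg : ∀ q : Q, g ^ N • q = q)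
    (ζ : ℂ) (hζ : IsPrimitiveRoot ζ N)
    (a : J → Q → ℕ → ℂ)
    (ha : ∀ j q n, n < N → a j (g • q) n = ζ ^ n * a j q n)
    (hcard : Fintype.card J = Fintype.card Q)
    (hsurj : ∀ v : Q → ℂ, ∃ c : J → ℂ, ∀ q, ∑ j, c j * ∑ n ∈ range N, a j q n = v q)
    (k : J → ℤ) (B : Matrix J J ℂ) (hB : ∀ j, B j j = 0)
    (hD : ∀ j q n, n < N → ((n : ℂ) / N - (k j : ℂ) / 12) * a j q n = ∑ i, B i j * a i q n) :
    ∑ j, k j = 6 * ((Fintype.card Q : ℤ)
      - (Nat.card (MulAction.orbitRel.Quotient (Subgroup.zpowers g) Q) : ℤ)) := by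
  have h := sum_weights_eq_of_surjective g N hN hg ζ hζ a ha hcard hsurj (fun j => (k j : ℂ)) B hB hD
  exact_mod_cast h

/-- Integer-weight form of `sum_weights_eq_of_injective`. -/
theorem sum_int_weights_eq_of_injective
    (g : G) (N : ℕ) (hN : 0 < N) (hg : ∀ q : Q, g ^ N • q = q)
    (ζ : ℂ) (hζ : IsPrimitiveRoot ζ N)
    (a : J → Q → ℕ → ℂ)
    (ha : ∀ j q n, n < N → a j (g • q) n = ζ ^ n * a j q n)
    (hcard : Fintype.card J = Fintype.card Q)
    (hinj : ∀ c : J → ℂ, (∀ q, ∑ j, c j * ∑ n ∈ range N, a j q n = 0) → c = 0)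
    (k : J → ℤ) (B : Matrix J J ℂ) (hB : ∀ j, B j j = 0)
    (hD : ∀ j q n, n < N → ((n : ℂ) / N - (k j : ℂ) / 12) * a j q n = ∑ i, B i j * a i q n) :
    ∑ j, k j = 6 * ((Fintype.card Q : ℤ)
      - (Nat.card (MulAction.orbitRel.Quotient (Subgroup.zpowers g) Q) : ℤ)) := by
  have h := sum_weights_eq_of_injective g N hN hg ζ hζ a ha hcard hinj (fun j => (k j : ℂ)) B hB hD
  exact_mod_cast h

end Main

end Fermat.Agent.S20.helper687
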