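/-
S20, critical-path leaf SUMK (seat helper1880): the sum of the generator weights of a free
basis of `M_*(𝒢)` over the level one ring, indexed by the cosets, is `6 (μ - #cusps)`.

Coefficient-free proof on top of the on-main toolkits:
* `helper1880_LeadMat`  : leading vectors of a free basis are independent (LEADMAT);
* `helper500_Twist`     : twisted components `tw N n g`, leading coefficients `lead N n g`;
* `helper1760_SerreD/ODE` : Serre derivative on `M_k(𝒢)`, the ODE of the translates;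
* `helper687_CuspTrace` : the finite linear algebra (trace of the exponent operator).

Main results:
* `tendsto_tw_D` : `tw N n (D g) → (n / N) * lead N n g` at `i∞` for a good function `g`;
* `exists_deriv_relation` : `(n/N - κ j/12) a_n(F_j,q) = ∑ i, B i j * a_n(F_i,q)`, `B j j = 0`;
* `sum_weights` : `∑ j, κ j + 6 * cusps 𝒢 = 6 * mu 𝒢`.
-/
import Fermat.Agent.S20.helper1880_LeadMat
import Fermat.Agent.S20.helper687_CuspTrace
import Fermat.Agent.S20.helper1760_ODE

set_option autoImplicit false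

open UpperHalfPlane ModularForm Filter Asymptotics Derivative
open scoped MatrixGroups Manifold Pointwise Topology

namespace Fermat.Agent.S20.helper1880

open Fermat.Agent.S20.helper560 Fermat.Agent.S20.helper500

noncomputable section

local notation "Δ" => ModularForm.discriminant

/-! ### `E₂` is a good function with value `1` at `i∞` -/

theorem E2_vadd_one (z : ℍ) : EisensteinSeries.E2 ((1 : ℝ) +ᵥ z) = EisensteinSeries.E2 z := by
  rw [EisensteinSeries.E2_eq_tsum_cexp, EisensteinSeries.E2_eq_tsum_cexp]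
  have : Complex.exp (2 * Real.pi * Complex.I * (((1 : ℝ) +ᵥ z : ℍ) : ℂ))
      = Complex.exp (2 * Real.pi * Complex.I * (z : ℂ)) := by
    rw [UpperHalfPlane.coe_vadd]
    push_cast
    rw [mul_add, Complex.exp_add, mul_one, Complex.exp_two_pi_mul_I, one_mul]
  simp_rw [this]

theorem good_E2 : Good 1 EisensteinSeries.E2 :=
  ⟨fun z => by simpa using E2_vadd_one z, E2_mdifferentiable,
    EisensteinSeries.isBoundedAtImInfty_E2⟩

theorem valueAtInfty_E2 : valueAtInfty EisensteinSeries.E2 = 1 := by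
  have hper : Function.Periodic (EisensteinSeries.E2 ∘ ofComplex) ((1 : ℝ) : ℂ) :=
    periodic_comp_ofComplex_of_vadd E2_vadd_one
  have hana := analyticAt_cuspFunction_zero one_pos hper E2_mdifferentiable
    EisensteinSeries.isBoundedAtImInfty_E2
  have hps := hasFPowerSeriesOnBall_cuspFunction
    (c := fun m : ℕ => (if m = 0 then 1 else -24 * (ArithmeticFunction.sigma 1 m : ℂ))) one_pos hana
    (fun τ => by
      simpa [Function.Periodic.qParam] using EisensteinSeries.hasSum_qExpansion_E2 (z := τ))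
  rw [← cuspFunction_apply_zero one_pos hana hper]
  have := hps.coeff_zero (fun _ => 0)
  simpa using this.symm

/-! ### The normalised derivative and the twisted components -/

/-- `D` commutes with integer translations. -/
theorem D_comp_vadd_nat (m : ℕ) {g : ℍ → ℂ} (hg : MDiff g) :
    D (fun z : ℍ => g ((m : ℝ) +ᵥ z)) = fun z => D g ((m : ℝ) +ᵥ z) := by
  have h1 : ∀ (k : ℤ) (f : ℍ → ℂ),
      (f ∣[k] (ModularGroup.T ^ (m : ℤ))) = fun z => f ((m : ℝ) +ᵥ z) := by
    intro k f
    funext z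
    simpa using helper1220.slash_T_zpow_apply (k := k) f (m : ℤ) z
  have h2 := normalizedDerivOfComplex_SL_slash (k := 0) hg (γ := ModularGroup.T ^ (m : ℤ))
  rw [h1, h1] at h2
  rw [h2]
  funext z
  simp

/-- `D` of a finite sum. -/
theorem D_sum {ι : Type} (s : Finset ι) (f : ι → ℍ → ℂ) (hf : ∀ i ∈ s, MDiff (f i)) :
    D (∑ i ∈ s, f i) = ∑ i ∈ s, D (f i) := by
  classical
  induction s using Finset.induction_on with
  | empty =>
    simp only [Finset.sum_empty]
    exact normalizedDerivOfComplex_const 0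
  | insert a s ha ih =>
    rw [Finset.sum_insert ha, Finset.sum_insert ha,
      normalizedDerivOfComplex_add (f a) (∑ i ∈ s, f i) (hf a (Finset.mem_insert_self a s))
        (MDifferentiable.sum (f := f) fun i hi => hf i (Finset.mem_insert_of_mem hi)),
      ih fun i hi => hf i (Finset.mem_insert_of_mem hi)]

/-- `D` commutes with the average over integer translations. -/
theorem D_avg (N : ℕ) {φ : ℍ → ℂ} (hφ : MDiff φ) : D (avg N φ) = avg N (D φ) := by
  have h1 : avg N φ = (N : ℂ)⁻¹ • ∑ m ∈ Finset.range N, fun z : ℍ => φ ((m : ℝ) +ᵥ z) := by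
    ext z
    simp [avg, Finset.sum_apply]
  have hmd : ∀ m ∈ Finset.range N, MDiff (fun z : ℍ => φ ((m : ℝ) +ᵥ z)) :=
    fun m _ => mdiff_comp_vadd (m : ℝ) hφ
  rw [h1, normalizedDerivOfComplex_smul _ _ (MDifferentiable.sum hmd), D_sum _ _ hmd]
  ext z
  simp [avg, Finset.sum_apply, D_comp_vadd_nat _ hφ]

/-- `D` of the exponential `eN N a`. -/
theorem D_eN {N : ℕ} (hN : N ≠ 0) (a : ℤ) :
    D (fun z : ℍ => eN N a (z : ℂ)) = fun z : ℍ => ((a : ℂ) / N) * eN N a (z : ℂ) := by
  funext z
  simp only [normalizedDerivOfComplex]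
  have hopen : {w : ℂ | 0 < w.im} ∈ 𝓝 (z : ℂ) := isOpen_upperHalfPlaneSet.mem_nhds z.im_pos
  have heq : ((fun z : ℍ => eN N a (z : ℂ)) ∘ ofComplex) =ᶠ[𝓝 (z : ℂ)] fun w => eN N a w := by
    filter_upwards [hopen] with w hw
    simp only [Function.comp_apply, ofComplex_apply_of_im_pos hw]
  rw [heq.deriv_eq]
  have hd : HasDerivAt (fun w : ℂ => eN N a w)
      (eN N a z * (2 * Real.pi * Complex.I * a / N)) z := by
    unfold eN
    have : HasDerivAt (fun w : ℂ => 2 * Real.pi * Complex.I * a * w / N)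
        (2 * Real.pi * Complex.I * a / N) z := by
      simpa using ((hasDerivAt_id (z : ℂ)).const_mul (2 * Real.pi * Complex.I * a)).div_const
        (N : ℂ)
    exact this.cexp
  rw [hd.deriv]
  have hpi : (2 * (Real.pi : ℂ) * Complex.I) ≠ 0 := by simp [Real.pi_ne_zero]
  have hN' : (N : ℂ) ≠ 0 := Nat.cast_ne_zero.mpr hN
  field_simp

/-- The twisted components of `D g`. -/
theorem tw_D {N : ℕ} (hN : N ≠ 0) (n : ℕ) {g : ℍ → ℂ} (hg : MDiff g) (z : ℍ) :
    tw N n (D g) z = D (tw N n g) z + ((n : ℂ) / N) * tw N n g z := by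
  have he := mdiff_eN N (-(n : ℤ))
  have h1 : tw N n g = avg N ((fun w : ℍ => eN N (-(n : ℤ)) (w : ℂ)) * g) := rfl
  have h2 : D (tw N n g) = avg N (D ((fun w : ℍ => eN N (-(n : ℤ)) (w : ℂ)) * g)) := by
    rw [h1, D_avg N (he.mul hg)]
  rw [h2, normalizedDerivOfComplex_mul _ _ he hg, D_eN hN]
  simp only [tw_apply, avg, Pi.add_apply, Pi.mul_apply]
  rw [Finset.sum_add_distrib]
  simp_rw [mul_assoc (((-(n : ℤ) : ℤ) : ℂ) / N)]
  rw [← Finset.mul_sum]
  push_cast
  ring

/-- The twisted components of `D g` tend to `(n / N) * lead N n g`. -/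
theorem tendsto_tw_D {N n : ℕ} (hn : n < N) {g : ℍ → ℂ} (hg : Good N g) :
    Tendsto (tw N n (D g)) atImInfty (𝓝 (((n : ℂ) / N) * lead N n g)) := by
  have hN : N ≠ 0 := by omega
  have hh := mdiff_tw N n hg.holo
  have ht := tendsto_tw hn hg
  have hz : IsZeroAtImInfty (tw N n g - fun _ => lead N n g) := by
    have h := ht.sub (tendsto_const_nhds (x := lead N n g))
    rw [sub_self] at h
    exact h
  have hD0 : Tendsto (D (tw N n g)) atImInfty (𝓝 0) := by
    have h1 := helper1760.isZeroAtImInfty_D (hh.sub mdifferentiable_const) hz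
    rw [normalizedDerivOfComplex_sub _ _ hh mdifferentiable_const,
      normalizedDerivOfComplex_const, sub_zero] at h1
    exact h1
  have := hD0.add (ht.const_mul ((n : ℂ) / N))
  rw [zero_add] at this
  exact this.congr fun z => (tw_D hN n hg.holo z).symm

/-! ### The Serre-derivative relation between the leading coefficients -/

section SumK

variable {𝒢 : Subgroup (GL (Fin 2) ℝ)} [𝒢.IsArithmetic] [𝒢.HasDetOne] {N : ℕ}

/-- The Serre-derivative relation between the leading coefficients of a free basis: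
`(n / N - κ j / 12) a_n(F_j, q) = ∑ i, B i j * a_n(F_i, q)` with `B j j = 0`. -/
theorem exists_deriv_relation {J : Type} [Fintype J] {κ : J → ℤ} {F : J → ℍ → ℂ}
    (hG : GoodLevel 𝒢 N) (hF : IsFreeBasis (MFG 𝒢) κ F) :
    ∃ B : Matrix J J ℂ, (∀ j, B j j = 0) ∧ ∀ (j : J) (q : Q 𝒢) (n : ℕ), n < N →
      ((n : ℂ) / N - (κ j : ℂ) / 12) * lead N n (tr 𝒢 (κ j) (F j) q)
        = ∑ i, B i j * lead N n (tr 𝒢 (κ i) (F i) q) := by
  -- expansions of the Serre derivatives
  have hexp : ∀ j, ∃ P : J → ℍ → ℂ, (∀ i, P i ∈ RR (κ j + 2 - κ i)) ∧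
      serreDerivative (κ j) (F j) = ∑ i, P i * F i := by
    intro j
    obtain ⟨Fj, hFj⟩ := hF.1 j
    have hmem : serreDerivative (κ j) (F j) ∈ MFG 𝒢 (κ j + 2) :=
      ⟨helper1760.serreDMF hG.le (κ j) Fj, by rw [helper1760.coe_serreDMF, hFj]⟩
    exact (hF.2 (κ j + 2) _ hmem).exists
  choose P hP hPexp using hexp
  refine ⟨Matrix.of fun i j => valueAtInfty (P j i), fun j => ?_, fun j q n hn => ?_⟩
  · have h0 : P j j = 0 := helper1760.eq_zero_of_mem_RR_two (by simpa using hP j j)
    simp only [Matrix.of_apply, h0]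
    exact (tendsto_const_nhds (x := (0 : ℂ)) (f := atImInfty)).limUnder_eq
  · obtain ⟨γ, hγ⟩ := helper321.exists_SL_tr_eq q
    have hmd : MDiff (F j) := by
      obtain ⟨Fj, hFj⟩ := hF.1 j
      rw [← hFj]
      exact ModularFormClass.holo Fj
    -- the ODE for the translate
    have hode : D (tr 𝒢 (κ j) (F j) q)
        = (fun w => ∑ i, (P j i * tr 𝒢 (κ i) (F i) q) w)
          + fun w => ((κ j : ℂ) * 12⁻¹) * ((EisensteinSeries.E2 * tr 𝒢 (κ j) (F j) q) w) := by
      funext z
      have h := helper1760.D_slash_of_expansion γ (κ j) (F j) hmd κ F (P j) (hP j) (hPexp j) z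
      simp only [← hγ] at h
      rw [h]
      simp only [Pi.add_apply, Pi.mul_apply]
      congr 1
      · exact Finset.sum_congr rfl fun i _ => mul_comm _ _
      · ring
    have hgj := good_tr hG (hF.1 j) q
    have hgood1 : ∀ i, Good N (P j i * tr 𝒢 (κ i) (F i) q) := fun i =>
      ((good_RR (hP j i)).of_one N).mul (good_tr hG (hF.1 i) q)
    have hgood2 : Good N (EisensteinSeries.E2 * tr 𝒢 (κ j) (F j) q) := (good_E2.of_one N).mul hgj
    have hsumgood := Good.sum Finset.univ fun i (_ : i ∈ Finset.univ) => hgood1 i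
    have hR := hsumgood.add (hgood2.const_mul ((κ j : ℂ) * 12⁻¹))
    have t1 := tendsto_tw_D hn hgj
    rw [hode] at t1
    have t2 := tendsto_tw hn hR
    have e := tendsto_nhds_unique t1 t2
    rw [lead_add hn hsumgood (hgood2.const_mul _), lead_sum hn Finset.univ (fun i _ => hgood1 i),
      lead_const_mul hn _ hgood2, lead_mul_periodic hn good_E2 hgj, valueAtInfty_E2, one_mul] at e
    have e2 : ∀ i, lead N n (P j i * tr 𝒢 (κ i) (F i) q)
        = valueAtInfty (P j i) * lead N n (tr 𝒢 (κ i) (F i) q) := fun i =>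
      lead_mul_periodic hn (good_RR (hP j i)) (good_tr hG (hF.1 i) q)
    simp_rw [e2] at e
    simp only [Matrix.of_apply]
    linear_combination e

omit [𝒢.IsArithmetic] [𝒢.HasDetOne] in
/-- `T⁻ᴺ` acts trivially on the cosets. -/
theorem T_inv_pow_smul (hG : GoodLevel 𝒢 N) (q : Q 𝒢) : ((sl ModularGroup.T)⁻¹) ^ N • q = q := by
  induction q using Quotient.inductionOn with
  | h r =>
    obtain ⟨γ, hγ⟩ := r.2
    change ((((sl ModularGroup.T)⁻¹) ^ N * r : 𝒮ℒ) : Q 𝒢) = (r : Q 𝒢)
    rw [QuotientGroup.eq, Subgroup.mem_subgroupOf]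
    have h1 := helper1220.G.conj_T_pow_mem hG γ⁻¹
    have h2 : (((((sl ModularGroup.T)⁻¹) ^ N * r)⁻¹ * r : 𝒮ℒ) : GL (Fin 2) ℝ)
        = Matrix.SpecialLinearGroup.mapGL ℝ (γ⁻¹ * ModularGroup.T ^ (N : ℤ) * γ⁻¹⁻¹) := by
      simp only [sl, mul_inv_rev, inv_pow, inv_inv, Subgroup.coe_mul, InvMemClass.coe_inv,
        SubgroupClass.coe_pow, ← hγ, map_mul, map_inv, map_pow, zpow_natCast]
    rw [h2]
    exact h1

/-- **SUMK**: the sum of the generator weights of a free basis indexed by the cosets. -/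
theorem sum_weights (hG : GoodLevel 𝒢 N) (hB : Stmt_Basic 𝒢) {κ : Q 𝒢 → ℤ} {F : Q 𝒢 → ℍ → ℂ}
    (hF : IsFreeBasis (MFG 𝒢) κ F) :
    ∑ j, κ j + 6 * (cusps 𝒢 : ℤ) = 6 * (mu 𝒢 : ℤ) := by
  classical
  obtain ⟨B, hB0, hBrel⟩ := exists_deriv_relation hG hF
  have hN : 0 < N := hG.pos
  have hζ : IsPrimitiveRoot (eN N 1 1) N := by
    have h := Complex.isPrimitiveRoot_exp N hN.ne'
    have e : eN N 1 1 = Complex.exp (2 * Real.pi * Complex.I / N) := by
      unfold eN
      congr 1
      push_cast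
      ring
    rw [e]
    exact h
  have hpow : ∀ n : ℕ, eN N (n : ℤ) 1 = eN N 1 1 ^ n := by
    intro n
    unfold eN
    rw [← Complex.exp_nat_mul]
    congr 1
    push_cast
    ring
  have key := helper687.sum_int_weights_eq_of_injective (G := 𝒮ℒ) (Q := Q 𝒢) (J := Q 𝒢)
    ((sl ModularGroup.T)⁻¹) N hN (T_inv_pow_smul hG) (eN N 1 1) hζ
    (fun j q n => lead N n (tr 𝒢 (κ j) (F j) q))
    (fun j q n hn => by
      have h := lead_twist hG (hF.1 j) 1 q hn
      rw [pow_one] at h
      rw [h, ← hpow n]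
      simp)
    rfl (fun c hc => lead_indep hG hB hF c hc) κ B hB0 hBrel
  rw [Subgroup.zpowers_inv, ← Nat.card_eq_fintype_card] at key
  change ∑ j, κ j = 6 * ((mu 𝒢 : ℤ) - (cusps 𝒢 : ℤ)) at key
  rw [key]
  ring

end SumK

end

end Fermat.Agent.S20.helper1880
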