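/-
S20, "sandwich" arithmetic (seat helper260).

Pure integer arithmetic behind the final count: for a finite family of even weights
`κ j ≥ 0` (NO upper bound on the weights is assumed) with exactly one weight `0` and
the three linear relations coming from the elliptic points and the cusps, one has
`∑ j, dA (κ j - 10) = g` and `g ≤ #{j | κ j = 2} - (c - 1)`, where
`12 g = 12 + μ - 3 e₂ - 4 e₃ - 6 c` and `dA` is the level one dimension function.
-/
import Mathlib

set_option autoImplicit false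

namespace Fermat.Agent.S20.helper260

/-- The dimension of the space of level one modular forms of weight `k`, as an integer. -/
def dA (k : ℤ) : ℤ :=
  if k < 0 ∨ k % 2 = 1 then 0 else if k % 12 = 2 then k / 12 else k / 12 + 1

theorem dA_nonneg (k : ℤ) : 0 ≤ dA k := by
  unfold dA
  split_ifs <;> omega

/-- Per-weight identity behind the upper bound. -/
theorem twelve_mul_dA_sub_ten (κ : ℤ) (h0 : 0 ≤ κ) (he : κ % 2 = 0) :
    12 * dA (κ - 10) =
      κ - 6 * (if κ % 4 = 0 then 1 else 0) - 6 * (if κ % 6 = 0 then 1 else 0)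
        + 12 * (if κ = 0 then 1 else 0)
        + 2 * ((if κ % 6 = 4 then 1 else 0) - (if κ % 6 = 2 then 1 else 0)) := by
  unfold dA
  split_ifs <;> omega

/-- Per-weight inequality behind the lower bound. -/
theorem lower_slack_nonneg (κ : ℤ) (h0 : 0 ≤ κ) (he : κ % 2 = 0) :
    0 ≤ 12 * (if κ = 2 then 1 else 0) - 12 + κ + 6 * (if κ % 4 = 0 then 1 else 0)
        + 6 * (if κ % 6 = 0 then 1 else 0)
        - 2 * ((if κ % 6 = 2 then 1 else 0) - (if κ % 6 = 4 then 1 else 0) : ℤ) := by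
  split_ifs <;> omega

/-- **Sandwich arithmetic.** `J` finite, `κ : J → ℤ` even and nonnegative, exactly one `0`,
`(a)` `#{4 ∣ κ} - #{κ ≡ 2 mod 4} = e₂`, `(b)` `#{κ ≡ 2 mod 6} = #{κ ≡ 4 mod 6}` and
`#{6 ∣ κ} - #{κ ≡ 2 mod 6} = e₃`, `(c)` `∑ κ + 6 c = 6 μ`. Then
`12 ∑ dA (κ j - 10) = 12 + μ - 3 e₂ - 4 e₃ - 6 c ≤ 12 (#{κ = 2} - (c - 1))`. -/
theorem sandwich_arith {J : Type*} [Fintype J] (κ : J → ℤ) (h0 : ∀ j, 0 ≤ κ j)
    (he : ∀ j, κ j % 2 = 0) (μ e2 e3 c : ℤ)
    (hμ : (Fintype.card J : ℤ) = μ)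
    (hz : ∑ j, (if κ j = 0 then (1 : ℤ) else 0) = 1)
    (ha : ∑ j, (if κ j % 4 = 0 then (1 : ℤ) else -1) = e2)
    (hb1 : ∑ j, (if κ j % 6 = 2 then (1 : ℤ) else 0) = ∑ j, (if κ j % 6 = 4 then (1 : ℤ) else 0))
    (hb2 : ∑ j, (if κ j % 6 = 0 then (1 : ℤ) else 0)
      - ∑ j, (if κ j % 6 = 2 then (1 : ℤ) else 0) = e3)
    (hc : ∑ j, κ j + 6 * c = 6 * μ) :
    12 * ∑ j, dA (κ j - 10) = 12 + μ - 3 * e2 - 4 * e3 - 6 * c ∧
      12 + μ - 3 * e2 - 4 * e3 - 6 * c ≤
        12 * (∑ j, (if κ j = 2 then (1 : ℤ) else 0)) - 12 * (c - 1) := by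
  classical
  -- abbreviations for the sums of indicators
  set S4 := ∑ j, (if κ j % 4 = 0 then (1 : ℤ) else 0) with hS4
  set S60 := ∑ j, (if κ j % 6 = 0 then (1 : ℤ) else 0) with hS60
  set S62 := ∑ j, (if κ j % 6 = 2 then (1 : ℤ) else 0) with hS62
  set S64 := ∑ j, (if κ j % 6 = 4 then (1 : ℤ) else 0) with hS64
  set Z := ∑ j, (if κ j = 0 then (1 : ℤ) else 0) with hZ
  set N2 := ∑ j, (if κ j = 2 then (1 : ℤ) else 0) with hN2
  set SK := ∑ j, κ j with hSK
  set D := ∑ j, dA (κ j - 10) with hD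
  have hcard : ∑ _j : J, (1 : ℤ) = μ := by simpa using hμ
  -- (a) in terms of S4
  have ha' : 2 * S4 - μ = e2 := by
    rw [← ha, ← hcard, hS4, Finset.mul_sum, ← Finset.sum_sub_distrib]
    refine Finset.sum_congr rfl fun j _ => ?_
    split_ifs <;> ring
  -- the residues mod 6 of an even number
  have h6 : S60 + S62 + S64 = μ := by
    rw [← hcard, hS60, hS62, hS64, ← Finset.sum_add_distrib, ← Finset.sum_add_distrib]
    refine Finset.sum_congr rfl fun j _ => ?_
    have := he j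
    split_ifs <;> omega
  -- the summed per-weight identity
  have h1 : 12 * D = SK - 6 * S4 - 6 * S60 + 12 * Z + 2 * (S64 - S62) := by
    rw [hD, hSK, hS4, hS60, hZ, hS64, hS62]
    simp only [Finset.mul_sum, ← Finset.sum_sub_distrib, ← Finset.sum_add_distrib]
    refine Finset.sum_congr rfl fun j _ => ?_
    have := twelve_mul_dA_sub_ten (κ j) (h0 j) (he j)
    linarith
  -- the summed per-weight inequality
  have h2 : 0 ≤ 12 * N2 - 12 * μ + SK + 6 * S4 + 6 * S60 - 2 * (S62 - S64) := by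
    rw [← hcard, hN2, hSK, hS4, hS60, hS62, hS64]
    simp only [Finset.mul_sum, ← Finset.sum_sub_distrib, ← Finset.sum_add_distrib]
    refine Finset.sum_nonneg fun j _ => ?_
    have := lower_slack_nonneg (κ j) (h0 j) (he j)
    linarith
  have hb1' : S62 = S64 := hb1
  have hb2' : S60 - S62 = e3 := hb2
  have hz' : Z = 1 := hz
  constructor
  · linarith
  · linarith

end Fermat.Agent.S20.helper260
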