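/-
S20 (dim S₂(Γ₀(N)) = genus formula): ASSEMBLY (seat helper560).
`S20_of_goals` derives the frozen statement (as `Goal_S20`) from the `Goal_*` propositions of
`helper560_Spec.lean`.  Fully proved (no sorry): the decomposition of the Spec is sound.
-/
import Fermat.Agent.S20.helper560_Spec

set_option autoImplicit false

open UpperHalfPlane ModularForm
open scoped MatrixGroups Manifold Pointwise

namespace Fermat.Agent.S20.helper560

noncomputable section

/-- the level one dimension function -/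
def rdim (k : ℤ) : ℕ :=
  if k < 0 ∨ Odd k then 0 else if k % 12 = 2 then (k / 12).toNat else (k / 12).toNat + 1

/-- the admissible generator weights -/
def wts : Finset ℤ := {0, 2, 4, 6, 8, 10}

/-- number of generators of a given weight -/
def cnt {J : Type} [Fintype J] (κ : J → ℤ) (a : ℤ) : ℕ := by
  classical exact (Finset.univ.filter (fun j => κ j = a)).card

theorem sum_by_weight {J : Type} [Fintype J] (κ : J → ℤ) (hκ : ∀ j, κ j ∈ wts)
    {M : Type} [AddCommMonoid M] (g : ℤ → M) :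
    ∑ j, g (κ j) = ∑ a ∈ wts, cnt κ a • g a := by
  classical
  rw [Finset.sum_comp g κ]
  unfold cnt
  refine Finset.sum_subset ?_ ?_
  · intro a ha
    obtain ⟨j, -, rfl⟩ := Finset.mem_image.mp ha
    exact hκ j
  · intro a _ ha
    have : (Finset.univ.filter (fun j => κ j = a)) = ∅ := by
      rw [Finset.filter_eq_empty_iff]
      intro j _ hj
      exact ha (Finset.mem_image.mpr ⟨j, Finset.mem_univ _, hj⟩)
    rw [this]
    simp

theorem sum_wts {M : Type} [AddCommMonoid M] (g : ℤ → M) :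
    ∑ a ∈ wts, g a = g 0 + (g 2 + (g 4 + (g 6 + (g 8 + g 10)))) := by
  unfold wts
  rw [Finset.sum_insert (by decide), Finset.sum_insert (by decide), Finset.sum_insert (by decide),
    Finset.sum_insert (by decide), Finset.sum_insert (by decide), Finset.sum_singleton]

theorem sum_by_weight' {J : Type} [Fintype J] (κ : J → ℤ) (hκ : ∀ j, κ j ∈ wts)
    {M : Type} [AddCommMonoid M] (g : ℤ → M) :
    ∑ j, g (κ j) = cnt κ 0 • g 0 + (cnt κ 2 • g 2 + (cnt κ 4 • g 4 + (cnt κ 6 • g 6 +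
      (cnt κ 8 • g 8 + cnt κ 10 • g 10)))) := by
  rw [sum_by_weight κ hκ g, sum_wts]

theorem I_zpow_neg_two_mul (b : ℕ) : Complex.I ^ (-((2 * b : ℕ) : ℤ)) = (-1) ^ b := by
  rw [zpow_neg, zpow_natCast, pow_mul, Complex.I_sq, ← inv_pow]
  norm_num

theorem I_zpow_neg_even (a : ℤ) (b : ℕ) (h : a = 2 * b) : Complex.I ^ (-a) = (-1) ^ b := by
  subst h
  exact_mod_cast I_zpow_neg_two_mul b

/-- `ξ = ρ + 1 = e^{πi/3}`. -/
theorem xi_sq : ((rho : ℂ) + 1) ^ 2 = (rho : ℂ) := by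
  have h3 : (Real.sqrt 3) ^ 2 = 3 := Real.sq_sqrt (by norm_num)
  have : (rho : ℂ) = ⟨-1 / 2, Real.sqrt 3 / 2⟩ := rfl
  rw [this]
  apply Complex.ext <;> simp [pow_two] <;> ring_nf <;> nlinarith [h3]

/-- the complex conjugate of `ρ` -/
def rhobar : ℂ := ⟨-1 / 2, -(Real.sqrt 3 / 2)⟩

theorem rho_inv : (rho : ℂ)⁻¹ = rhobar := by
  have h3 : (Real.sqrt 3) ^ 2 = 3 := Real.sq_sqrt (by norm_num)
  have : (rho : ℂ) = ⟨-1 / 2, Real.sqrt 3 / 2⟩ := rfl
  rw [this]
  apply inv_eq_of_mul_eq_one_right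
  unfold rhobar
  apply Complex.ext <;> simp <;> ring_nf <;> nlinarith [h3]

theorem rho_ne_zero : (rho : ℂ) ≠ 0 := by
  intro h
  have : (rho : ℂ).re = 0 := by rw [h]; rfl
  have h2 : (rho : ℂ).re = -1 / 2 := rfl
  rw [h2] at this
  norm_num at this

theorem rhobar_sq : rhobar ^ 2 = (rho : ℂ) := by
  have h3 : (Real.sqrt 3) ^ 2 = 3 := Real.sq_sqrt (by norm_num)
  have : (rho : ℂ) = ⟨-1 / 2, Real.sqrt 3 / 2⟩ := rfl
  rw [this]
  unfold rhobar
  apply Complex.ext <;> simp [pow_two] <;> ring_nf <;> nlinarith [h3]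

theorem rhobar_cube : rhobar ^ 3 = 1 := by
  rw [pow_succ, rhobar_sq, ← rho_inv]
  exact mul_inv_cancel₀ rho_ne_zero

theorem rho_re : (rho : ℂ).re = -1 / 2 := rfl

theorem rhobar_re : rhobar.re = -1 / 2 := rfl

theorem xi_zpow_neg_two_mul (b : ℕ) : ((rho : ℂ) + 1) ^ (-((2 * b : ℕ) : ℤ)) = rhobar ^ b := by
  rw [zpow_neg, zpow_natCast, pow_mul, xi_sq, ← inv_pow, rho_inv]

theorem xi_zpow_neg_even (a : ℤ) (b : ℕ) (h : a = 2 * b) :
    ((rho : ℂ) + 1) ^ (-a) = rhobar ^ b := by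
  subst h
  exact_mod_cast xi_zpow_neg_two_mul b

theorem core_arith {J : Type} [Fintype J] (κ κ' : J → ℤ) (σ : J ≃ J)
    (μ e2 e3 c s2 : ℕ)
    (hcard : Fintype.card J = μ)
    (hκ : ∀ j, 0 ≤ κ j ∧ Even (κ j))
    (hκ' : ∀ j, 2 ≤ κ' j)
    (hσ : ∀ j, κ j + κ' (σ j) = 12)
    (hM0 : ∑ j, rdim (0 - κ j) = 1)
    (hS2 : ∑ j, rdim (2 - κ' j) = s2)
    (hS : ∑ j, Complex.I ^ (-(κ j)) = (e2 : ℂ))
    (hST : ∑ j, ((rho : ℂ) + 1) ^ (-(κ j)) = (e3 : ℂ))
    (hC : (∑ j, rdim (24 - κ j) = ∑ j, rdim (12 - κ j) + μ) →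
      ∑ j, rdim (24 - κ j) = ∑ j, rdim (24 - κ' j) + c) :
    (s2 : ℚ) = 1 + μ / 12 - e2 / 4 - e3 / 3 - c / 2 := by
  have hw : ∀ j, κ j ∈ wts := by
    intro j
    obtain ⟨h0, m, hm⟩ := hκ j
    have h10 : κ j ≤ 10 := by linarith [hσ j, hκ' (σ j)]
    simp only [wts, Finset.mem_insert, Finset.mem_singleton]
    omega
  have hκ'σ : ∀ j, κ' (σ j) = 12 - κ j := fun j => by linarith [hσ j]
  -- the counting identities
  have e_card : cnt κ 0 + (cnt κ 2 + (cnt κ 4 + (cnt κ 6 + (cnt κ 8 + cnt κ 10)))) = μ := by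
    have := sum_by_weight' κ hw (fun _ => (1 : ℕ))
    simp only [smul_eq_mul, mul_one, Finset.sum_const, Finset.card_univ] at this
    rw [← hcard]; exact this.symm
  have e_M0 : cnt κ 0 = 1 := by
    have := sum_by_weight' κ hw (fun a => rdim (0 - a))
    rw [hM0] at this
    have r0 : rdim (0 - 0) = 1 := by decide
    have r2 : rdim (0 - 2) = 0 := by decide
    have r4 : rdim (0 - 4) = 0 := by decide
    have r6 : rdim (0 - 6) = 0 := by decide
    have r8 : rdim (0 - 8) = 0 := by decide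
    have r10 : rdim (0 - 10) = 0 := by decide
    simp only [r0, r2, r4, r6, r8, r10, smul_eq_mul, mul_one, mul_zero, add_zero] at this
    exact this.symm
  have e_S2 : cnt κ 10 = s2 := by
    have h1 : ∑ j, rdim (2 - κ' j) = ∑ j, rdim (2 - κ' (σ j)) :=
      (Equiv.sum_comp σ (fun j => rdim (2 - κ' j))).symm
    have h2 : ∑ j, rdim (2 - κ' (σ j)) = ∑ j, rdim (κ j - 10) := by
      refine Finset.sum_congr rfl fun j _ => ?_
      rw [hκ'σ j]; congr 1; ring
    have := sum_by_weight' κ hw (fun a => rdim (a - 10))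
    rw [← h2, ← h1, hS2] at this
    have r0 : rdim (0 - 10) = 0 := by decide
    have r2 : rdim (2 - 10) = 0 := by decide
    have r4 : rdim (4 - 10) = 0 := by decide
    have r6 : rdim (6 - 10) = 0 := by decide
    have r8 : rdim (8 - 10) = 0 := by decide
    have r10 : rdim (10 - 10) = 1 := by decide
    simp only [r0, r2, r4, r6, r8, r10, smul_eq_mul, mul_one, mul_zero, zero_add] at this
    exact this.symm
  have e_24 : ∑ j, rdim (24 - κ j) = cnt κ 0 * 3 + (cnt κ 2 * 2 + (cnt κ 4 * 2 + (cnt κ 6 * 2 +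
      (cnt κ 8 * 2 + cnt κ 10 * 1)))) := by
    have := sum_by_weight' κ hw (fun a => rdim (24 - a))
    have r0 : rdim (24 - 0) = 3 := by decide
    have r2 : rdim (24 - 2) = 2 := by decide
    have r4 : rdim (24 - 4) = 2 := by decide
    have r6 : rdim (24 - 6) = 2 := by decide
    have r8 : rdim (24 - 8) = 2 := by decide
    have r10 : rdim (24 - 10) = 1 := by decide
    simpa only [r0, r2, r4, r6, r8, r10, smul_eq_mul] using this
  have e_12 : ∑ j, rdim (12 - κ j) = cnt κ 0 * 2 + (cnt κ 2 * 1 + (cnt κ 4 * 1 + (cnt κ 6 * 1 +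
      (cnt κ 8 * 1 + cnt κ 10 * 0)))) := by
    have := sum_by_weight' κ hw (fun a => rdim (12 - a))
    have r0 : rdim (12 - 0) = 2 := by decide
    have r2 : rdim (12 - 2) = 1 := by decide
    have r4 : rdim (12 - 4) = 1 := by decide
    have r6 : rdim (12 - 6) = 1 := by decide
    have r8 : rdim (12 - 8) = 1 := by decide
    have r10 : rdim (12 - 10) = 0 := by decide
    simpa only [r0, r2, r4, r6, r8, r10, smul_eq_mul] using this
  have e_24' : ∑ j, rdim (24 - κ' j) = cnt κ 0 * 2 + (cnt κ 2 * 1 + (cnt κ 4 * 2 + (cnt κ 6 * 2 +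
      (cnt κ 8 * 2 + cnt κ 10 * 2)))) := by
    have h1 : ∑ j, rdim (24 - κ' j) = ∑ j, rdim (24 - κ' (σ j)) :=
      (Equiv.sum_comp σ (fun j => rdim (24 - κ' j))).symm
    have h2 : ∑ j, rdim (24 - κ' (σ j)) = ∑ j, rdim (12 + κ j) := by
      refine Finset.sum_congr rfl fun j _ => ?_
      rw [hκ'σ j]; congr 1; ring
    have := sum_by_weight' κ hw (fun a => rdim (12 + a))
    rw [← h2, ← h1] at this
    have r0 : rdim (12 + 0) = 2 := by decide
    have r2 : rdim (12 + 2) = 1 := by decide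
    have r4 : rdim (12 + 4) = 2 := by decide
    have r6 : rdim (12 + 6) = 2 := by decide
    have r8 : rdim (12 + 8) = 2 := by decide
    have r10 : rdim (12 + 10) = 2 := by decide
    simpa only [r0, r2, r4, r6, r8, r10, smul_eq_mul] using this
  have e_C : cnt κ 0 + cnt κ 2 = cnt κ 10 + c := by
    have h := hC (by rw [e_24, e_12, ← e_card]; ring)
    rw [e_24, e_24'] at h
    omega
  -- the trace identities
  have e_S : (cnt κ 0 : ℝ) - cnt κ 2 + cnt κ 4 - cnt κ 6 + cnt κ 8 - cnt κ 10 = e2 := by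
    have := sum_by_weight' κ hw (fun a => Complex.I ^ (-a))
    rw [hS] at this
    have i0 : Complex.I ^ (-(0 : ℤ)) = 1 := by simp
    have i2 : Complex.I ^ (-(2 : ℤ)) = -1 :=
      (I_zpow_neg_even 2 1 (by norm_num)).trans (by norm_num)
    have i4 : Complex.I ^ (-(4 : ℤ)) = 1 :=
      (I_zpow_neg_even 4 2 (by norm_num)).trans (by norm_num)
    have i6 : Complex.I ^ (-(6 : ℤ)) = -1 :=
      (I_zpow_neg_even 6 3 (by norm_num)).trans (by norm_num)
    have i8 : Complex.I ^ (-(8 : ℤ)) = 1 :=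
      (I_zpow_neg_even 8 4 (by norm_num)).trans (by norm_num)
    have i10 : Complex.I ^ (-(10 : ℤ)) = -1 :=
      (I_zpow_neg_even 10 5 (by norm_num)).trans (by norm_num)
    simp only [i0, i2, i4, i6, i8, i10, nsmul_eq_mul, mul_one, mul_neg] at this
    have h2 := congrArg Complex.re this
    simp at h2
    linarith
  have e_ST : (cnt κ 0 : ℝ) - cnt κ 2 / 2 - cnt κ 4 / 2 + cnt κ 6 - cnt κ 8 / 2 - cnt κ 10 / 2 =
      e3 := by
    have := sum_by_weight' κ hw (fun a => ((rho : ℂ) + 1) ^ (-a))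
    rw [hST] at this
    have x0 : ((rho : ℂ) + 1) ^ (-(0 : ℤ)) = 1 := by simp
    have x2 : ((rho : ℂ) + 1) ^ (-(2 : ℤ)) = rhobar :=
      (xi_zpow_neg_even 2 1 (by norm_num)).trans (pow_one _)
    have x4 : ((rho : ℂ) + 1) ^ (-(4 : ℤ)) = (rho : ℂ) :=
      (xi_zpow_neg_even 4 2 (by norm_num)).trans rhobar_sq
    have x6 : ((rho : ℂ) + 1) ^ (-(6 : ℤ)) = 1 :=
      (xi_zpow_neg_even 6 3 (by norm_num)).trans rhobar_cube
    have x8 : ((rho : ℂ) + 1) ^ (-(8 : ℤ)) = rhobar :=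
      (xi_zpow_neg_even 8 4 (by norm_num)).trans
        (by rw [show rhobar ^ 4 = rhobar ^ 3 * rhobar by ring, rhobar_cube, one_mul])
    have x10 : ((rho : ℂ) + 1) ^ (-(10 : ℤ)) = (rho : ℂ) :=
      (xi_zpow_neg_even 10 5 (by norm_num)).trans
        (by rw [show rhobar ^ 5 = rhobar ^ 3 * rhobar ^ 2 by ring, rhobar_cube, one_mul,
          rhobar_sq])
    simp only [x0, x2, x4, x6, x8, x10, nsmul_eq_mul, mul_one] at this
    have h2 := congrArg Complex.re this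
    simp only [Complex.add_re, Complex.natCast_re, Complex.mul_re, Complex.natCast_im, zero_mul,
      sub_zero, rho_re, rhobar_re] at h2
    linarith
  -- final linear arithmetic
  have hS2' : (s2 : ℝ) = 1 + μ / 12 - e2 / 4 - e3 / 3 - c / 2 := by
    have h1 : (cnt κ 0 : ℝ) = 1 := by exact_mod_cast e_M0
    have h2 : (cnt κ 0 : ℝ) + (cnt κ 2 + (cnt κ 4 + (cnt κ 6 + (cnt κ 8 + cnt κ 10)))) = μ := by
      exact_mod_cast e_card
    have h3 : (cnt κ 0 : ℝ) + cnt κ 2 = cnt κ 10 + c := by exact_mod_cast e_C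
    have h4 : (cnt κ 10 : ℝ) = s2 := by exact_mod_cast e_S2
    linarith
  have : ((s2 : ℚ) : ℝ) = ((1 + μ / 12 - e2 / 4 - e3 / 3 - c / 2 : ℚ) : ℝ) := by
    push_cast; exact hS2'
  exact_mod_cast this

theorem tr_zero (𝒢 : Subgroup (GL (Fin 2) ℝ)) (k : ℤ) (q : Q 𝒢) : tr 𝒢 k 0 q = 0 := by
  unfold tr
  exact SlashAction.zero_slash _ _

theorem fundDet_eq_zero_of_eq_zero (𝒢 : Subgroup (GL (Fin 2) ℝ)) [𝒢.IsArithmetic]
    (κ : Q 𝒢 → ℤ) (F : Q 𝒢 → ℍ → ℂ) (z : ℍ) (j : Q 𝒢) (hj : F j = 0) :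
    fundDet 𝒢 κ F z = 0 := by
  classical
  unfold fundDet
  refine Matrix.det_eq_zero_of_column_eq_zero j fun q => ?_
  simp [transMatrix, hj, tr_zero]

theorem S20_of_goals (hBasic : Goal_Basic) (hHilb : Goal_Hilbert) (hRR : Goal_RRdim)
    (hBM : Goal_BasisM) (hBS : Goal_BasisS) (hOM : Goal_ODEM) (hOS : Goal_ODES)
    (hES : Goal_EllS) (hEST : Goal_EllST) (hC : Goal_Cusp) (hD : Goal_Dual)
    (hGL : Goal_GoodLevel) (hSeed : Goal_Seed) (hI : Goal_Index) (hE2 : Goal_E2)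
    (hE3 : Goal_E3) (hCu : Goal_Cusps) : Goal_S20 := by
  intro N _
  have hg := hGL N
  obtain ⟨hneg, hodd, hM0, hS0, hSM, hmulM, hmulS, hfin, hS2⟩ := hBasic (G0 N) N hg
  obtain ⟨κ, F, hF, hz⟩ := hBM (G0 N) N hg (hSeed N)
  obtain ⟨κ', G, hG, hz'⟩ := hBS (G0 N) N hg (hSeed N)
  have hΦ := hOM (G0 N) N hg κ F hF hz
  have hΨ := hOS (G0 N) N hg κ' G hG hz'
  obtain ⟨σ, hσ⟩ := hD (G0 N) N hg κ κ' F G hF hG hΦ hΨ
  have hellS := hES (G0 N) N hg κ F hF.1 (hΦ _)
  have hellST := hEST (G0 N) N hg κ F hF.1 (hΦ _)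
  have hHM := fun k => hHilb (MFG (G0 N)) (Q (G0 N)) κ F hF hmulM k
  have hHS := fun k => hHilb (CFG (G0 N)) (Q (G0 N)) κ' G hG hmulS k
  have hrr : ∀ k, Module.finrank ℂ (RR k) = rdim k := hRR
  simp only [hrr] at hHM hHS
  have hFne : ∀ j, F j ≠ 0 := fun j hj =>
    hΦ UpperHalfPlane.I (fundDet_eq_zero_of_eq_zero (G0 N) κ F _ j hj)
  have hGne : ∀ j, G j ≠ 0 := fun j hj =>
    hΨ UpperHalfPlane.I (fundDet_eq_zero_of_eq_zero (G0 N) κ' G _ j hj)
  have hκ : ∀ j, 0 ≤ κ j ∧ Even (κ j) := by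
    intro j
    have hmem := hF.1 j
    constructor
    · by_contra hlt
      rw [hneg _ (not_le.mp hlt)] at hmem
      exact hFne j ((Submodule.mem_bot ℂ).mp hmem)
    · rw [← Int.not_odd_iff_even]
      intro ho
      rw [hodd _ ho] at hmem
      exact hFne j ((Submodule.mem_bot ℂ).mp hmem)
  have hκ' : ∀ j, 2 ≤ κ' j := by
    intro j
    have hmem := hG.1 j
    have hpos : 0 < κ' j := by
      by_contra hle
      rw [hS0 _ (not_lt.mp hle)] at hmem
      exact hGne j ((Submodule.mem_bot ℂ).mp hmem)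
    have hev : ¬ Odd (κ' j) := by
      intro ho
      have hmem' := hSM _ hmem
      rw [hodd _ ho] at hmem'
      exact hGne j ((Submodule.mem_bot ℂ).mp hmem')
    rw [Int.not_odd_iff_even] at hev
    obtain ⟨m, hm⟩ := hev
    omega
  have hcard : Fintype.card (Q (G0 N)) = mu (G0 N) := Nat.card_eq_fintype_card.symm
  have hM0' : ∑ j, rdim (0 - κ j) = 1 := by rw [← hHM 0, hM0]
  have hS2' : ∑ j, rdim (2 - κ' j) = Module.finrank ℂ (CFG (G0 N) 2) := (hHS 2).symm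
  have hC' : (∑ j, rdim (24 - κ j) = ∑ j, rdim (12 - κ j) + mu (G0 N)) →
      ∑ j, rdim (24 - κ j) = ∑ j, rdim (24 - κ' j) + cusps (G0 N) := by
    intro h
    have h24 := hC (G0 N) N hg 24
    rw [show (24 : ℤ) - 12 = 12 by norm_num, hHM 24, hHM 12, hHS 24] at h24
    exact h24 h
  have key := core_arith κ κ' σ (mu (G0 N)) (e2 (G0 N)) (e3 (G0 N)) (cusps (G0 N))
    (Module.finrank ℂ (CFG (G0 N) 2)) hcard hκ hκ' hσ hM0' hS2' hellS hellST hC'
  rw [hS2] at key
  rw [key, hI N, hE2 N, hE3 N, hCu N]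
  rfl

end

end Fermat.Agent.S20.helper560
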