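/-
S20, "sandwich" assembly (seat helper260).

This file shows that the duality step of the free-module route is NOT needed:
`finrank S₂` is squeezed between two elementary bounds, for generators of ARBITRARY weights.

New interface statements (same conventions as `helper560_Spec`):
* `Stmt_SumWeights` : `∑ κ j + 6 * cusps = 6 * mu` for a free basis with invertible
  fundamental matrix (leading map at the cusps + trace of the exponent operator);
* `Stmt_Upper` : `finrank (CFG 𝒢 2) ≤ ∑ j, finrank (RR (κ j - 10))` (trace pairing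
  `h ↦ Tr (F j * h) ∈ S_{κ j + 2}(SL₂(ℤ)) = Δ · M_{κ j - 10}(SL₂(ℤ))` is injective);
* `Stmt_Lower` : `finrank (MFG 𝒢 2) + 1 ≤ finrank (CFG 𝒢 2) + cusps 𝒢` (constant terms at the
  cusps are `T`-invariant and sum to zero because `M₂(SL₂(ℤ)) = 0`).

Main result: `goal_S20_of_sandwich` (no `Goal_BasisS`, `Goal_ODES`, `Goal_DivS`, `Goal_Cusp`,
`Goal_Dual` needed).
-/
import Fermat.Agent.S20.helper560_Assembly
import Fermat.Agent.S20.helper260_Arith

set_option autoImplicit false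

open UpperHalfPlane ModularForm
open scoped MatrixGroups Manifold Pointwise

namespace Fermat.Agent.S20.helper260

open Fermat.Agent.S20.helper560

noncomputable section

section general

variable (𝒢 : Subgroup (GL (Fin 2) ℝ)) [𝒢.IsArithmetic] [𝒢.HasDetOne]

/-- (SUMW) the sum of the generator weights of a free basis with invertible fundamental
matrix is `6 (μ - #cusps)`. -/
def Stmt_SumWeights : Prop :=
  ∀ (κ : Q 𝒢 → ℤ) (F : Q 𝒢 → ℍ → ℂ), IsFreeBasis (MFG 𝒢) κ F →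
    (∀ z, fundDet 𝒢 κ F z ≠ 0) → ∑ j, κ j + 6 * (cusps 𝒢 : ℤ) = 6 * (mu 𝒢 : ℤ)

/-- (UPPER) trace pairing bound for weight two cusp forms. -/
def Stmt_Upper : Prop :=
  ∀ (κ : Q 𝒢 → ℤ) (F : Q 𝒢 → ℍ → ℂ), (∀ j, F j ∈ MFG 𝒢 (κ j)) →
    (∀ z, fundDet 𝒢 κ F z ≠ 0) →
    Module.finrank ℂ (CFG 𝒢 2) ≤ ∑ j, Module.finrank ℂ (RR (κ j - 10))

/-- (LOWER) constant term bound in weight two. -/
def Stmt_Lower : Prop :=
  Module.finrank ℂ (MFG 𝒢 2) + 1 ≤ Module.finrank ℂ (CFG 𝒢 2) + cusps 𝒢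

end general

def Goal_SumWeights : Prop :=
  ∀ (𝒢 : Subgroup (GL (Fin 2) ℝ)) [𝒢.IsArithmetic] [𝒢.HasDetOne] (N : ℕ),
    GoodLevel 𝒢 N → Stmt_SumWeights 𝒢

def Goal_Upper : Prop :=
  ∀ (𝒢 : Subgroup (GL (Fin 2) ℝ)) [𝒢.IsArithmetic] [𝒢.HasDetOne] (N : ℕ),
    GoodLevel 𝒢 N → Stmt_Upper 𝒢

def Goal_Lower : Prop :=
  ∀ (𝒢 : Subgroup (GL (Fin 2) ℝ)) [𝒢.IsArithmetic] [𝒢.HasDetOne] (N : ℕ),
    GoodLevel 𝒢 N → Stmt_Lower 𝒢

/-! ### Bridges -/

/-- `Goal_RRdim` in terms of the integer valued function `dA`. -/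
theorem finrank_RR_eq_dA (hRR : Goal_RRdim) (k : ℤ) :
    (Module.finrank ℂ (RR k) : ℤ) = dA k := by
  rw [hRR k]
  unfold dA
  by_cases h1 : k < 0 ∨ Odd k
  · have h1' : k < 0 ∨ k % 2 = 1 := by
      rcases h1 with h | h
      · exact Or.inl h
      · exact Or.inr (Int.odd_iff.mp h)
    rw [if_pos h1, if_pos h1']
    rfl
  · have h1' : ¬ (k < 0 ∨ k % 2 = 1) := by
      intro h
      apply h1
      rcases h with h | h
      · exact Or.inl h
      · exact Or.inr (Int.odd_iff.mpr h)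
    rw [if_neg h1, if_neg h1']
    have hk : 0 ≤ k := by
      by_contra hneg
      exact h1 (Or.inl (not_le.mp hneg))
    have hdiv : 0 ≤ k / 12 := Int.ediv_nonneg hk (by norm_num)
    by_cases h2 : k % 12 = 2
    · rw [if_pos h2, if_pos h2]
      exact Int.toNat_of_nonneg hdiv
    · rw [if_neg h2, if_neg h2]
      push_cast
      rw [Int.toNat_of_nonneg hdiv]

/-- `dA (-κ)` is the indicator of `κ = 0` for `κ ≥ 0`. -/
theorem dA_neg_of_nonneg (κ : ℤ) (h0 : 0 ≤ κ) : dA (0 - κ) = if κ = 0 then 1 else 0 := by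
  unfold dA
  split_ifs <;> omega

/-- `dA (2 - κ)` is the indicator of `κ = 2` for even `κ ≥ 0`. -/
theorem dA_two_sub_of_even (κ : ℤ) (h0 : 0 ≤ κ) (he : κ % 2 = 0) :
    dA (2 - κ) = if κ = 2 then 1 else 0 := by
  unfold dA
  split_ifs <;> omega

/-- `i ^ (-κ)` for even `κ ≥ 0`. -/
theorem I_zpow_neg_of_even (κ : ℤ) (h0 : 0 ≤ κ) (he : κ % 2 = 0) :
    Complex.I ^ (-κ) = if κ % 4 = 0 then 1 else -1 := by
  obtain ⟨b, hb⟩ : ∃ b : ℕ, κ = 2 * (b : ℤ) := ⟨(κ / 2).toNat, by omega⟩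
  rw [I_zpow_neg_even κ b hb]
  by_cases hbe : Even b
  · have : κ % 4 = 0 := by
      obtain ⟨t, rfl⟩ := hbe
      omega
    rw [if_pos this, hbe.neg_one_pow]
  · have hbo : Odd b := Nat.not_even_iff_odd.mp hbe
    have : ¬ (κ % 4 = 0) := by
      obtain ⟨t, rfl⟩ := hbo
      omega
    rw [if_neg this, hbo.neg_one_pow]

/-- `(ρ + 1) ^ (-κ)` for even `κ ≥ 0`. -/
theorem xi_zpow_neg_of_even (κ : ℤ) (h0 : 0 ≤ κ) (he : κ % 2 = 0) :
    ((rho : ℂ) + 1) ^ (-κ) =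
      if κ % 6 = 0 then 1 else if κ % 6 = 2 then rhobar else (rho : ℂ) := by
  obtain ⟨b, hb⟩ : ∃ b : ℕ, κ = 2 * (b : ℤ) := ⟨(κ / 2).toNat, by omega⟩
  rw [xi_zpow_neg_even κ b hb]
  have hb3 : b = 3 * (b / 3) + b % 3 := by omega
  have hpow : rhobar ^ b = rhobar ^ (b % 3) := by
    conv_lhs => rw [hb3]
    rw [pow_add, pow_mul, rhobar_cube, one_pow, one_mul]
  rw [hpow]
  have hcases : b % 3 = 0 ∨ b % 3 = 1 ∨ b % 3 = 2 := by omega
  rcases hcases with h | h | h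
  · have h6 : κ % 6 = 0 := by omega
    rw [if_pos h6, h, pow_zero]
  · have h6 : ¬ (κ % 6 = 0) := by omega
    have h6' : κ % 6 = 2 := by omega
    rw [if_neg h6, if_pos h6', h, pow_one]
  · have h6 : ¬ (κ % 6 = 0) := by omega
    have h6' : ¬ (κ % 6 = 2) := by omega
    rw [if_neg h6, if_neg h6', h, rhobar_sq]

theorem rho_im : (rho : ℂ).im = Real.sqrt 3 / 2 := rfl

theorem rhobar_im : rhobar.im = -(Real.sqrt 3 / 2) := rfl

/-- The elliptic identity at `i` as an integer count. -/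
theorem count_of_ellS {J : Type} [Fintype J] (κ : J → ℤ) (h0 : ∀ j, 0 ≤ κ j)
    (he : ∀ j, κ j % 2 = 0) (e : ℕ) (h : ∑ j, Complex.I ^ (-(κ j)) = (e : ℂ)) :
    ∑ j, (if κ j % 4 = 0 then (1 : ℤ) else -1) = e := by
  have h1 : ∑ j, Complex.I ^ (-(κ j)) =
      ((∑ j, (if κ j % 4 = 0 then (1 : ℤ) else -1) : ℤ) : ℂ) := by
    push_cast
    refine Finset.sum_congr rfl fun j _ => ?_
    rw [I_zpow_neg_of_even (κ j) (h0 j) (he j)]
  rw [h1] at h
  have h2 : ((∑ j, (if κ j % 4 = 0 then (1 : ℤ) else -1) : ℤ) : ℂ) = ((e : ℤ) : ℂ) := by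
    rw [h]; simp
  exact_mod_cast h2

/-- The elliptic identity at `ρ` as integer counts. -/
theorem count_of_ellST {J : Type} [Fintype J] (κ : J → ℤ) (h0 : ∀ j, 0 ≤ κ j)
    (he : ∀ j, κ j % 2 = 0) (e : ℕ) (h : ∑ j, ((rho : ℂ) + 1) ^ (-(κ j)) = (e : ℂ)) :
    (∑ j, (if κ j % 6 = 2 then (1 : ℤ) else 0) = ∑ j, (if κ j % 6 = 4 then (1 : ℤ) else 0)) ∧
    (∑ j, (if κ j % 6 = 0 then (1 : ℤ) else 0)
      - ∑ j, (if κ j % 6 = 2 then (1 : ℤ) else 0) = e) := by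
  have hs3 : (0 : ℝ) < Real.sqrt 3 := Real.sqrt_pos.mpr (by norm_num)
  have hterm : ∀ j, ((rho : ℂ) + 1) ^ (-(κ j)) =
      ((if κ j % 6 = 0 then (1 : ℤ) else 0 : ℤ) : ℂ)
        + ((if κ j % 6 = 2 then (1 : ℤ) else 0 : ℤ) : ℂ) * rhobar
        + ((if κ j % 6 = 4 then (1 : ℤ) else 0 : ℤ) : ℂ) * (rho : ℂ) := by
    intro j
    rw [xi_zpow_neg_of_even (κ j) (h0 j) (he j)]
    have := he j
    by_cases h6 : κ j % 6 = 0
    · have h2 : ¬ (κ j % 6 = 2) := by omega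
      have h4 : ¬ (κ j % 6 = 4) := by omega
      simp [h6]
    · by_cases h2 : κ j % 6 = 2
      · have h4 : ¬ (κ j % 6 = 4) := by omega
        simp [h2]
      · have h4 : κ j % 6 = 4 := by omega
        simp [h4]
  have hsum : ∑ j, ((rho : ℂ) + 1) ^ (-(κ j)) =
      ((∑ j, (if κ j % 6 = 0 then (1 : ℤ) else 0) : ℤ) : ℂ)
        + ((∑ j, (if κ j % 6 = 2 then (1 : ℤ) else 0) : ℤ) : ℂ) * rhobar
        + ((∑ j, (if κ j % 6 = 4 then (1 : ℤ) else 0) : ℤ) : ℂ) * (rho : ℂ) := by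
    rw [Finset.sum_congr rfl fun j _ => hterm j]
    rw [Finset.sum_add_distrib, Finset.sum_add_distrib, ← Finset.sum_mul, ← Finset.sum_mul]
    push_cast
    rfl
  rw [hsum] at h
  set A := ∑ j, (if κ j % 6 = 0 then (1 : ℤ) else 0) with hA
  set B := ∑ j, (if κ j % 6 = 2 then (1 : ℤ) else 0) with hB
  set C := ∑ j, (if κ j % 6 = 4 then (1 : ℤ) else 0) with hC
  have hre := congrArg Complex.re h
  have him := congrArg Complex.im h
  simp only [Complex.add_re, Complex.mul_re, Complex.intCast_re, Complex.intCast_im, zero_mul,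
    sub_zero, rho_re, rhobar_re, Complex.natCast_re] at hre
  simp only [Complex.add_im, Complex.mul_im, Complex.intCast_re, Complex.intCast_im, zero_mul,
    add_zero, rho_im, rhobar_im, Complex.natCast_im, zero_add] at him
  have hBC : (B : ℝ) = C := by
    have : (C - B : ℝ) * (Real.sqrt 3 / 2) = 0 := by linarith
    rcases mul_eq_zero.mp this with h1 | h1
    · linarith
    · linarith
  have hBC' : B = C := by exact_mod_cast hBC
  refine ⟨hBC', ?_⟩
  have : (A : ℝ) - B = e := by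
    rw [hBC] at hre ⊢
    linarith
  exact_mod_cast this

/-! ### The sandwich assembly -/

theorem goal_S20_of_sandwich (hBasic : Goal_Basic) (hHilb : Goal_Hilbert) (hRR : Goal_RRdim)
    (hBM : Goal_BasisM) (hOM : Goal_ODEM) (hES : Goal_EllS) (hEST : Goal_EllST)
    (hSW : Goal_SumWeights) (hU : Goal_Upper) (hL : Goal_Lower)
    (hGL : Goal_GoodLevel) (hSeed : Goal_Seed) (hI : Goal_Index) (hE2 : Goal_E2)
    (hE3 : Goal_E3) (hCu : Goal_Cusps) : Goal_S20 := by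
  intro N _
  have hg := hGL N
  obtain ⟨hneg, hodd, hM0, hS0, hSM, hmulM, hmulS, hfin, hS2⟩ := hBasic (G0 N) N hg
  obtain ⟨κ, F, hF, hz⟩ := hBM (G0 N) N hg (hSeed N)
  have hΦ := hOM (G0 N) N hg κ F hF hz
  have hellS := hES (G0 N) N hg κ F hF.1 (hΦ _)
  have hellST := hEST (G0 N) N hg κ F hF.1 (hΦ _)
  have hHM := fun k => hHilb (MFG (G0 N)) (Q (G0 N)) κ F hF hmulM k
  have hFne : ∀ j, F j ≠ 0 := fun j hj =>
    hΦ UpperHalfPlane.I (fundDet_eq_zero_of_eq_zero (G0 N) κ F _ j hj)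
  have h0 : ∀ j, 0 ≤ κ j := by
    intro j
    have hmem := hF.1 j
    by_contra hlt
    rw [hneg _ (not_le.mp hlt)] at hmem
    exact hFne j ((Submodule.mem_bot ℂ).mp hmem)
  have he : ∀ j, κ j % 2 = 0 := by
    intro j
    have hmem := hF.1 j
    by_contra ho
    have ho' : Odd (κ j) := Int.odd_iff.mpr (by omega)
    rw [hodd _ ho'] at hmem
    exact hFne j ((Submodule.mem_bot ℂ).mp hmem)
  have hcard : (Fintype.card (Q (G0 N)) : ℤ) = (mu (G0 N) : ℤ) := by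
    have : Fintype.card (Q (G0 N)) = mu (G0 N) := Nat.card_eq_fintype_card.symm
    exact_mod_cast this
  -- exactly one generator of weight zero
  have hzero : ∑ j, (if κ j = 0 then (1 : ℤ) else 0) = 1 := by
    have h1 : ((Module.finrank ℂ (MFG (G0 N) 0) : ℕ) : ℤ) = 1 := by rw [hM0]; rfl
    rw [hHM 0] at h1
    push_cast at h1
    refine Eq.trans (Finset.sum_congr rfl fun j _ => ?_) h1
    rw [finrank_RR_eq_dA hRR, dA_neg_of_nonneg _ (h0 j)]
  -- the elliptic counts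
  have ha := count_of_ellS κ h0 he (e2 (G0 N)) hellS
  obtain ⟨hb1, hb2⟩ := count_of_ellST κ h0 he (e3 (G0 N)) hellST
  -- the sum of the weights
  have hc := hSW (G0 N) N hg κ F hF hΦ
  obtain ⟨hD, hslack⟩ := sandwich_arith κ h0 he (mu (G0 N)) (e2 (G0 N)) (e3 (G0 N))
    (cusps (G0 N)) hcard hzero ha hb1 hb2 hc
  -- upper bound
  have hup : (Module.finrank ℂ (CFG (G0 N) 2) : ℤ) ≤ ∑ j, dA (κ j - 10) := by
    have h1 := hU (G0 N) N hg κ F hF.1 hΦ
    have h2 : ((Module.finrank ℂ (CFG (G0 N) 2) : ℕ) : ℤ) ≤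
        ((∑ j, Module.finrank ℂ (RR (κ j - 10)) : ℕ) : ℤ) := by exact_mod_cast h1
    push_cast at h2
    rw [Finset.sum_congr rfl fun j _ => finrank_RR_eq_dA hRR (κ j - 10)] at h2
    exact h2
  -- lower bound
  have hlo : ∑ j, (if κ j = 2 then (1 : ℤ) else 0) + 1 ≤
      (Module.finrank ℂ (CFG (G0 N) 2) : ℤ) + (cusps (G0 N) : ℤ) := by
    have h1 := hL (G0 N) N hg
    unfold Stmt_Lower at h1
    rw [hHM 2] at h1
    have h2 : ((∑ j, Module.finrank ℂ (RR (2 - κ j)) + 1 : ℕ) : ℤ) ≤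
        ((Module.finrank ℂ (CFG (G0 N) 2) + cusps (G0 N) : ℕ) : ℤ) := by exact_mod_cast h1
    push_cast at h2
    rw [Finset.sum_congr rfl fun j _ => finrank_RR_eq_dA hRR (2 - κ j)] at h2
    rw [Finset.sum_congr rfl fun j _ => dA_two_sub_of_even (κ j) (h0 j) (he j)] at h2
    exact h2
  -- squeeze
  have hfin' : 12 * (Module.finrank ℂ (CFG (G0 N) 2) : ℤ) =
      12 + (mu (G0 N) : ℤ) - 3 * (e2 (G0 N) : ℤ) - 4 * (e3 (G0 N) : ℤ)
        - 6 * (cusps (G0 N) : ℤ) := by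
    apply le_antisymm
    · linarith
    · linarith
  rw [hS2, hI N, hE2 N, hE3 N, hCu N] at hfin'
  have hQ : 12 * (Module.finrank ℂ (CuspForm (G0 N) 2) : ℚ) =
      12 + (ModularCurve.dedekindPsi N : ℚ) - 3 * (ModularCurve.nuTwo N : ℚ)
        - 4 * (ModularCurve.nuThree N : ℚ) - 6 * (ModularCurve.cuspCount N : ℚ) := by
    exact_mod_cast hfin'
  show (Module.finrank ℂ (CuspForm (G0 N) 2) : ℚ) = ModularCurve.genusFormula N
  unfold ModularCurve.genusFormula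
  linarith

end

end Fermat.Agent.S20.helper260
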