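/-
S20 backup (seat helper3006): `Goal_RRdim` of `helper560_Spec`, plus the linear equivalences
between Mathlib's bundled spaces `ModularForm 𝒢 k`, `CuspForm 𝒢 k` and the function-level
submodules `MFG 𝒢 k`, `CFG 𝒢 k`.
-/
import Fermat.Agent.S20.helper560_Spec

set_option autoImplicit false

open UpperHalfPlane ModularForm
open scoped MatrixGroups Manifold Pointwise

namespace Fermat.Agent.S20.helper3006

open Fermat.Agent.S20.helper560

noncomputable section

/-- The bundled space of modular forms is linearly equivalent to the function-level submodule. -/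
def mfgEquiv (𝒢 : Subgroup (GL (Fin 2) ℝ)) [𝒢.HasDetOne] (k : ℤ) :
    ModularForm 𝒢 k ≃ₗ[ℂ] MFG 𝒢 k :=
  LinearEquiv.ofBijective
    ({ toFun := fun F => (⟨⇑F, F, rfl⟩ : MFG 𝒢 k)
       map_add' := fun _ _ => rfl
       map_smul' := fun _ _ => rfl } : ModularForm 𝒢 k →ₗ[ℂ] MFG 𝒢 k)
    ⟨fun _ _ h => DFunLike.coe_injective (congrArg Subtype.val h),
     fun ⟨_, F, hF⟩ => ⟨F, Subtype.ext hF⟩⟩

@[simp] theorem mfgEquiv_apply_coe {𝒢 : Subgroup (GL (Fin 2) ℝ)} [𝒢.HasDetOne] {k : ℤ}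
    (F : ModularForm 𝒢 k) : ((mfgEquiv 𝒢 k F : MFG 𝒢 k) : ℍ → ℂ) = ⇑F := rfl

/-- The bundled space of cusp forms is linearly equivalent to the function-level submodule. -/
def cfgEquiv (𝒢 : Subgroup (GL (Fin 2) ℝ)) [𝒢.HasDetOne] (k : ℤ) :
    CuspForm 𝒢 k ≃ₗ[ℂ] CFG 𝒢 k :=
  LinearEquiv.ofBijective
    ({ toFun := fun F => (⟨⇑F, F, rfl⟩ : CFG 𝒢 k)
       map_add' := fun _ _ => rfl
       map_smul' := fun _ _ => rfl } : CuspForm 𝒢 k →ₗ[ℂ] CFG 𝒢 k)
    ⟨fun _ _ h => DFunLike.coe_injective (congrArg Subtype.val h),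
     fun ⟨_, F, hF⟩ => ⟨F, Subtype.ext hF⟩⟩

@[simp] theorem cfgEquiv_apply_coe {𝒢 : Subgroup (GL (Fin 2) ℝ)} [𝒢.HasDetOne] {k : ℤ}
    (F : CuspForm 𝒢 k) : ((cfgEquiv 𝒢 k F : CFG 𝒢 k) : ℍ → ℂ) = ⇑F := rfl

theorem finrank_MFG (𝒢 : Subgroup (GL (Fin 2) ℝ)) [𝒢.HasDetOne] (k : ℤ) :
    Module.finrank ℂ (MFG 𝒢 k) = Module.finrank ℂ (ModularForm 𝒢 k) :=
  (mfgEquiv 𝒢 k).finrank_eq.symm

theorem finrank_CFG (𝒢 : Subgroup (GL (Fin 2) ℝ)) [𝒢.HasDetOne] (k : ℤ) :
    Module.finrank ℂ (CFG 𝒢 k) = Module.finrank ℂ (CuspForm 𝒢 k) :=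
  (cfgEquiv 𝒢 k).finrank_eq.symm

/-- Level one forms of any weight form a finite-dimensional space (function-level version). -/
instance finite_RR (k : ℤ) : Module.Finite ℂ (RR k) :=
  Module.Finite.equiv (mfgEquiv 𝒮ℒ k)

/-- (RRDIM) the level one dimension formula, for all integer weights. -/
theorem goal_RRdim : Goal_RRdim := by
  intro k
  rw [finrank_MFG]
  by_cases h : k < 0 ∨ Odd k
  · rw [if_pos h]
    rcases h with h | h
    · exact Module.finrank_eq_zero_of_rank_eq_zero (ModularForm.levelOne_neg_weight_rank_zero h)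
    · exact Module.finrank_eq_zero_of_rank_eq_zero (ModularForm.levelOne_odd_weight_rank_zero h)
  · rw [if_neg h]
    push Not at h
    obtain ⟨h0, hev⟩ := h
    rw [Int.not_odd_iff_even] at hev
    lift k to ℕ using h0
    have hk2 : Even k := by exact_mod_cast hev
    have hdim := ModularForm.dimension_level_one k hk2
    have hfin : Module.finrank ℂ (ModularForm 𝒮ℒ (k : ℤ)) =
        if k ≡ 2 [MOD 12] then k / 12 else k / 12 + 1 := by
      unfold Module.finrank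
      rw [hdim]
      split_ifs <;> simp
    rw [hfin]
    have e1 : ((k : ℤ) / 12).toNat = k / 12 := by omega
    have e2 : ((k : ℤ) % 12 = 2) ↔ k ≡ 2 [MOD 12] := by
      unfold Nat.ModEq; omega
    rw [e1]
    by_cases h2 : k ≡ 2 [MOD 12]
    · rw [if_pos h2, if_pos (e2.mpr h2)]
    · rw [if_neg h2, if_neg (fun h' => h2 (e2.mp h'))]

end

end Fermat.Agent.S20.helper3006
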