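/-
S20 backup (seat helper3006): `Goal_Basic` of `helper560_Spec`
(elementary structural facts about the graded modules `MFG 𝒢`, `CFG 𝒢`).
-/
import Fermat.Agent.S20.helper3006_RRdim
import Fermat.Prelude.Thm_ModularForm_eq_zero_of_lt_order_qExpansion_of_isArithmetic

set_option autoImplicit false

open UpperHalfPlane ModularForm
open scoped MatrixGroups Manifold Pointwise

namespace Fermat.Agent.S20.helper3006

open Fermat.Agent.S20.helper560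

noncomputable section

/-- Restriction of a level one modular form to a subgroup `𝒢 ≤ 𝒮ℒ`. -/
def restrictLevel {𝒢 : Subgroup (GL (Fin 2) ℝ)} (h : 𝒢 ≤ 𝒮ℒ) {a : ℤ} (P : ModularForm 𝒮ℒ a) :
    ModularForm 𝒢 a where
  toFun := P
  slash_action_eq' γ hγ := P.slash_action_eq' γ (h hγ)
  holo' := P.holo'
  bdd_at_cusps' hc := P.bdd_at_cusps' (hc.mono h)

@[simp] theorem coe_restrictLevel {𝒢 : Subgroup (GL (Fin 2) ℝ)} (h : 𝒢 ≤ 𝒮ℒ) {a : ℤ}
    (P : ModularForm 𝒮ℒ a) : ⇑(restrictLevel h P) = ⇑P := rfl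

section

variable (𝒢 : Subgroup (GL (Fin 2) ℝ)) [𝒢.IsArithmetic] [𝒢.HasDetOne]

theorem MFG_eq_bot_of_neg {k : ℤ} (hk : k < 0) : MFG 𝒢 k = ⊥ := by
  rw [Submodule.eq_bot_iff]
  rintro _ ⟨F, rfl⟩
  rw [ModularForm.isZero_of_neg_weight hk F]
  rfl

omit [𝒢.IsArithmetic] in
theorem MFG_eq_bot_of_odd (hneg : -1 ∈ 𝒢) {k : ℤ} (hk : Odd k) : MFG 𝒢 k = ⊥ := by
  rw [Submodule.eq_bot_iff]
  rintro _ ⟨F, rfl⟩
  rw [ModularForm.eq_zero_of_neg_one_mem hneg hk F]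
  rfl

omit [𝒢.IsArithmetic] in
theorem CFG_le_MFG (k : ℤ) : CFG 𝒢 k ≤ MFG 𝒢 k := by
  rintro _ ⟨F, rfl⟩
  exact ⟨ModularFormClass.modularForm F, rfl⟩

theorem finrank_MFG_zero : Module.finrank ℂ (MFG 𝒢 0) = 1 := by
  have h1 : (1 : ℍ → ℂ) ∈ MFG 𝒢 0 := ⟨ModularForm.const 1, by ext z; simp⟩
  refine finrank_eq_one (⟨1, h1⟩ : MFG 𝒢 0) ?_ ?_
  · intro h
    have h' : (1 : ℍ → ℂ) = 0 := congrArg Subtype.val h
    have := congrFun h' UpperHalfPlane.I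
    simp at this
  · rintro ⟨_, F, rfl⟩
    obtain ⟨c, hc⟩ := ModularForm.eq_const_of_weight_zero F
    refine ⟨c, ?_⟩
    apply Subtype.ext
    change c • (1 : ℍ → ℂ) = ⇑F
    rw [hc]
    ext z
    simp

theorem CFG_eq_bot_of_nonpos {k : ℤ} (hk : k ≤ 0) : CFG 𝒢 k = ⊥ := by
  rcases hk.lt_or_eq with hk | rfl
  · exact le_bot_iff.mp ((CFG_le_MFG 𝒢 k).trans (MFG_eq_bot_of_neg 𝒢 hk).le)
  · rw [Submodule.eq_bot_iff]
    rintro _ ⟨F, rfl⟩
    obtain ⟨c, hc⟩ := ModularForm.eq_const_of_weight_zero (ModularFormClass.modularForm F)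
    have hc' : (⇑F : ℍ → ℂ) = Function.const ℍ c := hc
    have hz : IsZeroAtImInfty (⇑F) := CuspFormClass.zero_at_infty F
    rw [hc'] at hz
    have : c = 0 := by
      have h2 : Filter.Tendsto (Function.const ℍ c) atImInfty (nhds c) := tendsto_const_nhds
      exact tendsto_nhds_unique h2 hz
    rw [hc', this]
    rfl

theorem RR_mul_MFG (hle : 𝒢 ≤ 𝒮ℒ) (a b : ℤ) (P f : ℍ → ℂ) (hP : P ∈ RR a)
    (hf : f ∈ MFG 𝒢 b) : P * f ∈ MFG 𝒢 (a + b) := by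
  obtain ⟨P, rfl⟩ := hP
  obtain ⟨F, rfl⟩ := hf
  exact ⟨(restrictLevel hle P).mul F, rfl⟩

theorem RR_mul_CFG (hle : 𝒢 ≤ 𝒮ℒ) (a b : ℤ) (P f : ℍ → ℂ) (hP : P ∈ RR a)
    (hf : f ∈ CFG 𝒢 b) : P * f ∈ CFG 𝒢 (a + b) := by
  obtain ⟨P, rfl⟩ := hP
  obtain ⟨F, rfl⟩ := hf
  refine ⟨CuspForm.mcast (add_comm b a) (F.mulModularForm (restrictLevel hle P)), ?_⟩
  ext z
  change F z * P z = P z * F z
  ring

/-- Finite-dimensionality of `M_k(𝒢)` from the Sturm bound of the Prelude. -/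
theorem finite_modularForm {N : ℕ} (hG : GoodLevel 𝒢 N) (k : ℤ) :
    Module.Finite ℂ (ModularForm 𝒢 k) := by
  have hN : (0 : ℝ) < (N : ℝ) := by exact_mod_cast hG.pos
  have hper : (N : ℝ) ∈ 𝒢.strictPeriods := by
    have := hG.per 1
    simpa using this
  set B : ℕ := N * ((k * 𝒢.relIndex 𝒮ℒ).toNat / 12) with hB
  let L : ModularForm 𝒢 k →ₗ[ℂ] (Fin (B + 1) → ℂ) :=
    { toFun := fun f n => (qExpansion (N : ℝ) f).coeff n
      map_add' := fun f g => by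
        funext n
        have := ModularForm.qExpansion_add hN hper f g
        simp only [Pi.add_apply]
        rw [show (⇑(f + g) : ℍ → ℂ) = ⇑f + ⇑g from rfl, this, map_add]
      map_smul' := fun c f => by
        funext n
        have := ModularForm.qExpansion_smul hN hper c f
        simp only [Pi.smul_apply, RingHom.id_apply]
        rw [show (⇑(c • f) : ℍ → ℂ) = c • ⇑f from rfl, this, PowerSeries.coeff_smul] }
  refine Module.Finite.of_injective L ?_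
  rw [← LinearMap.ker_eq_bot, LinearMap.ker_eq_bot']
  intro f hf
  refine ModularForm.eq_zero_of_lt_order_qExpansion_of_isArithmetic f hG.pos hG.per ?_
  have hle : ((B + 1 : ℕ) : ℕ∞) ≤ (qExpansion (N : ℝ) f).order := by
    refine PowerSeries.nat_le_order _ _ fun i hi => ?_
    exact congrFun hf ⟨i, hi⟩
  refine lt_of_lt_of_le ?_ hle
  rw [← hB]
  exact_mod_cast Nat.lt_succ_self B

theorem finite_MFG {N : ℕ} (hG : GoodLevel 𝒢 N) (k : ℤ) : Module.Finite ℂ (MFG 𝒢 k) :=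
  haveI := finite_modularForm 𝒢 hG k
  Module.Finite.equiv (mfgEquiv 𝒢 k)

end

/-- (BASIC) elementary structural facts about `MFG 𝒢`, `CFG 𝒢`. -/
theorem goal_Basic : Goal_Basic := by
  intro 𝒢 _ _ N hG
  exact ⟨fun k hk => MFG_eq_bot_of_neg 𝒢 hk, fun k hk => MFG_eq_bot_of_odd 𝒢 hG.neg hk,
    finrank_MFG_zero 𝒢, fun k hk => CFG_eq_bot_of_nonpos 𝒢 hk, CFG_le_MFG 𝒢,
    RR_mul_MFG 𝒢 hG.le, RR_mul_CFG 𝒢 hG.le, finite_MFG 𝒢 hG, finrank_CFG 𝒢 2⟩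

end

end Fermat.Agent.S20.helper3006
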