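/-
S20 (seat helper1880): the critical-path leaf `helper260.Goal_SumWeights` in its exact on-main
shape, from `helper1880_SumK.sum_weights` and the on-main `helper3006.goal_Basic`.
-/
import Fermat.Agent.S20.helper1880_SumK
import Fermat.Agent.S20.helper260_Sandwich
import Fermat.Agent.S20.helper3006_Basic

set_option autoImplicit false

namespace Fermat.Agent.S20.helper1880

open Fermat.Agent.S20.helper560

/-- Hypothesis-passing form: `Goal_SumWeights` from `Goal_Basic`. -/
theorem goal_SumWeights_of_basic (hB : Goal_Basic) : helper260.Goal_SumWeights :=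
  fun 𝒢 _ _ N hG _ _ hF _ => sum_weights hG (hB 𝒢 N hG) hF

/-- **SUMK** in the exact shape of `helper260_Sandwich`: for every good level, a free basis of
`M_*(𝒢)` indexed by the cosets has `∑ κ j + 6 * cusps = 6 * mu`. -/
theorem goal_SumWeights : helper260.Goal_SumWeights :=
  goal_SumWeights_of_basic helper3006.goal_Basic

end Fermat.Agent.S20.helper1880
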