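/-
S20: `Goal_GoodLevel` of `helper560_Spec` — the group `Γ₀(N)` (inside `GL(2,ℝ)`) satisfies the
standing hypotheses `GoodLevel` with period `N`.  Author seat: helper1900.
-/
import Fermat.Agent.S20.helper560_Spec

set_option autoImplicit false

open UpperHalfPlane ModularForm CongruenceSubgroup
open scoped MatrixGroups Pointwise

namespace Fermat.Agent.S20.helper1900

open Fermat.Agent.S20.helper560

/-- `Γ₀(N) ≤ SL(2,ℤ)` inside `GL(2,ℝ)`. -/
theorem G0_le_SL (N : ℕ) : G0 N ≤ 𝒮ℒ := by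
  rintro _ ⟨γ, -, rfl⟩
  exact ⟨γ, rfl⟩

/-- `-1 ∈ Γ₀(N)` inside `GL(2,ℝ)`. -/
theorem neg_one_mem_G0 (N : ℕ) : (-1 : GL (Fin 2) ℝ) ∈ G0 N := by
  refine ⟨-1, ?_, ?_⟩
  · simp [Gamma0_mem]
  · ext i j
    simp

/-- `Γ(N) ≤ Γ₀(N)`. -/
theorem Gamma_le_Gamma0 (N : ℕ) : Gamma N ≤ Gamma0 N := by
  intro γ hγ
  rw [Gamma_mem] at hγ
  rw [Gamma0_mem]
  exact hγ.2.2.1

/-- The image of `T ^ m` in `GL(2,ℝ)` is the translation by `m`. -/
theorem mapGL_T_zpow (m : ℤ) :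
    Matrix.SpecialLinearGroup.mapGL ℝ (ModularGroup.T ^ m) =
      Matrix.GeneralLinearGroup.upperRightHom (m : ℝ) := by
  ext i j
  simp only [Matrix.SpecialLinearGroup.mapGL_coe_matrix, Matrix.SpecialLinearGroup.map_apply_coe,
    ModularGroup.coe_T_zpow]
  fin_cases i <;> fin_cases j <;> simp

/-- Every `SL(2,ℤ)`-conjugate of `Γ₀(N)` contains the translation by `N`. -/
theorem natCast_mem_strictPeriods_conj_G0 (N : ℕ) (γ : SL(2, ℤ)) :
    (N : ℝ) ∈ (ConjAct.toConjAct (Matrix.SpecialLinearGroup.mapGL ℝ γ) • G0 N).strictPeriods := by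
  rw [Subgroup.mem_strictPeriods_iff]
  have hT : ModularGroup.T ^ (N : ℤ) ∈ Gamma N := by
    simpa using ModularGroup_T_pow_mem_Gamma (N : ℤ) (N : ℤ) dvd_rfl
  have hconj : γ⁻¹ * ModularGroup.T ^ (N : ℤ) * γ ∈ Gamma N := by
    have := (Gamma_normal N).conj_mem _ hT γ⁻¹
    simpa using this
  have hmem : γ⁻¹ * ModularGroup.T ^ (N : ℤ) * γ ∈ Gamma0 N := Gamma_le_Gamma0 N hconj
  rw [Subgroup.mem_pointwise_smul_iff_inv_smul_mem]
  refine ⟨γ⁻¹ * ModularGroup.T ^ (N : ℤ) * γ, hmem, ?_⟩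
  rw [← map_inv, ConjAct.toConjAct_smul, map_mul, map_mul, map_inv, inv_inv, mapGL_T_zpow]
  simp

/-- `Goal_GoodLevel` of the S20 spec. -/
theorem goal_GoodLevel : Goal_GoodLevel := by
  intro N _
  exact
    { le := G0_le_SL N
      neg := neg_one_mem_G0 N
      pos := Nat.pos_of_ne_zero (NeZero.ne N)
      per := natCast_mem_strictPeriods_conj_G0 N }

end Fermat.Agent.S20.helper1900
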