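/-
S20 (dimension formula for `S_2(Γ₀(N))`), arithmetic core, helper1940.

Pure arithmetic on the weights `k_j` of a free homogeneous basis of `M_*(Γ)` over
`M_*(SL₂(ℤ))`.  No bound `k_j ≤ 10` is assumed: the count closes for arbitrary even weights.

Main results (namespace `Fermat.Agent.S20.helper1940`):
* `finrank_levelOne_nat`, `finrank_levelOne_sub_ten`, `finrank_levelOne_two_sub`:
  dimensions of level one spaces.
* `sum_finrank_sub_ten` : `∑_j dim M_{k_j - 10}(SL₂ℤ) = 1 + μ/12 - ν₂/4 - ν₃/3 - c/2`.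
* `card_weight_two_ge` : `#{j | k_j = 2} ≥ μ/12 - ν₂/4 - ν₃/3 + c/2`.
* `genus_of_bounds` : the final squeeze.
-/
import Mathlib

set_option autoImplicit false

open scoped MatrixGroups

namespace Fermat.Agent.S20.helper1940

/-- Dimension of the space of level one modular forms of even natural weight. -/
theorem finrank_levelOne_nat (k : ℕ) (hk : Even k) :
    Module.finrank ℂ (ModularForm 𝒮ℒ (k : ℤ)) =
      if k % 12 = 2 then k / 12 else k / 12 + 1 := by
  apply Module.finrank_eq_of_rank_eq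
  rw [ModularForm.dimension_level_one k hk]
  simp only [Nat.ModEq]
  norm_num

/-- Level one modular forms of negative weight: dimension zero. -/
theorem finrank_levelOne_neg {k : ℤ} (hk : k < 0) :
    Module.finrank ℂ (ModularForm 𝒮ℒ k) = 0 := by
  apply Module.finrank_eq_of_rank_eq
  rw [ModularForm.levelOne_neg_weight_rank_zero hk]
  simp

/-- The explicit dimension function `k ↦ dim M_{k-10}(SL₂(ℤ))` for natural `k`. -/
def dimSubTen (k : ℕ) : ℕ :=
  if k < 10 then 0 else if (k - 10) % 12 = 2 then (k - 10) / 12 else (k - 10) / 12 + 1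

theorem finrank_levelOne_sub_ten (k : ℕ) (hk : Even k) :
    Module.finrank ℂ (ModularForm 𝒮ℒ ((k : ℤ) - 10)) = dimSubTen k := by
  unfold dimSubTen
  split_ifs with h1 h2
  · exact finrank_levelOne_neg (by omega)
  · have hk' : Even (k - 10) := by
      obtain ⟨m, hm⟩ := hk
      exact ⟨m - 5, by omega⟩
    have := finrank_levelOne_nat (k - 10) hk'
    rw [if_pos h2] at this
    rw [show ((k : ℤ) - 10) = ((k - 10 : ℕ) : ℤ) by omega]
    exact this
  · have hk' : Even (k - 10) := by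
      obtain ⟨m, hm⟩ := hk
      exact ⟨m - 5, by omega⟩
    have := finrank_levelOne_nat (k - 10) hk'
    rw [if_neg h2] at this
    rw [show ((k : ℤ) - 10) = ((k - 10 : ℕ) : ℤ) by omega]
    exact this

/-- `dim M_{2-k}(SL₂(ℤ))` is `1` if `k = 2` and `0` otherwise (for even `k ≥ 0`). -/
theorem finrank_levelOne_two_sub (k : ℕ) (hk : Even k) :
    Module.finrank ℂ (ModularForm 𝒮ℒ (2 - (k : ℤ))) = if k = 2 then 1 else 0 := by
  split_ifs with h
  · subst h
    have := finrank_levelOne_nat 0 ⟨0, rfl⟩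
    simpa using this
  · obtain ⟨m, hm⟩ := hk
    rcases Nat.lt_or_ge k 2 with h2 | h2
    · have h0 : k = 0 := by omega
      subst h0
      have := finrank_levelOne_nat 2 ⟨1, rfl⟩
      simpa using this
    · exact finrank_levelOne_neg (by omega)

/-- `dim M_{-k}(SL₂(ℤ))` is `1` if `k = 0` and `0` otherwise. -/
theorem finrank_levelOne_neg_nat (k : ℕ) :
    Module.finrank ℂ (ModularForm 𝒮ℒ (-(k : ℤ))) = if k = 0 then 1 else 0 := by
  split_ifs with h
  · subst h
    have := finrank_levelOne_nat 0 ⟨0, rfl⟩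
    simpa using this
  · exact finrank_levelOne_neg (by omega)

/-- Pointwise identity behind the upper bound. -/
theorem dimSubTen_identity (k : ℕ) (hk : Even k) :
    12 * dimSubTen k + 12 * (if k % 6 = 0 then 1 else 0) + 8 * (if k % 6 = 2 then 1 else 0)
      + 4 * (if k % 6 = 4 then 1 else 0)
      = k + 6 * (if k % 4 = 2 then 1 else 0) + 12 * (if k = 0 then 1 else 0) := by
  obtain ⟨m, hm⟩ := hk
  unfold dimSubTen
  split_ifs <;> omega

/-- Pointwise inequality behind the lower bound. -/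
theorem weight_two_inequality (k : ℕ) (hk : Even k) :
    6 * (if k % 4 = 2 then 1 else 0) + 8 * (if k % 6 = 2 then 1 else 0)
      + 4 * (if k % 6 = 4 then 1 else 0)
      ≤ 12 * (if k = 2 then 1 else 0) + k := by
  obtain ⟨m, hm⟩ := hk
  split_ifs <;> omega

section Family

variable {J : Type*} [Fintype J] (k : J → ℕ)

/-- Summed form of `dimSubTen_identity`. -/
theorem sum_dimSubTen_identity (hk : ∀ j, Even (k j)) :
    12 * ∑ j, dimSubTen (k j) + 12 * (Finset.univ.filter fun j => k j % 6 = 0).card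
      + 8 * (Finset.univ.filter fun j => k j % 6 = 2).card
      + 4 * (Finset.univ.filter fun j => k j % 6 = 4).card
      = ∑ j, k j + 6 * (Finset.univ.filter fun j => k j % 4 = 2).card
        + 12 * (Finset.univ.filter fun j => k j = 0).card := by
  simp only [Finset.card_filter, Finset.mul_sum, ← Finset.sum_add_distrib]
  exact Finset.sum_congr rfl fun j _ => dimSubTen_identity (k j) (hk j)

/-- Summed form of `weight_two_inequality`. -/
theorem sum_weight_two_inequality (hk : ∀ j, Even (k j)) :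
    6 * (Finset.univ.filter fun j => k j % 4 = 2).card
      + 8 * (Finset.univ.filter fun j => k j % 6 = 2).card
      + 4 * (Finset.univ.filter fun j => k j % 6 = 4).card
      ≤ 12 * (Finset.univ.filter fun j => k j = 2).card + ∑ j, k j := by
  simp only [Finset.card_filter, Finset.mul_sum, ← Finset.sum_add_distrib]
  exact Finset.sum_le_sum fun j _ => weight_two_inequality (k j) (hk j)

/-- Even weights are `0` or `2` mod `4`. -/
theorem card_mod_four (hk : ∀ j, Even (k j)) :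
    (Finset.univ.filter fun j => 4 ∣ k j).card + (Finset.univ.filter fun j => k j % 4 = 2).card
      = Fintype.card J := by
  rw [← Finset.card_univ, Finset.card_eq_sum_ones Finset.univ]
  simp only [Finset.card_filter, ← Finset.sum_add_distrib]
  refine Finset.sum_congr rfl fun j _ => ?_
  obtain ⟨m, hm⟩ := hk j
  split_ifs <;> omega

/-- Even weights are `0`, `2` or `4` mod `6`. -/
theorem card_mod_six (hk : ∀ j, Even (k j)) :
    (Finset.univ.filter fun j => 6 ∣ k j).card + (Finset.univ.filter fun j => k j % 6 = 2).card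
      + (Finset.univ.filter fun j => k j % 6 = 4).card = Fintype.card J := by
  rw [← Finset.card_univ, Finset.card_eq_sum_ones Finset.univ]
  simp only [Finset.card_filter, ← Finset.sum_add_distrib]
  refine Finset.sum_congr rfl fun j _ => ?_
  obtain ⟨m, hm⟩ := hk j
  split_ifs <;> omega

theorem filter_dvd_six_eq :
    (Finset.univ.filter fun j => 6 ∣ k j) = (Finset.univ.filter fun j => k j % 6 = 0) := by
  ext j
  simp only [Finset.mem_filter, Finset.mem_univ, true_and]
  omega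

/-- **Upper count.** For a family of even weights `k_j` (no bound assumed) satisfying the
elliptic-point counts, the cusp count and `#{k_j = 0} = 1`:
`∑_j dim M_{k_j-10}(SL₂ℤ) = 1 + μ/12 - ν₂/4 - ν₃/3 - c/2`. -/
theorem sum_finrank_sub_ten (hk : ∀ j, Even (k j)) (μ ν2 ν3 c : ℕ)
    (hμ : Fintype.card J = μ)
    (h0 : (Finset.univ.filter fun j => k j = 0).card = 1)
    (hS : 2 * (Finset.univ.filter fun j => 4 ∣ k j).card = μ + ν2)
    (hR0 : 3 * (Finset.univ.filter fun j => 6 ∣ k j).card = μ + 2 * ν3)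
    (hR2 : 3 * (Finset.univ.filter fun j => k j % 6 = 2).card + ν3 = μ)
    (hK : ∑ j, k j + 6 * c = 6 * μ) :
    ((∑ j, Module.finrank ℂ (ModularForm 𝒮ℒ ((k j : ℤ) - 10)) : ℕ) : ℚ)
      = 1 + (μ : ℚ) / 12 - (ν2 : ℚ) / 4 - (ν3 : ℚ) / 3 - (c : ℚ) / 2 := by
  have e1 : ∑ j, Module.finrank ℂ (ModularForm 𝒮ℒ ((k j : ℤ) - 10)) = ∑ j, dimSubTen (k j) :=
    Finset.sum_congr rfl fun j _ => finrank_levelOne_sub_ten (k j) (hk j)
  rw [e1]
  have key := sum_dimSubTen_identity k hk
  have c4 := card_mod_four k hk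
  have c6 := card_mod_six k hk
  rw [← filter_dvd_six_eq] at key
  rw [hμ] at c4 c6
  have key' := congrArg (Nat.cast : ℕ → ℚ) key
  have c4' := congrArg (Nat.cast : ℕ → ℚ) c4
  have c6' := congrArg (Nat.cast : ℕ → ℚ) c6
  have h0' := congrArg (Nat.cast : ℕ → ℚ) h0
  have hS' := congrArg (Nat.cast : ℕ → ℚ) hS
  have hR0' := congrArg (Nat.cast : ℕ → ℚ) hR0
  have hR2' := congrArg (Nat.cast : ℕ → ℚ) hR2
  have hK' := congrArg (Nat.cast : ℕ → ℚ) hK
  push_cast at key' c4' c6' h0' hS' hR0' hR2' hK' ⊢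
  linarith

/-- **Lower count.** Under the same hypotheses (without `#{k_j = 0} = 1`):
`#{j | k_j = 2} ≥ μ/12 - ν₂/4 - ν₃/3 + c/2`. -/
theorem card_weight_two_ge (hk : ∀ j, Even (k j)) (μ ν2 ν3 c : ℕ)
    (hμ : Fintype.card J = μ)
    (hS : 2 * (Finset.univ.filter fun j => 4 ∣ k j).card = μ + ν2)
    (hR0 : 3 * (Finset.univ.filter fun j => 6 ∣ k j).card = μ + 2 * ν3)
    (hR2 : 3 * (Finset.univ.filter fun j => k j % 6 = 2).card + ν3 = μ)
    (hK : ∑ j, k j + 6 * c = 6 * μ) :
    (μ : ℚ) / 12 - (ν2 : ℚ) / 4 - (ν3 : ℚ) / 3 + (c : ℚ) / 2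
      ≤ ((Finset.univ.filter fun j => k j = 2).card : ℚ) := by
  have key := sum_weight_two_inequality k hk
  have c4 := card_mod_four k hk
  have c6 := card_mod_six k hk
  rw [hμ] at c4 c6
  have key' : ((6 * (Finset.univ.filter fun j => k j % 4 = 2).card
      + 8 * (Finset.univ.filter fun j => k j % 6 = 2).card
      + 4 * (Finset.univ.filter fun j => k j % 6 = 4).card : ℕ) : ℚ)
      ≤ ((12 * (Finset.univ.filter fun j => k j = 2).card + ∑ j, k j : ℕ) : ℚ) := by
    exact_mod_cast key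
  have c4' := congrArg (Nat.cast : ℕ → ℚ) c4
  have c6' := congrArg (Nat.cast : ℕ → ℚ) c6
  have hS' := congrArg (Nat.cast : ℕ → ℚ) hS
  have hR0' := congrArg (Nat.cast : ℕ → ℚ) hR0
  have hR2' := congrArg (Nat.cast : ℕ → ℚ) hR2
  have hK' := congrArg (Nat.cast : ℕ → ℚ) hK
  push_cast at key' c4' c6' hS' hR0' hR2' hK' ⊢
  linarith

theorem sum_finrank_two_sub (hk : ∀ j, Even (k j)) :
    ∑ j, Module.finrank ℂ (ModularForm 𝒮ℒ (2 - (k j : ℤ)))
      = (Finset.univ.filter fun j => k j = 2).card := by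
  rw [Finset.card_filter]
  exact Finset.sum_congr rfl fun j _ => finrank_levelOne_two_sub (k j) (hk j)

theorem sum_finrank_zero_sub :
    ∑ j, Module.finrank ℂ (ModularForm 𝒮ℒ (0 - (k j : ℤ)))
      = (Finset.univ.filter fun j => k j = 0).card := by
  rw [Finset.card_filter]
  refine Finset.sum_congr rfl fun j _ => ?_
  rw [zero_sub]
  exact finrank_levelOne_neg_nat (k j)

/-- **Final squeeze** (hypothesis-passing form of the arithmetic step of S20).

* `k j` : the (even) weights of a free homogeneous basis of `M_*(Γ)` over `M_*(SL₂ℤ)`;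
* `M0 = dim M_0(Γ) = 1`, `M2 = dim M_2(Γ)`, both given by the freeness formula
  `dim M_w(Γ) = ∑_j dim M_{w - k_j}(SL₂ℤ)`;
* `hU` : the trace injection `S_2(Γ) ↪ ⊕_j S_{k_j+2}(SL₂ℤ) ≃ ⊕_j M_{k_j-10}(SL₂ℤ)`;
* `hLo` : the constant term map `M_2(Γ)/S_2(Γ) ↪ {T-invariant, sum zero}`;
* `hS`, `hR0`, `hR2` : eigenvalue counts at the elliptic points `i`, `ρ`;
* `hK` : `∑ k_j = 6 (μ - c)` from the cusp.

Conclusion: `dim S_2(Γ) = 1 + μ/12 - ν₂/4 - ν₃/3 - c/2`. -/
theorem genus_of_bounds (hk : ∀ j, Even (k j)) (μ ν2 ν3 c S2 M2 : ℕ)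
    (hμ : Fintype.card J = μ)
    (hM0 : ∑ j, Module.finrank ℂ (ModularForm 𝒮ℒ (0 - (k j : ℤ))) = 1)
    (hM2 : M2 = ∑ j, Module.finrank ℂ (ModularForm 𝒮ℒ (2 - (k j : ℤ))))
    (hU : S2 ≤ ∑ j, Module.finrank ℂ (ModularForm 𝒮ℒ ((k j : ℤ) - 10)))
    (hLo : M2 + 1 ≤ S2 + c)
    (hS : 2 * (Finset.univ.filter fun j => 4 ∣ k j).card = μ + ν2)
    (hR0 : 3 * (Finset.univ.filter fun j => 6 ∣ k j).card = μ + 2 * ν3)
    (hR2 : 3 * (Finset.univ.filter fun j => k j % 6 = 2).card + ν3 = μ)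
    (hK : ∑ j, k j + 6 * c = 6 * μ) :
    (S2 : ℚ) = 1 + (μ : ℚ) / 12 - (ν2 : ℚ) / 4 - (ν3 : ℚ) / 3 - (c : ℚ) / 2 := by
  have h0 : (Finset.univ.filter fun j => k j = 0).card = 1 := by
    rw [← sum_finrank_zero_sub k]; exact hM0
  have hup := sum_finrank_sub_ten k hk μ ν2 ν3 c hμ h0 hS hR0 hR2 hK
  have hlo := card_weight_two_ge k hk μ ν2 ν3 c hμ hS hR0 hR2 hK
  rw [sum_finrank_two_sub k hk] at hM2
  have hU' : (S2 : ℚ) ≤ ((∑ j, Module.finrank ℂ (ModularForm 𝒮ℒ ((k j : ℤ) - 10)) : ℕ) : ℚ) := by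
    exact_mod_cast hU
  have hLo' : ((M2 + 1 : ℕ) : ℚ) ≤ ((S2 + c : ℕ) : ℚ) := by exact_mod_cast hLo
  have hM2' : (M2 : ℚ) = ((Finset.univ.filter fun j => k j = 2).card : ℚ) := by
    exact_mod_cast hM2
  push_cast at hLo'
  linarith

end Family

end Fermat.Agent.S20.helper1940
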