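/-
S20, step (U) of the sandwich route (helper1940):
  finrank S_w(𝒢) ≤ ∑_j finrank M_{w + κ_j - 12}(SL(2,ℤ))
for any family `F j ∈ M_{κ j}(𝒢)` whose matrix of translates `(F j)_q (z)` has trivial left
kernel at every point `z` of the upper half plane.  The map is
  h ↦ (Tr(h · F_j) / Δ)_j.
Mathlib only.
-/
import Mathlib

set_option autoImplicit false

namespace Fermat.Agent.S20.helper1940

open UpperHalfPlane ModularForm Module SlashInvariantForm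
open scoped MatrixGroups ModularForm

noncomputable section

variable {𝒢 : Subgroup (GL (Fin 2) ℝ)}

/-- Translates of a product are products of translates. -/
theorem quotientFunc_mulModularForm [𝒢.HasDetPlusMinusOne] {k₁ k₂ : ℤ} (h : CuspForm 𝒢 k₁)
    (F : ModularForm 𝒢 k₂) (q : 𝒮ℒ ⧸ 𝒢.subgroupOf 𝒮ℒ) :
    quotientFunc (h.mulModularForm F) q = quotientFunc h q * quotientFunc F q := by
  induction q using Quotient.inductionOn with
  | h r =>
    obtain ⟨γ, hγ⟩ := r.2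
    simp only [quotientFunc_mk]
    rw [← hγ, ← map_inv]
    exact mul_slash_SL2 k₁ k₂ γ⁻¹ h F

/-- Translates are additive. -/
theorem quotientFunc_add_cusp {k : ℤ} (f g : CuspForm 𝒢 k) (q : 𝒮ℒ ⧸ 𝒢.subgroupOf 𝒮ℒ) :
    quotientFunc (f + g) q = quotientFunc f q + quotientFunc g q := by
  induction q using Quotient.inductionOn with
  | h r =>
    simp only [quotientFunc_mk]
    exact SlashAction.add_slash _ _ _ _

/-- Translates commute with complex scalars (the translating elements have determinant one). -/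
theorem quotientFunc_smul_cusp [𝒢.HasDetOne] {k : ℤ} (c : ℂ) (f : CuspForm 𝒢 k)
    (q : 𝒮ℒ ⧸ 𝒢.subgroupOf 𝒮ℒ) :
    quotientFunc (c • f) q = c • quotientFunc f q := by
  induction q using Quotient.inductionOn with
  | h r =>
    obtain ⟨γ, hγ⟩ := r.2
    simp only [quotientFunc_mk]
    rw [← hγ, ← map_inv]
    exact SL_smul_slash k γ⁻¹ f c

/-- The value of a translate at the trivial coset. -/
theorem quotientFunc_one_cusp {k : ℤ} (f : CuspForm 𝒢 k) :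
    quotientFunc f ((1 : 𝒮ℒ) : 𝒮ℒ ⧸ 𝒢.subgroupOf 𝒮ℒ) = f := by
  change quotientFunc f ⟦(1 : 𝒮ℒ)⟧ = f
  rw [quotientFunc_mk]
  simp

/-- Pointwise formula for the trace of a product. -/
theorem trace_mulModularForm_apply [𝒢.IsArithmetic] [Fintype (𝒮ℒ ⧸ 𝒢.subgroupOf 𝒮ℒ)]
    {k₁ k₂ : ℤ} (h : CuspForm 𝒢 k₁) (F : ModularForm 𝒢 k₂) (z : ℍ) :
    CuspForm.trace 𝒮ℒ (h.mulModularForm F) z
      = ∑ q : 𝒮ℒ ⧸ 𝒢.subgroupOf 𝒮ℒ, quotientFunc h q z * quotientFunc F q z := by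
  rw [show (CuspForm.trace 𝒮ℒ (h.mulModularForm F)) z
      = (⇑(CuspForm.trace 𝒮ℒ (h.mulModularForm F))) z from rfl, CuspForm.coe_trace]
  rw [Finset.sum_apply]
  refine Finset.sum_congr ?_ fun q _ => ?_
  · ext; simp
  · rw [quotientFunc_mulModularForm]; rfl

/-- `h ↦ Tr(h · F)`, as a linear map `S_w(𝒢) → S_{w+k}(SL(2,ℤ))`. -/
def traceMul [𝒢.IsArithmetic] [𝒢.HasDetOne] {k : ℤ} (w : ℤ) (F : ModularForm 𝒢 k) :
    CuspForm 𝒢 w →ₗ[ℂ] CuspForm 𝒮ℒ (w + k) where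
  toFun h := CuspForm.trace 𝒮ℒ (h.mulModularForm F)
  map_add' a b := by
    let _ := Fintype.ofFinite (𝒮ℒ ⧸ 𝒢.subgroupOf 𝒮ℒ)
    ext z
    change CuspForm.trace 𝒮ℒ ((a + b).mulModularForm F) z
      = CuspForm.trace 𝒮ℒ (a.mulModularForm F) z + CuspForm.trace 𝒮ℒ (b.mulModularForm F) z
    rw [trace_mulModularForm_apply, trace_mulModularForm_apply, trace_mulModularForm_apply,
      ← Finset.sum_add_distrib]
    refine Finset.sum_congr rfl fun q _ => ?_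
    rw [quotientFunc_add_cusp, Pi.add_apply, add_mul]
  map_smul' c a := by
    let _ := Fintype.ofFinite (𝒮ℒ ⧸ 𝒢.subgroupOf 𝒮ℒ)
    ext z
    change CuspForm.trace 𝒮ℒ ((c • a).mulModularForm F) z
      = c * CuspForm.trace 𝒮ℒ (a.mulModularForm F) z
    rw [trace_mulModularForm_apply, trace_mulModularForm_apply, Finset.mul_sum]
    refine Finset.sum_congr rfl fun q _ => ?_
    rw [quotientFunc_smul_cusp, Pi.smul_apply, smul_eq_mul, mul_assoc]

theorem traceMul_apply [𝒢.IsArithmetic] [𝒢.HasDetOne] [Fintype (𝒮ℒ ⧸ 𝒢.subgroupOf 𝒮ℒ)]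
    {k : ℤ} (w : ℤ) (F : ModularForm 𝒢 k) (h : CuspForm 𝒢 w) (z : ℍ) :
    traceMul w F h z = ∑ q : 𝒮ℒ ⧸ 𝒢.subgroupOf 𝒮ℒ, quotientFunc h q z * quotientFunc F q z :=
  trace_mulModularForm_apply h F z

/-- **(U)**, general weight: if the matrix of translates of the family `F` has trivial left
kernel at every point of `ℍ`, then `S_w(𝒢)` embeds into `∏_j M_{w + κ_j - 12}(SL(2,ℤ))`. -/
theorem finrank_cuspForm_le_sum [𝒢.IsArithmetic] [𝒢.HasDetOne]
    [Fintype (𝒮ℒ ⧸ 𝒢.subgroupOf 𝒮ℒ)] {J : Type*} [Fintype J] (κ : J → ℤ)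
    (F : ∀ j, ModularForm 𝒢 (κ j))
    (hrow : ∀ (z : ℍ) (v : 𝒮ℒ ⧸ 𝒢.subgroupOf 𝒮ℒ → ℂ),
      (∀ j, ∑ q, v q * quotientFunc (F j) q z = 0) → v = 0) (w : ℤ) :
    finrank ℂ (CuspForm 𝒢 w) ≤ ∑ j, finrank ℂ (ModularForm 𝒮ℒ (w + κ j - 12)) := by
  classical
  let Ψ : CuspForm 𝒢 w →ₗ[ℂ] (∀ j, ModularForm 𝒮ℒ (w + κ j - 12)) :=
    LinearMap.pi fun j =>
      (CuspForm.discriminantEquiv (k := w + κ j)).toLinearMap ∘ₗ traceMul w (F j)
  have hinj : Function.Injective Ψ := by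
    rw [← LinearMap.ker_eq_bot, LinearMap.ker_eq_bot']
    intro h hh
    have h0 : ∀ j, traceMul w (F j) h = 0 := by
      intro j
      have h1 : (CuspForm.discriminantEquiv (k := w + κ j)) (traceMul w (F j) h) = 0 :=
        congrFun hh j
      exact (LinearEquiv.map_eq_zero_iff _).mp h1
    ext z
    have hv := hrow z (fun q => quotientFunc h q z) (fun j => by
      rw [← traceMul_apply, h0 j]; rfl)
    have h1 := congrFun hv ((1 : 𝒮ℒ) : 𝒮ℒ ⧸ 𝒢.subgroupOf 𝒮ℒ)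
    rw [quotientFunc_one_cusp] at h1
    exact h1
  calc finrank ℂ (CuspForm 𝒢 w) ≤ finrank ℂ (∀ j, ModularForm 𝒮ℒ (w + κ j - 12)) :=
        LinearMap.finrank_le_finrank_of_injective hinj
    _ = ∑ j, finrank ℂ (ModularForm 𝒮ℒ (w + κ j - 12)) := Module.finrank_pi_fintype ℂ

/-- **(U)** at weight two, for natural-number generator weights:
`dim S_2(𝒢) ≤ ∑_j dim M_{κ_j - 10}(SL(2,ℤ))`. -/
theorem finrank_cuspForm_two_le [𝒢.IsArithmetic] [𝒢.HasDetOne]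
    [Fintype (𝒮ℒ ⧸ 𝒢.subgroupOf 𝒮ℒ)] {J : Type*} [Fintype J] (κ : J → ℕ)
    (F : ∀ j, ModularForm 𝒢 (κ j))
    (hrow : ∀ (z : ℍ) (v : 𝒮ℒ ⧸ 𝒢.subgroupOf 𝒮ℒ → ℂ),
      (∀ j, ∑ q, v q * quotientFunc (F j) q z = 0) → v = 0) :
    finrank ℂ (CuspForm 𝒢 2) ≤ ∑ j, finrank ℂ (ModularForm 𝒮ℒ ((κ j : ℤ) - 10)) := by
  have h := finrank_cuspForm_le_sum (fun j => (κ j : ℤ)) F hrow 2
  refine h.trans (le_of_eq (Finset.sum_congr rfl fun j _ => ?_))
  rw [show (2 : ℤ) + κ j - 12 = κ j - 10 by ring]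

end

end Fermat.Agent.S20.helper1940
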