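/-
S20, sandwich route (helper1940): `Goal_Upper` of `helper260_Sandwich` in its exact shape,
from the trace injection `helper1940_Upper.finrank_cuspForm_le_sum`.
-/
import Fermat.Agent.S20.helper260_Sandwich
import Fermat.Agent.S20.helper1940_Upper

set_option autoImplicit false

open UpperHalfPlane ModularForm
open scoped MatrixGroups Manifold Pointwise

namespace Fermat.Agent.S20.helper1940

open Fermat.Agent.S20.helper560 Fermat.Agent.S20.helper260

noncomputable section

/-- bundled cusp forms versus the function-level submodule -/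
theorem finrank_CFG_eq (𝒢 : Subgroup (GL (Fin 2) ℝ)) [𝒢.HasDetOne] (k : ℤ) :
    Module.finrank ℂ (CFG 𝒢 k) = Module.finrank ℂ (CuspForm 𝒢 k) := by
  symm
  refine LinearEquiv.finrank_eq (LinearEquiv.ofBijective
    ({ toFun := fun F => (⟨⇑F, F, rfl⟩ : CFG 𝒢 k)
       map_add' := fun _ _ => rfl
       map_smul' := fun _ _ => rfl } : CuspForm 𝒢 k →ₗ[ℂ] CFG 𝒢 k)
    ⟨fun _ _ h => DFunLike.coe_injective (congrArg Subtype.val h),
     fun ⟨_, F, hF⟩ => ⟨F, Subtype.ext hF⟩⟩)

/-- bundled modular forms versus the function-level submodule -/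
theorem finrank_MFG_eq (𝒢 : Subgroup (GL (Fin 2) ℝ)) [𝒢.HasDetOne] (k : ℤ) :
    Module.finrank ℂ (MFG 𝒢 k) = Module.finrank ℂ (ModularForm 𝒢 k) := by
  symm
  refine LinearEquiv.finrank_eq (LinearEquiv.ofBijective
    ({ toFun := fun F => (⟨⇑F, F, rfl⟩ : MFG 𝒢 k)
       map_add' := fun _ _ => rfl
       map_smul' := fun _ _ => rfl } : ModularForm 𝒢 k →ₗ[ℂ] MFG 𝒢 k)
    ⟨fun _ _ h => DFunLike.coe_injective (congrArg Subtype.val h),
     fun ⟨_, F, hF⟩ => ⟨F, Subtype.ext hF⟩⟩)

/-- `Stmt_Upper` holds for every arithmetic subgroup with determinant one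
(no `GoodLevel` hypothesis is needed). -/
theorem stmt_Upper (𝒢 : Subgroup (GL (Fin 2) ℝ)) [𝒢.IsArithmetic] [𝒢.HasDetOne] :
    Stmt_Upper 𝒢 := by
  classical
  intro κ F hF hdet
  choose F' hF' using hF
  have hrow : ∀ (z : ℍ) (v : Q 𝒢 → ℂ),
      (∀ j, ∑ q, v q * SlashInvariantForm.quotientFunc (F' j) q z = 0) → v = 0 := by
    intro z v hv
    have hd : (transMatrix 𝒢 κ F z).det ≠ 0 := by
      have := hdet z
      unfold fundDet at this
      convert this
    refine Matrix.eq_zero_of_vecMul_eq_zero hd ?_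
    ext j
    rw [Matrix.vecMul, dotProduct, Pi.zero_apply, ← hv j]
    refine Finset.sum_congr rfl fun q _ => ?_
    rw [transMatrix, Matrix.of_apply, ← hF' j, tr_eq_quotientFunc]
  have h := finrank_cuspForm_le_sum κ F' hrow 2
  rw [finrank_CFG_eq]
  refine h.trans (le_of_eq (Finset.sum_congr rfl fun j _ => ?_))
  rw [finrank_MFG_eq, show (2 : ℤ) + κ j - 12 = κ j - 10 by ring]

/-- **`Goal_Upper`** of the sandwich assembly `helper260.goal_S20_of_sandwich`. -/
theorem goal_Upper : Goal_Upper := fun 𝒢 _ _ _ _ => stmt_Upper 𝒢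

end

end Fermat.Agent.S20.helper1940
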