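/-
S20 (seat helper1982): BRIDGE between the coset space `Q (Γ.map (mapGL ℝ)) = 𝒮ℒ ⧸ _` used by
`helper560_Spec` (and Mathlib's `quotientFunc`) and the plain coset space `SL(2,ℤ) ⧸ Γ`,
equivariant for the left action of `SL(2,ℤ)`.  Consequences: `mu`, `e2`, `e3`, `cusps` of the
Spec computed on `SL(2,ℤ) ⧸ Γ`.
-/
import Fermat.Agent.S20.helper560_Spec

set_option autoImplicit false

open scoped MatrixGroups Pointwise

namespace Fermat.Agent.S20.helper1982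

open Fermat.Agent.S20.helper560 CongruenceSubgroup Matrix Matrix.SpecialLinearGroup

noncomputable section

theorem coe_sl (γ : SL(2, ℤ)) : ((sl γ : 𝒮ℒ) : GL (Fin 2) ℝ) = mapGL ℝ γ := rfl

theorem sl_mul (a b : SL(2, ℤ)) : sl (a * b) = sl a * sl b :=
  Subtype.ext (map_mul (mapGL ℝ) a b)

theorem sl_one : sl 1 = 1 := Subtype.ext (map_one (mapGL ℝ))

theorem sl_inv (a : SL(2, ℤ)) : sl a⁻¹ = (sl a)⁻¹ :=
  Subtype.ext (map_inv (mapGL ℝ) a)

theorem sl_injective : Function.Injective sl := fun _ _ h =>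
  mapGL_injective (congrArg Subtype.val h)

theorem sl_surjective : Function.Surjective sl := by
  rintro ⟨_, γ, rfl⟩
  exact ⟨γ, rfl⟩

theorem sl_zpow (a : SL(2, ℤ)) (n : ℤ) : sl (a ^ n) = sl a ^ n :=
  Subtype.ext (by rw [coe_sl, map_zpow]; rfl)

/-- `SL(2,ℤ) ≃ 𝒮ℒ`. -/
def slEquiv : SL(2, ℤ) ≃ 𝒮ℒ := Equiv.ofBijective sl ⟨sl_injective, sl_surjective⟩

@[simp] theorem slEquiv_apply (γ : SL(2, ℤ)) : slEquiv γ = sl γ := rfl

theorem sl_mem_subgroupOf_iff (Γ : Subgroup SL(2, ℤ)) (γ : SL(2, ℤ)) :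
    sl γ ∈ (Γ.map (mapGL ℝ)).subgroupOf 𝒮ℒ ↔ γ ∈ Γ := by
  rw [Subgroup.mem_subgroupOf, coe_sl]
  exact ⟨fun ⟨δ, hδ, h⟩ => mapGL_injective h ▸ hδ, fun h => ⟨γ, h, rfl⟩⟩

/-- The bridge: `SL(2,ℤ) ⧸ Γ ≃ Q (image of Γ in GL(2,ℝ))`. -/
def cosetEquiv (Γ : Subgroup SL(2, ℤ)) : SL(2, ℤ) ⧸ Γ ≃ Q (Γ.map (mapGL ℝ)) :=
  Quotient.congr slEquiv (fun a b => by
    rw [QuotientGroup.leftRel_apply, QuotientGroup.leftRel_apply, slEquiv_apply, slEquiv_apply,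
      ← sl_inv, ← sl_mul, sl_mem_subgroupOf_iff])

theorem cosetEquiv_mk (Γ : Subgroup SL(2, ℤ)) (g : SL(2, ℤ)) :
    cosetEquiv Γ (g : SL(2, ℤ) ⧸ Γ) = ((sl g : 𝒮ℒ) : Q (Γ.map (mapGL ℝ))) := rfl

/-- The bridge is equivariant for the left actions of `SL(2,ℤ)`. -/
theorem cosetEquiv_smul (Γ : Subgroup SL(2, ℤ)) (γ : SL(2, ℤ)) (q : SL(2, ℤ) ⧸ Γ) :
    cosetEquiv Γ (γ • q) = sl γ • cosetEquiv Γ q := by
  induction q using QuotientGroup.induction_on with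
  | H g =>
    rw [MulAction.Quotient.smul_mk, cosetEquiv_mk, cosetEquiv_mk, MulAction.Quotient.smul_mk,
      smul_eq_mul, smul_eq_mul, sl_mul]

/-- The index of the Spec is the usual index. -/
theorem mu_map (Γ : Subgroup SL(2, ℤ)) : mu (Γ.map (mapGL ℝ)) = Γ.index := by
  rw [mu, Subgroup.index, Nat.card_congr (cosetEquiv Γ)]

/-- The fixed points of `sl γ` on `Q` correspond to the fixed points of `γ` on `SL(2,ℤ) ⧸ Γ`. -/
def fixEquiv (Γ : Subgroup SL(2, ℤ)) (γ : SL(2, ℤ)) :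
    {q : SL(2, ℤ) ⧸ Γ // γ • q = q} ≃ {q : Q (Γ.map (mapGL ℝ)) // sl γ • q = q} :=
  (cosetEquiv Γ).subtypeEquiv (fun q => by
    rw [← cosetEquiv_smul, (cosetEquiv Γ).apply_eq_iff_eq])

theorem e2_map (Γ : Subgroup SL(2, ℤ)) :
    e2 (Γ.map (mapGL ℝ)) = Nat.card {q : SL(2, ℤ) ⧸ Γ // ModularGroup.S • q = q} := by
  rw [e2, Nat.card_congr (fixEquiv Γ ModularGroup.S)]

theorem e3_map (Γ : Subgroup SL(2, ℤ)) :
    e3 (Γ.map (mapGL ℝ)) =
      Nat.card {q : SL(2, ℤ) ⧸ Γ // (ModularGroup.S * ModularGroup.T) • q = q} := by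
  rw [e3, Nat.card_congr (fixEquiv Γ (ModularGroup.S * ModularGroup.T))]

/-- The `T`-orbits on `Q` correspond to the `T`-orbits on `SL(2,ℤ) ⧸ Γ`. -/
def orbitEquiv (Γ : Subgroup SL(2, ℤ)) :
    MulAction.orbitRel.Quotient (Subgroup.zpowers ModularGroup.T) (SL(2, ℤ) ⧸ Γ) ≃
      MulAction.orbitRel.Quotient (Subgroup.zpowers (sl ModularGroup.T)) (Q (Γ.map (mapGL ℝ))) :=
  Quotient.congr (cosetEquiv Γ) (fun a b => by
    rw [MulAction.orbitRel_apply, MulAction.orbitRel_apply, MulAction.mem_orbit_iff,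
      MulAction.mem_orbit_iff]
    constructor
    · rintro ⟨⟨g, hg⟩, rfl⟩
      obtain ⟨n, rfl⟩ := Subgroup.mem_zpowers_iff.mp hg
      refine ⟨⟨sl ModularGroup.T ^ n, Subgroup.zpow_mem_zpowers _ n⟩, ?_⟩
      change sl ModularGroup.T ^ n • cosetEquiv Γ b = cosetEquiv Γ (ModularGroup.T ^ n • b)
      rw [cosetEquiv_smul, sl_zpow]
    · rintro ⟨⟨g, hg⟩, h⟩
      obtain ⟨n, rfl⟩ := Subgroup.mem_zpowers_iff.mp hg
      refine ⟨⟨ModularGroup.T ^ n, Subgroup.zpow_mem_zpowers _ n⟩, ?_⟩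
      change sl ModularGroup.T ^ n • cosetEquiv Γ b = cosetEquiv Γ a at h
      change ModularGroup.T ^ n • b = a
      apply (cosetEquiv Γ).injective
      rw [cosetEquiv_smul, sl_zpow, h])

theorem cusps_map (Γ : Subgroup SL(2, ℤ)) :
    cusps (Γ.map (mapGL ℝ)) =
      Nat.card (MulAction.orbitRel.Quotient (Subgroup.zpowers ModularGroup.T) (SL(2, ℤ) ⧸ Γ)) := by
  rw [cusps, Nat.card_congr (orbitEquiv Γ)]

/-- Bridge for `Goal_Index`. -/
theorem goal_Index_of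
    (h : ∀ (N : ℕ) [NeZero N], (Gamma0 N).index = ModularCurve.dedekindPsi N) : Goal_Index := by
  intro N _
  rw [G0, mu_map, h N]

/-- Bridge for `Goal_Cusps`. -/
theorem goal_Cusps_of
    (h : ∀ (N : ℕ) [NeZero N],
      Nat.card (MulAction.orbitRel.Quotient (Subgroup.zpowers ModularGroup.T)
        (SL(2, ℤ) ⧸ Gamma0 N)) = ModularCurve.cuspCount N) : Goal_Cusps := by
  intro N _
  rw [G0, cusps_map, h N]

/-- Bridge for `Goal_E2`. -/
theorem goal_E2_of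
    (h : ∀ (N : ℕ) [NeZero N],
      Nat.card {q : SL(2, ℤ) ⧸ Gamma0 N // ModularGroup.S • q = q} = ModularCurve.nuTwo N) :
    Goal_E2 := by
  intro N _
  rw [G0, e2_map, h N]

/-- Bridge for `Goal_E3`. -/
theorem goal_E3_of
    (h : ∀ (N : ℕ) [NeZero N],
      Nat.card {q : SL(2, ℤ) ⧸ Gamma0 N // (ModularGroup.S * ModularGroup.T) • q = q} =
        ModularCurve.nuThree N) :
    Goal_E3 := by
  intro N _
  rw [G0, e3_map, h N]

end

end Fermat.Agent.S20.helper1982
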