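/-
S20 (seat helper1982): `Goal_E2` and `Goal_E3` of `helper560_Spec`.
The cosets of `SL(2,ℤ) ⧸ Γ₀(N)` fixed by `S` (resp. `S * T`) are in bijection with the roots of
`x ^ 2 + 1` (resp. `x ^ 2 + x + 1`) in `ZMod N`, via `x ↦ [[x, -1], [1, 0]] Γ₀(N)`.
-/
import Fermat.Agent.S20.helper1982_Bridge

set_option autoImplicit false

open scoped MatrixGroups Pointwise

namespace Fermat.Agent.S20.helper1982

open Fermat.Agent.S20.helper560 CongruenceSubgroup Matrix Matrix.SpecialLinearGroup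

/-- Equality of two cosets of `Γ₀(N)` in terms of the first columns. -/
theorem coset_eq_iff (N : ℕ) (g g' : SL(2, ℤ)) :
    (g : SL(2, ℤ) ⧸ Gamma0 N) = g' ↔
      ((g 0 0 : ℤ) : ZMod N) * (g' 1 0 : ℤ) - (g 1 0 : ℤ) * (g' 0 0 : ℤ) = 0 := by
  rw [QuotientGroup.eq, Gamma0_mem]
  have h : (g⁻¹ * g') 1 0 = g 0 0 * g' 1 0 - g 1 0 * g' 0 0 := by
    rw [SL2_inv_expl g]
    simp [Matrix.mul_apply, Fin.sum_univ_two]
    ring
  rw [h]
  push_cast
  rfl

/-- The representative `[[x, -1], [1, 0]]`. -/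
def rep (x : ℤ) : SL(2, ℤ) := ⟨!![x, -1; 1, 0], by simp [Matrix.det_fin_two_of]⟩

@[simp] theorem rep_zero_zero (x : ℤ) : rep x 0 0 = x := rfl
@[simp] theorem rep_one_zero (x : ℤ) : rep x 1 0 = 1 := rfl

theorem det_eq (g : SL(2, ℤ)) : g 0 0 * g 1 1 - g 0 1 * g 1 0 = 1 := by
  have := g.2
  rwa [Matrix.det_fin_two] at this

/-- Core bijection: if the fixed cosets of `σ` are those with
`a ^ 2 + ε * a * c + c ^ 2 = 0` in `ZMod N` (first column `(a, c)`), then they are counted by the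
roots of `x ^ 2 + ε * x + 1`. -/
theorem card_fix_eq (N : ℕ) [NeZero N] (σ : SL(2, ℤ)) (ε : ZMod N)
    (hσ : ∀ g : SL(2, ℤ), σ • (g : SL(2, ℤ) ⧸ Gamma0 N) = g ↔
      ((g 0 0 : ℤ) : ZMod N) ^ 2 + ε * (g 0 0 : ℤ) * (g 1 0 : ℤ) + ((g 1 0 : ℤ) : ZMod N) ^ 2 = 0) :
    Nat.card {q : SL(2, ℤ) ⧸ Gamma0 N // σ • q = q} =
      Nat.card {x : ZMod N // x ^ 2 + ε * x + 1 = 0} := by
  have hval : ∀ x : ZMod N, (((x.val : ℕ) : ℤ) : ZMod N) = x := fun x => by
    rw [Int.cast_natCast, ZMod.natCast_zmod_val]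
  have hfix : ∀ x : ZMod N, x ^ 2 + ε * x + 1 = 0 →
      σ • ((rep (x.val : ℤ) : SL(2, ℤ)) : SL(2, ℤ) ⧸ Gamma0 N) = rep (x.val : ℤ) := by
    intro x hx
    rw [hσ, rep_zero_zero, rep_one_zero, hval]
    simpa using hx
  symm
  refine Nat.card_congr (Equiv.ofBijective
    (fun x : {x : ZMod N // x ^ 2 + ε * x + 1 = 0} =>
      (⟨(rep (x.1.val : ℤ) : SL(2, ℤ)), hfix x.1 x.2⟩ :
        {q : SL(2, ℤ) ⧸ Gamma0 N // σ • q = q})) ⟨?_, ?_⟩)
  · rintro ⟨x, hx⟩ ⟨y, hy⟩ h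
    have h' := congrArg Subtype.val h
    simp only at h'
    rw [coset_eq_iff, rep_zero_zero, rep_one_zero, rep_zero_zero, rep_one_zero, hval, hval] at h'
    apply Subtype.ext
    simp only
    simpa [sub_eq_zero] using h'
  · rintro ⟨q, hq⟩
    induction q using QuotientGroup.induction_on with
    | H g =>
      rw [hσ] at hq
      have hdet : ((g 0 0 : ℤ) : ZMod N) * (g 1 1 : ℤ) - (g 0 1 : ℤ) * (g 1 0 : ℤ) = 1 := by
        have := congrArg (Int.cast : ℤ → ZMod N) (det_eq g)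
        simpa using this
      set a : ZMod N := ((g 0 0 : ℤ) : ZMod N) with ha
      set b : ZMod N := ((g 0 1 : ℤ) : ZMod N) with hb
      set c : ZMod N := ((g 1 0 : ℤ) : ZMod N) with hc
      set d : ZMod N := ((g 1 1 : ℤ) : ZMod N) with hd
      set w : ZMod N := -((ε * a + c) * d ^ 2 + 2 * b + b ^ 2 * c) with hw
      have hcw : c * w = 1 := by
        linear_combination (-d ^ 2) * hq + (a * d + b * c + 1) * hdet
      have hx : (a * w) ^ 2 + ε * (a * w) + 1 = 0 := by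
        linear_combination w ^ 2 * hq - (ε * a * w + 1 + c * w) * hcw
      refine ⟨⟨a * w, hx⟩, ?_⟩
      apply Subtype.ext
      simp only
      rw [coset_eq_iff, rep_zero_zero, rep_one_zero, hval]
      simp only [Int.cast_one, one_mul]
      linear_combination a * hcw

/-- The cosets fixed by `S` are those with `a ^ 2 + c ^ 2 = 0` in `ZMod N`. -/
theorem S_smul_eq_iff (N : ℕ) (g : SL(2, ℤ)) :
    ModularGroup.S • (g : SL(2, ℤ) ⧸ Gamma0 N) = g ↔
      ((g 0 0 : ℤ) : ZMod N) ^ 2 + 0 * (g 0 0 : ℤ) * (g 1 0 : ℤ) +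
        ((g 1 0 : ℤ) : ZMod N) ^ 2 = 0 := by
  rw [MulAction.Quotient.smul_mk, smul_eq_mul, coset_eq_iff]
  have h00 : (ModularGroup.S * g) 0 0 = -g 1 0 := by
    simp [ModularGroup.S, Matrix.mul_apply, Fin.sum_univ_two]
  have h10 : (ModularGroup.S * g) 1 0 = g 0 0 := by
    simp [ModularGroup.S, Matrix.mul_apply, Fin.sum_univ_two]
  rw [h00, h10]
  push_cast
  constructor
  · intro h
    linear_combination -h
  · intro h
    linear_combination -h

/-- The cosets fixed by `S * T` are those with `a ^ 2 + a * c + c ^ 2 = 0` in `ZMod N`. -/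
theorem ST_smul_eq_iff (N : ℕ) (g : SL(2, ℤ)) :
    (ModularGroup.S * ModularGroup.T) • (g : SL(2, ℤ) ⧸ Gamma0 N) = g ↔
      ((g 0 0 : ℤ) : ZMod N) ^ 2 + 1 * (g 0 0 : ℤ) * (g 1 0 : ℤ) +
        ((g 1 0 : ℤ) : ZMod N) ^ 2 = 0 := by
  rw [MulAction.Quotient.smul_mk, smul_eq_mul, coset_eq_iff]
  have h00 : (ModularGroup.S * ModularGroup.T * g) 0 0 = -g 1 0 := by
    simp [ModularGroup.S, ModularGroup.T, Matrix.mul_apply, Fin.sum_univ_two]
  have h10 : (ModularGroup.S * ModularGroup.T * g) 1 0 = g 0 0 + g 1 0 := by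
    simp [ModularGroup.S, ModularGroup.T, Matrix.mul_apply, Fin.sum_univ_two]
  rw [h00, h10]
  push_cast
  constructor
  · intro h
    linear_combination -h
  · intro h
    linear_combination -h

/-- Number of cosets of `Γ₀(N)` fixed by `S`. -/
theorem card_fix_S (N : ℕ) [NeZero N] :
    Nat.card {q : SL(2, ℤ) ⧸ Gamma0 N // ModularGroup.S • q = q} = ModularCurve.nuTwo N := by
  rw [card_fix_eq N ModularGroup.S 0 (S_smul_eq_iff N), ModularCurve.nuTwo]
  refine Nat.card_congr (Equiv.subtypeEquivRight fun x => ?_)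
  rw [zero_mul, add_zero]

/-- Number of cosets of `Γ₀(N)` fixed by `S * T`. -/
theorem card_fix_ST (N : ℕ) [NeZero N] :
    Nat.card {q : SL(2, ℤ) ⧸ Gamma0 N // (ModularGroup.S * ModularGroup.T) • q = q} =
      ModularCurve.nuThree N := by
  rw [card_fix_eq N (ModularGroup.S * ModularGroup.T) 1 (ST_smul_eq_iff N), ModularCurve.nuThree]
  refine Nat.card_congr (Equiv.subtypeEquivRight fun x => ?_)
  rw [one_mul]

/-- `Goal_E2` of the S20 spec. -/
theorem goal_E2 : Goal_E2 := goal_E2_of fun N _ => card_fix_S N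

/-- `Goal_E3` of the S20 spec. -/
theorem goal_E3 : Goal_E3 := goal_E3_of fun N _ => card_fix_ST N

end Fermat.Agent.S20.helper1982
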