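import Fermat.Agent.S20.helper560_Spec
import Fermat.Agent.S20.helper200_Separation

set_option autoImplicit false

open UpperHalfPlane ModularForm
open scoped MatrixGroups Manifold Pointwise

namespace Fermat.Agent.S20.helper200

/-- `helper560.Goal_Seed`: the form `sepForm N` (i.e. `z ↦ N ^ 3 * E₄ (N z)`) has stabiliser
exactly `Γ₀(N)` in `SL(2, ℤ)`. -/
theorem goal_Seed : Fermat.Agent.S20.helper560.Goal_Seed := by
  intro N _
  refine ⟨4, sepFun N, ⟨sepForm N, rfl⟩, fun γ hγ => ?_⟩
  exact ⟨γ, mem_Gamma0_of_sepFun_slash_eq N γ hγ, rfl⟩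

end Fermat.Agent.S20.helper200
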