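import Mathlib

set_option autoImplicit false

/-!
# Abstract graded freeness lemma (seat helper201; used for S20 `Goal_BasisM` / `Goal_BasisS`)

`𝒪` is a commutative `K`-algebra, `R M : ℤ → Submodule K 𝒪` are "graded pieces"
(`R` plays the role of level-one modular forms, `M` of modular forms / cusp forms of some
level), `a ∈ R 4`, `b ∈ R 6` (think `E₄`, `E₆`).  Under the hypotheses `GradedHyp`
(in particular: `(a, b)` is a regular sequence on `M`), `M` is free over `R` on homogeneous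
generators `F m i` (`m : ℕ` the weight, `i : Fin (d m)`): existence (`gen`) and uniqueness
(`indep`) of expansions, and the resulting dimension inequality (`sum_finrank_le`).
-/

namespace Fermat.Agent.S20.helper201

open Module

variable {K 𝒪 : Type*} [Field K] [CommRing 𝒪] [Algebra K 𝒪]

/-- Hypotheses of the graded freeness lemma. -/
structure GradedHyp (R M : ℤ → Submodule K 𝒪) (a b : 𝒪) : Prop where
  one_mem : (1 : 𝒪) ∈ R 0
  R_zero : ∀ x ∈ R 0, ∃ c : K, x = c • (1 : 𝒪)
  R_neg : ∀ n : ℤ, n < 0 → ∀ x ∈ R n, x = 0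
  a_mem : a ∈ R 4
  b_mem : b ∈ R 6
  R_mul : ∀ (m n : ℤ) (x y : 𝒪), x ∈ R m → y ∈ R n → x * y ∈ R (m + n)
  R_gen : ∀ (n : ℤ), n ≠ 0 → ∀ x ∈ R n, ∃ u ∈ R (n - 4), ∃ v ∈ R (n - 6), x = a * u + b * v
  RM_mul : ∀ (m n : ℤ) (x y : 𝒪), x ∈ R m → y ∈ M n → x * y ∈ M (m + n)
  M_neg : ∀ n : ℤ, n < 0 → ∀ x ∈ M n, x = 0
  M_fin : ∀ n : ℤ, Module.Finite K (M n)
  reg : ∀ (k : ℤ) (f g : 𝒪), f ∈ M (k - 4) → g ∈ M (k - 6) → b * g = a * f →
    ∃ c ∈ M (k - 10), g = a * c ∧ f = b * c

/-- The combination `∑_{m ≤ N} ∑_i P m i * F m i`. -/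
def comb {d : ℕ → ℕ} (F : (m : ℕ) → Fin (d m) → 𝒪) (N : ℕ) (P : (m : ℕ) → Fin (d m) → 𝒪) : 𝒪 :=
  ∑ m ∈ Finset.range (N + 1), ∑ i, P m i * F m i

section comb

variable {d : ℕ → ℕ} (F : (m : ℕ) → Fin (d m) → 𝒪)

lemma comb_add (N : ℕ) (P Q : (m : ℕ) → Fin (d m) → 𝒪) :
    comb F N (fun m i => P m i + Q m i) = comb F N P + comb F N Q := by
  simp only [comb, add_mul, Finset.sum_add_distrib]

lemma comb_sub (N : ℕ) (P Q : (m : ℕ) → Fin (d m) → 𝒪) :
    comb F N (fun m i => P m i - Q m i) = comb F N P - comb F N Q := by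
  simp only [comb, sub_mul, Finset.sum_sub_distrib]

lemma comb_mul_left (N : ℕ) (c : 𝒪) (P : (m : ℕ) → Fin (d m) → 𝒪) :
    comb F N (fun m i => c * P m i) = c * comb F N P := by
  simp only [comb, mul_assoc, Finset.mul_sum]

lemma comb_zero (N : ℕ) : comb F N (fun _ _ => (0 : 𝒪)) = 0 := by
  simp [comb]

/-- The family supported in weight `k` with scalar coefficients `lam`. -/
noncomputable def diagFam (k : ℕ) (lam : Fin (d k) → K) : (m : ℕ) → Fin (d m) → 𝒪 :=
  fun m i => if h : m = k then (lam (h ▸ i)) • (1 : 𝒪) else 0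

lemma diagFam_self (k : ℕ) (lam : Fin (d k) → K) (i : Fin (d k)) :
    diagFam (𝒪 := 𝒪) k lam k i = lam i • (1 : 𝒪) := by
  simp [diagFam]

lemma diagFam_ne (k : ℕ) (lam : Fin (d k) → K) {m : ℕ} (h : m ≠ k) (i : Fin (d m)) :
    diagFam (𝒪 := 𝒪) k lam m i = 0 := by
  simp [diagFam, h]

lemma diagFam_zero (k : ℕ) (m : ℕ) (i : Fin (d m)) :
    diagFam (𝒪 := 𝒪) k (0 : Fin (d k) → K) m i = 0 := by
  unfold diagFam
  split_ifs <;> simp

lemma diagFam_mem {R : ℤ → Submodule K 𝒪} (h1 : (1 : 𝒪) ∈ R 0) (k : ℕ) (lam : Fin (d k) → K)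
    (m : ℕ) (i : Fin (d m)) : diagFam (𝒪 := 𝒪) k lam m i ∈ R ((k : ℤ) - m) := by
  by_cases hm : m = k
  · subst hm
    rw [diagFam_self, sub_self]
    exact Submodule.smul_mem _ _ h1
  · rw [diagFam_ne k lam hm]
    exact zero_mem _

lemma comb_diagFam (N k : ℕ) (hk : k ≤ N) (lam : Fin (d k) → K) :
    comb F N (diagFam k lam) = ∑ i, lam i • F k i := by
  unfold comb
  rw [Finset.sum_eq_single k]
  · refine Finset.sum_congr rfl fun i _ => ?_
    rw [diagFam_self, smul_mul_assoc, one_mul]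
  · intro m _ hm
    refine Finset.sum_eq_zero fun i _ => ?_
    rw [diagFam_ne k lam hm, zero_mul]
  · intro h
    exact absurd (Finset.mem_range.mpr (Nat.lt_succ_of_le hk)) h

/-- Changing the truncation level does not matter if the extra coefficients vanish. -/
lemma comb_eq_of_vanish {N N' : ℕ} (hNN' : N ≤ N') (P : (m : ℕ) → Fin (d m) → 𝒪)
    (hP : ∀ m, N < m → ∀ i, P m i = 0) : comb F N P = comb F N' P := by
  unfold comb
  refine Finset.sum_subset (fun m hm => ?_) (fun m _ hm => ?_)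
  · rw [Finset.mem_range] at hm ⊢; omega
  · rw [Finset.mem_range] at hm
    refine Finset.sum_eq_zero fun i _ => ?_
    rw [hP m (by omega) i, zero_mul]

end comb

/-- Relative complements of subspaces. -/
lemma exists_rel_compl {V : Type*} [AddCommGroup V] [Module K V] (I M : Submodule K V)
    (h : I ≤ M) : ∃ C : Submodule K V, C ≤ M ∧ C ⊓ I = ⊥ ∧ C ⊔ I = M := by
  obtain ⟨C', hC'⟩ := Submodule.exists_isCompl (I.comap M.subtype)
  refine ⟨C'.map M.subtype, ?_, ?_, ?_⟩
  · exact (Submodule.map_le_iff_le_comap.mpr (by simp [Submodule.comap_subtype_self]))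
  · rw [eq_bot_iff]
    rintro x ⟨⟨y, hy, rfl⟩, hxI⟩
    have hy0 : y ∈ C' ⊓ I.comap M.subtype := ⟨hy, hxI⟩
    rw [hC'.symm.inf_eq_bot] at hy0
    simp only [Submodule.mem_bot] at hy0
    subst hy0
    simp
  · apply le_antisymm
    · refine sup_le ?_ h
      exact (Submodule.map_le_iff_le_comap.mpr (by simp [Submodule.comap_subtype_self]))
    · intro x hx
      have hx' : (⟨x, hx⟩ : M) ∈ C' ⊔ I.comap M.subtype := by
        rw [hC'.symm.sup_eq_top]; trivial
      obtain ⟨c, hc, t, ht, hct⟩ := Submodule.mem_sup.mp hx'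
      refine Submodule.mem_sup.mpr ⟨c, ⟨c, hc, rfl⟩, t, ht, ?_⟩
      have := congrArg Subtype.val hct
      simpa using this

/-- Local generators: in each weight `m`, the family `F m ·` is a basis of a complement of
`a * M (m - 4) + b * M (m - 6)` in `M m`. -/
structure LocalGens (M : ℤ → Submodule K 𝒪) (a b : 𝒪) (d : ℕ → ℕ)
    (F : (m : ℕ) → Fin (d m) → 𝒪) : Prop where
  mem : ∀ (m : ℕ) (i : Fin (d m)), F m i ∈ M m
  span : ∀ (m : ℕ), ∀ f ∈ M m, ∃ lam : Fin (d m) → K, ∃ f1 ∈ M ((m : ℤ) - 4),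
    ∃ f2 ∈ M ((m : ℤ) - 6), f = ∑ i, lam i • F m i + a * f1 + b * f2
  indep : ∀ (m : ℕ) (lam : Fin (d m) → K) (f1 f2 : 𝒪), f1 ∈ M ((m : ℤ) - 4) →
    f2 ∈ M ((m : ℤ) - 6) → ∑ i, lam i • F m i + a * f1 + b * f2 = 0 → lam = 0

variable {R M : ℤ → Submodule K 𝒪} {a b : 𝒪}

lemma GradedHyp.RM_mul' (h : GradedHyp R M a b) {m n p : ℤ} {x y : 𝒪} (hx : x ∈ R m)
    (hy : y ∈ M n) (hp : m + n = p) : x * y ∈ M p := hp ▸ h.RM_mul m n x y hx hy

lemma GradedHyp.R_mul' (h : GradedHyp R M a b) {m n p : ℤ} {x y : 𝒪} (hx : x ∈ R m)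
    (hy : y ∈ R n) (hp : m + n = p) : x * y ∈ R p := hp ▸ h.R_mul m n x y hx hy

/-- Existence of local generators in a fixed weight. -/
lemma exists_local (h : GradedHyp R M a b) (m : ℕ) :
    ∃ (d : ℕ) (F : Fin d → 𝒪), (∀ i, F i ∈ M m) ∧
      (∀ f ∈ M m, ∃ lam : Fin d → K, ∃ f1 ∈ M ((m : ℤ) - 4), ∃ f2 ∈ M ((m : ℤ) - 6),
          f = ∑ i, lam i • F i + a * f1 + b * f2) ∧
      (∀ (lam : Fin d → K) (f1 f2 : 𝒪), f1 ∈ M ((m : ℤ) - 4) → f2 ∈ M ((m : ℤ) - 6) →
          ∑ i, lam i • F i + a * f1 + b * f2 = 0 → lam = 0) := by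
  classical
  set I : Submodule K 𝒪 := (M ((m : ℤ) - 4)).map (LinearMap.mulLeft K a) ⊔
    (M ((m : ℤ) - 6)).map (LinearMap.mulLeft K b) with hI
  have hmemI : ∀ f1 ∈ M ((m : ℤ) - 4), ∀ f2 ∈ M ((m : ℤ) - 6), a * f1 + b * f2 ∈ I := by
    intro f1 hf1 f2 hf2
    exact Submodule.add_mem_sup ⟨f1, hf1, rfl⟩ ⟨f2, hf2, rfl⟩
  have hIM : I ≤ M m := by
    refine sup_le ?_ ?_
    · rintro _ ⟨f1, hf1, rfl⟩
      exact h.RM_mul' h.a_mem hf1 (by ring)
    · rintro _ ⟨f2, hf2, rfl⟩
      exact h.RM_mul' h.b_mem hf2 (by ring)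
  obtain ⟨C, hCM, hCI, hsup⟩ := exists_rel_compl I (M m) hIM
  have := h.M_fin m
  have : Module.Finite K C := by
    have : Module.Finite K (Submodule.comap (M m).subtype C) := inferInstance
    exact Module.Finite.equiv (Submodule.comapSubtypeEquivOfLe hCM)
  let bas := Module.finBasis K C
  refine ⟨Module.finrank K C, fun i => (bas i : 𝒪), fun i => hCM (bas i).2, ?_, ?_⟩
  · intro f hf
    rw [← hsup] at hf
    obtain ⟨c, hc, t, ht, rfl⟩ := Submodule.mem_sup.mp hf
    obtain ⟨t1, ⟨f1, hf1, rfl⟩, t2, ⟨f2, hf2, rfl⟩, rfl⟩ := Submodule.mem_sup.mp ht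
    refine ⟨fun i => bas.repr ⟨c, hc⟩ i, f1, hf1, f2, hf2, ?_⟩
    have h1 : (∑ i, bas.repr ⟨c, hc⟩ i • (bas i : 𝒪)) = c := by
      have := congrArg Subtype.val (bas.sum_repr ⟨c, hc⟩)
      simpa only [Submodule.coe_sum, Submodule.coe_smul] using this
    rw [h1]
    simp [add_assoc]
  · intro lam f1 f2 hf1 hf2 h0
    set c : C := ∑ i, lam i • bas i with hc
    have hcval : (c : 𝒪) = ∑ i, lam i • (bas i : 𝒪) := by
      simp [hc]
    have hcI : (c : 𝒪) ∈ I := by
      have : (c : 𝒪) = -(a * f1 + b * f2) := by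
        rw [hcval]; linear_combination h0
      rw [this]
      exact neg_mem (hmemI f1 hf1 f2 hf2)
    have hc0 : (c : 𝒪) ∈ C ⊓ I := ⟨c.2, hcI⟩
    rw [hCI, Submodule.mem_bot] at hc0
    have hc0' : c = 0 := Subtype.ext hc0
    have := Fintype.linearIndependent_iff.mp bas.linearIndependent lam (hc ▸ hc0')
    exact funext this

/-- Existence of a global family of local generators. -/
theorem exists_localGens (h : GradedHyp R M a b) :
    ∃ (d : ℕ → ℕ) (F : (m : ℕ) → Fin (d m) → 𝒪), LocalGens (K := K) M a b d F := by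
  choose d F h1 h2 h3 using fun m => exists_local h m
  exact ⟨d, F, h1, h2, h3⟩

section main

variable {d : ℕ → ℕ} {F : (m : ℕ) → Fin (d m) → 𝒪}

lemma comb_mem (h : GradedHyp R M a b) (L : LocalGens (K := K) M a b d F) (n : ℤ) (N : ℕ)
    (P : (m : ℕ) → Fin (d m) → 𝒪) (hP : ∀ (m : ℕ) (i : Fin (d m)), P m i ∈ R (n - m)) : comb F N P ∈ M n := by
  unfold comb
  refine Submodule.sum_mem _ fun m _ => Submodule.sum_mem _ fun i _ => ?_
  exact h.RM_mul' (hP m i) (L.mem m i) (by ring)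

/-- Existence of expansions. -/
lemma gen_aux (h : GradedHyp R M a b) (L : LocalGens (K := K) M a b d F) :
    ∀ (t : ℕ) (n : ℤ), n < t → ∀ f ∈ M n, ∃ P : (m : ℕ) → Fin (d m) → 𝒪,
      (∀ (m : ℕ) (i : Fin (d m)), P m i ∈ R (n - m)) ∧ ∀ N : ℕ, n ≤ N → f = comb F N P := by
  intro t
  induction t with
  | zero =>
    intro n hn f hf
    have hf0 := h.M_neg n (by simpa using hn) f hf
    subst hf0
    exact ⟨fun _ _ => 0, fun _ _ => zero_mem _, fun N _ => (comb_zero F N).symm⟩
  | succ t ih =>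
    intro n hn f hf
    rcases lt_or_ge n (t : ℤ) with h1 | h1
    · exact ih n h1 f hf
    · have hnt : n = t := by push_cast at hn; omega
      subst hnt
      obtain ⟨lam, f1, hf1, f2, hf2, rfl⟩ := L.span t f hf
      obtain ⟨P1, hP1, hc1⟩ := ih ((t : ℤ) - 4) (by omega) f1 hf1
      obtain ⟨P2, hP2, hc2⟩ := ih ((t : ℤ) - 6) (by omega) f2 hf2
      refine ⟨fun m i => diagFam t lam m i + (a * P1 m i + b * P2 m i), ?_, ?_⟩
      · intro m i
        refine add_mem (diagFam_mem h.one_mem t lam m i) (add_mem ?_ ?_)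
        · exact h.R_mul' h.a_mem (hP1 m i) (by ring)
        · exact h.R_mul' h.b_mem (hP2 m i) (by ring)
      · intro N hN
        have hN' : t ≤ N := by exact_mod_cast hN
        rw [comb_add, comb_add, comb_mul_left, comb_mul_left, comb_diagFam F N t hN',
          ← hc1 N (by omega), ← hc2 N (by omega)]
        ring

/-- Uniqueness of expansions (truncation level above the weight). -/
lemma indep_aux (h : GradedHyp R M a b) (L : LocalGens (K := K) M a b d F) :
    ∀ (t : ℕ) (n : ℤ), n < t → ∀ (N : ℕ) (P : (m : ℕ) → Fin (d m) → 𝒪), n ≤ N →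
      (∀ (m : ℕ) (i : Fin (d m)), P m i ∈ R (n - m)) → comb F N P = 0 → ∀ m i, P m i = 0 := by
  intro t
  induction t with
  | zero =>
    intro n hn N P _ hP _ m i
    exact h.R_neg _ (by have : n < 0 := by simpa using hn
                        omega) _ (hP m i)
  | succ t ih =>
    intro n hn N P hnN hP h0
    rcases lt_or_ge n (t : ℤ) with h1 | h1
    · exact ih n h1 N P hnN hP h0
    · have hnt : n = t := by push_cast at hn; omega
      subst hnt
      have hN' : t ≤ N := by exact_mod_cast hnN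
      -- decompose the coefficients
      have hdec : ∀ (m : ℕ) (i : Fin (d m)), ∃ u ∈ R ((t : ℤ) - m - 4),
          ∃ v ∈ R ((t : ℤ) - m - 6), ∃ c : K,
          P m i = a * u + b * v + c • (1 : 𝒪) ∧ (m ≠ t → c = 0) := by
        intro m i
        by_cases hm : m = t
        · subst hm
          have hP0 : P m i ∈ R 0 := by simpa using hP m i
          obtain ⟨c, hc⟩ := h.R_zero _ hP0
          exact ⟨0, zero_mem _, 0, zero_mem _, c, by simp [hc], fun h => absurd rfl h⟩
        · have hne : (t : ℤ) - m ≠ 0 := by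
            intro h0; apply hm; omega
          obtain ⟨u, hu, v, hv, huv⟩ := h.R_gen _ hne _ (hP m i)
          exact ⟨u, hu, v, hv, 0, by simp [huv], fun _ => rfl⟩
      choose X hX Y hY c hPc hc using hdec
      set lam : Fin (d t) → K := fun i => c t i with hlam
      have hPeq : P = fun m i => diagFam t lam m i + (a * X m i + b * Y m i) := by
        funext m i
        rw [hPc m i]
        by_cases hm : m = t
        · subst hm
          rw [diagFam_self]; ring
        · rw [diagFam_ne t lam hm, hc m i hm]; simp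
      set x := comb F N X with hx
      set y := comb F N Y with hy
      have hxM : x ∈ M ((t : ℤ) - 4) :=
        comb_mem h L _ N X fun m i => by
          have := hX m i
          rwa [show (t : ℤ) - m - 4 = (t : ℤ) - 4 - m by ring] at this
      have hyM : y ∈ M ((t : ℤ) - 6) :=
        comb_mem h L _ N Y fun m i => by
          have := hY m i
          rwa [show (t : ℤ) - m - 6 = (t : ℤ) - 6 - m by ring] at this
      have hsum : ∑ i, lam i • F t i + a * x + b * y = 0 := by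
        rw [← h0]
        conv_rhs => rw [hPeq]
        rw [comb_add, comb_add, comb_mul_left, comb_mul_left, comb_diagFam F N t hN']
        ring
      have hlam0 : lam = 0 := L.indep t lam x y hxM hyM hsum
      have hxy : b * y = a * (-x) := by
        have : ∑ i, lam i • F t i = 0 := by simp [hlam0]
        rw [this] at hsum
        linear_combination hsum
      obtain ⟨c0, hc0M, hyc, hxc⟩ := h.reg (t : ℤ) (-x) y (neg_mem hxM) hyM hxy
      obtain ⟨Pc, hPcR, hcomb⟩ := gen_aux h L t ((t : ℤ) - 10) (by omega) c0 hc0M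
      have hc0 : c0 = comb F N Pc := hcomb N (by omega)
      -- Y = a * Pc
      have hYeq : ∀ m i, Y m i - a * Pc m i = 0 := by
        refine ih ((t : ℤ) - 6) (by omega) N (fun m i => Y m i - a * Pc m i) (by omega) ?_ ?_
        · intro m i
          refine sub_mem ?_ ?_
          · have := hY m i
            rwa [show (t : ℤ) - m - 6 = (t : ℤ) - 6 - m by ring] at this
          · exact h.R_mul' h.a_mem (hPcR m i) (by ring)
        · rw [comb_sub, comb_mul_left, ← hc0, ← hy, hyc]; ring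
      have hXeq : ∀ m i, X m i + b * Pc m i = 0 := by
        refine ih ((t : ℤ) - 4) (by omega) N (fun m i => X m i + b * Pc m i) (by omega) ?_ ?_
        · intro m i
          refine add_mem ?_ ?_
          · have := hX m i
            rwa [show (t : ℤ) - m - 4 = (t : ℤ) - 4 - m by ring] at this
          · exact h.R_mul' h.b_mem (hPcR m i) (by ring)
        · rw [comb_add, comb_mul_left, ← hc0, ← hx]
          linear_combination -hxc
      intro m i
      rw [hPeq]
      simp only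
      rw [hlam0, diagFam_zero]
      linear_combination a * hXeq m i + b * hYeq m i

/-- **Existence of expansions**: every `f ∈ M n` is `∑ P m i * F m i` with `P m i ∈ R (n - m)`. -/
theorem gen (h : GradedHyp R M a b) (L : LocalGens (K := K) M a b d F) (n : ℤ) (f : 𝒪)
    (hf : f ∈ M n) : ∃ P : (m : ℕ) → Fin (d m) → 𝒪,
      (∀ (m : ℕ) (i : Fin (d m)), P m i ∈ R (n - m)) ∧ ∀ N : ℕ, n ≤ N → f = comb F N P :=
  gen_aux h L (n.toNat + 1) n (by omega) f hf

/-- **Uniqueness of expansions**. -/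
theorem indep (h : GradedHyp R M a b) (L : LocalGens (K := K) M a b d F) (n : ℤ) (N : ℕ)
    (P : (m : ℕ) → Fin (d m) → 𝒪) (hP : ∀ (m : ℕ) (i : Fin (d m)), P m i ∈ R (n - m))
    (hv : ∀ m, N < m → ∀ i, P m i = 0) (h0 : comb F N P = 0) : ∀ m i, P m i = 0 := by
  have h0' : comb F (max N n.toNat) P = 0 := by
    rw [← comb_eq_of_vanish F (le_max_left _ _) P hv]; exact h0
  exact indep_aux h L (n.toNat + 1) n (by omega) (max N n.toNat) P (by omega) hP h0'

/-- Coefficients in negative weight vanish. -/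
lemma coeff_eq_zero_of_lt (h : GradedHyp R M a b) (n : ℤ) (P : (m : ℕ) → Fin (d m) → 𝒪)
    (hP : ∀ (m : ℕ) (i : Fin (d m)), P m i ∈ R (n - m)) (m : ℕ) (hm : n < m) (i : Fin (d m)) : P m i = 0 :=
  h.R_neg _ (by omega) _ (hP m i)

/-- `comb` as a sum over the sigma type of the generators of weight `≤ N`. -/
lemma comb_eq_sum_sigma (N : ℕ) (P : (m : ℕ) → Fin (d m) → 𝒪) :
    comb F N P = ∑ j : (Σ m : Fin (N + 1), Fin (d m)), P j.1 j.2 * F j.1 j.2 := by
  unfold comb
  rw [Finset.sum_range, Fintype.sum_sigma]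

/-- If there are no generators of weight `> N0`, then `comb` stabilises at `N0`. -/
lemma comb_eq_of_d_zero {N0 N : ℕ} (hN : N0 ≤ N) (hd : ∀ m, N0 < m → d m = 0)
    (P : (m : ℕ) → Fin (d m) → 𝒪) : comb F N P = comb F N0 P := by
  unfold comb
  symm
  refine Finset.sum_subset (fun m hm => ?_) (fun m _ hm => ?_)
  · rw [Finset.mem_range] at hm ⊢; omega
  · have hdm : d m = 0 := hd m (by rw [Finset.mem_range] at hm; omega)
    exact Finset.sum_eq_zero fun i _ => absurd i.2 (by omega)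

/-- Extension by zero of a family indexed by the generators of weight `≤ N`. -/
noncomputable def extFam (N : ℕ) (P : (Σ m : Fin (N + 1), Fin (d m)) → 𝒪) :
    (m : ℕ) → Fin (d m) → 𝒪 :=
  fun m i => if hm : m < N + 1 then P ⟨⟨m, hm⟩, i⟩ else 0

lemma extFam_apply (N : ℕ) (P : (Σ m : Fin (N + 1), Fin (d m)) → 𝒪)
    (j : Σ m : Fin (N + 1), Fin (d m)) : extFam N P j.1 j.2 = P j := by
  obtain ⟨m, i⟩ := j
  simp only [extFam]
  rw [dif_pos m.2]

lemma extFam_vanish (N : ℕ) (P : (Σ m : Fin (N + 1), Fin (d m)) → 𝒪) (m : ℕ) (hm : N < m)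
    (i : Fin (d m)) : extFam N P m i = 0 := by
  simp only [extFam]
  rw [dif_neg (by omega)]

lemma comb_extFam (N : ℕ) (P : (Σ m : Fin (N + 1), Fin (d m)) → 𝒪) :
    comb F N (extFam N P) = ∑ j, P j * F j.1 j.2 := by
  rw [comb_eq_sum_sigma]
  refine Finset.sum_congr rfl fun j _ => ?_
  rw [extFam_apply]

/-- **Uniqueness of expansions**, for the finite family of generators of weight `≤ N`. -/
theorem indep_sigma (h : GradedHyp R M a b) (L : LocalGens (K := K) M a b d F) (N : ℕ) (n : ℤ)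
    (P : (Σ m : Fin (N + 1), Fin (d m)) → 𝒪) (hP : ∀ j, P j ∈ R (n - ((j.1 : ℕ) : ℤ)))
    (h0 : ∑ j, P j * F j.1 j.2 = 0) : ∀ j, P j = 0 := by
  have hmem : ∀ (m : ℕ) (i : Fin (d m)), extFam N P m i ∈ R (n - m) := by
    intro m i
    simp only [extFam]
    split_ifs with hm
    · exact hP ⟨⟨m, hm⟩, i⟩
    · exact zero_mem _
  have hall := indep h L n N (extFam N P) hmem (extFam_vanish N P)
    (by rw [comb_extFam]; exact h0)
  intro j
  rw [← extFam_apply N P j]
  exact hall _ _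

/-- **Existence of expansions**, when all generators have weight `≤ N0`. -/
theorem gen_sigma (h : GradedHyp R M a b) (L : LocalGens (K := K) M a b d F) (N0 : ℕ)
    (hd : ∀ m, N0 < m → d m = 0) (n : ℤ) (f : 𝒪) (hf : f ∈ M n) :
    ∃ P : (Σ m : Fin (N0 + 1), Fin (d m)) → 𝒪, (∀ j, P j ∈ R (n - ((j.1 : ℕ) : ℤ))) ∧
      f = ∑ j, P j * F j.1 j.2 := by
  obtain ⟨P, hP, hcomb⟩ := gen h L n f hf
  refine ⟨fun j => P j.1 j.2, fun j => hP _ _, ?_⟩
  rw [hcomb (max N0 n.toNat) (by omega), comb_eq_of_d_zero (le_max_left _ _) hd,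
    comb_eq_sum_sigma]

/-- No generators in weights where `M` vanishes. -/
lemma d_eq_zero_of_forall_eq_zero (L : LocalGens (K := K) M a b d F) (m : ℕ)
    (hm : ∀ x ∈ M m, x = 0) : d m = 0 := by
  by_contra hne
  have hF : ∀ i, F m i = 0 := fun i => hm _ (L.mem m i)
  have h1 := L.indep m (fun _ => 1) 0 0 (zero_mem _) (zero_mem _) (by simp [hF])
  have h2 := congrFun h1 ⟨0, Nat.pos_of_ne_zero hne⟩
  exact one_ne_zero h2

/-- **Dimension inequality**: the generators of weight `≤ N` span a free submodule. -/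
theorem sum_finrank_le (h : GradedHyp R M a b) (L : LocalGens (K := K) M a b d F)
    (hRfin : ∀ k, Module.Finite K (R k)) (N : ℕ) (n : ℤ) :
    ∑ m ∈ Finset.range (N + 1), d m * finrank K (R (n - m)) ≤ finrank K (M n) := by
  classical
  let ι := Σ m : Fin (N + 1), Fin (d m)
  let W : ι → Submodule K 𝒪 := fun j => R (n - ((j.1 : ℕ) : ℤ))
  let Ψ : (Π j : ι, W j) →ₗ[K] 𝒪 :=
    ∑ j : ι, (LinearMap.mulRight K (F j.1 j.2)) ∘ₗ (W j).subtype ∘ₗ (LinearMap.proj j)
  have hΨ : ∀ P, Ψ P = ∑ j : ι, (P j : 𝒪) * F j.1 j.2 := by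
    intro P
    simp [Ψ, LinearMap.sum_apply]
  have hmem : ∀ P, Ψ P ∈ M n := by
    intro P
    rw [hΨ]
    refine Submodule.sum_mem _ fun j _ => ?_
    exact h.RM_mul' (P j).2 (L.mem _ _) (by ring)
  let Ψ' : (Π j : ι, W j) →ₗ[K] M n := Ψ.codRestrict (M n) hmem
  have hinj : Function.Injective Ψ' := by
    rw [injective_iff_map_eq_zero]
    intro P hP0
    have hP0' : Ψ P = 0 := congrArg Subtype.val hP0
    rw [hΨ] at hP0'
    have hall := indep_sigma h L N n (fun j => (P j : 𝒪)) (fun j => (P j).2) hP0'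
    funext j
    exact Subtype.ext (hall j)
  have := h.M_fin n
  have : ∀ j : ι, Module.Finite K (W j) := fun j => hRfin _
  have hle := LinearMap.finrank_le_finrank_of_injective hinj
  rw [Module.finrank_pi_fintype] at hle
  refine le_trans (le_of_eq ?_) hle
  rw [Finset.sum_range, Fintype.sum_sigma]
  refine Finset.sum_congr rfl fun m _ => ?_
  change d ↑m * finrank K (R (n - ((m : ℕ) : ℤ))) =
    ∑ _x : Fin (d m), finrank K (R (n - ((m : ℕ) : ℤ)))
  rw [Finset.sum_const, Finset.card_univ, Fintype.card_fin, smul_eq_mul]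

end main

end Fermat.Agent.S20.helper201
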