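import Fermat.Agent.S20.helper201_LevelOne

set_option autoImplicit false

/-!
# Translates, Vandermonde and the trace injection (seat helper201)

For an arithmetic `𝒢` and a "seed" `h ∈ MFG 𝒢 w` whose translates `tr 𝒢 w h q` (`q : Q 𝒢`) are
pairwise distinct:
* at a generic point the values of the translates are pairwise distinct (`exists_injective_point`);
* `f ↦ (∑ q, tr f q * (tr h q) ^ i)_{i < μ}` is an injective map
  `MFG 𝒢 k → ∏_{i < μ} RR (k + i * w)`, hence `finrank_MFG_le`.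
-/

open UpperHalfPlane ModularForm
open scoped MatrixGroups Manifold

namespace Fermat.Agent.S20.helper201

open Fermat.Agent.S20.helper560

noncomputable section

variable (𝒢 : Subgroup (GL (Fin 2) ℝ))

/-- Every translate is a slash by an element of `SL(2, ℤ)`. -/
lemma exists_SL_tr (q : Q 𝒢) :
    ∃ γ : SL(2, ℤ), ∀ (k : ℤ) (f : ℍ → ℂ), tr 𝒢 k f q = f ∣[k] γ := by
  obtain ⟨γ, hγ⟩ := ((q.out : 𝒮ℒ)⁻¹).2
  refine ⟨γ, fun k f => ?_⟩
  have h1 : f ∣[k] γ = f ∣[k] (Matrix.SpecialLinearGroup.mapGL ℝ γ) := rfl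
  rw [h1, hγ]
  rfl

/-- A choice of `SL(2, ℤ)`-elements realising the translates. -/
def gam (q : Q 𝒢) : SL(2, ℤ) := (exists_SL_tr 𝒢 q).choose

lemma tr_eq_slash (q : Q 𝒢) (k : ℤ) (f : ℍ → ℂ) : tr 𝒢 k f q = f ∣[k] (gam 𝒢 q) :=
  (exists_SL_tr 𝒢 q).choose_spec k f

lemma tr_mul (q : Q 𝒢) (a b : ℤ) (f g : ℍ → ℂ) :
    tr 𝒢 (a + b) (f * g) q = tr 𝒢 a f q * tr 𝒢 b g q := by
  simp only [tr_eq_slash, ModularForm.mul_slash_SL2]

lemma tr_add (q : Q 𝒢) (k : ℤ) (f g : ℍ → ℂ) :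
    tr 𝒢 k (f + g) q = tr 𝒢 k f q + tr 𝒢 k g q := by
  simp only [tr_eq_slash, SlashAction.add_slash]

lemma tr_smul (q : Q 𝒢) (k : ℤ) (c : ℂ) (f : ℍ → ℂ) :
    tr 𝒢 k (c • f) q = c • tr 𝒢 k f q := by
  simp only [tr_eq_slash, ModularForm.SL_smul_slash]

lemma tr_zero (q : Q 𝒢) (k : ℤ) : tr 𝒢 k 0 q = 0 := by
  simp only [tr_eq_slash, SlashAction.zero_slash]

lemma tr_sum {ι : Type*} (s : Finset ι) (q : Q 𝒢) (k : ℤ) (f : ι → ℍ → ℂ) :
    tr 𝒢 k (∑ i ∈ s, f i) q = ∑ i ∈ s, tr 𝒢 k (f i) q := by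
  simp only [tr_eq_slash, SlashAction.sum_slash]

lemma tr_eq_zero_iff (q : Q 𝒢) (k : ℤ) (f : ℍ → ℂ) : tr 𝒢 k f q = 0 ↔ f = 0 := by
  rw [tr_eq_slash, SlashAction.slash_eq_zero_iff]

lemma tr_cast (q : Q 𝒢) {a b : ℤ} (h : a = b) (f : ℍ → ℂ) : tr 𝒢 a f q = tr 𝒢 b f q := by
  rw [h]

/-- Level one forms are fixed by translation. -/
lemma tr_RR (q : Q 𝒢) (a : ℤ) (P : ℍ → ℂ) (hP : P ∈ RR a) : tr 𝒢 a P q = P := by
  obtain ⟨p, rfl⟩ := hP
  rw [tr_eq_slash]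
  exact p.slash_action_eq' _ ⟨gam 𝒢 q, rfl⟩

lemma tr_RR_mul (q : Q 𝒢) (a b : ℤ) (P f : ℍ → ℂ) (hP : P ∈ RR a) :
    tr 𝒢 (a + b) (P * f) q = P * tr 𝒢 b f q := by
  rw [tr_mul, tr_RR 𝒢 q a P hP]

lemma tr_pow (q : Q 𝒢) (w : ℤ) (h : ℍ → ℂ) (i : ℕ) :
    tr 𝒢 ((i : ℤ) * w) (h ^ i) q = tr 𝒢 w h q ^ i := by
  induction i with
  | zero =>
    simp only [Nat.cast_zero, zero_mul, pow_zero]
    rw [tr_eq_slash]
    exact ModularForm.is_invariant_one _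
  | succ i ih =>
    rw [pow_succ, pow_succ, ← ih, ← tr_mul]
    exact tr_cast 𝒢 q (by push_cast; ring) _

lemma tr_mdiff [𝒢.HasDetOne] (q : Q 𝒢) (k : ℤ) (f : ℍ → ℂ) (hf : f ∈ MFG 𝒢 k) :
    MDiff (tr 𝒢 k f q) := by
  obtain ⟨F, rfl⟩ := hf
  exact (ModularFormClass.holo F).slash k _


/-- The seed hypothesis: the stabiliser of `h` in `SL(2, ℤ)` is contained in `𝒢`. -/
def SeedHyp (w : ℤ) (h : ℍ → ℂ) : Prop :=
  ∀ γ : SL(2, ℤ), h ∣[w] γ = h → Matrix.SpecialLinearGroup.mapGL ℝ γ ∈ 𝒢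

/-- The translates of a seed are pairwise distinct. -/
lemma tr_injective_of_seed (w : ℤ) (h : ℍ → ℂ) (hseed : SeedHyp 𝒢 w h) :
    Function.Injective (fun q : Q 𝒢 => tr 𝒢 w h q) := by
  intro q q' heq
  have heq' : h ∣[w] ((q.out : 𝒮ℒ) : GL (Fin 2) ℝ)⁻¹ = h ∣[w] ((q'.out : 𝒮ℒ) : GL (Fin 2) ℝ)⁻¹ :=
    heq
  have key : h ∣[w] (((q.out : 𝒮ℒ) : GL (Fin 2) ℝ)⁻¹ * ((q'.out : 𝒮ℒ) : GL (Fin 2) ℝ)) = h := by
    rw [SlashAction.slash_mul, heq', ← SlashAction.slash_mul, inv_mul_cancel,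
      SlashAction.slash_one]
  obtain ⟨γ, hγ⟩ := ((q.out : 𝒮ℒ)⁻¹ * (q'.out : 𝒮ℒ)).2
  have hγ' : Matrix.SpecialLinearGroup.mapGL ℝ γ =
      ((q.out : 𝒮ℒ) : GL (Fin 2) ℝ)⁻¹ * ((q'.out : 𝒮ℒ) : GL (Fin 2) ℝ) := hγ
  have h1 : h ∣[w] γ = h := by
    have h2 : h ∣[w] γ = h ∣[w] (Matrix.SpecialLinearGroup.mapGL ℝ γ) := rfl
    rw [h2, hγ', key]
  have h3 := hseed γ h1
  rw [hγ'] at h3
  have h4 : ((q.out : 𝒮ℒ) : Q 𝒢) = ((q'.out : 𝒮ℒ) : Q 𝒢) :=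
    QuotientGroup.eq.mpr (Subgroup.mem_subgroupOf.mpr h3)
  rwa [QuotientGroup.out_eq', QuotientGroup.out_eq'] at h4

section arithmetic

variable [𝒢.IsArithmetic]

open Classical in
/-- Product of the differences of the translates of `h`. -/
def discFun (w : ℤ) (h : ℍ → ℂ) : ℍ → ℂ :=
  ∏ p ∈ (Finset.univ : Finset (Q 𝒢 × Q 𝒢)).filter (fun p => p.1 ≠ p.2),
    (tr 𝒢 w h p.1 - tr 𝒢 w h p.2)

lemma discFun_mdiff [𝒢.HasDetOne] (w : ℤ) (h : ℍ → ℂ) (hh : h ∈ MFG 𝒢 w) :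
    MDiff (discFun 𝒢 w h) := by
  unfold discFun
  exact MDifferentiable.prod fun p _ => (tr_mdiff 𝒢 p.1 w h hh).sub (tr_mdiff 𝒢 p.2 w h hh)

lemma discFun_ne_zero [𝒢.HasDetOne] (w : ℤ) (h : ℍ → ℂ) (hh : h ∈ MFG 𝒢 w)
    (hseed : SeedHyp 𝒢 w h) : discFun 𝒢 w h ≠ 0 := by
  classical
  unfold discFun
  rw [Ne, UpperHalfPlane.prod_eq_zero_iff
    (fun p _ => (tr_mdiff 𝒢 p.1 w h hh).sub (tr_mdiff 𝒢 p.2 w h hh))]
  rintro ⟨p, hp, hp0⟩
  rw [Finset.mem_filter] at hp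
  exact hp.2 (tr_injective_of_seed 𝒢 w h hseed (sub_eq_zero.mp hp0))

lemma injective_of_discFun_ne_zero (w : ℤ) (h : ℍ → ℂ) (z : ℍ) (hz : discFun 𝒢 w h z ≠ 0) :
    Function.Injective (fun q : Q 𝒢 => tr 𝒢 w h q z) := by
  classical
  intro q q' heq
  by_contra hne
  apply hz
  unfold discFun
  rw [Finset.prod_apply]
  refine Finset.prod_eq_zero (i := (q, q')) (by simp [hne]) ?_
  simp only [Pi.sub_apply]
  exact sub_eq_zero.mpr heq

lemma exists_discFun_ne_zero [𝒢.HasDetOne] (w : ℤ) (h : ℍ → ℂ) (hh : h ∈ MFG 𝒢 w)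
    (hseed : SeedHyp 𝒢 w h) : ∃ z, discFun 𝒢 w h z ≠ 0 := by
  by_contra hcon
  exact discFun_ne_zero 𝒢 w h hh hseed
    (funext fun z => by_contra fun hz => hcon ⟨z, hz⟩)

/-- Vandermonde: a vector orthogonal to all powers of an injective vector vanishes. -/
lemma vandermonde_left_kernel (x : Q 𝒢 → ℂ) (hx : Function.Injective x) (v : Q 𝒢 → ℂ)
    (hv : ∀ i : Fin (Fintype.card (Q 𝒢)), ∑ q, v q * x q ^ (i : ℕ) = 0) : v = 0 := by
  let e := Fintype.equivFin (Q 𝒢)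
  have h0 := Matrix.eq_zero_of_forall_pow_sum_mul_pow_eq_zero (f := x ∘ e.symm) (v := v ∘ e.symm)
    (hx.comp e.symm.injective) (fun i => by
      rw [← hv i]
      exact Equiv.sum_comp e.symm (fun q => v q * x q ^ (i : ℕ)))
  funext q
  have := congrFun h0 (e q)
  simpa using this

/-- The `i`-th component of the trace map attached to the seed `h`. -/
def thetaFun (k w : ℤ) (h : ℍ → ℂ) (i : ℕ) (f : ℍ → ℂ) : ℍ → ℂ :=
  ∑ q : Q 𝒢, tr 𝒢 k f q * tr 𝒢 w h q ^ i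

lemma thetaFun_mem [𝒢.HasDetOne] {k w : ℤ} {h f : ℍ → ℂ} (hf : f ∈ MFG 𝒢 k)
    (hh : h ∈ MFG 𝒢 w) (i : ℕ) : thetaFun 𝒢 k w h i f ∈ RR (k + i * w) := by
  obtain ⟨F, rfl⟩ := hf
  obtain ⟨H, rfl⟩ := hh
  let G : ModularForm 𝒢 (k + i * w) := F.mul (H.pow i)
  refine ⟨ModularForm.trace 𝒮ℒ G, ?_⟩
  rw [ModularForm.coe_trace]
  unfold thetaFun
  refine Finset.sum_congr rfl fun q _ => ?_
  rw [← tr_eq_quotientFunc G q]
  have hG : (⇑G : ℍ → ℂ) = ⇑F * ⇑H ^ i := by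
    simp only [G, ModularForm.coe_mul, ModularForm.coe_pow]
  rw [hG, tr_mul, tr_pow]

/-- **Trace injection**: `dim M_k(𝒢) ≤ ∑_{i < μ} dim M_{k + i w}(SL(2, ℤ))`. -/
theorem finrank_MFG_le [𝒢.HasDetOne] (w : ℤ) (h : ℍ → ℂ) (hh : h ∈ MFG 𝒢 w)
    (hseed : SeedHyp 𝒢 w h) (k : ℤ) :
    Module.finrank ℂ (MFG 𝒢 k) ≤
      ∑ i : Fin (Fintype.card (Q 𝒢)), Module.finrank ℂ (RR (k + (i : ℕ) * w)) := by
  let Θ : MFG 𝒢 k →ₗ[ℂ] (Π i : Fin (Fintype.card (Q 𝒢)), RR (k + (i : ℕ) * w)) :=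
    { toFun := fun f i => ⟨thetaFun 𝒢 k w h i f, thetaFun_mem 𝒢 f.2 hh i⟩
      map_add' := fun f g => by
        funext i
        apply Subtype.ext
        simp [thetaFun, tr_add, add_mul, Finset.sum_add_distrib]
      map_smul' := fun c f => by
        funext i
        apply Subtype.ext
        simp [thetaFun, tr_smul, Finset.smul_sum] }
  have hinj : Function.Injective Θ := by
    rw [injective_iff_map_eq_zero]
    intro f hf0
    have hf0' : ∀ i : Fin (Fintype.card (Q 𝒢)), thetaFun 𝒢 k w h i f = 0 := fun i =>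
      congrArg Subtype.val (congrFun hf0 i)
    have hvan : ∀ z, discFun 𝒢 w h z ≠ 0 → ∀ q, tr 𝒢 k f q z = 0 := by
      intro z hz q
      have hv := vandermonde_left_kernel 𝒢 (fun q => tr 𝒢 w h q z)
        (injective_of_discFun_ne_zero 𝒢 w h z hz) (fun q => tr 𝒢 k f q z) (fun i => by
          have := congrFun (hf0' i) z
          simpa [thetaFun] using this)
      exact congrFun hv q
    have hprod : tr 𝒢 k f (QuotientGroup.mk 1 : Q 𝒢) * discFun 𝒢 w h = 0 := by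
      funext z
      by_cases hz : discFun 𝒢 w h z = 0
      · simp [hz]
      · simp [hvan z hz]
    rw [UpperHalfPlane.mul_eq_zero_iff (tr_mdiff 𝒢 _ k f f.2) (discFun_mdiff 𝒢 w h hh)] at hprod
    have hf : (f : ℍ → ℂ) = 0 :=
      (tr_eq_zero_iff 𝒢 _ k f).mp (hprod.resolve_right (discFun_ne_zero 𝒢 w h hh hseed))
    exact Subtype.ext hf
  have hle := LinearMap.finrank_le_finrank_of_injective hinj
  rwa [Module.finrank_pi_fintype] at hle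

/-- If the Vandermonde family `c * h ^ i` can be expanded in a finite family `FJ` with level one
coefficients, then the matrix of translates of `FJ` has trivial left kernel at every point
where the translates of `h` take pairwise distinct values (and `c ≠ 0`). -/
theorem left_kernel_trivial {J : Type} [Fintype J] (κ : J → ℤ) (FJ : J → ℍ → ℂ)
    (w : ℤ) (h : ℍ → ℂ) (ω0 : ℤ) (c : ℍ → ℂ) (hcinv : ∀ γ : SL(2, ℤ), c ∣[ω0] γ = c)
    (hexp : ∀ i : ℕ, ∃ P : J → ℍ → ℂ, (∀ j, P j ∈ RR (ω0 + i * w - κ j)) ∧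
      c * h ^ i = ∑ j, P j * FJ j)
    (z : ℍ) (hcz : c z ≠ 0) (hinj : Function.Injective (fun q : Q 𝒢 => tr 𝒢 w h q z))
    (v : Q 𝒢 → ℂ) (hv : ∀ j, ∑ q, v q * tr 𝒢 (κ j) (FJ j) q z = 0) : v = 0 := by
  apply vandermonde_left_kernel 𝒢 (fun q => tr 𝒢 w h q z) hinj v
  intro i
  obtain ⟨P, hP, hPeq⟩ := hexp i
  have key : ∀ q : Q 𝒢, c z * tr 𝒢 w h q z ^ (i : ℕ) = ∑ j, P j z * tr 𝒢 (κ j) (FJ j) q z := by
    intro q
    have h1 : tr 𝒢 (ω0 + (i : ℕ) * w) (c * h ^ (i : ℕ)) q = c * tr 𝒢 w h q ^ (i : ℕ) := by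
      rw [tr_mul, tr_pow, tr_eq_slash, hcinv]
    have h2 : tr 𝒢 (ω0 + (i : ℕ) * w) (c * h ^ (i : ℕ)) q =
        ∑ j, P j * tr 𝒢 (κ j) (FJ j) q := by
      rw [hPeq, tr_sum]
      refine Finset.sum_congr rfl fun j _ => ?_
      rw [tr_cast 𝒢 q (show ω0 + (i : ℕ) * w = (ω0 + (i : ℕ) * w - κ j) + κ j by ring),
        tr_RR_mul 𝒢 q _ _ _ _ (hP j)]
    have h3 := congrFun (h1.symm.trans h2) z
    simpa using h3
  have hsum : c z * ∑ q, v q * tr 𝒢 w h q z ^ (i : ℕ) = 0 := by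
    calc c z * ∑ q, v q * tr 𝒢 w h q z ^ (i : ℕ)
        = ∑ q, v q * (c z * tr 𝒢 w h q z ^ (i : ℕ)) := by
          rw [Finset.mul_sum]
          exact Finset.sum_congr rfl fun q _ => by ring
      _ = ∑ q, ∑ j, P j z * (v q * tr 𝒢 (κ j) (FJ j) q z) := by
          refine Finset.sum_congr rfl fun q _ => ?_
          rw [key q, Finset.mul_sum]
          exact Finset.sum_congr rfl fun j _ => by ring
      _ = ∑ j, P j z * ∑ q, v q * tr 𝒢 (κ j) (FJ j) q z := by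
          rw [Finset.sum_comm]
          exact Finset.sum_congr rfl fun j _ => by rw [Finset.mul_sum]
      _ = 0 := by
          exact Finset.sum_eq_zero fun j _ => by rw [hv j, mul_zero]
  exact (mul_eq_zero.mp hsum).resolve_left hcz

end arithmetic

end

end Fermat.Agent.S20.helper201
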