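import Fermat.Agent.S20.helper560_Spec
import Fermat.Agent.S20.helper201_FreeAbs
import Fermat.Agent.S20.helper201_Trace

set_option autoImplicit false

/-!
# `Goal_BasisM` and `Goal_BasisS` of `helper560_Spec` (seat helper201)

Hypothesis-passing: `goal_BasisM : Goal_Basic → Goal_DivM → Goal_BasisM` and
`goal_BasisS : Goal_Basic → Goal_DivS → Goal_BasisS`.

Route: abstract graded freeness (`helper201_FreeAbs`) gives homogeneous generators with unique
expansions; the trace injection (`helper201_Trace`) bounds their number by the index `μ`;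
the Vandermonde family `h ^ i` (resp. `Δ * h ^ i`) of the seed shows that the matrix of
translates of the generators has trivial left kernel at a generic point, hence there are
exactly `μ` generators and the fundamental determinant is non-zero there.
-/

open UpperHalfPlane ModularForm
open scoped MatrixGroups Manifold

namespace Fermat.Agent.S20.helper201

open Fermat.Agent.S20.helper560

noncomputable section

variable (𝒢 : Subgroup (GL (Fin 2) ℝ)) [𝒢.IsArithmetic] [𝒢.HasDetOne]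

lemma MFG_pow {w : ℤ} {h : ℍ → ℂ} (hh : h ∈ MFG 𝒢 w) (i : ℕ) : h ^ i ∈ MFG 𝒢 ((i : ℤ) * w) := by
  obtain ⟨H, rfl⟩ := hh
  exact ⟨H.pow i, ModularForm.coe_pow H i⟩

section count

variable {𝒢}
variable {V : ℤ → Submodule ℂ (ℍ → ℂ)} {d : ℕ → ℕ} {F : (m : ℕ) → Fin (d m) → ℍ → ℂ}

/-- The number of generators of weight `≤ N` is at most the index. -/
theorem sum_d_le (hyp : GradedHyp RR V ⇑E₄ ⇑E₆) (L : LocalGens (K := ℂ) V ⇑E₄ ⇑E₆ d F)
    (hVM : ∀ k, V k ≤ MFG 𝒢 k) (hMfin : ∀ k, Module.Finite ℂ (MFG 𝒢 k))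
    (hodd : ∀ k : ℤ, Odd k → ∀ x ∈ MFG 𝒢 k, x = 0)
    (w : ℤ) (h : ℍ → ℂ) (hh : h ∈ MFG 𝒢 w) (hseed : SeedHyp 𝒢 w h) (N : ℕ) :
    ∑ m ∈ Finset.range (N + 1), d m ≤ Fintype.card (Q 𝒢) := by
  by_contra hcon
  set μ := Fintype.card (Q 𝒢) with hμ
  set S := ∑ m ∈ Finset.range (N + 1), d m with hS
  have hSμ : μ + 1 ≤ S := by omega
  set W := w.natAbs with hW
  set T0 := μ * (N + 22 + μ * W) with hT0
  set t := N + 10 + 2 * T0 + 2 with ht
  set n := N + 10 + t with hn
  have hneven : Even n := ⟨N + 10 + T0 + 1, by omega⟩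
  -- lower bound
  have hlow : S * t ≤ ∑ m ∈ Finset.range (N + 1),
      d m * (12 * Module.finrank ℂ (RR ((n : ℤ) - m))) := by
    rw [hS, Finset.sum_mul]
    refine Finset.sum_le_sum fun m hm => ?_
    rw [Finset.mem_range] at hm
    rcases Nat.eq_zero_or_pos (d m) with hd0 | hdpos
    · simp [hd0]
    · refine Nat.mul_le_mul_left _ ?_
      have hmeven : Even m := by
        by_contra hmodd
        rw [Nat.not_even_iff_odd] at hmodd
        have hd := d_eq_zero_of_forall_eq_zero L m (fun x hx =>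
          hodd (m : ℤ) (by exact_mod_cast hmodd) x (hVM _ hx))
        omega
      have hnm : Even (n - m) := (Nat.even_sub (by omega)).mpr ⟨fun _ => hmeven, fun _ => hneven⟩
      have hge := finrank_RR_ge (n - m) hnm
      have hcast : ((n - m : ℕ) : ℤ) = (n : ℤ) - m := by omega
      rw [hcast] at hge
      omega
  -- the chain of dimension inequalities
  have h1 := sum_finrank_le hyp L (fun k => instFiniteRR k) N (n : ℤ)
  have h2 : Module.finrank ℂ (V (n : ℤ)) ≤ Module.finrank ℂ (MFG 𝒢 (n : ℤ)) := by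
    have := hMfin (n : ℤ)
    exact Submodule.finrank_mono (hVM _)
  have h3 := finrank_MFG_le 𝒢 w h hh hseed (n : ℤ)
  -- upper bound
  have hup : ∑ i : Fin μ, 12 * Module.finrank ℂ (RR ((n : ℤ) + (i : ℕ) * w)) ≤
      μ * (n + μ * W + 12) := by
    have hterm : ∀ i : Fin μ, 12 * Module.finrank ℂ (RR ((n : ℤ) + (i : ℕ) * w)) ≤
        n + μ * W + 12 := by
      intro i
      have hle := finrank_RR_le ((n : ℤ) + (i : ℕ) * w)
      have hnat : ((n : ℤ) + (i : ℕ) * w).toNat ≤ n + μ * W := by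
        rw [Int.toNat_le]
        have hiw : ((i : ℕ) : ℤ) * w ≤ (μ : ℤ) * |w| :=
          calc ((i : ℕ) : ℤ) * w ≤ ((i : ℕ) : ℤ) * |w| :=
                mul_le_mul_of_nonneg_left (le_abs_self w) (by positivity)
            _ ≤ (μ : ℤ) * |w| :=
                mul_le_mul_of_nonneg_right (by exact_mod_cast i.2.le) (abs_nonneg w)
        have hWabs : ((W : ℕ) : ℤ) = |w| := by rw [hW]; exact Int.natCast_natAbs w
        push_cast
        rw [hWabs]
        linarith
      omega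
    calc ∑ i : Fin μ, 12 * Module.finrank ℂ (RR ((n : ℤ) + (i : ℕ) * w))
        ≤ ∑ _i : Fin μ, (n + μ * W + 12) := Finset.sum_le_sum fun i _ => hterm i
      _ = μ * (n + μ * W + 12) := by
          rw [Finset.sum_const, Finset.card_univ, Fintype.card_fin, smul_eq_mul]
  have hchain : S * t ≤ μ * (n + μ * W + 12) := by
    calc S * t ≤ ∑ m ∈ Finset.range (N + 1),
          d m * (12 * Module.finrank ℂ (RR ((n : ℤ) - m))) := hlow
      _ = 12 * ∑ m ∈ Finset.range (N + 1), d m * Module.finrank ℂ (RR ((n : ℤ) - m)) := by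
          rw [Finset.mul_sum]
          exact Finset.sum_congr rfl fun m _ => by ring
      _ ≤ 12 * Module.finrank ℂ (V (n : ℤ)) := Nat.mul_le_mul_left _ h1
      _ ≤ 12 * Module.finrank ℂ (MFG 𝒢 (n : ℤ)) := Nat.mul_le_mul_left _ h2
      _ ≤ 12 * ∑ i : Fin μ, Module.finrank ℂ (RR ((n : ℤ) + (i : ℕ) * w)) :=
          Nat.mul_le_mul_left _ h3
      _ = ∑ i : Fin μ, 12 * Module.finrank ℂ (RR ((n : ℤ) + (i : ℕ) * w)) := by
          rw [Finset.mul_sum]
      _ ≤ μ * (n + μ * W + 12) := hup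
  have hSt : (μ + 1) * t ≤ S * t := Nat.mul_le_mul_right _ hSμ
  have e1 : (μ + 1) * t = μ * t + t := by ring
  have e2 : μ * (n + μ * W + 12) = μ * t + T0 := by rw [hn, hT0]; ring
  have : t ≤ T0 := by
    have := hSt.trans hchain
    rw [e1, e2] at this
    omega
  omega

/-- There are no generators in large weights. -/
theorem exists_bound (hyp : GradedHyp RR V ⇑E₄ ⇑E₆) (L : LocalGens (K := ℂ) V ⇑E₄ ⇑E₆ d F)
    (hVM : ∀ k, V k ≤ MFG 𝒢 k) (hMfin : ∀ k, Module.Finite ℂ (MFG 𝒢 k))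
    (hodd : ∀ k : ℤ, Odd k → ∀ x ∈ MFG 𝒢 k, x = 0)
    (w : ℤ) (h : ℍ → ℂ) (hh : h ∈ MFG 𝒢 w) (hseed : SeedHyp 𝒢 w h) :
    ∃ N0 : ℕ, ∀ m, N0 < m → d m = 0 := by
  have hfin : {m : ℕ | d m ≠ 0}.Finite := by
    by_contra hinf
    obtain ⟨T, hT, hcard⟩ := Set.Infinite.exists_subset_card_eq hinf (Fintype.card (Q 𝒢) + 1)
    have hle := sum_d_le hyp L hVM hMfin hodd w h hh hseed (T.sup id)
    have h1 : T.card ≤ ∑ m ∈ T, d m := by
      rw [Finset.card_eq_sum_ones]
      refine Finset.sum_le_sum fun m hm => ?_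
      have : d m ≠ 0 := hT hm
      omega
    have h2 : ∑ m ∈ T, d m ≤ ∑ m ∈ Finset.range (T.sup id + 1), d m := by
      refine Finset.sum_le_sum_of_subset fun m hm => ?_
      rw [Finset.mem_range]
      have : id m ≤ T.sup id := Finset.le_sup hm
      simp only [id] at this
      omega
    omega
  obtain ⟨N0, hN0⟩ := hfin.bddAbove
  refine ⟨N0, fun m hm => ?_⟩
  by_contra hne
  have := hN0 hne
  omega

end count

/-- **Core theorem**: from the graded freeness hypotheses, a seed and a nowhere vanishing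
level one multiplier `c` with `c * MFG ⊆ V`, the graded module `V` has a free basis indexed
by the cosets whose fundamental determinant does not vanish identically. -/
theorem stmt_Basis_core (V : ℤ → Submodule ℂ (ℍ → ℂ))
    (hyp : GradedHyp RR V ⇑E₄ ⇑E₆)
    (hVM : ∀ k, V k ≤ MFG 𝒢 k) (hMfin : ∀ k, Module.Finite ℂ (MFG 𝒢 k))
    (hodd : ∀ k : ℤ, Odd k → ∀ x ∈ MFG 𝒢 k, x = 0)
    (w : ℤ) (h : ℍ → ℂ) (hh : h ∈ MFG 𝒢 w) (hseed : SeedHyp 𝒢 w h)
    (ω0 : ℤ) (c : ℍ → ℂ) (hc0 : ∀ z, c z ≠ 0) (hcinv : ∀ γ : SL(2, ℤ), c ∣[ω0] γ = c)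
    (hcV : ∀ (a : ℤ) (x : ℍ → ℂ), x ∈ MFG 𝒢 a → c * x ∈ V (ω0 + a)) :
    Stmt_Basis 𝒢 V := by
  classical
  obtain ⟨d, F, L⟩ := exists_localGens hyp
  obtain ⟨N0, hN0⟩ := exists_bound hyp L hVM hMfin hodd w h hh hseed
  -- the finite family of generators
  let J : Type := Σ m : Fin (N0 + 1), Fin (d m)
  let κJ : J → ℤ := fun j => ((j.1 : ℕ) : ℤ)
  let FJ : J → ℍ → ℂ := fun j => F j.1 j.2
  have hFJ : ∀ j : J, FJ j ∈ V (κJ j) := fun j => L.mem _ _
  have hgen : ∀ (n : ℤ) (f : ℍ → ℂ), f ∈ V n →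
      ∃ P : J → ℍ → ℂ, (∀ j, P j ∈ RR (n - κJ j)) ∧ f = ∑ j, P j * FJ j :=
    fun n f hf => gen_sigma hyp L N0 hN0 n f hf
  have hindep : ∀ (n : ℤ) (P : J → ℍ → ℂ), (∀ j, P j ∈ RR (n - κJ j)) →
      ∑ j, P j * FJ j = 0 → ∀ j, P j = 0 :=
    fun n P hP h0 => indep_sigma hyp L N0 n P hP h0
  have hcardJ : Fintype.card J ≤ Fintype.card (Q 𝒢) := by
    have := sum_d_le hyp L hVM hMfin hodd w h hh hseed N0
    simpa [J, Fintype.card_sigma, Finset.sum_range] using this
  -- the generic point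
  obtain ⟨z0, hz0⟩ := exists_discFun_ne_zero 𝒢 w h hh hseed
  have hinj := injective_of_discFun_ne_zero 𝒢 w h z0 hz0
  have hexp : ∀ i : ℕ, ∃ P : J → ℍ → ℂ, (∀ j, P j ∈ RR (ω0 + i * w - κJ j)) ∧
      c * h ^ i = ∑ j, P j * FJ j :=
    fun i => hgen _ _ (hcV _ _ (MFG_pow 𝒢 hh i))
  have hLK : ∀ v : Q 𝒢 → ℂ, (∀ j, ∑ q, v q * tr 𝒢 (κJ j) (FJ j) q z0 = 0) → v = 0 :=
    fun v hv => left_kernel_trivial 𝒢 κJ FJ w h ω0 c hcinv hexp z0 (hc0 z0) hinj v hv
  -- card Q ≤ card J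
  have hcardQ : Fintype.card (Q 𝒢) ≤ Fintype.card J := by
    let Λ : (Q 𝒢 → ℂ) →ₗ[ℂ] (J → ℂ) :=
      { toFun := fun v j => ∑ q, v q * tr 𝒢 (κJ j) (FJ j) q z0
        map_add' := fun v v' => by
          funext j
          simp [add_mul, Finset.sum_add_distrib]
        map_smul' := fun a v => by
          funext j
          simp [Finset.mul_sum, mul_assoc] }
    have hΛ : Function.Injective Λ := by
      rw [injective_iff_map_eq_zero]
      intro v hv
      exact hLK v (fun j => congrFun hv j)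
    have := LinearMap.finrank_le_finrank_of_injective hΛ
    simpa using this
  have hcard : Fintype.card (Q 𝒢) = Fintype.card J := le_antisymm hcardQ hcardJ
  let e : Q 𝒢 ≃ J := Fintype.equivOfCardEq hcard
  refine ⟨fun q => κJ (e q), fun q => FJ (e q), ⟨fun q => hFJ (e q), ?_⟩, z0, ?_⟩
  · -- unique expansions
    intro k f hf
    obtain ⟨P, hP, hPf⟩ := hgen k f hf
    refine ⟨fun q => P (e q), ⟨fun q => hP (e q), ?_⟩, ?_⟩
    · rw [hPf]
      exact (Equiv.sum_comp e (fun j => P j * FJ j)).symm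
    · rintro P' ⟨hP', hP'f⟩
      have hdiff : ∀ j, (fun j => P' (e.symm j) - P j) j = 0 := by
        refine hindep k (fun j => P' (e.symm j) - P j) (fun j => ?_) ?_
        · refine sub_mem ?_ (hP j)
          have := hP' (e.symm j)
          simpa using this
        · have h1 : ∑ j, P' (e.symm j) * FJ j = f := by
            rw [hP'f]
            rw [← Equiv.sum_comp e (fun j => P' (e.symm j) * FJ j)]
            simp
          simp only [sub_mul, Finset.sum_sub_distrib]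
          rw [h1, ← hPf, sub_self]
      funext q
      have := hdiff (e q)
      simp only [Equiv.symm_apply_apply] at this
      exact sub_eq_zero.mp this
  · -- the fundamental determinant
    intro hdet
    obtain ⟨v, hv, hv0⟩ := Matrix.exists_vecMul_eq_zero_iff.mpr hdet
    apply hv
    apply hLK v
    intro j
    have := congrFun hv0 (e.symm j)
    simpa [Matrix.vecMul, dotProduct, transMatrix] using this


omit [𝒢.IsArithmetic] in
/-- `GradedHyp` for `MFG 𝒢` from the basic facts and the division lemma. -/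
lemma gradedHyp_MFG (hB : Stmt_Basic 𝒢) (hD : Stmt_Div (MFG 𝒢)) :
    GradedHyp RR (MFG 𝒢) ⇑E₄ ⇑E₆ where
  one_mem := one_mem_RR
  R_zero := RR_zero
  R_neg := RR_neg
  a_mem := E₄_mem_RR
  b_mem := E₆_mem_RR
  R_mul := RR_mul
  R_gen := RR_gen
  RM_mul := fun m n x y hx hy => hB.2.2.2.2.2.1 m n x y hx hy
  M_neg := fun n hn x hx => by
    have := hB.1 n hn
    rw [this] at hx
    exact (Submodule.mem_bot ℂ).mp hx
  M_fin := hB.2.2.2.2.2.2.2.1
  reg := fun k f g hf hg hfg => hD k f g hf hg hfg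

omit [𝒢.IsArithmetic] in
/-- `GradedHyp` for `CFG 𝒢` from the basic facts and the division lemma. -/
lemma gradedHyp_CFG (hB : Stmt_Basic 𝒢) (hD : Stmt_Div (CFG 𝒢)) :
    GradedHyp RR (CFG 𝒢) ⇑E₄ ⇑E₆ where
  one_mem := one_mem_RR
  R_zero := RR_zero
  R_neg := RR_neg
  a_mem := E₄_mem_RR
  b_mem := E₆_mem_RR
  R_mul := RR_mul
  R_gen := RR_gen
  RM_mul := fun m n x y hx hy => hB.2.2.2.2.2.2.1 m n x y hx hy
  M_neg := fun n hn x hx => by
    have := hB.2.2.2.1 n hn.le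
    rw [this] at hx
    exact (Submodule.mem_bot ℂ).mp hx
  M_fin := fun n => by
    have := hB.2.2.2.2.2.2.2.1 n
    exact Submodule.finiteDimensional_of_le (hB.2.2.2.2.1 n)
  reg := fun k f g hf hg hfg => hD k f g hf hg hfg

/-- The discriminant as a cusp form of level `𝒢 ≤ 𝒮ℒ`. -/
def discCF (hle : 𝒢 ≤ 𝒮ℒ) : CuspForm 𝒢 12 where
  toFun := ModularForm.discriminant
  slash_action_eq' γ hγ := CuspForm.discriminant.slash_action_eq' γ (hle hγ)
  holo' := CuspForm.discriminant.holo'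
  zero_at_cusps' hc := CuspForm.discriminant.zero_at_cusps' (hc.mono hle)

lemma discriminant_mul_mem_CFG (hle : 𝒢 ≤ 𝒮ℒ) (a : ℤ) (x : ℍ → ℂ) (hx : x ∈ MFG 𝒢 a) :
    (ModularForm.discriminant : ℍ → ℂ) * x ∈ CFG 𝒢 (12 + a) := by
  obtain ⟨X, rfl⟩ := hx
  exact ⟨(discCF 𝒢 hle).mulModularForm X, rfl⟩

lemma discriminant_slash (γ : SL(2, ℤ)) :
    (ModularForm.discriminant : ℍ → ℂ) ∣[(12 : ℤ)] γ = ModularForm.discriminant :=
  CuspForm.discriminant.slash_action_eq' _ ⟨γ, rfl⟩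

end

open Fermat.Agent.S20.helper560 in
/-- **`Goal_BasisM`** of `helper560_Spec`, from `Goal_Basic` and `Goal_DivM`. -/
theorem goal_BasisM (hBasic : Goal_Basic) (hDiv : Goal_DivM) : Goal_BasisM := by
  intro 𝒢 _ _ N hGL hSeed
  have hB := hBasic 𝒢 N hGL
  have hD := hDiv 𝒢 N hGL
  obtain ⟨w, h, hh, hseed⟩ := hSeed
  refine stmt_Basis_core 𝒢 (MFG 𝒢) (gradedHyp_MFG 𝒢 hB hD) (fun k => le_rfl)
    hB.2.2.2.2.2.2.2.1 (fun k hk x hx => ?_) w h hh hseed 0 1 (fun z => one_ne_zero)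
    (fun γ => ModularForm.is_invariant_one γ) (fun a x hx => ?_)
  · have := hB.2.1 k hk
    rw [this] at hx
    exact (Submodule.mem_bot ℂ).mp hx
  · rw [one_mul, zero_add]
    exact hx

open Fermat.Agent.S20.helper560 in
/-- **`Goal_BasisS`** of `helper560_Spec`, from `Goal_Basic` and `Goal_DivS`. -/
theorem goal_BasisS (hBasic : Goal_Basic) (hDiv : Goal_DivS) : Goal_BasisS := by
  intro 𝒢 _ _ N hGL hSeed
  have hB := hBasic 𝒢 N hGL
  have hD := hDiv 𝒢 N hGL
  obtain ⟨w, h, hh, hseed⟩ := hSeed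
  refine stmt_Basis_core 𝒢 (CFG 𝒢) (gradedHyp_CFG 𝒢 hB hD) hB.2.2.2.2.1
    hB.2.2.2.2.2.2.2.1 (fun k hk x hx => ?_) w h hh hseed 12 ModularForm.discriminant
    ModularForm.discriminant_ne_zero discriminant_slash
    (fun a x hx => discriminant_mul_mem_CFG 𝒢 hGL.le a x hx)
  have := hB.2.1 k hk
  rw [this] at hx
  exact (Submodule.mem_bot ℂ).mp hx

end Fermat.Agent.S20.helper201
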