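/-
S20: proofs of `Goal_Basic`, `Goal_Hilbert`, `Goal_RRdim` of `helper560_Spec` (seat helper560).
-/
import Fermat.Agent.S20.helper560_Spec
import Fermat.Prelude.Thm_ModularForm_eq_zero_of_lt_order_qExpansion_of_isArithmetic

set_option autoImplicit false

open UpperHalfPlane ModularForm
open scoped MatrixGroups Manifold Pointwise

namespace Fermat.Agent.S20.helper560

noncomputable section

/-- the coercion to functions, as a linear map into `MFG 𝒢 k` -/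
def toMFG (𝒢 : Subgroup (GL (Fin 2) ℝ)) [𝒢.HasDetOne] (k : ℤ) :
    ModularForm 𝒢 k →ₗ[ℂ] MFG 𝒢 k where
  toFun F := ⟨⇑F, F, rfl⟩
  map_add' _ _ := rfl
  map_smul' _ _ := rfl

/-- the coercion to functions, as a linear map into `CFG 𝒢 k` -/
def toCFG (𝒢 : Subgroup (GL (Fin 2) ℝ)) [𝒢.HasDetOne] (k : ℤ) :
    CuspForm 𝒢 k →ₗ[ℂ] CFG 𝒢 k where
  toFun F := ⟨⇑F, F, rfl⟩
  map_add' _ _ := rfl
  map_smul' _ _ := rfl

/-- `ModularForm 𝒢 k` is linearly equivalent to the submodule `MFG 𝒢 k` of functions. -/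
def equivMFG (𝒢 : Subgroup (GL (Fin 2) ℝ)) [𝒢.HasDetOne] (k : ℤ) :
    ModularForm 𝒢 k ≃ₗ[ℂ] MFG 𝒢 k :=
  LinearEquiv.ofBijective (toMFG 𝒢 k)
    ⟨fun _ _ h => DFunLike.coe_injective (congrArg Subtype.val h),
      fun ⟨_, F, hF⟩ => ⟨F, Subtype.ext hF⟩⟩

/-- `CuspForm 𝒢 k` is linearly equivalent to the submodule `CFG 𝒢 k` of functions. -/
def equivCFG (𝒢 : Subgroup (GL (Fin 2) ℝ)) [𝒢.HasDetOne] (k : ℤ) :
    CuspForm 𝒢 k ≃ₗ[ℂ] CFG 𝒢 k :=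
  LinearEquiv.ofBijective (toCFG 𝒢 k)
    ⟨fun _ _ h => DFunLike.coe_injective (congrArg Subtype.val h),
      fun ⟨_, F, hF⟩ => ⟨F, Subtype.ext hF⟩⟩

theorem finrank_MFG (𝒢 : Subgroup (GL (Fin 2) ℝ)) [𝒢.HasDetOne] (k : ℤ) :
    Module.finrank ℂ (MFG 𝒢 k) = Module.finrank ℂ (ModularForm 𝒢 k) :=
  (equivMFG 𝒢 k).finrank_eq.symm

theorem finrank_CFG (𝒢 : Subgroup (GL (Fin 2) ℝ)) [𝒢.HasDetOne] (k : ℤ) :
    Module.finrank ℂ (CFG 𝒢 k) = Module.finrank ℂ (CuspForm 𝒢 k) :=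
  (equivCFG 𝒢 k).finrank_eq.symm

instance instFiniteRR (k : ℤ) : Module.Finite ℂ (RR k) :=
  Module.Finite.equiv (equivMFG 𝒮ℒ k)

/-- (RRDIM) -/
theorem goal_RRdim : Goal_RRdim := by
  intro k
  rw [finrank_MFG]
  by_cases h : k < 0 ∨ Odd k
  · rw [if_pos h]
    rcases h with h | h
    · exact Module.finrank_eq_zero_of_rank_eq_zero (levelOne_neg_weight_rank_zero h)
    · exact Module.finrank_eq_zero_of_rank_eq_zero (levelOne_odd_weight_rank_zero h)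
  · rw [if_neg h]
    push Not at h
    obtain ⟨h0, hodd⟩ := h
    rw [Int.not_odd_iff_even] at hodd
    lift k to ℕ using h0
    have hev : Even k := by exact_mod_cast hodd
    have hr := dimension_level_one k hev
    have hf : Module.finrank ℂ (ModularForm 𝒮ℒ (k : ℤ)) =
        (if k ≡ 2 [MOD 12] then k / 12 else k / 12 + 1) := by
      rw [Module.finrank, hr, Cardinal.toNat_natCast]
    rw [hf]
    have e1 : ((k : ℤ) / 12).toNat = k / 12 := by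
      rw [show ((k : ℤ) / 12) = ((k / 12 : ℕ) : ℤ) by norm_cast]
      exact Int.toNat_natCast _
    rw [e1]
    by_cases h2 : k % 12 = 2
    · have : (k : ℤ) % 12 = 2 := by omega
      rw [if_pos this, if_pos (by exact h2)]
    · have : ¬ (k : ℤ) % 12 = 2 := by omega
      rw [if_neg this, if_neg (by exact h2)]

/-- (HILB) -/
theorem goal_Hilbert : Goal_Hilbert := by
  intro V J _ κ F hF hmul k
  classical
  have hmem : ∀ P : (∀ j, RR (k - κ j)), ∑ j, (P j : ℍ → ℂ) * F j ∈ V k := by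
    intro P
    refine Submodule.sum_mem _ fun j _ => ?_
    have := hmul (k - κ j) (κ j) _ _ (P j).2 (hF.1 j)
    rwa [sub_add_cancel] at this
  let φ : (∀ j, RR (k - κ j)) →ₗ[ℂ] V k :=
    { toFun := fun P => ⟨∑ j, (P j : ℍ → ℂ) * F j, hmem P⟩
      map_add' := by
        intro P P'
        apply Subtype.ext
        simp [add_mul, Finset.sum_add_distrib]
      map_smul' := by
        intro c P
        apply Subtype.ext
        simp [Finset.smul_sum] }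
  have hφ : ∀ P, ((φ P : V k) : ℍ → ℂ) = ∑ j, (P j : ℍ → ℂ) * F j := fun _ => rfl
  have hbij : Function.Bijective φ := by
    constructor
    · intro P P' h
      have hf := hF.2 k (φ P : V k) (φ P).2
      have h1 : (fun j => (P j : ℍ → ℂ)) = fun j => (P' j : ℍ → ℂ) := by
        refine hf.unique ⟨fun j => (P j).2, hφ P⟩ ⟨fun j => (P' j).2, ?_⟩
        rw [h]; exact hφ P'
      funext j
      exact Subtype.ext (congrFun h1 j)
    · rintro ⟨f, hf⟩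
      obtain ⟨P₀, ⟨hP₀, hfP⟩, -⟩ := hF.2 k f hf
      exact ⟨fun j => ⟨P₀ j, hP₀ j⟩, Subtype.ext hfP.symm⟩
  rw [← (LinearEquiv.ofBijective φ hbij).finrank_eq, Module.finrank_pi_fintype]

/-- restriction of a level one form to a subgroup `𝒢 ≤ 𝒮ℒ` -/
def restrictSL {𝒢 : Subgroup (GL (Fin 2) ℝ)} (h𝒢 : 𝒢 ≤ 𝒮ℒ) {a : ℤ} (P : ModularForm 𝒮ℒ a) :
    ModularForm 𝒢 a where
  toFun := P
  slash_action_eq' γ hγ := P.slash_action_eq' γ (h𝒢 hγ)
  holo' := P.holo'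
  bdd_at_cusps' hc := P.bdd_at_cusps' (hc.mono h𝒢)

theorem coe_restrictSL {𝒢 : Subgroup (GL (Fin 2) ℝ)} (h𝒢 : 𝒢 ≤ 𝒮ℒ) {a : ℤ}
    (P : ModularForm 𝒮ℒ a) : ⇑(restrictSL h𝒢 P) = ⇑P := rfl

theorem RR_le_MFG {𝒢 : Subgroup (GL (Fin 2) ℝ)} [𝒢.HasDetOne] (h𝒢 : 𝒢 ≤ 𝒮ℒ) (a : ℤ) :
    RR a ≤ MFG 𝒢 a := by
  rintro _ ⟨P, rfl⟩
  exact ⟨restrictSL h𝒢 P, rfl⟩

theorem CFG_le_MFG (𝒢 : Subgroup (GL (Fin 2) ℝ)) [𝒢.HasDetOne] (k : ℤ) :
    CFG 𝒢 k ≤ MFG 𝒢 k := by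
  rintro _ ⟨F, rfl⟩
  exact ⟨ModularFormClass.modularForm F, rfl⟩

theorem MFG_mul_mem {𝒢 : Subgroup (GL (Fin 2) ℝ)} [𝒢.HasDetOne] {a b : ℤ} {f g : ℍ → ℂ}
    (hf : f ∈ MFG 𝒢 a) (hg : g ∈ MFG 𝒢 b) : f * g ∈ MFG 𝒢 (a + b) := by
  obtain ⟨F, rfl⟩ := hf
  obtain ⟨G, rfl⟩ := hg
  exact ⟨F.mul G, rfl⟩

theorem CFG_mul_mem {𝒢 : Subgroup (GL (Fin 2) ℝ)} [𝒢.HasDetOne] {a b : ℤ} {f g : ℍ → ℂ}
    (hf : f ∈ MFG 𝒢 a) (hg : g ∈ CFG 𝒢 b) : f * g ∈ CFG 𝒢 (a + b) := by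
  obtain ⟨F, rfl⟩ := hf
  obtain ⟨G, rfl⟩ := hg
  rw [add_comm a b, mul_comm]
  exact ⟨G.mulModularForm F, rfl⟩

theorem MFG_eq_bot_of_neg (𝒢 : Subgroup (GL (Fin 2) ℝ)) [𝒢.IsArithmetic] [𝒢.HasDetOne]
    {k : ℤ} (hk : k < 0) : MFG 𝒢 k = ⊥ := by
  rw [Submodule.eq_bot_iff]
  rintro _ ⟨F, rfl⟩
  rw [ModularForm.isZero_of_neg_weight hk F]
  rfl

theorem MFG_eq_bot_of_odd (𝒢 : Subgroup (GL (Fin 2) ℝ)) [𝒢.HasDetOne]
    (hneg : -1 ∈ 𝒢) {k : ℤ} (hk : Odd k) : MFG 𝒢 k = ⊥ := by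
  rw [Submodule.eq_bot_iff]
  rintro _ ⟨F, rfl⟩
  rw [ModularForm.eq_zero_of_neg_one_mem hneg hk F]
  rfl

theorem MFG_zero_eq (𝒢 : Subgroup (GL (Fin 2) ℝ)) [𝒢.IsArithmetic] [𝒢.HasDetOne] :
    MFG 𝒢 0 = Submodule.span ℂ {(1 : ℍ → ℂ)} := by
  apply le_antisymm
  · rintro _ ⟨F, rfl⟩
    obtain ⟨c, hc⟩ := ModularForm.eq_const_of_weight_zero F
    rw [hc, Submodule.mem_span_singleton]
    exact ⟨c, by ext z; simp⟩
  · rw [Submodule.span_singleton_le_iff_mem]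
    exact ⟨ModularForm.const 1, by ext z; simp [ModularForm.const_apply]⟩

theorem finrank_MFG_zero (𝒢 : Subgroup (GL (Fin 2) ℝ)) [𝒢.IsArithmetic] [𝒢.HasDetOne] :
    Module.finrank ℂ (MFG 𝒢 0) = 1 := by
  rw [MFG_zero_eq]
  exact finrank_span_singleton one_ne_zero

theorem CFG_eq_bot_of_nonpos (𝒢 : Subgroup (GL (Fin 2) ℝ)) [𝒢.IsArithmetic] [𝒢.HasDetOne]
    {k : ℤ} (hk : k ≤ 0) : CFG 𝒢 k = ⊥ := by
  rcases hk.lt_or_eq with hk | rfl
  · rw [eq_bot_iff, ← MFG_eq_bot_of_neg 𝒢 hk]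
    exact CFG_le_MFG 𝒢 k
  · rw [Submodule.eq_bot_iff]
    rintro _ ⟨F, rfl⟩
    obtain ⟨c, hc⟩ := ModularForm.eq_const_of_weight_zero (ModularFormClass.modularForm F)
    have hc' : (⇑F : ℍ → ℂ) = Function.const ℍ c := hc
    have hz : IsZeroAtImInfty (⇑F : ℍ → ℂ) := CuspFormClass.zero_at_infty F
    rw [hc'] at hz ⊢
    have h0 : c = 0 := tendsto_nhds_unique tendsto_const_nhds hz
    rw [h0]
    rfl

theorem mem_strictPeriods_of_goodLevel {𝒢 : Subgroup (GL (Fin 2) ℝ)} {N : ℕ}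
    (hg : GoodLevel 𝒢 N) : (N : ℝ) ∈ 𝒢.strictPeriods := by
  have := hg.per 1
  simpa using this

/-- finite-dimensionality of `ModularForm 𝒢 k` from the Sturm bound of the Prelude. -/
theorem finite_modularForm {𝒢 : Subgroup (GL (Fin 2) ℝ)} [𝒢.IsArithmetic] [𝒢.HasDetOne]
    {N : ℕ} (hg : GoodLevel 𝒢 N) (k : ℤ) : Module.Finite ℂ (ModularForm 𝒢 k) := by
  have hN : (0 : ℝ) < N := by exact_mod_cast hg.pos
  have hper := mem_strictPeriods_of_goodLevel hg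
  set B : ℕ := N * ((k * 𝒢.relIndex 𝒮ℒ).toNat / 12) with hB
  let φ : ModularForm 𝒢 k →ₗ[ℂ] (Fin (B + 1) → ℂ) :=
    { toFun := fun F i => (qExpansion (N : ℝ) F).coeff i
      map_add' := by
        intro F G
        funext i
        have : (⇑(F + G) : ℍ → ℂ) = ⇑F + ⇑G := rfl
        rw [this, ModularForm.qExpansion_add hN hper F G]
        simp
      map_smul' := by
        intro c F
        funext i
        have : (⇑(c • F) : ℍ → ℂ) = c • ⇑F := rfl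
        rw [this, ModularForm.qExpansion_smul hN hper c F]
        simp }
  have hinj : Function.Injective φ := by
    rw [← LinearMap.ker_eq_bot, LinearMap.ker_eq_bot']
    intro F hF
    refine ModularForm.eq_zero_of_lt_order_qExpansion_of_isArithmetic F hg.pos hg.per ?_
    have h1 : ((B + 1 : ℕ) : ℕ∞) ≤ (qExpansion (N : ℝ) F).order := by
      refine PowerSeries.nat_le_order _ _ fun i hi => ?_
      have := congrFun hF ⟨i, hi⟩
      exact this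
    refine lt_of_lt_of_le ?_ h1
    exact_mod_cast Nat.lt_succ_self B
  exact Module.Finite.of_injective φ hinj

/-- (BASIC) -/
theorem goal_Basic : Goal_Basic := by
  intro 𝒢 _ _ N hg
  refine ⟨fun k hk => MFG_eq_bot_of_neg 𝒢 hk, fun k hk => MFG_eq_bot_of_odd 𝒢 hg.neg hk,
    finrank_MFG_zero 𝒢, fun k hk => CFG_eq_bot_of_nonpos 𝒢 hk, CFG_le_MFG 𝒢,
    fun a b P f hP hf => MFG_mul_mem (RR_le_MFG hg.le a hP) hf,
    fun a b P f hP hf => CFG_mul_mem (RR_le_MFG hg.le a hP) hf, fun k => ?_, finrank_CFG 𝒢 2⟩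
  haveI := finite_modularForm hg k
  exact Module.Finite.equiv (equivMFG 𝒢 k)

end

end Fermat.Agent.S20.helper560
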