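import Fermat.Agent.S20.helper201_Basis
import Fermat.Agent.S20.helper560_Basic
import Fermat.Agent.S20.helper813_Div

set_option autoImplicit false

/-!
# `Goal_BasisM` and `Goal_BasisS` of `helper560_Spec`, hypothesis-free (seat helper201)

Combines `helper201.goal_BasisM / goal_BasisS` (hypothesis-passing) with
`helper560.goal_Basic` and `helper813.goal_DivM / goal_DivS`.
-/

namespace Fermat.Agent.S20.helper201

open Fermat.Agent.S20.helper560

/-- **`Goal_BasisM`**: `MFG 𝒢` has a free basis over the level one ring indexed by the cosets,
with fundamental determinant not identically zero. -/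
theorem goal_BasisM_closed : Goal_BasisM :=
  goal_BasisM Fermat.Agent.S20.helper560.goal_Basic Fermat.Agent.S20.helper813.goal_DivM

/-- **`Goal_BasisS`**: the same for cusp forms `CFG 𝒢`. -/
theorem goal_BasisS_closed : Goal_BasisS :=
  goal_BasisS Fermat.Agent.S20.helper560.goal_Basic Fermat.Agent.S20.helper813.goal_DivS

end Fermat.Agent.S20.helper201
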