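import Fermat.Agent.S20.helper560_Defs

set_option autoImplicit false

/-!
# Level one input for the graded freeness lemma (seat helper201)

Function-level facts on `RR k = MFG 𝒮ℒ k` (level one forms as functions `ℍ → ℂ`):
`RR 0 = ℂ`, `RR k = 0` for `k < 0`, closure under products, the decomposition
`RR n = E₄ * RR (n - 4) + E₆ * RR (n - 6)` for `n ≠ 0`, finite-dimensionality and the
dimension bounds `12 * dim RR k ≤ k + 12`, `k ≤ 12 * dim RR k + 10` (`k ≥ 0` even).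
-/

open UpperHalfPlane ModularForm
open scoped MatrixGroups Manifold

namespace Fermat.Agent.S20.helper201

open Fermat.Agent.S20.helper560

noncomputable section

/-- Coercion to functions as a linear map `ModularForm 𝒢 k →ₗ[ℂ] MFG 𝒢 k`. -/
def mfgLin (𝒢 : Subgroup (GL (Fin 2) ℝ)) [𝒢.HasDetOne] (k : ℤ) :
    ModularForm 𝒢 k →ₗ[ℂ] MFG 𝒢 k where
  toFun f := ⟨⇑f, f, rfl⟩
  map_add' _ _ := rfl
  map_smul' _ _ := rfl

/-- Coercion to functions as a linear equivalence `ModularForm 𝒢 k ≃ₗ[ℂ] MFG 𝒢 k`. -/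
def mfgEquiv (𝒢 : Subgroup (GL (Fin 2) ℝ)) [𝒢.HasDetOne] (k : ℤ) :
    ModularForm 𝒢 k ≃ₗ[ℂ] MFG 𝒢 k :=
  LinearEquiv.ofBijective (mfgLin 𝒢 k)
    ⟨fun _ _ hfg => DFunLike.coe_injective (congrArg Subtype.val hfg),
      fun ⟨_, f, hf⟩ => ⟨f, Subtype.ext hf⟩⟩

lemma mfgEquiv_apply (𝒢 : Subgroup (GL (Fin 2) ℝ)) [𝒢.HasDetOne] (k : ℤ) (f : ModularForm 𝒢 k) :
    ((mfgEquiv 𝒢 k f : MFG 𝒢 k) : ℍ → ℂ) = ⇑f := rfl

lemma MFG_mul {𝒢 : Subgroup (GL (Fin 2) ℝ)} [𝒢.HasDetOne] (m n : ℤ) (x y : ℍ → ℂ)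
    (hx : x ∈ MFG 𝒢 m) (hy : y ∈ MFG 𝒢 n) : x * y ∈ MFG 𝒢 (m + n) := by
  obtain ⟨f, rfl⟩ := hx
  obtain ⟨g, rfl⟩ := hy
  exact ⟨f.mul g, rfl⟩

lemma MFG_cast {𝒢 : Subgroup (GL (Fin 2) ℝ)} [𝒢.HasDetOne] {m n : ℤ} (h : m = n) {x : ℍ → ℂ}
    (hx : x ∈ MFG 𝒢 m) : x ∈ MFG 𝒢 n := h ▸ hx

lemma one_mem_RR : (1 : ℍ → ℂ) ∈ RR 0 := ⟨1, rfl⟩

lemma RR_zero (x : ℍ → ℂ) (hx : x ∈ RR 0) : ∃ c : ℂ, x = c • (1 : ℍ → ℂ) := by
  obtain ⟨f, rfl⟩ := hx
  obtain ⟨c, hc⟩ := ModularFormClass.levelOne_weight_zero_const f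
  refine ⟨c, ?_⟩
  rw [hc]
  ext z
  simp

lemma RR_neg (n : ℤ) (hn : n < 0) (x : ℍ → ℂ) (hx : x ∈ RR n) : x = 0 := by
  obtain ⟨f, rfl⟩ := hx
  exact ModularFormClass.levelOne_neg_weight_eq_zero hn f

lemma E₄_mem_RR : ⇑E₄ ∈ RR 4 := ⟨E₄, rfl⟩

lemma E₆_mem_RR : ⇑E₆ ∈ RR 6 := ⟨E₆, rfl⟩

lemma RR_mul (m n : ℤ) (x y : ℍ → ℂ) (hx : x ∈ RR m) (hy : y ∈ RR n) : x * y ∈ RR (m + n) :=
  MFG_mul m n x y hx hy

instance instFiniteRR (k : ℤ) : Module.Finite ℂ (RR k) :=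
  Module.Finite.equiv (mfgEquiv 𝒮ℒ k)

lemma finrank_RR (k : ℤ) : Module.finrank ℂ (RR k) = Module.finrank ℂ (ModularForm 𝒮ℒ k) :=
  (mfgEquiv 𝒮ℒ k).finrank_eq.symm

/-- The discriminant as a function, in terms of `E₄`, `E₆`. -/
lemma discriminant_fun_eq :
    (ModularForm.discriminant : ℍ → ℂ) = (1 / 1728 : ℂ) • (⇑E₄ ^ 3 - ⇑E₆ ^ 2) := by
  ext z
  rw [discriminant_eq_E₄_cube_sub_E₆_sq z]
  simp only [Pi.smul_apply, Pi.sub_apply, Pi.pow_apply, smul_eq_mul]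
  ring

/-- `Δ * RR (n - 12) ⊆ E₄ * RR (n - 4) + E₆ * RR (n - 6)`. -/
lemma discriminant_mul_mem (n : ℤ) (g : ℍ → ℂ) (hg : g ∈ RR (n - 12)) :
    ∃ u ∈ RR (n - 4), ∃ v ∈ RR (n - 6),
      (ModularForm.discriminant : ℍ → ℂ) * g = ⇑E₄ * u + ⇑E₆ * v := by
  refine ⟨(1 / 1728 : ℂ) • (⇑E₄ * (⇑E₄ * g)), ?_, (-1 / 1728 : ℂ) • (⇑E₆ * g), ?_, ?_⟩
  · refine Submodule.smul_mem _ _ ?_
    exact MFG_cast (by ring) (RR_mul _ _ _ _ E₄_mem_RR (RR_mul _ _ _ _ E₄_mem_RR hg))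
  · refine Submodule.smul_mem _ _ ?_
    exact MFG_cast (by ring) (RR_mul _ _ _ _ E₆_mem_RR hg)
  · rw [discriminant_fun_eq]
    ext z
    simp only [Pi.smul_apply, Pi.sub_apply, Pi.pow_apply, Pi.mul_apply, Pi.add_apply, smul_eq_mul]
    ring

/-- A level one form minus its constant term times a normalised form is `Δ` times a form. -/
lemma exists_eq_smul_add_discriminant_mul (n : ℤ) (f G : ModularForm 𝒮ℒ n)
    (hG : (qExpansion 1 G).coeff 0 = 1) :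
    ∃ g : ModularForm 𝒮ℒ (n - 12),
      (⇑f : ℍ → ℂ) = (qExpansion 1 f).coeff 0 • ⇑G + (ModularForm.discriminant : ℍ → ℂ) * ⇑g := by
  obtain ⟨h, hh⟩ := ModularForm.sub_smul_isCuspForm f G hG
  refine ⟨CuspForm.discriminantEquiv h, ?_⟩
  rw [ModularForm.discriminant_mul_discriminantEquiv]
  have : (⇑h : ℍ → ℂ) = ⇑f - (qExpansion 1 f).coeff 0 • ⇑G :=
    congrArg (fun F : ModularForm 𝒮ℒ n => (⇑F : ℍ → ℂ)) hh
  rw [this]
  ring

/-- Normalised forms inside `E₄ * RR (n - 4) + E₆ * RR (n - 6)` for even `n ≥ 4`. -/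
lemma exists_normalised (n : ℕ) (hn : 4 ≤ n) (hn2 : Even n) :
    ∃ G : ModularForm 𝒮ℒ n, (qExpansion 1 G).coeff 0 = 1 ∧
      ∃ u ∈ RR ((n : ℤ) - 4), ∃ v ∈ RR ((n : ℤ) - 6), (⇑G : ℍ → ℂ) = ⇑E₄ * u + ⇑E₆ * v := by
  have hn3 : 3 ≤ n := by omega
  rcases Nat.lt_or_ge n 8 with h8 | h8
  · -- `n = 4` or `n = 6`
    have h46 : n = 4 ∨ n = 6 := by
      obtain ⟨r, hr⟩ := hn2
      omega
    rcases h46 with rfl | rfl
    · refine ⟨E₄, EisensteinSeries.E_qExpansion_coeff_zero _ ⟨2, rfl⟩, 1, ?_, 0, zero_mem _, ?_⟩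
      · exact MFG_cast (by norm_num) one_mem_RR
      · simp
    · refine ⟨E₆, EisensteinSeries.E_qExpansion_coeff_zero _ ⟨3, rfl⟩, 0, zero_mem _, 1, ?_, ?_⟩
      · exact MFG_cast (by norm_num) one_mem_RR
      · simp
  · -- `n ≥ 8`: `E₄ * E_{n-4}`
    have hk : 3 ≤ n - 4 := by omega
    have hk2 : Even (n - 4) := by
      obtain ⟨r, hr⟩ := hn2
      exact ⟨r - 2, by omega⟩
    have hw : (4 : ℤ) + ((n - 4 : ℕ) : ℤ) = (n : ℤ) := by omega
    refine ⟨ModularForm.mcast hw (E₄.mul (E hk)), ?_, ⇑(E hk), ?_, 0, zero_mem _, ?_⟩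
    · rw [ModularForm.qExpansion_mcast, ModularForm.qExpansion_mul one_pos one_mem_strictPeriods_SL]
      rw [PowerSeries.coeff_zero_eq_constantCoeff, map_mul,
        ← PowerSeries.coeff_zero_eq_constantCoeff]
      rw [EisensteinSeries.E_qExpansion_coeff_zero _ ⟨2, rfl⟩,
        EisensteinSeries.E_qExpansion_coeff_zero hk hk2, mul_one]
    · exact MFG_cast (by omega) (⟨E hk, rfl⟩ : (⇑(E hk) : ℍ → ℂ) ∈ RR ((n - 4 : ℕ) : ℤ))
    · simp [ModularForm.coe_mcast, ModularForm.coe_mul]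

/-- **Level one generation**: `RR n = E₄ * RR (n - 4) + E₆ * RR (n - 6)` for `n ≠ 0`. -/
theorem RR_gen (n : ℤ) (hn : n ≠ 0) (x : ℍ → ℂ) (hx : x ∈ RR n) :
    ∃ u ∈ RR (n - 4), ∃ v ∈ RR (n - 6), x = ⇑E₄ * u + ⇑E₆ * v := by
  have hzero : x = 0 → ∃ u ∈ RR (n - 4), ∃ v ∈ RR (n - 6), x = ⇑E₄ * u + ⇑E₆ * v := by
    rintro rfl
    exact ⟨0, zero_mem _, 0, zero_mem _, by simp⟩
  rcases lt_or_ge n 0 with hneg | hnonneg
  · exact hzero (RR_neg n hneg x hx)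
  obtain ⟨f, rfl⟩ := hx
  lift n to ℕ using hnonneg
  rcases Nat.even_or_odd n with he | ho
  · rcases Nat.lt_or_ge n 4 with h4 | h4
    · -- `n = 2`
      have h2 : n = 2 := by
        obtain ⟨r, hr⟩ := he
        have : n ≠ 0 := by exact_mod_cast hn
        omega
      subst h2
      apply hzero
      have := rank_zero_iff_forall_zero.mp ModularForm.levelOne_weight_two_rank_zero f
      rw [this]; rfl
    · obtain ⟨G, hG, u0, hu0, v0, hv0, hGeq⟩ := exists_normalised n h4 he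
      obtain ⟨g, hg⟩ := exists_eq_smul_add_discriminant_mul n f G hG
      obtain ⟨u1, hu1, v1, hv1, hΔ⟩ := discriminant_mul_mem n ⇑g ⟨g, rfl⟩
      generalize (qExpansion 1 f).coeff 0 = c at hg
      refine ⟨c • u0 + u1, add_mem (Submodule.smul_mem _ _ hu0) hu1,
        c • v0 + v1, add_mem (Submodule.smul_mem _ _ hv0) hv1, ?_⟩
      rw [hg, hΔ, hGeq]
      ext z
      simp only [Pi.smul_apply, Pi.mul_apply, Pi.add_apply, smul_eq_mul]
      ring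
  · apply hzero
    have := ModularForm.levelOne_odd_weight_eq_zero (k := (n : ℤ)) (by exact_mod_cast ho) f
    rw [this]; rfl

/-- Upper bound for the level one dimensions. -/
theorem finrank_RR_le (k : ℤ) : 12 * Module.finrank ℂ (RR k) ≤ k.toNat + 12 := by
  rw [finrank_RR]
  rcases lt_or_ge k 0 with hneg | hnonneg
  · have := Module.finrank_eq_of_rank_eq (n := 0)
      (by simpa using ModularForm.levelOne_neg_weight_rank_zero hneg)
    omega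
  lift k to ℕ using hnonneg
  rcases Nat.even_or_odd k with he | ho
  · have h := ModularForm.dimension_level_one k he
    split_ifs at h with h2
    · have := Module.finrank_eq_of_rank_eq (n := k / 12) (by exact_mod_cast h)
      simp only [Int.toNat_natCast]
      omega
    · have := Module.finrank_eq_of_rank_eq (n := k / 12 + 1) (by exact_mod_cast h)
      simp only [Int.toNat_natCast]
      omega
  · have hodd : Odd (k : ℤ) := by exact_mod_cast ho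
    have hr := ModularForm.levelOne_odd_weight_rank_zero hodd
    have := Module.finrank_eq_of_rank_eq (n := 0) (by simpa using hr)
    omega

/-- Lower bound for the level one dimensions in even weight. -/
theorem finrank_RR_ge (k : ℕ) (hk : Even k) : k ≤ 12 * Module.finrank ℂ (RR (k : ℤ)) + 10 := by
  rw [finrank_RR]
  have h := ModularForm.dimension_level_one k hk
  split_ifs at h with h2
  · have := Module.finrank_eq_of_rank_eq (n := k / 12) (by exact_mod_cast h)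
    have h2' : k % 12 = 2 := h2
    omega
  · have := Module.finrank_eq_of_rank_eq (n := k / 12 + 1) (by exact_mod_cast h)
    omega

end

end Fermat.Agent.S20.helper201
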