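/-
S20 (dim S₂(Γ₀(N)) = genus formula): the SANDWICH assembly (seat helper20, captain of S20).

Second, lighter way to finish S20 on top of `helper560_Spec`: instead of a free basis of the
cusp forms, trace duality and the cusp count in weight 24 (`Goal_BasisS`, `Goal_ODES`,
`Goal_Cusp`, `Goal_Dual`), it uses three cheaper facts about a free basis `(κ, F)` of
`M_*(𝒢)` with nowhere vanishing fundamental determinant:

* `Goal_SumKappa` : `∑ κ_j + 6 · #cusps = 6 · μ`            (sum of the generator weights);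
* `Goal_Upper`    : `dim S₂(𝒢) ≤ ∑_j dim M_{κ_j - 10}(SL₂ℤ)`  (trace pairing is injective);
* `Goal_Lower`    : `dim M₂(𝒢) + 1 ≤ dim S₂(𝒢) + #cusps`     (constant terms; trace = 0).

`S20_of_sandwich` derives `helper560.Goal_S20` (= the frozen statement) from these and the
goals of `helper560_Spec` that are already proved (`Goal_Basic`, `Goal_Hilbert`, `Goal_BasisM`,
`Goal_ODEM`, `Goal_EllS`, `Goal_EllST`, `Goal_GoodLevel`, `Goal_Seed` and the four counts).
The arithmetic is `helper1940.genus_of_bounds`.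
-/
import Fermat.Agent.S20.helper560_Assembly
import Fermat.Agent.S20.helper1940_Arith
import Fermat.Agent.S20.helper3006_RRdim

set_option autoImplicit false

open UpperHalfPlane ModularForm
open scoped MatrixGroups Manifold Pointwise

namespace Fermat.Agent.S20.helper20

open Fermat.Agent.S20.helper560

noncomputable section

section general

variable (𝒢 : Subgroup (GL (Fin 2) ℝ)) [𝒢.IsArithmetic] [𝒢.HasDetOne]

/-- (SUMK) the generator weights of a free basis of `M_*(𝒢)` (indexed by the cosets, with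
nowhere vanishing fundamental determinant) add up to `6 (μ - #cusps)`. -/
def Stmt_SumKappa : Prop :=
  ∀ (κ : Q 𝒢 → ℤ) (F : Q 𝒢 → ℍ → ℂ), IsFreeBasis (MFG 𝒢) κ F →
    (∀ z, fundDet 𝒢 κ F z ≠ 0) →
    ∑ j, κ j + 6 * (cusps 𝒢 : ℤ) = 6 * (mu 𝒢 : ℤ)

/-- (UPPER) for a family of forms with nowhere vanishing fundamental determinant, the weight
two cusp forms embed in `∏_j M_{κ_j - 10}(SL₂ℤ)` (by `g ↦ Tr(g F_j) / Δ`). -/
def Stmt_Upper : Prop :=
  ∀ (κ : Q 𝒢 → ℤ) (F : Q 𝒢 → ℍ → ℂ), (∀ j, F j ∈ MFG 𝒢 (κ j)) →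
    (∀ z, fundDet 𝒢 κ F z ≠ 0) →
    Module.finrank ℂ (CFG 𝒢 2) ≤ ∑ j, Module.finrank ℂ (RR (κ j - 10))

/-- (LOWER) the constant terms of a weight two form at the cusps satisfy one linear relation
(the trace to level one vanishes) and they all vanish exactly for cusp forms. -/
def Stmt_Lower : Prop :=
  Module.finrank ℂ (MFG 𝒢 2) + 1 ≤ Module.finrank ℂ (CFG 𝒢 2) + cusps 𝒢

end general

def Goal_SumKappa : Prop :=
  ∀ (𝒢 : Subgroup (GL (Fin 2) ℝ)) [𝒢.IsArithmetic] [𝒢.HasDetOne] (N : ℕ),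
    GoodLevel 𝒢 N → Stmt_SumKappa 𝒢

def Goal_Upper : Prop :=
  ∀ (𝒢 : Subgroup (GL (Fin 2) ℝ)) [𝒢.IsArithmetic] [𝒢.HasDetOne] (N : ℕ),
    GoodLevel 𝒢 N → Stmt_Upper 𝒢

def Goal_Lower : Prop :=
  ∀ (𝒢 : Subgroup (GL (Fin 2) ℝ)) [𝒢.IsArithmetic] [𝒢.HasDetOne] (N : ℕ),
    GoodLevel 𝒢 N → Stmt_Lower 𝒢

/-! ### From the trace identities at `i` and `ρ` to residue class counts -/

theorem I_zpow_neg_natCast_even (k : ℕ) (hk : Even k) :
    Complex.I ^ (-(k : ℤ)) = if 4 ∣ k then 1 else -1 := by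
  obtain ⟨b, hb⟩ := hk
  have h2 : (k : ℤ) = 2 * (b : ℕ) := by omega
  rw [I_zpow_neg_even (k : ℤ) b h2]
  rcases Nat.even_or_odd b with hbe | hbo
  · rw [hbe.neg_one_pow, if_pos]
    obtain ⟨c, hc⟩ := hbe
    exact ⟨c, by omega⟩
  · rw [hbo.neg_one_pow, if_neg]
    rintro ⟨c, hc⟩
    obtain ⟨d, hd⟩ := hbo
    omega

theorem xi_zpow_neg_natCast_even (k : ℕ) (hk : Even k) :
    ((rho : ℂ) + 1) ^ (-(k : ℤ)) =
      if k % 6 = 0 then 1 else if k % 6 = 2 then rhobar else (rho : ℂ) := by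
  obtain ⟨b, hb⟩ := hk
  have h2 : (k : ℤ) = 2 * (b : ℕ) := by omega
  rw [xi_zpow_neg_even (k : ℤ) b h2, pow_eq_pow_mod b rhobar_cube]
  have hb3 : b % 3 < 3 := Nat.mod_lt _ (by norm_num)
  have h6 : k % 6 = 2 * (b % 3) := by omega
  rw [h6]
  interval_cases h : b % 3
  · simp
  · simp
  · simp [rhobar_sq]

theorem rho_im : (rho : ℂ).im = Real.sqrt 3 / 2 := rfl

theorem rhobar_im : rhobar.im = -(Real.sqrt 3 / 2) := rfl

/-- residue class counts of even weights from the two trace identities -/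
theorem counts_of_traces {J : Type} [Fintype J] (k : J → ℕ) (hk : ∀ j, Even (k j))
    (μ e2 e3 : ℕ) (hcard : Fintype.card J = μ)
    (hS : ∑ j, Complex.I ^ (-(k j : ℤ)) = (e2 : ℂ))
    (hST : ∑ j, ((rho : ℂ) + 1) ^ (-(k j : ℤ)) = (e3 : ℂ)) :
    2 * (Finset.univ.filter fun j => 4 ∣ k j).card = μ + e2 ∧
    3 * (Finset.univ.filter fun j => 6 ∣ k j).card = μ + 2 * e3 ∧
    3 * (Finset.univ.filter fun j => k j % 6 = 2).card + e3 = μ := by
  classical
  refine ⟨?_, ?_⟩
  · -- the involution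
    have h1 : ∑ j, Complex.I ^ (-(k j : ℤ)) =
        2 * ((Finset.univ.filter fun j => 4 ∣ k j).card : ℂ) - (Fintype.card J : ℂ) := by
      have : ∀ j, Complex.I ^ (-(k j : ℤ)) = 2 * (if 4 ∣ k j then (1 : ℂ) else 0) - 1 := by
        intro j
        rw [I_zpow_neg_natCast_even (k j) (hk j)]
        split_ifs <;> norm_num
      simp only [this, Finset.sum_sub_distrib, ← Finset.mul_sum, Finset.sum_boole,
        Finset.sum_const, Finset.card_univ, nsmul_eq_mul, mul_one]
    rw [h1, hcard] at hS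
    have h2 : ((2 * (Finset.univ.filter fun j => 4 ∣ k j).card : ℕ) : ℂ) = ((μ + e2 : ℕ) : ℂ) := by
      push_cast
      linear_combination hS
    exact_mod_cast h2
  · -- the order three element
    have hfilt : (Finset.univ.filter fun j => 6 ∣ k j) = Finset.univ.filter fun j => k j % 6 = 0 := by
      ext j
      simp [Nat.dvd_iff_mod_eq_zero]
    rw [hfilt]
    have htot : (Finset.univ.filter fun j => k j % 6 = 0).card +
        (Finset.univ.filter fun j => k j % 6 = 2).card +
        (Finset.univ.filter fun j => k j % 6 = 4).card = μ := by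
      have hd1 : Disjoint (Finset.univ.filter fun j => k j % 6 = 0)
          (Finset.univ.filter fun j => k j % 6 = 2) := by
        rw [Finset.disjoint_filter]; intro j _ h; omega
      have hd2 : Disjoint ((Finset.univ.filter fun j => k j % 6 = 0) ∪
          (Finset.univ.filter fun j => k j % 6 = 2)) (Finset.univ.filter fun j => k j % 6 = 4) := by
        rw [Finset.disjoint_union_left, Finset.disjoint_filter, Finset.disjoint_filter]
        exact ⟨fun j _ h => by omega, fun j _ h => by omega⟩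
      rw [← Finset.card_union_of_disjoint hd1, ← Finset.card_union_of_disjoint hd2, ← hcard,
        ← Finset.card_univ]
      congr 1
      ext j
      simp only [Finset.mem_union, Finset.mem_filter, Finset.mem_univ, true_and, iff_true]
      obtain ⟨b, hb⟩ := hk j
      omega
    have h1 : ∑ j, ((rho : ℂ) + 1) ^ (-(k j : ℤ)) =
        ((Finset.univ.filter fun j => k j % 6 = 0).card : ℂ) +
        ((Finset.univ.filter fun j => k j % 6 = 2).card : ℂ) * rhobar +
        ((Finset.univ.filter fun j => k j % 6 = 4).card : ℂ) * (rho : ℂ) := by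
      have : ∀ j, ((rho : ℂ) + 1) ^ (-(k j : ℤ)) =
          (if k j % 6 = 0 then (1 : ℂ) else 0) + (if k j % 6 = 2 then (1 : ℂ) else 0) * rhobar
            + (if k j % 6 = 4 then (1 : ℂ) else 0) * (rho : ℂ) := by
        intro j
        rw [xi_zpow_neg_natCast_even (k j) (hk j)]
        obtain ⟨b, hb⟩ := hk j
        have : k j % 6 = 0 ∨ k j % 6 = 2 ∨ k j % 6 = 4 := by omega
        rcases this with h | h | h <;> simp [h]
      simp only [this, Finset.sum_add_distrib, ← Finset.sum_mul, Finset.sum_boole]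
    generalize (Finset.univ.filter fun j => k j % 6 = 0).card = n0 at htot h1 ⊢
    generalize (Finset.univ.filter fun j => k j % 6 = 2).card = n2 at htot h1 ⊢
    generalize (Finset.univ.filter fun j => k j % 6 = 4).card = n4 at htot h1 ⊢
    rw [h1] at hST
    have hre := congrArg Complex.re hST
    have him := congrArg Complex.im hST
    simp only [Complex.add_re, Complex.natCast_re, Complex.mul_re, Complex.natCast_im, zero_mul,
      sub_zero, rho_re, rhobar_re] at hre
    simp only [Complex.add_im, Complex.natCast_im, Complex.mul_im, Complex.natCast_re, zero_mul,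
      add_zero, rho_im, rhobar_im, zero_add] at him
    have hs3 : (0 : ℝ) < Real.sqrt 3 := Real.sqrt_pos.mpr (by norm_num)
    have h24 : (n2 : ℝ) = n4 := by
      have : ((n4 : ℝ) - n2) * (Real.sqrt 3 / 2) = 0 := by linarith
      rcases mul_eq_zero.mp this with h | h
      · linarith
      · linarith
    have htot' : (n0 : ℝ) + n2 + n4 = μ := by exact_mod_cast htot
    constructor
    · have : ((3 * n0 : ℕ) : ℝ) = ((μ + 2 * e3 : ℕ) : ℝ) := by
        push_cast; linarith
      exact_mod_cast this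
    · have : ((3 * n2 + e3 : ℕ) : ℝ) = ((μ : ℕ) : ℝ) := by
        push_cast; linarith
      exact_mod_cast this

/-! ### The sandwich assembly -/

/-- **S20 from the sandwich.**  No free basis of cusp forms, no duality, no cusp count in
weight 24: only a free basis of `M_*(Γ₀(N))` with nowhere vanishing fundamental determinant,
the trace identities at `i` and `ρ`, the sum of the generator weights and the two bounds
`(U)`, `(Lo)` on `dim S₂`. -/
theorem S20_of_sandwich (hBasic : Goal_Basic) (hHilb : Goal_Hilbert)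
    (hBM : Goal_BasisM) (hOM : Goal_ODEM) (hES : Goal_EllS) (hEST : Goal_EllST)
    (hGL : Goal_GoodLevel) (hSeed : Goal_Seed) (hI : Goal_Index) (hE2 : Goal_E2)
    (hE3 : Goal_E3) (hCu : Goal_Cusps)
    (hSum : Goal_SumKappa) (hU : Goal_Upper) (hLo : Goal_Lower) : Goal_S20 := by
  intro N _
  have hg := hGL N
  obtain ⟨hneg, hodd, hM0, -, -, hmulM, -, -, hS2⟩ := hBasic (G0 N) N hg
  obtain ⟨κ, F, hF, hz⟩ := hBM (G0 N) N hg (hSeed N)
  have hΦ := hOM (G0 N) N hg κ F hF hz
  have hellS := hES (G0 N) N hg κ F hF.1 (hΦ _)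
  have hellST := hEST (G0 N) N hg κ F hF.1 (hΦ _)
  have hHM := fun k => hHilb (MFG (G0 N)) (Q (G0 N)) κ F hF hmulM k
  have hsum := hSum (G0 N) N hg κ F hF hΦ
  have hup := hU (G0 N) N hg κ F hF.1 hΦ
  have hlo := hLo (G0 N) N hg
  have hFne : ∀ j, F j ≠ 0 := fun j hj =>
    hΦ UpperHalfPlane.I (fundDet_eq_zero_of_eq_zero (G0 N) κ F _ j hj)
  have hκ : ∀ j, 0 ≤ κ j ∧ Even (κ j) := by
    intro j
    have hmem := hF.1 j
    constructor
    · by_contra hlt
      rw [hneg _ (not_le.mp hlt)] at hmem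
      exact hFne j ((Submodule.mem_bot ℂ).mp hmem)
    · rw [← Int.not_odd_iff_even]
      intro ho
      rw [hodd _ ho] at hmem
      exact hFne j ((Submodule.mem_bot ℂ).mp hmem)
  -- natural number weights
  set k : Q (G0 N) → ℕ := fun j => (κ j).toNat with hkdef
  have hkκ : ∀ j, (k j : ℤ) = κ j := fun j => Int.toNat_of_nonneg (hκ j).1
  have hk : ∀ j, Even (k j) := by
    intro j
    obtain ⟨m, hm⟩ := (hκ j).2
    have := hkκ j
    exact ⟨m.toNat, by omega⟩
  have hrr : ∀ w : ℤ, Module.finrank ℂ (RR w) = Module.finrank ℂ (ModularForm 𝒮ℒ w) :=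
    fun w => helper3006.finrank_MFG 𝒮ℒ w
  have hcard : Fintype.card (Q (G0 N)) = mu (G0 N) := Nat.card_eq_fintype_card.symm
  have hM0' : ∑ j, Module.finrank ℂ (ModularForm 𝒮ℒ (0 - (k j : ℤ))) = 1 := by
    rw [← hM0, hHM 0]
    exact Finset.sum_congr rfl fun j _ => by rw [hkκ j, hrr]
  have hM2' : Module.finrank ℂ (MFG (G0 N) 2) =
      ∑ j, Module.finrank ℂ (ModularForm 𝒮ℒ (2 - (k j : ℤ))) := by
    rw [hHM 2]
    exact Finset.sum_congr rfl fun j _ => by rw [hkκ j, hrr]
  have hU' : Module.finrank ℂ (CFG (G0 N) 2) ≤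
      ∑ j, Module.finrank ℂ (ModularForm 𝒮ℒ ((k j : ℤ) - 10)) := by
    refine hup.trans (le_of_eq ?_)
    exact Finset.sum_congr rfl fun j _ => by rw [hkκ j, hrr]
  have hS' : ∑ j, Complex.I ^ (-(k j : ℤ)) = (e2 (G0 N) : ℂ) := by
    rw [← hellS]
    exact Finset.sum_congr rfl fun j _ => by rw [hkκ j]
  have hST' : ∑ j, ((rho : ℂ) + 1) ^ (-(k j : ℤ)) = (e3 (G0 N) : ℂ) := by
    rw [← hellST]
    exact Finset.sum_congr rfl fun j _ => by rw [hkκ j]
  obtain ⟨c1, c2, c3⟩ := counts_of_traces k hk (mu (G0 N)) (e2 (G0 N)) (e3 (G0 N)) hcard hS' hST'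
  have hK : ∑ j, k j + 6 * cusps (G0 N) = 6 * mu (G0 N) := by
    have : ((∑ j, k j + 6 * cusps (G0 N) : ℕ) : ℤ) = ((6 * mu (G0 N) : ℕ) : ℤ) := by
      push_cast
      rw [← hsum]
      congr 1
      exact Finset.sum_congr rfl fun j _ => hkκ j
    exact_mod_cast this
  have key := helper1940.genus_of_bounds k hk (mu (G0 N)) (e2 (G0 N)) (e3 (G0 N))
    (cusps (G0 N)) (Module.finrank ℂ (CFG (G0 N) 2)) (Module.finrank ℂ (MFG (G0 N) 2))
    hcard hM0' hM2' hU' hlo c1 c2 c3 hK
  rw [hS2] at key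
  rw [key, hI N, hE2 N, hE3 N, hCu N]
  rfl

end

end Fermat.Agent.S20.helper20
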