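/-
S20, helper560 route: `Goal_Hilbert` (Hilbert function of a free graded module over the
level one ring; pure linear algebra).  Author seat: helper2805.
-/
import Fermat.Agent.S20.helper2805_RRdim

set_option autoImplicit false

open UpperHalfPlane ModularForm
open scoped MatrixGroups Manifold Pointwise

namespace Fermat.Agent.S20.helper2805

open Fermat.Agent.S20.helper560

noncomputable section

instance instFiniteRR (k : ℤ) : Module.Finite ℂ (RR k) :=
  Module.Finite.equiv (mfgEquiv 𝒮ℒ k)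

/-- The "expansion" map `(P_j)_j ↦ ∑ j, P_j * F_j` from tuples of level one forms to `ℍ → ℂ`. -/
def expandMap {J : Type} [Fintype J] (κ : J → ℤ) (F : J → ℍ → ℂ) (k : ℤ) :
    (∀ j, RR (k - κ j)) →ₗ[ℂ] (ℍ → ℂ) where
  toFun P := ∑ j, (P j : ℍ → ℂ) * F j
  map_add' P P' := by
    simp only [Pi.add_apply, Submodule.coe_add, add_mul, Finset.sum_add_distrib]
  map_smul' c P := by
    simp only [Pi.smul_apply, Submodule.coe_smul, RingHom.id_apply, Finset.smul_sum,
      smul_mul_assoc]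

theorem expandMap_apply {J : Type} [Fintype J] (κ : J → ℤ) (F : J → ℍ → ℂ) (k : ℤ)
    (P : ∀ j, RR (k - κ j)) : expandMap κ F k P = ∑ j, (P j : ℍ → ℂ) * F j := rfl

/-- `Goal_Hilbert` of `helper560_Spec`. -/
theorem goal_Hilbert : Goal_Hilbert := by
  intro V J _ κ F hF hmul k
  obtain ⟨hFmem, hexp⟩ := hF
  -- the expansion map lands in `V k`
  have hmem : ∀ P : (∀ j, RR (k - κ j)), expandMap κ F k P ∈ V k := by
    intro P
    rw [expandMap_apply]
    refine Submodule.sum_mem _ fun j _ => ?_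
    have := hmul (k - κ j) (κ j) (P j : ℍ → ℂ) (F j) (P j).2 (hFmem j)
    rwa [sub_add_cancel] at this
  let Φ : (∀ j, RR (k - κ j)) →ₗ[ℂ] V k := (expandMap κ F k).codRestrict (V k) hmem
  have hΦ : ∀ P, ((Φ P : V k) : ℍ → ℂ) = ∑ j, (P j : ℍ → ℂ) * F j := fun P => rfl
  have hinj : Function.Injective Φ := by
    intro P P' h
    have h' : (∑ j, (P j : ℍ → ℂ) * F j) = ∑ j, (P' j : ℍ → ℂ) * F j := by
      rw [← hΦ, ← hΦ, h]
    obtain ⟨P₀, -, huniq⟩ := hexp k (∑ j, (P j : ℍ → ℂ) * F j) (by rw [← hΦ]; exact (Φ P).2)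
    have e1 : (fun j => (P j : ℍ → ℂ)) = P₀ := huniq _ ⟨fun j => (P j).2, rfl⟩
    have e2 : (fun j => (P' j : ℍ → ℂ)) = P₀ := huniq _ ⟨fun j => (P' j).2, h'⟩
    funext j
    apply Subtype.ext
    exact congrFun (e1.trans e2.symm) j
  have hsurj : Function.Surjective Φ := by
    intro f
    obtain ⟨P₀, ⟨hP₀, hf⟩, -⟩ := hexp k (f : ℍ → ℂ) f.2
    refine ⟨fun j => ⟨P₀ j, hP₀ j⟩, ?_⟩
    apply Subtype.ext
    rw [hΦ]
    exact hf.symm
  have e : (∀ j, RR (k - κ j)) ≃ₗ[ℂ] V k := LinearEquiv.ofBijective Φ ⟨hinj, hsurj⟩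
  rw [← e.finrank_eq, Module.finrank_pi_fintype]

end

end Fermat.Agent.S20.helper2805
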