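import Mathlib

set_option autoImplicit false

namespace Fermat.Agent.S20.helper387

open UpperHalfPlane Complex
open scoped Manifold Derivative

/-- Uniqueness for a linear holomorphic ODE `w' = w * B` on a convex set: a solution vanishing at
one point vanishes identically. -/
theorem ode_unique_convex {J : Type*} [Fintype J] {U : Set ℂ} (hU : Convex ℝ U)
    (w : J → ℂ → ℂ) (B : J → J → ℂ → ℂ) (hB : ∀ i j, ContinuousOn (B i j) U)
    (hode : ∀ j, ∀ z ∈ U, HasDerivAt (w j) (∑ i, w i z * B i j z) z)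
    {z0 : ℂ} (hz0 : z0 ∈ U) (h0 : ∀ j, w j z0 = 0) :
    ∀ j, ∀ z ∈ U, w j z = 0 := by
  classical
  intro j z hz
  -- the segment
  set γ : ℝ → ℂ := fun t => z0 + (t : ℂ) * (z - z0) with hγ
  have hγU : ∀ t ∈ Set.Icc (0 : ℝ) 1, γ t ∈ U := by
    intro t ht
    have : γ t = (1 - t) • z0 + t • z := by
      simp only [hγ, Complex.real_smul]
      push_cast
      ring
    rw [this]
    exact hU hz0 hz (by linarith [ht.2]) ht.1 (by ring)
  have hγd : ∀ t : ℝ, HasDerivAt γ (z - z0) t := by
    intro t
    have h1 : HasDerivAt (fun t : ℝ => (t : ℂ)) 1 t := (hasDerivAt_id t).ofReal_comp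
    have h2 := (h1.mul_const (z - z0)).const_add z0
    simpa [hγ] using h2
  have hγc : Continuous γ := by
    simp only [hγ]
    fun_prop
  -- the vector valued function along the segment
  set g : ℝ → (J → ℂ) := fun t i => w i (γ t) with hg
  set g' : ℝ → (J → ℂ) := fun t k => (z - z0) * ∑ i, w i (γ t) * B i k (γ t) with hg'
  have hgd : ∀ t ∈ Set.Icc (0 : ℝ) 1, HasDerivAt g (g' t) t := by
    intro t ht
    rw [hasDerivAt_pi]
    intro k
    have := HasDerivAt.scomp t (hode k (γ t) (hγU t ht)) (hγd t)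
    simpa [hg, hg', Function.comp_def] using this
  -- bounds for the coefficients
  have hbd : ∀ i k, ∃ M : ℝ, ∀ t ∈ Set.Icc (0 : ℝ) 1, ‖B i k (γ t)‖ ≤ M := by
    intro i k
    have hc : ContinuousOn (fun t : ℝ => B i k (γ t)) (Set.Icc (0 : ℝ) 1) :=
      (hB i k).comp hγc.continuousOn (fun t ht => hγU t ht)
    exact (isCompact_Icc.exists_bound_of_continuousOn hc)
  choose M hM using hbd
  have hM0 : ∀ i k, 0 ≤ M i k := fun i k =>
    (norm_nonneg _).trans (hM i k 0 (by simp))
  set K : ℝ := ‖z - z0‖ * ∑ i, ∑ k, M i k with hK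
  have key : ∀ x ∈ Set.Icc (0 : ℝ) 1, g x = 0 := by
    refine eq_zero_of_abs_deriv_le_mul_abs_self_of_eq_zero_right (f' := g') (K := K) ?_ ?_ ?_ ?_
    · intro t ht
      exact (hgd t ht).continuousAt.continuousWithinAt
    · intro t ht
      exact (hgd t ⟨ht.1, ht.2.le⟩).hasDerivWithinAt
    · funext i
      simp [hg, hγ, h0]
    · intro t ht
      have ht' : t ∈ Set.Icc (0 : ℝ) 1 := ⟨ht.1, ht.2.le⟩
      have hK0 : 0 ≤ K := by
        rw [hK]
        exact mul_nonneg (norm_nonneg _)
          (Finset.sum_nonneg fun i _ => Finset.sum_nonneg fun k _ => hM0 i k)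
      rw [pi_norm_le_iff_of_nonneg (mul_nonneg hK0 (norm_nonneg _))]
      intro k
      simp only [hg']
      rw [norm_mul, hK, mul_assoc]
      refine mul_le_mul_of_nonneg_left ?_ (norm_nonneg _)
      calc ‖∑ i, w i (γ t) * B i k (γ t)‖
          ≤ ∑ i, ‖w i (γ t) * B i k (γ t)‖ := norm_sum_le _ _
        _ ≤ ∑ i, M i k * ‖g t‖ := by
            refine Finset.sum_le_sum fun i _ => ?_
            rw [norm_mul, mul_comm]
            refine mul_le_mul (hM i k t ht') ?_ (norm_nonneg _) (hM0 i k)
            exact norm_le_pi_norm (g t) i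
        _ ≤ ∑ i, (∑ k', M i k') * ‖g t‖ := by
            refine Finset.sum_le_sum fun i _ => ?_
            refine mul_le_mul_of_nonneg_right ?_ (norm_nonneg _)
            exact Finset.single_le_sum (f := fun k' => M i k') (fun k' _ => hM0 i k')
              (Finset.mem_univ k)
        _ = (∑ i, ∑ k, M i k) * ‖g t‖ := by rw [Finset.sum_mul]
  have := congrFun (key 1 (by simp)) j
  simpa [hg, hγ] using this


/-- Uniqueness for a linear holomorphic ODE on the upper half plane, `HasDerivAt` form. -/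
theorem ode_unique_uhp {J : Type*} [Fintype J] (w : J → ℍ → ℂ) (B : J → J → ℍ → ℂ)
    (hB : ∀ i j, Continuous (B i j))
    (hode : ∀ j (z : ℍ), HasDerivAt (w j ∘ ofComplex) (∑ i, w i z * B i j z) (z : ℂ))
    (z0 : ℍ) (h0 : ∀ j, w j z0 = 0) :
    ∀ j z, w j z = 0 := by
  have hU : Convex ℝ {z : ℂ | 0 < z.im} := convex_halfSpace_im_gt 0
  have key := ode_unique_convex hU (fun j => w j ∘ ofComplex) (fun i j => B i j ∘ ofComplex)
    (z0 := (z0 : ℂ)) ?_ ?_ z0.im_pos ?_
  · intro j z
    have := key j (z : ℂ) z.im_pos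
    simpa [Function.comp_apply, ofComplex_apply] using this
  · intro i j z hz
    exact ((hB i j).continuousAt.comp
      (mdifferentiableAt_ofComplex hz).continuousAt).continuousWithinAt
  · intro j z hz
    have := hode j ⟨z, hz⟩
    simpa [Function.comp_apply, ofComplex_apply_of_im_pos hz] using this
  · intro j
    simpa [Function.comp_apply, ofComplex_apply] using h0 j

/-- A `MDiff` function on `ℍ` has derivative `2πi • D F` (where `D` is the normalised derivative). -/
theorem hasDerivAt_of_mdiff {F : ℍ → ℂ} (hF : MDiff F) (z : ℍ) :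
    HasDerivAt (F ∘ ofComplex) (2 * Real.pi * Complex.I * Derivative.normalizedDerivOfComplex F z)
      (z : ℂ) := by
  have h1 : DifferentiableAt ℂ (F ∘ ofComplex) (z : ℂ) := mdifferentiableAt_iff.mp (hF z)
  have h2 := h1.hasDerivAt
  have h3 : 2 * Real.pi * Complex.I * Derivative.normalizedDerivOfComplex F z
      = deriv (F ∘ ofComplex) (z : ℂ) := by
    unfold Derivative.normalizedDerivOfComplex
    have : (2 * (Real.pi : ℂ) * Complex.I) ≠ 0 := by
      simp [Real.pi_ne_zero, Complex.I_ne_zero]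
    field_simp
  rw [h3]
  exact h2

/-- Uniqueness for a linear holomorphic ODE `D w = w * B` on the upper half plane, stated with the
normalised derivative `D = (2πi)⁻¹ d/dz`. -/
theorem ode_unique_uhp_D {J : Type*} [Fintype J] (w : J → ℍ → ℂ) (hw : ∀ j, MDiff (w j))
    (B : J → J → ℍ → ℂ) (hB : ∀ i j, Continuous (B i j))
    (hode : ∀ j (z : ℍ), Derivative.normalizedDerivOfComplex (w j) z = ∑ i, w i z * B i j z)
    (z0 : ℍ) (h0 : ∀ j, w j z0 = 0) :
    ∀ j z, w j z = 0 := by
  refine ode_unique_uhp w (fun i j z => 2 * Real.pi * Complex.I * B i j z) ?_ ?_ z0 h0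
  · intro i j
    exact continuous_const.mul (hB i j)
  · intro j z
    have := hasDerivAt_of_mdiff (hw j) z
    rw [hode j z, Finset.mul_sum] at this
    convert this using 1
    refine Finset.sum_congr rfl fun i _ => ?_
    ring

section Fundamental

variable {X J : Type*} [Fintype X] [Fintype J]

/-- **Fundamental matrix, propagation of a left-kernel vector.** If the matrix-valued function
`Φ : X × J → (ℍ → ℂ)` satisfies `D Φ = Φ * B` and the row vector `v` kills `Φ z0`, then `v` kills
`Φ z` for every `z`. -/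
theorem vecMul_eq_zero_of_ode (Φ : X → J → ℍ → ℂ) (hΦ : ∀ q j, MDiff (Φ q j))
    (B : J → J → ℍ → ℂ) (hB : ∀ i j, Continuous (B i j))
    (hode : ∀ q j (z : ℍ),
      Derivative.normalizedDerivOfComplex (Φ q j) z = ∑ i, Φ q i z * B i j z)
    (v : X → ℂ) (z0 : ℍ) (h0 : ∀ j, ∑ q, v q * Φ q j z0 = 0) :
    ∀ j z, ∑ q, v q * Φ q j z = 0 := by
  refine ode_unique_uhp (fun j z => ∑ q, v q * Φ q j z) (fun i j z => 2 * Real.pi * Complex.I * B i j z)
    ?_ ?_ z0 h0
  · intro i j
    exact continuous_const.mul (hB i j)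
  · intro j z
    have h1 : ∀ q, HasDerivAt (fun x : ℂ => v q * (Φ q j ∘ ofComplex) x)
        (v q * (2 * Real.pi * Complex.I * ∑ i, Φ q i z * B i j z)) (z : ℂ) := by
      intro q
      have := (hasDerivAt_of_mdiff (hΦ q j) z).const_mul (v q)
      rwa [hode q j z] at this
    have h2 := HasDerivAt.sum (u := Finset.univ) (fun q _ => h1 q)
    have e1 : (∑ q, fun x : ℂ => v q * (Φ q j ∘ ofComplex) x)
        = (fun z => ∑ q, v q * Φ q j z) ∘ ofComplex := by
      funext x
      simp [Function.comp_apply]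
    have e2 : ∑ q, v q * (2 * Real.pi * Complex.I * ∑ i, Φ q i z * B i j z)
        = ∑ i, (∑ q, v q * Φ q i z) * (2 * Real.pi * Complex.I * B i j z) := by
      simp only [Finset.mul_sum, Finset.sum_mul]
      rw [Finset.sum_comm]
      refine Finset.sum_congr rfl fun i _ => Finset.sum_congr rfl fun q _ => ?_
      ring
    rw [e1, e2] at h2
    exact h2

/-- **Trivial left kernel everywhere.** Under the ODE `D Φ = Φ * B` and the separation property
(no nonzero constant row vector kills `Φ` identically), the left kernel of `Φ z0` is trivial at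
every point `z0` of the upper half plane. -/
theorem leftKernel_trivial_of_ode (Φ : X → J → ℍ → ℂ) (hΦ : ∀ q j, MDiff (Φ q j))
    (B : J → J → ℍ → ℂ) (hB : ∀ i j, Continuous (B i j))
    (hode : ∀ q j (z : ℍ),
      Derivative.normalizedDerivOfComplex (Φ q j) z = ∑ i, Φ q i z * B i j z)
    (hsep : ∀ v : X → ℂ, (∀ j z, ∑ q, v q * Φ q j z = 0) → v = 0)
    (z0 : ℍ) (v : X → ℂ) (h0 : ∀ j, ∑ q, v q * Φ q j z0 = 0) : v = 0 :=
  hsep v (vecMul_eq_zero_of_ode Φ hΦ B hB hode v z0 h0)

/-- Generic linear algebra: a rectangular matrix `X × J` over `ℂ` with trivial left kernel and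
`card X = card J` has a two-sided inverse. -/
theorem exists_inverse_of_leftKernel_trivial [DecidableEq X] [DecidableEq J] (M : X → J → ℂ)
    (hcard : Fintype.card X = Fintype.card J)
    (hker : ∀ v : X → ℂ, (∀ j, ∑ q, v q * M q j = 0) → v = 0) :
    ∃ P : J → X → ℂ, (∀ q q', ∑ j, M q j * P j q' = if q = q' then 1 else 0) ∧
      (∀ j j', ∑ q, P j q * M q j' = if j = j' then 1 else 0) := by
  classical
  let e : X ≃ J := Fintype.equivOfCardEq hcard
  let A : Matrix X X ℂ := fun q q' => M q (e q')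
  have hinj : Function.Injective A.vecMul := by
    intro v v' hvv'
    have hz : v - v' = 0 := by
      refine hker (v - v') fun j => ?_
      have := congrFun hvv' (e.symm j)
      simp only [Matrix.vecMul, dotProduct, A, Equiv.apply_symm_apply] at this
      simp only [Pi.sub_apply, sub_mul, Finset.sum_sub_distrib, this, sub_self]
    exact sub_eq_zero.mp hz
  have hunit : IsUnit A := Matrix.vecMul_injective_iff_isUnit.mp hinj
  have hdet : IsUnit A.det := (Matrix.isUnit_iff_isUnit_det A).mp hunit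
  refine ⟨fun j q' => A⁻¹ (e.symm j) q', ?_, ?_⟩
  · intro q q'
    have h1 : A * A⁻¹ = 1 := Matrix.mul_nonsing_inv A hdet
    have h2 := congrFun (congrFun h1 q) q'
    rw [Matrix.mul_apply, Matrix.one_apply] at h2
    rw [← h2]
    refine (Fintype.sum_equiv e.symm _ _ fun j => ?_)
    simp [A]
  · intro j j'
    have h1 : A⁻¹ * A = 1 := Matrix.nonsing_inv_mul A hdet
    have h2 := congrFun (congrFun h1 (e.symm j)) (e.symm j')
    rw [Matrix.mul_apply, Matrix.one_apply] at h2
    simp only [A, Equiv.apply_symm_apply, EmbeddingLike.apply_eq_iff_eq] at h2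
    exact h2

/-- **Invertibility of the fundamental matrix at every point.** -/
theorem exists_inverse_of_ode [DecidableEq X] [DecidableEq J] (Φ : X → J → ℍ → ℂ) (hΦ : ∀ q j, MDiff (Φ q j))
    (B : J → J → ℍ → ℂ) (hB : ∀ i j, Continuous (B i j))
    (hode : ∀ q j (z : ℍ),
      Derivative.normalizedDerivOfComplex (Φ q j) z = ∑ i, Φ q i z * B i j z)
    (hsep : ∀ v : X → ℂ, (∀ j z, ∑ q, v q * Φ q j z = 0) → v = 0)
    (hcard : Fintype.card X = Fintype.card J) (z0 : ℍ) :
    ∃ P : J → X → ℂ, (∀ q q', ∑ j, Φ q j z0 * P j q' = if q = q' then 1 else 0) ∧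
      (∀ j j', ∑ q, P j q * Φ q j' z0 = if j = j' then 1 else 0) :=
  exists_inverse_of_leftKernel_trivial (fun q j => Φ q j z0) hcard
    (fun v hv => leftKernel_trivial_of_ode Φ hΦ B hB hode hsep z0 v hv)

end Fundamental

end Fermat.Agent.S20.helper387
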