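/-
S20, seat helper387: proof of the spec goals `helper560.Goal_ODEM` and `helper560.Goal_ODES`
(the fundamental determinant of a free basis vanishes nowhere as soon as it is not identically
zero), via uniqueness for the linear ODE `D Φ = Φ · B` satisfied by the fundamental matrix.
-/
import Fermat.Agent.S20.helper560_Spec
import Fermat.Agent.S20.helper1760_SerreD
import Fermat.Agent.S20.helper387_FundODE

set_option autoImplicit false

open UpperHalfPlane ModularForm Derivative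
open scoped MatrixGroups Manifold Pointwise

namespace Fermat.Agent.S20.helper387

open Fermat.Agent.S20.helper560

noncomputable section

variable {𝒢 : Subgroup (GL (Fin 2) ℝ)}

/-- The inverse of the chosen representative of a coset is the image of an element of
`SL(2, ℤ)`. -/
theorem exists_mapGL_eq_out_inv (q : Q 𝒢) :
    ∃ γ : SL(2, ℤ), ((q.out : 𝒮ℒ) : GL (Fin 2) ℝ)⁻¹ = Matrix.SpecialLinearGroup.mapGL ℝ γ := by
  obtain ⟨γ, hγ⟩ := ((q.out)⁻¹ : 𝒮ℒ).2
  exact ⟨γ, by rw [hγ]; rfl⟩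

/-- A translate is a slash by an element of `SL(2, ℤ)` (uniformly in the weight and function). -/
theorem exists_tr_eq_slash (q : Q 𝒢) :
    ∃ γ : SL(2, ℤ), ∀ (k : ℤ) (f : ℍ → ℂ), tr 𝒢 k f q = f ∣[k] γ := by
  obtain ⟨γ, hγ⟩ := exists_mapGL_eq_out_inv q
  refine ⟨γ, fun k f => ?_⟩
  unfold tr
  rw [hγ]
  rfl

theorem mdiff_tr {k : ℤ} {f : ℍ → ℂ} (hf : MDiff f) (q : Q 𝒢) : MDiff (tr 𝒢 k f q) := by
  obtain ⟨γ, hγ⟩ := exists_tr_eq_slash q
  rw [hγ]
  exact hf.slash k _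

theorem tr_serreDerivative {k : ℤ} {f : ℍ → ℂ} (hf : MDiff f) (q : Q 𝒢) :
    tr 𝒢 (k + 2) (serreDerivative k f) q = serreDerivative k (tr 𝒢 k f q) := by
  obtain ⟨γ, hγ⟩ := exists_tr_eq_slash q
  rw [hγ, hγ]
  exact serreDerivative_slash_equivariant hf

theorem tr_levelOne_mul {a b : ℤ} {P : ℍ → ℂ} (hP : P ∈ RR a) (f : ℍ → ℂ) (q : Q 𝒢) :
    tr 𝒢 (a + b) (P * f) q = P * tr 𝒢 b f q := by
  obtain ⟨γ, hγ⟩ := exists_tr_eq_slash q
  rw [hγ, hγ, ModularForm.mul_slash_SL2]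
  obtain ⟨Pm, rfl⟩ := hP
  congr 1
  exact SlashInvariantFormClass.slash_action_eq Pm _ ⟨γ, rfl⟩

theorem tr_sum {J : Type} (s : Finset J) (k : ℤ) (g : J → ℍ → ℂ) (q : Q 𝒢) :
    tr 𝒢 k (∑ i ∈ s, g i) q = ∑ i ∈ s, tr 𝒢 k (g i) q := by
  obtain ⟨γ, hγ⟩ := exists_tr_eq_slash q
  rw [hγ]
  simp only [hγ]
  classical
  induction s using Finset.induction_on with
  | empty => simp [SlashAction.zero_slash]
  | insert a s ha ih =>
    rw [Finset.sum_insert ha, Finset.sum_insert ha, SlashAction.add_slash, ih]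

/-- **The linear ODE of the fundamental matrix.** If `V` is a graded module of holomorphic
functions stable under the Serre derivative with a homogeneous free basis `F` over the level one
forms, then the matrix of translates satisfies `D Φ = Φ · B` with `B` continuous. -/
theorem exists_ode_of_basis {J : Type} [Fintype J] (V : ℤ → Submodule ℂ (ℍ → ℂ))
    (hV : ∀ (k : ℤ) (f : ℍ → ℂ), f ∈ V k → MDiff f)
    (hSD : ∀ (k : ℤ) (f : ℍ → ℂ), f ∈ V k → serreDerivative k f ∈ V (k + 2))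
    (κ : J → ℤ) (F : J → ℍ → ℂ) (hF : IsFreeBasis V κ F) :
    ∃ B : J → J → ℍ → ℂ, (∀ i j, Continuous (B i j)) ∧
      ∀ (q : Q 𝒢) (j : J) (z : ℍ), D (tr 𝒢 (κ j) (F j) q) z
        = ∑ i, tr 𝒢 (κ i) (F i) q z * B i j z := by
  classical
  have hexp : ∀ j, ∃ P : J → ℍ → ℂ, (∀ i, P i ∈ RR (κ j + 2 - κ i)) ∧
      serreDerivative (κ j) (F j) = ∑ i, P i * F i :=
    fun j => (hF.2 (κ j + 2) _ (hSD _ _ (hF.1 j))).exists
  choose A hA1 hA2 using hexp
  refine ⟨fun i j z => A j i z + if i = j then (κ j : ℂ) * 12⁻¹ * EisensteinSeries.E2 z else 0,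
    ?_, ?_⟩
  · intro i j
    obtain ⟨Pm, hPm⟩ := hA1 j i
    have h1 : Continuous (A j i) := by
      rw [← hPm]
      exact (ModularFormClass.holo Pm).continuous
    have h2 : Continuous EisensteinSeries.E2 := E2_mdifferentiable.continuous
    by_cases hij : i = j
    · subst hij
      simp only [if_true]
      exact h1.add (continuous_const.mul h2)
    · simp only [hij, if_false, add_zero]
      exact h1
  · intro q j z
    have e1 : tr 𝒢 (κ j + 2) (serreDerivative (κ j) (F j)) q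
        = serreDerivative (κ j) (tr 𝒢 (κ j) (F j) q) :=
      tr_serreDerivative (hV _ _ (hF.1 j)) q
    have e2 : tr 𝒢 (κ j + 2) (∑ i, A j i * F i) q = ∑ i, A j i * tr 𝒢 (κ i) (F i) q := by
      rw [tr_sum]
      refine Finset.sum_congr rfl fun i _ => ?_
      have := tr_levelOne_mul (b := κ i) (hA1 j i) (F i) q
      rwa [sub_add_cancel] at this
    have e3 : serreDerivative (κ j) (tr 𝒢 (κ j) (F j) q)
        = ∑ i, A j i * tr 𝒢 (κ i) (F i) q := by
      rw [← e1, hA2 j, e2]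
    have e4 := congrFun e3 z
    rw [serreDerivative_apply, Finset.sum_apply] at e4
    simp only [Pi.mul_apply] at e4
    simp only [mul_add, Finset.sum_add_distrib, mul_ite, mul_zero, Finset.sum_ite_eq',
      Finset.mem_univ, if_true]
    have e5 : ∑ i, tr 𝒢 (κ i) (F i) q z * A j i z = ∑ i, A j i z * tr 𝒢 (κ i) (F i) q z :=
      Finset.sum_congr rfl fun i _ => mul_comm _ _
    rw [e5, ← e4]
    ring

/-- **Nowhere vanishing of the fundamental determinant.** -/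
theorem stmt_ODE_of [𝒢.IsArithmetic] [𝒢.HasDetOne] (V : ℤ → Submodule ℂ (ℍ → ℂ))
    (hV : ∀ (k : ℤ) (f : ℍ → ℂ), f ∈ V k → MDiff f)
    (hSD : ∀ (k : ℤ) (f : ℍ → ℂ), f ∈ V k → serreDerivative k f ∈ V (k + 2)) :
    Stmt_ODE 𝒢 V := by
  classical
  intro κ F hF hz1 z0
  obtain ⟨z1, hz1⟩ := hz1
  intro hz0
  obtain ⟨B, hB, hode⟩ := exists_ode_of_basis (𝒢 := 𝒢) V hV hSD κ F hF
  have hz0' : (transMatrix 𝒢 κ F z0).det = 0 := by
    rw [← hz0]
    unfold fundDet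
    congr
  obtain ⟨v, hv, hv0⟩ := Matrix.exists_vecMul_eq_zero_iff.mpr hz0'
  have key := vecMul_eq_zero_of_ode (fun q j => tr 𝒢 (κ j) (F j) q)
    (fun q j => mdiff_tr (hV _ _ (hF.1 j)) q) B hB hode v z0 (fun j => by
      have := congrFun hv0 j
      simpa [Matrix.vecMul, dotProduct, transMatrix] using this)
  apply hz1
  have hz1' : (transMatrix 𝒢 κ F z1).det = 0 := by
    apply Matrix.exists_vecMul_eq_zero_iff.mp
    refine ⟨v, hv, ?_⟩
    funext j
    have := key j z1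
    simpa [Matrix.vecMul, dotProduct, transMatrix] using this
  rw [← hz1']
  unfold fundDet
  congr

theorem mdiff_of_mem_MFG [𝒢.HasDetOne] {k : ℤ} {f : ℍ → ℂ} (hf : f ∈ MFG 𝒢 k) : MDiff f := by
  obtain ⟨Fm, rfl⟩ := hf
  exact ModularFormClass.holo Fm

theorem mdiff_of_mem_CFG [𝒢.HasDetOne] {k : ℤ} {f : ℍ → ℂ} (hf : f ∈ CFG 𝒢 k) : MDiff f := by
  obtain ⟨Fm, rfl⟩ := hf
  exact CuspFormClass.holo Fm

theorem serreDerivative_mem_MFG [𝒢.IsArithmetic] [𝒢.HasDetOne] (h𝒢 : 𝒢 ≤ 𝒮ℒ) {k : ℤ}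
    {f : ℍ → ℂ} (hf : f ∈ MFG 𝒢 k) : serreDerivative k f ∈ MFG 𝒢 (k + 2) := by
  obtain ⟨Fm, rfl⟩ := hf
  exact ⟨helper1760.serreDMFaux h𝒢 k Fm, rfl⟩

theorem serreDerivative_mem_CFG [𝒢.IsArithmetic] [𝒢.HasDetOne] (h𝒢 : 𝒢 ≤ 𝒮ℒ) {k : ℤ}
    {f : ℍ → ℂ} (hf : f ∈ CFG 𝒢 k) : serreDerivative k f ∈ CFG 𝒢 (k + 2) := by
  obtain ⟨Fm, rfl⟩ := hf
  exact ⟨helper1760.serreDCFaux h𝒢 k Fm, rfl⟩

/-- The spec goal `Goal_ODEM` of `helper560_Spec`. -/
theorem goal_ODEM : Goal_ODEM := by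
  intro 𝒢 _ _ N hN
  exact stmt_ODE_of (MFG 𝒢) (fun _ _ hf => mdiff_of_mem_MFG hf)
    (fun _ _ hf => serreDerivative_mem_MFG hN.le hf)

/-- The spec goal `Goal_ODES` of `helper560_Spec`. -/
theorem goal_ODES : Goal_ODES := by
  intro 𝒢 _ _ N hN
  exact stmt_ODE_of (CFG 𝒢) (fun _ _ hf => mdiff_of_mem_CFG hf)
    (fun _ _ hf => serreDerivative_mem_CFG hN.le hf)

end

end Fermat.Agent.S20.helper387
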