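/-
S20, sandwich route (seat helper260): proof of `Goal_Upper`.

For a family `F j ∈ M_{κ j}(𝒢)` indexed by the cosets whose matrix of translates is invertible
at every point, the trace pairing
`H ↦ (Tr (H · F j) / Δ)_j : S₂(𝒢) → ∏ j, M_{κ j - 10}(SL₂(ℤ))`
is injective, hence `finrank S₂(𝒢) ≤ ∑ j, finrank M_{κ j - 10}(SL₂(ℤ))`.
-/
import Fermat.Agent.S20.helper260_Sandwich
import Fermat.Agent.S20.helper2805_Hilbert
import Fermat.Agent.S20.helper387_GoalODE

set_option autoImplicit false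

open UpperHalfPlane ModularForm
open scoped MatrixGroups Manifold Pointwise

namespace Fermat.Agent.S20.helper260

open Fermat.Agent.S20.helper560

noncomputable section

variable {𝒢 : Subgroup (GL (Fin 2) ℝ)}

/-- Translates are multiplicative. -/
theorem tr_mul (a b : ℤ) (f g : ℍ → ℂ) (q : Q 𝒢) :
    tr 𝒢 (a + b) (f * g) q = tr 𝒢 a f q * tr 𝒢 b g q := by
  obtain ⟨γ, hγ⟩ := Fermat.Agent.S20.helper387.exists_tr_eq_slash q
  rw [hγ, hγ, hγ, ModularForm.mul_slash_SL2]

/-- If a translate of `f` vanishes then `f` vanishes. -/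
theorem eq_zero_of_tr_eq_zero (k : ℤ) (f : ℍ → ℂ) (q : Q 𝒢) (h : tr 𝒢 k f q = 0) : f = 0 := by
  obtain ⟨γ, hγ⟩ := Fermat.Agent.S20.helper387.exists_tr_eq_slash q
  rw [hγ] at h
  have h2 : (f ∣[k] γ) ∣[k] γ⁻¹ = 0 := by rw [h]; exact SlashAction.zero_slash _ _
  rw [← SlashAction.slash_mul, mul_inv_cancel, SlashAction.slash_one] at h2
  exact h2

variable [𝒢.IsArithmetic] [𝒢.HasDetOne]

/-- The trace of a product of a cusp form and a modular form, pointwise. -/
theorem trace_mul_apply {a b : ℤ} (H : CuspForm 𝒢 a) (G : ModularForm 𝒢 b) (z : ℍ) :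
    (CuspForm.trace 𝒮ℒ (H.mulModularForm G)) z = ∑ q : Q 𝒢, tr 𝒢 a ⇑H q z * tr 𝒢 b ⇑G q z := by
  rw [CuspForm.coe_trace, Finset.sum_apply]
  refine Finset.sum_congr rfl fun q _ => ?_
  rw [← tr_eq_quotientFunc_cusp]
  have : (⇑(H.mulModularForm G) : ℍ → ℂ) = ⇑H * ⇑G := rfl
  rw [this, tr_mul]
  rfl

/-- The trace pairing with a fixed modular form, as a linear map into level one cusp forms. -/
def tracePair {a b : ℤ} (G : ModularForm 𝒢 b) : CuspForm 𝒢 a →ₗ[ℂ] CuspForm 𝒮ℒ (a + b) where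
  toFun H := CuspForm.trace 𝒮ℒ (H.mulModularForm G)
  map_add' H₁ H₂ := by
    ext z
    rw [trace_mul_apply]
    change _ = (CuspForm.trace 𝒮ℒ (H₁.mulModularForm G)) z
      + (CuspForm.trace 𝒮ℒ (H₂.mulModularForm G)) z
    rw [trace_mul_apply, trace_mul_apply, ← Finset.sum_add_distrib]
    refine Finset.sum_congr rfl fun q _ => ?_
    obtain ⟨γ, hγ⟩ := Fermat.Agent.S20.helper387.exists_tr_eq_slash q
    have : (⇑(H₁ + H₂) : ℍ → ℂ) = ⇑H₁ + ⇑H₂ := rfl
    rw [this]
    simp only [hγ]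
    rw [SlashAction.add_slash, Pi.add_apply, add_mul]
  map_smul' c H := by
    ext z
    rw [trace_mul_apply]
    change _ = c * (CuspForm.trace 𝒮ℒ (H.mulModularForm G)) z
    rw [trace_mul_apply, Finset.mul_sum]
    refine Finset.sum_congr rfl fun q _ => ?_
    obtain ⟨γ, hγ⟩ := Fermat.Agent.S20.helper387.exists_tr_eq_slash q
    have : (⇑(c • H) : ℍ → ℂ) = c • ⇑H := rfl
    rw [this]
    simp only [hγ]
    rw [ModularForm.SL_smul_slash, Pi.smul_apply, smul_eq_mul, mul_assoc]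

theorem tracePair_apply {a b : ℤ} (G : ModularForm 𝒢 b) (H : CuspForm 𝒢 a) (z : ℍ) :
    tracePair G H z = ∑ q : Q 𝒢, tr 𝒢 a ⇑H q z * tr 𝒢 b ⇑G q z :=
  trace_mul_apply H G z

/-- **Upper bound.** -/
theorem stmt_Upper (𝒢 : Subgroup (GL (Fin 2) ℝ)) [𝒢.IsArithmetic] [𝒢.HasDetOne] :
    Stmt_Upper 𝒢 := by
  classical
  intro κ F hF hΦ
  choose Fm hFm using hF
  -- the combined pairing
  let Ψ : CuspForm 𝒢 2 →ₗ[ℂ] (∀ j : Q 𝒢, ModularForm 𝒮ℒ (2 + κ j - 12)) :=
    LinearMap.pi fun j =>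
      (CuspForm.discriminantEquiv (k := 2 + κ j)).toLinearMap ∘ₗ tracePair (a := 2) (Fm j)
  have hΨ : Function.Injective Ψ := by
    rw [← LinearMap.ker_eq_bot, LinearMap.ker_eq_bot']
    intro H hH
    -- all translates of `H` vanish at every point
    have hv : ∀ z : ℍ, (fun q : Q 𝒢 => tr 𝒢 2 ⇑H q z) = 0 := by
      intro z
      have hdet : (transMatrix 𝒢 κ F z).det ≠ 0 := by
        have := hΦ z
        unfold fundDet at this
        convert this
      refine Matrix.eq_zero_of_vecMul_eq_zero hdet ?_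
      funext j
      have hj : Ψ H j = 0 := by rw [hH]; rfl
      have hj' : tracePair (a := 2) (Fm j) H = 0 := by
        have : (CuspForm.discriminantEquiv (k := 2 + κ j)) (tracePair (a := 2) (Fm j) H) = 0 := hj
        exact (LinearEquiv.map_eq_zero_iff _).mp this
      have hz : tracePair (a := 2) (Fm j) H z = 0 := by rw [hj']; rfl
      rw [tracePair_apply, hFm j] at hz
      simpa [Matrix.vecMul, dotProduct, transMatrix] using hz
    have h1 : tr 𝒢 2 ⇑H (QuotientGroup.mk 1) = 0 := by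
      funext z
      exact congrFun (hv z) (QuotientGroup.mk 1)
    have h2 : (⇑H : ℍ → ℂ) = 0 := eq_zero_of_tr_eq_zero 2 _ _ h1
    exact DFunLike.coe_injective h2
  have hle := LinearMap.finrank_le_finrank_of_injective hΨ
  rw [Module.finrank_pi_fintype] at hle
  rw [Fermat.Agent.S20.helper2805.finrank_CFG]
  refine hle.trans (le_of_eq ?_)
  refine Finset.sum_congr rfl fun j _ => ?_
  rw [Fermat.Agent.S20.helper2805.finrank_MFG, show 2 + κ j - 12 = κ j - 10 by ring]

/-- `Goal_Upper` of the sandwich assembly. -/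
theorem goal_Upper : Goal_Upper := fun 𝒢 _ _ _ _ => stmt_Upper 𝒢

end

end Fermat.Agent.S20.helper260
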