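import Mathlib

set_option autoImplicit false

open UpperHalfPlane hiding I
open ModularForm Derivative Filter Complex
open scoped MatrixGroups Manifold Topology Real

namespace Fermat.Agent.S20.helper2180

/-! ### Cauchy estimate for the normalized derivative -/

/-- Cauchy estimate on unit discs: if `‖F‖ ≤ M` on `{A ≤ im}` with `0 < A`, then
`‖D F‖ ≤ M / (2π)` on `{A + 1 ≤ im}`. -/
theorem norm_normalizedDeriv_le {F : ℍ → ℂ} (hF : MDiff F) {M A : ℝ} (hA : 0 < A)
    (hb : ∀ z : ℍ, A ≤ z.im → ‖F z‖ ≤ M) (z : ℍ) (hz : A + 1 ≤ z.im) :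
    ‖D F z‖ ≤ M / (2 * π) := by
  have hdiff : DifferentiableOn ℂ (F ∘ ofComplex) upperHalfPlaneSet :=
    UpperHalfPlane.mdifferentiable_iff.mp hF
  have hsub : Metric.closedBall (z : ℂ) 1 ⊆ upperHalfPlaneSet := by
    intro w hw
    have h1 : |(w - z).im| ≤ 1 :=
      (Complex.abs_im_le_norm _).trans (by simpa [dist_eq_norm] using hw)
    have h2 : z.im - 1 ≤ w.im := by
      have := (abs_le.mp h1).1
      simp only [Complex.sub_im, UpperHalfPlane.coe_im] at this
      linarith
    show 0 < w.im
    linarith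
  have hbd : ∀ w ∈ Metric.sphere (z : ℂ) 1, ‖(F ∘ ofComplex) w‖ ≤ M := by
    intro w hw
    have hw' : w ∈ Metric.closedBall (z : ℂ) 1 := Metric.sphere_subset_closedBall hw
    have hwpos : 0 < w.im := hsub hw'
    have h1 : |(w - z).im| ≤ 1 :=
      (Complex.abs_im_le_norm _).trans (by simpa [dist_eq_norm] using hw')
    have h2 : z.im - 1 ≤ w.im := by
      have := (abs_le.mp h1).1
      simp only [Complex.sub_im, UpperHalfPlane.coe_im] at this
      linarith
    rw [Function.comp_apply, ofComplex_apply_of_im_pos hwpos]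
    exact hb _ (by show A ≤ w.im; linarith)
  have hC := Complex.norm_deriv_le_of_forall_mem_sphere_norm_le one_pos
    (hdiff.diffContOnCl_ball hsub) hbd
  have hpi : ‖(2 * π * I : ℂ)⁻¹‖ = (2 * π)⁻¹ := by
    rw [norm_inv]
    congr 1
    simp [abs_of_pos Real.pi_pos]
  rw [normalizedDerivOfComplex, norm_mul, hpi, div_eq_inv_mul]
  have : 0 ≤ (2 * π)⁻¹ := by positivity
  calc (2 * π)⁻¹ * ‖deriv (F ∘ ofComplex) z‖ ≤ (2 * π)⁻¹ * (M / 1) :=
        mul_le_mul_of_nonneg_left hC this
    _ = (2 * π)⁻¹ * M := by rw [div_one]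

/-- If `F` is holomorphic and bounded at `i∞`, then so is `D F`. -/
theorem isBoundedAtImInfty_normalizedDeriv {F : ℍ → ℂ} (hF : MDiff F)
    (hb : IsBoundedAtImInfty F) : IsBoundedAtImInfty (D F) := by
  rw [isBoundedAtImInfty_iff] at hb ⊢
  obtain ⟨M, A, h⟩ := hb
  refine ⟨M / (2 * π), max A 1 + 1, fun z hz => ?_⟩
  exact norm_normalizedDeriv_le hF (lt_max_of_lt_right one_pos)
    (fun w hw => h w ((le_max_left _ _).trans hw)) z hz

/-- If `F` is holomorphic and tends to zero at `i∞`, then so does `D F`. -/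
theorem isZeroAtImInfty_normalizedDeriv {F : ℍ → ℂ} (hF : MDiff F)
    (hb : IsZeroAtImInfty F) : IsZeroAtImInfty (D F) := by
  rw [isZeroAtImInfty_iff] at hb ⊢
  intro ε hε
  obtain ⟨A, h⟩ := hb ε hε
  refine ⟨max A 1 + 1, fun z hz => ?_⟩
  have := norm_normalizedDeriv_le hF (lt_max_of_lt_right one_pos)
    (fun w hw => h w ((le_max_left _ _).trans hw)) z hz
  refine this.trans ?_
  rw [div_le_iff₀ (by positivity)]
  have : (1 : ℝ) ≤ 2 * π := by
    have := Real.pi_gt_three
    linarith
  nlinarith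


/-! ### The Serre derivative at `i∞` -/

/-- The Serre derivative of a holomorphic function bounded at `i∞` is bounded at `i∞`. -/
theorem isBoundedAtImInfty_serreDerivative {F : ℍ → ℂ} (k : ℂ) (hF : MDiff F)
    (hb : IsBoundedAtImInfty F) : IsBoundedAtImInfty (serreDerivative k F) := by
  have h1 : IsBoundedAtImInfty (D F) := isBoundedAtImInfty_normalizedDeriv hF hb
  have h2 : IsBoundedAtImInfty (fun z => k * 12⁻¹ * EisensteinSeries.E2 z * F z) := by
    have h3 : IsBoundedAtImInfty (fun _ : ℍ => k * 12⁻¹) := const_boundedAtFilter _ _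
    exact (h3.mul EisensteinSeries.isBoundedAtImInfty_E2).mul hb
  have h4 : serreDerivative k F = D F + -(fun z => k * 12⁻¹ * EisensteinSeries.E2 z * F z) := by
    ext z
    simp [serreDerivative, sub_eq_add_neg]
  rw [h4]
  exact h1.add h2.neg

/-- The Serre derivative of a holomorphic function vanishing at `i∞` vanishes at `i∞`. -/
theorem isZeroAtImInfty_serreDerivative {F : ℍ → ℂ} (k : ℂ) (hF : MDiff F)
    (hb : IsZeroAtImInfty F) : IsZeroAtImInfty (serreDerivative k F) := by
  have h1 : IsZeroAtImInfty (D F) := isZeroAtImInfty_normalizedDeriv hF hb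
  have h2 : IsZeroAtImInfty (fun z => k * 12⁻¹ * EisensteinSeries.E2 z * F z) := by
    have h3 : IsBoundedAtImInfty (fun _ : ℍ => k * 12⁻¹) := const_boundedAtFilter _ _
    exact (h3.mul EisensteinSeries.isBoundedAtImInfty_E2).mul_zeroAtFilter hb
  have h4 : serreDerivative k F = D F + -(fun z => k * 12⁻¹ * EisensteinSeries.E2 z * F z) := by
    ext z
    simp [serreDerivative, sub_eq_add_neg]
  rw [h4]
  exact h1.add h2.neg

/-! ### The Serre derivative of modular forms of level `Γ ≤ SL(2, ℤ)` -/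

section Level

variable {Γ : Subgroup SL(2, ℤ)} {k : ℤ}

/-- Slash invariance of the Serre derivative under the image of `Γ` in `GL(2, ℝ)`. -/
theorem serreDerivative_slash_eq_of_mem {F : ℍ → ℂ} (hF : MDiff F)
    (hinv : ∀ γ ∈ (Γ : Subgroup (GL (Fin 2) ℝ)), F ∣[k] γ = F)
    (γ : GL (Fin 2) ℝ) (hγ : γ ∈ (Γ : Subgroup (GL (Fin 2) ℝ))) :
    serreDerivative k F ∣[k + 2] γ = serreDerivative k F := by
  obtain ⟨γ', hγ', rfl⟩ := hγ
  have h := hinv _ (Subgroup.mem_map_of_mem _ hγ')
  exact serreDerivative_slash_invariant (γ := γ') hF h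

/-- The Serre derivative of a modular form of weight `k` and level `Γ` (a finite index subgroup of
`SL(2, ℤ)`) is a modular form of weight `k + 2` and level `Γ`. -/
noncomputable def serreD [Γ.FiniteIndex] (f : ModularForm Γ k) : ModularForm Γ (k + 2) where
  toFun := serreDerivative k f
  slash_action_eq' := serreDerivative_slash_eq_of_mem f.holo' f.slash_action_eq'
  holo' := serreDerivative_mdifferentiable k f.holo'
  bdd_at_cusps' := by
    intro c hc
    have hc' : IsCusp c 𝒮ℒ := (Subgroup.IsArithmetic.isCusp_iff_isCusp_SL2Z _).mp hc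
    rw [OnePoint.isBoundedAt_iff_forall_SL2Z hc']
    intro γ hγ
    have hf : MDiff (f : ℍ → ℂ) := f.holo'
    show IsBoundedAtImInfty (serreDerivative k f ∣[k + 2] γ)
    rw [serreDerivative_slash_equivariant hf]
    exact isBoundedAtImInfty_serreDerivative k (hf.slash k _)
      (f.bdd_at_cusps' hc _ hγ)

@[simp]
theorem coe_serreD [Γ.FiniteIndex] (f : ModularForm Γ k) :
    (serreD f : ℍ → ℂ) = serreDerivative k f := rfl

theorem serreD_apply [Γ.FiniteIndex] (f : ModularForm Γ k) (z : ℍ) :
    serreD f z = D f z - k * 12⁻¹ * EisensteinSeries.E2 z * f z := rfl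

/-- The Serre derivative of a cusp form of weight `k` and level `Γ` is a cusp form of weight
`k + 2` and level `Γ`. -/
noncomputable def serreDCusp [Γ.FiniteIndex] (f : CuspForm Γ k) : CuspForm Γ (k + 2) where
  toFun := serreDerivative k f
  slash_action_eq' := serreDerivative_slash_eq_of_mem f.holo' f.slash_action_eq'
  holo' := serreDerivative_mdifferentiable k f.holo'
  zero_at_cusps' := by
    intro c hc
    have hc' : IsCusp c 𝒮ℒ := (Subgroup.IsArithmetic.isCusp_iff_isCusp_SL2Z _).mp hc
    rw [OnePoint.isZeroAt_iff_forall_SL2Z hc']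
    intro γ hγ
    have hf : MDiff (f : ℍ → ℂ) := f.holo'
    show IsZeroAtImInfty (serreDerivative k f ∣[k + 2] γ)
    rw [serreDerivative_slash_equivariant hf]
    exact isZeroAtImInfty_serreDerivative k (hf.slash k _)
      (f.zero_at_cusps' hc _ hγ)

@[simp]
theorem coe_serreDCusp [Γ.FiniteIndex] (f : CuspForm Γ k) :
    (serreDCusp f : ℍ → ℂ) = serreDerivative k f := rfl

/-- The Serre derivative as a `ℂ`-linear map `M_k(Γ) → M_{k+2}(Γ)`. -/
noncomputable def serreDLin (Γ : Subgroup SL(2, ℤ)) [Γ.FiniteIndex] (k : ℤ) :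
    ModularForm Γ k →ₗ[ℂ] ModularForm Γ (k + 2) where
  toFun := serreD
  map_add' f g := by
    apply DFunLike.coe_injective
    show serreDerivative k (⇑f + ⇑g) = serreDerivative k ⇑f + serreDerivative k ⇑g
    exact serreDerivative_add k _ _ f.holo' g.holo'
  map_smul' c f := by
    apply DFunLike.coe_injective
    show serreDerivative k (c • ⇑f) = c • serreDerivative k ⇑f
    exact serreDerivative_smul k c _ f.holo'

@[simp]
theorem serreDLin_apply [Γ.FiniteIndex] (f : ModularForm Γ k) :
    serreDLin Γ k f = serreD f := rfl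

/-- The Serre derivative as a `ℂ`-linear map `S_k(Γ) → S_{k+2}(Γ)`. -/
noncomputable def serreDCuspLin (Γ : Subgroup SL(2, ℤ)) [Γ.FiniteIndex] (k : ℤ) :
    CuspForm Γ k →ₗ[ℂ] CuspForm Γ (k + 2) where
  toFun := serreDCusp
  map_add' f g := by
    apply DFunLike.coe_injective
    show serreDerivative k (⇑f + ⇑g) = serreDerivative k ⇑f + serreDerivative k ⇑g
    exact serreDerivative_add k _ _ f.holo' g.holo'
  map_smul' c f := by
    apply DFunLike.coe_injective
    show serreDerivative k (c • ⇑f) = c • serreDerivative k ⇑f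
    exact serreDerivative_smul k c _ f.holo'

@[simp]
theorem serreDCuspLin_apply [Γ.FiniteIndex] (f : CuspForm Γ k) :
    serreDCuspLin Γ k f = serreDCusp f := rfl

/-- The normalized derivative `D f = (2πi)⁻¹ f'` of a modular form, expressed through its Serre
derivative (which is again a modular form) and `E₂`. -/
theorem normalizedDeriv_eq_serreD_add [Γ.FiniteIndex] (f : ModularForm Γ k) (z : ℍ) :
    D f z = serreD f z + k * 12⁻¹ * EisensteinSeries.E2 z * f z := by
  rw [serreD_apply]; ring

/-- Slash-equivariance: the `SL(2, ℤ)`-translates of the Serre derivative are the Serre derivatives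
of the translates. -/
theorem serreD_slash [Γ.FiniteIndex] (f : ModularForm Γ k) (γ : SL(2, ℤ)) :
    (serreD f : ℍ → ℂ) ∣[k + 2] γ = serreDerivative k ((f : ℍ → ℂ) ∣[k] γ) := by
  have hf : MDiff (f : ℍ → ℂ) := f.holo'
  rw [coe_serreD, serreDerivative_slash_equivariant hf]

/-- The translates of a modular form satisfy: `D (f ∣[k] γ) = (∂f) ∣[k+2] γ + (k/12) E₂ (f ∣[k] γ)`
for every `γ : SL(2, ℤ)`. This is the identity behind the differential equation of the
fundamental matrix. -/
theorem normalizedDeriv_slash_eq [Γ.FiniteIndex] (f : ModularForm Γ k) (γ : SL(2, ℤ)) (z : ℍ) :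
    D ((f : ℍ → ℂ) ∣[k] γ) z =
      ((serreD f : ℍ → ℂ) ∣[k + 2] γ) z + k * 12⁻¹ * EisensteinSeries.E2 z * ((f : ℍ → ℂ) ∣[k] γ) z := by
  rw [serreD_slash, serreDerivative_apply]; ring

end Level

section Gamma0

/-- Sanity check: the construction applies to `Γ₀(N)` as it appears in the frozen statements. -/
noncomputable example (N : ℕ) [NeZero N] (f : CuspForm (CongruenceSubgroup.Gamma0 N) 2) :
    CuspForm (CongruenceSubgroup.Gamma0 N) (2 + 2) := serreDCusp f

noncomputable example (N : ℕ) [NeZero N] (f : ModularForm (CongruenceSubgroup.Gamma0 N) 2) :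
    ModularForm (CongruenceSubgroup.Gamma0 N) (2 + 2) := serreD f

end Gamma0

end Fermat.Agent.S20.helper2180
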