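import Mathlib

set_option autoImplicit false
set_option linter.unusedSectionVars false

open UpperHalfPlane CongruenceSubgroup ModularForm EisensteinSeries Filter Topology Matrix
open scoped MatrixGroups ModularForm Manifold

namespace Fermat.Agent.S20.helper800

noncomputable section

variable (N : ℕ) [NeZero N]

/-- The function underlying the weight-4 Eisenstein series of `Γ₀(N)` attached to the cusp `∞`:
the sum over units `d` of the level-`Γ(N)` Eisenstein series with congruence condition `(0, d)`. -/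
def eisFun : ℍ → ℂ := ∑ d : (ZMod N)ˣ, eisensteinSeries (![0, (d : ZMod N)]) 4

lemma eisFun_slash (γ : SL(2, ℤ)) :
    eisFun N ∣[(4 : ℤ)] γ = ∑ d : (ZMod N)ˣ,
      eisensteinSeries (![0, (d : ZMod N)] ᵥ*
        (SpecialLinearGroup.map (Int.castRingHom (ZMod N)) γ).1) 4 := by
  rw [eisFun, SL_slash, SlashAction.sum_slash]
  refine Finset.sum_congr rfl fun d _ => ?_
  rw [← SL_slash, eisensteinSeries_slash_apply]

lemma botVec_vecMul (d : ZMod N) (M : Matrix (Fin 2) (Fin 2) (ZMod N)) :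
    (![0, d] : Fin 2 → ZMod N) ᵥ* M = ![d * M 1 0, d * M 1 1] := by
  ext i
  fin_cases i <;> simp [Matrix.vecMul, dotProduct, Fin.sum_univ_two]

/-- For `γ ∈ Γ₀(N)`, the lower right entry is a unit mod `N`. -/
def lowerRightUnit (γ : SL(2, ℤ)) (hγ : γ ∈ Gamma0 N) : (ZMod N)ˣ where
  val := ((γ 1 1 : ℤ) : ZMod N)
  inv := ((γ 0 0 : ℤ) : ZMod N)
  val_inv := by
    have h1 : ((γ 1 0 : ℤ) : ZMod N) = 0 := Gamma0_mem.mp hγ
    have hdet := Matrix.det_fin_two γ.1
    rw [γ.2] at hdet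
    have := congrArg (Int.cast : ℤ → ZMod N) hdet
    push_cast at this
    rw [h1] at this
    linear_combination -this
  inv_val := by
    have h1 : ((γ 1 0 : ℤ) : ZMod N) = 0 := Gamma0_mem.mp hγ
    have hdet := Matrix.det_fin_two γ.1
    rw [γ.2] at hdet
    have := congrArg (Int.cast : ℤ → ZMod N) hdet
    push_cast at this
    rw [h1] at this
    linear_combination -this

lemma eisFun_slash_of_mem (γ : SL(2, ℤ)) (hγ : γ ∈ Gamma0 N) :
    eisFun N ∣[(4 : ℤ)] γ = eisFun N := by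
  rw [eisFun_slash, eisFun]
  have h1 : ((γ 1 0 : ℤ) : ZMod N) = 0 := Gamma0_mem.mp hγ
  refine Fintype.sum_equiv (Equiv.mulRight (lowerRightUnit N γ hγ)) _ _ fun d => ?_
  rw [botVec_vecMul]
  congr 1
  simp [lowerRightUnit, h1]

lemma eisFun_mdifferentiable : MDiff (eisFun N) := by
  rw [eisFun]
  exact MDifferentiable.sum fun d _ => eisensteinSeriesSIF_mdifferentiable (by norm_num) _

lemma eisFun_slash_isBoundedAtImInfty (γ : SL(2, ℤ)) :
    IsBoundedAtImInfty (eisFun N ∣[(4 : ℤ)] γ) := by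
  rw [eisFun, SL_slash, SlashAction.sum_slash]
  rw [IsBoundedAtImInfty, BoundedAtFilter]
  have : ∀ d : (ZMod N)ˣ, IsBoundedAtImInfty
      (eisensteinSeries (![0, (d : ZMod N)]) 4 ∣[(4 : ℤ)] (γ : GL (Fin 2) ℝ)) := by
    intro d
    rw [← SL_slash]
    exact isBoundedAtImInfty_eisensteinSeriesSIF _ (by norm_num) γ
  simpa [Finset.sum_fn] using Asymptotics.IsBigO.sum (fun d _ => this d)

/-- The weight-4 Eisenstein series of `Γ₀(N)` attached to the cusp `∞`. -/
def eisGamma0 : ModularForm (Gamma0 N) 4 where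
  toFun := eisFun N
  slash_action_eq' A hA := by
    obtain ⟨A, (hA : A ∈ Gamma0 N), rfl⟩ := hA
    have := eisFun_slash_of_mem N A hA
    rwa [SL_slash] at this
  holo' := eisFun_mdifferentiable N
  bdd_at_cusps' {c} hc := by
    rw [Subgroup.IsArithmetic.isCusp_iff_isCusp_SL2Z] at hc
    rw [OnePoint.isBoundedAt_iff_forall_SL2Z hc]
    exact fun γ _ => eisFun_slash_isBoundedAtImInfty N γ

@[simp] lemma coe_eisGamma0 : (eisGamma0 N : ℍ → ℂ) = eisFun N := rfl

/-- A modular form for an arithmetic group has a limit at `i∞`. -/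
lemma tendsto_valueAtInfty {Γ : Subgroup (GL (Fin 2) ℝ)} [Γ.IsArithmetic] {k : ℤ}
    (f : ModularForm Γ k) : Tendsto f atImInfty (𝓝 (valueAtInfty f)) := by
  obtain ⟨c, hc, hO⟩ := ModularFormClass.exp_decay_sub_atImInfty' f
  have h0 : Tendsto (fun τ : ℍ => Real.exp (-c * τ.im)) atImInfty (𝓝 0) := by
    have : Tendsto (fun τ : ℍ => -c * τ.im) atImInfty atBot := by
      have h1 : Tendsto (fun τ : ℍ => τ.im) atImInfty atTop := tendsto_comap
      exact Tendsto.const_mul_atTop_of_neg (by linarith) h1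
    exact Real.tendsto_exp_atBot.comp this
  have := hO.trans_tendsto h0
  simpa using this.add_const (valueAtInfty f)

/-- The path `y ↦ i y` goes to `i∞`. -/
lemma tendsto_ofComplex_I_mul :
    Tendsto (fun y : ℝ => ofComplex (Complex.I * y)) atTop atImInfty := by
  refine tendsto_comap_im_ofComplex.comp (tendsto_comap_iff.mpr ?_)
  have : (Complex.im ∘ fun y : ℝ => Complex.I * (y : ℂ)) = id := by
    funext y; simp
  rw [this]; exact tendsto_id

lemma coe_ofComplex_I_mul {y : ℝ} (hy : 0 < y) :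
    ((ofComplex (Complex.I * y) : ℍ) : ℂ) = Complex.I * y := by
  rw [ofComplex_apply_of_im_pos (by simpa using hy)]

/-- the limiting value of a summand of the Eisenstein series along the imaginary axis -/
def limTerm (x : Fin 2 → ℤ) : ℂ := if x 0 = 0 then ((x 1 : ℂ)) ^ (-4 : ℤ) else 0

lemma eisSummand_tendsto_axis (x : Fin 2 → ℤ) :
    Tendsto (fun y : ℝ => eisSummand 4 x (ofComplex (Complex.I * y))) atTop (𝓝 (limTerm x)) := by
  by_cases hx : x 0 = 0
  · have : (fun y : ℝ => eisSummand 4 x (ofComplex (Complex.I * y))) = fun _ => limTerm x := by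
      funext y
      simp [eisSummand, limTerm, hx]
    rw [this]; exact tendsto_const_nhds
  · rw [limTerm, if_neg hx]
    -- the norm of `x 0 * (I y) + x 1` tends to infinity
    have hcob : Tendsto (fun y : ℝ => (x 0 : ℂ) * (Complex.I * y) + x 1) atTop
        (Bornology.cobounded ℂ) := by
      rw [← tendsto_norm_atTop_iff_cobounded]
      have hx' : (0 : ℝ) < |(x 0 : ℝ)| := abs_pos.mpr (by exact_mod_cast hx)
      refine tendsto_atTop_mono (fun y => ?_)
        ((tendsto_id.const_mul_atTop hx').atTop_add (tendsto_const_nhds (x := (-|(x 0 : ℝ)|))))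
      have him : ((x 0 : ℂ) * (Complex.I * y) + x 1).im = (x 0 : ℝ) * y := by simp
      have h1 := Complex.abs_im_le_norm ((x 0 : ℂ) * (Complex.I * y) + x 1)
      rw [him, abs_mul] at h1
      have h2 : |(x 0 : ℝ)| * y ≤ |(x 0 : ℝ)| * |y| :=
        mul_le_mul_of_nonneg_left (le_abs_self y) (abs_nonneg _)
      simp only [id]
      linarith
    have hinv := (tendsto_inv₀_cobounded (α := ℂ)).comp hcob
    have hpow := hinv.pow 4
    simp only [ne_eq, OfNat.ofNat_ne_zero, not_false_eq_true, zero_pow] at hpow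
    refine (tendsto_congr' ?_).mpr hpow
    filter_upwards [eventually_gt_atTop 0] with y hy
    simp only [eisSummand, Function.comp, coe_ofComplex_I_mul hy]
    rw [_root_.zpow_neg, ← _root_.inv_zpow]
    norm_cast

lemma eisSummand_axis_bound {y : ℝ} (hy : 1 ≤ y) (x : Fin 2 → ℤ) :
    ‖eisSummand 4 x (ofComplex (Complex.I * y))‖ ≤
      r ⟨⟨0, 1⟩, one_pos⟩ ^ (-(4 : ℝ)) * ‖x‖ ^ (-(4 : ℝ)) := by
  have hy0 : 0 < y := by linarith
  have hz : ofComplex (Complex.I * y) ∈ verticalStrip 0 1 := by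
    constructor
    · simp [UpperHalfPlane.re, coe_ofComplex_I_mul hy0]
    · simpa [UpperHalfPlane.im, coe_ofComplex_I_mul hy0] using hy
  have := summand_bound_of_mem_verticalStrip (k := 4) (by norm_num) x one_pos hz
  simp only [eisSummand, norm_zpow]
  exact_mod_cast this

lemma eisensteinSeries_tendsto_axis (a : Fin 2 → ZMod N) :
    Tendsto (fun y : ℝ => eisensteinSeries a 4 (ofComplex (Complex.I * y))) atTop
      (𝓝 (∑' x : gammaSet N 1 a, limTerm x.1)) := by
  simp only [eisensteinSeries]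
  refine tendsto_tsum_of_dominated_convergence
    (bound := fun x : gammaSet N 1 a => r ⟨⟨0, 1⟩, one_pos⟩ ^ (-(4 : ℝ)) * ‖x.1‖ ^ (-(4 : ℝ)))
    ?_ (fun x => eisSummand_tendsto_axis x.1) ?_
  · exact ((summable_one_div_norm_rpow (k := 4) (by norm_num)).mul_left _).subtype _
  · filter_upwards [eventually_ge_atTop 1] with y hy x
    exact eisSummand_axis_bound hy x.1

/-- The limit at `i∞` of a level `Γ(N)` Eisenstein series of weight 4. -/
lemma eisensteinSeries_tendsto (a : Fin 2 → ZMod N) :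
    Tendsto (eisensteinSeries a 4) atImInfty (𝓝 (∑' x : gammaSet N 1 a, limTerm x.1)) := by
  have h1 := tendsto_valueAtInfty (ModularForm.eisensteinSeriesMF (k := 4) (by norm_num) a)
  have h2 : (ModularForm.eisensteinSeriesMF (k := 4) (by norm_num) a : ℍ → ℂ)
      = eisensteinSeries a 4 := rfl
  rw [h2] at h1
  have h3 := h1.comp tendsto_ofComplex_I_mul
  have h4 := eisensteinSeries_tendsto_axis N a
  rwa [← tendsto_nhds_unique h3 h4]

/-- The limit at `i∞` of `eisFun ∣ γ`. -/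
lemma eisFun_slash_tendsto (γ : SL(2, ℤ)) :
    Tendsto (eisFun N ∣[(4 : ℤ)] γ) atImInfty
      (𝓝 (∑ d : (ZMod N)ˣ, ∑' x : gammaSet N 1 (![0, (d : ZMod N)] ᵥ*
        (SpecialLinearGroup.map (Int.castRingHom (ZMod N)) γ).1), limTerm x.1)) := by
  rw [eisFun_slash]
  have : (∑ d : (ZMod N)ˣ, eisensteinSeries (![0, (d : ZMod N)] ᵥ*
        (SpecialLinearGroup.map (Int.castRingHom (ZMod N)) γ).1) 4 : ℍ → ℂ)
      = fun τ => ∑ d : (ZMod N)ˣ, eisensteinSeries (![0, (d : ZMod N)] ᵥ*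
        (SpecialLinearGroup.map (Int.castRingHom (ZMod N)) γ).1) 4 τ := by
    funext τ; simp
  rw [this]
  exact tendsto_finsetSum _ fun d _ => eisensteinSeries_tendsto N _

lemma eisFun_slash_tendsto_zero_of_not_mem (γ : SL(2, ℤ)) (hγ : γ ∉ Gamma0 N) :
    Tendsto (eisFun N ∣[(4 : ℤ)] γ) atImInfty (𝓝 0) := by
  have h := eisFun_slash_tendsto N γ
  have hγ' : ((γ 1 0 : ℤ) : ZMod N) ≠ 0 := fun h0 => hγ (Gamma0_mem.mpr h0)
  suffices hz : (∑ d : (ZMod N)ˣ, ∑' x : gammaSet N 1 (![0, (d : ZMod N)] ᵥ*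
        (SpecialLinearGroup.map (Int.castRingHom (ZMod N)) γ).1), limTerm x.1) = 0 by
    rwa [hz] at h
  refine Finset.sum_eq_zero fun d _ => ?_
  have : ∀ x : gammaSet N 1 (![0, (d : ZMod N)] ᵥ*
        (SpecialLinearGroup.map (Int.castRingHom (ZMod N)) γ).1), limTerm x.1 = 0 := by
    rintro ⟨x, hx⟩
    have hx0 : ((x 0 : ℤ) : ZMod N) = (d : ZMod N) * ((γ 1 0 : ℤ) : ZMod N) := by
      have := congrFun hx.1 0
      simp only [Function.comp_apply] at this
      rw [this, botVec_vecMul]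
      simp
    have hne : x 0 ≠ 0 := by
      intro h0
      rw [h0] at hx0
      simp only [Int.cast_zero] at hx0
      exact hγ' ((Units.mul_right_eq_zero d).mp hx0.symm)
    simp [limTerm, hne]
  simp [this]

/-- real version of `limTerm` on primitive vectors -/
def limTermR (x : Fin 2 → ℤ) : ℝ := if x 0 = 0 then 1 else 0

lemma limTerm_eq_of_mem {a : Fin 2 → ZMod N} {x : Fin 2 → ℤ} (hx : x ∈ gammaSet N 1 a) :
    limTerm x = (limTermR x : ℂ) := by
  by_cases h0 : x 0 = 0
  · have hg := hx.2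
    rw [h0, Int.gcd_zero_left] at hg
    have h1 : x 1 = 1 ∨ x 1 = -1 := Int.natAbs_eq_natAbs_iff.mp (by simpa using hg)
    rcases h1 with h1 | h1 <;> simp [limTerm, limTermR, h0, h1]
    norm_num [_root_.zpow_neg]
  · simp [limTerm, limTermR, h0]

lemma limTermR_nonneg (x : Fin 2 → ℤ) : 0 ≤ limTermR x := by
  unfold limTermR; split_ifs <;> norm_num

lemma tsum_limTerm_eq (a : Fin 2 → ZMod N) :
    (∑' x : gammaSet N 1 a, limTerm x.1) =
      ((∑ x ∈ ({![0, 1], ![0, -1]} : Finset (Fin 2 → ℤ)),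
        (gammaSet N 1 a).indicator limTermR x : ℝ) : ℂ) := by
  have h1 : (∑' x : gammaSet N 1 a, limTerm x.1) = ∑' x : gammaSet N 1 a, (limTermR x.1 : ℂ) :=
    tsum_congr fun x => limTerm_eq_of_mem N x.2
  rw [h1, ← Complex.ofReal_tsum, tsum_subtype (gammaSet N 1 a) limTermR]
  congr 1
  refine tsum_eq_sum fun x hx => ?_
  by_cases hmem : x ∈ gammaSet N 1 a
  · rw [Set.indicator_of_mem hmem]
    by_cases h0 : x 0 = 0
    · exfalso
      have hg := hmem.2
      rw [h0, Int.gcd_zero_left] at hg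
      have h1 : x 1 = 1 ∨ x 1 = -1 := Int.natAbs_eq_natAbs_iff.mp (by simpa using hg)
      apply hx
      rcases h1 with h1 | h1
      · have : x = ![0, 1] := by ext i; fin_cases i <;> simp [h0, h1]
        simp [this]
      · have : x = ![0, -1] := by ext i; fin_cases i <;> simp [h0, h1]
        simp [this]
    · simp [limTermR, h0]
  · rw [Set.indicator_of_notMem hmem]

/-- The limit of `eisFun` at `i∞`, which is a nonzero number. -/
lemma eisFun_tendsto : ∃ c : ℂ, c ≠ 0 ∧ Tendsto (eisFun N) atImInfty (𝓝 c) := by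
  refine ⟨∑ d : (ZMod N)ˣ, ∑' x : gammaSet N 1 ![0, (d : ZMod N)], limTerm x.1, ?_, ?_⟩
  rotate_left
  · have : (eisFun N) = fun τ => ∑ d : (ZMod N)ˣ, eisensteinSeries (![0, (d : ZMod N)]) 4 τ := by
      funext τ; simp [eisFun]
    rw [this]
    exact tendsto_finsetSum _ fun d _ => eisensteinSeries_tendsto N _
  · simp only [tsum_limTerm_eq]
    rw [← Complex.ofReal_sum]
    norm_cast
    apply ne_of_gt
    have hnn : ∀ d : (ZMod N)ˣ, 0 ≤ ∑ x ∈ ({![0, 1], ![0, -1]} : Finset (Fin 2 → ℤ)),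
        (gammaSet N 1 ![0, (d : ZMod N)]).indicator limTermR x := fun d =>
      Finset.sum_nonneg fun x _ => Set.indicator_nonneg (fun x _ => limTermR_nonneg x) x
    refine lt_of_lt_of_le ?_ (Finset.single_le_sum (fun d _ => hnn d) (Finset.mem_univ (1 : (ZMod N)ˣ)))
    have hmem : (![0, 1] : Fin 2 → ℤ) ∈ gammaSet N 1 ![0, ((1 : (ZMod N)ˣ) : ZMod N)] := by
      refine ⟨?_, by simp⟩
      ext i; fin_cases i <;> simp
    refine lt_of_lt_of_le ?_ (Finset.single_le_sum
      (fun x _ => Set.indicator_nonneg (fun x _ => limTermR_nonneg x) x)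
      (show (![0, 1] : Fin 2 → ℤ) ∈ ({![0, 1], ![0, -1]} : Finset (Fin 2 → ℤ)) by simp))
    rw [Set.indicator_of_mem hmem]
    simp [limTermR]

/-- The canonical map `SL(2,ℤ) → 𝒮ℒ`. -/
def toSL : SL(2, ℤ) →* 𝒮ℒ := (SpecialLinearGroup.mapGL ℝ).rangeRestrict

@[simp] lemma coe_toSL (γ : SL(2, ℤ)) : ((toSL γ : 𝒮ℒ) : GL (Fin 2) ℝ) = SpecialLinearGroup.mapGL ℝ γ :=
  rfl

lemma toSL_surjective : Function.Surjective toSL :=
  MonoidHom.rangeRestrict_surjective _

/-- The index type of the translates of a form on `Γ₀(N)`. -/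
abbrev Cos : Type := 𝒮ℒ ⧸ ((Gamma0 N : Subgroup (GL (Fin 2) ℝ)).subgroupOf 𝒮ℒ)

lemma mk_toSL_eq_iff (ρ γ : SL(2, ℤ)) :
    ((toSL ρ : 𝒮ℒ) : Cos N) = (toSL γ : 𝒮ℒ) ↔ ρ⁻¹ * γ ∈ Gamma0 N := by
  rw [QuotientGroup.eq, Subgroup.mem_subgroupOf]
  constructor
  · rintro ⟨x, hx, hx'⟩
    have : x = ρ⁻¹ * γ := by
      apply Matrix.SpecialLinearGroup.mapGL_injective (S := ℝ)
      rw [hx']
      simp
    rwa [← this]
  · intro h
    exact ⟨ρ⁻¹ * γ, h, by simp⟩

lemma quotientFunc_eisGamma0_slash (ρ γ : SL(2, ℤ)) :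
    SlashInvariantForm.quotientFunc (eisGamma0 N) ((toSL ρ : 𝒮ℒ) : Cos N) ∣[(4 : ℤ)] γ
      = eisFun N ∣[(4 : ℤ)] (ρ⁻¹ * γ) := by
  have h1 : SlashInvariantForm.quotientFunc (eisGamma0 N) ((toSL ρ : 𝒮ℒ) : Cos N)
      = (eisGamma0 N : ℍ → ℂ) ∣[(4 : ℤ)] ((toSL ρ : 𝒮ℒ) : GL (Fin 2) ℝ)⁻¹ := rfl
  rw [h1, SL_slash, SL_slash, ← SlashAction.slash_mul]
  congr 1
  simp [map_mul, map_inv]
  rfl

open scoped Classical in
variable {N} in
/-- The limit at `i∞` of the `γ`-translate of the `q`-th conjugate of the Eisenstein series is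
nonzero exactly when `q` is the class of `γ`. -/
lemma quotientFunc_eisGamma0_slash_tendsto {c : ℂ} (hc : Tendsto (eisFun N) atImInfty (𝓝 c))
    (q : Cos N) (γ : SL(2, ℤ)) :
    Tendsto (SlashInvariantForm.quotientFunc (eisGamma0 N) q ∣[(4 : ℤ)] γ) atImInfty
      (𝓝 (if q = ((toSL γ : 𝒮ℒ) : Cos N) then c else 0)) := by
  induction q using Quotient.inductionOn with
  | h r =>
    obtain ⟨ρ, rfl⟩ := toSL_surjective r
    change Tendsto (SlashInvariantForm.quotientFunc (eisGamma0 N) ((toSL ρ : 𝒮ℒ) : Cos N)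
      ∣[(4 : ℤ)] γ) atImInfty
      (𝓝 (if ((toSL ρ : 𝒮ℒ) : Cos N) = ((toSL γ : 𝒮ℒ) : Cos N) then c else 0))
    rw [quotientFunc_eisGamma0_slash]
    by_cases h : ρ⁻¹ * γ ∈ Gamma0 N
    · rw [if_pos ((mk_toSL_eq_iff N ρ γ).mpr h), eisFun_slash_of_mem N _ h]
      exact hc
    · rw [if_neg (fun h' => h ((mk_toSL_eq_iff N ρ γ).mp h'))]
      exact eisFun_slash_tendsto_zero_of_not_mem N _ h

open scoped Classical in
/-- **Separation of cosets**: the translates of the Eisenstein series `eisGamma0 N` by coset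
representatives of `Γ₀(N)` in `SL(2,ℤ)` are linearly independent (even pointwise-generically):
a linear relation `∑ q, v q * quotientFunc (eisGamma0 N) q τ = 0` valid for all `τ` forces
`v = 0`. -/
theorem separation [Fintype (Cos N)] (v : Cos N → ℂ)
    (hv : ∀ τ : ℍ, ∑ q, v q * SlashInvariantForm.quotientFunc (eisGamma0 N) q τ = 0) :
    v = 0 := by
  obtain ⟨c, hc0, hc⟩ := eisFun_tendsto N
  funext q0
  induction q0 using Quotient.inductionOn with
  | h r =>
    obtain ⟨γ, rfl⟩ := toSL_surjective r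
    change v ((toSL γ : 𝒮ℒ) : Cos N) = 0
    -- the relation as an identity of functions, slashed by `γ`
    have hfun : (∑ q, v q • SlashInvariantForm.quotientFunc (eisGamma0 N) q : ℍ → ℂ) = 0 := by
      funext τ
      simpa [Finset.sum_apply] using hv τ
    have hsl : (∑ q, v q • (SlashInvariantForm.quotientFunc (eisGamma0 N) q ∣[(4 : ℤ)] γ)
        : ℍ → ℂ) = 0 := by
      have := congrArg (fun f : ℍ → ℂ => f ∣[(4 : ℤ)] γ) hfun
      simp only [SlashAction.sum_slash, SlashAction.zero_slash] at this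
      rw [← this]
      exact Finset.sum_congr rfl fun q _ => (SL_smul_slash _ _ _ _).symm
    -- take the limit at `i∞`
    have hlim : Tendsto (fun τ : ℍ => (∑ q, v q •
        (SlashInvariantForm.quotientFunc (eisGamma0 N) q ∣[(4 : ℤ)] γ) : ℍ → ℂ) τ) atImInfty
        (𝓝 (∑ q, v q * (if q = ((toSL γ : 𝒮ℒ) : Cos N) then c else 0))) := by
      simp only [Finset.sum_apply, Pi.smul_apply, smul_eq_mul]
      exact tendsto_finsetSum _ fun q _ =>
        (quotientFunc_eisGamma0_slash_tendsto hc q γ).const_mul (v q)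
    rw [hsl] at hlim
    have h0 := tendsto_nhds_unique hlim tendsto_const_nhds
    simp only [mul_ite, mul_zero, Finset.sum_ite_eq', Finset.mem_univ, if_true] at h0
    exact (mul_eq_zero.mp h0).resolve_right hc0

end

end Fermat.Agent.S20.helper800
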