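import Fermat.Agent.S20.helper435_InvGlue
import Fermat.Agent.Lib.helper460_FreeModule
import Fermat.Agent.S20.helper2180_SerreDeriv
import Fermat.Agent.S20.helper800_Separation
import Fermat.Agent.S20.helper1982_Bridge

/-!
# S20: the BASIS goal for `Γ₀(N)` (helper435)

`stmt_Basis_G0_strong N`: for `𝒢 = G0 N` (the image of `Γ₀(N)` in `GL(2, ℝ)`) there is a
homogeneous free basis `(κ, F)` of `MFG (G0 N)` over the level-one forms, indexed by the coset
space `Q (G0 N)`, whose fundamental determinant vanishes NOWHERE on the upper half plane.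
In particular `stmt_Basis_G0 N : helper560.Stmt_Basis (G0 N) (MFG (G0 N))`, which is the instance
of `helper560.Goal_BasisM` used by all the S20 assemblies.

Ingredients (all on main): `helper460.exists_free_generators_Gamma0` (free generators, at most
`index` many by the Sturm bound), `helper2180.serreD` (Serre derivative), `helper800.separation`
(Eisenstein separation) and `helper435.left_kernel_trivial` (ODE uniqueness).
-/

set_option autoImplicit false

open UpperHalfPlane ModularForm Derivative SlashInvariantForm
open scoped MatrixGroups Manifold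

namespace Fermat.Agent.S20.helper435

open Fermat.Agent.S20.helper560

/-- Free basis of `M_*(Γ₀(N))` indexed by the cosets, with nowhere vanishing fundamental
determinant. -/
theorem stmt_Basis_G0_strong (N : ℕ) [NeZero N] :
    ∃ (κ : Q (G0 N) → ℤ) (F : Q (G0 N) → ℍ → ℂ),
      IsFreeBasis (MFG (G0 N)) κ F ∧ ∀ z, fundDet (G0 N) κ F z ≠ 0 := by
  classical
  obtain ⟨n, k, F, hn, -, -, hGen, hUniq⟩ :=
    Fermat.Agent.Lib.helper460.exists_free_generators_Gamma0 N
  have hSD : ∀ (w : ℤ) (f : ModularForm (G0 N) w), ∃ g : ModularForm (G0 N) (w + 2),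
      ∀ z, g z = serreDerivative w f z := fun w f => ⟨helper2180.serreD f, fun z => rfl⟩
  have hSep : ∀ v : Q (G0 N) → ℂ,
      (∀ (w : ℤ) (f : ModularForm (G0 N) w) (z : ℍ), ∑ q, v q * quotientFunc f q z = 0) →
        v = 0 :=
    fun v hv => helper800.separation N v fun τ => hv 4 (helper800.eisGamma0 N) τ
  have hcard1 : Fintype.card (Q (G0 N)) ≤ Fintype.card (Fin n) :=
    card_quotient_le (𝒢 := G0 N) k F hGen hSD hSep
  have hmu : Fintype.card (Q (G0 N)) = (CongruenceSubgroup.Gamma0 N).index := by
    rw [← Nat.card_eq_fintype_card]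
    exact helper1982.mu_map (CongruenceSubgroup.Gamma0 N)
  have hcard : Fintype.card (Fin n) = Fintype.card (Q (G0 N)) := by
    rw [Fintype.card_fin] at hcard1 ⊢
    omega
  let e : Fin n ≃ Q (G0 N) := Fintype.equivOfCardEq hcard
  have hFe : ∀ (j : Fin n) (z : ℍ), F (e.symm (e j)) z = F j z := by
    intro j z
    rw [Equiv.symm_apply_apply]
  -- the spanning property for the reindexed family
  have hGen' : ∀ (w : ℤ) (f : ModularForm (G0 N) w),
      ∃ P : ∀ q : Q (G0 N), ModularForm 𝒮ℒ (w - k (e.symm q)),
        ∀ z, f z = ∑ q, P q z * F (e.symm q) z := by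
    intro w f
    obtain ⟨P', hP'⟩ := hGen w f
    refine ⟨fun q => P' (e.symm q), fun z => ?_⟩
    rw [hP' z]
    exact (Equiv.sum_comp e.symm (fun j => P' j z * F j z)).symm
  refine ⟨fun q => k (e.symm q), fun q => ⇑(F (e.symm q)), ⟨fun q => ⟨F (e.symm q), rfl⟩, ?_⟩, ?_⟩
  · -- unique expansions
    rintro w f ⟨f', rfl⟩
    obtain ⟨P', hP'⟩ := hGen w f'
    refine ⟨fun q => ⇑(P' (e.symm q)), ⟨fun q => ⟨P' (e.symm q), rfl⟩, ?_⟩, ?_⟩
    · funext z
      rw [hP' z, Finset.sum_apply]
      exact (Equiv.sum_comp e.symm (fun j => P' j z * F j z)).symm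
    · rintro P2 ⟨hP2mem, hP2eq⟩
      dsimp only at hP2mem hP2eq
      have hmem : ∀ j : Fin n, P2 (e j) ∈ RR (w - k j) := by
        intro j
        have := hP2mem (e j)
        rwa [Equiv.symm_apply_apply] at this
      choose A hA using hmem
      have hzero : ∀ z, ∑ j, (A j - P' j) z * F j z = 0 := by
        intro z
        have h1 : ∑ j, A j z * F j z = f' z := by
          have h2 : f' z = ∑ q, P2 q z * F (e.symm q) z := by
            have := congrFun hP2eq z
            rw [Finset.sum_apply] at this
            exact this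
          rw [h2, ← Equiv.sum_comp e (fun q => P2 q z * F (e.symm q) z)]
          refine Finset.sum_congr rfl fun j _ => ?_
          rw [hFe j z, ← hA j]
        have h3 : ∀ j, (A j - P' j) z * F j z = A j z * F j z - P' j z * F j z := by
          intro j
          have : (A j - P' j) z = A j z - P' j z := rfl
          rw [this]; ring
        rw [Finset.sum_congr rfl fun j _ => h3 j, Finset.sum_sub_distrib, h1, ← hP' z, sub_self]
      have hD := hUniq w (fun j => A j - P' j) hzero
      funext q
      have h4 : A (e.symm q) = P' (e.symm q) := sub_eq_zero.mp (hD (e.symm q))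
      have h5 := hA (e.symm q)
      rw [Equiv.apply_symm_apply] at h5
      rw [← h5, h4]
  · -- nowhere vanishing determinant
    intro z
    have hdet := det_fundamental_ne_zero (𝒢 := G0 N) (fun q => k (e.symm q))
      (fun q => F (e.symm q)) hGen' hSD hSep z
    have hM : transMatrix (G0 N) (fun q => k (e.symm q)) (fun q => ⇑(F (e.symm q))) z
        = Matrix.of fun (q j : Q (G0 N)) => quotientFunc (F (e.symm j)) q z := by
      ext q j
      simp only [transMatrix, Matrix.of_apply]
      rw [tr_eq_quotientFunc]
    unfold fundDet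
    rw [hM]
    convert hdet

/-- The instance at `Γ₀(N)` of `helper560.Goal_BasisM`. -/
theorem stmt_Basis_G0 (N : ℕ) [NeZero N] : Stmt_Basis (G0 N) (MFG (G0 N)) := by
  obtain ⟨κ, F, hF, hdet⟩ := stmt_Basis_G0_strong N
  exact ⟨κ, F, hF, UpperHalfPlane.I, hdet _⟩

end Fermat.Agent.S20.helper435
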