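/-
S20, step (Lo) of the "sandwich" (team_s20_chat #23 / #40), author seat: helper440.

For an arithmetic subgroup `𝒢` with `det = 1`, `Q := 𝒮ℒ ⧸ 𝒢.subgroupOf 𝒮ℒ` (the coset space of
Mathlib's `quotientFunc`) and `T ∈ 𝒮ℒ` the translation:

  `finrank M_2(𝒢) + 1 ≤ finrank S_2(𝒢) + #(T-orbits on Q)`.

Proof: the constant-term map `cst f q = lim_{i∞} quotientFunc f q` has kernel the cusp forms,
its values are `T`-invariant, and `∑_q cst f q = 0` because `∑_q quotientFunc f q` is the trace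
of `f`, a level one form of weight 2, hence zero.
-/
import Mathlib

set_option autoImplicit false

open UpperHalfPlane ModularForm Filter Topology
open scoped MatrixGroups ModularForm

namespace Fermat.Agent.S20.helper440

noncomputable section

variable {𝒢 : Subgroup (GL (Fin 2) ℝ)} {k : ℤ}

/-- A modular form (for a subgroup having `∞` as a cusp) tends to its value at infinity. -/
theorem tendsto_valueAtInfty {Γ : Subgroup (GL (Fin 2) ℝ)} [Γ.IsArithmetic]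
    (f : ModularForm Γ k) : Tendsto (⇑f) atImInfty (𝓝 (valueAtInfty ⇑f)) := by
  have hh : 0 < Γ.strictWidthInfty := Γ.strictWidthInfty_pos_iff.mpr Fact.out
  have hΓ : Γ.strictWidthInfty ∈ Γ.strictPeriods := Γ.strictWidthInfty_mem_strictPeriods
  have hanal := ModularFormClass.analyticAt_cuspFunction_zero f hh hΓ
  have hper := SlashInvariantFormClass.periodic_comp_ofComplex f hΓ
  rw [← cuspFunction_apply_zero hh hanal hper]
  exact (hanal.continuousAt.tendsto.comp (qParam_tendsto_atImInfty hh)).congr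
    (fun τ ↦ SlashInvariantFormClass.eq_cuspFunction f τ hΓ hh.ne')

open ConjAct Pointwise in
/-- Every `SL(2,ℤ)`-translate of a modular form tends to its value at infinity. -/
theorem tendsto_slash_valueAtInfty [𝒢.IsArithmetic] (f : ModularForm 𝒢 k) (g : SL(2, ℤ)) :
    Tendsto (⇑f ∣[k] g) atImInfty (𝓝 (valueAtInfty (⇑f ∣[k] g))) := by
  have : ((toConjAct (g : GL (Fin 2) ℝ)⁻¹) • 𝒢).IsArithmetic := by
    simpa [(show Rat.castHom ℝ = algebraMap ℚ ℝ by rfl), map_inv,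
      Matrix.SpecialLinearGroup.map_mapGL]
      using! Subgroup.IsArithmetic.conj 𝒢 (Matrix.SpecialLinearGroup.mapGL ℚ g)⁻¹
  exact tendsto_valueAtInfty (ModularForm.translate f g)

/-- The same for translates by elements of the subgroup `𝒮ℒ` of `GL(2, ℝ)`. -/
theorem tendsto_slash_valueAtInfty' [𝒢.IsArithmetic] (f : ModularForm 𝒢 k) (h : ↥𝒮ℒ) :
    Tendsto (⇑f ∣[k] (h : GL (Fin 2) ℝ)) atImInfty
      (𝓝 (valueAtInfty (⇑f ∣[k] (h : GL (Fin 2) ℝ)))) := by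
  obtain ⟨g, hg⟩ := h.2
  rw [← hg]
  exact tendsto_slash_valueAtInfty f g

/-- Each `quotientFunc` translate tends to its value at infinity. -/
theorem tendsto_quotientFunc [𝒢.IsArithmetic] (f : ModularForm 𝒢 k)
    (q : ↥𝒮ℒ ⧸ 𝒢.subgroupOf 𝒮ℒ) :
    Tendsto (SlashInvariantForm.quotientFunc f q) atImInfty
      (𝓝 (valueAtInfty (SlashInvariantForm.quotientFunc f q))) := by
  induction q using Quotient.inductionOn with
  | h r =>
    rw [SlashInvariantForm.quotientFunc_mk]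
    exact tendsto_slash_valueAtInfty' f r⁻¹

/-- An element of `SL(2, ℤ)` as an element of the subgroup `𝒮ℒ` of `GL(2, ℝ)`. -/
def sl (γ : SL(2, ℤ)) : ↥𝒮ℒ := ⟨Matrix.SpecialLinearGroup.mapGL ℝ γ, γ, rfl⟩

theorem exists_sl (h : ↥𝒮ℒ) : ∃ γ : SL(2, ℤ), sl γ = h := by
  obtain ⟨γ, hγ⟩ := h.2
  exact ⟨γ, Subtype.ext hγ⟩

theorem quotientFunc_mk_sl [𝒢.HasDetOne] (f : ModularForm 𝒢 k) (γ : SL(2, ℤ)) :
    SlashInvariantForm.quotientFunc f (QuotientGroup.mk (sl γ) : ↥𝒮ℒ ⧸ 𝒢.subgroupOf 𝒮ℒ)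
      = ⇑f ∣[k] γ⁻¹ := by
  show (⇑f ∣[k] ((sl γ : ↥𝒮ℒ) : GL (Fin 2) ℝ)⁻¹) = _
  rw [ModularForm.SL_slash, map_inv]
  rfl

theorem quotientFunc_add [𝒢.HasDetOne] (f g : ModularForm 𝒢 k) (q : ↥𝒮ℒ ⧸ 𝒢.subgroupOf 𝒮ℒ) :
    SlashInvariantForm.quotientFunc (f + g) q
      = SlashInvariantForm.quotientFunc f q + SlashInvariantForm.quotientFunc g q := by
  induction q using QuotientGroup.induction_on with
  | H r =>
    obtain ⟨γ, rfl⟩ := exists_sl r
    rw [quotientFunc_mk_sl, quotientFunc_mk_sl, quotientFunc_mk_sl, FunLike.coe_add,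
      SlashAction.add_slash]

theorem quotientFunc_smul' [𝒢.HasDetOne] (c : ℂ) (f : ModularForm 𝒢 k)
    (q : ↥𝒮ℒ ⧸ 𝒢.subgroupOf 𝒮ℒ) :
    SlashInvariantForm.quotientFunc (c • f) q = c • SlashInvariantForm.quotientFunc f q := by
  induction q using QuotientGroup.induction_on with
  | H r =>
    obtain ⟨γ, rfl⟩ := exists_sl r
    rw [quotientFunc_mk_sl, quotientFunc_mk_sl, FunLike.coe_smul, ModularForm.SL_smul_slash]

/-- The constant-term map: `cst f q` is the value at `i∞` of the translate of `f` attached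
to the coset `q`. -/
def cst (𝒢 : Subgroup (GL (Fin 2) ℝ)) [𝒢.IsArithmetic] [𝒢.HasDetOne] (k : ℤ) :
    ModularForm 𝒢 k →ₗ[ℂ] (↥𝒮ℒ ⧸ 𝒢.subgroupOf 𝒮ℒ → ℂ) where
  toFun f q := valueAtInfty (SlashInvariantForm.quotientFunc f q)
  map_add' f g := by
    ext q
    simp only [Pi.add_apply]
    rw [quotientFunc_add]
    exact ((tendsto_quotientFunc f q).add (tendsto_quotientFunc g q)).limUnder_eq
  map_smul' c f := by
    ext q
    simp only [Pi.smul_apply, RingHom.id_apply]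
    rw [quotientFunc_smul']
    exact ((tendsto_quotientFunc f q).const_smul c).limUnder_eq

theorem cst_apply [𝒢.IsArithmetic] [𝒢.HasDetOne] (f : ModularForm 𝒢 k)
    (q : ↥𝒮ℒ ⧸ 𝒢.subgroupOf 𝒮ℒ) :
    cst 𝒢 k f q = valueAtInfty (SlashInvariantForm.quotientFunc f q) := rfl

theorem tendsto_cst [𝒢.IsArithmetic] [𝒢.HasDetOne] (f : ModularForm 𝒢 k)
    (q : ↥𝒮ℒ ⧸ 𝒢.subgroupOf 𝒮ℒ) :
    Tendsto (SlashInvariantForm.quotientFunc f q) atImInfty (𝓝 (cst 𝒢 k f q)) :=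
  tendsto_quotientFunc f q

/-- The kernel of the constant-term map consists exactly of the cusp forms. -/
theorem cst_eq_zero_iff [𝒢.IsArithmetic] [𝒢.HasDetOne] (f : ModularForm 𝒢 k) :
    cst 𝒢 k f = 0 ↔ IsCuspForm f := by
  constructor
  · intro h
    rw [isCuspForm_iff]
    intro c hc
    rw [Subgroup.IsArithmetic.isCusp_iff_isCusp_SL2Z] at hc
    rw [OnePoint.isZeroAt_iff_forall_SL2Z hc]
    intro γ _
    have h1 := tendsto_cst f (QuotientGroup.mk (sl γ⁻¹))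
    rw [quotientFunc_mk_sl, inv_inv, h] at h1
    exact h1
  · rintro ⟨g, rfl⟩
    ext q
    induction q using QuotientGroup.induction_on with
    | H r =>
      obtain ⟨γ, rfl⟩ := exists_sl r
      rw [cst_apply, quotientFunc_mk_sl]
      exact (CuspFormClass.zero_at_infty_slash g γ⁻¹).valueAtInfty_eq_zero

theorem ker_cst [𝒢.IsArithmetic] [𝒢.HasDetOne] :
    LinearMap.ker (cst 𝒢 k) = cuspFormSubmodule 𝒢 k := by
  ext f
  rw [LinearMap.mem_ker, cst_eq_zero_iff, mem_cuspFormSubmodule_iff]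

/-! ### `T`-invariance of the constant terms -/

theorem T_slash_apply (F : ℍ → ℂ) (z : ℍ) :
    (F ∣[k] (ModularGroup.T : SL(2, ℤ))) z = F ((ModularGroup.T : SL(2, ℤ)) • z) := by
  rw [SL_slash_apply, ModularGroup.denom_apply]
  simp [ModularGroup.T]

theorem tendsto_T_smul :
    Tendsto (fun z : ℍ => (ModularGroup.T : SL(2, ℤ)) • z) atImInfty atImInfty := by
  rw [atImInfty, tendsto_comap_iff]
  have : (im ∘ fun z : ℍ => (ModularGroup.T : SL(2, ℤ)) • z) = im := by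
    ext z
    exact ModularGroup.im_T_smul z
  rw [this]
  exact tendsto_comap

theorem cst_T_inv_smul [𝒢.IsArithmetic] [𝒢.HasDetOne] (f : ModularForm 𝒢 k)
    (q : ↥𝒮ℒ ⧸ 𝒢.subgroupOf 𝒮ℒ) :
    cst 𝒢 k f ((sl ModularGroup.T)⁻¹ • q) = cst 𝒢 k f q := by
  have h1 : SlashInvariantForm.quotientFunc f ((sl ModularGroup.T)⁻¹ • q)
      = fun z => SlashInvariantForm.quotientFunc f q ((ModularGroup.T : SL(2, ℤ)) • z) := by
    have h := SlashInvariantForm.quotientFunc_smul f (sl ModularGroup.T).2 q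
    rw [show (⟨((sl ModularGroup.T : ↥𝒮ℒ) : GL (Fin 2) ℝ), (sl ModularGroup.T).2⟩ : ↥𝒮ℒ)
      = sl ModularGroup.T from rfl] at h
    rw [← h]
    ext z
    exact T_slash_apply _ z
  have h2 := tendsto_cst f ((sl ModularGroup.T)⁻¹ • q)
  rw [h1] at h2
  exact tendsto_nhds_unique h2 ((tendsto_cst f q).comp tendsto_T_smul)

/-- The subgroup of `𝒮ℒ` leaving a function on the cosets invariant. -/
def invSubgroup (v : (↥𝒮ℒ ⧸ 𝒢.subgroupOf 𝒮ℒ) → ℂ) : Subgroup ↥𝒮ℒ where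
  carrier := {g | ∀ q, v (g • q) = v q}
  mul_mem' := by
    intro a b ha hb q
    rw [mul_smul, ha, hb]
  one_mem' := by
    intro q
    rw [one_smul]
  inv_mem' := by
    intro a ha q
    have := ha (a⁻¹ • q)
    rw [smul_inv_smul] at this
    exact this.symm

theorem cst_smul_of_mem_zpowers [𝒢.IsArithmetic] [𝒢.HasDetOne] (f : ModularForm 𝒢 k)
    {g : ↥𝒮ℒ} (hg : g ∈ Subgroup.zpowers (sl ModularGroup.T)) (q : ↥𝒮ℒ ⧸ 𝒢.subgroupOf 𝒮ℒ) :
    cst 𝒢 k f (g • q) = cst 𝒢 k f q := by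
  have h1 : (sl ModularGroup.T)⁻¹ ∈ invSubgroup (cst 𝒢 k f) := fun q => cst_T_inv_smul f q
  have h2 : sl ModularGroup.T ∈ invSubgroup (cst 𝒢 k f) := by
    simpa using (invSubgroup (cst 𝒢 k f)).inv_mem h1
  exact (Subgroup.zpowers_le.mpr h2) hg q

/-- The constant term only depends on the `T`-orbit of the coset. -/
theorem cst_out [𝒢.IsArithmetic] [𝒢.HasDetOne] (f : ModularForm 𝒢 k)
    (q : ↥𝒮ℒ ⧸ 𝒢.subgroupOf 𝒮ℒ) :
    cst 𝒢 k f (Quotient.out (Quotient.mk (MulAction.orbitRel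
      (Subgroup.zpowers (sl ModularGroup.T)) (↥𝒮ℒ ⧸ 𝒢.subgroupOf 𝒮ℒ)) q)) = cst 𝒢 k f q := by
  have h := Quotient.mk_out (s := MulAction.orbitRel
      (Subgroup.zpowers (sl ModularGroup.T)) (↥𝒮ℒ ⧸ 𝒢.subgroupOf 𝒮ℒ)) q
  obtain ⟨g, hg⟩ := h
  rw [← hg]
  exact cst_smul_of_mem_zpowers f g.2 q

/-! ### The sum of the constant terms vanishes in weight 2 -/

theorem sum_cst_two [𝒢.IsArithmetic] [𝒢.HasDetOne] [Fintype (↥𝒮ℒ ⧸ 𝒢.subgroupOf 𝒮ℒ)]
    (f : ModularForm 𝒢 2) : ∑ q, cst 𝒢 2 f q = 0 := by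
  have h0 : ModularForm.trace 𝒮ℒ f = 0 :=
    rank_zero_iff_forall_zero.mp ModularForm.levelOne_weight_two_rank_zero _
  have h1 : (∑ q : ↥𝒮ℒ ⧸ 𝒢.subgroupOf 𝒮ℒ, SlashInvariantForm.quotientFunc f q) = 0 := by
    have h2 : ⇑(ModularForm.trace 𝒮ℒ f) = 0 := by rw [h0]; rfl
    rw [ModularForm.coe_trace] at h2
    convert h2
  have h3 : Tendsto (fun z => ∑ q : ↥𝒮ℒ ⧸ 𝒢.subgroupOf 𝒮ℒ,
      SlashInvariantForm.quotientFunc f q z) atImInfty (𝓝 (∑ q, cst 𝒢 2 f q)) :=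
    tendsto_finsetSum _ fun q _ => tendsto_cst f q
  have h4 : (fun z => ∑ q : ↥𝒮ℒ ⧸ 𝒢.subgroupOf 𝒮ℒ,
      SlashInvariantForm.quotientFunc f q z) = fun _ => (0 : ℂ) := by
    ext z
    have := congrFun h1 z
    simpa using this
  rw [h4] at h3
  exact tendsto_nhds_unique h3 tendsto_const_nhds

/-! ### The constant-term map on `T`-orbits -/

/-- The constant-term map, as a function on the set of `T`-orbits of cosets (the "cusps"). -/
def cstOrb (𝒢 : Subgroup (GL (Fin 2) ℝ)) [𝒢.IsArithmetic] [𝒢.HasDetOne] (k : ℤ) :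
    ModularForm 𝒢 k →ₗ[ℂ] (MulAction.orbitRel.Quotient (Subgroup.zpowers (sl ModularGroup.T))
      (↥𝒮ℒ ⧸ 𝒢.subgroupOf 𝒮ℒ) → ℂ) :=
  (LinearMap.funLeft ℂ ℂ (Quotient.out : MulAction.orbitRel.Quotient
    (Subgroup.zpowers (sl ModularGroup.T)) (↥𝒮ℒ ⧸ 𝒢.subgroupOf 𝒮ℒ) → _)).comp (cst 𝒢 k)

theorem cstOrb_mk [𝒢.IsArithmetic] [𝒢.HasDetOne] (f : ModularForm 𝒢 k)
    (q : ↥𝒮ℒ ⧸ 𝒢.subgroupOf 𝒮ℒ) :
    cstOrb 𝒢 k f (Quotient.mk (MulAction.orbitRel
      (Subgroup.zpowers (sl ModularGroup.T)) (↥𝒮ℒ ⧸ 𝒢.subgroupOf 𝒮ℒ)) q) = cst 𝒢 k f q :=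
  cst_out f q

theorem ker_cstOrb [𝒢.IsArithmetic] [𝒢.HasDetOne] :
    LinearMap.ker (cstOrb 𝒢 k) = cuspFormSubmodule 𝒢 k := by
  rw [← ker_cst]
  ext f
  simp only [LinearMap.mem_ker]
  constructor
  · intro h
    ext q
    rw [← cstOrb_mk f q, h]
    rfl
  · intro h
    show (fun ω => cst 𝒢 k f (Quotient.out ω)) = 0
    rw [h]
    rfl

theorem finrank_ker_cstOrb [𝒢.IsArithmetic] [𝒢.HasDetOne] :
    Module.finrank ℂ (LinearMap.ker (cstOrb 𝒢 k)) = Module.finrank ℂ (CuspForm 𝒢 k) := by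
  rw [ker_cstOrb]
  exact (CuspForm.equivCuspFormSubmodule 𝒢 k).symm.finrank_eq

/-- In every weight: `dim M_k(𝒢) ≤ dim S_k(𝒢) + #(T-orbits on the cosets)`. -/
theorem finrank_modularForm_le [𝒢.IsArithmetic] [𝒢.HasDetOne] (k : ℤ) :
    Module.finrank ℂ (ModularForm 𝒢 k) ≤ Module.finrank ℂ (CuspForm 𝒢 k)
      + Nat.card (MulAction.orbitRel.Quotient (Subgroup.zpowers (sl ModularGroup.T))
          (↥𝒮ℒ ⧸ 𝒢.subgroupOf 𝒮ℒ)) := by
  classical
  by_cases hfin : Module.Finite ℂ (ModularForm 𝒢 k)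
  swap
  · rw [Module.finrank_of_not_finite hfin]
    exact Nat.zero_le _
  let Ω := MulAction.orbitRel.Quotient (Subgroup.zpowers (sl ModularGroup.T))
    (↥𝒮ℒ ⧸ 𝒢.subgroupOf 𝒮ℒ)
  let _ : Fintype Ω := Fintype.ofFinite Ω
  have h1 := LinearMap.finrank_range_add_finrank_ker (cstOrb 𝒢 k)
  have h2 : Module.finrank ℂ (LinearMap.range (cstOrb 𝒢 k)) ≤ Module.finrank ℂ (Ω → ℂ) :=
    Submodule.finrank_le _
  have h4 : Module.finrank ℂ (Ω → ℂ) = Nat.card Ω := by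
    rw [Module.finrank_fintype_fun_eq_card, Nat.card_eq_fintype_card]
  have h6 := finrank_ker_cstOrb (𝒢 := 𝒢) (k := k)
  have h7 : Nat.card Ω = Nat.card (MulAction.orbitRel.Quotient
      (Subgroup.zpowers (sl ModularGroup.T)) (↥𝒮ℒ ⧸ 𝒢.subgroupOf 𝒮ℒ)) := rfl
  omega

/-! ### The lower bound -/

/-- **(Lo)**: `dim M_2(𝒢) + 1 ≤ dim S_2(𝒢) + #(T-orbits on the cosets)`. -/
theorem finrank_modularForm_two_add_one_le [𝒢.IsArithmetic] [𝒢.HasDetOne] :
    Module.finrank ℂ (ModularForm 𝒢 2) + 1 ≤ Module.finrank ℂ (CuspForm 𝒢 2)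
      + Nat.card (MulAction.orbitRel.Quotient (Subgroup.zpowers (sl ModularGroup.T))
          (↥𝒮ℒ ⧸ 𝒢.subgroupOf 𝒮ℒ)) := by
  classical
  let Qt := ↥𝒮ℒ ⧸ 𝒢.subgroupOf 𝒮ℒ
  let Ω := MulAction.orbitRel.Quotient (Subgroup.zpowers (sl ModularGroup.T)) Qt
  let _ : Fintype Qt := Fintype.ofFinite Qt
  let _ : Fintype Ω := Fintype.ofFinite Ω
  let π : Qt → Ω := Quotient.mk _
  have h4 : Module.finrank ℂ (Ω → ℂ) = Nat.card Ω := by
    rw [Module.finrank_fintype_fun_eq_card, Nat.card_eq_fintype_card]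
  have h7 : Nat.card Ω = Nat.card (MulAction.orbitRel.Quotient
      (Subgroup.zpowers (sl ModularGroup.T)) (↥𝒮ℒ ⧸ 𝒢.subgroupOf 𝒮ℒ)) := rfl
  by_cases hfin : Module.Finite ℂ (ModularForm 𝒢 2)
  swap
  · rw [Module.finrank_of_not_finite hfin]
    have : Nonempty Ω := ⟨π (QuotientGroup.mk 1)⟩
    have : 0 < Nat.card Ω := Nat.card_pos
    omega
  -- the range of the constant-term map is killed by the orbit-weighted sum
  let φ : (Ω → ℂ) →ₗ[ℂ] ℂ := ∑ q : Qt, LinearMap.proj (π q)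
  have hφ : ∀ u : Ω → ℂ, φ u = ∑ q : Qt, u (π q) := by
    intro u
    simp [φ]
  have hrange : LinearMap.range (cstOrb 𝒢 2) ≤ LinearMap.ker φ := by
    rintro _ ⟨f, rfl⟩
    rw [LinearMap.mem_ker, hφ]
    have : ∀ q : Qt, cstOrb 𝒢 2 f (π q) = cst 𝒢 2 f q := fun q => cstOrb_mk f q
    simp only [this]
    exact sum_cst_two f
  have hφ_surj : Function.Surjective φ := by
    apply LinearMap.surjective_of_ne_zero
    intro h0
    have h1 : φ (fun _ => 1) = 0 := by rw [h0]; rfl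
    rw [hφ] at h1
    simp only [Finset.sum_const, Finset.card_univ, nsmul_eq_mul, mul_one] at h1
    have h2 : Fintype.card Qt ≠ 0 := Fintype.card_ne_zero
    exact h2 (by exact_mod_cast h1)
  have h1 := LinearMap.finrank_range_add_finrank_ker (cstOrb 𝒢 2)
  have h2 := LinearMap.finrank_range_add_finrank_ker φ
  have h3 : Module.finrank ℂ (LinearMap.range φ) = 1 := by
    rw [LinearMap.range_eq_top.mpr hφ_surj, finrank_top, Module.finrank_self]
  have h5 : Module.finrank ℂ (LinearMap.range (cstOrb 𝒢 2))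
      ≤ Module.finrank ℂ (LinearMap.ker φ) := Submodule.finrank_mono hrange
  have h6 := finrank_ker_cstOrb (𝒢 := 𝒢) (k := 2)
  omega

end

end Fermat.Agent.S20.helper440
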