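/-
S20, sandwich route (seat helper440): `helper260.Goal_Lower` in its exact on-main shape,
from the Mathlib-only lemma `finrank_modularForm_two_add_one_le` of `helper440_Lower`.
Also the general-weight inequality `finrank (MFG 𝒢 k) ≤ finrank (CFG 𝒢 k) + cusps 𝒢`.
-/
import Fermat.Agent.S20.helper440_Lower
import Fermat.Agent.S20.helper260_Sandwich
import Fermat.Agent.S20.helper3006_RRdim

set_option autoImplicit false

open UpperHalfPlane ModularForm
open scoped MatrixGroups

namespace Fermat.Agent.S20.helper440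

open Fermat.Agent.S20.helper560

/-- (LOWER) for every arithmetic `𝒢` with `det = 1` (no further hypothesis needed). -/
theorem stmt_Lower (𝒢 : Subgroup (GL (Fin 2) ℝ)) [𝒢.IsArithmetic] [𝒢.HasDetOne] :
    Fermat.Agent.S20.helper260.Stmt_Lower 𝒢 := by
  unfold Fermat.Agent.S20.helper260.Stmt_Lower
  rw [Fermat.Agent.S20.helper3006.finrank_MFG, Fermat.Agent.S20.helper3006.finrank_CFG]
  exact finrank_modularForm_two_add_one_le (𝒢 := 𝒢)

/-- `helper260.Goal_Lower`, exact shape. -/
theorem goal_Lower : Fermat.Agent.S20.helper260.Goal_Lower :=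
  fun 𝒢 _ _ _ _ => stmt_Lower 𝒢

/-- In every weight, `dim M_k(𝒢) ≤ dim S_k(𝒢) + #cusps` (function-level shape). -/
theorem finrank_MFG_le (𝒢 : Subgroup (GL (Fin 2) ℝ)) [𝒢.IsArithmetic] [𝒢.HasDetOne] (k : ℤ) :
    Module.finrank ℂ (MFG 𝒢 k) ≤ Module.finrank ℂ (CFG 𝒢 k) + cusps 𝒢 := by
  rw [Fermat.Agent.S20.helper3006.finrank_MFG, Fermat.Agent.S20.helper3006.finrank_CFG]
  exact finrank_modularForm_le (𝒢 := 𝒢) k

end Fermat.Agent.S20.helper440
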