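/-
S20 (dim S₂(Γ₀(N)) = genus formula): FINAL ASSEMBLY at level `Γ₀(N)` (seat helper20, captain).

`s20_of_basis_eq` : the frozen S20 statement from ONE free basis `(κ, F)` of `M_*(Γ₀(N))`
indexed by the cosets with nowhere vanishing fundamental determinant, together with the value
of the sum of its weights, `∑ κ_j + 6 · #cusps = 6 · μ`.  Everything else is plugged in from
main: `Goal_Basic`, `Goal_Hilbert` (helper3006), the elliptic trace identities (helper1774),
`(U)` (helper260), `(Lo)` (helper440), the four counts (helper2600), `GoodLevel` (helper1982),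
and the arithmetic (helper1940 via `counts_of_traces`).  The closure stays inside `S20/`
(no Eichler–Shimura upper bound is used).

`s20_of_sumWeights` : the frozen S20 statement from `helper260.Goal_SumWeights` alone, using
the basis of `helper435.stmt_Basis_G0_strong`.
-/
import Fermat.Agent.S20.helper20_Sandwich
import Fermat.Agent.S20.helper260_Upper
import Fermat.Agent.S20.helper440_GoalLower
import Fermat.Agent.S20.helper3006_Basic
import Fermat.Agent.S20.helper3006_Hilbert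
import Fermat.Agent.S20.helper1774_Ell
import Fermat.Agent.S20.helper1982_GoodLevel
import Fermat.Agent.S20.helper2600_Goals
import Fermat.Agent.S20.helper435_BasisG0

set_option autoImplicit false

open UpperHalfPlane ModularForm
open scoped MatrixGroups Manifold Pointwise

namespace Fermat.Agent.S20.helper20

open Fermat.Agent.S20.helper560

/-- **S20 from one basis at level `Γ₀(N)` and the sum of its weights.** -/
theorem s20_of_basis_eq (N : ℕ) [NeZero N] (κ : Q (G0 N) → ℤ) (F : Q (G0 N) → ℍ → ℂ)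
    (hF : IsFreeBasis (MFG (G0 N)) κ F) (hΦ : ∀ z, fundDet (G0 N) κ F z ≠ 0)
    (hsum : ∑ j, κ j + 6 * (cusps (G0 N) : ℤ) = 6 * (mu (G0 N) : ℤ)) :
    (Module.finrank ℂ (CuspForm (CongruenceSubgroup.Gamma0 N) 2) : ℚ) =
      ModularCurve.genusFormula N := by
  have hg := helper1982.goal_GoodLevel N
  obtain ⟨hneg, hodd, hM0, -, -, hmulM, -, -, hS2⟩ := helper3006.goal_Basic (G0 N) N hg
  have hellS := helper1774.goal_EllS (G0 N) N hg κ F hF.1 (hΦ _)
  have hellST := helper1774.goal_EllST (G0 N) N hg κ F hF.1 (hΦ _)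
  have hHM := fun k => helper3006.goal_Hilbert (MFG (G0 N)) (Q (G0 N)) κ F hF hmulM k
  have hup : Module.finrank ℂ (CFG (G0 N) 2) ≤ ∑ j, Module.finrank ℂ (RR (κ j - 10)) :=
    helper260.stmt_Upper (G0 N) κ F hF.1 hΦ
  have hlo : Module.finrank ℂ (MFG (G0 N) 2) + 1 ≤
      Module.finrank ℂ (CFG (G0 N) 2) + cusps (G0 N) := helper440.stmt_Lower (G0 N)
  have hFne : ∀ j, F j ≠ 0 := fun j hj =>
    hΦ UpperHalfPlane.I (fundDet_eq_zero_of_eq_zero (G0 N) κ F _ j hj)
  have hκ : ∀ j, 0 ≤ κ j ∧ Even (κ j) := by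
    intro j
    have hmem := hF.1 j
    constructor
    · by_contra hlt
      rw [hneg _ (not_le.mp hlt)] at hmem
      exact hFne j ((Submodule.mem_bot ℂ).mp hmem)
    · rw [← Int.not_odd_iff_even]
      intro ho
      rw [hodd _ ho] at hmem
      exact hFne j ((Submodule.mem_bot ℂ).mp hmem)
  -- natural number weights
  set k : Q (G0 N) → ℕ := fun j => (κ j).toNat with hkdef
  have hkκ : ∀ j, (k j : ℤ) = κ j := fun j => Int.toNat_of_nonneg (hκ j).1
  have hk : ∀ j, Even (k j) := by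
    intro j
    obtain ⟨m, hm⟩ := (hκ j).2
    have := hkκ j
    exact ⟨m.toNat, by omega⟩
  have hrr : ∀ w : ℤ, Module.finrank ℂ (RR w) = Module.finrank ℂ (ModularForm 𝒮ℒ w) :=
    fun w => helper3006.finrank_MFG 𝒮ℒ w
  have hcard : Fintype.card (Q (G0 N)) = mu (G0 N) := Nat.card_eq_fintype_card.symm
  have hM0' : ∑ j, Module.finrank ℂ (ModularForm 𝒮ℒ (0 - (k j : ℤ))) = 1 := by
    rw [← hM0, hHM 0]
    exact Finset.sum_congr rfl fun j _ => by rw [hkκ j, hrr]
  have hM2' : Module.finrank ℂ (MFG (G0 N) 2) =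
      ∑ j, Module.finrank ℂ (ModularForm 𝒮ℒ (2 - (k j : ℤ))) := by
    rw [hHM 2]
    exact Finset.sum_congr rfl fun j _ => by rw [hkκ j, hrr]
  have hU' : Module.finrank ℂ (CFG (G0 N) 2) ≤
      ∑ j, Module.finrank ℂ (ModularForm 𝒮ℒ ((k j : ℤ) - 10)) := by
    refine hup.trans (le_of_eq ?_)
    exact Finset.sum_congr rfl fun j _ => by rw [hkκ j, hrr]
  have hS' : ∑ j, Complex.I ^ (-(k j : ℤ)) = (e2 (G0 N) : ℂ) := by
    rw [← hellS]
    exact Finset.sum_congr rfl fun j _ => by rw [hkκ j]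
  have hST' : ∑ j, ((rho : ℂ) + 1) ^ (-(k j : ℤ)) = (e3 (G0 N) : ℂ) := by
    rw [← hellST]
    exact Finset.sum_congr rfl fun j _ => by rw [hkκ j]
  obtain ⟨c1, c2, c3⟩ := counts_of_traces k hk (mu (G0 N)) (e2 (G0 N)) (e3 (G0 N)) hcard hS' hST'
  have hK : ∑ j, k j + 6 * cusps (G0 N) = 6 * mu (G0 N) := by
    have : ((∑ j, k j + 6 * cusps (G0 N) : ℕ) : ℤ) = ((6 * mu (G0 N) : ℕ) : ℤ) := by
      push_cast
      rw [← hsum]
      congr 1
      exact Finset.sum_congr rfl fun j _ => hkκ j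
    exact_mod_cast this
  have key := helper1940.genus_of_bounds k hk (mu (G0 N)) (e2 (G0 N)) (e3 (G0 N))
    (cusps (G0 N)) (Module.finrank ℂ (CFG (G0 N) 2)) (Module.finrank ℂ (MFG (G0 N) 2))
    hcard hM0' hM2' hU' hlo c1 c2 c3 hK
  rw [hS2] at key
  rw [key, helper2600.goal_Index N, helper2600.goal_E2 N, helper2600.goal_E3 N,
    helper2600.goal_Cusps N]
  rfl

/-- **S20 from the sum-of-weights goal alone** (basis: `helper435.stmt_Basis_G0_strong`). -/
theorem s20_of_sumWeights (hSW : helper260.Goal_SumWeights) (N : ℕ) [NeZero N] :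
    (Module.finrank ℂ (CuspForm (CongruenceSubgroup.Gamma0 N) 2) : ℚ) =
      ModularCurve.genusFormula N := by
  obtain ⟨κ, F, hF, hΦ⟩ := helper435.stmt_Basis_G0_strong N
  exact s20_of_basis_eq N κ F hF hΦ (hSW (G0 N) N (helper1982.goal_GoodLevel N) κ F hF hΦ)

/-- Level-specific version: only the sum of weights of bases of `M_*(Γ₀(N))` is needed. -/
theorem s20_of_sumWeights_G0
    (hSW : ∀ (N : ℕ) [NeZero N] (κ : Q (G0 N) → ℤ) (F : Q (G0 N) → ℍ → ℂ),
      IsFreeBasis (MFG (G0 N)) κ F → (∀ z, fundDet (G0 N) κ F z ≠ 0) →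
      ∑ j, κ j + 6 * (cusps (G0 N) : ℤ) = 6 * (mu (G0 N) : ℤ))
    (N : ℕ) [NeZero N] :
    (Module.finrank ℂ (CuspForm (CongruenceSubgroup.Gamma0 N) 2) : ℚ) =
      ModularCurve.genusFormula N := by
  obtain ⟨κ, F, hF, hΦ⟩ := helper435.stmt_Basis_G0_strong N
  exact s20_of_basis_eq N κ F hF hΦ (hSW N κ F hF hΦ)

end Fermat.Agent.S20.helper20
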