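/-
S20 SPEC (captain helper20).  Route M for
  finrank ℂ (CuspForm Γ₀(N) 2) = genusFormula N.
Every intermediate result is a Prop-valued def; workers prove implications between them
(hypothesis-passing), see the board.  This file is sorry-free and only contains definitions
plus the final arithmetic / assembly lemmas.
-/
import Mathlib
import Fermat.Prelude.Def_ModularCurve_GenusNumerics

set_option autoImplicit false

namespace Fermat.Agent.S20.helper20

open UpperHalfPlane ModularForm CongruenceSubgroup Matrix.SpecialLinearGroup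
open scoped MatrixGroups ModularForm

/-! ## Basic objects -/

/-- `Γ₀(N)` inside `GL(2,ℝ)`: exactly what the frozen statement elaborates to. -/
abbrev Gam (N : ℕ) : Subgroup (GL (Fin 2) ℝ) := (Gamma0 N).map (mapGL ℝ)

/-- The coset space `SL(2,ℤ)/Γ₀(N)` in the form used by Mathlib's `NormTrace`
(`SlashInvariantForm.quotientFunc f q`, `q = ⟦h⟧ ↦ f ∣[k] h⁻¹`). -/
abbrev Q (N : ℕ) : Type := ↥𝒮ℒ ⧸ (Gam N).subgroupOf 𝒮ℒ

noncomputable instance instFintypeQ (N : ℕ) [NeZero N] : Fintype (Q N) := Fintype.ofFinite _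

/-- `SL(2,ℤ) → 𝒮ℒ` (the range of `mapGL ℝ`). -/
def toSL (γ : SL(2, ℤ)) : ↥𝒮ℒ := ⟨mapGL ℝ γ, γ, rfl⟩

/-- index `μ = [SL(2,ℤ) : Γ₀(N)]`. -/
noncomputable def mu (N : ℕ) : ℕ := Nat.card (Q N)

/-- number of fixed points of `S` on the coset space. -/
noncomputable def fixS (N : ℕ) : ℕ := Nat.card {q : Q N // toSL ModularGroup.S • q = q}

/-- number of fixed points of `U = S * T` on the coset space. -/
noncomputable def fixU (N : ℕ) : ℕ :=
  Nat.card {q : Q N // toSL (ModularGroup.S * ModularGroup.T) • q = q}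

/-- number of orbits of `T` on the coset space (= number of cusps). -/
noncomputable def orbT (N : ℕ) : ℕ :=
  Nat.card (MulAction.orbitRel.Quotient (Subgroup.zpowers (toSL ModularGroup.T)) (Q N))

/-! ## R8: counting statements (pure combinatorics on `P¹(ℤ/N)`) -/

def Stmt_Index (N : ℕ) : Prop := mu N = ModularCurve.dedekindPsi N
def Stmt_FixS (N : ℕ) : Prop := fixS N = ModularCurve.nuTwo N
def Stmt_FixU (N : ℕ) : Prop := fixU N = ModularCurve.nuThree N
def Stmt_OrbT (N : ℕ) : Prop := orbT N = ModularCurve.cuspCount N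

/-! ## The analytic core, in abstract numbers -/

def Stmt_Core (N : ℕ) : Prop :=
  (Module.finrank ℂ (CuspForm (Gam N) 2) : ℚ)
    = 1 + (mu N : ℚ) / 12 - (fixS N : ℚ) / 4 - (fixU N : ℚ) / 3 - (orbT N : ℚ) / 2

/-! ## Generator data -/

/-- A finite family of modular forms `F j ∈ M_{wt j}(Γ₀(N))`. -/
structure Gens (N : ℕ) where
  ι : Type
  fin : Fintype ι
  wt : ι → ℕ
  F : (j : ι) → ModularForm (Gam N) (wt j)

attribute [instance] Gens.fin

variable {N : ℕ}

/-- The fundamental matrix `Φ(z)_{q,j} = (F_j)_q(z)`. -/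
noncomputable def Gens.Phi (B : Gens N) (z : ℍ) (q : Q N) (j : B.ι) : ℂ :=
  SlashInvariantForm.quotientFunc (B.F j) q z

/-- every form on `Γ₀(N)` is a combination `f = ∑ P_j F_j` with level-one `P_j` of weight
`k - wt j`. -/
def Gens.IsSpanning (B : Gens N) : Prop :=
  ∀ (k : ℤ) (f : ModularForm (Gam N) k),
    ∃ P : (j : B.ι) → ModularForm 𝒮ℒ (k - B.wt j), ∀ z : ℍ, f z = ∑ j, P j z * B.F j z

/-- the `F j` are linearly independent over the level-one forms. -/
def Gens.IsIndep (B : Gens N) : Prop :=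
  ∀ (k : ℤ) (P : (j : B.ι) → ModularForm 𝒮ℒ (k - B.wt j)),
    (∀ z : ℍ, ∑ j, P j z * B.F j z = 0) → ∀ j, P j = 0

/-- R1 (FREE): `M_*(Γ₀(N))` is free over `M_*(SL(2,ℤ))` on the `F j`. -/
def Gens.IsBasis (B : Gens N) : Prop := B.IsSpanning ∧ B.IsIndep

def Stmt_Free (N : ℕ) : Prop := ∃ B : Gens N, B.IsBasis

/-- R2 (SD): the Serre derivative maps `M_k(Γ₀(N))` to `M_{k+2}(Γ₀(N))`. -/
def Stmt_SD (N : ℕ) : Prop :=
  ∀ (k : ℤ) (f : ModularForm (Gam N) k),
    ∃ g : ModularForm (Gam N) (k + 2), (g : ℍ → ℂ) = Derivative.serreDerivative k f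

/-- R3 (SEP): some modular form on `Γ₀(N)` has linearly independent translates. -/
def Stmt_Sep (N : ℕ) [NeZero N] : Prop :=
  ∃ (k : ℤ) (G : ModularForm (Gam N) k), ∀ v : Q N → ℂ,
    (∀ z : ℍ, ∑ q, v q * SlashInvariantForm.quotientFunc G q z = 0) → v = 0

/-- R4a: the rows of `Φ(z)` are linearly independent at EVERY `z ∈ ℍ`. -/
def Gens.RowIndep [NeZero N] (B : Gens N) : Prop :=
  ∀ (z : ℍ) (v : Q N → ℂ), (∀ j, ∑ q, v q * B.Phi z q j = 0) → v = 0

/-- R4b: at most `μ` generators. -/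
def Gens.CardLe (B : Gens N) : Prop := Fintype.card B.ι ≤ mu N

/-- R4: exactly `μ` generators (so `Φ(z)` is a square invertible matrix by `RowIndep`). -/
def Gens.CardEq (B : Gens N) : Prop := Fintype.card B.ι = mu N

/-- number of generators whose weight satisfies `p`. -/
def Gens.cnt (B : Gens N) (p : ℕ → Prop) [DecidablePred p] : ℕ :=
  (Finset.univ.filter (fun j => p (B.wt j))).card

/-- R5 (ELL): residue classes of the generator weights mod 4 and mod 6, from the eigenvalues of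
the permutation operators of `S` (at `z = i`) and `S * T` (at `z = ρ`). -/
def Gens.Stmt_Ell (B : Gens N) : Prop :=
  (∀ j, Even (B.wt j)) ∧
  2 * B.cnt (fun w => w % 4 = 0) = mu N + fixS N ∧
  3 * B.cnt (fun w => w % 6 = 0) = mu N + 2 * fixU N ∧
  3 * B.cnt (fun w => w % 6 = 2) + fixU N = mu N ∧
  3 * B.cnt (fun w => w % 6 = 4) + fixU N = mu N

/-- the sum of the `q_N`-coefficients `0, …, N-1` of an `N`-periodic function. -/
noncomputable def lead (N : ℕ) (f : ℍ → ℂ) : ℂ :=
  ∑ m ∈ Finset.range N, (qExpansion (N : ℝ) f).coeff m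

/-- the leading matrix `C_{q,j} = lead ((F_j)_q)`. -/
noncomputable def Gens.LeadMat (B : Gens N) (q : Q N) (j : B.ι) : ℂ :=
  lead N (fun z => B.Phi z q j)

/-- R6a: the columns of the leading matrix are linearly independent. -/
def Gens.LeadIndep [NeZero N] (B : Gens N) : Prop :=
  ∀ c : B.ι → ℂ, (∀ q, ∑ j, B.LeadMat q j * c j = 0) → c = 0

/-- R6 (CUSP): `∑ k_j = 6 (μ - #cusps)`. -/
def Gens.Stmt_Cusp (B : Gens N) : Prop :=
  (∑ j, B.wt j) + 6 * orbT N = 6 * mu N

open Classical in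
/-- R7a (DUAL FORMS): the columns of `Δ · Φ⁻ᵀ` are translates of cusp forms of weight
`12 - wt l`. -/
def Gens.DualForms [NeZero N] (B : Gens N) : Prop :=
  ∀ l : B.ι, ∃ H : CuspForm (Gam N) (12 - (B.wt l : ℤ)), ∀ (z : ℍ) (j : B.ι),
    ∑ q, SlashInvariantForm.quotientFunc H q z * B.Phi z q j
      = if j = l then ModularForm.discriminant z else 0

/-- R7 (DUAL): weights are at most 10 and `dim S₂ = #{j : wt j = 10}`. -/
def Gens.Stmt_Dual (B : Gens N) : Prop :=
  (∀ j, B.wt j ≤ 10) ∧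
  Module.finrank ℂ (CuspForm (Gam N) 2) = B.cnt (fun w => w = 10)

/-- exactly one generator of weight 0 (`M_0 = ℂ`). -/
def Gens.Stmt_M0 (B : Gens N) : Prop := B.cnt (fun w => w = 0) = 1

/-! ## R9: arithmetic -/

theorem core_of_gens (B : Gens N) (hcard : B.CardEq) (hell : B.Stmt_Ell) (hcusp : B.Stmt_Cusp)
    (hdual : B.Stmt_Dual) (hm0 : B.Stmt_M0) : Stmt_Core N := by
  obtain ⟨heven, h4, h60, h62, h64⟩ := hell
  obtain ⟨hle, hfin⟩ := hdual
  unfold Gens.CardEq at hcard
  unfold Gens.Stmt_Cusp at hcusp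
  unfold Gens.Stmt_M0 at hm0
  unfold Stmt_Core
  rw [hfin]
  -- n w := number of generators of weight w
  set n : ℕ → ℕ := fun w => B.cnt (fun x => x = w) with hn
  have hwt : ∀ j, B.wt j ∈ ({0, 2, 4, 6, 8, 10} : Finset ℕ) := by
    intro j
    have h1 := hle j
    obtain ⟨r, hr⟩ := heven j
    have : r ≤ 5 := by omega
    interval_cases r <;> simp [hr]
  -- every count over a predicate is a sum of the n w
  have hnw : ∀ w, n w = ∑ j : B.ι, if B.wt j = w then 1 else 0 :=
    fun w => Finset.card_filter _ _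
  have hcnt : ∀ (p : ℕ → Prop) [DecidablePred p],
      B.cnt p = ∑ j : B.ι, if p (B.wt j) then 1 else 0 :=
    fun p _ => Finset.card_filter _ _
  have key : ∀ (p : ℕ → Prop) [DecidablePred p],
      B.cnt p = ∑ w ∈ ({0, 2, 4, 6, 8, 10} : Finset ℕ), if p w then n w else 0 := by
    intro p _
    have h1 : ∀ w, (if p w then n w else 0)
        = ∑ j : B.ι, if B.wt j = w then (if p w then 1 else 0) else 0 := by
      intro w
      by_cases hw : p w
      · rw [if_pos hw, hnw]
        refine Finset.sum_congr rfl fun j _ => ?_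
        rw [if_pos hw]
      · rw [if_neg hw]
        symm
        apply Finset.sum_eq_zero
        intro j _
        rw [if_neg hw, ite_self]
    rw [hcnt]
    simp_rw [h1]
    rw [Finset.sum_comm]
    refine Finset.sum_congr rfl fun j _ => ?_
    rw [Finset.sum_eq_single_of_mem (B.wt j) (hwt j)]
    · rw [if_pos rfl]
    · intro b _ hb
      rw [if_neg (Ne.symm hb)]
  have hsum : (∑ j, B.wt j) = ∑ w ∈ ({0, 2, 4, 6, 8, 10} : Finset ℕ), w * n w := by
    have h1 : ∀ w, w * n w = ∑ j : B.ι, if B.wt j = w then w else 0 := by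
      intro w
      rw [hnw, Finset.mul_sum]
      refine Finset.sum_congr rfl fun j _ => ?_
      split_ifs <;> simp
    simp_rw [h1]
    rw [Finset.sum_comm]
    refine Finset.sum_congr rfl fun j _ => ?_
    rw [Finset.sum_eq_single_of_mem (B.wt j) (hwt j)]
    · rw [if_pos rfl]
    · intro b _ hb
      rw [if_neg (Ne.symm hb)]
  have hcardsum : Fintype.card B.ι = ∑ w ∈ ({0, 2, 4, 6, 8, 10} : Finset ℕ), n w := by
    have h := key (fun _ => True)
    simp only [if_true] at h
    rw [← h, hcnt]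
    simp
  have e4 := key (fun w => w % 4 = 0)
  have e60 := key (fun w => w % 6 = 0)
  have e62 := key (fun w => w % 6 = 2)
  have e64 := key (fun w => w % 6 = 4)
  have expand : ∀ g : ℕ → ℕ, (∑ w ∈ ({0, 2, 4, 6, 8, 10} : Finset ℕ), g w)
      = g 0 + (g 2 + (g 4 + (g 6 + (g 8 + g 10)))) := by
    intro g
    rw [Finset.sum_insert (by decide), Finset.sum_insert (by decide),
      Finset.sum_insert (by decide), Finset.sum_insert (by decide),
      Finset.sum_insert (by decide), Finset.sum_singleton]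
  rw [expand] at e4 e60 e62 e64 hsum hcardsum
  norm_num at e4 e60 e62 e64 hsum hcardsum
  have hn0 : n 0 = 1 := hm0
  have hn10 : B.cnt (fun w => w = 10) = n 10 := rfl
  rw [hn10]
  rw [e4] at h4
  rw [e60] at h60
  rw [e62] at h62
  rw [e64] at h64
  rw [hsum] at hcusp
  rw [hcardsum] at hcard
  have h4' : (2 : ℚ) * (n 0 + (n 4 + n 8)) = mu N + fixS N := by exact_mod_cast h4
  have h60' : (3 : ℚ) * (n 0 + n 6) = mu N + 2 * fixU N := by exact_mod_cast h60
  have h62' : (3 : ℚ) * (n 2 + n 8) + fixU N = mu N := by exact_mod_cast h62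
  have h64' : (3 : ℚ) * (n 4 + n 10) + fixU N = mu N := by exact_mod_cast h64
  have hcusp' : ((2 : ℚ) * n 2 + (4 * n 4 + (6 * n 6 + (8 * n 8 + 10 * n 10)))) + 6 * orbT N
      = 6 * mu N := by exact_mod_cast hcusp
  have hcard' : ((n 0 : ℚ) + (n 2 + (n 4 + (n 6 + (n 8 + n 10))))) = mu N := by
    exact_mod_cast hcard
  have hn0' : (n 0 : ℚ) = 1 := by exact_mod_cast hn0
  linarith

/-! ## Final assembly -/

/-- The analytic core from the module statements (each hypothesis is one board row). -/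
theorem core_of_parts (N : ℕ) [NeZero N]
    (hfree : Stmt_Free N) (hSD : Stmt_SD N) (hsep : Stmt_Sep N)
    (hrow : ∀ B : Gens N, B.IsBasis → Stmt_SD N → Stmt_Sep N → B.RowIndep)
    (hcardle : ∀ B : Gens N, B.IsIndep → B.CardLe)
    (hcardge : ∀ B : Gens N, B.RowIndep → mu N ≤ Fintype.card B.ι)
    (hell : ∀ B : Gens N, B.IsBasis → B.RowIndep → B.CardEq → B.Stmt_Ell)
    (hlead : ∀ B : Gens N, B.IsBasis → B.LeadIndep)
    (hcusp : ∀ B : Gens N, B.IsBasis → Stmt_SD N → B.CardEq → B.LeadIndep → B.Stmt_Cusp)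
    (hdf : ∀ B : Gens N, B.IsBasis → B.RowIndep → B.CardEq → B.LeadIndep → B.DualForms)
    (hdual : ∀ B : Gens N, B.IsBasis → B.RowIndep → B.CardEq → B.DualForms → B.Stmt_Dual)
    (hm0 : ∀ B : Gens N, B.IsBasis → B.Stmt_M0) : Stmt_Core N := by
  obtain ⟨B, hB⟩ := hfree
  have h1 : B.RowIndep := hrow B hB hSD hsep
  have h2 : B.CardEq := le_antisymm (hcardle B hB.2) (hcardge B h1)
  have h3 : B.LeadIndep := hlead B hB
  exact core_of_gens B h2 (hell B hB h1 h2) (hcusp B hB hSD h2 h3)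
    (hdual B hB h1 h2 (hdf B hB h1 h2 h3)) (hm0 B hB)

theorem result_of (N : ℕ) [NeZero N] (hcore : Stmt_Core N) (hI : Stmt_Index N)
    (hS : Stmt_FixS N) (hU : Stmt_FixU N) (hT : Stmt_OrbT N) :
    (Module.finrank ℂ (CuspForm (CongruenceSubgroup.Gamma0 N) 2) : ℚ)
      = ModularCurve.genusFormula N := by
  unfold Stmt_Core at hcore
  unfold Stmt_Index at hI
  unfold Stmt_FixS at hS
  unfold Stmt_FixU at hU
  unfold Stmt_OrbT at hT
  rw [ModularCurve.genusFormula, ← hI, ← hS, ← hU, ← hT]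
  exact hcore

end Fermat.Agent.S20.helper20
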