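import Mathlib

set_option autoImplicit false

/-!
# Finite Fourier decomposition ("twist") of `N`-periodic holomorphic functions on `ℍ`

For an `N`-periodic function `g : ℍ → ℂ` we define `tw N n g`, the `n`-th twisted component
(`0 ≤ n < N`): it is `1`-periodic, and `g z = ∑ n < N, exp(2πi n z / N) * tw N n g z`.
If `g` is holomorphic and bounded at `i∞`, so is every `tw N n g` (for `n < N`).
-/

open Complex Filter Function Asymptotics
open scoped Real Topology Manifold UpperHalfPlane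

namespace Fermat.Agent.S20.helper500

/-- `eN N a z = exp(2πi a z / N)`. -/
noncomputable def eN (N : ℕ) (a : ℤ) (z : ℂ) : ℂ := Complex.exp (2 * π * Complex.I * a * z / N)

lemma eN_add (N : ℕ) (a : ℤ) (z w : ℂ) : eN N a (z + w) = eN N a z * eN N a w := by
  unfold eN
  rw [← Complex.exp_add]
  congr 1
  ring

lemma eN_add_left (N : ℕ) (a b : ℤ) (z : ℂ) : eN N (a + b) z = eN N a z * eN N b z := by
  unfold eN
  rw [← Complex.exp_add]
  congr 1
  push_cast
  ring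

lemma eN_zero_left (N : ℕ) (z : ℂ) : eN N 0 z = 1 := by
  simp [eN]

lemma eN_zero_right (N : ℕ) (a : ℤ) : eN N a 0 = 1 := by
  simp [eN]

lemma eN_ne_zero (N : ℕ) (a : ℤ) (z : ℂ) : eN N a z ≠ 0 := Complex.exp_ne_zero _

lemma eN_neg_mul_eN (N : ℕ) (a : ℤ) (z : ℂ) : eN N (-a) z * eN N a z = 1 := by
  rw [← eN_add_left]
  simp [eN_zero_left]

lemma eN_natCast_mul {N : ℕ} (hN : N ≠ 0) (a : ℤ) (m : ℤ) : eN N a ((N : ℂ) * m) = 1 := by
  unfold eN
  have hN' : (N : ℂ) ≠ 0 := Nat.cast_ne_zero.mpr hN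
  have : 2 * (π : ℂ) * Complex.I * a * ((N : ℂ) * m) / N = ((a * m : ℤ) : ℂ) * (2 * π * Complex.I) := by
    push_cast
    field_simp
  rw [this]
  exact Complex.exp_int_mul_two_pi_mul_I _

lemma eN_add_period {N : ℕ} (hN : N ≠ 0) (a : ℤ) (z : ℂ) : eN N a (z + N) = eN N a z := by
  rw [eN_add]
  have := eN_natCast_mul hN a 1
  simp only [Int.cast_one, mul_one] at this
  rw [this, mul_one]

lemma norm_eN (N : ℕ) (a : ℤ) (z : ℂ) :
    ‖eN N a z‖ = Real.exp (-2 * π * a * z.im / N) := by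
  unfold eN
  rw [Complex.norm_exp]
  congr 1
  have : (2 * (π : ℂ) * Complex.I * a * z / N) = ((2 * π * a / N : ℝ) : ℂ) * (Complex.I * z) := by
    push_cast
    ring
  rw [this, Complex.re_ofReal_mul]
  simp only [Complex.mul_re, Complex.I_re, Complex.I_im, zero_mul, one_mul, zero_sub]
  ring

lemma eN_natCast (N : ℕ) (a : ℤ) (m : ℕ) :
    eN N a (m : ℂ) = Complex.exp (2 * π * Complex.I / N) ^ (a * m) := by
  unfold eN
  rw [← Complex.exp_int_mul]
  congr 1
  push_cast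
  ring

/-- Orthogonality of additive characters of `ℤ/N`. -/
lemma sum_eN_natCast {N : ℕ} (hN : N ≠ 0) (a : ℤ) :
    ∑ m ∈ Finset.range N, eN N a (m : ℂ) = if (N : ℤ) ∣ a then (N : ℂ) else 0 := by
  have hprim := Complex.isPrimitiveRoot_exp N hN
  set ζ := Complex.exp (2 * π * Complex.I / N) with hζ
  have hterm : ∀ m : ℕ, eN N a (m : ℂ) = (ζ ^ a) ^ m := by
    intro m
    rw [eN_natCast, zpow_mul, zpow_natCast]
  simp_rw [hterm]
  split_ifs with hdiv
  · have h1 : ζ ^ a = 1 := (hprim.zpow_eq_one_iff_dvd a).mpr hdiv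
    simp [h1]
  · have h1 : ζ ^ a ≠ 1 := fun h => hdiv ((hprim.zpow_eq_one_iff_dvd a).mp h)
    have hN1 : (ζ ^ a) ^ N = 1 := by
      rw [← zpow_natCast, ← zpow_mul, mul_comm, zpow_mul, zpow_natCast, hprim.pow_eq_one, one_zpow]
    have := geom_sum_eq h1 N
    rw [this, hN1, sub_self, zero_div]

/-- The average of `φ` over the translations by `0, 1, …, N - 1`. -/
noncomputable def avg (N : ℕ) (φ : ℍ → ℂ) (z : ℍ) : ℂ :=
  (N : ℂ)⁻¹ * ∑ m ∈ Finset.range N, φ ((m : ℝ) +ᵥ z)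

/-- The `n`-th twisted component of `g` (for the period `N`). -/
noncomputable def tw (N n : ℕ) (g : ℍ → ℂ) : ℍ → ℂ :=
  avg N (fun w => eN N (-(n : ℤ)) w * g w)

lemma tw_apply (N n : ℕ) (g : ℍ → ℂ) (z : ℍ) :
    tw N n g z = (N : ℂ)⁻¹ * ∑ m ∈ Finset.range N,
      eN N (-(n : ℤ)) (((m : ℝ) +ᵥ z : ℍ) : ℂ) * g ((m : ℝ) +ᵥ z) := rfl

lemma vadd_vadd_uhp (x y : ℝ) (z : ℍ) : x +ᵥ (y +ᵥ z) = (x + y) +ᵥ z := by
  ext
  simp [add_assoc]

lemma zero_vadd_uhp (z : ℍ) : (0 : ℝ) +ᵥ z = z := by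
  ext
  simp

/-- If `φ` is `N`-periodic then `avg N φ` is `1`-periodic. -/
lemma avg_vadd_one {N : ℕ} {φ : ℍ → ℂ} (hφ : ∀ z : ℍ, φ ((N : ℝ) +ᵥ z) = φ z) (z : ℍ) :
    avg N φ ((1 : ℝ) +ᵥ z) = avg N φ z := by
  unfold avg
  congr 1
  have h1 : ∀ m : ℕ, φ ((m : ℝ) +ᵥ ((1 : ℝ) +ᵥ z)) = φ (((m + 1 : ℕ) : ℝ) +ᵥ z) := by
    intro m
    rw [vadd_vadd_uhp]
    push_cast
    rfl
  simp_rw [h1]
  have e1 := Finset.sum_range_succ' (fun m : ℕ => φ ((m : ℝ) +ᵥ z)) N
  have e2 := Finset.sum_range_succ (fun m : ℕ => φ ((m : ℝ) +ᵥ z)) N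
  have e3 : φ (((0 : ℕ) : ℝ) +ᵥ z) = φ ((N : ℝ) +ᵥ z) := by
    rw [hφ, Nat.cast_zero, zero_vadd_uhp]
  rw [e1, e3] at e2
  exact add_right_cancel e2


/-! ### Periodicity, holomorphy -/

lemma periodic_comp_ofComplex_of_vadd {f : ℍ → ℂ} {h : ℝ} (hf : ∀ z : ℍ, f (h +ᵥ z) = f z) :
    Periodic (f ∘ UpperHalfPlane.ofComplex) (h : ℂ) := by
  intro w
  by_cases hw : 0 < im w
  · have hw' : 0 < im (w + h) := by simp [hw]
    simp only [comp_apply, UpperHalfPlane.ofComplex_apply_of_im_pos hw',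
      UpperHalfPlane.ofComplex_apply_of_im_pos hw]
    convert hf ⟨w, hw⟩ using 2
    ext
    simp [add_comm]
  · have hw1 : im w ≤ 0 := not_lt.mp hw
    have hw' : im (w + h) ≤ 0 := by simpa using hw1
    simp [UpperHalfPlane.ofComplex_apply_of_im_nonpos hw',
      UpperHalfPlane.ofComplex_apply_of_im_nonpos hw1]

lemma mdiff_comp_vadd (x : ℝ) {g : ℍ → ℂ} (hg : MDiff g) : MDiff (fun z : ℍ => g (x +ᵥ z)) := by
  intro τ
  rw [UpperHalfPlane.mdifferentiableAt_iff]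
  have h1 : DifferentiableAt ℂ (g ∘ UpperHalfPlane.ofComplex) ((x +ᵥ τ : ℍ) : ℂ) :=
    UpperHalfPlane.mdifferentiableAt_iff.mp (hg (x +ᵥ τ))
  have h2 : DifferentiableAt ℂ (fun w : ℂ => (g ∘ UpperHalfPlane.ofComplex) (w + x)) (τ : ℂ) := by
    have : ((x +ᵥ τ : ℍ) : ℂ) = (τ : ℂ) + x := by simp [add_comm]
    rw [this] at h1
    exact DifferentiableAt.comp (g := g ∘ UpperHalfPlane.ofComplex) (f := fun w : ℂ => w + (x : ℂ))
      (τ : ℂ) h1 (differentiableAt_id.add_const (x : ℂ))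
  refine h2.congr_of_eventuallyEq ?_
  have hopen : {w : ℂ | 0 < w.im} ∈ 𝓝 (τ : ℂ) :=
    UpperHalfPlane.isOpen_upperHalfPlaneSet.mem_nhds τ.im_pos
  filter_upwards [hopen] with w hw
  have hw' : 0 < (w + x).im := by simpa using hw
  simp only [comp_apply, UpperHalfPlane.ofComplex_apply_of_im_pos hw,
    UpperHalfPlane.ofComplex_apply_of_im_pos hw']
  congr 1
  ext
  simp [add_comm]

lemma mdiff_eN (N : ℕ) (a : ℤ) : MDiff (fun z : ℍ => eN N a (z : ℂ)) := by
  intro τ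
  rw [UpperHalfPlane.mdifferentiableAt_iff]
  have h2 : DifferentiableAt ℂ (fun w : ℂ => eN N a w) (τ : ℂ) := by
    unfold eN
    fun_prop
  refine h2.congr_of_eventuallyEq ?_
  have hopen : {w : ℂ | 0 < w.im} ∈ 𝓝 (τ : ℂ) :=
    UpperHalfPlane.isOpen_upperHalfPlaneSet.mem_nhds τ.im_pos
  filter_upwards [hopen] with w hw
  simp only [comp_apply, UpperHalfPlane.ofComplex_apply_of_im_pos hw]

lemma mdiff_avg (N : ℕ) {φ : ℍ → ℂ} (hφ : MDiff φ) : MDiff (avg N φ) := by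
  have : avg N φ = (N : ℂ)⁻¹ • ∑ m ∈ Finset.range N, fun z : ℍ => φ ((m : ℝ) +ᵥ z) := by
    ext z
    simp [avg, Finset.sum_apply]
  rw [this]
  exact (MDifferentiable.sum (f := fun (m : ℕ) (z : ℍ) => φ ((m : ℝ) +ᵥ z))
    (fun m _ => mdiff_comp_vadd (m : ℝ) hφ)).const_smul _

lemma mdiff_tw (N n : ℕ) {g : ℍ → ℂ} (hg : MDiff g) : MDiff (tw N n g) :=
  mdiff_avg N ((mdiff_eN N _).mul hg)

lemma tw_vadd_one {N : ℕ} (hN : N ≠ 0) (n : ℕ) {g : ℍ → ℂ}
    (hg : ∀ z : ℍ, g ((N : ℝ) +ᵥ z) = g z) (z : ℍ) :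
    tw N n g ((1 : ℝ) +ᵥ z) = tw N n g z := by
  refine avg_vadd_one (fun w => ?_) z
  rw [hg]
  congr 1
  have : (((N : ℝ) +ᵥ w : ℍ) : ℂ) = (w : ℂ) + N := by simp [add_comm]
  rw [this, eN_add_period hN]

/-- Fourier inversion: `g` is recovered from its twisted components. -/
lemma sum_eN_mul_tw {N : ℕ} (hN : N ≠ 0) (g : ℍ → ℂ) (z : ℍ) :
    ∑ n ∈ Finset.range N, eN N n (z : ℂ) * tw N n g z = g z := by
  have hN' : (N : ℂ) ≠ 0 := Nat.cast_ne_zero.mpr hN
  simp_rw [tw_apply, Finset.mul_sum]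
  rw [Finset.sum_comm]
  have key : ∀ m ∈ Finset.range N, ∑ n ∈ Finset.range N,
      eN N (n : ℤ) (z : ℂ) * ((N : ℂ)⁻¹ * (eN N (-(n : ℤ)) (((m : ℝ) +ᵥ z : ℍ) : ℂ) *
        g ((m : ℝ) +ᵥ z))) = if m = 0 then g z else 0 := by
    intro m hm
    have hm' : m < N := Finset.mem_range.mp hm
    have h1 : ∀ n : ℕ, eN N (n : ℤ) (z : ℂ) * ((N : ℂ)⁻¹ *
        (eN N (-(n : ℤ)) (((m : ℝ) +ᵥ z : ℍ) : ℂ) * g ((m : ℝ) +ᵥ z))) =
        (N : ℂ)⁻¹ * g ((m : ℝ) +ᵥ z) * eN N (-(m : ℤ)) (n : ℂ) := by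
      intro n
      have e1 : (((m : ℝ) +ᵥ z : ℍ) : ℂ) = (z : ℂ) + m := by simp [add_comm]
      rw [e1, eN_add]
      have e2 : eN N (n : ℤ) (z : ℂ) * eN N (-(n : ℤ)) (z : ℂ) = 1 := by
        rw [mul_comm]; exact eN_neg_mul_eN N n z
      have e3 : eN N (-(n : ℤ)) (m : ℂ) = eN N (-(m : ℤ)) (n : ℂ) := by
        unfold eN
        congr 1
        push_cast
        ring
      rw [e3]
      linear_combination ((N : ℂ)⁻¹ * g ((m : ℝ) +ᵥ z) * eN N (-(m : ℤ)) (n : ℂ)) * e2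
    simp_rw [h1]
    rw [← Finset.mul_sum, sum_eN_natCast hN]
    by_cases hm0 : m = 0
    · subst hm0
      simp only [Nat.cast_zero, neg_zero, dvd_zero, if_true, zero_vadd_uhp]
      field_simp
    · have : ¬ ((N : ℤ) ∣ -(m : ℤ)) := by
        rw [dvd_neg]
        intro hdvd
        have := Int.le_of_dvd (by omega) hdvd
        omega
      simp [this, hm0]
  rw [Finset.sum_congr rfl key]
  simp [Finset.sum_ite_eq', Nat.pos_of_ne_zero hN]


/-! ### Behaviour at `i∞` -/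

open UpperHalfPlane in
lemma tendsto_exp_neg_mul_im {c : ℝ} (hc : 0 < c) :
    Tendsto (fun τ : ℍ => Real.exp (-c * τ.im)) atImInfty (𝓝 0) := by
  have h1 : Tendsto (fun y : ℝ => Real.exp (-c * y)) atTop (𝓝 0) :=
    Real.tendsto_exp_atBot.comp (tendsto_id.const_mul_atTop_of_neg (neg_lt_zero.mpr hc))
  exact h1.comp tendsto_comap

open UpperHalfPlane in
/-- A `1`-periodic holomorphic function bounded at `i∞` tends to its value at infinity. -/
lemma tendsto_valueAtInfty {f : ℍ → ℂ} (hper : ∀ z : ℍ, f ((1 : ℝ) +ᵥ z) = f z) (hf : MDiff f)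
    (hb : IsBoundedAtImInfty f) : Tendsto f atImInfty (𝓝 (valueAtInfty f)) := by
  have h1 := exp_decay_sub_atImInfty (h := 1) one_pos (periodic_comp_ofComplex_of_vadd hper) hf hb
  have h2 : Tendsto (fun τ : ℍ => Real.exp (-2 * π * τ.im / 1)) atImInfty (𝓝 0) := by
    have := tendsto_exp_neg_mul_im (c := 2 * π) (by positivity)
    refine this.congr fun τ => ?_
    congr 1
    ring
  have h3 := h1.trans_tendsto h2
  have h4 : Tendsto (fun τ => (f τ - valueAtInfty f) + valueAtInfty f) atImInfty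
      (𝓝 (0 + valueAtInfty f)) := h3.add tendsto_const_nhds
  simpa using h4

/-- The class of functions we decompose: `N`-periodic, holomorphic, bounded at `i∞`. -/
structure Good (N : ℕ) (g : ℍ → ℂ) : Prop where
  per : ∀ z : ℍ, g ((N : ℝ) +ᵥ z) = g z
  holo : MDiff g
  bdd : UpperHalfPlane.IsBoundedAtImInfty g

open UpperHalfPlane in
lemma isBoundedAtImInfty_comp_vadd (x : ℝ) {g : ℍ → ℂ} (hg : IsBoundedAtImInfty g) :
    IsBoundedAtImInfty (fun z : ℍ => g (x +ᵥ z)) := by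
  rw [isBoundedAtImInfty_iff] at hg ⊢
  obtain ⟨M, A, h⟩ := hg
  exact ⟨M, A, fun z hz => h _ (by simpa using hz)⟩

lemma Good.comp_vadd {N : ℕ} {g : ℍ → ℂ} (hg : Good N g) (x : ℝ) :
    Good N (fun z : ℍ => g (x +ᵥ z)) where
  per z := by
    have : x +ᵥ ((N : ℝ) +ᵥ z) = (N : ℝ) +ᵥ (x +ᵥ z) := by
      rw [vadd_vadd_uhp, vadd_vadd_uhp, add_comm]
    rw [this, hg.per]
  holo := mdiff_comp_vadd x hg.holo
  bdd := isBoundedAtImInfty_comp_vadd x hg.bdd

lemma Good.add {N : ℕ} {g₁ g₂ : ℍ → ℂ} (h₁ : Good N g₁) (h₂ : Good N g₂) : Good N (g₁ + g₂) where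
  per z := by simp [h₁.per, h₂.per]
  holo := h₁.holo.add h₂.holo
  bdd := h₁.bdd.add h₂.bdd

lemma Good.const_mul {N : ℕ} {g : ℍ → ℂ} (hg : Good N g) (c : ℂ) :
    Good N (fun z => c * g z) where
  per z := by simp [hg.per]
  holo := (mdifferentiable_const (c := c)).mul hg.holo
  bdd := by
    have := (Filter.const_boundedAtFilter UpperHalfPlane.atImInfty c).mul hg.bdd
    exact this

lemma good_zero (N : ℕ) : Good N (0 : ℍ → ℂ) where
  per _ := rfl
  holo := mdifferentiable_const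
  bdd := UpperHalfPlane.zero_form_isBoundedAtImInfty

lemma Good.sum {N : ℕ} {ι : Type*} (s : Finset ι) {g : ι → ℍ → ℂ} (hg : ∀ i ∈ s, Good N (g i)) :
    Good N (fun z => ∑ i ∈ s, g i z) := by
  classical
  induction s using Finset.induction_on with
  | empty =>
    have h0 : (fun z : ℍ => ∑ i ∈ (∅ : Finset ι), g i z) = 0 := by ext z; simp
    rw [h0]; exact good_zero N
  | insert a s ha ih =>
    have h1 : Good N (g a) := hg a (Finset.mem_insert_self a s)
    have h2 := ih fun i hi => hg i (Finset.mem_insert_of_mem hi)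
    have := h1.add h2
    refine ⟨fun z => ?_, ?_, ?_⟩
    · simpa [Finset.sum_insert ha] using this.per z
    · have h3 : (fun z => ∑ i ∈ insert a s, g i z) = g a + fun z => ∑ i ∈ s, g i z := by
        ext z; simp [Finset.sum_insert ha]
      rw [h3]; exact this.holo
    · have h3 : (fun z => ∑ i ∈ insert a s, g i z) = g a + fun z => ∑ i ∈ s, g i z := by
        ext z; simp [Finset.sum_insert ha]
      rw [h3]; exact this.bdd

/-- A `1`-periodic good function is `N`-periodic good. -/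
lemma Good.of_one {g : ℍ → ℂ} (hg : Good 1 g) (N : ℕ) : Good N g where
  per z := by
    induction N with
    | zero => simp
    | succ k ih =>
      have : ((k + 1 : ℕ) : ℝ) +ᵥ z = ((1 : ℕ) : ℝ) +ᵥ ((k : ℝ) +ᵥ z) := by
        rw [vadd_vadd_uhp]; push_cast; ring_nf
      rw [this, hg.per, ih]
  holo := hg.holo
  bdd := hg.bdd

lemma Good.mul {N : ℕ} {A g : ℍ → ℂ} (hA : Good N A) (hg : Good N g) : Good N (A * g) where
  per z := by simp [hA.per, hg.per]
  holo := hA.holo.mul hg.holo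
  bdd := hA.bdd.mul hg.bdd

open UpperHalfPlane in
lemma norm_tw_le {N n : ℕ} (hN : N ≠ 0) {g : ℍ → ℂ} {M A : ℝ}
    (hM : ∀ z : ℍ, A ≤ z.im → ‖g z‖ ≤ M) (z : ℍ) (hz : A ≤ z.im) :
    ‖tw N n g z‖ ≤ Real.exp (2 * π * n * z.im / N) * M := by
  have hN' : (0 : ℝ) < N := Nat.cast_pos.mpr (Nat.pos_of_ne_zero hN)
  rw [tw_apply, norm_mul, norm_inv, Complex.norm_natCast]
  have h1 : ∀ m ∈ Finset.range N,
      ‖eN N (-(n : ℤ)) (((m : ℝ) +ᵥ z : ℍ) : ℂ) * g ((m : ℝ) +ᵥ z)‖ ≤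
        Real.exp (2 * π * n * z.im / N) * M := by
    intro m _
    rw [norm_mul, norm_eN]
    have e1 : (((m : ℝ) +ᵥ z : ℍ) : ℂ).im = z.im := by simp
    rw [e1]
    have e2 : (-2 * π * ((-(n : ℤ) : ℤ) : ℝ) * z.im / N) = 2 * π * n * z.im / N := by
      push_cast; ring
    rw [e2]
    exact mul_le_mul_of_nonneg_left (hM _ (by simpa using hz)) (Real.exp_pos _).le
  have h2 := (norm_sum_le _ _).trans (Finset.sum_le_sum h1)
  rw [Finset.sum_const, Finset.card_range, nsmul_eq_mul] at h2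
  calc (N : ℝ)⁻¹ * ‖∑ m ∈ Finset.range N,
        eN N (-(n : ℤ)) (((m : ℝ) +ᵥ z : ℍ) : ℂ) * g ((m : ℝ) +ᵥ z)‖
      ≤ (N : ℝ)⁻¹ * ((N : ℝ) * (Real.exp (2 * π * n * z.im / N) * M)) :=
        mul_le_mul_of_nonneg_left h2 (inv_nonneg.mpr hN'.le)
    _ = Real.exp (2 * π * n * z.im / N) * M := by field_simp

open UpperHalfPlane in
/-- Key estimate: for `n < N` the twisted component `tw N n g` is bounded at `i∞`. -/
lemma isBoundedAtImInfty_tw {N n : ℕ} (hn : n < N) {g : ℍ → ℂ} (hg : Good N g) :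
    IsBoundedAtImInfty (tw N n g) := by
  have hN : N ≠ 0 := by omega
  have hN' : (0 : ℝ) < N := Nat.cast_pos.mpr (Nat.pos_of_ne_zero hN)
  obtain ⟨M, A, hM⟩ := isBoundedAtImInfty_iff.mp hg.bdd
  -- `K = q * tw` is `1`-periodic, holomorphic and tends to `0`.
  set K : ℍ → ℂ := fun z => eN 1 1 (z : ℂ) * tw N n g z with hK
  have hKper : ∀ z : ℍ, K ((1 : ℝ) +ᵥ z) = K z := by
    intro z
    simp only [hK]
    rw [tw_vadd_one hN n hg.per]
    congr 1
    have : (((1 : ℝ) +ᵥ z : ℍ) : ℂ) = (z : ℂ) + ((1 : ℕ) : ℂ) := by simp [add_comm]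
    rw [this, eN_add_period one_ne_zero]
  have hKholo : MDiff K := (mdiff_eN 1 1).mul (mdiff_tw N n hg.holo)
  have hc : 0 < 2 * π * (1 - (n : ℝ) / N) := by
    have : (n : ℝ) / N < 1 := by
      rw [div_lt_one hN']
      exact_mod_cast hn
    have := Real.pi_pos
    nlinarith
  have hKzero : IsZeroAtImInfty K := by
    have hbound : ∀ᶠ z : ℍ in atImInfty,
        ‖K z‖ ≤ Real.exp (-(2 * π * (1 - (n : ℝ) / N)) * z.im) * M := by
      have : {z : ℍ | A ≤ z.im} ∈ atImInfty := (atImInfty_mem _).mpr ⟨A, fun z hz => hz⟩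
      filter_upwards [this] with z hz
      simp only [hK, norm_mul, norm_eN]
      have h1 := norm_tw_le hN (n := n) hM z hz
      have h2 : Real.exp (-2 * π * ((1 : ℤ) : ℝ) * (z : ℂ).im / ((1 : ℕ) : ℝ)) *
          (Real.exp (2 * π * n * z.im / N) * M) =
          Real.exp (-(2 * π * (1 - (n : ℝ) / N)) * z.im) * M := by
        rw [← mul_assoc, ← Real.exp_add]
        congr 2
        simp only [Int.cast_one, Nat.cast_one, coe_im]
        field_simp
        ring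
      rw [← h2]
      exact mul_le_mul_of_nonneg_left h1 (Real.exp_pos _).le
    have hlim : Tendsto (fun z : ℍ => Real.exp (-(2 * π * (1 - (n : ℝ) / N)) * z.im) * M)
        atImInfty (𝓝 0) := by
      simpa using (tendsto_exp_neg_mul_im hc).mul_const M
    exact squeeze_zero_norm' hbound hlim
  have hdecay := hKzero.exp_decay_atImInfty (h := 1) one_pos
    (periodic_comp_ofComplex_of_vadd hKper) hKholo hKzero.isBoundedAtImInfty
  obtain ⟨C, hC⟩ := hdecay.bound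
  refine IsBigO.of_bound C ?_
  filter_upwards [hC] with z hz
  have htw : tw N n g z = eN 1 (-1) (z : ℂ) * K z := by
    simp only [hK]
    rw [← mul_assoc, eN_neg_mul_eN, one_mul]
  rw [htw, norm_mul, norm_eN]
  simp only [Pi.one_apply, norm_one, mul_one]
  have h3 : ‖Real.exp (-2 * π * z.im / 1)‖ = Real.exp (-2 * π * z.im / 1) :=
    Real.norm_of_nonneg (Real.exp_pos _).le
  rw [h3] at hz
  calc Real.exp (-2 * π * ((-1 : ℤ) : ℝ) * (z : ℂ).im / ((1 : ℕ) : ℝ)) * ‖K z‖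
      ≤ Real.exp (-2 * π * ((-1 : ℤ) : ℝ) * (z : ℂ).im / ((1 : ℕ) : ℝ)) *
          (C * Real.exp (-2 * π * z.im / 1)) :=
        mul_le_mul_of_nonneg_left hz (Real.exp_pos _).le
    _ = C := by
        rw [mul_comm C, ← mul_assoc, ← Real.exp_add]
        have : -2 * π * ((-1 : ℤ) : ℝ) * (z : ℂ).im / ((1 : ℕ) : ℝ) + -2 * π * z.im / 1 = 0 := by
          simp only [Int.cast_neg, Int.cast_one, Nat.cast_one, coe_im]
          ring
        rw [this, Real.exp_zero, one_mul]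

/-- The `n`-th leading coefficient of `g` (its `n`-th Fourier coefficient in `q^{1/N}`). -/
noncomputable def lead (N n : ℕ) (g : ℍ → ℂ) : ℂ := UpperHalfPlane.valueAtInfty (tw N n g)

open UpperHalfPlane in
lemma tendsto_tw {N n : ℕ} (hn : n < N) {g : ℍ → ℂ} (hg : Good N g) :
    Tendsto (tw N n g) atImInfty (𝓝 (lead N n g)) :=
  tendsto_valueAtInfty (tw_vadd_one (by omega) n hg.per) (mdiff_tw N n hg.holo)
    (isBoundedAtImInfty_tw hn hg)


/-! ### Algebraic properties of `tw` and `lead` -/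

lemma tw_add (N n : ℕ) (g₁ g₂ : ℍ → ℂ) (z : ℍ) :
    tw N n (g₁ + g₂) z = tw N n g₁ z + tw N n g₂ z := by
  simp only [tw_apply, Pi.add_apply, mul_add, Finset.sum_add_distrib]

lemma tw_const_mul (N n : ℕ) (c : ℂ) (g : ℍ → ℂ) (z : ℍ) :
    tw N n (fun w => c * g w) z = c * tw N n g z := by
  simp only [tw_apply, Finset.mul_sum]
  refine Finset.sum_congr rfl fun m _ => ?_
  ring

lemma tw_sum (N n : ℕ) {ι : Type*} (s : Finset ι) (g : ι → ℍ → ℂ) (z : ℍ) :
    tw N n (fun w => ∑ i ∈ s, g i w) z = ∑ i ∈ s, tw N n (g i) z := by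
  simp only [tw_apply, Finset.mul_sum]
  rw [Finset.sum_comm]

/-- Multiplication by a `1`-periodic function commutes with `tw`. -/
lemma tw_mul_periodic (N n : ℕ) {A : ℍ → ℂ} (hA : ∀ z : ℍ, A ((1 : ℝ) +ᵥ z) = A z)
    (g : ℍ → ℂ) (z : ℍ) : tw N n (A * g) z = A z * tw N n g z := by
  have hA' : ∀ (m : ℕ) (z : ℍ), A ((m : ℝ) +ᵥ z) = A z := by
    intro m
    induction m with
    | zero => intro z; simp
    | succ k ih =>
      intro z
      have : ((k + 1 : ℕ) : ℝ) +ᵥ z = (1 : ℝ) +ᵥ ((k : ℝ) +ᵥ z) := by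
        rw [vadd_vadd_uhp]; push_cast; ring_nf
      rw [this, hA, ih]
  simp only [tw_apply, Pi.mul_apply, hA', Finset.mul_sum]
  refine Finset.sum_congr rfl fun m _ => ?_
  ring

/-- Translating `g` by `1` multiplies the `n`-th twisted component by `ζ_N ^ n`. -/
lemma tw_translate {N : ℕ} (hN : N ≠ 0) (n : ℕ) {g : ℍ → ℂ}
    (hg : ∀ z : ℍ, g ((N : ℝ) +ᵥ z) = g z) (z : ℍ) :
    tw N n (fun w => g ((1 : ℝ) +ᵥ w)) z = eN N n 1 * tw N n g z := by
  rw [← tw_vadd_one hN n hg z, tw_apply, tw_apply, Finset.mul_sum, Finset.mul_sum,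
    Finset.mul_sum]
  refine Finset.sum_congr rfl fun m _ => ?_
  have e1 : (m : ℝ) +ᵥ ((1 : ℝ) +ᵥ z) = (1 : ℝ) +ᵥ ((m : ℝ) +ᵥ z) := by
    rw [vadd_vadd_uhp, vadd_vadd_uhp, add_comm]
  have e2 : (((1 : ℝ) +ᵥ ((m : ℝ) +ᵥ z) : ℍ) : ℂ) = (((m : ℝ) +ᵥ z : ℍ) : ℂ) + 1 := by
    simp [add_comm]
  rw [e1, e2, eN_add]
  have e3 : eN N (n : ℤ) 1 * eN N (-(n : ℤ)) 1 = 1 := by
    rw [mul_comm]; exact eN_neg_mul_eN N n 1
  linear_combination (-(N : ℂ)⁻¹ * eN N (-(n : ℤ)) (((m : ℝ) +ᵥ z : ℍ) : ℂ) *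
    g ((1 : ℝ) +ᵥ ((m : ℝ) +ᵥ z))) * e3

open UpperHalfPlane in
lemma lead_add {N n : ℕ} (hn : n < N) {g₁ g₂ : ℍ → ℂ} (h₁ : Good N g₁) (h₂ : Good N g₂) :
    lead N n (g₁ + g₂) = lead N n g₁ + lead N n g₂ := by
  have h := (tendsto_tw hn h₁).add (tendsto_tw hn h₂)
  have h' := tendsto_tw hn (h₁.add h₂)
  refine tendsto_nhds_unique h' (h.congr fun z => ?_)
  rw [tw_add]

open UpperHalfPlane in
lemma lead_const_mul {N n : ℕ} (hn : n < N) (c : ℂ) {g : ℍ → ℂ} (hg : Good N g) :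
    lead N n (fun w => c * g w) = c * lead N n g := by
  have h := (tendsto_tw hn hg).const_mul c
  have h' := tendsto_tw hn (hg.const_mul c)
  refine tendsto_nhds_unique h' (h.congr fun z => ?_)
  rw [tw_const_mul]

open UpperHalfPlane in
lemma lead_sum {N n : ℕ} (hn : n < N) {ι : Type*} (s : Finset ι) {g : ι → ℍ → ℂ}
    (hg : ∀ i ∈ s, Good N (g i)) :
    lead N n (fun w => ∑ i ∈ s, g i w) = ∑ i ∈ s, lead N n (g i) := by
  have h := tendsto_finsetSum s fun i hi => tendsto_tw hn (hg i hi)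
  have h' := tendsto_tw hn (Good.sum s hg)
  refine tendsto_nhds_unique h' (h.congr fun z => ?_)
  rw [tw_sum]

open UpperHalfPlane in
lemma lead_mul_periodic {N n : ℕ} (hn : n < N) {A g : ℍ → ℂ} (hA : Good 1 A) (hg : Good N g) :
    lead N n (A * g) = valueAtInfty A * lead N n g := by
  have hA1 : ∀ z : ℍ, A ((1 : ℝ) +ᵥ z) = A z := fun z => by simpa using hA.per z
  have h := (tendsto_valueAtInfty hA1 hA.holo hA.bdd).mul (tendsto_tw hn hg)
  have h' := tendsto_tw hn ((hA.of_one N).mul hg)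
  refine tendsto_nhds_unique h' (h.congr fun z => ?_)
  rw [tw_mul_periodic N n hA1]

open UpperHalfPlane in
lemma lead_translate {N n : ℕ} (hn : n < N) {g : ℍ → ℂ} (hg : Good N g) :
    lead N n (fun w => g ((1 : ℝ) +ᵥ w)) = eN N n 1 * lead N n g := by
  have hN : N ≠ 0 := by omega
  have h := (tendsto_tw hn hg).const_mul (eN N n 1)
  have h' := tendsto_tw hn (hg.comp_vadd 1)
  refine tendsto_nhds_unique h' (h.congr fun z => ?_)
  rw [tw_translate hN n hg.per]

open UpperHalfPlane in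
/-- A good function tends to its `0`-th leading coefficient. -/
lemma tendsto_good {N : ℕ} (hN : N ≠ 0) {g : ℍ → ℂ} (hg : Good N g) :
    Tendsto g atImInfty (𝓝 (lead N 0 g)) := by
  have hN' : (0 : ℝ) < N := Nat.cast_pos.mpr (Nat.pos_of_ne_zero hN)
  have hterm : ∀ n ∈ Finset.range N, Tendsto (fun z : ℍ => eN N n (z : ℂ) * tw N n g z) atImInfty
      (𝓝 (if n = 0 then lead N 0 g else 0)) := by
    intro n hn
    have hn' : n < N := Finset.mem_range.mp hn
    by_cases h0 : n = 0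
    · subst h0
      simp only [if_true, Nat.cast_zero, eN_zero_left, one_mul]
      exact tendsto_tw hn' hg
    · simp only [h0, if_false]
      have hbd := (isBoundedAtImInfty_tw hn' hg).isBoundedUnder_le
      have hz : Tendsto (fun z : ℍ => eN N n (z : ℂ)) atImInfty (𝓝 0) := by
        rw [tendsto_zero_iff_norm_tendsto_zero]
        have hc : 0 < 2 * π * n / N := by
          have : (0 : ℝ) < n := Nat.cast_pos.mpr (Nat.pos_of_ne_zero h0)
          positivity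
        refine (tendsto_exp_neg_mul_im hc).congr fun z => ?_
        rw [norm_eN]
        congr 1
        simp only [Int.cast_natCast, coe_im]
        ring
      exact hz.zero_mul_isBoundedUnder_le hbd
  have hsum := tendsto_finsetSum (Finset.range N) hterm
  have hval : ∑ n ∈ Finset.range N, (if n = 0 then lead N 0 g else 0) = lead N 0 g := by
    simp [Finset.sum_ite_eq', Nat.pos_of_ne_zero hN]
  rw [hval] at hsum
  exact hsum.congr fun z => sum_eN_mul_tw hN g z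

open UpperHalfPlane in
lemma isZeroAtImInfty_iff_lead_zero {N : ℕ} (hN : N ≠ 0) {g : ℍ → ℂ} (hg : Good N g) :
    IsZeroAtImInfty g ↔ lead N 0 g = 0 := by
  constructor
  · intro h
    exact tendsto_nhds_unique (tendsto_good hN hg) h
  · intro h
    have := tendsto_good hN hg
    rwa [h] at this

open UpperHalfPlane in
/-- If all leading coefficients of `g` vanish, then `g = O(exp(-2π Im z))`. -/
lemma isBigO_of_lead_eq_zero {N : ℕ} (hN : N ≠ 0) {g : ℍ → ℂ} (hg : Good N g)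
    (h0 : ∀ n < N, lead N n g = 0) :
    g =O[atImInfty] fun τ : ℍ => Real.exp (-2 * π * τ.im) := by
  have hterm : ∀ n ∈ Finset.range N, (fun z : ℍ => eN N n (z : ℂ) * tw N n g z) =O[atImInfty]
      fun τ : ℍ => Real.exp (-2 * π * τ.im) := by
    intro n hn
    have hn' : n < N := Finset.mem_range.mp hn
    have hzero : IsZeroAtImInfty (tw N n g) := by
      have := tendsto_tw hn' hg
      rwa [h0 n hn'] at this
    have hdecay := hzero.exp_decay_atImInfty (h := 1) one_pos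
      (periodic_comp_ofComplex_of_vadd (tw_vadd_one hN n hg.per)) (mdiff_tw N n hg.holo)
      hzero.isBoundedAtImInfty
    have h1 : (fun z : ℍ => eN N n (z : ℂ)) =O[atImInfty] (fun _ : ℍ => (1 : ℝ)) := by
      refine IsBigO.of_bound 1 (Filter.Eventually.of_forall fun z => ?_)
      rw [norm_eN]
      simp only [norm_one, mul_one]
      rw [Real.exp_le_one_iff]
      have : (0 : ℝ) ≤ n := Nat.cast_nonneg n
      have h2 : (0 : ℝ) ≤ N := Nat.cast_nonneg N
      have h3 : 0 < (z : ℂ).im := z.im_pos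
      have h4 : 0 ≤ 2 * π * (n : ℝ) * (z : ℂ).im / N := by positivity
      simp only [Int.cast_natCast]
      linarith [h4, show -2 * π * (n : ℝ) * (z : ℂ).im / N = -(2 * π * (n : ℝ) * (z : ℂ).im / N) by ring]
    have h2 := h1.mul hdecay
    refine h2.congr_right fun τ => ?_
    simp only [one_mul]
    congr 1
    ring
  have hsum := IsBigO.sum hterm
  refine hsum.congr_left fun z => ?_
  rw [Finset.sum_apply]
  exact sum_eN_mul_tw hN g z

/-- Finite Fourier inversion on `ℤ/N`. -/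
lemma eq_zero_of_sum_eN_eq_zero {N : ℕ} (hN : N ≠ 0) (x : ℕ → ℂ)
    (h : ∀ m < N, ∑ n ∈ Finset.range N, eN N n (m : ℂ) * x n = 0) :
    ∀ n < N, x n = 0 := by
  intro n₀ hn₀
  have hN' : (N : ℂ) ≠ 0 := Nat.cast_ne_zero.mpr hN
  have h1 : ∑ m ∈ Finset.range N, eN N (-(n₀ : ℤ)) (m : ℂ) *
      ∑ n ∈ Finset.range N, eN N n (m : ℂ) * x n = 0 := by
    refine Finset.sum_eq_zero fun m hm => ?_
    rw [h m (Finset.mem_range.mp hm), mul_zero]
  simp_rw [Finset.mul_sum] at h1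
  rw [Finset.sum_comm] at h1
  have key : ∀ n ∈ Finset.range N, ∑ m ∈ Finset.range N,
      eN N (-(n₀ : ℤ)) (m : ℂ) * (eN N n (m : ℂ) * x n) = if n = n₀ then (N : ℂ) * x n₀ else 0 := by
    intro n hn
    have hn' : n < N := Finset.mem_range.mp hn
    have e1 : ∀ m : ℕ, eN N (-(n₀ : ℤ)) (m : ℂ) * (eN N n (m : ℂ) * x n) =
        eN N ((n : ℤ) - n₀) (m : ℂ) * x n := by
      intro m
      rw [← mul_assoc, ← eN_add_left]
      congr 2
      ring
    simp_rw [e1]
    rw [← Finset.sum_mul, sum_eN_natCast hN]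
    by_cases hnn : n = n₀
    · subst hnn
      simp
    · have : ¬ ((N : ℤ) ∣ (n : ℤ) - n₀) := by
        intro hdvd
        rcases lt_or_gt_of_ne hnn with hlt | hgt
        · have h2 : (N : ℤ) ∣ (n₀ : ℤ) - n := by
            have := dvd_neg.mpr hdvd
            simpa using this
          have := Int.le_of_dvd (by omega) h2
          omega
        · have := Int.le_of_dvd (by omega) hdvd
          omega
      simp [this, hnn]
  rw [Finset.sum_congr rfl key] at h1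
  simp only [Finset.sum_ite_eq', Finset.mem_range, hn₀, if_true] at h1
  exact (mul_eq_zero.mp h1).resolve_left hN'

end Fermat.Agent.S20.helper500
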