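/-
S20, seat helper2200 (board row 317, `Goal_Dual` in the `helper560_Spec` shape).
Part 1: translates `tr 𝒢 k f q` in the `GoodLevel` setting: periodicity, behaviour at `i∞`,
`T`-shift of cosets, division by `Δ`.
-/
import Fermat.Agent.S20.helper560_Spec
import Fermat.Agent.S20.helper500_Twist
import Fermat.Agent.S20.helper387_GoalODE
import Fermat.Agent.S20.helper1774_Ell
import Fermat.Agent.S20.helper3006_Basic
import Fermat.Agent.S20.helper1220_CuspToolkit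

set_option autoImplicit false

open UpperHalfPlane ModularForm Filter Asymptotics
open scoped MatrixGroups Manifold Pointwise Topology Real

namespace Fermat.Agent.S20.helper2200

open Fermat.Agent.S20.helper560 Fermat.Agent.S20.helper500

noncomputable section

local notation "Δ" => ModularForm.discriminant

variable {𝒢 : Subgroup (GL (Fin 2) ℝ)} [𝒢.IsArithmetic] [𝒢.HasDetOne]

omit [𝒢.IsArithmetic] in
/-- Translates of genuine forms are `N`-periodic (`GoodLevel`). -/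
theorem tr_vadd_natCast {N : ℕ} (hG : GoodLevel 𝒢 N) {k : ℤ} {f : ℍ → ℂ} (hf : f ∈ MFG 𝒢 k)
    (q : Q 𝒢) (z : ℍ) : tr 𝒢 k f q ((N : ℝ) +ᵥ z) = tr 𝒢 k f q z := by
  obtain ⟨F, rfl⟩ := hf
  obtain ⟨γ, hγ⟩ := helper387.exists_mapGL_eq_out_inv q
  have htr : tr 𝒢 k ⇑F q =
      ⇑(ModularForm.translate F (Matrix.SpecialLinearGroup.mapGL ℝ γ)) := by
    unfold tr
    rw [hγ]
    rfl
  have hper : (N : ℝ) ∈
      (ConjAct.toConjAct (Matrix.SpecialLinearGroup.mapGL ℝ γ)⁻¹ • 𝒢).strictPeriods := by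
    have := hG.per γ⁻¹
    simpa [map_inv] using this
  rw [htr]
  exact SlashInvariantForm.vAdd_apply_of_mem_strictPeriods _ z hper

/-- Translates of modular forms are `Good N` functions (periodic, holomorphic, bounded). -/
theorem good_tr {N : ℕ} (hG : GoodLevel 𝒢 N) {k : ℤ} {f : ℍ → ℂ} (hf : f ∈ MFG 𝒢 k) (q : Q 𝒢) :
    Good N (tr 𝒢 k f q) where
  per := tr_vadd_natCast hG hf q
  holo := helper387.mdiff_tr (helper387.mdiff_of_mem_MFG hf) q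
  bdd := by
    obtain ⟨F, rfl⟩ := hf
    obtain ⟨γ, hγ⟩ := helper387.exists_tr_eq_slash q
    rw [hγ]
    exact ModularFormClass.bdd_at_infty_slash F γ

/-- Translates of cusp forms vanish at `i∞`. -/
theorem isZero_tr {k : ℤ} {f : ℍ → ℂ} (hf : f ∈ CFG 𝒢 k) (q : Q 𝒢) :
    IsZeroAtImInfty (tr 𝒢 k f q) := by
  obtain ⟨F, rfl⟩ := hf
  obtain ⟨γ, hγ⟩ := helper387.exists_tr_eq_slash q
  rw [hγ]
  exact CuspFormClass.zero_at_infty_slash F γ

/-- The coset `T^{-t} q`. -/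
def shiftQ (𝒢 : Subgroup (GL (Fin 2) ℝ)) (t : ℕ) (q : Q 𝒢) : Q 𝒢 :=
  (sl (ModularGroup.T ^ (t : ℤ)))⁻¹ • q

omit [𝒢.IsArithmetic] in
/-- The translate attached to `T^{-t} q` is the translate attached to `q` shifted by `t`. -/
theorem tr_shiftQ {k : ℤ} {f : ℍ → ℂ} (hf : f ∈ MFG 𝒢 k) (t : ℕ) (q : Q 𝒢) (z : ℍ) :
    tr 𝒢 k f (shiftQ 𝒢 t q) z = tr 𝒢 k f q ((t : ℝ) +ᵥ z) := by
  unfold shiftQ
  rw [helper1774.tr_inv_smul hf]
  exact helper1220.slash_T_zpow_apply (k := k) (tr 𝒢 k f q) (t : ℤ) z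

omit [𝒢.IsArithmetic] in
/-- Every `SL(2,ℤ)`-slash of a form is one of its translates. -/
theorem slash_eq_tr {k : ℤ} (F : ModularForm 𝒢 k) (γ : SL(2, ℤ)) :
    ∃ q : Q 𝒢, (⇑F ∣[k] γ) = tr 𝒢 k ⇑F q := by
  refine ⟨(sl γ)⁻¹ • (QuotientGroup.mk 1 : Q 𝒢), ?_⟩
  rw [helper1774.tr_inv_smul ⟨F, rfl⟩]
  have h1 : tr 𝒢 k ⇑F (QuotientGroup.mk 1 : Q 𝒢) = ⇑F := by
    rw [tr_eq_quotientFunc]
    have := SlashInvariantForm.quotientFunc_mk (ℋ := 𝒮ℒ) (𝒢 := 𝒢) F (1 : 𝒮ℒ)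
    simp
  rw [h1]
  rfl

/-- **Division by `Δ`**: if all translates of `f ∈ M_k(𝒢)` are `O(exp(-2π Im z))` at `i∞`,
then `f = Δ · g` with `g ∈ M_{k-12}(𝒢)`. -/
theorem exists_eq_discriminant_mul (hle : 𝒢 ≤ 𝒮ℒ) {k : ℤ} {f : ℍ → ℂ} (hf : f ∈ MFG 𝒢 k)
    (h : ∀ q : Q 𝒢, tr 𝒢 k f q =O[atImInfty] fun τ : ℍ => Real.exp (-2 * π * τ.im)) :
    ∃ g ∈ MFG 𝒢 (k - 12), f = Δ * g := by
  obtain ⟨F, rfl⟩ := hf
  have hinv : ∀ γ : SL(2, ℤ), Matrix.SpecialLinearGroup.mapGL ℝ γ ∈ 𝒢 → (⇑F ∣[k] γ) = ⇑F := by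
    intro γ hγ
    rw [SL_slash]
    exact SlashInvariantForm.slash_action_eqn F _ hγ
  suffices key : ∃ g : ModularForm 𝒢 (k - 12), ∀ z, g z = F z / Δ z by
    obtain ⟨g, hg⟩ := key
    refine ⟨⇑g, ⟨g, rfl⟩, ?_⟩
    ext z
    rw [Pi.mul_apply, hg]
    field_simp [discriminant_ne_zero z]
  refine ⟨{ toFun := fun z => F z / Δ z
            slash_action_eq' := ?_
            holo' := ?_
            bdd_at_cusps' := ?_ }, fun z => rfl⟩
  · intro γ hγ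
    obtain ⟨γ', rfl⟩ := hle hγ
    have h1 := helper1220.div_discriminant_slash (k := k) (⇑F) γ'
    rw [hinv γ' hγ] at h1
    exact h1
  · exact (ModularFormClass.holo F).div CuspForm.discriminant.holo' discriminant_ne_zero
  · intro c hc
    rw [Subgroup.IsArithmetic.isCusp_iff_isCusp_SL2Z] at hc
    rw [OnePoint.isBoundedAt_iff_forall_SL2Z hc]
    intro γ _
    rw [helper1220.div_discriminant_slash (k := k) (⇑F) γ, IsBoundedAtImInfty, BoundedAtFilter]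
    obtain ⟨q, hq⟩ := slash_eq_tr F γ
    have h2 : (⇑F ∣[k] γ) =O[atImInfty] Δ := by
      rw [hq]
      exact (h q).trans exp_isBigO_discriminant
    exact (div_isBoundedUnder_of_isBigO h2).isBigO_one ℝ

/-- **Division by `Δ`, cusp version**: if all translates of `f ∈ M_k(𝒢)` are `o(Δ)` at `i∞`,
then `f = Δ · g` with `g ∈ S_{k-12}(𝒢)`. -/
theorem exists_cusp_eq_discriminant_mul (hle : 𝒢 ≤ 𝒮ℒ) {k : ℤ} {f : ℍ → ℂ} (hf : f ∈ MFG 𝒢 k)
    (h : ∀ q : Q 𝒢, Tendsto (fun z : ℍ => tr 𝒢 k f q z / Δ z) atImInfty (𝓝 0)) :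
    ∃ g ∈ CFG 𝒢 (k - 12), f = Δ * g := by
  obtain ⟨F, rfl⟩ := hf
  have hinv : ∀ γ : SL(2, ℤ), Matrix.SpecialLinearGroup.mapGL ℝ γ ∈ 𝒢 → (⇑F ∣[k] γ) = ⇑F := by
    intro γ hγ
    rw [SL_slash]
    exact SlashInvariantForm.slash_action_eqn F _ hγ
  suffices key : ∃ g : CuspForm 𝒢 (k - 12), ∀ z, g z = F z / Δ z by
    obtain ⟨g, hg⟩ := key
    refine ⟨⇑g, ⟨g, rfl⟩, ?_⟩
    ext z
    rw [Pi.mul_apply, hg]
    field_simp [discriminant_ne_zero z]
  refine ⟨{ toFun := fun z => F z / Δ z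
            slash_action_eq' := ?_
            holo' := ?_
            zero_at_cusps' := ?_ }, fun z => rfl⟩
  · intro γ hγ
    obtain ⟨γ', rfl⟩ := hle hγ
    have h1 := helper1220.div_discriminant_slash (k := k) (⇑F) γ'
    rw [hinv γ' hγ] at h1
    exact h1
  · exact (ModularFormClass.holo F).div CuspForm.discriminant.holo' discriminant_ne_zero
  · intro c hc
    rw [Subgroup.IsArithmetic.isCusp_iff_isCusp_SL2Z] at hc
    rw [OnePoint.isZeroAt_iff_forall_SL2Z hc]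
    intro γ _
    rw [helper1220.div_discriminant_slash (k := k) (⇑F) γ, IsZeroAtImInfty, ZeroAtFilter]
    obtain ⟨q, hq⟩ := slash_eq_tr F γ
    rw [hq]
    exact h q

end

end Fermat.Agent.S20.helper2200
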