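/-
S20, seat helper2200 (board row 317, `Goal_Dual` in the `helper560_Spec` shape).
Part 2 (algebra): the trace pairing `B(f,g) = (Σ_q f_q g_q)/Δ` takes values in level one forms,
Liouville's formula for the fundamental determinants of free bases, and the reduction of
`Stmt_Dual` to the non-vanishing of the limit at `i∞` of `det B = det Φ · det Ψ / Δ^μ`.
-/
import Fermat.Agent.S20.helper2200_DualTr
import Fermat.Agent.S20.helper1760_Liouville
import Fermat.Agent.S20.helper1760_ODE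

set_option autoImplicit false

open UpperHalfPlane ModularForm Filter Asymptotics Derivative
open scoped MatrixGroups Manifold Pointwise Topology Real

namespace Fermat.Agent.S20.helper2200

open Fermat.Agent.S20.helper560 Fermat.Agent.S20.helper500

noncomputable section

local notation "Δ" => ModularForm.discriminant

variable {𝒢 : Subgroup (GL (Fin 2) ℝ)} [𝒢.IsArithmetic] [𝒢.HasDetOne]

/-- The trace pairing `B(f,g) = (Σ_q f_q g_q)/Δ` of a form of weight `k` and a form of weight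
`k'`. -/
def pairB (𝒢 : Subgroup (GL (Fin 2) ℝ)) [𝒢.IsArithmetic] (k k' : ℤ) (f g : ℍ → ℂ) : ℍ → ℂ :=
  fun z => (∑ q : Q 𝒢, tr 𝒢 k f q z * tr 𝒢 k' g q z) / Δ z

/-- The pairing of a modular form and a cusp form is a level one modular form. -/
theorem pairB_mem_RR {k k' : ℤ} {f g : ℍ → ℂ} (hf : f ∈ MFG 𝒢 k) (hg : g ∈ CFG 𝒢 k') :
    pairB 𝒢 k k' f g ∈ RR (k + k' - 12) := by
  obtain ⟨F, rfl⟩ := hf
  obtain ⟨G, rfl⟩ := hg
  have h1 : ∀ q : Q 𝒢, SlashInvariantForm.quotientFunc (ℋ := 𝒮ℒ) (G.mulModularForm F) q =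
      tr 𝒢 k ⇑F q * tr 𝒢 k' ⇑G q := by
    intro q
    rw [← tr_eq_quotientFunc_cusp]
    obtain ⟨γ, hγ⟩ := helper387.exists_tr_eq_slash q
    rw [hγ, hγ, hγ]
    have : (⇑(G.mulModularForm F) : ℍ → ℂ) = ⇑G * ⇑F := rfl
    rw [this, ModularForm.mul_slash_SL2, mul_comm]
  refine ⟨ModularForm.mcast (by ring)
    (CuspForm.discriminantEquiv (CuspForm.trace 𝒮ℒ (G.mulModularForm F))), ?_⟩
  ext z
  change (CuspForm.trace 𝒮ℒ (G.mulModularForm F)) z / Δ z = _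
  unfold pairB
  congr 1
  rw [CuspForm.coe_trace, Finset.sum_apply]
  refine Finset.sum_congr rfl fun q _ => ?_
  rw [h1]
  rfl

/-- The matrix of the pairing in two families. -/
def pairMat (𝒢 : Subgroup (GL (Fin 2) ℝ)) [𝒢.IsArithmetic] (κ κ' : Q 𝒢 → ℤ)
    (F G : Q 𝒢 → ℍ → ℂ) (z : ℍ) : Matrix (Q 𝒢) (Q 𝒢) ℂ :=
  Matrix.of fun j l => pairB 𝒢 (κ j) (κ' l) (F j) (G l) z

omit [𝒢.HasDetOne] in
theorem pairMat_eq (κ κ' : Q 𝒢 → ℤ) (F G : Q 𝒢 → ℍ → ℂ) (z : ℍ) :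
    pairMat 𝒢 κ κ' F G z =
      (Δ z)⁻¹ • ((transMatrix 𝒢 κ F z).transpose * transMatrix 𝒢 κ' G z) := by
  ext j l
  simp [pairMat, pairB, transMatrix, Matrix.mul_apply, div_eq_inv_mul]

omit [𝒢.HasDetOne] in
/-- **Liouville's formula** for the fundamental determinant of a free basis of a graded module
stable under the Serre derivative. -/
theorem fundDet_pow_eq (V : ℤ → Submodule ℂ (ℍ → ℂ))
    (hV : ∀ (k : ℤ) (f : ℍ → ℂ), f ∈ V k → MDiff f ∧ serreDerivative k f ∈ V (k + 2))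
    (κ : Q 𝒢 → ℤ) (F : Q 𝒢 → ℍ → ℂ) (hbasis : IsFreeBasis V κ F) :
    ∃ c : ℂ, ∀ z : ℍ, fundDet 𝒢 κ F z ^ 12 = c * Δ z ^ (∑ j, κ j) := by
  classical
  obtain ⟨hmem, hexp⟩ := hbasis
  have hex : ∀ j, ∃ P : Q 𝒢 → ℍ → ℂ, (∀ i, P i ∈ RR (κ j + 2 - κ i)) ∧
      serreDerivative (κ j) (F j) = ∑ i, P i * F i := by
    intro j
    obtain ⟨P, ⟨hP1, hP2⟩, -⟩ := hexp (κ j + 2) _ (hV (κ j) (F j) (hmem j)).2
    exact ⟨P, hP1, hP2⟩
  choose P hP1 hP2 using hex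
  have hγ : ∀ q : Q 𝒢, ∃ γ : SL(2, ℤ), ∀ (k : ℤ) (f : ℍ → ℂ), tr 𝒢 k f q = f ∣[k] γ :=
    fun q => helper387.exists_tr_eq_slash q
  choose γ htr using hγ
  have hdiag : ∀ j (w : ℍ), P j j w = 0 := by
    intro j w
    have h2 : P j j ∈ RR 2 := by
      have := hP1 j j
      rwa [show κ j + 2 - κ j = 2 by ring] at this
    rw [helper1760.eq_zero_of_mem_RR_two h2]
    rfl
  have hode : ∀ q j (w : ℍ), D (tr 𝒢 (κ j) (F j) q) w =
      ∑ i, tr 𝒢 (κ i) (F i) q w * P j i w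
        + (κ j : ℂ) * 12⁻¹ * EisensteinSeries.E2 w * tr 𝒢 (κ j) (F j) q w := by
    intro q j w
    simp only [htr]
    exact helper1760.D_slash_of_expansion (γ q) (κ j) (F j) (hV _ _ (hmem j)).1 κ F (P j)
      (hP1 j) (hP2 j) w
  have hΦ : ∀ q j, MDiff (tr 𝒢 (κ j) (F j) q) := by
    intro q j
    rw [htr]
    exact (hV _ _ (hmem j)).1.slash _ _
  obtain ⟨c, hc⟩ := helper1760.Abs.exists_det_pow_eq (fun q j => tr 𝒢 (κ j) (F j) q) hΦ
    (fun i j => P j i) κ hdiag hode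
  exact ⟨c, fun z => by simpa [fundDet, transMatrix] using hc z⟩

theorem fundDet_pow_eq_MFG (hle : 𝒢 ≤ 𝒮ℒ) (κ : Q 𝒢 → ℤ) (F : Q 𝒢 → ℍ → ℂ)
    (hbasis : IsFreeBasis (MFG 𝒢) κ F) :
    ∃ c : ℂ, ∀ z : ℍ, fundDet 𝒢 κ F z ^ 12 = c * Δ z ^ (∑ j, κ j) := by
  refine fundDet_pow_eq (MFG 𝒢) ?_ κ F hbasis
  rintro k _ ⟨f, rfl⟩
  exact ⟨ModularFormClass.holo f, ⟨helper1760.serreDMFaux hle k f, rfl⟩⟩

theorem fundDet_pow_eq_CFG (hle : 𝒢 ≤ 𝒮ℒ) (κ : Q 𝒢 → ℤ) (F : Q 𝒢 → ℍ → ℂ)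
    (hbasis : IsFreeBasis (CFG 𝒢) κ F) :
    ∃ c : ℂ, ∀ z : ℍ, fundDet 𝒢 κ F z ^ 12 = c * Δ z ^ (∑ j, κ j) := by
  refine fundDet_pow_eq (CFG 𝒢) ?_ κ F hbasis
  rintro k _ ⟨f, rfl⟩
  exact ⟨CuspFormClass.holo f, ⟨helper1760.serreDCFaux hle k f, rfl⟩⟩

/-- The analytic input of the duality: the determinant of the pairing matrix has a non-zero
limit at `i∞`. -/
def Stmt_PairLimit (𝒢 : Subgroup (GL (Fin 2) ℝ)) [𝒢.IsArithmetic] [𝒢.HasDetOne] : Prop :=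
  ∀ (κ κ' : Q 𝒢 → ℤ) (F G : Q 𝒢 → ℍ → ℂ),
    IsFreeBasis (MFG 𝒢) κ F → IsFreeBasis (CFG 𝒢) κ' G →
    ∃ c : ℂ, c ≠ 0 ∧ Tendsto
      (fun z : ℍ => fundDet 𝒢 κ F z * fundDet 𝒢 κ' G z / Δ z ^ (mu 𝒢)) atImInfty (𝓝 c)

theorem tendsto_discriminant_pow {n : ℕ} (hn : 0 < n) :
    Tendsto (fun z : ℍ => Δ z ^ n) atImInfty (𝓝 0) := by
  have := (discriminant_isZeroAtImInfty : Tendsto Δ atImInfty (𝓝 0)).pow n
  rwa [zero_pow hn.ne'] at this

/-- The duality statement follows from the non-vanishing of the limit of the pairing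
determinant. -/
theorem stmt_Dual_of_pairLimit (hle : 𝒢 ≤ 𝒮ℒ) (h : Stmt_PairLimit 𝒢) : Stmt_Dual 𝒢 := by
  classical
  intro κ κ' F G hF hG hΦ hΨ
  obtain ⟨c, hc0, hc⟩ := h κ κ' F G hF hG
  obtain ⟨cF, hcF⟩ := fundDet_pow_eq_MFG hle κ F hF
  obtain ⟨cG, hcG⟩ := fundDet_pow_eq_CFG hle κ' G hG
  have hμ : mu 𝒢 = Fintype.card (Q 𝒢) := Nat.card_eq_fintype_card
  -- the weight of the determinant vanishes
  have hD : ∀ z : ℍ, (fundDet 𝒢 κ F z * fundDet 𝒢 κ' G z / Δ z ^ (mu 𝒢)) ^ 12 =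
      cF * cG * Δ z ^ ((∑ j, κ j) + (∑ j, κ' j) - 12 * (mu 𝒢 : ℤ)) := by
    intro z
    have hz := discriminant_ne_zero z
    rw [div_pow, mul_pow, hcF, hcG, zpow_sub₀ hz, zpow_add₀ hz, ← pow_mul,
      show (12 : ℤ) * (mu 𝒢 : ℤ) = ((mu 𝒢 * 12 : ℕ) : ℤ) by push_cast; ring, zpow_natCast]
    ring
  have hcc : cF * cG ≠ 0 := by
    intro h0
    have := hD UpperHalfPlane.I
    rw [h0, zero_mul] at this
    have h1 := pow_eq_zero_iff (n := 12) (by norm_num) |>.mp this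
    rcases div_eq_zero_iff.mp h1 with h2 | h2
    · rcases mul_eq_zero.mp h2 with h3 | h3
      · exact hΦ _ h3
      · exact hΨ _ h3
    · exact pow_ne_zero _ (discriminant_ne_zero _) h2
  have hlim : Tendsto (fun z : ℍ => (fundDet 𝒢 κ F z * fundDet 𝒢 κ' G z / Δ z ^ (mu 𝒢)) ^ 12)
      atImInfty (𝓝 (c ^ 12)) := hc.pow 12
  have hw : (∑ j, κ j) + (∑ j, κ' j) - 12 * (mu 𝒢 : ℤ) = 0 := by
    by_contra hne
    rcases lt_or_gt_of_ne hne with hneg | hpos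
    · -- negative weight: `Δ^(-w) * D^12 = cF * cG` tends to `0`
      obtain ⟨n, hn⟩ := Int.eq_ofNat_of_zero_le (show 0 ≤ -((∑ j, κ j) + (∑ j, κ' j)
        - 12 * (mu 𝒢 : ℤ)) by omega)
      have hn0 : 0 < n := by omega
      have h1 := (tendsto_discriminant_pow hn0).mul hlim
      rw [zero_mul] at h1
      have h2 : (fun z : ℍ => Δ z ^ n *
          (fundDet 𝒢 κ F z * fundDet 𝒢 κ' G z / Δ z ^ (mu 𝒢)) ^ 12) = fun _ => cF * cG := by
        funext z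
        rw [hD z, show (∑ j, κ j) + (∑ j, κ' j) - 12 * (mu 𝒢 : ℤ) = -(n : ℤ) by omega,
          zpow_neg, zpow_natCast]
        field_simp [discriminant_ne_zero z]
      rw [h2] at h1
      exact hcc (tendsto_nhds_unique tendsto_const_nhds h1)
    · -- positive weight: `D^12 = cF * cG * Δ^w` tends to `0`
      obtain ⟨n, hn⟩ := Int.eq_ofNat_of_zero_le (show 0 ≤ (∑ j, κ j) + (∑ j, κ' j)
        - 12 * (mu 𝒢 : ℤ) by omega)
      have hn0 : 0 < n := by omega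
      have h1 := (tendsto_discriminant_pow hn0).const_mul (cF * cG)
      rw [mul_zero] at h1
      have h2 : (fun z : ℍ => (fundDet 𝒢 κ F z * fundDet 𝒢 κ' G z / Δ z ^ (mu 𝒢)) ^ 12) =
          fun z => cF * cG * Δ z ^ n := by
        funext z
        rw [hD z, hn, zpow_natCast]
      rw [h2] at hlim
      exact pow_ne_zero 12 hc0 (tendsto_nhds_unique hlim h1)
  -- a non-zero Leibniz term of the pairing determinant
  have hdet : (pairMat 𝒢 κ κ' F G UpperHalfPlane.I).det ≠ 0 := by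
    rw [pairMat_eq, Matrix.det_smul, Matrix.det_mul, Matrix.det_transpose]
    refine mul_ne_zero (pow_ne_zero _ (inv_ne_zero (discriminant_ne_zero _))) (mul_ne_zero ?_ ?_)
    · have := hΦ UpperHalfPlane.I
      unfold fundDet at this
      convert this
    · have := hΨ UpperHalfPlane.I
      unfold fundDet at this
      convert this
  rw [Matrix.det_apply'] at hdet
  obtain ⟨σ, -, hσ⟩ := Finset.exists_ne_zero_of_sum_ne_zero hdet
  have hσ' : ∀ i, pairB 𝒢 (κ (σ i)) (κ' i) (F (σ i)) (G i) UpperHalfPlane.I ≠ 0 := by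
    intro i
    have := right_ne_zero_of_mul hσ
    rw [Finset.prod_ne_zero_iff] at this
    exact this i (Finset.mem_univ i)
  have hnonneg : ∀ i, 0 ≤ κ (σ i) + κ' i - 12 := by
    intro i
    by_contra hlt
    have hmem := pairB_mem_RR (hF.1 (σ i)) (hG.1 i)
    rw [RR, helper3006.MFG_eq_bot_of_neg 𝒮ℒ (not_le.mp hlt), Submodule.mem_bot] at hmem
    exact hσ' i (by rw [hmem]; rfl)
  have hsum : ∑ i, (κ (σ i) + κ' i - 12) = 0 := by
    rw [Finset.sum_sub_distrib, Finset.sum_add_distrib, Equiv.sum_comp σ κ, Finset.sum_const,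
      Finset.card_univ, ← hμ]
    simp only [nsmul_eq_mul]
    linarith
  have hzero := (Finset.sum_eq_zero_iff_of_nonneg fun i _ => hnonneg i).mp hsum
  refine ⟨σ.symm, fun j => ?_⟩
  have := hzero (σ.symm j) (Finset.mem_univ _)
  rw [Equiv.apply_symm_apply] at this
  linarith

/-- `Goal_Dual` of the S20 spec, from the analytic input `Stmt_PairLimit`. -/
theorem goal_Dual_of_pairLimit
    (h : ∀ (𝒢 : Subgroup (GL (Fin 2) ℝ)) [𝒢.IsArithmetic] [𝒢.HasDetOne] (N : ℕ),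
      GoodLevel 𝒢 N → Stmt_PairLimit 𝒢) : Goal_Dual :=
  fun 𝒢 _ _ N hG => stmt_Dual_of_pairLimit hG.le (h 𝒢 N hG)

end

end Fermat.Agent.S20.helper2200
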