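/-
S20, seat helper2200 (board row 317, `Goal_Dual` in the `helper560_Spec` shape).
Part 3: leading coefficients (`helper500.lead`) of the translates of a free basis are linearly
independent: homogenise with Eisenstein series, divide by `Δ`, use uniqueness of expansions.
Both for `MFG` (coefficients `0 ≤ n < N` of the translates) and for `CFG` (coefficients
`1 ≤ n ≤ N`, encoded as the coefficients `0 ≤ n < N` of `hat v = e^{2πi(N-1)z/N} · v / Δ`).
-/
import Fermat.Agent.S20.helper2200_DualTr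

set_option autoImplicit false

open UpperHalfPlane ModularForm Filter Asymptotics EisensteinSeries
open scoped MatrixGroups Manifold Pointwise Topology Real

namespace Fermat.Agent.S20.helper2200

open Fermat.Agent.S20.helper560 Fermat.Agent.S20.helper500

noncomputable section

local notation "Δ" => ModularForm.discriminant

variable {𝒢 : Subgroup (GL (Fin 2) ℝ)} [𝒢.IsArithmetic] [𝒢.HasDetOne]

/-! ### Level one forms -/

/-- Level one forms are `1`-periodic, holomorphic and bounded at `i∞`. -/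
theorem good_of_mem_RR {a : ℤ} {P : ℍ → ℂ} (hP : P ∈ RR a) : Good 1 P := by
  obtain ⟨P', rfl⟩ := hP
  refine ⟨fun z => ?_, P'.holo', ModularFormClass.bdd_at_infty P'⟩
  exact SlashInvariantForm.vAdd_apply_of_mem_strictPeriods P' z (by simp)

theorem discriminant_mem_RR : (Δ : ℍ → ℂ) ∈ RR 12 :=
  ⟨ModularFormClass.modularForm CuspForm.discriminant, rfl⟩

theorem good_discriminant : Good 1 (Δ : ℍ → ℂ) := good_of_mem_RR discriminant_mem_RR

/-- A level one form tends to its value at infinity. -/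
theorem tendsto_of_mem_RR {a : ℤ} {P : ℍ → ℂ} (hP : P ∈ RR a) :
    Tendsto P atImInfty (𝓝 (valueAtInfty P)) := by
  have hP1 := good_of_mem_RR hP
  exact tendsto_valueAtInfty (fun z => by simpa using hP1.per z) hP1.holo hP1.bdd

/-- The normalised Eisenstein series of even weight tends to `1` at `i∞`. -/
theorem tendsto_E {n : ℕ} (hn : 3 ≤ n) (hn2 : Even n) :
    Tendsto (⇑(E hn) : ℍ → ℂ) atImInfty (𝓝 1) := by
  have han := ModularFormClass.analyticAt_cuspFunction_zero (E hn) one_pos one_mem_strictPeriods_SL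
  have hper := SlashInvariantFormClass.periodic_comp_ofComplex (E hn) one_mem_strictPeriods_SL
  have h0 : cuspFunction 1 (⇑(E hn)) 0 = 1 := by
    rw [cuspFunction_apply_zero one_pos han hper, ← qExpansion_coeff_zero one_pos han hper]
    exact E_qExpansion_coeff_zero hn hn2
  have h1 : Tendsto (fun τ : ℍ => cuspFunction 1 (⇑(E hn)) (Function.Periodic.qParam 1 τ))
      atImInfty (𝓝 (cuspFunction 1 (⇑(E hn)) 0)) :=
    han.continuousAt.tendsto.comp (qParam_tendsto_atImInfty one_pos)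
  rw [h0] at h1
  refine h1.congr fun τ => ?_
  exact eq_cuspFunction τ one_ne_zero hper

/-- Level one forms of every even weight `≥ 4` with prescribed value at `i∞`. -/
theorem exists_levelOne {m : ℤ} (hm : 4 ≤ m) (hm2 : Even m) (c : ℂ) :
    ∃ P ∈ RR m, Tendsto P atImInfty (𝓝 c) := by
  obtain ⟨n, rfl⟩ := Int.eq_ofNat_of_zero_le (show 0 ≤ m by omega)
  have hn : 3 ≤ n := by omega
  have hn2 : Even n := (Int.even_coe_nat n).mp hm2
  refine ⟨c • ⇑(E hn), ⟨c • E hn, rfl⟩, ?_⟩
  have := (tendsto_E hn hn2).const_smul c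
  rw [smul_eq_mul, mul_one] at this
  exact this

/-- Leading coefficients of a product with a level one form. -/
theorem lead_levelOne_mul {N n : ℕ} (hn : n < N) {a : ℤ} {P u : ℍ → ℂ} (hP : P ∈ RR a) {c : ℂ}
    (hc : Tendsto P atImInfty (𝓝 c)) (hu : Good N u) : lead N n (P * u) = c * lead N n u := by
  rw [lead_mul_periodic hn (good_of_mem_RR hP) hu]
  congr 1
  exact tendsto_nhds_unique (tendsto_of_mem_RR hP) hc

omit [𝒢.IsArithmetic] in
/-- The weights of a free basis of a graded submodule of `MFG 𝒢` are even. -/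
theorem kappa_even (hneg : -1 ∈ 𝒢) {J : Type} [Fintype J] {V : ℤ → Submodule ℂ (ℍ → ℂ)}
    (hV : ∀ k, V k ≤ MFG 𝒢 k) {κ : J → ℤ} {F : J → ℍ → ℂ} (hF : IsFreeBasis V κ F) (j : J) :
    Even (κ j) := by
  classical
  by_contra hodd
  rw [Int.not_even_iff_odd] at hodd
  have hFj : F j = 0 := by
    have := hV _ (hF.1 j)
    rw [helper3006.MFG_eq_bot_of_odd 𝒢 hneg hodd, Submodule.mem_bot] at this
    exact this
  have h1 : (1 : ℍ → ℂ) ∈ RR 0 := ⟨ModularForm.const 1, by ext z; simp⟩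
  have huniq := (hF.2 (κ j) 0 (Submodule.zero_mem _)).unique
    (y₁ := fun _ => 0) (y₂ := fun i => if i = j then 1 else 0)
    ⟨fun i => Submodule.zero_mem _, by simp⟩
    ⟨fun i => by
      by_cases hij : i = j
      · subst hij
        simpa using h1
      · simp [hij], by
      rw [Finset.sum_eq_single j]
      · simp [hFj]
      · intro i _ hij
        simp [hij]
      · intro hj
        exact absurd (Finset.mem_univ j) hj⟩
  have := congrFun (congrFun huniq j) UpperHalfPlane.I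
  simp at this

/-- A common even weight exceeding all weights of a family by at least `4`. -/
theorem exists_big_weight {J : Type} [Fintype J] (κ : J → ℤ) :
    ∃ k : ℤ, (∀ j, 4 ≤ k - κ j) ∧ Even k := by
  refine ⟨2 * (∑ j, |κ j|) + 4, fun j => ?_, ⟨∑ j, |κ j| + 2, by ring⟩⟩
  have h1 : κ j ≤ ∑ i, |κ i| :=
    (le_abs_self _).trans
      (Finset.single_le_sum (f := fun i => |κ i|) (fun i _ => abs_nonneg _) (Finset.mem_univ j))
  have h0 : 0 ≤ ∑ i, |κ i| := Finset.sum_nonneg fun i _ => abs_nonneg _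
  omega

/-! ### The modular side -/

/-- **Leading vectors of a free basis of `MFG 𝒢` are linearly independent.** -/
theorem lead_indep_MFG {N : ℕ} (hG : GoodLevel 𝒢 N) {J : Type} [Fintype J] {κ : J → ℤ}
    {F : J → ℍ → ℂ} (hF : IsFreeBasis (MFG 𝒢) κ F) (c : J → ℂ)
    (h : ∀ q : Q 𝒢, ∀ n < N, ∑ j, c j * lead N n (tr 𝒢 (κ j) (F j) q) = 0) : c = 0 := by
  have hev : ∀ j, Even (κ j) := kappa_even hG.neg (fun _ => le_rfl) hF
  obtain ⟨k, hk, hk2⟩ := exists_big_weight κ
  have hP : ∀ j, ∃ P ∈ RR (k - κ j), Tendsto P atImInfty (𝓝 (c j)) :=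
    fun j => exists_levelOne (hk j) (hk2.sub (hev j)) (c j)
  choose P hPmem hPlim using hP
  have hfmem : (∑ j, P j * F j) ∈ MFG 𝒢 k := by
    refine Submodule.sum_mem _ fun j _ => ?_
    have := helper3006.RR_mul_MFG 𝒢 hG.le (k - κ j) (κ j) (P j) (F j) (hPmem j) (hF.1 j)
    rwa [sub_add_cancel] at this
  have htr : ∀ q, tr 𝒢 k (∑ j, P j * F j) q = ∑ j, P j * tr 𝒢 (κ j) (F j) q := by
    intro q
    rw [helper387.tr_sum]
    refine Finset.sum_congr rfl fun j _ => ?_
    have := helper387.tr_levelOne_mul (𝒢 := 𝒢) (a := k - κ j) (b := κ j) (hPmem j) (F j) q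
    rwa [sub_add_cancel] at this
  have hlead : ∀ q, ∀ n < N, lead N n (tr 𝒢 k (∑ j, P j * F j) q) = 0 := by
    intro q n hn
    rw [htr q]
    have hgood : ∀ j ∈ Finset.univ, Good N (P j * tr 𝒢 (κ j) (F j) q) :=
      fun j _ => ((good_of_mem_RR (hPmem j)).of_one N).mul (good_tr hG (hF.1 j) q)
    have e : (∑ j, P j * tr 𝒢 (κ j) (F j) q) =
        fun w => ∑ j, (P j * tr 𝒢 (κ j) (F j) q) w := by
      ext w
      simp [Finset.sum_apply]
    rw [e, lead_sum hn Finset.univ hgood, ← h q n hn]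
    refine Finset.sum_congr rfl fun j _ => ?_
    exact lead_levelOne_mul hn (hPmem j) (hPlim j) (good_tr hG (hF.1 j) q)
  have hO : ∀ q, tr 𝒢 k (∑ j, P j * F j) q =O[atImInfty]
      fun τ : ℍ => Real.exp (-2 * π * τ.im) :=
    fun q => isBigO_of_lead_eq_zero hG.pos.ne' (good_tr hG hfmem q) (hlead q)
  obtain ⟨g, hg, hfg⟩ := exists_eq_discriminant_mul hG.le hfmem hO
  obtain ⟨R, ⟨hR1, hR2⟩, -⟩ := hF.2 (k - 12) g hg
  have huniq := (hF.2 k _ hfmem).unique (y₁ := P) (y₂ := fun j => Δ * R j) ⟨hPmem, rfl⟩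
    ⟨fun j => by
      have := helper3006.RR_mul_MFG 𝒮ℒ le_rfl 12 (k - 12 - κ j) Δ (R j) discriminant_mem_RR
        (hR1 j)
      rwa [show 12 + (k - 12 - κ j) = k - κ j by ring] at this, by
      rw [hfg, hR2, Finset.mul_sum]
      exact Finset.sum_congr rfl fun j _ => (mul_assoc _ _ _).symm⟩
  funext j
  have h1 : Tendsto (P j) atImInfty (𝓝 0) := by
    rw [congrFun huniq j]
    exact (discriminant_isZeroAtImInfty : Tendsto Δ atImInfty (𝓝 0)).zero_mul_isBoundedUnder_le
      (good_of_mem_RR (hR1 j)).bdd.isBoundedUnder_le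
  exact tendsto_nhds_unique (hPlim j) h1

/-! ### The cuspidal side -/

/-- The renormalised cusp translate `e^{2πi(N-1)z/N} · v(z)/Δ(z)`: its `q_N`-coefficients of
index `0, …, N-1` are the coefficients of `v` of index `1, …, N`. -/
def hat (N : ℕ) (v : ℍ → ℂ) : ℍ → ℂ := fun z => eN N ((N : ℤ) - 1) (z : ℂ) * (v z / Δ z)

theorem good_hat {N : ℕ} (hN : N ≠ 0) {v : ℍ → ℂ} (hv : Good N v) (hv0 : IsZeroAtImInfty v) :
    Good N (hat N v) where
  per z := by
    unfold hat
    have h1 : ((((N : ℝ) +ᵥ z : ℍ)) : ℂ) = (z : ℂ) + N := by simp [add_comm]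
    rw [h1, eN_add_period hN, hv.per, (good_discriminant.of_one N).per]
  holo := (mdiff_eN N _).mul (hv.holo.div CuspForm.discriminant.holo' discriminant_ne_zero)
  bdd := by
    have hNpos : (0 : ℝ) < N := Nat.cast_pos.mpr (Nat.pos_of_ne_zero hN)
    have h1 : v =O[atImInfty] fun τ : ℍ => Real.exp (-2 * π * τ.im / N) :=
      hv0.exp_decay_atImInfty hNpos (periodic_comp_ofComplex_of_vadd hv.per) hv.holo hv.bdd
    have h2 : (fun τ : ℍ => (Δ τ)⁻¹) =O[atImInfty] fun τ : ℍ => (Real.exp (-2 * π * τ.im))⁻¹ :=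
      exp_isBigO_discriminant.inv_rev
        (Eventually.of_forall fun z hz => absurd hz (Real.exp_pos _).ne')
    have h3 : (fun τ : ℍ => eN N ((N : ℤ) - 1) (τ : ℂ)) =O[atImInfty]
        fun τ : ℍ => Real.exp (-2 * π * ((N : ℝ) - 1) * τ.im / N) := by
      refine IsBigO.of_bound 1 (Eventually.of_forall fun τ => ?_)
      rw [norm_eN, one_mul, Real.norm_of_nonneg (Real.exp_pos _).le]
      apply le_of_eq
      congr 1
      push_cast
      simp
    have h4 := h3.mul (h1.mul h2)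
    refine IsBigO.congr' h4 (Eventually.of_forall fun τ => ?_) (Eventually.of_forall fun τ => ?_)
    · simp [hat, div_eq_mul_inv]
    · beta_reduce
      rw [← Real.exp_neg, ← Real.exp_add, ← Real.exp_add, Pi.one_apply]
      have : -2 * π * ((N : ℝ) - 1) * τ.im / N + (-2 * π * τ.im / N + -(-2 * π * τ.im)) = 0 := by
        field_simp
        ring
      rw [this, Real.exp_zero]

/-- If `hat N v` decays like `exp(-2π Im z)` then `v = o(Δ)`. -/
theorem tendsto_div_discriminant_of_hat {N : ℕ} (hN : N ≠ 0) {v : ℍ → ℂ}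
    (h : hat N v =O[atImInfty] fun τ : ℍ => Real.exp (-2 * π * τ.im)) :
    Tendsto (fun z : ℍ => v z / Δ z) atImInfty (𝓝 0) := by
  have hNpos : (0 : ℝ) < N := Nat.cast_pos.mpr (Nat.pos_of_ne_zero hN)
  have h3 : (fun τ : ℍ => eN N (-((N : ℤ) - 1)) (τ : ℂ)) =O[atImInfty]
      fun τ : ℍ => Real.exp (2 * π * ((N : ℝ) - 1) * τ.im / N) := by
    refine IsBigO.of_bound 1 (Eventually.of_forall fun τ => ?_)
    rw [norm_eN, one_mul, Real.norm_of_nonneg (Real.exp_pos _).le]
    apply le_of_eq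
    congr 1
    push_cast
    simp
    ring
  have h4 := h3.mul h
  have h5 : (fun z : ℍ => v z / Δ z) =O[atImInfty]
      fun τ : ℍ => Real.exp (-(2 * π / N) * τ.im) := by
    refine IsBigO.congr' h4 (Eventually.of_forall fun τ => ?_) (Eventually.of_forall fun τ => ?_)
    · simp only [hat]
      rw [← mul_assoc, eN_neg_mul_eN, one_mul]
    · beta_reduce
      rw [← Real.exp_add]
      congr 1
      field_simp
      ring
  exact h5.trans_tendsto (tendsto_exp_neg_mul_im (c := 2 * π / N) (by positivity))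

theorem hat_levelOne_mul (N : ℕ) (P v : ℍ → ℂ) : hat N (P * v) = P * hat N v := by
  funext z
  simp only [hat, Pi.mul_apply]
  ring

theorem hat_sum (N : ℕ) {J : Type} (s : Finset J) (v : J → ℍ → ℂ) :
    hat N (∑ j ∈ s, v j) = fun w => ∑ j ∈ s, hat N (v j) w := by
  funext z
  simp only [hat, Finset.sum_apply, Finset.sum_div, Finset.mul_sum]

/-- **Leading vectors of a free basis of `CFG 𝒢` are linearly independent.** -/
theorem lead_indep_CFG {N : ℕ} (hG : GoodLevel 𝒢 N) {J : Type} [Fintype J] {κ : J → ℤ}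
    {F : J → ℍ → ℂ} (hF : IsFreeBasis (CFG 𝒢) κ F) (c : J → ℂ)
    (h : ∀ q : Q 𝒢, ∀ n < N, ∑ j, c j * lead N n (hat N (tr 𝒢 (κ j) (F j) q)) = 0) : c = 0 := by
  have hN : N ≠ 0 := hG.pos.ne'
  have hev : ∀ j, Even (κ j) := kappa_even hG.neg (helper3006.CFG_le_MFG 𝒢) hF
  obtain ⟨k, hk, hk2⟩ := exists_big_weight κ
  have hP : ∀ j, ∃ P ∈ RR (k - κ j), Tendsto P atImInfty (𝓝 (c j)) :=
    fun j => exists_levelOne (hk j) (hk2.sub (hev j)) (c j)
  choose P hPmem hPlim using hP
  have hfmem : (∑ j, P j * F j) ∈ CFG 𝒢 k := by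
    refine Submodule.sum_mem _ fun j _ => ?_
    have := helper3006.RR_mul_CFG 𝒢 hG.le (k - κ j) (κ j) (P j) (F j) (hPmem j) (hF.1 j)
    rwa [sub_add_cancel] at this
  have hfmem' : (∑ j, P j * F j) ∈ MFG 𝒢 k := helper3006.CFG_le_MFG 𝒢 k hfmem
  have hgoodF : ∀ j q, Good N (hat N (tr 𝒢 (κ j) (F j) q)) := fun j q =>
    good_hat hN (good_tr hG (helper3006.CFG_le_MFG 𝒢 _ (hF.1 j)) q) (isZero_tr (hF.1 j) q)
  have htr : ∀ q, tr 𝒢 k (∑ j, P j * F j) q = ∑ j, P j * tr 𝒢 (κ j) (F j) q := by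
    intro q
    rw [helper387.tr_sum]
    refine Finset.sum_congr rfl fun j _ => ?_
    have := helper387.tr_levelOne_mul (𝒢 := 𝒢) (a := k - κ j) (b := κ j) (hPmem j) (F j) q
    rwa [sub_add_cancel] at this
  have hlead : ∀ q, ∀ n < N, lead N n (hat N (tr 𝒢 k (∑ j, P j * F j) q)) = 0 := by
    intro q n hn
    rw [htr q, hat_sum]
    simp only [hat_levelOne_mul]
    have hgood : ∀ j ∈ Finset.univ, Good N (P j * hat N (tr 𝒢 (κ j) (F j) q)) :=
      fun j _ => ((good_of_mem_RR (hPmem j)).of_one N).mul (hgoodF j q)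
    rw [lead_sum hn Finset.univ hgood, ← h q n hn]
    refine Finset.sum_congr rfl fun j _ => ?_
    exact lead_levelOne_mul hn (hPmem j) (hPlim j) (hgoodF j q)
  have hO : ∀ q, Tendsto (fun z : ℍ => tr 𝒢 k (∑ j, P j * F j) q z / Δ z) atImInfty (𝓝 0) :=
    fun q => tendsto_div_discriminant_of_hat hN
      (isBigO_of_lead_eq_zero hN (good_hat hN (good_tr hG hfmem' q) (isZero_tr hfmem q)) (hlead q))
  obtain ⟨g, hg, hfg⟩ := exists_cusp_eq_discriminant_mul hG.le hfmem' hO
  obtain ⟨R, ⟨hR1, hR2⟩, -⟩ := hF.2 (k - 12) g hg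
  have huniq := (hF.2 k _ hfmem).unique (y₁ := P) (y₂ := fun j => Δ * R j) ⟨hPmem, rfl⟩
    ⟨fun j => by
      have := helper3006.RR_mul_MFG 𝒮ℒ le_rfl 12 (k - 12 - κ j) Δ (R j) discriminant_mem_RR
        (hR1 j)
      rwa [show 12 + (k - 12 - κ j) = k - κ j by ring] at this, by
      rw [hfg, hR2, Finset.mul_sum]
      exact Finset.sum_congr rfl fun j _ => (mul_assoc _ _ _).symm⟩
  funext j
  have h1 : Tendsto (P j) atImInfty (𝓝 0) := by
    rw [congrFun huniq j]
    exact (discriminant_isZeroAtImInfty : Tendsto Δ atImInfty (𝓝 0)).zero_mul_isBoundedUnder_le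
      (good_of_mem_RR (hR1 j)).bdd.isBoundedUnder_le
  exact tendsto_nhds_unique (hPlim j) h1

end

end Fermat.Agent.S20.helper2200
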