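/-
S20, seat helper2200 (board row 317, `Goal_Dual` in the `helper560_Spec` shape).
Part 4: the exact identity `Σ_q f_q g_q / Δ = Σ_q S(f_q) S(hat g_q)` (finite Fourier
orthogonality along the `T`-orbits of cosets, at function level), the limit of the pairing matrix
at `i∞` (`Λᵀ Λ'`), invertibility of the two leading matrices, and `Goal_Dual`.
-/
import Fermat.Agent.S20.helper2200_DualLead
import Fermat.Agent.S20.helper2200_DualAlg

set_option autoImplicit false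

open UpperHalfPlane ModularForm Filter Asymptotics
open scoped MatrixGroups Manifold Pointwise Topology Real

namespace Fermat.Agent.S20.helper2200

open Fermat.Agent.S20.helper560 Fermat.Agent.S20.helper500

noncomputable section

local notation "Δ" => ModularForm.discriminant

/-! ### Finite Fourier analysis at function level -/

/-- `S(u)(z) = Σ_{n<N} tw N n u z`. -/
def twSum (N : ℕ) (u : ℍ → ℂ) (z : ℍ) : ℂ := ∑ n ∈ Finset.range N, tw N n u z

/-- `L(u) = Σ_{n<N} lead N n u`. -/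
def leadSum (N : ℕ) (u : ℍ → ℂ) : ℂ := ∑ n ∈ Finset.range N, lead N n u

theorem tendsto_twSum {N : ℕ} {u : ℍ → ℂ} (hu : Good N u) :
    Tendsto (twSum N u) atImInfty (𝓝 (leadSum N u)) := by
  unfold twSum leadSum
  exact tendsto_finsetSum _ fun n hn => tendsto_tw (Finset.mem_range.mp hn) hu

theorem eN_one_eq_one_iff {N : ℕ} (hN : N ≠ 0) (a : ℤ) : eN N a 1 = 1 ↔ (N : ℤ) ∣ a := by
  have hprim := Complex.isPrimitiveRoot_exp N hN
  have h1 := eN_natCast N a 1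
  simp only [Nat.cast_one, mul_one] at h1
  rw [h1]
  exact hprim.zpow_eq_one_iff_dvd a

theorem eN_sub_period_natCast {N : ℕ} (hN : N ≠ 0) (a : ℤ) (t : ℕ) :
    eN N (a - N) (t : ℂ) = eN N a (t : ℂ) := by
  unfold eN
  have hN' : (N : ℂ) ≠ 0 := Nat.cast_ne_zero.mpr hN
  have : 2 * (π : ℂ) * Complex.I * ((a - (N : ℤ) : ℤ) : ℂ) * (t : ℂ) / N =
      2 * π * Complex.I * a * t / N + ((-(t : ℤ) : ℤ) : ℂ) * (2 * π * Complex.I) := by
    push_cast
    field_simp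
    ring
  rw [this, Complex.exp_add, Complex.exp_int_mul_two_pi_mul_I, mul_one]

/-- Orthogonality: the sum over a `T`-stable index set of products of twisted components
vanishes unless the total character is trivial. -/
theorem pairing_orth {X : Type*} [Fintype X] {N : ℕ} (hN : N ≠ 0) (σ : Equiv.Perm X)
    (u w : X → ℍ → ℂ) (b : ℤ)
    (hu : ∀ x z, u x ((N : ℝ) +ᵥ z) = u x z) (hw : ∀ x z, w x ((N : ℝ) +ᵥ z) = w x z)
    (hσu : ∀ x, u (σ x) = fun z => u x ((1 : ℝ) +ᵥ z))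
    (hσw : ∀ x, w (σ x) = fun z => eN N b 1 * w x ((1 : ℝ) +ᵥ z))
    (n m : ℕ) (hnm : ¬ (N : ℤ) ∣ ((n : ℤ) + m + b)) (z : ℍ) :
    ∑ x, tw N n (u x) z * tw N m (w x) z = 0 := by
  have h1 : ∑ x, tw N n (u x) z * tw N m (w x) z =
      eN N ((n : ℤ) + m + b) 1 * ∑ x, tw N n (u x) z * tw N m (w x) z := by
    conv_lhs => rw [← Equiv.sum_comp σ]
    rw [Finset.mul_sum]
    refine Finset.sum_congr rfl fun x _ => ?_
    rw [hσu x, hσw x, tw_translate hN n (hu x) z, tw_const_mul, tw_translate hN m (hw x) z,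
      show ((n : ℤ) + m + b) = n + (b + m) by ring, eN_add_left, eN_add_left]
    ring
  have h2 : eN N ((n : ℤ) + m + b) 1 ≠ 1 := fun h => hnm ((eN_one_eq_one_iff hN _).mp h)
  have h3 : (1 - eN N ((n : ℤ) + m + b) 1) * ∑ x, tw N n (u x) z * tw N m (w x) z = 0 := by
    rw [sub_mul, one_mul, ← h1, sub_self]
  exact (mul_eq_zero.mp h3).resolve_left (sub_ne_zero.mpr (Ne.symm h2))

/-- The exact pairing identity. -/
theorem pairing_identity {X : Type*} [Fintype X] {N : ℕ} (hN : N ≠ 0) (σ : Equiv.Perm X)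
    (u w : X → ℍ → ℂ)
    (hu : ∀ x z, u x ((N : ℝ) +ᵥ z) = u x z) (hw : ∀ x z, w x ((N : ℝ) +ᵥ z) = w x z)
    (hσu : ∀ x, u (σ x) = fun z => u x ((1 : ℝ) +ᵥ z))
    (hσw : ∀ x, w (σ x) = fun z => eN N (1 - (N : ℤ)) 1 * w x ((1 : ℝ) +ᵥ z)) (z : ℍ) :
    ∑ x, u x z * w x z =
      eN N ((N : ℤ) - 1) (z : ℂ) * ∑ x, twSum N (u x) z * twSum N (w x) z := by
  have hexp : ∀ x, u x z * w x z = ∑ n ∈ Finset.range N, ∑ m ∈ Finset.range N,
      eN N n (z : ℂ) * eN N m (z : ℂ) * (tw N n (u x) z * tw N m (w x) z) := by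
    intro x
    conv_lhs => rw [← sum_eN_mul_tw hN (u x) z, ← sum_eN_mul_tw hN (w x) z]
    rw [Finset.sum_mul_sum]
    exact Finset.sum_congr rfl fun n _ => Finset.sum_congr rfl fun m _ => by ring
  have hS : ∀ x, twSum N (u x) z * twSum N (w x) z = ∑ n ∈ Finset.range N,
      ∑ m ∈ Finset.range N, tw N n (u x) z * tw N m (w x) z := by
    intro x
    unfold twSum
    rw [Finset.sum_mul_sum]
  have hS' : ∑ x, twSum N (u x) z * twSum N (w x) z = ∑ n ∈ Finset.range N,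
      ∑ m ∈ Finset.range N, ∑ x, tw N n (u x) z * tw N m (w x) z := by
    rw [Finset.sum_congr rfl fun x _ => hS x, Finset.sum_comm]
    refine Finset.sum_congr rfl fun n _ => ?_
    rw [Finset.sum_comm]
  have key : ∀ n ∈ Finset.range N, ∀ m ∈ Finset.range N,
      eN N n (z : ℂ) * eN N m (z : ℂ) * ∑ x, tw N n (u x) z * tw N m (w x) z =
      eN N ((N : ℤ) - 1) (z : ℂ) * ∑ x, tw N n (u x) z * tw N m (w x) z := by
    intro n hn m hm
    have hn' := Finset.mem_range.mp hn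
    have hm' := Finset.mem_range.mp hm
    by_cases hnm : n + m + 1 = N
    · rw [← eN_add_left]
      congr 2
      omega
    · have hdvd : ¬ (N : ℤ) ∣ ((n : ℤ) + m + (1 - (N : ℤ))) := by
        rintro ⟨d, hd⟩
        have h1 : (n : ℤ) + m + 1 = (N : ℤ) * (d + 1) := by linarith
        have hd1 : 0 < d + 1 := by
          by_contra hneg
          have : (N : ℤ) * (d + 1) ≤ 0 :=
            mul_nonpos_of_nonneg_of_nonpos (Int.natCast_nonneg N) (not_lt.mp hneg)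
          omega
        have hd2 : d + 1 < 2 := by
          by_contra hge
          have : (N : ℤ) * 2 ≤ (N : ℤ) * (d + 1) :=
            mul_le_mul_of_nonneg_left (not_lt.mp hge) (Int.natCast_nonneg N)
          omega
        have hd3 : d + 1 = 1 := by omega
        rw [hd3, mul_one] at h1
        exact hnm (by exact_mod_cast h1)
      rw [pairing_orth hN σ u w (1 - (N : ℤ)) hu hw hσu hσw n m hdvd z, mul_zero, mul_zero]
  calc ∑ x, u x z * w x z
      = ∑ x, ∑ n ∈ Finset.range N, ∑ m ∈ Finset.range N,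
          eN N n (z : ℂ) * eN N m (z : ℂ) * (tw N n (u x) z * tw N m (w x) z) :=
        Finset.sum_congr rfl fun x _ => hexp x
    _ = ∑ n ∈ Finset.range N, ∑ m ∈ Finset.range N,
          eN N n (z : ℂ) * eN N m (z : ℂ) * ∑ x, tw N n (u x) z * tw N m (w x) z := by
        rw [Finset.sum_comm]
        refine Finset.sum_congr rfl fun n _ => ?_
        rw [Finset.sum_comm]
        refine Finset.sum_congr rfl fun m _ => ?_
        rw [Finset.mul_sum]
    _ = ∑ n ∈ Finset.range N, ∑ m ∈ Finset.range N,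
          eN N ((N : ℤ) - 1) (z : ℂ) * ∑ x, tw N n (u x) z * tw N m (w x) z :=
        Finset.sum_congr rfl fun n hn => Finset.sum_congr rfl fun m hm => key n hn m hm
    _ = eN N ((N : ℤ) - 1) (z : ℂ) * ∑ x, twSum N (u x) z * twSum N (w x) z := by
        rw [hS', Finset.mul_sum]
        refine Finset.sum_congr rfl fun n _ => ?_
        rw [Finset.mul_sum]

/-- Leading coefficients of a shifted good function. -/
theorem lead_comp_vadd_nat {N n : ℕ} (hn : n < N) {g : ℍ → ℂ} (hg : Good N g) (t : ℕ) :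
    lead N n (fun w => g ((t : ℝ) +ᵥ w)) = eN N n (t : ℂ) * lead N n g := by
  induction t with
  | zero =>
    have : (fun w : ℍ => g (((0 : ℕ) : ℝ) +ᵥ w)) = g := by
      funext w
      rw [Nat.cast_zero, zero_vadd_uhp]
    rw [this, Nat.cast_zero, eN_zero_right, one_mul]
  | succ t ih =>
    have : (fun w : ℍ => g (((t + 1 : ℕ) : ℝ) +ᵥ w)) =
        fun w => (fun w' : ℍ => g ((t : ℝ) +ᵥ w')) ((1 : ℝ) +ᵥ w) := by
      funext w
      simp only [vadd_vadd_uhp]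
      push_cast
      rfl
    rw [this, lead_translate hn (hg.comp_vadd (t : ℝ)), ih, Nat.cast_add, Nat.cast_one, eN_add]
    ring

/-! ### Translates -/

variable {𝒢 : Subgroup (GL (Fin 2) ℝ)} [𝒢.IsArithmetic] [𝒢.HasDetOne]

omit [𝒢.IsArithmetic] in
theorem lead_tr_shiftQ {N n : ℕ} (hn : n < N) {k : ℤ} {f : ℍ → ℂ}
    (hf : f ∈ MFG 𝒢 k) {q : Q 𝒢} (hgood : Good N (tr 𝒢 k f q)) (t : ℕ) :
    lead N n (tr 𝒢 k f (shiftQ 𝒢 t q)) = eN N n (t : ℂ) * lead N n (tr 𝒢 k f q) := by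
  have : tr 𝒢 k f (shiftQ 𝒢 t q) = fun w => tr 𝒢 k f q ((t : ℝ) +ᵥ w) :=
    funext fun w => tr_shiftQ hf t q w
  rw [this, lead_comp_vadd_nat hn hgood t]

omit [𝒢.IsArithmetic] in
theorem hat_tr_shiftQ (N : ℕ) {k : ℤ} {f : ℍ → ℂ} (hf : f ∈ MFG 𝒢 k) (t : ℕ) (q : Q 𝒢) :
    hat N (tr 𝒢 k f (shiftQ 𝒢 t q)) =
      fun z => eN N (1 - (N : ℤ)) (t : ℂ) * hat N (tr 𝒢 k f q) ((t : ℝ) +ᵥ z) := by
  funext z
  simp only [hat]
  have h1 : (((t : ℝ) +ᵥ z : ℍ) : ℂ) = (z : ℂ) + t := by simp [add_comm]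
  have h2 : eN N (1 - (N : ℤ)) (t : ℂ) * eN N ((N : ℤ) - 1) (t : ℂ) = 1 := by
    rw [show (1 - (N : ℤ)) = -((N : ℤ) - 1) by ring]
    exact eN_neg_mul_eN N _ _
  rw [tr_shiftQ hf t q z, h1, eN_add, (good_discriminant.of_one t).per z]
  linear_combination (-(eN N ((N : ℤ) - 1) (z : ℂ) *
    (tr 𝒢 k f q ((t : ℝ) +ᵥ z) / Δ z))) * h2

theorem lead_hat_tr_shiftQ {N n : ℕ} (hG : GoodLevel 𝒢 N) (hn : n < N) {k : ℤ} {f : ℍ → ℂ}
    (hf : f ∈ CFG 𝒢 k) (q : Q 𝒢) (t : ℕ) :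
    lead N n (hat N (tr 𝒢 k f (shiftQ 𝒢 t q))) =
      eN N 1 (t : ℂ) * (eN N n (t : ℂ) * lead N n (hat N (tr 𝒢 k f q))) := by
  have hN : N ≠ 0 := hG.pos.ne'
  have hf' := helper3006.CFG_le_MFG 𝒢 _ hf
  have hgood : Good N (hat N (tr 𝒢 k f q)) := good_hat hN (good_tr hG hf' q) (isZero_tr hf q)
  rw [hat_tr_shiftQ N hf' t q, lead_const_mul hn _ (hgood.comp_vadd (t : ℝ)),
    lead_comp_vadd_nat hn hgood t, eN_sub_period_natCast hN 1 t]

/-- The pairing as a sum of products of the `1`-periodic functions `S(f_q)`, `S(hat g_q)`. -/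
theorem pairB_eq_sum_twSum {N : ℕ} (hG : GoodLevel 𝒢 N) {k k' : ℤ} {f g : ℍ → ℂ}
    (hf : f ∈ MFG 𝒢 k) (hg : g ∈ CFG 𝒢 k') (z : ℍ) :
    pairB 𝒢 k k' f g z =
      ∑ q : Q 𝒢, twSum N (tr 𝒢 k f q) z * twSum N (hat N (tr 𝒢 k' g q)) z := by
  have hN : N ≠ 0 := hG.pos.ne'
  have hg' := helper3006.CFG_le_MFG 𝒢 _ hg
  have key := pairing_identity hN
    (MulAction.toPerm ((sl (ModularGroup.T ^ ((1 : ℕ) : ℤ)))⁻¹ : 𝒮ℒ) : Equiv.Perm (Q 𝒢))
    (fun q => tr 𝒢 k f q) (fun q => hat N (tr 𝒢 k' g q))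
    (fun q z => tr_vadd_natCast hG hf q z)
    (fun q z => (good_hat hN (good_tr hG hg' q) (isZero_tr hg q)).per z)
    (fun q => by
      have := funext fun w => tr_shiftQ hf 1 q w
      simp only [Nat.cast_one] at this
      exact this)
    (fun q => by
      have := hat_tr_shiftQ N hg' 1 q
      simp only [Nat.cast_one] at this
      exact this) z
  have h1 : ∑ q : Q 𝒢, tr 𝒢 k f q z * hat N (tr 𝒢 k' g q) z =
      eN N ((N : ℤ) - 1) (z : ℂ) * pairB 𝒢 k k' f g z := by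
    unfold pairB hat
    rw [Finset.sum_div, Finset.mul_sum]
    exact Finset.sum_congr rfl fun q _ => by ring
  rw [h1] at key
  exact mul_left_cancel₀ (eN_ne_zero N _ _) key

/-- The limit of the pairing at `i∞`. -/
theorem tendsto_pairB {N : ℕ} (hG : GoodLevel 𝒢 N) {k k' : ℤ} {f g : ℍ → ℂ}
    (hf : f ∈ MFG 𝒢 k) (hg : g ∈ CFG 𝒢 k') :
    Tendsto (pairB 𝒢 k k' f g) atImInfty
      (𝓝 (∑ q : Q 𝒢, leadSum N (tr 𝒢 k f q) * leadSum N (hat N (tr 𝒢 k' g q)))) := by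
  have hN : N ≠ 0 := hG.pos.ne'
  have hg' := helper3006.CFG_le_MFG 𝒢 _ hg
  have h := tendsto_finsetSum (Finset.univ : Finset (Q 𝒢)) fun q _ =>
    (tendsto_twSum (good_tr hG hf q)).mul
      (tendsto_twSum (good_hat hN (good_tr hG hg' q) (isZero_tr hg q)))
  exact h.congr fun z => (pairB_eq_sum_twSum hG hf hg z).symm

/-! ### The leading matrices -/

/-- Leading matrix of a family of modular forms. -/
def leadMatM (𝒢 : Subgroup (GL (Fin 2) ℝ)) (N : ℕ) (κ : Q 𝒢 → ℤ) (F : Q 𝒢 → ℍ → ℂ) :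
    Matrix (Q 𝒢) (Q 𝒢) ℂ :=
  Matrix.of fun q j => leadSum N (tr 𝒢 (κ j) (F j) q)

/-- Leading matrix of a family of cusp forms. -/
def leadMatS (𝒢 : Subgroup (GL (Fin 2) ℝ)) (N : ℕ) (κ : Q 𝒢 → ℤ) (G : Q 𝒢 → ℍ → ℂ) :
    Matrix (Q 𝒢) (Q 𝒢) ℂ :=
  Matrix.of fun q l => leadSum N (hat N (tr 𝒢 (κ l) (G l) q))

theorem det_leadMatM_ne_zero [DecidableEq (Q 𝒢)] {N : ℕ} (hG : GoodLevel 𝒢 N) {κ : Q 𝒢 → ℤ}
    {F : Q 𝒢 → ℍ → ℂ} (hF : IsFreeBasis (MFG 𝒢) κ F) : (leadMatM 𝒢 N κ F).det ≠ 0 := by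
  have hN : N ≠ 0 := hG.pos.ne'
  intro hdet
  obtain ⟨v, hv0, hv⟩ := Matrix.exists_mulVec_eq_zero_iff.mpr hdet
  apply hv0
  refine lead_indep_MFG hG hF v fun q n hn => ?_
  refine eq_zero_of_sum_eN_eq_zero hN
    (fun n => ∑ j, v j * lead N n (tr 𝒢 (κ j) (F j) q)) (fun t _ => ?_) n hn
  have h1 := congrFun hv (shiftQ 𝒢 t q)
  simp only [Matrix.mulVec, dotProduct, leadMatM, Matrix.of_apply, Pi.zero_apply, leadSum] at h1
  rw [← h1]
  simp only [Finset.mul_sum, Finset.sum_mul]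
  rw [Finset.sum_comm]
  refine Finset.sum_congr rfl fun j _ => Finset.sum_congr rfl fun n hn => ?_
  rw [lead_tr_shiftQ (Finset.mem_range.mp hn) (hF.1 j) (good_tr hG (hF.1 j) q) t]
  ring

theorem det_leadMatS_ne_zero [DecidableEq (Q 𝒢)] {N : ℕ} (hG : GoodLevel 𝒢 N) {κ : Q 𝒢 → ℤ}
    {G : Q 𝒢 → ℍ → ℂ} (hGb : IsFreeBasis (CFG 𝒢) κ G) : (leadMatS 𝒢 N κ G).det ≠ 0 := by
  have hN : N ≠ 0 := hG.pos.ne'
  intro hdet
  obtain ⟨v, hv0, hv⟩ := Matrix.exists_mulVec_eq_zero_iff.mpr hdet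
  apply hv0
  refine lead_indep_CFG hG hGb v fun q n hn => ?_
  refine eq_zero_of_sum_eN_eq_zero hN
    (fun n => ∑ j, v j * lead N n (hat N (tr 𝒢 (κ j) (G j) q))) (fun t _ => ?_) n hn
  have h1 := congrFun hv (shiftQ 𝒢 t q)
  simp only [Matrix.mulVec, dotProduct, leadMatS, Matrix.of_apply, Pi.zero_apply, leadSum] at h1
  have h2 : eN N 1 (t : ℂ) * ∑ n ∈ Finset.range N, eN N n (t : ℂ) *
      ∑ j, v j * lead N n (hat N (tr 𝒢 (κ j) (G j) q)) = 0 := by
    rw [← h1]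
    simp only [Finset.mul_sum, Finset.sum_mul]
    rw [Finset.sum_comm]
    refine Finset.sum_congr rfl fun j _ => Finset.sum_congr rfl fun n hn => ?_
    rw [lead_hat_tr_shiftQ hG (Finset.mem_range.mp hn) (hGb.1 j) q t]
    ring
  exact (mul_eq_zero.mp h2).resolve_left (eN_ne_zero N 1 _)

/-- **The analytic input**: the determinant of the pairing matrix of two free bases has a
non-zero limit at `i∞`. -/
theorem stmt_pairLimit {N : ℕ} (hG : GoodLevel 𝒢 N) : Stmt_PairLimit 𝒢 := by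
  classical
  intro κ κ' F G hF hGb
  refine ⟨((leadMatM 𝒢 N κ F).transpose * leadMatS 𝒢 N κ' G).det, ?_, ?_⟩
  · rw [Matrix.det_mul, Matrix.det_transpose]
    exact mul_ne_zero (det_leadMatM_ne_zero hG hF) (det_leadMatS_ne_zero hG hGb)
  · have hdet : Tendsto (fun z : ℍ => (pairMat 𝒢 κ κ' F G z).det) atImInfty
        (𝓝 ((leadMatM 𝒢 N κ F).transpose * leadMatS 𝒢 N κ' G).det) := by
      simp only [Matrix.det_apply']
      refine tendsto_finsetSum _ fun σ _ => Tendsto.const_mul _ (tendsto_finsetProd _ fun i _ => ?_)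
      have := tendsto_pairB hG (hF.1 (σ i)) (hGb.1 i)
      simpa [pairMat, Matrix.mul_apply, leadMatM, leadMatS] using this
    refine hdet.congr fun z => ?_
    rw [pairMat_eq, Matrix.det_smul, Matrix.det_mul, Matrix.det_transpose,
      show mu 𝒢 = Fintype.card (Q 𝒢) from Nat.card_eq_fintype_card]
    unfold fundDet
    rw [inv_pow, div_eq_inv_mul]

/-- **`Goal_Dual`** of the S20 spec (`helper560_Spec`). -/
theorem goal_Dual : Goal_Dual :=
  goal_Dual_of_pairLimit fun _ _ _ _ hG => stmt_pairLimit hG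

end

end Fermat.Agent.S20.helper2200
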