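/-
S20-SUMK (board 322), part 1: function-level toolkit for `q_N`-expansion coefficients of
holomorphic, bounded, `N`-periodic functions on the upper half plane.  Author: helper2240.
-/
import Mathlib
import Fermat.Prelude.Thm_UpperHalfPlane_qExpansion_coeff_nat_mul
import Fermat.Agent.S20.helper1760_SerreD

set_option autoImplicit false

open UpperHalfPlane Function Filter Asymptotics
open scoped Real Manifold Topology

namespace Fermat.Agent.S20.helper2240

noncomputable section

/-- `g` is holomorphic on `ℍ`, bounded at `i∞` and `N`-periodic. -/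
structure Nice (N : ℕ) (g : ℍ → ℂ) : Prop where
  hol : MDiff g
  bdd : IsBoundedAtImInfty g
  per : Periodic (g ∘ ofComplex) ((N : ℝ) : ℂ)

/-- The `n`-th coefficient of the `q_N`-expansion. -/
def qc (N : ℕ) (g : ℍ → ℂ) (n : ℕ) : ℂ := (qExpansion (N : ℝ) g).coeff n

variable {N : ℕ} {g g' : ℍ → ℂ}

theorem Nice.analytic (hN : 0 < N) (hg : Nice N g) : AnalyticAt ℂ (cuspFunction (N : ℝ) g) 0 :=
  analyticAt_cuspFunction_zero (by exact_mod_cast hN) hg.per hg.hol hg.bdd

theorem Nice.hasSum (hN : 0 < N) (hg : Nice N g) (z : ℍ) :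
    HasSum (fun n : ℕ => qc N g n * Periodic.qParam (N : ℝ) z ^ n) (g z) := by
  simpa [qc] using hasSum_qExpansion (by exact_mod_cast hN) hg.per hg.hol hg.bdd z

/-- Uniqueness of the `q_N`-expansion. -/
theorem Nice.qc_unique (hN : 0 < N) (hg : Nice N g) {c : ℕ → ℂ}
    (hc : ∀ z : ℍ, HasSum (fun n : ℕ => c n * Periodic.qParam (N : ℝ) z ^ n) (g z)) (n : ℕ) :
    c n = qc N g n := by
  have hN' : (0 : ℝ) < N := by exact_mod_cast hN
  have hc' : ∀ τ : ℍ, HasSum (fun m ↦ c m • Periodic.qParam (N : ℝ) τ ^ m) (g τ) := by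
    intro τ; simpa using hc τ
  have h1 := (hasFPowerSeriesOnBall_cuspFunction hN' (hg.analytic hN) hc').hasFPowerSeriesAt
  have h2 : HasFPowerSeriesAt (cuspFunction (N : ℝ) g)
      (FormalMultilinearSeries.ofScalars ℂ fun m ↦ (qExpansion (N : ℝ) g).coeff m) 0 := by
    simpa [qExpansion_coeff, div_eq_mul_inv, mul_comm]
      using (hg.analytic hN).hasFPowerSeriesAt
  simpa [qc] using congr_arg (FormalMultilinearSeries.coeff · n) (h1.eq_formalMultilinearSeries h2)

theorem Nice.add (hg : Nice N g) (hg' : Nice N g') : Nice N (g + g') where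
  hol := hg.hol.add hg'.hol
  bdd := hg.bdd.add hg'.bdd
  per := by
    intro w
    have h1 := hg.per w
    have h2 := hg'.per w
    simp only [comp_apply, Pi.add_apply] at h1 h2 ⊢
    rw [h1, h2]

theorem Nice.smul (c : ℂ) (hg : Nice N g) : Nice N (c • g) where
  hol := hg.hol.const_smul c
  bdd := hg.bdd.const_smul_left c
  per := by
    intro w
    have h1 := hg.per w
    simp only [comp_apply, Pi.smul_apply] at h1 ⊢
    rw [h1]

theorem Nice.mul (hg : Nice N g) (hg' : Nice N g') : Nice N (g * g') where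
  hol := hg.hol.mul hg'.hol
  bdd := hg.bdd.mul hg'.bdd
  per := by
    intro w
    have h1 := hg.per w
    have h2 := hg'.per w
    simp only [comp_apply, Pi.mul_apply] at h1 h2 ⊢
    rw [h1, h2]

theorem Nice.zero : Nice N (0 : ℍ → ℂ) where
  hol := mdifferentiable_const
  bdd := zero_form_isBoundedAtImInfty
  per := by intro w; simp

theorem Nice.sum {ι : Type*} (s : Finset ι) (G : ι → ℍ → ℂ) (hG : ∀ i ∈ s, Nice N (G i)) :
    Nice N (∑ i ∈ s, G i) := by
  classical
  induction s using Finset.induction_on with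
  | empty => simpa using Nice.zero
  | insert a s ha ih =>
    rw [Finset.sum_insert ha]
    exact (hG a (Finset.mem_insert_self a s)).add
      (ih fun i hi => hG i (Finset.mem_insert_of_mem hi))

theorem qc_add (hN : 0 < N) (hg : Nice N g) (hg' : Nice N g') (n : ℕ) :
    qc N (g + g') n = qc N g n + qc N g' n := by
  simp [qc, qExpansion_add (hg.analytic hN) (hg'.analytic hN)]

theorem qc_smul (hN : 0 < N) (c : ℂ) (hg : Nice N g) (n : ℕ) :
    qc N (c • g) n = c * qc N g n := by
  simp [qc, qExpansion_smul (hg.analytic hN)]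

theorem qc_zero_fun (n : ℕ) : qc N (0 : ℍ → ℂ) n = 0 := by
  simp [qc, qExpansion_zero]

theorem qc_sum (hN : 0 < N) {ι : Type*} (s : Finset ι) (G : ι → ℍ → ℂ)
    (hG : ∀ i ∈ s, Nice N (G i)) (n : ℕ) :
    qc N (∑ i ∈ s, G i) n = ∑ i ∈ s, qc N (G i) n := by
  classical
  induction s using Finset.induction_on with
  | empty => simpa using qc_zero_fun (N := N) n
  | insert a s ha ih =>
    rw [Finset.sum_insert ha, Finset.sum_insert ha,
      qc_add hN (hG a (Finset.mem_insert_self a s))
        (Nice.sum s G fun i hi => hG i (Finset.mem_insert_of_mem hi)),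
      ih fun i hi => hG i (Finset.mem_insert_of_mem hi)]

theorem qc_mul (hN : 0 < N) (hg : Nice N g) (hg' : Nice N g') (n : ℕ) :
    qc N (g * g') n = ∑ p ∈ Finset.HasAntidiagonal.antidiagonal n, qc N g p.1 * qc N g' p.2 := by
  simp [qc, qExpansion_mul (hg.analytic hN) (hg'.analytic hN), PowerSeries.coeff_mul]

/-- The constant coefficient is the limit at `i∞`. -/
theorem Nice.tendsto (hN : 0 < N) (hg : Nice N g) : Tendsto g atImInfty (𝓝 (qc N g 0)) := by
  have hN' : (0 : ℝ) < N := by exact_mod_cast hN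
  have h0 : qc N g 0 = cuspFunction (N : ℝ) g 0 := by
    simp [qc, qExpansion_coeff]
  have : (cuspFunction (N : ℝ) g ∘ fun τ : ℍ ↦ Periodic.qParam (N : ℝ) τ : ℍ → ℂ) = g := by
    funext τ
    simpa using eq_cuspFunction τ hN'.ne' hg.per
  rw [h0]
  simpa [this] using (hg.analytic hN).continuousAt.tendsto.comp (qParam_tendsto_atImInfty hN')

theorem Nice.qc_zero_of_isZero (hN : 0 < N) (hg : Nice N g) (h0 : IsZeroAtImInfty g) :
    qc N g 0 = 0 :=
  tendsto_nhds_unique (hg.tendsto hN) h0

/-! ### Multiplication by `1`-periodic functions -/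

theorem Nice.of_one {P : ℍ → ℂ} (hP : Nice 1 P) : Nice N P where
  hol := hP.hol
  bdd := hP.bdd
  per := by
    have h1 : Periodic (P ∘ ofComplex) ((1 : ℝ) : ℂ) := by simpa using hP.per
    have h2 := h1.nat_mul N
    simpa using h2

theorem qc_of_one (hN : 0 < N) {P : ℍ → ℂ} (hP : Nice 1 P) (n : ℕ) :
    qc N P n = if N ∣ n then qc 1 P (n / N) else 0 := by
  have h1 : Periodic (P ∘ ofComplex) ((1 : ℝ) : ℂ) := by simpa using hP.per
  have := UpperHalfPlane.qExpansion_coeff_nat_mul (h := 1) one_pos h1 hP.hol hP.bdd hN n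
  simpa [qc] using this

/-- Coefficients of `P * g`, `P` being `1`-periodic: below the first multiple of `N` only the
constant term of `P` contributes. -/
theorem qc_mul_of_one (hN : 0 < N) {P : ℍ → ℂ} (hP : Nice 1 P) (hg : Nice N g) (n : ℕ)
    (h : ∀ i l, i + l = n → 0 < i → N ∣ i → qc N g l = 0) :
    qc N (P * g) n = qc 1 P 0 * qc N g n := by
  rw [qc_mul hN hP.of_one hg, Finset.sum_eq_single (0, n)]
  · rw [qc_of_one hN hP]
    simp
  · rintro ⟨i, l⟩ hil hne
    have hil' : i + l = n := by simpa using hil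
    have hi : 0 < i := by
      rcases Nat.eq_zero_or_pos i with h0 | h0
      · exfalso; apply hne; subst h0; simp at hil'; simp [hil']
      · exact h0
    simp only
    rw [qc_of_one hN hP]
    split_ifs with hd
    · rw [h i l hil' hi hd, mul_zero]
    · rw [zero_mul]
  · intro h0
    exact absurd (by simp) h0

theorem qc_mul_of_one_lt (hN : 0 < N) {P : ℍ → ℂ} (hP : Nice 1 P) (hg : Nice N g) {n : ℕ}
    (hn : n < N) : qc N (P * g) n = qc 1 P 0 * qc N g n := by
  refine qc_mul_of_one hN hP hg n fun i l hil hi hd => ?_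
  exact absurd (Nat.le_of_dvd hi hd) (by omega)

theorem qc_mul_of_one_le (hN : 0 < N) {P : ℍ → ℂ} (hP : Nice 1 P) (hg : Nice N g)
    (h0 : qc N g 0 = 0) {n : ℕ} (hn : n ≤ N) : qc N (P * g) n = qc 1 P 0 * qc N g n := by
  refine qc_mul_of_one hN hP hg n fun i l hil hi hd => ?_
  have := Nat.le_of_dvd hi hd
  have hl : l = 0 := by omega
  rw [hl, h0]

/-! ### The shift `z ↦ z + 1` -/

/-- `g (z + 1)`. -/
def shift (g : ℍ → ℂ) : ℍ → ℂ := fun z => g ((1 : ℝ) +ᵥ z)

theorem ofComplex_add_one {w : ℂ} (hw : 0 < w.im) :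
    ofComplex (w + 1) = (1 : ℝ) +ᵥ ofComplex w := by
  have hw1 : 0 < (w + 1).im := by simpa using hw
  apply UpperHalfPlane.ext
  rw [ofComplex_apply_of_im_pos hw1, coe_vadd, ofComplex_apply_of_im_pos hw]
  simp [add_comm]

theorem shift_comp_ofComplex {w : ℂ} (hw : 0 < w.im) :
    (shift g ∘ ofComplex) w = (g ∘ ofComplex) (w + 1) := by
  simp only [comp_apply, shift]
  rw [ofComplex_add_one hw]

theorem Nice.shift (hg : Nice N g) : Nice N (shift g) where
  hol := by
    rw [UpperHalfPlane.mdifferentiable_iff]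
    have h1 := UpperHalfPlane.mdifferentiable_iff.mp hg.hol
    have h2 : DifferentiableOn ℂ ((g ∘ ofComplex) ∘ fun w : ℂ => w + 1) {z | 0 < z.im} := by
      refine DifferentiableOn.comp (t := {z | 0 < z.im}) h1 ?_ ?_
      · exact (differentiable_id.add_const 1).differentiableOn
      · intro w hw
        simpa using hw
    exact h2.congr fun w hw => shift_comp_ofComplex hw
  bdd := by
    have h1 := hg.bdd
    rw [UpperHalfPlane.isBoundedAtImInfty_iff] at h1 ⊢
    obtain ⟨M, A, h⟩ := h1
    refine ⟨M, A, fun z hz => ?_⟩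
    apply h
    simpa [shift] using hz
  per := by
    intro w
    by_cases hw : 0 < w.im
    · have hw' : 0 < (w + ((N : ℝ) : ℂ)).im := by simpa using hw
      rw [shift_comp_ofComplex hw', shift_comp_ofComplex hw]
      have := hg.per (w + 1)
      rw [← this]
      congr 1
      ring
    · have hw' : ¬ 0 < (w + ((N : ℝ) : ℂ)).im := by simpa using hw
      simp only [comp_apply]
      rw [ofComplex_apply_of_im_nonpos (not_lt.mp hw'), ofComplex_apply_of_im_nonpos (not_lt.mp hw)]

theorem qParam_one_vadd (hN : 0 < N) (z : ℍ) :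
    Periodic.qParam (N : ℝ) (((1 : ℝ) +ᵥ z : ℍ) : ℂ) =
      Complex.exp (2 * π * Complex.I / N) * Periodic.qParam (N : ℝ) z := by
  have hN' : (N : ℂ) ≠ 0 := by exact_mod_cast hN.ne'
  rw [Periodic.qParam, Periodic.qParam, ← Complex.exp_add]
  congr 1
  simp only [coe_vadd, Complex.ofReal_one, Complex.ofReal_natCast]
  field_simp

/-- The `T`-twist: the coefficients of `g (z + 1)`. -/
theorem qc_shift (hN : 0 < N) (hg : Nice N g) (n : ℕ) :
    qc N (shift g) n = Complex.exp (2 * π * Complex.I / N) ^ n * qc N g n := by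
  symm
  refine hg.shift.qc_unique hN (c := fun n => Complex.exp (2 * π * Complex.I / N) ^ n * qc N g n)
    (fun z => ?_) n
  have h1 := hg.hasSum hN ((1 : ℝ) +ᵥ z)
  have h2 : (fun n : ℕ => qc N g n * Periodic.qParam (N : ℝ) (((1 : ℝ) +ᵥ z : ℍ) : ℂ) ^ n) =
      fun n : ℕ => Complex.exp (2 * π * Complex.I / N) ^ n * qc N g n *
        Periodic.qParam (N : ℝ) z ^ n := by
    funext m
    rw [qParam_one_vadd hN, mul_pow]
    ring
  rw [h2] at h1
  exact h1

/-! ### Decay from vanishing coefficients -/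

theorem Nice.isBigO_of_qc_eq_zero (hN : 0 < N) (hg : Nice N g) (m : ℕ)
    (h : ∀ n < m, qc N g n = 0) :
    g =O[atImInfty] fun z : ℍ ↦ ‖Periodic.qParam (N : ℝ) z‖ ^ m := by
  have hN' : (0 : ℝ) < N := by exact_mod_cast hN
  have hps : HasFPowerSeriesAt (cuspFunction (N : ℝ) g)
      (FormalMultilinearSeries.ofScalars ℂ (qc N g)) 0 :=
    (hasFPowerSeriesOnBall_cuspFunction hN' (hg.analytic hN) (c := qc N g) (fun z ↦ by
        have h0 := hg.hasSum hN z
        simp only [smul_eq_mul]
        exact h0)).hasFPowerSeriesAt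
  have hO := hps.isBigO_sub_partialSum_pow m
  have hpart : ∀ y : ℂ, (FormalMultilinearSeries.ofScalars ℂ (qc N g)).partialSum m y = 0 := by
    intro y
    rw [FormalMultilinearSeries.partialSum]
    refine Finset.sum_eq_zero fun i hi ↦ ?_
    rw [FormalMultilinearSeries.ofScalars_apply_eq, h i (Finset.mem_range.mp hi), zero_smul]
  simp only [hpart, sub_zero, zero_add] at hO
  have hO' := hO.comp_tendsto (qParam_tendsto_atImInfty hN')
  refine (IsBigO.congr' hO' ?_ ?_)
  · filter_upwards with z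
    simp only [comp_apply]
    exact eq_cuspFunction z hN'.ne' hg.per
  · filter_upwards with z
    rfl

theorem norm_qParam_pow (hN : 0 < N) (z : ℍ) :
    ‖Periodic.qParam (N : ℝ) z‖ ^ N = Real.exp (-2 * π * z.im) := by
  have hN' : (N : ℝ) ≠ 0 := by exact_mod_cast hN.ne'
  rw [Periodic.norm_qParam, ← Real.exp_nat_mul]
  congr 1
  simp only [coe_im]
  field_simp

/-! ### The derivative `D = (2πi)⁻¹ d/dz` -/

open Derivative in
theorem Nice.D (hg : Nice N g) : Nice N (D g) where
  hol := normalizedDerivOfComplex_mdifferentiable hg.hol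
  bdd := helper1760.isBoundedAtImInfty_D hg.hol hg.bdd
  per := by
    intro w
    by_cases hw : 0 < w.im
    · have hw' : 0 < (w + ((N : ℝ) : ℂ)).im := by simpa using hw
      simp only [comp_apply, normalizedDerivOfComplex, ofComplex_apply_of_im_pos hw',
        ofComplex_apply_of_im_pos hw]
      congr 1
      have hper : (fun x => (g ∘ ofComplex) (x + ((N : ℝ) : ℂ))) = g ∘ ofComplex := funext hg.per
      have h1 := deriv_comp_add_const (g ∘ ofComplex) ((N : ℝ) : ℂ) w
      rw [hper] at h1
      exact h1.symm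
    · have hw' : ¬ 0 < (w + ((N : ℝ) : ℂ)).im := by simpa using hw
      simp only [comp_apply]
      rw [ofComplex_apply_of_im_nonpos (not_lt.mp hw'), ofComplex_apply_of_im_nonpos (not_lt.mp hw)]

theorem hasDerivAt_qParam (N : ℕ) (w : ℂ) :
    HasDerivAt (Periodic.qParam (N : ℝ))
      (Periodic.qParam (N : ℝ) w * (2 * π * Complex.I / N)) w := by
  have h1 : HasDerivAt (fun z : ℂ => 2 * π * Complex.I * z / ((N : ℝ) : ℂ))
      (2 * π * Complex.I / N) w := by
    have := ((hasDerivAt_id w).const_mul (2 * π * Complex.I)).div_const (((N : ℝ) : ℂ))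
    simpa using this
  exact h1.cexp

open Derivative in
/-- The coefficients of the derivative. -/
theorem qc_D (hN : 0 < N) (hg : Nice N g) (n : ℕ) :
    qc N (D g) n = (n : ℂ) / N * qc N g n := by
  have hN' : (0 : ℝ) < N := by exact_mod_cast hN
  have hNc : (N : ℂ) ≠ 0 := by exact_mod_cast hN.ne'
  set G := cuspFunction (N : ℝ) g with hG
  set G₁ := cuspFunction (N : ℝ) (D g) with hG₁
  have hGan : AnalyticAt ℂ G 0 := hg.analytic hN
  have hG₁an : AnalyticAt ℂ G₁ 0 := hg.D.analytic hN
  have hcomp : (g ∘ ofComplex) = fun w => G (Periodic.qParam (N : ℝ) w) :=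
    funext fun w => (Periodic.eq_cuspFunction hN'.ne' hg.per w).symm
  -- the cusp function of `D g` on the punctured disc
  have hA : ∀ q : ℂ, q ≠ 0 → ‖q‖ < 1 → G₁ q = q * ((N : ℂ)⁻¹ * deriv G q) := by
    intro q hq0 hq1
    set w := Periodic.invQParam (N : ℝ) q with hw
    have hwim : 0 < w.im := Periodic.im_invQParam_pos_of_norm_lt_one hN' hq1 hq0
    have hqw : Periodic.qParam (N : ℝ) w = q := Periodic.qParam_right_inv hN'.ne' hq0
    have h1 : G₁ q = D g ⟨w, hwim⟩ := by
      have := eq_cuspFunction (⟨w, hwim⟩ : ℍ) hN'.ne' hg.D.per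
      rw [← this, hG₁]
      congr 1
      exact hqw.symm
    have hGd : DifferentiableAt ℂ G q :=
      differentiableAt_cuspFunction hN' hg.per hg.hol hg.bdd hq1
    have h3 : deriv (g ∘ ofComplex) w = deriv G q * (q * (2 * π * Complex.I / N)) := by
      rw [hcomp]
      have hd : HasDerivAt G (deriv G q) (Periodic.qParam (N : ℝ) w) := by
        rw [hqw]; exact hGd.hasDerivAt
      have := (hd.comp w (hasDerivAt_qParam N w)).deriv
      rw [hqw] at this
      exact this
    rw [h1, normalizedDerivOfComplex]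
    have hcoe : ((⟨w, hwim⟩ : ℍ) : ℂ) = w := rfl
    rw [hcoe, h3]
    have hpi : (2 * (π : ℂ) * Complex.I) ≠ 0 := by simp [Real.pi_ne_zero]
    field_simp
  -- extend to a neighbourhood of `0`
  have hHcont : ContinuousAt (fun q : ℂ => q * ((N : ℂ)⁻¹ * deriv G q)) 0 :=
    continuousAt_id.mul (continuousAt_const.mul hGan.deriv.continuousAt)
  have hev : G₁ =ᶠ[𝓝 0] fun q : ℂ => q * ((N : ℂ)⁻¹ * deriv G q) := by
    refine (hG₁an.continuousAt.eventuallyEq_nhds_iff_eventuallyEq_nhdsNE hHcont).mp ?_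
    have hball : Metric.ball (0 : ℂ) 1 ∈ 𝓝[≠] (0 : ℂ) :=
      mem_nhdsWithin_of_mem_nhds (Metric.ball_mem_nhds 0 one_pos)
    filter_upwards [hball, self_mem_nhdsWithin] with q hq hq0
    exact hA q hq0 (by simpa using hq)
  -- compare Taylor coefficients
  have hiter : iteratedDeriv n G₁ 0 = (n : ℂ) / N * iteratedDeriv n G 0 := by
    rw [hev.iteratedDeriv_eq n]
    have hmul := iteratedDeriv_fun_mul (n := n) (x := (0 : ℂ)) (f := fun q : ℂ => q)
      (g := fun q : ℂ => (N : ℂ)⁻¹ * deriv G q) contDiffAt_id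
      (contDiffAt_const.mul hGan.deriv.contDiffAt)
    rw [hmul]
    rcases Nat.eq_zero_or_pos n with h0 | hpos
    · subst h0
      simp
    · rw [Finset.sum_eq_single 1]
      · obtain ⟨m, rfl⟩ : ∃ m, n = m + 1 := ⟨n - 1, by omega⟩
        rw [iteratedDeriv_fun_id_zero, if_pos rfl, Nat.choose_one_right, Nat.add_sub_cancel,
          iteratedDeriv_const_mul_field, iteratedDeriv_succ']
        field_simp
      · intro i _ hi
        rw [iteratedDeriv_fun_id_zero, if_neg hi]
        simp
      · intro h1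
        exact absurd (Finset.mem_range.mpr (by omega)) h1
  simp only [qc, qExpansion_coeff]
  rw [← hG, ← hG₁, hiter]
  ring

end

end Fermat.Agent.S20.helper2240
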