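/-
S20-SUMK (board 322), part 2: translates of modular forms at the cusps, in the conventions of
`helper560_Defs` (`MFG`, `CFG`, `tr`, `Q`, `GoodLevel`).  Author: helper2240.
-/
import Mathlib
import Fermat.Agent.S20.helper560_Defs
import Fermat.Agent.S20.helper2240_QCoeff
import Fermat.Agent.S20.helper687_CuspTrace

set_option autoImplicit false
set_option linter.unusedSectionVars false

open UpperHalfPlane ModularForm Function Filter Asymptotics
open scoped MatrixGroups Manifold Pointwise Real Topology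
open Fermat.Agent.S20.helper560

namespace Fermat.Agent.S20.helper2240

noncomputable section

local notation "Δ" => ModularForm.discriminant

variable {𝒢 : Subgroup (GL (Fin 2) ℝ)} [𝒢.IsArithmetic] [𝒢.HasDetOne] {N : ℕ} {k : ℤ}

/-! ### Basic facts on translates -/

/-- Every translate is the slash by an element of `SL(2,ℤ)`. -/
theorem exists_tr_eq (𝒢 : Subgroup (GL (Fin 2) ℝ)) (q : Q 𝒢) :
    ∃ γ : SL(2, ℤ), ∀ (k : ℤ) (f : ℍ → ℂ), tr 𝒢 k f q = f ∣[k] γ := by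
  obtain ⟨γ, hγ⟩ := ((q.out : 𝒮ℒ)⁻¹).2
  refine ⟨γ, fun k f => ?_⟩
  have h : ((q.out : 𝒮ℒ) : GL (Fin 2) ℝ)⁻¹ = Matrix.SpecialLinearGroup.mapGL ℝ γ := by
    rw [hγ]; rfl
  unfold tr
  rw [h]
  rfl

theorem tr_add (q : Q 𝒢) (f f' : ℍ → ℂ) : tr 𝒢 k (f + f') q = tr 𝒢 k f q + tr 𝒢 k f' q := by
  unfold tr
  exact SlashAction.add_slash _ _ _ _

theorem tr_sum {ι : Type*} (s : Finset ι) (q : Q 𝒢) (f : ι → ℍ → ℂ) :
    tr 𝒢 k (∑ i ∈ s, f i) q = ∑ i ∈ s, tr 𝒢 k (f i) q := by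
  unfold tr
  exact SlashAction.sum_slash _ _

theorem tr_smul (q : Q 𝒢) (c : ℂ) (f : ℍ → ℂ) : tr 𝒢 k (c • f) q = c • tr 𝒢 k f q := by
  obtain ⟨γ, hγ⟩ := exists_tr_eq 𝒢 q
  rw [hγ, hγ]
  exact SL_smul_slash k γ f c

/-- Level one forms are invariant under all of `SL(2,ℤ)`. -/
theorem RR_slash {a : ℤ} {P : ℍ → ℂ} (hP : P ∈ RR a) (γ : SL(2, ℤ)) : P ∣[a] γ = P := by
  obtain ⟨Pm, rfl⟩ := hP
  exact SlashInvariantForm.slash_action_eqn Pm _ ⟨γ, rfl⟩

theorem tr_mul {a b : ℤ} {P : ℍ → ℂ} (hP : P ∈ RR a) (f : ℍ → ℂ) (hk : k = a + b) (q : Q 𝒢) :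
    tr 𝒢 k (P * f) q = P * tr 𝒢 b f q := by
  obtain ⟨γ, hγ⟩ := exists_tr_eq 𝒢 q
  subst hk
  rw [hγ, hγ, mul_slash_SL2, RR_slash hP]

/-- A translate of a `𝒢`-invariant form is the slash by the inverse of any representative. -/
theorem tr_mk {f : ℍ → ℂ} (hf : f ∈ MFG 𝒢 k) (γ : SL(2, ℤ)) :
    tr 𝒢 k f (QuotientGroup.mk (sl γ⁻¹)) = f ∣[k] γ := by
  obtain ⟨F, rfl⟩ := hf
  rw [tr_eq_quotientFunc]
  change SlashInvariantForm.quotientFunc F ⟦sl γ⁻¹⟧ = _
  rw [SlashInvariantForm.quotientFunc_mk]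
  have : ((sl γ⁻¹ : 𝒮ℒ) : GL (Fin 2) ℝ)⁻¹ = Matrix.SpecialLinearGroup.mapGL ℝ γ := by
    simp [sl]
  rw [this]
  rfl

theorem slash_T_apply (g : ℍ → ℂ) (z : ℍ) : (g ∣[k] ModularGroup.T) z = g ((1 : ℝ) +ᵥ z) := by
  rw [SL_slash_apply, modular_T_smul]
  have h2 : denom (ModularGroup.T : SL(2, ℤ)) z = 1 := by
    rw [ModularGroup.denom_apply]
    simp [ModularGroup.T]
  rw [h2]
  simp

/-- The `T`-twist of translates. -/
theorem tr_T_smul {f : ℍ → ℂ} (hf : f ∈ MFG 𝒢 k) (q : Q 𝒢) :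
    tr 𝒢 k f ((sl ModularGroup.T)⁻¹ • q) = shift (tr 𝒢 k f q) := by
  obtain ⟨F, rfl⟩ := hf
  rw [tr_eq_quotientFunc, tr_eq_quotientFunc]
  have h := SlashInvariantForm.quotientFunc_smul F (sl ModularGroup.T).2 q
  have h' : (⟨((sl ModularGroup.T : 𝒮ℒ) : GL (Fin 2) ℝ), (sl ModularGroup.T).2⟩ : 𝒮ℒ) =
      sl ModularGroup.T := rfl
  rw [h'] at h
  rw [← h]
  funext z
  exact slash_T_apply (k := k) _ z

/-! ### Translates are holomorphic, bounded and `N`-periodic -/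

theorem nice_tr (hg : GoodLevel 𝒢 N) {f : ℍ → ℂ} (hf : f ∈ MFG 𝒢 k) (q : Q 𝒢) :
    Nice N (tr 𝒢 k f q) := by
  obtain ⟨F, rfl⟩ := hf
  obtain ⟨γ, hγ⟩ := exists_tr_eq 𝒢 q
  rw [hγ]
  refine ⟨?_, ?_, ?_⟩
  · exact (ModularFormClass.holo F).slash k _
  · exact ModularFormClass.bdd_at_infty_slash F γ
  · have hper := hg.per γ⁻¹
    rw [map_inv] at hper
    exact SlashInvariantFormClass.periodic_comp_ofComplex
      (ModularForm.translate F (Matrix.SpecialLinearGroup.mapGL ℝ γ)) hper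

theorem isZero_tr {f : ℍ → ℂ} (hf : f ∈ CFG 𝒢 k) (q : Q 𝒢) :
    IsZeroAtImInfty (tr 𝒢 k f q) := by
  obtain ⟨F, rfl⟩ := hf
  obtain ⟨γ, hγ⟩ := exists_tr_eq 𝒢 q
  rw [hγ]
  exact CuspFormClass.zero_at_infty_slash F γ

theorem CFG_le_MFG (k : ℤ) : CFG 𝒢 k ≤ MFG 𝒢 k := by
  rintro _ ⟨F, rfl⟩
  exact ⟨{ toSlashInvariantForm := F.toSlashInvariantForm
           holo' := F.holo'
           bdd_at_cusps' := fun hc g hg => (F.zero_at_cusps' hc g hg).isBoundedAtImInfty }, rfl⟩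

/-- The translation by an integer `m`, as the image of `T ^ m`. -/
theorem upperRightHom_intCast (m : ℤ) :
    Matrix.GeneralLinearGroup.upperRightHom (m : ℝ) =
      Matrix.SpecialLinearGroup.mapGL ℝ (ModularGroup.T ^ m) := by
  rw [Units.ext_iff, Matrix.SpecialLinearGroup.mapGL_coe_matrix,
    Matrix.SpecialLinearGroup.map_apply_coe]
  ext i j
  fin_cases i <;> fin_cases j <;> simp [ModularGroup.coe_T_zpow]

/-- `T ^ N` acts trivially on the cosets. -/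
theorem T_pow_smul (hg : GoodLevel 𝒢 N) (q : Q 𝒢) : (sl ModularGroup.T)⁻¹ ^ N • q = q := by
  induction q using QuotientGroup.induction_on with
  | H h =>
    obtain ⟨γ, hγ⟩ := h.2
    have hper := hg.per γ
    rw [Subgroup.mem_strictPeriods_iff, Subgroup.mem_pointwise_smul_iff_inv_smul_mem,
      ← ConjAct.toConjAct_inv, ConjAct.toConjAct_smul, inv_inv] at hper
    have hU : Matrix.GeneralLinearGroup.upperRightHom ((N : ℕ) : ℝ) =
        ((sl ModularGroup.T ^ N : 𝒮ℒ) : GL (Fin 2) ℝ) := by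
      have := upperRightHom_intCast (N : ℤ)
      simp only [Int.cast_natCast, zpow_natCast, map_pow] at this
      rw [this]
      rfl
    rw [hU, hγ] at hper
    rw [MulAction.Quotient.smul_mk, QuotientGroup.eq, Subgroup.mem_subgroupOf]
    have : (((((sl ModularGroup.T)⁻¹ ^ N • h)⁻¹ * h : 𝒮ℒ)) : GL (Fin 2) ℝ) =
        (h : GL (Fin 2) ℝ)⁻¹ * ((sl ModularGroup.T ^ N : 𝒮ℒ) : GL (Fin 2) ℝ) * h := by
      simp [smul_eq_mul, mul_inv_rev, mul_assoc]
    rw [this]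
    exact hper

/-! ### Level one forms -/

theorem nice_RR {a : ℤ} {P : ℍ → ℂ} (hP : P ∈ RR a) : Nice 1 P := by
  obtain ⟨Pm, rfl⟩ := hP
  refine ⟨Pm.holo', ?_, ?_⟩
  · have := ModularFormClass.bdd_at_infty_slash Pm (1 : SL(2, ℤ))
    simpa using this
  · have := SlashInvariantFormClass.periodic_comp_ofComplex Pm one_mem_strictPeriods_SL
    simpa using this

theorem RR_mul {a b : ℤ} {P P' : ℍ → ℂ} (hP : P ∈ RR a) (hP' : P' ∈ RR b) :
    P * P' ∈ RR (a + b) := by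
  obtain ⟨Pm, rfl⟩ := hP
  obtain ⟨Pm', rfl⟩ := hP'
  exact ⟨Pm.mul Pm', rfl⟩

theorem one_mem_RR : (1 : ℍ → ℂ) ∈ RR 0 := ⟨1, rfl⟩

theorem disc_mem_RR : (Δ : ℍ → ℂ) ∈ RR 12 :=
  CFG_le_MFG (𝒢 := 𝒮ℒ) 12 ⟨CuspForm.discriminant, rfl⟩

theorem disc_isZero : IsZeroAtImInfty (Δ : ℍ → ℂ) := by
  have := CuspFormClass.zero_at_infty_slash CuspForm.discriminant (1 : SL(2, ℤ))
  simpa using this

theorem qc_disc : qc 1 (Δ : ℍ → ℂ) 0 = 0 :=
  (nice_RR disc_mem_RR).qc_zero_of_isZero one_pos disc_isZero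

theorem disc_slash (γ : SL(2, ℤ)) : (Δ : ℍ → ℂ) ∣[(12 : ℤ)] γ = Δ := RR_slash disc_mem_RR γ

theorem RR_two_eq_zero {P : ℍ → ℂ} (hP : P ∈ RR 2) : P = 0 := by
  obtain ⟨Pm, rfl⟩ := hP
  have h := rank_zero_iff_forall_zero.mp ModularForm.levelOne_weight_two_rank_zero Pm
  rw [h]
  rfl

/-- A level one form of weight `w ≥ 4` (even) with constant term `1`. -/
theorem exists_RR_one {w : ℤ} (h4 : 4 ≤ w) (hev : Even w) : ∃ A ∈ RR w, qc 1 A 0 = 1 := by
  obtain ⟨n, rfl⟩ : ∃ n : ℕ, w = (n : ℤ) := ⟨w.toNat, by omega⟩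
  have hn3 : 3 ≤ n := by omega
  have hnev : Even n := by exact_mod_cast hev
  refine ⟨⇑(E hn3), ⟨E hn3, rfl⟩, ?_⟩
  have := EisensteinSeries.E_qExpansion_coeff_zero hn3 hnev
  simpa [qc] using this

/-- `E₂` is holomorphic, bounded and `1`-periodic, with constant term `1`. -/
theorem hasSum_E2 (z : ℍ) :
    HasSum (fun m : ℕ => (if m = 0 then 1 else -24 * (ArithmeticFunction.sigma 1 m : ℂ)) *
      Periodic.qParam ((1 : ℕ) : ℝ) z ^ m) (EisensteinSeries.E2 z) := by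
  have := EisensteinSeries.hasSum_qExpansion_E2 z
  simpa [Periodic.qParam] using this

theorem nice_E2 : Nice 1 EisensteinSeries.E2 := by
  have hT : ∀ z : ℍ, EisensteinSeries.E2 ((1 : ℝ) +ᵥ z) = EisensteinSeries.E2 z := by
    intro z
    refine (hasSum_E2 _).unique ?_
    have h := hasSum_E2 z
    have hq : Periodic.qParam ((1 : ℕ) : ℝ) (((1 : ℝ) +ᵥ z : ℍ) : ℂ) =
        Periodic.qParam ((1 : ℕ) : ℝ) z := by
      have := qParam_one_vadd (N := 1) one_pos z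
      simpa using this
    rw [hq]
    exact h
  refine ⟨E2_mdifferentiable, EisensteinSeries.isBoundedAtImInfty_E2, ?_⟩
  intro w
  by_cases hw : 0 < w.im
  · have hw' : 0 < (w + (((1 : ℕ) : ℝ) : ℂ)).im := by simpa using hw
    simp only [comp_apply]
    have h1 : ofComplex (w + (((1 : ℕ) : ℝ) : ℂ)) = (1 : ℝ) +ᵥ ofComplex w := by
      have := ofComplex_add_one hw
      simpa using this
    rw [h1, hT]
  · have hw' : ¬ 0 < (w + (((1 : ℕ) : ℝ) : ℂ)).im := by simpa using hw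
    simp only [comp_apply]
    rw [ofComplex_apply_of_im_nonpos (not_lt.mp hw'), ofComplex_apply_of_im_nonpos (not_lt.mp hw)]

theorem qc_E2 : qc 1 EisensteinSeries.E2 0 = 1 := by
  have := nice_E2.qc_unique one_pos (c := fun m : ℕ =>
    if m = 0 then (1 : ℂ) else -24 * (ArithmeticFunction.sigma 1 m : ℂ)) hasSum_E2 0
  simpa using this.symm

/-! ### Module structure over level one forms -/

theorem mem_MFG_mul (hg : GoodLevel 𝒢 N) {a b : ℤ} {P f : ℍ → ℂ} (hP : P ∈ RR a)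
    (hf : f ∈ MFG 𝒢 b) : P * f ∈ MFG 𝒢 (a + b) := by
  obtain ⟨F, rfl⟩ := hf
  have hP' := hP
  obtain ⟨Pm, rfl⟩ := hP
  refine ⟨{ toFun := ⇑Pm * ⇑F
            slash_action_eq' := ?_
            holo' := Pm.holo'.mul F.holo'
            bdd_at_cusps' := ?_ }, rfl⟩
  · intro γ hγ
    obtain ⟨γ', rfl⟩ := hg.le hγ
    change (⇑Pm * ⇑F) ∣[a + b] γ' = _
    rw [mul_slash_SL2, RR_slash hP']
    congr 1
    exact SlashInvariantForm.slash_action_eqn F _ hγ
  · intro c hc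
    rw [Subgroup.IsArithmetic.isCusp_iff_isCusp_SL2Z] at hc
    rw [OnePoint.isBoundedAt_iff_forall_SL2Z hc]
    intro γ _
    rw [mul_slash_SL2, RR_slash hP']
    exact (nice_RR hP').bdd.mul (ModularFormClass.bdd_at_infty_slash F γ)

theorem mem_CFG_mul (hg : GoodLevel 𝒢 N) {a b : ℤ} {P f : ℍ → ℂ} (hP : P ∈ RR a)
    (hf : f ∈ CFG 𝒢 b) : P * f ∈ CFG 𝒢 (a + b) := by
  obtain ⟨F, rfl⟩ := hf
  have hP' := hP
  obtain ⟨Pm, rfl⟩ := hP
  refine ⟨{ toFun := ⇑Pm * ⇑F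
            slash_action_eq' := ?_
            holo' := Pm.holo'.mul F.holo'
            zero_at_cusps' := ?_ }, rfl⟩
  · intro γ hγ
    obtain ⟨γ', rfl⟩ := hg.le hγ
    change (⇑Pm * ⇑F) ∣[a + b] γ' = _
    rw [mul_slash_SL2, RR_slash hP']
    congr 1
    exact SlashInvariantForm.slash_action_eqn F _ hγ
  · intro c hc
    rw [Subgroup.IsArithmetic.isCusp_iff_isCusp_SL2Z] at hc
    rw [OnePoint.isZeroAt_iff_forall_SL2Z hc]
    intro γ _
    rw [mul_slash_SL2, RR_slash hP']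
    exact (nice_RR hP').bdd.mul_zeroAtFilter (CuspFormClass.zero_at_infty_slash F γ)

theorem MFG_odd (hg : GoodLevel 𝒢 N) (hk : Odd k) {f : ℍ → ℂ} (hf : f ∈ MFG 𝒢 k) : f = 0 := by
  obtain ⟨F, rfl⟩ := hf
  rw [ModularForm.eq_zero_of_neg_one_mem hg.neg hk F]
  rfl

/-! ### Division by the discriminant -/

theorem div_disc_slash (f : ℍ → ℂ) (γ : SL(2, ℤ)) :
    (f / Δ) ∣[k - 12] γ = (f ∣[k] γ) / Δ := by
  rw [div_slash_SL2, disc_slash]

theorem exists_disc_mul (hg : GoodLevel 𝒢 N) {f : ℍ → ℂ} (hf : f ∈ MFG 𝒢 k)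
    (h : ∀ q n, n < N → qc N (tr 𝒢 k f q) n = 0) : ∃ h' ∈ MFG 𝒢 (k - 12), f = Δ * h' := by
  have hf' := hf
  obtain ⟨F, rfl⟩ := hf
  refine ⟨⇑F / Δ, ⟨{ toFun := ⇑F / Δ
                     slash_action_eq' := ?_
                     holo' := ?_
                     bdd_at_cusps' := ?_ }, rfl⟩, ?_⟩
  · intro γ hγ
    obtain ⟨γ', rfl⟩ := hg.le hγ
    change (⇑F / Δ) ∣[k - 12] γ' = _
    rw [div_disc_slash]
    congr 1
    exact SlashInvariantForm.slash_action_eqn F _ hγ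
  · exact (ModularFormClass.holo F).div CuspForm.discriminant.holo' discriminant_ne_zero
  · intro c hc
    rw [Subgroup.IsArithmetic.isCusp_iff_isCusp_SL2Z] at hc
    rw [OnePoint.isBoundedAt_iff_forall_SL2Z hc]
    intro γ _
    rw [div_disc_slash, ← tr_mk hf' γ]
    have h1 := (nice_tr hg hf' (QuotientGroup.mk (sl γ⁻¹))).isBigO_of_qc_eq_zero hg.pos N
      (h (QuotientGroup.mk (sl γ⁻¹)))
    have h2 : (tr 𝒢 k ⇑F (QuotientGroup.mk (sl γ⁻¹))) =O[atImInfty] Δ := by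
      refine h1.trans ?_
      simp_rw [norm_qParam_pow hg.pos]
      exact exp_isBigO_discriminant
    exact (div_isBoundedUnder_of_isBigO h2).isBigO_one ℝ
  · funext z
    simp only [Pi.mul_apply, Pi.div_apply]
    field_simp [discriminant_ne_zero z]

theorem exists_disc_mul_cusp (hg : GoodLevel 𝒢 N) {f : ℍ → ℂ} (hf : f ∈ MFG 𝒢 k)
    (h : ∀ q n, n < N + 1 → qc N (tr 𝒢 k f q) n = 0) : ∃ h' ∈ CFG 𝒢 (k - 12), f = Δ * h' := by
  have hf' := hf
  have hN : (0 : ℝ) < N := by exact_mod_cast hg.pos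
  obtain ⟨F, rfl⟩ := hf
  refine ⟨⇑F / Δ, ⟨{ toFun := ⇑F / Δ
                     slash_action_eq' := ?_
                     holo' := ?_
                     zero_at_cusps' := ?_ }, rfl⟩, ?_⟩
  · intro γ hγ
    obtain ⟨γ', rfl⟩ := hg.le hγ
    change (⇑F / Δ) ∣[k - 12] γ' = _
    rw [div_disc_slash]
    congr 1
    exact SlashInvariantForm.slash_action_eqn F _ hγ
  · exact (ModularFormClass.holo F).div CuspForm.discriminant.holo' discriminant_ne_zero
  · intro c hc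
    rw [Subgroup.IsArithmetic.isCusp_iff_isCusp_SL2Z] at hc
    rw [OnePoint.isZeroAt_iff_forall_SL2Z hc]
    intro γ _
    rw [div_disc_slash, ← tr_mk hf' γ]
    have h1 := (nice_tr hg hf' (QuotientGroup.mk (sl γ⁻¹))).isBigO_of_qc_eq_zero hg.pos (N + 1)
      (h (QuotientGroup.mk (sl γ⁻¹)))
    have h3 : (fun z : ℍ ↦ ‖Periodic.qParam (N : ℝ) z‖ ^ N) =O[atImInfty] Δ := by
      simp_rw [norm_qParam_pow hg.pos]
      exact exp_isBigO_discriminant
    have h4 : (fun z : ℍ ↦ (Δ z)⁻¹) =O[atImInfty]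
        fun z : ℍ ↦ (‖Periodic.qParam (N : ℝ) z‖ ^ N)⁻¹ := by
      refine h3.inv_rev (Eventually.of_forall fun z hz ↦ ?_)
      exact absurd hz (pow_ne_zero _ (norm_ne_zero_iff.mpr (Periodic.qParam_ne_zero _)))
    have h5 := h1.mul h4
    have h6 : (tr 𝒢 k ⇑F (QuotientGroup.mk (sl γ⁻¹)) / Δ) =O[atImInfty]
        fun z : ℍ ↦ ‖Periodic.qParam (N : ℝ) z‖ := by
      refine h5.congr' (Eventually.of_forall fun z ↦ by simp [div_eq_mul_inv])
        (Eventually.of_forall fun z ↦ ?_)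
      have hne : ‖Periodic.qParam (N : ℝ) (z : ℂ)‖ ≠ 0 :=
        norm_ne_zero_iff.mpr (Periodic.qParam_ne_zero _)
      simp only
      rw [pow_succ]
      field_simp
    refine h6.trans_tendsto ?_
    exact tendsto_zero_iff_norm_tendsto_zero.mp (qParam_tendsto_atImInfty hN)
  · funext z
    simp only [Pi.mul_apply, Pi.div_apply]
    field_simp [discriminant_ne_zero z]

/-! ### The generic cusp analysis of a free basis -/

/-- Cusp data for a graded family `V` of forms on `𝒢`: `e n` (`n < N`) are the exponents of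
the `q_N`-expansion that are recorded. -/
structure CuspMode (𝒢 : Subgroup (GL (Fin 2) ℝ)) [𝒢.IsArithmetic] [𝒢.HasDetOne] (N : ℕ)
    (V : ℤ → Submodule ℂ (ℍ → ℂ)) (e : ℕ → ℕ) : Prop where
  le : ∀ k, V k ≤ MFG 𝒢 k
  mul : ∀ (a b : ℤ) (P f : ℍ → ℂ), P ∈ RR a → f ∈ V b → P * f ∈ V (a + b)
  serre : ∀ (k : ℤ) (f : ℍ → ℂ), f ∈ V k → Derivative.serreDerivative (k : ℂ) f ∈ V (k + 2)
  coeff : ∀ (k : ℤ) (f : ℍ → ℂ), f ∈ V k → ∀ (q : Q 𝒢) (P : ℍ → ℂ), Nice 1 P → ∀ n, n < N →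
    qc N (P * tr 𝒢 k f q) (e n) = qc 1 P 0 * qc N (tr 𝒢 k f q) (e n)
  div : ∀ (k : ℤ) (f : ℍ → ℂ), f ∈ V k → (∀ q n, n < N → qc N (tr 𝒢 k f q) (e n) = 0) →
    ∃ h ∈ V (k - 12), f = Δ * h

theorem basis_ne_zero {V : ℤ → Submodule ℂ (ℍ → ℂ)} {J : Type} [Fintype J] {κ : J → ℤ}
    {F : J → ℍ → ℂ} (hF : IsFreeBasis V κ F) (j : J) : F j ≠ 0 := by
  classical
  intro h0
  have hu := hF.2 (κ j) 0 (Submodule.zero_mem _)
  have h1 : (∀ i, (0 : J → ℍ → ℂ) i ∈ RR (κ j - κ i)) ∧ (0 : ℍ → ℂ) = ∑ i, (0 : J → ℍ → ℂ) i * F i :=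
    ⟨fun i => Submodule.zero_mem _, by simp⟩
  have h2 : (∀ i, (Pi.single j (1 : ℍ → ℂ) : J → ℍ → ℂ) i ∈ RR (κ j - κ i)) ∧
      (0 : ℍ → ℂ) = ∑ i, (Pi.single j (1 : ℍ → ℂ) : J → ℍ → ℂ) i * F i := by
    constructor
    · intro i
      by_cases hij : i = j
      · subst hij
        rw [Pi.single_eq_same, sub_self]
        exact one_mem_RR
      · rw [Pi.single_eq_of_ne hij]
        exact Submodule.zero_mem _
    · rw [Finset.sum_eq_single j]
      · rw [h0, mul_zero]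
      · intro i _ hij
        rw [Pi.single_eq_of_ne hij, zero_mul]
      · intro hj
        exact absurd (Finset.mem_univ j) hj
  have h3 := congrFun (congrFun (hu.unique h1 h2) j) UpperHalfPlane.I
  simp at h3

theorem lead_inj (hg : GoodLevel 𝒢 N) {V : ℤ → Submodule ℂ (ℍ → ℂ)} {e : ℕ → ℕ}
    (hV : CuspMode 𝒢 N V e) {ζe : ℂ} (hζe : IsPrimitiveRoot ζe N)
    (hζ : ∀ n, n < N → Complex.exp (2 * π * Complex.I / N) ^ (e n) = ζe ^ n)
    {J : Type} [Fintype J] (κ : J → ℤ) (F : J → ℍ → ℂ) (hF : IsFreeBasis V κ F)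
    (c : J → ℂ)
    (hc : ∀ q, ∑ j, c j * ∑ n ∈ Finset.range N, qc N (tr 𝒢 (κ j) (F j) q) (e n) = 0) :
    c = 0 := by
  classical
  have hN := hg.pos
  have hNc : (N : ℂ) ≠ 0 := by exact_mod_cast hN.ne'
  -- parity of the weights
  have hev : ∀ j, Even (κ j) := by
    intro j
    rw [← Int.not_odd_iff_even]
    intro ho
    exact basis_ne_zero hF j (MFG_odd hg ho (hV.le _ (hF.1 j)))
  -- the common weight
  set K : ℤ := 2 * ∑ j, |κ j| + 4 with hK
  have hK4 : ∀ j, 4 ≤ K - κ j := by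
    intro j
    have h1 : |κ j| ≤ ∑ i, |κ i| :=
      Finset.single_le_sum (f := fun i => |κ i|) (fun i _ => abs_nonneg _) (Finset.mem_univ j)
    have h2 := le_abs_self (κ j)
    have h3 : 0 ≤ ∑ i, |κ i| := Finset.sum_nonneg fun i _ => abs_nonneg _
    rw [hK]
    linarith
  have hKev : ∀ j, Even (K - κ j) := by
    intro j
    refine Even.sub ?_ (hev j)
    rw [hK]
    exact Even.add (even_two_mul _) (by decide)
  have hex : ∀ j, ∃ A ∈ RR (K - κ j), qc 1 A 0 = 1 := fun j => exists_RR_one (hK4 j) (hKev j)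
  choose A hA hA1 using hex
  -- the homogenised combination
  set Gf : ℍ → ℂ := ∑ j, (c j • A j) * F j with hGf
  have hmem : ∀ j, (c j • A j) * F j ∈ V K := by
    intro j
    have h1 := hV.mul (K - κ j) (κ j) (c j • A j) (F j) (Submodule.smul_mem _ _ (hA j)) (hF.1 j)
    have h2 : K - κ j + κ j = K := by ring
    rwa [h2] at h1
  have hGfmem : Gf ∈ V K := Submodule.sum_mem _ fun j _ => hmem j
  have hnice : ∀ j q, Nice N (tr 𝒢 (κ j) (F j) q) := fun j q => nice_tr hg (hV.le _ (hF.1 j)) q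
  have htr : ∀ q, tr 𝒢 K Gf q = ∑ j, (c j • A j) * tr 𝒢 (κ j) (F j) q := by
    intro q
    rw [hGf, tr_sum]
    refine Finset.sum_congr rfl fun j _ => ?_
    exact tr_mul (Submodule.smul_mem _ _ (hA j)) (F j) (by ring) q
  have hqc : ∀ q n, n < N → qc N (tr 𝒢 K Gf q) (e n) =
      ∑ j, c j * qc N (tr 𝒢 (κ j) (F j) q) (e n) := by
    intro q n hn
    rw [htr, qc_sum hN]
    · refine Finset.sum_congr rfl fun j _ => ?_
      rw [hV.coeff (κ j) (F j) (hF.1 j) q (c j • A j) ((nice_RR (hA j)).smul (c j)) n hn,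
        qc_smul one_pos (c j) (nice_RR (hA j)), hA1 j, mul_one]
    · intro j _
      exact ((nice_RR (hA j)).smul (c j)).of_one.mul (hnice j q)
  -- all leading sums of the combination vanish
  have hsum : ∀ q, ∑ n ∈ Finset.range N, qc N (tr 𝒢 K Gf q) (e n) = 0 := by
    intro q
    rw [← hc q]
    simp_rw [Finset.mul_sum]
    rw [Finset.sum_comm]
    exact Finset.sum_congr rfl fun n hn => hqc q n (Finset.mem_range.mp hn)
  -- Fourier inversion along the `T`-orbit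
  have htw : ∀ q n, n < N →
      qc N (tr 𝒢 K Gf ((sl ModularGroup.T)⁻¹ • q)) (e n) = ζe ^ n * qc N (tr 𝒢 K Gf q) (e n) := by
    intro q n hn
    rw [tr_T_smul (hV.le _ hGfmem), qc_shift hN (nice_tr hg (hV.le _ hGfmem) q), hζ n hn]
  have hzero : ∀ q n, n < N → qc N (tr 𝒢 K Gf q) (e n) = 0 := by
    intro q n hn
    have h1 := helper687.fourier_inversion (sl ModularGroup.T)⁻¹ N ζe hζe
      (fun q n => qc N (tr 𝒢 K Gf q) (e n)) htw q n hn
    simp only [hsum, mul_zero, Finset.sum_const_zero] at h1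
    exact (mul_eq_zero.mp h1).resolve_left hNc
  -- divide by the discriminant and expand
  obtain ⟨h, hh, hGfh⟩ := hV.div K Gf hGfmem hzero
  obtain ⟨P, hP, hPeq⟩ := (hF.2 (K - 12) h hh).exists
  have hu := hF.2 K Gf hGfmem
  have h1 : (∀ j, (fun j => c j • A j) j ∈ RR (K - κ j)) ∧
      Gf = ∑ j, (fun j => c j • A j) j * F j :=
    ⟨fun j => Submodule.smul_mem _ _ (hA j), rfl⟩
  have h2 : (∀ j, (fun j => Δ * P j) j ∈ RR (K - κ j)) ∧ Gf = ∑ j, (fun j => Δ * P j) j * F j := by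
    constructor
    · intro j
      have h3 := RR_mul disc_mem_RR (hP j)
      have h4 : (12 : ℤ) + (K - 12 - κ j) = K - κ j := by ring
      rwa [h4] at h3
    · rw [hGfh, hPeq, Finset.mul_sum]
      exact Finset.sum_congr rfl fun j _ => (mul_assoc _ _ _).symm
  have h3 := hu.unique h1 h2
  funext j
  have h4 : qc 1 (c j • A j) 0 = qc 1 (Δ * P j) 0 := by
    have := congrFun h3 j
    rw [this]
  rw [qc_smul one_pos (c j) (nice_RR (hA j)), hA1 j, mul_one,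
    qc_mul one_pos (nice_RR disc_mem_RR) (nice_RR (hP j))] at h4
  simp only [Finset.Nat.antidiagonal_zero, Finset.sum_singleton, qc_disc, zero_mul] at h4
  exact h4

open Derivative in
theorem deriv_rel (hg : GoodLevel 𝒢 N) {V : ℤ → Submodule ℂ (ℍ → ℂ)} {e : ℕ → ℕ}
    (hV : CuspMode 𝒢 N V e) {J : Type} [Fintype J] (κ : J → ℤ) (F : J → ℍ → ℂ)
    (hF : IsFreeBasis V κ F) :
    ∃ B : Matrix J J ℂ, (∀ j, B j j = 0) ∧ ∀ j q n, n < N →
      ((e n : ℂ) / N - (κ j : ℂ) / 12) * qc N (tr 𝒢 (κ j) (F j) q) (e n) =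
        ∑ i, B i j * qc N (tr 𝒢 (κ i) (F i) q) (e n) := by
  classical
  have hN := hg.pos
  have hex : ∀ j, ∃ A : J → ℍ → ℂ, (∀ i, A i ∈ RR (κ j + 2 - κ i)) ∧
      serreDerivative (κ j) (F j) = ∑ i, A i * F i :=
    fun j => (hF.2 _ _ (hV.serre _ _ (hF.1 j))).exists
  choose A hA hAeq using hex
  have hnice : ∀ j q, Nice N (tr 𝒢 (κ j) (F j) q) := fun j q => nice_tr hg (hV.le _ (hF.1 j)) q
  refine ⟨Matrix.of fun i j => qc 1 (A j i) 0, ?_, ?_⟩
  · intro j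
    have h1 := hA j j
    have h2 : κ j + 2 - κ j = 2 := by ring
    rw [h2] at h1
    simp only [Matrix.of_apply]
    rw [RR_two_eq_zero h1]
    exact qc_zero_fun 0
  · intro j q n hn
    simp only [Matrix.of_apply]
    -- the differential equation of the translate
    have hMD : MDiff (F j) := by
      obtain ⟨Fm, hFm⟩ := hV.le _ (hF.1 j)
      rw [← hFm]
      exact Fm.holo'
    have h1 : tr 𝒢 (κ j + 2) (serreDerivative (κ j) (F j)) q =
        serreDerivative (κ j) (tr 𝒢 (κ j) (F j) q) := by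
      obtain ⟨γ, hγ⟩ := exists_tr_eq 𝒢 q
      rw [hγ, hγ]
      exact serreDerivative_slash_equivariant hMD
    have h2 : tr 𝒢 (κ j + 2) (serreDerivative (κ j) (F j)) q =
        ∑ i, A j i * tr 𝒢 (κ i) (F i) q := by
      rw [hAeq j, tr_sum]
      refine Finset.sum_congr rfl fun i _ => ?_
      exact tr_mul (hA j i) (F i) (by ring) q
    have h3 : D (tr 𝒢 (κ j) (F j) q) =
        ((κ j : ℂ) * 12⁻¹) • (EisensteinSeries.E2 * tr 𝒢 (κ j) (F j) q) +
          ∑ i, A j i * tr 𝒢 (κ i) (F i) q := by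
      rw [← h2, h1]
      funext z
      simp only [Pi.add_apply, Pi.smul_apply, Pi.mul_apply, smul_eq_mul, serreDerivative_apply]
      ring
    have hniceA : ∀ i, Nice N (A j i * tr 𝒢 (κ i) (F i) q) :=
      fun i => (nice_RR (hA j i)).of_one.mul (hnice i q)
    have hniceE : Nice N (EisensteinSeries.E2 * tr 𝒢 (κ j) (F j) q) :=
      nice_E2.of_one.mul (hnice j q)
    have h4 : qc N (D (tr 𝒢 (κ j) (F j) q)) (e n) =
        qc N (((κ j : ℂ) * 12⁻¹) • (EisensteinSeries.E2 * tr 𝒢 (κ j) (F j) q) +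
          ∑ i, A j i * tr 𝒢 (κ i) (F i) q) (e n) := by rw [← h3]
    rw [qc_D hN (hnice j q), qc_add hN (hniceE.smul _) (Nice.sum _ _ fun i _ => hniceA i),
      qc_smul hN _ hniceE, qc_sum hN _ _ (fun i _ => hniceA i),
      hV.coeff (κ j) (F j) (hF.1 j) q _ nice_E2 n hn, qc_E2, one_mul] at h4
    have h5 : ∀ i, qc N (A j i * tr 𝒢 (κ i) (F i) q) (e n) =
        qc 1 (A j i) 0 * qc N (tr 𝒢 (κ i) (F i) q) (e n) :=
      fun i => hV.coeff (κ i) (F i) (hF.1 i) q _ (nice_RR (hA j i)) n hn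
    simp_rw [h5] at h4
    linear_combination h4

end

end Fermat.Agent.S20.helper2240
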