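/-
S20-SUMK (board 322), part 3: the sum of the weights of a free basis.
For a level `𝒢` with `GoodLevel 𝒢 N`:
* `sumK_M`: a free basis of `MFG 𝒢` indexed by the cosets has `∑ κ = 6 (μ - cusps)`;
* `sumK_S`: a free basis of `CFG 𝒢` indexed by the cosets has `∑ κ' = 6 (μ + cusps)`.
Author: helper2240.
-/
import Mathlib
import Fermat.Agent.S20.helper560_Defs
import Fermat.Agent.S20.helper1760_SerreD
import Fermat.Agent.S20.helper687_CuspTrace
import Fermat.Agent.S20.helper2240_Lead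

set_option autoImplicit false
set_option linter.unusedSectionVars false

open UpperHalfPlane ModularForm Function Filter Asymptotics
open scoped MatrixGroups Manifold Pointwise Real Topology
open Fermat.Agent.S20.helper560

namespace Fermat.Agent.S20.helper2240

noncomputable section

variable {𝒢 : Subgroup (GL (Fin 2) ℝ)} [𝒢.IsArithmetic] [𝒢.HasDetOne] {N : ℕ}

/-- The modular forms, with the exponents `0, …, N - 1`. -/
theorem cuspMode_M (hg : GoodLevel 𝒢 N) : CuspMode 𝒢 N (MFG 𝒢) (fun n => n) where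
  le := fun k => le_refl _
  mul := fun a b P f hP hf => mem_MFG_mul hg hP hf
  serre := by
    rintro k _ ⟨Fm, rfl⟩
    exact ⟨helper1760.serreDMF hg.le k Fm, rfl⟩
  coeff := fun k f hf q P hP n hn => qc_mul_of_one_lt hg.pos hP (nice_tr hg hf q) hn
  div := fun k f hf h => exists_disc_mul hg hf h

/-- The cusp forms, with the exponents `N, …, 1`. -/
theorem cuspMode_S (hg : GoodLevel 𝒢 N) : CuspMode 𝒢 N (CFG 𝒢) (fun n => N - n) where
  le := CFG_le_MFG
  mul := fun a b P f hP hf => mem_CFG_mul hg hP hf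
  serre := by
    rintro k _ ⟨Fm, rfl⟩
    exact ⟨helper1760.serreDCF hg.le k Fm, rfl⟩
  coeff := fun k f hf q P hP n hn =>
    qc_mul_of_one_le hg.pos hP (nice_tr hg (CFG_le_MFG k hf) q)
      ((nice_tr hg (CFG_le_MFG k hf) q).qc_zero_of_isZero hg.pos (isZero_tr hf q))
      (Nat.sub_le N n)
  div := by
    intro k f hf h
    refine exists_disc_mul_cusp hg (CFG_le_MFG k hf) fun q m hm => ?_
    rcases Nat.eq_zero_or_pos m with h0 | hpos
    · subst h0
      exact (nice_tr hg (CFG_le_MFG k hf) q).qc_zero_of_isZero hg.pos (isZero_tr hf q)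
    · have := h q (N - m) (by omega)
      have h2 : N - (N - m) = m := by omega
      rwa [h2] at this

/-- **Sum of the weights, modular forms.** -/
theorem sumK_M (hg : GoodLevel 𝒢 N) (κ : Q 𝒢 → ℤ) (F : Q 𝒢 → ℍ → ℂ)
    (hF : IsFreeBasis (MFG 𝒢) κ F) :
    ∑ j, κ j = 6 * ((mu 𝒢 : ℤ) - cusps 𝒢) := by
  classical
  have hN := hg.pos
  have hζ : IsPrimitiveRoot (Complex.exp (2 * π * Complex.I / N)) N :=
    Complex.isPrimitiveRoot_exp N hN.ne'
  obtain ⟨B, hB, hD⟩ := deriv_rel hg (cuspMode_M hg) κ F hF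
  have h := helper687.sum_int_weights_eq_of_injective (sl ModularGroup.T)⁻¹ N hN (T_pow_smul hg)
    _ hζ (fun j q n => qc N (tr 𝒢 (κ j) (F j) q) n)
    (fun j q n _ => by
      rw [tr_T_smul (hF.1 j), qc_shift hN (nice_tr hg (hF.1 j) q)])
    rfl
    (fun c hc => lead_inj hg (cuspMode_M hg) hζ (fun _ _ => rfl) κ F hF c hc)
    κ B hB hD
  rw [Subgroup.zpowers_inv, ← Nat.card_eq_fintype_card] at h
  exact h

/-- **Sum of the weights, cusp forms.** -/
theorem sumK_S (hg : GoodLevel 𝒢 N) (κ : Q 𝒢 → ℤ) (F : Q 𝒢 → ℍ → ℂ)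
    (hF : IsFreeBasis (CFG 𝒢) κ F) :
    ∑ j, κ j = 6 * ((mu 𝒢 : ℤ) + cusps 𝒢) := by
  classical
  have hN := hg.pos
  have hNc : (N : ℂ) ≠ 0 := by exact_mod_cast hN.ne'
  have hζ : IsPrimitiveRoot (Complex.exp (2 * π * Complex.I / N)) N :=
    Complex.isPrimitiveRoot_exp N hN.ne'
  have hζ' : IsPrimitiveRoot (Complex.exp (2 * π * Complex.I / N))⁻¹ N := hζ.inv
  have hpow : ∀ n, n < N →
      Complex.exp (2 * π * Complex.I / N) ^ (N - n) = (Complex.exp (2 * π * Complex.I / N))⁻¹ ^ n := by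
    intro n hn
    have h0 : Complex.exp (2 * π * Complex.I / N) ^ n ≠ 0 := pow_ne_zero _ (Complex.exp_ne_zero _)
    rw [inv_pow]
    refine eq_inv_of_mul_eq_one_left ?_
    rw [← pow_add, Nat.sub_add_cancel hn.le, hζ.pow_eq_one]
  obtain ⟨B, hB, hD⟩ := deriv_rel hg (cuspMode_S hg) κ F hF
  have h := helper687.sum_int_weights_eq_of_injective (sl ModularGroup.T)⁻¹ N hN (T_pow_smul hg)
    _ hζ' (fun j q n => qc N (tr 𝒢 (κ j) (F j) q) (N - n))
    (fun j q n hn => by
      rw [tr_T_smul (CFG_le_MFG _ (hF.1 j)), qc_shift hN (nice_tr hg (CFG_le_MFG _ (hF.1 j)) q),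
        hpow n hn])
    rfl
    (fun c hc => lead_inj hg (cuspMode_S hg) hζ' hpow κ F hF c hc)
    (fun j => 12 - κ j) (-B) (fun j => by simp [hB j])
    (fun j q n hn => by
      have h1 := hD j q n hn
      simp only [Matrix.neg_apply, neg_mul, Finset.sum_neg_distrib]
      rw [← h1]
      push_cast [Nat.cast_sub hn.le]
      field_simp
      ring)
  rw [Subgroup.zpowers_inv] at h
  rw [Finset.sum_sub_distrib, Finset.sum_const, Finset.card_univ, nsmul_eq_mul,
    ← Nat.card_eq_fintype_card] at h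
  have h2 : (mu 𝒢 : ℤ) * 12 - ∑ x, κ x = 6 * ((mu 𝒢 : ℤ) - cusps 𝒢) := h
  linarith

end

end Fermat.Agent.S20.helper2240
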