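/-
S20: `Goal_Seed` of `helper560_Spec` in its exact shape, as a bridge from
`helper200_Separation` (the form `z ↦ N ^ 3 * E₄ (N z)` of weight `4` on `Γ₀(N)` has
stabiliser exactly `Γ₀(N)` inside `SL(2, ℤ)`).  Author seat: helper2253.
-/
import Fermat.Agent.S20.helper560_Spec
import Fermat.Agent.S20.helper200_Separation

set_option autoImplicit false

open UpperHalfPlane ModularForm
open scoped MatrixGroups Manifold Pointwise

namespace Fermat.Agent.S20.helper2253

open Fermat.Agent.S20.helper560

/-- `Γ₀(N)` has a seed: the weight `4` form `sepForm N` of `helper200_Separation`. -/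
theorem seed_G0 (N : ℕ) [NeZero N] : Seed (G0 N) := by
  refine ⟨4, Fermat.Agent.S20.helper200.sepFun N, ⟨Fermat.Agent.S20.helper200.sepForm N, rfl⟩, ?_⟩
  intro γ hγ
  exact Subgroup.mem_map_of_mem _
    (Fermat.Agent.S20.helper200.mem_Gamma0_of_sepFun_slash_eq N γ hγ)

/-- `Goal_Seed` of `helper560_Spec`, unconditionally. -/
theorem goal_Seed : Goal_Seed := fun N _ => seed_G0 N

end Fermat.Agent.S20.helper2253
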