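import Fermat.Agent.S20.helper560_Spec
import Fermat.Agent.S24.helper227_CuspCount

/-!
# helper227: bridge between `SL(2, ℤ) ⧸ Γ₀(N)` and the coset space `Q (G0 N)` of the S20 Spec

`Q 𝒢 = 𝒮ℒ ⧸ 𝒢.subgroupOf 𝒮ℒ` (helper560's Spec, the quotient used by Mathlib's `quotientFunc`).
We give the equivariant bijection `cosetEquiv N : SL(2, ℤ) ⧸ Gamma0 N ≃ Q (G0 N)` and transfer
the four counts (index, fixed points of `S`, of `S * T`, orbits of `T`).

Main results: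
* `goal_Cusps : Goal_Cusps` (unconditional, from `S24.helper227.card_orbits_T`);
* `mu_eq_index`, `e2_eq`, `e3_eq`, `cusps_eq`: the Spec quantities as counts on
  `SL(2, ℤ) ⧸ Gamma0 N`;
* `goal_Index_of`, `goal_E2_of`, `goal_E3_of`: the remaining count goals from counts stated on
  `SL(2, ℤ) ⧸ Gamma0 N`.
-/

set_option autoImplicit false

open UpperHalfPlane ModularForm CongruenceSubgroup
open scoped MatrixGroups

namespace Fermat.Agent.S20.helper227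

open Fermat.Agent.S20.helper560

noncomputable section

/-- `SL(2, ℤ) ≃* 𝒮ℒ`, the corestriction of `mapGL ℝ`. -/
def slEquiv : SL(2, ℤ) ≃* 𝒮ℒ :=
  MonoidHom.ofInjective (f := (Matrix.SpecialLinearGroup.mapGL ℝ : SL(2, ℤ) →* GL (Fin 2) ℝ))
    Matrix.SpecialLinearGroup.mapGL_injective

theorem slEquiv_apply (γ : SL(2, ℤ)) : slEquiv γ = sl γ := rfl

theorem sl_mul (a b : SL(2, ℤ)) : sl (a * b) = sl a * sl b := by
  rw [← slEquiv_apply, ← slEquiv_apply, ← slEquiv_apply, map_mul]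

theorem sl_inv (a : SL(2, ℤ)) : sl a⁻¹ = (sl a)⁻¹ := by
  rw [← slEquiv_apply, ← slEquiv_apply, map_inv]

theorem sl_zpow (a : SL(2, ℤ)) (k : ℤ) : sl (a ^ k) = sl a ^ k := by
  rw [← slEquiv_apply, ← slEquiv_apply, map_zpow]

theorem sl_mem_iff (N : ℕ) (γ : SL(2, ℤ)) : sl γ ∈ (G0 N).subgroupOf 𝒮ℒ ↔ γ ∈ Gamma0 N := by
  rw [Subgroup.mem_subgroupOf]
  change Matrix.SpecialLinearGroup.mapGL ℝ γ ∈ (Gamma0 N).map _ ↔ _
  rw [Subgroup.mem_map]
  constructor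
  · rintro ⟨δ, hδ, h⟩
    rwa [← Matrix.SpecialLinearGroup.mapGL_injective h]
  · exact fun h => ⟨γ, h, rfl⟩

/-- The bijection `SL(2, ℤ) ⧸ Γ₀(N) ≃ 𝒮ℒ ⧸ Γ₀(N)` (the coset space of the S20 Spec). -/
def cosetEquiv (N : ℕ) : SL(2, ℤ) ⧸ Gamma0 N ≃ Q (G0 N) :=
  Quotient.congr slEquiv.toEquiv (by
    intro a b
    rw [QuotientGroup.leftRel_apply, QuotientGroup.leftRel_apply]
    change _ ↔ (sl a)⁻¹ * sl b ∈ _
    rw [← sl_inv, ← sl_mul, sl_mem_iff])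

theorem cosetEquiv_mk (N : ℕ) (γ : SL(2, ℤ)) :
    cosetEquiv N (γ : SL(2, ℤ) ⧸ Gamma0 N) = ((sl γ : 𝒮ℒ) : Q (G0 N)) := rfl

theorem cosetEquiv_smul (N : ℕ) (γ : SL(2, ℤ)) (x : SL(2, ℤ) ⧸ Gamma0 N) :
    cosetEquiv N (γ • x) = sl γ • cosetEquiv N x := by
  induction x using QuotientGroup.induction_on with
  | H g =>
    rw [MulAction.Quotient.smul_mk, cosetEquiv_mk, cosetEquiv_mk, MulAction.Quotient.smul_mk,
      smul_eq_mul, smul_eq_mul, sl_mul]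

theorem mu_eq_card (N : ℕ) : mu (G0 N) = Nat.card (SL(2, ℤ) ⧸ Gamma0 N) :=
  (Nat.card_congr (cosetEquiv N)).symm

theorem mu_eq_index (N : ℕ) : mu (G0 N) = (Gamma0 N).index :=
  mu_eq_card N

/-- fixed points of `sl γ` on `Q (G0 N)` vs fixed points of `γ` on `SL(2, ℤ) ⧸ Γ₀(N)`. -/
theorem card_fixed_eq (N : ℕ) (γ : SL(2, ℤ)) :
    Nat.card {q : Q (G0 N) // sl γ • q = q} =
      Nat.card (MulAction.fixedBy (SL(2, ℤ) ⧸ Gamma0 N) γ) := by
  refine (Nat.card_congr ((cosetEquiv N).subtypeEquiv ?_)).symm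
  intro x
  rw [MulAction.mem_fixedBy, ← cosetEquiv_smul, (cosetEquiv N).apply_eq_iff_eq]

theorem e2_eq (N : ℕ) :
    e2 (G0 N) = Nat.card (MulAction.fixedBy (SL(2, ℤ) ⧸ Gamma0 N) ModularGroup.S) :=
  card_fixed_eq N _

theorem e3_eq (N : ℕ) :
    e3 (G0 N) =
      Nat.card (MulAction.fixedBy (SL(2, ℤ) ⧸ Gamma0 N) (ModularGroup.S * ModularGroup.T)) :=
  card_fixed_eq N _

/-- orbits of `⟨sl γ⟩` on `Q (G0 N)` vs orbits of `⟨γ⟩` on `SL(2, ℤ) ⧸ Γ₀(N)`. -/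
def orbitEquiv (N : ℕ) (γ : SL(2, ℤ)) :
    MulAction.orbitRel.Quotient (Subgroup.zpowers γ) (SL(2, ℤ) ⧸ Gamma0 N) ≃
      MulAction.orbitRel.Quotient (Subgroup.zpowers (sl γ)) (Q (G0 N)) :=
  Quotient.congr (cosetEquiv N) (by
    intro a b
    rw [MulAction.orbitRel_apply, MulAction.orbitRel_apply, MulAction.mem_orbit_iff,
      MulAction.mem_orbit_iff]
    constructor
    · rintro ⟨⟨t, ht⟩, h⟩
      obtain ⟨k, rfl⟩ := Subgroup.mem_zpowers_iff.mp ht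
      refine ⟨⟨sl γ ^ k, Subgroup.zpow_mem_zpowers _ k⟩, ?_⟩
      change (γ ^ k) • b = a at h
      change (sl γ ^ k) • cosetEquiv N b = cosetEquiv N a
      rw [← sl_zpow, ← cosetEquiv_smul, h]
    · rintro ⟨⟨s, hs⟩, h⟩
      obtain ⟨k, rfl⟩ := Subgroup.mem_zpowers_iff.mp hs
      refine ⟨⟨γ ^ k, Subgroup.zpow_mem_zpowers _ k⟩, ?_⟩
      change (sl γ ^ k) • cosetEquiv N b = cosetEquiv N a at h
      change (γ ^ k) • b = a
      rw [← sl_zpow, ← cosetEquiv_smul] at h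
      exact (cosetEquiv N).injective h)

theorem cusps_eq (N : ℕ) :
    cusps (G0 N) = Nat.card (MulAction.orbitRel.Quotient (Subgroup.zpowers ModularGroup.T)
      (SL(2, ℤ) ⧸ Gamma0 N)) :=
  (Nat.card_congr (orbitEquiv N ModularGroup.T)).symm

/-- **Goal_Cusps** of the S20 Spec: the number of `T`-orbits on `Q (G0 N)` is `cuspCount N`. -/
theorem goal_Cusps : Goal_Cusps := by
  intro N _
  rw [cusps_eq, Fermat.Agent.S24.helper227.card_orbits_T]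

/-- **Goal_Index** from the index of `Γ₀(N)` in `SL(2, ℤ)`. -/
theorem goal_Index_of
    (h : ∀ (N : ℕ) [NeZero N], (Gamma0 N).index = ModularCurve.dedekindPsi N) : Goal_Index := by
  intro N _
  rw [mu_eq_index, h N]

/-- **Goal_E2** from the count of fixed points of `S` on `SL(2, ℤ) ⧸ Γ₀(N)`. -/
theorem goal_E2_of
    (h : ∀ (N : ℕ) [NeZero N],
      Nat.card (MulAction.fixedBy (SL(2, ℤ) ⧸ Gamma0 N) ModularGroup.S) = ModularCurve.nuTwo N) :
    Goal_E2 := by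
  intro N _
  rw [e2_eq, h N]

/-- **Goal_E3** from the count of fixed points of `S * T` on `SL(2, ℤ) ⧸ Γ₀(N)`. -/
theorem goal_E3_of
    (h : ∀ (N : ℕ) [NeZero N],
      Nat.card (MulAction.fixedBy (SL(2, ℤ) ⧸ Gamma0 N) (ModularGroup.S * ModularGroup.T)) =
        ModularCurve.nuThree N) :
    Goal_E3 := by
  intro N _
  rw [e3_eq, h N]

end

end Fermat.Agent.S20.helper227
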