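import Fermat.Agent.S20.helper227_CountBridge
import Fermat.Agent.S20.helper1040_Spec
import Fermat.Agent.S20.helper20_Spec
import Fermat.Agent.S24.helper24_Spec

/-!
# helper227: the cusp count (number of `T`-orbits = `cuspCount N`) in every Spec shape

* `stmt_OrbitsT : S24.helper24.Stmt_OrbitsT`
* `stmt_CuspNum N : S20.helper1040.Stmt_CuspNum N`
* `stmt_OrbT N : S20.helper20.Stmt_OrbT N`
* (`goal_Cusps : S20.helper560.Goal_Cusps` is in `helper227_CountBridge`.)
Also the bridges for helper20's Spec: `mu`, `fixS`, `fixU`, `orbT` as counts on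
`SL(2, ℤ) ⧸ Gamma0 N`.
-/

set_option autoImplicit false

open CongruenceSubgroup
open scoped MatrixGroups

namespace Fermat.Agent.S20.helper227

/-- S24 Spec, C2. -/
theorem stmt_OrbitsT : Fermat.Agent.S24.helper24.Stmt_OrbitsT :=
  fun N _ => Fermat.Agent.S24.helper227.card_orbits_T N

/-- helper1040's S20 Spec. -/
theorem stmt_CuspNum (N : ℕ) [NeZero N] : Fermat.Agent.S20.helper1040.Stmt_CuspNum N :=
  Fermat.Agent.S24.helper227.card_orbits_T N

/-- helper20's S20 Spec: `orbT N` is the number of `T`-orbits on `SL(2, ℤ) ⧸ Gamma0 N`. -/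
theorem orbT_eq (N : ℕ) :
    Fermat.Agent.S20.helper20.orbT N =
      Nat.card (MulAction.orbitRel.Quotient (Subgroup.zpowers ModularGroup.T)
        (SL(2, ℤ) ⧸ Gamma0 N)) :=
  cusps_eq N

theorem mu20_eq (N : ℕ) : Fermat.Agent.S20.helper20.mu N = (Gamma0 N).index :=
  mu_eq_index N

theorem fixS_eq (N : ℕ) :
    Fermat.Agent.S20.helper20.fixS N =
      Nat.card (MulAction.fixedBy (SL(2, ℤ) ⧸ Gamma0 N) ModularGroup.S) :=
  e2_eq N

theorem fixU_eq (N : ℕ) :
    Fermat.Agent.S20.helper20.fixU N =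
      Nat.card (MulAction.fixedBy (SL(2, ℤ) ⧸ Gamma0 N) (ModularGroup.S * ModularGroup.T)) :=
  e3_eq N

/-- helper20's S20 Spec, R8 (T-orbits). -/
theorem stmt_OrbT (N : ℕ) [NeZero N] : Fermat.Agent.S20.helper20.Stmt_OrbT N := by
  unfold Fermat.Agent.S20.helper20.Stmt_OrbT
  rw [orbT_eq, Fermat.Agent.S24.helper227.card_orbits_T]

end Fermat.Agent.S20.helper227
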