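/-
S20 / S21 / S24 shared combinatorics (helper980): the number of orbits of `⟨T⟩` acting on
`SL(2, ℤ) ⧸ Γ₀(N)` equals `ModularCurve.cuspCount N = ∑ d ∣ N, φ(gcd(d, N/d))`.

Main result: `Fermat.Agent.S20.helper980.card_orbits_T`.
Method: the orbit of the coset of `g` (first column `(a, c)`) is classified by the invariant
`(d, v)` with `d = gcd(c, N)`, `t = gcd(d, N/d)`, `v = a * (c/d)⁻¹ mod t`.
-/
import Mathlib
import Fermat.Prelude.Def_ModularCurve_GenusNumerics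

namespace Fermat.Agent.S20.helper980

/-- `vOf t a c₁` : the residue `a * c₁⁻¹ mod t` as a natural number `< t`. -/
noncomputable def vOf (t : ℕ) (a c₁ : ℤ) : ℕ := ((a : ZMod t) * ((c₁ : ZMod t))⁻¹).val

lemma vOf_eq_iff (t : ℕ) [NeZero t] (a c₁ a' c₁' : ℤ)
    (hc : IsUnit (c₁ : ZMod t)) (hc' : IsUnit (c₁' : ZMod t)) :
    vOf t a c₁ = vOf t a' c₁' ↔ (t : ℤ) ∣ a' * c₁ - c₁' * a := by
  unfold vOf
  rw [(ZMod.val_injective t).eq_iff, ← ZMod.intCast_zmod_eq_zero_iff_dvd]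
  push_cast
  have h1 : (c₁ : ZMod t) * (c₁ : ZMod t)⁻¹ = 1 := ZMod.mul_inv_of_unit _ hc
  have h2 : (c₁' : ZMod t) * (c₁' : ZMod t)⁻¹ = 1 := ZMod.mul_inv_of_unit _ hc'
  constructor
  · intro h
    have : (a : ZMod t) * (c₁ : ZMod t)⁻¹ * (c₁ * c₁') = (a' : ZMod t) * (c₁' : ZMod t)⁻¹ * (c₁ * c₁') := by
      rw [h]
    have e1 : (a : ZMod t) * (c₁ : ZMod t)⁻¹ * (c₁ * c₁') = a * c₁' * (c₁ * (c₁ : ZMod t)⁻¹) := by ring
    have e2 : (a' : ZMod t) * (c₁' : ZMod t)⁻¹ * (c₁ * c₁') = a' * c₁ * (c₁' * (c₁' : ZMod t)⁻¹) := by ring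
    rw [e1, e2, h1, h2, mul_one, mul_one] at this
    rw [← this]; ring
  · intro h
    have h3 : (a' : ZMod t) * c₁ = c₁' * a := by linear_combination h
    calc (a : ZMod t) * (c₁ : ZMod t)⁻¹ = (c₁' * a) * ((c₁ : ZMod t)⁻¹ * (c₁' : ZMod t)⁻¹) := by
          rw [show (c₁' : ZMod t) * a * ((c₁ : ZMod t)⁻¹ * (c₁' : ZMod t)⁻¹)
            = a * (c₁ : ZMod t)⁻¹ * (c₁' * (c₁' : ZMod t)⁻¹) by ring, h2, mul_one]
      _ = (a' * c₁) * ((c₁ : ZMod t)⁻¹ * (c₁' : ZMod t)⁻¹) := by rw [h3]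
      _ = a' * (c₁' : ZMod t)⁻¹ := by
          rw [show (a' : ZMod t) * c₁ * ((c₁ : ZMod t)⁻¹ * (c₁' : ZMod t)⁻¹)
            = a' * (c₁' : ZMod t)⁻¹ * (c₁ * (c₁ : ZMod t)⁻¹) by ring, h1, mul_one]

variable (N : ℕ)

/-- `gcd (c, N)` -/
def dOf (c : ℤ) : ℕ := Int.gcd c N

/-- `gcd (d, N / d)` -/
def tOf (d : ℕ) : ℕ := Nat.gcd d (N / d)

/-- The orbit invariant of a first column `(a, c)`. -/
noncomputable def invOf (a c : ℤ) : Σ _ : ℕ, ℕ :=
  ⟨dOf N c, vOf (tOf N (dOf N c)) a (c / (dOf N c : ℤ))⟩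

lemma dOf_dvd (c : ℤ) : dOf N c ∣ N := by
  have := Int.gcd_dvd_right c N
  exact Int.natCast_dvd_natCast.mp this

lemma dOf_pos [NeZero N] (c : ℤ) : 0 < dOf N c :=
  Nat.pos_of_dvd_of_pos (dOf_dvd N c) (Nat.pos_of_ne_zero (NeZero.ne N))

lemma tOf_pos {d : ℕ} (hd : 0 < d) : 0 < tOf N d := Nat.gcd_pos_of_pos_left _ hd

lemma tOf_dvd_left (d : ℕ) : tOf N d ∣ d := Nat.gcd_dvd_left _ _

lemma tOf_dvd_right (d : ℕ) : tOf N d ∣ N / d := Nat.gcd_dvd_right _ _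

lemma dOf_mul_div (c : ℤ) : (dOf N c : ℤ) * (c / (dOf N c : ℤ)) = c :=
  Int.mul_ediv_cancel' (Int.gcd_dvd_left c N)

lemma gcd_div_dOf [NeZero N] (c : ℤ) :
    Int.gcd (c / (dOf N c : ℤ)) ((N / dOf N c : ℕ) : ℤ) = 1 := by
  have h := Int.gcd_div_gcd_div_gcd (i := c) (j := (N : ℤ)) (dOf_pos N c)
  rw [Int.natCast_div]
  exact h

lemma isUnit_div_dOf [NeZero N] (c : ℤ) :
    IsUnit (((c / (dOf N c : ℤ) : ℤ)) : ZMod (tOf N (dOf N c))) := by
  rw [ZMod.coe_int_isUnit_iff_isCoprime]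
  have h1 := gcd_div_dOf N c
  rw [← Int.isCoprime_iff_gcd_eq_one] at h1
  have h2 : ((tOf N (dOf N c) : ℕ) : ℤ) ∣ ((N / dOf N c : ℕ) : ℤ) :=
    Int.natCast_dvd_natCast.mpr (tOf_dvd_right N _)
  exact (h1.symm.of_isCoprime_of_dvd_left h2)


lemma natCast_dOf_mul (c : ℤ) : ((dOf N c : ℕ) : ℤ) * ((N / dOf N c : ℕ) : ℤ) = (N : ℤ) := by
  rw [← Nat.cast_mul, Nat.mul_div_cancel' (dOf_dvd N c)]

theorem rel_imp_dOf_eq (a c a' c' : ℤ) (h : IsCoprime a c) (h' : IsCoprime a' c')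
    (n : ℤ) (hN : (N : ℤ) ∣ (a' + n * c') * c - c' * a) : dOf N c = dOf N c' := by
  apply Nat.dvd_antisymm
  · -- d ∣ d'
    have hdc : ((dOf N c : ℕ) : ℤ) ∣ c := Int.gcd_dvd_left c N
    have hdN : ((dOf N c : ℕ) : ℤ) ∣ N := Int.gcd_dvd_right c N
    have h1 : ((dOf N c : ℕ) : ℤ) ∣ c' * a := by
      have : c' * a = (a' + n * c') * c - ((a' + n * c') * c - c' * a) := by ring
      rw [this]
      exact dvd_sub (Dvd.dvd.mul_left hdc _) (hdN.trans hN)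
    have hcop : IsCoprime ((dOf N c : ℕ) : ℤ) a := h.symm.of_isCoprime_of_dvd_left hdc
    have h2 : ((dOf N c : ℕ) : ℤ) ∣ c' := hcop.dvd_of_dvd_mul_right h1
    exact Int.natCast_dvd_natCast.mp (Int.dvd_coe_gcd h2 hdN)
  · have hdc : ((dOf N c' : ℕ) : ℤ) ∣ c' := Int.gcd_dvd_left c' N
    have hdN : ((dOf N c' : ℕ) : ℤ) ∣ N := Int.gcd_dvd_right c' N
    have h1 : ((dOf N c' : ℕ) : ℤ) ∣ (a' + n * c') * c := by
      have : (a' + n * c') * c = ((a' + n * c') * c - c' * a) + c' * a := by ring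
      rw [this]
      exact dvd_add (hdN.trans hN) (Dvd.dvd.mul_right hdc _)
    have hcop0 : IsCoprime (a' + n * c') c' := h'.add_mul_right_left n
    have hcop : IsCoprime ((dOf N c' : ℕ) : ℤ) (a' + n * c') :=
      hcop0.symm.of_isCoprime_of_dvd_left hdc
    have h2 : ((dOf N c' : ℕ) : ℤ) ∣ c := hcop.dvd_of_dvd_mul_left h1
    exact Int.natCast_dvd_natCast.mp (Int.dvd_coe_gcd h2 hdN)

theorem rel_iff [NeZero N] (a c a' c' : ℤ) (h : IsCoprime a c) (h' : IsCoprime a' c') :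
    (∃ n : ℤ, (N : ℤ) ∣ (a' + n * c') * c - c' * a) ↔ invOf N a c = invOf N a' c' := by
  constructor
  · rintro ⟨n, hN⟩
    have hd := rel_imp_dOf_eq N a c a' c' h h' n hN
    have hu := isUnit_div_dOf N c
    have hu' := isUnit_div_dOf N c'
    have hc := dOf_mul_div N c
    have hc' := dOf_mul_div N c'
    have hNd := natCast_dOf_mul N c
    have hpos := dOf_pos N c
    unfold invOf
    rw [← hd] at hu' hc' ⊢
    have : NeZero (tOf N (dOf N c)) := ⟨(tOf_pos N hpos).ne'⟩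
    congr 1
    rw [vOf_eq_iff _ _ _ _ _ hu hu']
    set d := dOf N c with hd_def
    set c₁ := c / (d : ℤ)
    set c₁' := c' / (d : ℤ)
    set M := N / d
    -- N = d * M divides d * (a' c₁ - c₁' a + n d c₁' c₁)
    have hE : (a' + n * c') * c - c' * a = (d : ℤ) * (a' * c₁ - c₁' * a + n * d * c₁' * c₁) := by
      rw [← hc, ← hc']; ring
    rw [hE, ← hNd] at hN
    have hd0 : (d : ℤ) ≠ 0 := by exact_mod_cast hpos.ne'
    have hM : (M : ℤ) ∣ a' * c₁ - c₁' * a + n * d * c₁' * c₁ := Int.dvd_of_mul_dvd_mul_left hd0 hN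
    have ht1 : ((tOf N d : ℕ) : ℤ) ∣ (M : ℤ) := Int.natCast_dvd_natCast.mpr (tOf_dvd_right N d)
    have ht2 : ((tOf N d : ℕ) : ℤ) ∣ (d : ℤ) := Int.natCast_dvd_natCast.mpr (tOf_dvd_left N d)
    have : a' * c₁ - c₁' * a = (a' * c₁ - c₁' * a + n * d * c₁' * c₁) - n * c₁' * c₁ * d := by ring
    rw [this]
    exact dvd_sub (ht1.trans hM) (Dvd.dvd.mul_left ht2 _)
  · intro heq
    have hd : dOf N c = dOf N c' := congrArg Sigma.fst heq
    have hu := isUnit_div_dOf N c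
    have hu' := isUnit_div_dOf N c'
    have hc := dOf_mul_div N c
    have hc' := dOf_mul_div N c'
    have hNd := natCast_dOf_mul N c
    have hpos := dOf_pos N c
    have hg := gcd_div_dOf N c
    have hg' := gcd_div_dOf N c'
    unfold invOf at heq
    rw [← hd] at hu' hc' hg' heq
    have : NeZero (tOf N (dOf N c)) := ⟨(tOf_pos N hpos).ne'⟩
    have hv : vOf (tOf N (dOf N c)) a (c / (dOf N c : ℤ))
        = vOf (tOf N (dOf N c)) a' (c' / (dOf N c : ℤ)) := by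
      simpa using heq
    rw [vOf_eq_iff _ _ _ _ _ hu hu'] at hv
    set d := dOf N c with hd_def
    set c₁ := c / (d : ℤ)
    set c₁' := c' / (d : ℤ)
    set M := N / d
    obtain ⟨w, hw⟩ := hv
    -- Bezout
    rw [← Int.isCoprime_iff_gcd_eq_one] at hg hg'
    obtain ⟨p, q, hpq⟩ := (hg.mul_left hg')
    have hrs : ((tOf N d : ℕ) : ℤ) = (d : ℤ) * Nat.gcdA d M + (M : ℤ) * Nat.gcdB d M :=
      Nat.gcd_eq_gcd_ab d M
    set r := Nat.gcdA d M
    set s := Nat.gcdB d M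
    refine ⟨-(r * p) * w, (w * (r * d * q + s)), ?_⟩
    rw [← hc, ← hc', ← hNd]
    linear_combination (d : ℤ) * hw - (d * w * r * d : ℤ) * hpq + (d * w : ℤ) * hrs


open scoped MatrixGroups
open CongruenceSubgroup ModularGroup

/-- Coset criterion: `g Γ₀(N) = g' Γ₀(N)` iff the first columns are proportional mod `N`. -/
theorem mk_eq_mk_iff (g g' : SL(2, ℤ)) :
    ((g : SL(2, ℤ) ⧸ Gamma0 N) = (g' : SL(2, ℤ) ⧸ Gamma0 N)) ↔
      (N : ℤ) ∣ g 0 0 * g' 1 0 - g 1 0 * g' 0 0 := by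
  rw [QuotientGroup.eq, Gamma0_mem, ZMod.intCast_zmod_eq_zero_iff_dvd]
  have : (↑(g⁻¹ * g') : Matrix (Fin 2) (Fin 2) ℤ) 1 0 = g 0 0 * g' 1 0 - g 1 0 * g' 0 0 := by
    rw [Matrix.SpecialLinearGroup.coe_mul, Matrix.SpecialLinearGroup.coe_inv,
      Matrix.adjugate_fin_two]
    simp [Matrix.mul_apply, Fin.sum_univ_two]
    ring
  rw [this]

lemma T_zpow_mul_apply_zero_zero (n : ℤ) (g : SL(2, ℤ)) :
    (T ^ n * g) 0 0 = g 0 0 + n * g 1 0 := by
  rw [Matrix.SpecialLinearGroup.coe_mul, coe_T_zpow]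
  simp [Matrix.mul_apply, Fin.sum_univ_two]

lemma T_zpow_mul_apply_one_zero (n : ℤ) (g : SL(2, ℤ)) :
    (T ^ n * g) 1 0 = g 1 0 := by
  rw [Matrix.SpecialLinearGroup.coe_mul, coe_T_zpow]
  simp [Matrix.mul_apply, Fin.sum_univ_two]

lemma isCoprime_col (g : SL(2, ℤ)) : IsCoprime (g 0 0) (g 1 0) := by
  refine ⟨g 1 1, -(g 0 1), ?_⟩
  have h := g.det_coe
  rw [Matrix.det_fin_two] at h
  linear_combination h

/-- The orbit projection. -/
def orbProj (g : SL(2, ℤ)) :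
    MulAction.orbitRel.Quotient (Subgroup.zpowers T) (SL(2, ℤ) ⧸ Gamma0 N) :=
  Quotient.mk'' (g : SL(2, ℤ) ⧸ Gamma0 N)

lemma orbProj_surjective : Function.Surjective (orbProj N) := by
  intro q
  induction q using Quotient.inductionOn' with
  | h x =>
    induction x using QuotientGroup.induction_on with
    | H g => exact ⟨g, rfl⟩

theorem orbProj_eq_iff (g g' : SL(2, ℤ)) :
    orbProj N g = orbProj N g' ↔
      ∃ n : ℤ, (N : ℤ) ∣ (g' 0 0 + n * g' 1 0) * g 1 0 - g' 1 0 * g 0 0 := by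
  unfold orbProj
  rw [Quotient.eq'', MulAction.orbitRel_apply, MulAction.mem_orbit_iff]
  constructor
  · rintro ⟨⟨h, hh⟩, hx⟩
    obtain ⟨n, rfl⟩ := Subgroup.mem_zpowers_iff.mp hh
    refine ⟨n, ?_⟩
    have hx' : ((T ^ n * g' : SL(2, ℤ)) : SL(2, ℤ) ⧸ Gamma0 N) = (g : SL(2, ℤ) ⧸ Gamma0 N) := hx
    rw [mk_eq_mk_iff, T_zpow_mul_apply_zero_zero, T_zpow_mul_apply_one_zero] at hx'
    exact hx'
  · rintro ⟨n, hn⟩
    refine ⟨⟨T ^ n, Subgroup.zpow_mem_zpowers T n⟩, ?_⟩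
    show ((T ^ n * g' : SL(2, ℤ)) : SL(2, ℤ) ⧸ Gamma0 N) = (g : SL(2, ℤ) ⧸ Gamma0 N)
    rw [mk_eq_mk_iff, T_zpow_mul_apply_zero_zero, T_zpow_mul_apply_one_zero]
    exact hn

/-- The invariant on `SL(2, ℤ)`. -/
noncomputable def invSL (g : SL(2, ℤ)) : Σ _ : ℕ, ℕ := invOf N (g 0 0) (g 1 0)

theorem orbProj_eq_iff_invSL [NeZero N] (g g' : SL(2, ℤ)) :
    orbProj N g = orbProj N g' ↔ invSL N g = invSL N g' := by
  rw [orbProj_eq_iff, invSL, invSL, rel_iff N _ _ _ _ (isCoprime_col g) (isCoprime_col g')]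


/-- The target finset of invariants. -/
def target : Finset (Σ _ : ℕ, ℕ) :=
  N.divisors.sigma (fun d => {v ∈ Finset.range (tOf N d) | (tOf N d).Coprime v})

lemma invSL_mem_target [NeZero N] (g : SL(2, ℤ)) : invSL N g ∈ target N := by
  unfold invSL invOf target
  rw [Finset.mem_sigma]
  refine ⟨Nat.mem_divisors.mpr ⟨dOf_dvd N _, NeZero.ne N⟩, ?_⟩
  simp only [Finset.mem_filter, Finset.mem_range]
  have hpos := dOf_pos N (g 1 0)
  have : NeZero (tOf N (dOf N (g 1 0))) := ⟨(tOf_pos N hpos).ne'⟩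
  refine ⟨ZMod.val_lt _, ?_⟩
  have hu := isUnit_div_dOf N (g 1 0)
  have ha : IsUnit ((g 0 0 : ℤ) : ZMod (tOf N (dOf N (g 1 0)))) := by
    rw [ZMod.coe_int_isUnit_iff_isCoprime]
    have h1 : ((tOf N (dOf N (g 1 0)) : ℕ) : ℤ) ∣ g 1 0 :=
      (Int.natCast_dvd_natCast.mpr (tOf_dvd_left N _)).trans (Int.gcd_dvd_left _ _)
    exact (isCoprime_col g).symm.of_isCoprime_of_dvd_left h1
  have hinv : IsUnit ((((g 1 0 / (dOf N (g 1 0) : ℤ) : ℤ)) : ZMod (tOf N (dOf N (g 1 0))))⁻¹) :=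
    IsUnit.of_mul_eq_one _ (ZMod.inv_mul_of_unit _ hu)
  obtain ⟨u, hu'⟩ := ha.mul hinv
  unfold vOf
  rw [← hu']
  exact (ZMod.val_coe_unit_coprime u).symm

lemma exists_invSL_eq [NeZero N] {x : Σ _ : ℕ, ℕ} (hx : x ∈ target N) :
    ∃ g, invSL N g = x := by
  obtain ⟨d, v⟩ := x
  rw [target, Finset.mem_sigma] at hx
  obtain ⟨hd, hv⟩ := hx
  simp only [Finset.mem_filter, Finset.mem_range] at hv
  obtain ⟨hvlt, hvcop⟩ := hv
  have hdN : d ∣ N := Nat.dvd_of_mem_divisors hd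
  have hdpos : 0 < d := Nat.pos_of_mem_divisors hd
  have htd : tOf N d ∣ d := tOf_dvd_left N d
  have : NeZero d := ⟨hdpos.ne'⟩
  have : NeZero (tOf N d) := ⟨(tOf_pos N hdpos).ne'⟩
  obtain ⟨w, hw⟩ := ZMod.unitsMap_surjective htd (ZMod.unitOfCoprime v hvcop.symm)
  have hacop : ((w : ZMod d).val).Coprime d := ZMod.val_coe_unit_coprime w
  have hat : (((w : ZMod d).val : ℕ) : ZMod (tOf N d)) = (v : ZMod (tOf N d)) := by
    have h1 := congrArg (Units.val) hw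
    rw [ZMod.coe_unitOfCoprime, ZMod.unitsMap_def, Units.coe_map] at h1
    rw [ZMod.natCast_val]
    exact h1
  have hcop : IsCoprime (((w : ZMod d).val : ℕ) : ℤ) (d : ℤ) := Nat.isCoprime_iff_coprime.mpr hacop
  obtain ⟨x, y, hxy⟩ := hcop
  let g : SL(2, ℤ) := ⟨!![(((w : ZMod d).val : ℕ) : ℤ), -y; (d : ℤ), x], by
    rw [Matrix.det_fin_two_of]; linarith⟩
  refine ⟨g, ?_⟩
  have h00 : g 0 0 = (((w : ZMod d).val : ℕ) : ℤ) := rfl
  have h10 : g 1 0 = (d : ℤ) := rfl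
  unfold invSL invOf
  rw [h00, h10]
  have hdd : dOf N (d : ℤ) = d := by
    unfold dOf
    rw [Int.gcd_natCast_natCast]
    exact Nat.gcd_eq_left hdN
  rw [hdd]
  congr 1
  unfold vOf
  rw [Int.ediv_self (by exact_mod_cast hdpos.ne'), Int.cast_one, Int.cast_natCast, hat]
  have h1 : ((1 : ZMod (tOf N d)))⁻¹ = 1 := by
    have := ZMod.mul_inv_of_unit (1 : ZMod (tOf N d)) isUnit_one
    rwa [one_mul] at this
  rw [h1, mul_one, ZMod.val_cast_of_lt hvlt]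

/-- **Cusp count**: the number of `⟨T⟩`-orbits on `SL(2, ℤ) ⧸ Γ₀(N)` is `cuspCount N`. -/
theorem card_orbits_T (N : ℕ) [NeZero N] :
    Nat.card (MulAction.orbitRel.Quotient (Subgroup.zpowers ModularGroup.T)
      (SL(2, ℤ) ⧸ CongruenceSubgroup.Gamma0 N)) = ModularCurve.cuspCount N := by
  classical
  let F : MulAction.orbitRel.Quotient (Subgroup.zpowers T) (SL(2, ℤ) ⧸ Gamma0 N) → Σ _ : ℕ, ℕ :=
    fun q => invSL N (Function.surjInv (orbProj_surjective N) q)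
  have hF : ∀ g, F (orbProj N g) = invSL N g := fun g =>
    (orbProj_eq_iff_invSL N _ _).mp (Function.surjInv_eq (orbProj_surjective N) _)
  have hinj : Function.Injective F := by
    intro q q' h
    have h3 := (orbProj_eq_iff_invSL N _ _).mpr h
    have e1 := Function.surjInv_eq (orbProj_surjective N) q
    have e2 := Function.surjInv_eq (orbProj_surjective N) q'
    exact e1.symm.trans (h3.trans e2)
  have hrange : Set.range F = (target N : Set (Σ _ : ℕ, ℕ)) := by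
    ext x
    constructor
    · rintro ⟨q, rfl⟩
      exact invSL_mem_target N _
    · intro hx
      obtain ⟨g, hg⟩ := exists_invSL_eq N hx
      exact ⟨orbProj N g, (hF g).trans hg⟩
  rw [Nat.card_congr (Equiv.ofInjective F hinj), hrange, Nat.card_coe_set_eq,
    Set.ncard_coe_finset, target, Finset.card_sigma]
  rfl

end Fermat.Agent.S20.helper980
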