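/-
helper2301: S20 is EQUIVALENT to the one inequality left for S21 (`hrank`), unconditionally.

With D3 (`Fermat.Agent.S21.helper2301_ParabolicLower`), helper681's D2a and the four coset counts
(helper804, helper980) the dimension of the space of parabolic homs of `Γ₀(N)` is exactly
`2 * genusFormula N`.  Together with the unconditional Eichler–Shimura injectivity
(`helper21.two_mul_finrank_cuspForm_le`) this gives:

* `finrank_parabolicHoms_Gamma0`     : `finrank parabolicHoms(Γ₀(N)) = 2 * genusFormula N`;
* `finrank_cuspForm_le_genusFormula` : `dim S₂(Γ₀(N)) ≤ genusFormula N`;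
* `s20_of_hrank`, `s20_of_S21`, `s20_of_stmtH` : S20 from `hrank` / from the S21 statement /
  from the Hodge statement `helper801.StmtH N` (Route 2);
* `hrank_of_genus_le`, `s21_of_genus_le` : `hrank` and S21 from `genusFormula N ≤ dim S₂` (Route M).
-/
import Fermat.Agent.S21.helper2301_ParabolicLower
import Fermat.Agent.S21.helper21_Assembly
import Fermat.Agent.S21.helper801_HodgeAlg
import Fermat.Agent.Lib.helper804_Gamma0Cosets
import Fermat.Agent.S20.helper980_CuspCount

set_option autoImplicit false

namespace Fermat.Agent.S20.helper2301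

open scoped MatrixGroups
open ModularCurve ModularCurve.Period CongruenceSubgroup

/-- **exact dimension of the parabolic homs of `Γ₀(N)`** (unconditional). -/
theorem finrank_parabolicHoms_Gamma0 (N : ℕ) [NeZero N] :
    (Module.finrank ℂ (parabolicHoms ℂ (Gamma0 N) ℂ) : ℚ) = 2 * genusFormula N :=
  Fermat.Agent.S21.helper2301.finrank_parabolicHoms_Gamma0_eq N
    (Fermat.Agent.Lib.helper804.index_Gamma0 N)
    (Fermat.Agent.S20.helper980.card_orbits_T N)
    (Fermat.Agent.Lib.helper804.card_orbits_S N)
    (Fermat.Agent.Lib.helper804.card_orbits_ST N)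

/-- the upper bound half of S20 (unconditional). -/
theorem finrank_cuspForm_le_genusFormula (N : ℕ) [NeZero N] :
    (Module.finrank ℂ (CuspForm (Gamma0 N) 2) : ℚ) ≤ genusFormula N := by
  have h1 := Fermat.Agent.S21.helper21.two_mul_finrank_cuspForm_le N
  have h2 := finrank_parabolicHoms_Gamma0 N
  have h1' : (2 : ℚ) * (Module.finrank ℂ (CuspForm (Gamma0 N) 2) : ℚ)
      ≤ (Module.finrank ℂ (parabolicHoms ℂ (Gamma0 N) ℂ) : ℚ) := by exact_mod_cast h1
  linarith

/-- **S20 from `hrank`**, the one inequality left for S21. -/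
theorem s20_of_hrank (N : ℕ) [NeZero N]
    (hrank : Module.finrank ℂ ↥(parabolicHoms ℂ (Gamma0 N) ℂ)
      ≤ 2 * Module.finrank ℂ (CuspForm (Gamma0 N) 2)) :
    (Module.finrank ℂ (CuspForm (CongruenceSubgroup.Gamma0 N) 2) : ℚ)
      = ModularCurve.genusFormula N := by
  have h2 := finrank_parabolicHoms_Gamma0 N
  have h1' : (Module.finrank ℂ (parabolicHoms ℂ (Gamma0 N) ℂ) : ℚ)
      ≤ (2 : ℚ) * (Module.finrank ℂ (CuspForm (Gamma0 N) 2) : ℚ) := by exact_mod_cast hrank
  have h3 := finrank_cuspForm_le_genusFormula N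
  linarith

/-- `hrank` from the statement of S21. -/
theorem hrank_of_S21 (N : ℕ) [NeZero N]
    (h : Function.Injective (ModularCurve.periodHomPair N)
      ∧ LinearMap.range (ModularCurve.periodHomPair N)
          = ModularCurve.Period.parabolicHoms ℂ (CongruenceSubgroup.Gamma0 N) ℂ) :
    Module.finrank ℂ ↥(parabolicHoms ℂ (Gamma0 N) ℂ)
      ≤ 2 * Module.finrank ℂ (CuspForm (Gamma0 N) 2) := by
  have := Fermat.Agent.S21.helper21.finite_cuspForm N
  rw [← h.2, LinearMap.finrank_range_of_inj h.1, Module.finrank_prod]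
  omega

/-- **S20 from the statement of S21.** -/
theorem s20_of_S21 (N : ℕ) [NeZero N]
    (h : Function.Injective (ModularCurve.periodHomPair N)
      ∧ LinearMap.range (ModularCurve.periodHomPair N)
          = ModularCurve.Period.parabolicHoms ℂ (CongruenceSubgroup.Gamma0 N) ℂ) :
    (Module.finrank ℂ (CuspForm (CongruenceSubgroup.Gamma0 N) 2) : ℚ)
      = ModularCurve.genusFormula N :=
  s20_of_hrank N (hrank_of_S21 N h)

/-- **S20 from the Hodge existence statement (H)** of Route 2. -/
theorem s20_of_stmtH (N : ℕ) [NeZero N] (hH : Fermat.Agent.S21.helper801.StmtH N) :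
    (Module.finrank ℂ (CuspForm (CongruenceSubgroup.Gamma0 N) 2) : ℚ)
      = ModularCurve.genusFormula N := by
  have := Fermat.Agent.S21.helper21.finite_cuspForm N
  exact s20_of_hrank N
    (Fermat.Agent.S21.helper801.finrank_parabolicHoms_le N (Fermat.Agent.S21.helper21.stmtA N) hH)

/-- `hrank` from the lower bound `genusFormula N ≤ dim S₂(Γ₀(N))` (Route M). -/
theorem hrank_of_genus_le (N : ℕ) [NeZero N]
    (h : genusFormula N ≤ (Module.finrank ℂ (CuspForm (Gamma0 N) 2) : ℚ)) :
    Module.finrank ℂ ↥(parabolicHoms ℂ (Gamma0 N) ℂ)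
      ≤ 2 * Module.finrank ℂ (CuspForm (Gamma0 N) 2) := by
  have h2 := finrank_parabolicHoms_Gamma0 N
  have h3 : (Module.finrank ℂ (parabolicHoms ℂ (Gamma0 N) ℂ) : ℚ)
      ≤ (2 : ℚ) * (Module.finrank ℂ (CuspForm (Gamma0 N) 2) : ℚ) := by linarith
  exact_mod_cast h3

/-- **S21 from the lower bound** `genusFormula N ≤ dim S₂(Γ₀(N))`. -/
theorem s21_of_genus_le (N : ℕ) [NeZero N]
    (h : genusFormula N ≤ (Module.finrank ℂ (CuspForm (Gamma0 N) 2) : ℚ)) :
    Function.Injective (ModularCurve.periodHomPair N)
      ∧ LinearMap.range (ModularCurve.periodHomPair N)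
          = ModularCurve.Period.parabolicHoms ℂ (CongruenceSubgroup.Gamma0 N) ℂ :=
  Fermat.Agent.S21.helper21.result_of_rank N (hrank_of_genus_le N h)

/-- **S21 from the Hodge existence statement (H)** of Route 2 (same as
`helper801.result_of_ABCH` with A, B, C± discharged). -/
theorem s21_of_stmtH (N : ℕ) [NeZero N] (hH : Fermat.Agent.S21.helper801.StmtH N) :
    Function.Injective (ModularCurve.periodHomPair N)
      ∧ LinearMap.range (ModularCurve.periodHomPair N)
          = ModularCurve.Period.parabolicHoms ℂ (CongruenceSubgroup.Gamma0 N) ℂ := by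
  have := Fermat.Agent.S21.helper21.finite_cuspForm N
  exact Fermat.Agent.S21.helper21.result_of_rank N
    (Fermat.Agent.S21.helper801.finrank_parabolicHoms_le N (Fermat.Agent.S21.helper21.stmtA N) hH)

end Fermat.Agent.S20.helper2301
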