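/-
S20, cusp toolkit (seat helper248): functions on `ℍ` that are `N`-periodic, holomorphic and
bounded at `i∞`; their `q_N`-coefficients; families of such functions permuted by `z ↦ z + 1`
(the translates of a modular form along a `T`-orbit of cosets); the twist matrix `E(z)`,
its limit (leading vector), Fourier inversion and decay.  Pure analysis, Mathlib only.
-/
import Mathlib

set_option autoImplicit false

open UpperHalfPlane ModularForm Complex Filter Function Asymptotics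
open scoped Real Topology Manifold MatrixGroups

namespace Fermat.Agent.S20.helper248

noncomputable section

local notation "𝕢" => Periodic.qParam

/-- `g` is periodic of period `N`, holomorphic, and bounded at `i∞`. -/
structure Nice (N : ℕ) (g : ℍ → ℂ) : Prop where
  per : Periodic (g ∘ ofComplex) ((N : ℝ) : ℂ)
  holo : MDiff g
  bdd : IsBoundedAtImInfty g

/-- The coefficient of `q_N ^ n` in the expansion of `g` at `i∞`. -/
def ac (N : ℕ) (g : ℍ → ℂ) (n : ℕ) : ℂ := (qExpansion (N : ℝ) g).coeff n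

/-- The leading value: sum of the first `N` coefficients of the `q_N`-expansion. -/
def lead (N : ℕ) (g : ℍ → ℂ) : ℂ := ∑ n ∈ Finset.range N, ac N g n

/-- The root of unity `e^{2πi/N}`. -/
def zetaN (N : ℕ) : ℂ := cexp (2 * π * Complex.I / N)

lemma zetaN_pow_N {N : ℕ} (hN : 0 < N) : zetaN N ^ N = 1 :=
  (Complex.isPrimitiveRoot_exp N hN.ne').pow_eq_one

lemma zetaN_ne_zero (N : ℕ) : zetaN N ≠ 0 := Complex.exp_ne_zero _

lemma norm_zetaN {N : ℕ} (hN : 0 < N) : ‖zetaN N‖ = 1 :=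
  (Complex.isPrimitiveRoot_exp N hN.ne').norm'_eq_one hN.ne'

/-- Orthogonality of the characters of `ℤ/N`. -/
lemma sum_zetaN_orth {N : ℕ} (hN : 0 < N) {m n : ℕ} (hm : m < N) (hn : n < N) :
    ∑ t ∈ Finset.range N, (zetaN N ^ (n * t))⁻¹ * zetaN N ^ (m * t) =
      if m = n then (N : ℂ) else 0 := by
  have hprim := Complex.isPrimitiveRoot_exp N hN.ne'
  split_ifs with h
  · subst h
    simp [inv_mul_cancel₀ (pow_ne_zero _ (zetaN_ne_zero N))]
  · -- geometric sum with ratio `ξ = ζ^m / ζ^n ≠ 1`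
    set ξ : ℂ := (zetaN N ^ n)⁻¹ * zetaN N ^ m with hξ
    have hterm : ∀ t, (zetaN N ^ (n * t))⁻¹ * zetaN N ^ (m * t) = ξ ^ t := by
      intro t
      rw [hξ, mul_pow, inv_pow, ← pow_mul, ← pow_mul]
    simp_rw [hterm]
    have hξN : ξ ^ N = 1 := by
      rw [hξ, mul_pow, inv_pow, ← pow_mul, ← pow_mul, mul_comm n N, mul_comm m N, pow_mul,
        pow_mul, zetaN_pow_N hN]
      simp
    have hξ1 : ξ ≠ 1 := by
      intro h1
      have h2 : zetaN N ^ m = zetaN N ^ n := by
        have := congrArg (fun x => zetaN N ^ n * x) h1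
        simpa [hξ, mul_inv_cancel_left₀ (pow_ne_zero n (zetaN_ne_zero N))] using this
      exact h (hprim.pow_inj hm hn h2)
    have := geom_sum_eq hξ1 N
    rw [this, hξN, sub_self, zero_div]

variable {N : ℕ} {g : ℍ → ℂ}

lemma Nice.analyticAt (hN : 0 < N) (hg : Nice N g) :
    AnalyticAt ℂ (cuspFunction (N : ℝ) g) 0 :=
  analyticAt_cuspFunction_zero (by exact_mod_cast hN) hg.per hg.holo hg.bdd

lemma Nice.hasFPowerSeriesAt (hN : 0 < N) (hg : Nice N g) :
    HasFPowerSeriesAt (cuspFunction (N : ℝ) g)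
      (FormalMultilinearSeries.ofScalars ℂ (fun m => ac N g m)) 0 := by
  have := (hg.analyticAt hN).hasFPowerSeriesAt
  have h2 : (fun m => ac N g m) =
      fun n => iteratedDeriv n (cuspFunction (N : ℝ) g) 0 / (n.factorial : ℂ) := by
    funext m
    simp [ac, qExpansion_coeff, div_eq_mul_inv, mul_comm]
  rw [h2]
  exact this

/-- Taylor approximation of the cusp function to any order. -/
lemma Nice.isBigO_taylor (hN : 0 < N) (hg : Nice N g) (K : ℕ) :
    (fun w : ℂ => cuspFunction (N : ℝ) g w - ∑ m ∈ Finset.range K, ac N g m * w ^ m)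
      =O[𝓝 0] fun w => ‖w‖ ^ K := by
  have := (hg.hasFPowerSeriesAt hN).isBigO_sub_partialSum_pow K
  simpa [FormalMultilinearSeries.partialSum, FormalMultilinearSeries.ofScalars_apply_eq,
    mul_comm] using this

lemma Nice.eq_cuspFunction (hN : 0 < N) (hg : Nice N g) (z : ℍ) :
    cuspFunction (N : ℝ) g (𝕢 (N : ℝ) z) = g z :=
  UpperHalfPlane.eq_cuspFunction z (by exact_mod_cast hN.ne') hg.per

lemma qParam_vadd (hN : 0 < N) (t : ℕ) (z : ℍ) :
    𝕢 (N : ℝ) (((t : ℝ) +ᵥ z : ℍ) : ℂ) = zetaN N ^ t * 𝕢 (N : ℝ) z := by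
  have hN' : (N : ℂ) ≠ 0 := by exact_mod_cast hN.ne'
  simp only [Periodic.qParam, zetaN, UpperHalfPlane.coe_vadd, ← Complex.exp_nat_mul,
    ← Complex.exp_add]
  congr 1
  push_cast
  field_simp

lemma Nice.hasSum (hN : 0 < N) (hg : Nice N g) (z : ℍ) :
    HasSum (fun m : ℕ => ac N g m • 𝕢 (N : ℝ) z ^ m) (g z) :=
  hasSum_qExpansion (by exact_mod_cast hN) hg.per hg.holo hg.bdd z

/-- value of a nice function at a translate, via the cusp function. -/
lemma Nice.apply_vadd (hN : 0 < N) (hg : Nice N g) (t : ℕ) (z : ℍ) :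
    g ((t : ℝ) +ᵥ z) = cuspFunction (N : ℝ) g (zetaN N ^ t * 𝕢 (N : ℝ) z) := by
  rw [← qParam_vadd hN, hg.eq_cuspFunction hN]

/-- The coefficients of a shifted function are twisted by powers of `ζ_N`. -/
lemma Nice.ac_shift (hN : 0 < N) (hg : Nice N g) {g' : ℍ → ℂ} (hg' : Nice N g')
    (hshift : ∀ z, g' z = g ((1 : ℝ) +ᵥ z)) (n : ℕ) :
    ac N g' n = zetaN N ^ n * ac N g n := by
  have hh : (0 : ℝ) < N := by exact_mod_cast hN
  have hsum : ∀ z : ℍ, HasSum (fun m : ℕ => (zetaN N ^ m * ac N g m) • 𝕢 (N : ℝ) z ^ m) (g' z) := by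
    intro z
    have h1 := hg.hasSum hN ((1 : ℝ) +ᵥ z)
    have h2 := qParam_vadd hN 1 z
    simp only [Nat.cast_one, pow_one] at h2
    rw [h2, ← hshift] at h1
    convert h1 using 2 with m
    simp only [smul_eq_mul]
    ring
  have h1 := (hasFPowerSeriesOnBall_cuspFunction hh (hg'.analyticAt hN) hsum).hasFPowerSeriesAt
  have h2 := hg'.hasFPowerSeriesAt hN
  have h3 := congrArg (fun p => p.coeff n) (h1.eq_formalMultilinearSeries h2)
  simpa [FormalMultilinearSeries.coeff_ofScalars] using h3.symm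

lemma norm_qParam_pow_N (hN : 0 < N) (z : ℍ) :
    ‖𝕢 (N : ℝ) z‖ ^ N = Real.exp (-2 * π * z.im) := by
  have hN' : (N : ℝ) ≠ 0 := by exact_mod_cast hN.ne'
  rw [Periodic.norm_qParam, ← Real.exp_nat_mul]
  congr 1
  simp only [UpperHalfPlane.coe_im]
  field_simp

lemma qParam_ne_zero' (N : ℕ) (z : ℍ) : 𝕢 (N : ℝ) z ≠ 0 := Complex.exp_ne_zero _

lemma tendsto_qParam_nhdsNE (hN : 0 < N) :
    Tendsto (fun z : ℍ => 𝕢 (N : ℝ) z) atImInfty (𝓝[≠] 0) :=
  tendsto_nhdsWithin_iff.mpr ⟨qParam_tendsto_atImInfty (by exact_mod_cast hN),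
    Eventually.of_forall fun z => qParam_ne_zero' N z⟩

/-- If the first `N` coefficients vanish, the function decays like `e^{-2π Im z}`. -/
lemma Nice.isBigO_of_ac_eq_zero (hN : 0 < N) (hg : Nice N g)
    (h0 : ∀ n, n < N → ac N g n = 0) :
    g =O[atImInfty] fun z : ℍ => Real.exp (-2 * π * z.im) := by
  have h1 := hg.isBigO_taylor hN N
  have h2 : (fun w : ℂ => cuspFunction (N : ℝ) g w - ∑ m ∈ Finset.range N, ac N g m * w ^ m)
      = cuspFunction (N : ℝ) g := by
    funext w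
    rw [Finset.sum_eq_zero, sub_zero]
    intro m hm
    rw [h0 m (Finset.mem_range.mp hm), zero_mul]
  rw [h2] at h1
  have h3 := h1.comp_tendsto (qParam_tendsto_atImInfty (h := (N : ℝ)) (by exact_mod_cast hN))
  refine (h3.congr' ?_ ?_)
  · exact Eventually.of_forall fun z => by simp [hg.eq_cuspFunction hN]
  · exact Eventually.of_forall fun z => by simp [norm_qParam_pow_N hN]

/-- A family of nice functions indexed by `X`, where the permutation `τ` of `X` realises the
translation `z ↦ z + 1`. -/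
structure TFam (N : ℕ) {X : Type*} (τ : Equiv.Perm X) (G : X → ℍ → ℂ) : Prop where
  nice : ∀ x, Nice N (G x)
  shift : ∀ x z, G (τ x) z = G x ((1 : ℝ) +ᵥ z)

section fam

variable {X : Type*} {τ : Equiv.Perm X} {G : X → ℍ → ℂ}

lemma TFam.shift_pow (h : TFam N τ G) (t : ℕ) (x : X) (z : ℍ) :
    G ((τ ^ t) x) z = G x ((t : ℝ) +ᵥ z) := by
  induction t generalizing z with
  | zero => simp
  | succ t ih =>
    rw [pow_succ', Equiv.Perm.mul_apply, h.shift, ih, vadd_vadd]
    push_cast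
    ring_nf

lemma TFam.ac_pow (hN : 0 < N) (h : TFam N τ G) (t : ℕ) (x : X) (n : ℕ) :
    ac N (G ((τ ^ t) x)) n = zetaN N ^ (n * t) * ac N (G x) n := by
  induction t with
  | zero => simp
  | succ t ih =>
    have := (h.nice ((τ ^ t) x)).ac_shift hN (h.nice ((τ ^ (t + 1)) x))
      (fun z => by rw [pow_succ', Equiv.Perm.mul_apply, h.shift]) n
    rw [this, ih, ← mul_assoc, ← pow_add]
    ring_nf

/-- Finite Fourier inversion along the orbit: if all leading values vanish, so do all the first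
`N` coefficients. -/
lemma TFam.ac_eq_zero_of_lead (hN : 0 < N) (h : TFam N τ G) (hlead : ∀ x, lead N (G x) = 0)
    (x : X) (m : ℕ) (hm : m < N) : ac N (G x) m = 0 := by
  have hN' : (N : ℂ) ≠ 0 := by exact_mod_cast hN.ne'
  have key : ∑ t ∈ Finset.range N, (zetaN N ^ (m * t))⁻¹ * lead N (G ((τ ^ t) x))
      = (N : ℂ) * ac N (G x) m := by
    simp only [lead, h.ac_pow hN, Finset.mul_sum]
    rw [Finset.sum_comm]
    have : ∀ n ∈ Finset.range N, ∑ t ∈ Finset.range N,
        (zetaN N ^ (m * t))⁻¹ * (zetaN N ^ (n * t) * ac N (G x) n)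
        = (if n = m then (N : ℂ) else 0) * ac N (G x) n := by
      intro n hn
      rw [← sum_zetaN_orth hN (Finset.mem_range.mp hn) hm, Finset.sum_mul]
      refine Finset.sum_congr rfl fun t _ => by ring
    rw [Finset.sum_congr rfl this]
    simp [Finset.sum_ite_eq', Finset.mem_range.mpr hm, ite_mul]
  simp only [hlead, mul_zero, Finset.sum_const_zero] at key
  exact (mul_eq_zero.mp key.symm).resolve_left hN'

lemma TFam.isBigO_of_lead (hN : 0 < N) (h : TFam N τ G) (hlead : ∀ x, lead N (G x) = 0)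
    (x : X) : G x =O[atImInfty] fun z : ℍ => Real.exp (-2 * π * z.im) :=
  (h.nice x).isBigO_of_ac_eq_zero hN fun n hn => h.ac_eq_zero_of_lead hN hlead x n hn

end fam

/-- The twist `E(z) = ∑_{n<N} q_N(z)^{-n} π_n` applied to a vector `v : X → ℂ`, where `π_n` is the
projector onto the `ζ^n`-eigenspace of the permutation operator of `τ`. -/
def twistVec (N : ℕ) {X : Type*} (τ : Equiv.Perm X) (z : ℍ) (v : X → ℂ) (x : X) : ℂ :=
  ∑ n ∈ Finset.range N, (𝕢 (N : ℝ) z ^ n)⁻¹ *
    ((N : ℂ)⁻¹ * ∑ t ∈ Finset.range N, (zetaN N ^ (n * t))⁻¹ * v ((τ ^ t) x))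

/-- The main limit: the twisted vector of a `T`-family tends to the leading vector. -/
theorem TFam.tendsto_twist {X : Type*} {τ : Equiv.Perm X} {G : X → ℍ → ℂ}
    (hN : 0 < N) (h : TFam N τ G) (x : X) :
    Tendsto (fun z : ℍ => twistVec N τ z (fun x' => G x' z) x) atImInfty
      (𝓝 (lead N (G x))) := by
  have hN' : (N : ℂ) ≠ 0 := by exact_mod_cast hN.ne'
  unfold twistVec lead
  refine tendsto_finsetSum _ fun n hn => ?_
  have hn' : n < N := Finset.mem_range.mp hn
  set F := cuspFunction (N : ℝ) (G x) with hF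
  set R : ℂ → ℂ := fun w => F w - ∑ m ∈ Finset.range N, ac N (G x) m * w ^ m with hR
  -- the function in the variable `w = q_N(z)`
  have hrew : ∀ z : ℍ, (𝕢 (N : ℝ) z ^ n)⁻¹ *
      ((N : ℂ)⁻¹ * ∑ t ∈ Finset.range N, (zetaN N ^ (n * t))⁻¹ * G ((τ ^ t) x) z)
      = ac N (G x) n + (N : ℂ)⁻¹ * ∑ t ∈ Finset.range N, (zetaN N ^ (n * t))⁻¹ *
          ((𝕢 (N : ℝ) z ^ n)⁻¹ * R (zetaN N ^ t * 𝕢 (N : ℝ) z)) := by
    intro z
    set w := 𝕢 (N : ℝ) z with hw
    have hw0 : w ≠ 0 := qParam_ne_zero' N z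
    have h1 : ∀ t, G ((τ ^ t) x) z = R (zetaN N ^ t * w) +
        ∑ m ∈ Finset.range N, ac N (G x) m * (zetaN N ^ t * w) ^ m := by
      intro t
      rw [h.shift_pow, (h.nice x).apply_vadd hN]
      simp [hR, hF, hw]
    have h2 : ∑ t ∈ Finset.range N, (zetaN N ^ (n * t))⁻¹ *
        ∑ m ∈ Finset.range N, ac N (G x) m * (zetaN N ^ t * w) ^ m = (N : ℂ) * (ac N (G x) n * w ^ n) := by
      simp only [Finset.mul_sum]
      rw [Finset.sum_comm]
      have : ∀ m ∈ Finset.range N, ∑ t ∈ Finset.range N,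
          (zetaN N ^ (n * t))⁻¹ * (ac N (G x) m * (zetaN N ^ t * w) ^ m)
          = (if m = n then (N : ℂ) else 0) * (ac N (G x) m * w ^ m) := by
        intro m hm
        rw [← sum_zetaN_orth hN (Finset.mem_range.mp hm) hn', Finset.sum_mul]
        refine Finset.sum_congr rfl fun t _ => ?_
        rw [mul_pow, ← pow_mul, mul_comm t m]
        ring
      rw [Finset.sum_congr rfl this]
      simp [Finset.sum_ite_eq', hn, ite_mul]
    have e1 : ∀ t, (zetaN N ^ (n * t))⁻¹ * ((w ^ n)⁻¹ * R (zetaN N ^ t * w))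
        = (w ^ n)⁻¹ * ((zetaN N ^ (n * t))⁻¹ * R (zetaN N ^ t * w)) := fun t => by ring
    simp only [h1, mul_add, Finset.sum_add_distrib, h2, e1, ← Finset.mul_sum]
    have hwn : w ^ n ≠ 0 := pow_ne_zero n hw0
    generalize (∑ t ∈ Finset.range N, (zetaN N ^ (n * t))⁻¹ * R (zetaN N ^ t * w)) = S
    field_simp
    ring
  simp only [hrew]
  have hzero : Tendsto (fun z : ℍ => (N : ℂ)⁻¹ * ∑ t ∈ Finset.range N, (zetaN N ^ (n * t))⁻¹ *
      ((𝕢 (N : ℝ) z ^ n)⁻¹ * R (zetaN N ^ t * 𝕢 (N : ℝ) z))) atImInfty (𝓝 0) := by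
    have : ∀ t ∈ Finset.range N, Tendsto (fun z : ℍ => (zetaN N ^ (n * t))⁻¹ *
        ((𝕢 (N : ℝ) z ^ n)⁻¹ * R (zetaN N ^ t * 𝕢 (N : ℝ) z))) atImInfty (𝓝 0) := by
      intro t _
      -- bound `R (ζ^t w)` by `c ‖w‖^N` near `0`
      have hRO : R =O[𝓝 0] fun w => ‖w‖ ^ N := (h.nice x).isBigO_taylor hN N
      have hmul : Tendsto (fun w : ℂ => zetaN N ^ t * w) (𝓝 0) (𝓝 0) := by
        have : Continuous fun w : ℂ => zetaN N ^ t * w := by fun_prop
        simpa using this.tendsto 0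
      have hRO' := hRO.comp_tendsto hmul
      obtain ⟨c, hc, hbound⟩ := hRO'.exists_pos
      rw [IsBigOWith] at hbound
      have hw : Tendsto (fun w : ℂ => (w ^ n)⁻¹ * R (zetaN N ^ t * w)) (𝓝[≠] 0) (𝓝 0) := by
        refine squeeze_zero_norm' (a := fun w : ℂ => c * ‖w‖ ^ (N - n)) ?_ ?_
        · have hb' : ∀ᶠ w in 𝓝[≠] (0 : ℂ), ‖(R ∘ fun w => zetaN N ^ t * w) w‖ ≤
              c * ‖((fun w => ‖w‖ ^ N) ∘ fun w : ℂ => zetaN N ^ t * w) w‖ :=
            hbound.filter_mono nhdsWithin_le_nhds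
          filter_upwards [hb', self_mem_nhdsWithin] with w hw1 hw2
          have hw0 : ‖w‖ ≠ 0 := norm_ne_zero_iff.mpr hw2
          simp only [Function.comp_apply, norm_mul, norm_pow, norm_zetaN hN, one_pow, one_mul,
            norm_norm] at hw1
          rw [norm_mul, norm_inv, norm_pow]
          calc (‖w‖ ^ n)⁻¹ * ‖R (zetaN N ^ t * w)‖ ≤ (‖w‖ ^ n)⁻¹ * (c * ‖w‖ ^ N) := by
                gcongr
            _ = c * ‖w‖ ^ (N - n) := by
                rw [← Nat.sub_add_cancel hn'.le, pow_add]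
                field_simp
                simp
        · have : Continuous fun w : ℂ => c * ‖w‖ ^ (N - n) := by fun_prop
          have h0 := this.tendsto 0
          have hpos : N - n ≠ 0 := Nat.sub_ne_zero_of_lt hn'
          simp only [norm_zero, zero_pow hpos, mul_zero] at h0
          exact h0.mono_left nhdsWithin_le_nhds
      have := (hw.comp (tendsto_qParam_nhdsNE hN)).const_mul ((zetaN N ^ (n * t))⁻¹)
      simpa using this
    have := (tendsto_finsetSum _ this).const_mul ((N : ℂ)⁻¹)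
    simpa using this
  simpa using hzero.const_add (ac N (G x) n)



section mat

variable {X : Type*} [Fintype X] [DecidableEq X] (τ : Equiv.Perm X)

/-- The twist as a matrix. -/
def twistMat (N : ℕ) (z : ℍ) : Matrix X X ℂ :=
  Matrix.of fun x x' => ∑ n ∈ Finset.range N, (𝕢 (N : ℝ) z ^ n)⁻¹ *
    ((N : ℂ)⁻¹ * ∑ t ∈ Finset.range N, (zetaN N ^ (n * t))⁻¹ * (if (τ ^ t) x = x' then 1 else 0))

lemma twistMat_mulVec (z : ℍ) (v : X → ℂ) (x : X) :
    (twistMat τ N z).mulVec v x = twistVec N τ z v x := by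
  simp only [Matrix.mulVec, dotProduct, twistMat, Matrix.of_apply, twistVec, Finset.sum_mul,
    Finset.mul_sum]
  rw [Finset.sum_comm]
  refine Finset.sum_congr rfl fun n _ => ?_
  rw [Finset.sum_comm]
  refine Finset.sum_congr rfl fun t _ => ?_
  simp [mul_assoc]

lemma tendsto_discriminant_mul_inv_qParam_pow (hN : 0 < N) {n : ℕ} (hn : n < N) :
    Tendsto (fun z : ℍ => discriminant z * (𝕢 (N : ℝ) z ^ n)⁻¹) atImInfty (𝓝 0) := by
  have h1 := CuspFormClass.exp_decay_atImInfty CuspForm.discriminant one_pos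
    one_mem_strictPeriods_SL
  obtain ⟨c, hc, hbound⟩ := h1.exists_pos
  rw [IsBigOWith] at hbound
  refine squeeze_zero_norm' (a := fun z : ℍ => c * ‖𝕢 (N : ℝ) z‖ ^ (N - n)) ?_ ?_
  · filter_upwards [hbound] with z hz
    have hq0 : ‖𝕢 (N : ℝ) z‖ ≠ 0 := norm_ne_zero_iff.mpr (qParam_ne_zero' N z)
    have hz' : ‖discriminant z‖ ≤ c * ‖𝕢 (N : ℝ) z‖ ^ N := by
      rw [norm_qParam_pow_N hN]
      simpa [CuspForm.coe_discriminant, abs_of_pos (Real.exp_pos _)] using hz
    rw [norm_mul, norm_inv, norm_pow]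
    calc ‖discriminant z‖ * (‖𝕢 (N : ℝ) z‖ ^ n)⁻¹
        ≤ (c * ‖𝕢 (N : ℝ) z‖ ^ N) * (‖𝕢 (N : ℝ) z‖ ^ n)⁻¹ := by gcongr
      _ = c * ‖𝕢 (N : ℝ) z‖ ^ (N - n) := by
          have hpow : ‖𝕢 (N : ℝ) z‖ ^ N = ‖𝕢 (N : ℝ) z‖ ^ (N - n) * ‖𝕢 (N : ℝ) z‖ ^ n := by
            rw [← pow_add, Nat.sub_add_cancel hn.le]
          rw [hpow]
          field_simp
  · have hcont : Continuous fun w : ℂ => c * ‖w‖ ^ (N - n) := by fun_prop
    have h0 := hcont.tendsto 0
    have hpos : N - n ≠ 0 := Nat.sub_ne_zero_of_lt hn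
    simp only [norm_zero, zero_pow hpos, mul_zero] at h0
    exact h0.comp (qParam_tendsto_atImInfty (h := (N : ℝ)) (by exact_mod_cast hN))

omit [Fintype X] in
lemma tendsto_discriminant_mul_twistMat (hN : 0 < N) (x x' : X) :
    Tendsto (fun z : ℍ => discriminant z * twistMat τ N z x x') atImInfty (𝓝 0) := by
  have e : (fun z : ℍ => discriminant z * twistMat τ N z x x') = fun z : ℍ =>
      ∑ n ∈ Finset.range N, discriminant z * ((𝕢 (N : ℝ) z ^ n)⁻¹ *
      ((N : ℂ)⁻¹ * ∑ t ∈ Finset.range N, (zetaN N ^ (n * t))⁻¹ *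
        (if (τ ^ t) x = x' then 1 else 0))) := by
    funext z
    rw [twistMat, Matrix.of_apply, Finset.mul_sum]
  rw [e]
  have : ∀ n ∈ Finset.range N, Tendsto (fun z : ℍ => discriminant z * ((𝕢 (N : ℝ) z ^ n)⁻¹ *
      ((N : ℂ)⁻¹ * ∑ t ∈ Finset.range N, (zetaN N ^ (n * t))⁻¹ *
        (if (τ ^ t) x = x' then 1 else 0)))) atImInfty (𝓝 0) := by
    intro n hn
    have := (tendsto_discriminant_mul_inv_qParam_pow hN (Finset.mem_range.mp hn)).mul_const
      ((N : ℂ)⁻¹ * ∑ t ∈ Finset.range N, (zetaN N ^ (n * t))⁻¹ *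
        (if (τ ^ t) x = x' then (1 : ℂ) else 0))
    simpa [mul_assoc] using this
  simpa using tendsto_finsetSum _ this

end mat

lemma twistVec_add {X : Type*} (τ : Equiv.Perm X) (N : ℕ) (z : ℍ) (u w : X → ℂ) (x : X) :
    twistVec N τ z (fun x' => u x' + w x') x = twistVec N τ z u x + twistVec N τ z w x := by
  simp only [twistVec, mul_add, Finset.sum_add_distrib]

lemma twistVec_const_mul {X : Type*} (τ : Equiv.Perm X) (N : ℕ) (z : ℍ) (a : ℂ) (u : X → ℂ)
    (x : X) : twistVec N τ z (fun x' => a * u x') x = a * twistVec N τ z u x := by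
  simp only [twistVec, Finset.mul_sum]
  refine Finset.sum_congr rfl fun n _ => Finset.sum_congr rfl fun t _ => by ring

lemma twistVec_zero {X : Type*} (τ : Equiv.Perm X) (N : ℕ) (z : ℍ) (x : X) :
    twistVec N τ z (fun _ => 0) x = 0 := by
  simp [twistVec]

lemma twistVec_sum_mul {X ι : Type*} (τ : Equiv.Perm X) (N : ℕ) (z : ℍ) (s : Finset ι)
    (a : ι → ℂ) (v : ι → X → ℂ) (x : X) :
    twistVec N τ z (fun x' => ∑ i ∈ s, a i * v i x') x
      = ∑ i ∈ s, a i * twistVec N τ z (v i) x := by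
  classical
  induction s using Finset.induction_on with
  | empty => simp [twistVec_zero]
  | insert i s hi ih =>
    simp only [Finset.sum_insert hi]
    rw [twistVec_add, twistVec_const_mul, ih]

end

end Fermat.Agent.S20.helper248
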