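/-
S20, cusp toolkit for modular forms (seat helper248), in the conventions of `helper560_Defs`
(`MFG`, `CFG`, `RR`, `Q`, `tr`, `GoodLevel`): the translates of a modular form along the cosets
form a `T`-family of nice functions; division by `Δ`; products with level one forms.
-/
import Fermat.Agent.S20.helper560_Defs
import Fermat.Agent.S20.helper248_CuspTk

set_option autoImplicit false
set_option linter.unusedSectionVars false

open UpperHalfPlane ModularForm Complex Filter Function Asymptotics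
open scoped Real Topology Manifold MatrixGroups Pointwise
open Fermat.Agent.S20.helper560

namespace Fermat.Agent.S20.helper248

noncomputable section

local notation "𝕢" => Periodic.qParam

lemma slash_T_apply (g : ℍ → ℂ) (k : ℤ) (z : ℍ) :
    (g ∣[k] ModularGroup.T) z = g ((1 : ℝ) +ᵥ z) := by
  rw [SL_slash_apply, UpperHalfPlane.modular_T_smul]
  have : denom (ModularGroup.T : SL(2, ℤ)) z = 1 := by
    rw [ModularGroup.denom_apply]
    simp [ModularGroup.coe_T]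
  rw [this]; simp

variable {𝒢 : Subgroup (GL (Fin 2) ℝ)} [𝒢.IsArithmetic] [𝒢.HasDetOne] {k : ℤ}

/-- An `SL(2,ℤ)`-element representing the inverse of the chosen representative of `q`. -/
def rep (q : Q 𝒢) : SL(2, ℤ) := (Classical.choose (q.out : 𝒮ℒ).2)⁻¹

omit [𝒢.IsArithmetic] [𝒢.HasDetOne] in
lemma mapGL_rep (q : Q 𝒢) :
    (Matrix.SpecialLinearGroup.mapGL ℝ (rep q) : GL (Fin 2) ℝ) = ((q.out : 𝒮ℒ) : GL (Fin 2) ℝ)⁻¹ := by
  rw [rep, map_inv, Classical.choose_spec (q.out : 𝒮ℒ).2]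

omit [𝒢.IsArithmetic] [𝒢.HasDetOne] in
lemma tr_eq_slash_rep (k : ℤ) (f : ℍ → ℂ) (q : Q 𝒢) : tr 𝒢 k f q = f ∣[k] rep q := by
  change tr 𝒢 k f q = f ∣[k] (Matrix.SpecialLinearGroup.mapGL ℝ (rep q) : GL (Fin 2) ℝ)
  rw [mapGL_rep, tr]

omit [𝒢.IsArithmetic] [𝒢.HasDetOne] in
lemma tr_add (k : ℤ) (f g : ℍ → ℂ) (q : Q 𝒢) : tr 𝒢 k (f + g) q = tr 𝒢 k f q + tr 𝒢 k g q := by
  simp only [tr_eq_slash_rep, SlashAction.add_slash]

omit [𝒢.IsArithmetic] [𝒢.HasDetOne] in
lemma tr_smul (k : ℤ) (c : ℂ) (f : ℍ → ℂ) (q : Q 𝒢) : tr 𝒢 k (c • f) q = c • tr 𝒢 k f q := by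
  simp only [tr_eq_slash_rep, SL_smul_slash]

omit [𝒢.IsArithmetic] [𝒢.HasDetOne] in
lemma tr_sum {ι : Type*} (s : Finset ι) (k : ℤ) (f : ι → ℍ → ℂ) (q : Q 𝒢) :
    tr 𝒢 k (∑ i ∈ s, f i) q = ∑ i ∈ s, tr 𝒢 k (f i) q := by
  simp only [tr_eq_slash_rep, SlashAction.sum_slash]

omit [𝒢.IsArithmetic] [𝒢.HasDetOne] in
lemma levelOne_slash {a : ℤ} {P : ℍ → ℂ} (hP : P ∈ RR a) (γ : SL(2, ℤ)) : P ∣[a] γ = P := by
  obtain ⟨P', rfl⟩ := hP
  exact SlashInvariantFormClass.slash_action_eq P' _ ⟨γ, rfl⟩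

omit [𝒢.IsArithmetic] [𝒢.HasDetOne] in
/-- translate of a product with a level one form -/
lemma tr_mul {a b c : ℤ} (h : a + b = c) {P : ℍ → ℂ} (hP : P ∈ RR a) (f : ℍ → ℂ) (q : Q 𝒢) :
    tr 𝒢 c (P * f) q = P * tr 𝒢 b f q := by
  subst h
  rw [tr_eq_slash_rep, tr_eq_slash_rep, mul_slash_SL2, levelOne_slash hP]

omit [𝒢.IsArithmetic] in
/-- translate law -/
lemma tr_slash (F : ModularForm 𝒢 k) (γ : SL(2, ℤ)) (q : Q 𝒢) :
    tr 𝒢 k ⇑F q ∣[k] γ = tr 𝒢 k ⇑F ((sl γ)⁻¹ • q) := by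
  rw [tr_eq_quotientFunc, tr_eq_quotientFunc, SL_slash]
  exact SlashInvariantForm.quotientFunc_smul F (sl γ).2 q

/-- The trivial coset. -/
def q1 (𝒢 : Subgroup (GL (Fin 2) ℝ)) : Q 𝒢 := ((1 : 𝒮ℒ) : Q 𝒢)

omit [𝒢.IsArithmetic] in
lemma tr_q1 (F : ModularForm 𝒢 k) : tr 𝒢 k ⇑F (q1 𝒢) = ⇑F := by
  rw [tr_eq_quotientFunc, q1]
  change SlashInvariantForm.quotientFunc F ⟦(1 : 𝒮ℒ)⟧ = _
  rw [SlashInvariantForm.quotientFunc_mk]
  simp

omit [𝒢.IsArithmetic] in
/-- every `SL(2,ℤ)`-translate of `F` is one of the `tr`'s. -/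
lemma slash_eq_tr (F : ModularForm 𝒢 k) (γ : SL(2, ℤ)) :
    ⇑F ∣[k] γ = tr 𝒢 k ⇑F ((sl γ)⁻¹ • q1 𝒢) := by
  rw [← tr_slash, tr_q1]

/-- The translates of a modular form are nice functions. -/
lemma nice_tr {N : ℕ} (hG : GoodLevel 𝒢 N) (F : ModularForm 𝒢 k) (q : Q 𝒢) :
    Nice N (tr 𝒢 k ⇑F q) := by
  set g : GL (Fin 2) ℝ := ((q.out : 𝒮ℒ) : GL (Fin 2) ℝ)⁻¹ with hg
  obtain ⟨γ, hγ⟩ := (q.out : 𝒮ℒ).2
  have hper : (N : ℝ) ∈ (ConjAct.toConjAct g⁻¹ • 𝒢).strictPeriods := by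
    have := hG.per γ
    rwa [hγ, ← inv_inv ((q.out : 𝒮ℒ) : GL (Fin 2) ℝ), ← hg] at this
  have hN : (0 : ℝ) < N := by exact_mod_cast hG.pos
  have : Fact (IsCusp OnePoint.infty (ConjAct.toConjAct g⁻¹ • 𝒢)) :=
    ⟨Subgroup.isCusp_of_mem_strictPeriods hN hper⟩
  exact ⟨SlashInvariantFormClass.periodic_comp_ofComplex (ModularForm.translate F g) hper,
    ModularFormClass.holo (ModularForm.translate F g),
    ModularFormClass.bdd_at_infty (ModularForm.translate F g)⟩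

/-- The permutation of the cosets induced by `T⁻¹`. -/
def permT (𝒢 : Subgroup (GL (Fin 2) ℝ)) : Equiv.Perm (Q 𝒢) :=
  MulAction.toPerm (sl ModularGroup.T)⁻¹

/-- The translates of a modular form form a `T`-family. -/
lemma tFam_tr {N : ℕ} (hG : GoodLevel 𝒢 N) (F : ModularForm 𝒢 k) :
    TFam N (permT 𝒢) (tr 𝒢 k ⇑F) where
  nice := nice_tr hG F
  shift q z := by
    change tr 𝒢 k ⇑F ((sl ModularGroup.T)⁻¹ • q) z = _
    rw [← tr_slash, slash_T_apply]


/-! ### Closure properties -/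

/-- A level one form is a modular form for every `𝒢 ≤ 𝒮ℒ`. -/
lemma levelOne_mem_MFG (hle : 𝒢 ≤ 𝒮ℒ) {a : ℤ} {P : ℍ → ℂ} (hP : P ∈ RR a) : P ∈ MFG 𝒢 a := by
  obtain ⟨P', rfl⟩ := hP
  exact ⟨{ toFun := P'
           slash_action_eq' := fun γ hγ => P'.slash_action_eq' γ (hle hγ)
           holo' := P'.holo'
           bdd_at_cusps' := fun hc => P'.bdd_at_cusps' (hc.mono hle) }, rfl⟩

lemma mul_mem_MFG (hle : 𝒢 ≤ 𝒮ℒ) {a b c : ℤ} (h : a + b = c) {P f : ℍ → ℂ} (hP : P ∈ RR a)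
    (hf : f ∈ MFG 𝒢 b) : P * f ∈ MFG 𝒢 c := by
  subst h
  obtain ⟨P', rfl⟩ := levelOne_mem_MFG hle hP
  obtain ⟨F, rfl⟩ := hf
  exact ⟨P'.mul F, rfl⟩

lemma mul_mem_CFG (hle : 𝒢 ≤ 𝒮ℒ) {a b c : ℤ} (h : a + b = c) {P f : ℍ → ℂ} (hP : P ∈ RR a)
    (hf : f ∈ CFG 𝒢 b) : P * f ∈ CFG 𝒢 c := by
  obtain ⟨P', rfl⟩ := levelOne_mem_MFG hle hP
  obtain ⟨F, rfl⟩ := hf
  refine ⟨CuspForm.mcast (by rw [← h, add_comm]) (F.mulModularForm P'), ?_⟩
  funext z
  change F z * P' z = P' z * F z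
  ring

/-! ### Level one forms at `i∞` -/

lemma tendsto_valueAtInfty_of_mem_RR {a : ℤ} {P : ℍ → ℂ} (hP : P ∈ RR a) :
    Tendsto P atImInfty (𝓝 (valueAtInfty P)) := by
  obtain ⟨P', rfl⟩ := hP
  have hanal := ModularFormClass.analyticAt_cuspFunction_zero P' one_pos one_mem_strictPeriods_SL
  have hper := SlashInvariantFormClass.periodic_comp_ofComplex P' one_mem_strictPeriods_SL
  rw [← cuspFunction_apply_zero one_pos hanal hper]
  exact (hanal.continuousAt.tendsto.comp (qParam_tendsto_atImInfty one_pos)).congr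
    (fun τ => SlashInvariantFormClass.eq_cuspFunction P' τ one_mem_strictPeriods_SL one_ne_zero)

/-- In every weight `0` or even `≥ 4` there is a level one form with value `1` at `i∞`. -/
lemma exists_RR_tendsto_one {m : ℤ} (hm : m = 0 ∨ (4 ≤ m ∧ Even m)) :
    ∃ A ∈ RR m, Tendsto A atImInfty (𝓝 1) := by
  rcases hm with rfl | ⟨h4, hev⟩
  · exact ⟨1, ⟨(1 : ModularForm 𝒮ℒ 0), rfl⟩, tendsto_const_nhds⟩
  · lift m to ℕ using (by omega)
    have hk : 3 ≤ m := by omega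
    have hev' : Even m := by exact_mod_cast hev
    refine ⟨⇑(ModularForm.E hk), ⟨ModularForm.E hk, rfl⟩, ?_⟩
    have h1 := tendsto_valueAtInfty_of_mem_RR (P := ⇑(ModularForm.E hk)) ⟨ModularForm.E hk, rfl⟩
    have hanal := ModularFormClass.analyticAt_cuspFunction_zero (ModularForm.E hk) one_pos
      one_mem_strictPeriods_SL
    have hper := SlashInvariantFormClass.periodic_comp_ofComplex (ModularForm.E hk)
      one_mem_strictPeriods_SL
    rwa [← qExpansion_coeff_zero one_pos hanal hper, EisensteinSeries.E_qExpansion_coeff_zero hk hev'] at h1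

/-! ### Division by the discriminant -/

/-- If all translates of `f` decay like `e^{-2π Im z}`, then `f / Δ` is a modular form. -/
theorem div_discriminant_mem (hle : 𝒢 ≤ 𝒮ℒ) {f : ℍ → ℂ} (hf : f ∈ MFG 𝒢 k)
    (hdecay : ∀ q, tr 𝒢 k f q =O[atImInfty] fun z : ℍ => Real.exp (-2 * π * z.im)) :
    (fun z => f z / discriminant z) ∈ MFG 𝒢 (k - 12) := by
  obtain ⟨F, rfl⟩ := hf
  have hslash : ∀ γ : SL(2, ℤ), (fun z => F z / discriminant z) ∣[k - 12] γ
      = fun z => (⇑F ∣[k] γ) z / discriminant z := by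
    intro γ
    change (⇑F / ⇑CuspForm.discriminant) ∣[k - 12] γ = (⇑F ∣[k] γ) / ⇑CuspForm.discriminant
    rw [div_slash_SL2]
    congr 1
    exact SlashInvariantFormClass.slash_action_eq CuspForm.discriminant _ ⟨γ, rfl⟩
  refine ⟨{ toFun := fun z => F z / discriminant z
            slash_action_eq' := ?_
            holo' := F.holo'.div CuspForm.discriminant.holo' discriminant_ne_zero
            bdd_at_cusps' := ?_ }, rfl⟩
  · intro γ hγ
    obtain ⟨γ', rfl⟩ := hle hγ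
    have h1 : (fun z => F z / discriminant z) ∣[k - 12]
        (Matrix.SpecialLinearGroup.mapGL ℝ γ' : GL (Fin 2) ℝ)
        = fun z => (⇑F ∣[k] γ') z / discriminant z := hslash γ'
    rw [h1]
    have h2 : ⇑F ∣[k] γ' = ⇑F := SlashInvariantFormClass.slash_action_eq F _ hγ
    rw [h2]
  · intro c hc
    rw [Subgroup.IsArithmetic.isCusp_iff_isCusp_SL2Z] at hc
    rw [OnePoint.isBoundedAt_iff_forall_SL2Z hc]
    intro γ _
    rw [hslash γ, slash_eq_tr F γ, IsBoundedAtImInfty, BoundedAtFilter]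
    have h3 := (hdecay ((sl γ)⁻¹ • q1 𝒢)).trans exp_isBigO_discriminant
    exact (div_isBoundedUnder_of_isBigO h3).isBigO_one ℝ

/-! ### Free bases: leading matrix and decay of the inverse fundamental matrix -/

/-- basis elements of a free basis are nonzero -/
lemma freeBasis_ne_zero {V : ℤ → Submodule ℂ (ℍ → ℂ)} {J : Type} [Fintype J] {κ : J → ℤ}
    {F : J → ℍ → ℂ} (hF : IsFreeBasis V κ F) (j : J) : F j ≠ 0 := by
  classical
  intro h0
  obtain ⟨P, -, huniq⟩ := hF.2 (κ j) 0 (V (κ j)).zero_mem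
  have h1 : (fun i : J => (0 : ℍ → ℂ)) = P :=
    huniq _ ⟨fun i => (RR _).zero_mem, by simp⟩
  have h2 : (fun i : J => if i = j then (1 : ℍ → ℂ) else 0) = P := by
    refine huniq _ ⟨fun i => ?_, ?_⟩
    · by_cases hij : i = j
      · subst hij
        simp only [if_true, sub_self]
        exact ⟨(1 : ModularForm 𝒮ℒ 0), rfl⟩
      · simp only [if_neg hij]
        exact (RR _).zero_mem
    · symm
      refine Finset.sum_eq_zero fun i _ => ?_
      by_cases hij : i = j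
      · subst hij; simp [h0]
      · simp [hij]
  have h3 := congrFun (h2.trans h1.symm) j
  simp only [if_true] at h3
  exact one_ne_zero (congrFun h3 UpperHalfPlane.I)


/-- generator weights of a free basis of `MFG 𝒢` are nonnegative and even (when `-1 ∈ 𝒢`). -/
lemma freeBasis_weight_nonneg_even (hneg : -1 ∈ 𝒢) {J : Type} [Fintype J] {κ : J → ℤ}
    {F : J → ℍ → ℂ} (hF : IsFreeBasis (MFG 𝒢) κ F) (j : J) : 0 ≤ κ j ∧ Even (κ j) := by
  obtain ⟨F', hF'⟩ := hF.1 j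
  have hne : F' ≠ 0 := by
    intro h0
    apply freeBasis_ne_zero hF j
    rw [← hF', h0]
    rfl
  constructor
  · by_contra hlt
    exact hne (ModularForm.isZero_of_neg_weight (not_le.mp hlt) F')
  · by_contra hodd
    exact hne (ModularForm.eq_zero_of_neg_one_mem hneg (Int.not_even_iff_odd.mp hodd) F')

/-- LEADMAT: the leading vectors of the elements of a free basis are linearly independent. -/
theorem leadMat_injective {N : ℕ} (hG : GoodLevel 𝒢 N) {J : Type} [Fintype J] (κ : J → ℤ)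
    (F : J → ℍ → ℂ) (hF : IsFreeBasis (MFG 𝒢) κ F) (c : J → ℂ)
    (hc : ∀ q : Q 𝒢, ∑ j, c j * lead N (tr 𝒢 (κ j) (F j) q) = 0) : c = 0 := by
  classical
  have hN := hG.pos
  have hκ := fun j => freeBasis_weight_nonneg_even hG.neg hF j
  -- the common weight
  set K : ℤ := 4 + ∑ i, κ i with hK
  have hKj : ∀ j, 4 ≤ K - κ j ∧ Even (K - κ j) := by
    intro j
    have h1 : κ j ≤ ∑ i, κ i :=
      Finset.single_le_sum (f := κ) (fun i _ => (hκ i).1) (Finset.mem_univ j)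
    have h2 : Even (∑ i, κ i) := Finset.even_sum _ fun i _ => (hκ i).2
    refine ⟨by omega, ?_⟩
    have h4 : Even (4 : ℤ) := ⟨2, rfl⟩
    exact ((h4.add h2).sub (hκ j).2)
  choose A hA hAlim using fun j => exists_RR_tendsto_one (m := K - κ j) (Or.inr (hKj j))
  choose F' hF' using hF.1
  -- the homogenised combination
  set f : ℍ → ℂ := ∑ j, c j • (A j * F j) with hf
  have hfmem : f ∈ MFG 𝒢 K := by
    refine Submodule.sum_mem _ fun j _ => Submodule.smul_mem _ _ ?_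
    exact mul_mem_MFG hG.le (a := K - κ j) (b := κ j) (c := K) (by ring) (hA j) (hF.1 j)
  obtain ⟨Ff, hFf⟩ := hfmem
  -- translates of `f`
  have htr : ∀ q, tr 𝒢 K f q = ∑ j, c j • (A j * tr 𝒢 (κ j) (F j) q) := by
    intro q
    rw [hf, tr_sum]
    refine Finset.sum_congr rfl fun j _ => ?_
    rw [tr_smul, tr_mul (a := K - κ j) (b := κ j) (c := K) (by ring) (hA j)]
  -- the leading vector of `f` vanishes
  have hlead : ∀ q, lead N (tr 𝒢 K ⇑Ff q) = 0 := by
    intro q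
    have h1 := (tFam_tr hG Ff).tendsto_twist hN q
    have h2 : Tendsto (fun z : ℍ => twistVec N (permT 𝒢) z (fun q' => tr 𝒢 K ⇑Ff q' z) q)
        atImInfty (𝓝 (∑ j, c j * (1 * lead N (tr 𝒢 (κ j) (F j) q)))) := by
      have h3 : ∀ z : ℍ, twistVec N (permT 𝒢) z (fun q' => tr 𝒢 K ⇑Ff q' z) q
          = ∑ j, c j * (A j z * twistVec N (permT 𝒢) z (fun q' => tr 𝒢 (κ j) (F j) q' z) q) := by
        intro z
        have : (fun q' => tr 𝒢 K ⇑Ff q' z)
            = fun q' => ∑ j, (c j * A j z) * tr 𝒢 (κ j) (F j) q' z := by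
          funext q'
          rw [hFf, htr q']
          simp [Finset.sum_apply, mul_assoc]
        rw [this, twistVec_sum_mul]
        refine Finset.sum_congr rfl fun j _ => by ring
      simp only [h3]
      refine tendsto_finsetSum _ fun j _ => ?_
      have h4 := (tFam_tr hG (F' j)).tendsto_twist hN q
      rw [hF' j] at h4
      exact ((hAlim j).mul h4).const_mul (c j)
    have h5 := tendsto_nhds_unique h1 h2
    rw [h5]
    simpa using hc q
  -- hence `f / Δ` is a modular form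
  have hdecay : ∀ q, tr 𝒢 K f q =O[atImInfty] fun z : ℍ => Real.exp (-2 * π * z.im) := by
    intro q
    rw [← hFf]
    exact (tFam_tr hG Ff).isBigO_of_lead hN hlead q
  have hg := div_discriminant_mem hG.le ⟨Ff, hFf⟩ hdecay
  obtain ⟨B, ⟨hB, hgB⟩, -⟩ := hF.2 (K - 12) _ hg
  -- two expansions of `f`
  have hΔ : (discriminant : ℍ → ℂ) ∈ RR 12 := ⟨ModularFormClass.modularForm CuspForm.discriminant, rfl⟩
  have hexp1 : (∀ j, c j • A j ∈ RR (K - κ j)) ∧ f = ∑ j, (c j • A j) * F j := by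
    refine ⟨fun j => Submodule.smul_mem _ _ (hA j), ?_⟩
    rw [hf]
    refine Finset.sum_congr rfl fun j _ => by rw [smul_mul_assoc]
  have hexp2 : (∀ j, discriminant * B j ∈ RR (K - κ j)) ∧ f = ∑ j, (discriminant * B j) * F j := by
    refine ⟨fun j => ?_, ?_⟩
    · have := mul_mem_MFG (𝒢 := 𝒮ℒ) le_rfl (a := 12) (b := K - 12 - κ j) (c := K - κ j) (by ring)
        hΔ (hB j)
      exact this
    · have h6 : f = discriminant * fun z => f z / discriminant z := by
        funext z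
        simp only [Pi.mul_apply]
        rw [mul_div_cancel₀ _ (discriminant_ne_zero z)]
      rw [h6, hgB, Finset.mul_sum]
      refine Finset.sum_congr rfl fun j _ => by rw [mul_assoc]
  have huniq := (hF.2 K f ⟨Ff, hFf⟩).unique hexp1 hexp2
  funext j
  have h7 : ∀ z, c j * A j z = discriminant z * B j z := fun z => by
    have := congrFun (congrFun huniq j) z
    simpa using this
  have h8 : Tendsto (fun z : ℍ => c j * A j z) atImInfty (𝓝 (c j * 1)) :=
    (hAlim j).const_mul (c j)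
  have h9 : Tendsto (fun z : ℍ => discriminant z * B j z) atImInfty
      (𝓝 (0 * valueAtInfty (B j))) :=
    (discriminant_isZeroAtImInfty).mul (tendsto_valueAtInfty_of_mem_RR (hB j))
  simp only [h7] at h8
  have := tendsto_nhds_unique h8 h9
  simpa using this


open Classical in
/-- The leading matrix of a free basis indexed by the cosets. -/
def leadMat (𝒢 : Subgroup (GL (Fin 2) ℝ)) (N : ℕ) (κ : Q 𝒢 → ℤ) (F : Q 𝒢 → ℍ → ℂ) :
    Matrix (Q 𝒢) (Q 𝒢) ℂ :=
  Matrix.of fun q j => lead N (tr 𝒢 (κ j) (F j) q)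

open Classical in
theorem det_leadMat_ne_zero {N : ℕ} (hG : GoodLevel 𝒢 N) (κ : Q 𝒢 → ℤ) (F : Q 𝒢 → ℍ → ℂ)
    (hF : IsFreeBasis (MFG 𝒢) κ F) : (leadMat 𝒢 N κ F).det ≠ 0 := by
  intro h0
  obtain ⟨v, hv, hv0⟩ := Matrix.exists_mulVec_eq_zero_iff.mpr h0
  apply hv
  refine leadMat_injective hG κ F hF v fun q => ?_
  have := congrFun hv0 q
  simp only [Matrix.mulVec, dotProduct, leadMat, Matrix.of_apply, Pi.zero_apply] at this
  rw [← this]
  refine Finset.sum_congr rfl fun j _ => by ring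

open Classical in
/-- The twisted fundamental matrix tends to the leading matrix. -/
theorem tendsto_twist_transMatrix {N : ℕ} (hG : GoodLevel 𝒢 N) (κ : Q 𝒢 → ℤ) (F : Q 𝒢 → ℍ → ℂ)
    (hF : ∀ j, F j ∈ MFG 𝒢 (κ j)) :
    Tendsto (fun z : ℍ => twistMat (permT 𝒢) N z * transMatrix 𝒢 κ F z) atImInfty
      (𝓝 (leadMat 𝒢 N κ F)) := by
  choose F' hF' using hF
  refine tendsto_pi_nhds.mpr fun q => tendsto_pi_nhds.mpr fun j => ?_
  have h1 := (tFam_tr hG (F' j)).tendsto_twist hG.pos q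
  rw [hF' j] at h1
  refine h1.congr fun z => ?_
  rw [← twistMat_mulVec, Matrix.mul_apply]
  rfl

open Classical in
/-- CUSPDECAY: `Δ · Φ⁻¹ → 0` at `i∞`, entrywise. -/
theorem cuspDecay {N : ℕ} (hG : GoodLevel 𝒢 N) (κ : Q 𝒢 → ℤ) (F : Q 𝒢 → ℍ → ℂ)
    (hF : IsFreeBasis (MFG 𝒢) κ F) (j q : Q 𝒢) :
    IsZeroAtImInfty (fun z => discriminant z * (transMatrix 𝒢 κ F z)⁻¹ j q) := by
  set C := leadMat 𝒢 N κ F with hC
  have hCdet : C.det ≠ 0 := det_leadMat_ne_zero hG κ F hF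
  set P : ℍ → Matrix (Q 𝒢) (Q 𝒢) ℂ :=
    fun z => twistMat (permT 𝒢) N z * transMatrix 𝒢 κ F z with hP
  have hPlim : Tendsto P atImInfty (𝓝 C) := tendsto_twist_transMatrix hG κ F hF.1
  have hdetlim : Tendsto (fun z => (P z).det) atImInfty (𝓝 C.det) :=
    (continuous_id.matrix_det.tendsto C).comp hPlim
  have hev : ∀ᶠ z in atImInfty, (P z).det ≠ 0 := hdetlim.eventually_ne hCdet
  have hinvlim : Tendsto (fun z => (P z)⁻¹) atImInfty (𝓝 C⁻¹) := by
    have hcont : ContinuousAt Ring.inverse C.det := by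
      have : ContinuousAt (fun x : ℂ => x⁻¹) C.det := continuousAt_inv₀ hCdet
      have h2 : (Ring.inverse : ℂ → ℂ) = fun x => x⁻¹ := by
        funext x; exact Ring.inverse_eq_inv x
      rwa [h2]
    exact (continuousAt_matrix_inv C hcont).tendsto.comp hPlim
  -- the formula for the inverse
  have hformula : ∀ᶠ z in atImInfty, discriminant z * (transMatrix 𝒢 κ F z)⁻¹ j q
      = ∑ q', (P z)⁻¹ j q' * (discriminant z * twistMat (permT 𝒢) N z q' q) := by
    filter_upwards [hev] with z hz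
    have hinv : (transMatrix 𝒢 κ F z)⁻¹ = (P z)⁻¹ * twistMat (permT 𝒢) N z := by
      apply Matrix.inv_eq_left_inv
      rw [Matrix.mul_assoc]
      exact Matrix.nonsing_inv_mul _ (isUnit_iff_ne_zero.mpr hz)
    rw [hinv, Matrix.mul_apply, Finset.mul_sum]
    refine Finset.sum_congr rfl fun q' _ => by ring
  rw [IsZeroAtImInfty, ZeroAtFilter]
  refine Tendsto.congr' (EventuallyEq.symm hformula) ?_
  have : ∀ q' ∈ (Finset.univ : Finset (Q 𝒢)), Tendsto (fun z : ℍ =>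
      (P z)⁻¹ j q' * (discriminant z * twistMat (permT 𝒢) N z q' q)) atImInfty
      (𝓝 (C⁻¹ j q' * 0)) := by
    intro q' _
    have h1 : Tendsto (fun z : ℍ => (P z)⁻¹ j q') atImInfty (𝓝 (C⁻¹ j q')) :=
      (tendsto_pi_nhds.mp (tendsto_pi_nhds.mp hinvlim j) q')
    exact h1.mul (tendsto_discriminant_mul_twistMat (permT 𝒢) hG.pos q' q)
  simpa using tendsto_finsetSum _ this


open Classical in
/-- For a free basis indexed by the cosets, the fundamental matrix is invertible near `i∞`. -/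
theorem eventually_det_transMatrix_ne_zero {N : ℕ} (hG : GoodLevel 𝒢 N) (κ : Q 𝒢 → ℤ)
    (F : Q 𝒢 → ℍ → ℂ) (hF : IsFreeBasis (MFG 𝒢) κ F) :
    ∀ᶠ z in atImInfty, (transMatrix 𝒢 κ F z).det ≠ 0 := by
  have hCdet : (leadMat 𝒢 N κ F).det ≠ 0 := det_leadMat_ne_zero hG κ F hF
  have hPlim := tendsto_twist_transMatrix hG κ F hF.1
  have hdetlim : Tendsto (fun z => (twistMat (permT 𝒢) N z * transMatrix 𝒢 κ F z).det) atImInfty
      (𝓝 (leadMat 𝒢 N κ F).det) :=
    (continuous_id.matrix_det.tendsto _).comp hPlim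
  filter_upwards [hdetlim.eventually_ne hCdet] with z hz
  intro h0
  apply hz
  rw [Matrix.det_mul, h0, mul_zero]

/-- For a free basis indexed by the cosets, the fundamental determinant is not identically zero
(no separation input needed once the number of generators is the index). -/
theorem exists_fundDet_ne_zero {N : ℕ} (hG : GoodLevel 𝒢 N) (κ : Q 𝒢 → ℤ)
    (F : Q 𝒢 → ℍ → ℂ) (hF : IsFreeBasis (MFG 𝒢) κ F) : ∃ z, fundDet 𝒢 κ F z ≠ 0 :=
  (eventually_det_transMatrix_ne_zero hG κ F hF).exists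


end

end Fermat.Agent.S20.helper248
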