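/-
S20 (seat helper2540): the coset-separating Eisenstein series for `Γ₀(N)`.

* `tendsto_eisensteinSeries_atImInfty`: the value at `i∞` of Mathlib's level `N` Eisenstein
  series `eisensteinSeries a k` (`k ≥ 3`) is `[a = (0,1)] + (-1)^k [a = (0,-1)]`.
* `gamma0Eis N hk : ModularForm (Γ₀(N)) k`, with underlying function
  `gamma0EisFun N k = ∑_{d ∈ (ℤ/N)ˣ} eisensteinSeries ![0, d] k`.
* `tendsto_gamma0Eis_slash`: for even `k`, `(G ∣[k] γ)(i∞) = 2` if `γ ∈ Γ₀(N)`, `0` otherwise.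
* `gamma0Eis_separation`: translates of `G` along distinct cosets are linearly independent.
* `mem_Gamma0_of_gamma0EisFun_slash_eq`: the stabiliser of `G` in `SL(2,ℤ)` is exactly `Γ₀(N)`.
-/
import Mathlib

set_option autoImplicit false

open UpperHalfPlane ModularForm EisensteinSeries CongruenceSubgroup Filter Topology
open scoped MatrixGroups

namespace Fermat.Agent.S20.helper2540

/-- Limit of a single Eisenstein summand along `atImInfty`. -/
lemma tendsto_eisSummand_atImInfty {k : ℤ} (hk : 0 < k) (x : Fin 2 → ℤ) :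
    Tendsto (eisSummand k x) atImInfty
      (𝓝 (if x 0 = 0 then ((x 1 : ℤ) : ℂ) ^ (-k) else 0)) := by
  split_ifs with h
  · have : eisSummand k x = fun _ => ((x 1 : ℤ) : ℂ) ^ (-k) := by
      funext z
      simp [eisSummand, h]
    rw [this]
    exact tendsto_const_nhds
  · rw [tendsto_zero_iff_norm_tendsto_zero]
    have him : Tendsto (fun z : ℍ => z.im) atImInfty atTop := tendsto_comap
    have h0 : Tendsto (fun z : ℍ => (z.im) ^ (-k)) atImInfty (𝓝 0) :=
      (tendsto_zpow_atTop_zero (by omega)).comp him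
    refine squeeze_zero' (Eventually.of_forall fun z => norm_nonneg _) ?_ h0
    filter_upwards with z
    have hzim : 0 < z.im := z.im_pos
    have hle : z.im ≤ ‖(x 0 : ℂ) * (z : ℂ) + (x 1 : ℂ)‖ := by
      have h1 : |((x 0 : ℂ) * (z : ℂ) + (x 1 : ℂ)).im| ≤ ‖(x 0 : ℂ) * (z : ℂ) + (x 1 : ℂ)‖ :=
        Complex.abs_im_le_norm _
      have h2 : ((x 0 : ℂ) * (z : ℂ) + (x 1 : ℂ)).im = (x 0 : ℝ) * z.im := by
        simp
      rw [h2, abs_mul] at h1
      have h3 : (1 : ℝ) ≤ |(x 0 : ℝ)| := by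
        have : (1 : ℤ) ≤ |x 0| := Int.one_le_abs h
        exact_mod_cast this
      calc z.im = 1 * z.im := (one_mul _).symm
        _ ≤ |(x 0 : ℝ)| * |z.im| := by
            rw [abs_of_pos hzim]
            exact mul_le_mul_of_nonneg_right h3 hzim.le
        _ ≤ _ := h1
    simp only [eisSummand, norm_zpow]
    rw [zpow_neg, zpow_neg]
    apply inv_anti₀ (zpow_pos hzim k)
    exact zpow_le_zpow_left₀ hk.le hzim.le hle

/-- The filter "`im → ∞` along the imaginary axis" is nontrivial. -/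
instance instNeBotAxis : (atImInfty ⊓ 𝓟 {z : ℍ | z.re = 0}).NeBot := by
  rw [inf_principal_neBot_iff]
  intro U hU
  rw [atImInfty_mem] at hU
  obtain ⟨A, hA⟩ := hU
  have hpos : (0 : ℝ) < (⟨0, max A 1⟩ : ℂ).im := by
    show (0 : ℝ) < max A 1
    exact lt_of_lt_of_le one_pos (le_max_right _ _)
  refine ⟨⟨⟨0, max A 1⟩, hpos⟩, hA _ ?_, ?_⟩
  · show A ≤ max A 1
    exact le_max_left _ _
  · show (0 : ℝ) = 0
    rfl

/-- The value at `i∞` of the level `N` Eisenstein series, as a `tsum`. -/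
lemma tendsto_eisensteinSeries_axis {N : ℕ} (a : Fin 2 → ZMod N) {k : ℤ} (hk : 3 ≤ k) :
    Tendsto (eisensteinSeries a k) (atImInfty ⊓ 𝓟 {z : ℍ | z.re = 0})
      (𝓝 (∑' x : gammaSet N 1 a, (if x.1 0 = 0 then ((x.1 1 : ℤ) : ℂ) ^ (-k) else 0))) := by
  have hk' : (2 : ℝ) < k := by norm_cast
  have p_sum : Summable fun x : gammaSet N 1 a ↦
      r ⟨⟨0, 1⟩, one_pos⟩ ^ (-(k : ℝ)) * ‖x.val‖ ^ (-(k : ℝ)) :=
    ((summable_one_div_norm_rpow hk').subtype (· ∈ gammaSet N 1 a)).mul_left _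
  unfold eisensteinSeries
  refine tendsto_tsum_of_dominated_convergence p_sum (fun x => ?_) ?_
  · exact (tendsto_eisSummand_atImInfty (by omega) x.1).mono_left inf_le_left
  · have h1 : {z : ℍ | 1 ≤ z.im} ∈ atImInfty := by
      rw [atImInfty_mem]
      exact ⟨1, fun z hz => hz⟩
    have h2 : {z : ℍ | z.re = 0} ∈ (atImInfty ⊓ 𝓟 {z : ℍ | z.re = 0}) :=
      mem_inf_of_right (mem_principal_self _)
    filter_upwards [mem_inf_of_left h1, h2] with z hz1 hz2 x
    have hz : z ∈ verticalStrip 0 1 := by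
      rw [mem_verticalStrip_iff]
      exact ⟨by rw [show z.re = 0 from hz2]; simp, hz1⟩
    simpa only [eisSummand, one_div, ← zpow_neg, norm_zpow, ← Real.rpow_intCast,
      Int.cast_neg] using summand_bound_of_mem_verticalStrip (k := k) (by positivity) x.1 one_pos hz

lemma cast_comp_zero_one (N : ℕ) :
    (((↑) : ℤ → ZMod N) ∘ (![0, 1] : Fin 2 → ℤ)) = ![0, 1] := by
  funext i
  fin_cases i <;> simp

lemma cast_comp_zero_neg_one (N : ℕ) :
    (((↑) : ℤ → ZMod N) ∘ (![0, -1] : Fin 2 → ℤ)) = ![0, -1] := by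
  funext i
  fin_cases i <;> simp

lemma zero_one_mem_gammaSet_iff {N : ℕ} (a : Fin 2 → ZMod N) :
    (![0, 1] : Fin 2 → ℤ) ∈ gammaSet N 1 a ↔ a = ![0, 1] := by
  simp only [gammaSet, Set.mem_ofPred_eq, cast_comp_zero_one]
  constructor
  · rintro ⟨h, -⟩
    exact h.symm
  · rintro rfl
    exact ⟨rfl, by simp⟩

lemma zero_neg_one_mem_gammaSet_iff {N : ℕ} (a : Fin 2 → ZMod N) :
    (![0, -1] : Fin 2 → ℤ) ∈ gammaSet N 1 a ↔ a = ![0, -1] := by
  simp only [gammaSet, Set.mem_ofPred_eq, cast_comp_zero_neg_one]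
  constructor
  · rintro ⟨h, -⟩
    exact h.symm
  · rintro rfl
    exact ⟨rfl, by simp⟩

/-- Evaluation of the limit `tsum`: only `(0, 1)` and `(0, -1)` can contribute. -/
lemma tsum_limit_eq {N : ℕ} (a : Fin 2 → ZMod N) (k : ℤ) :
    (∑' x : gammaSet N 1 a, (if x.1 0 = 0 then ((x.1 1 : ℤ) : ℂ) ^ (-k) else 0)) =
      (if a = ![0, 1] then 1 else 0) + (if a = ![0, -1] then (-1 : ℂ) ^ k else 0) := by
  rw [tsum_subtype (gammaSet N 1 a) (fun x => if x 0 = 0 then ((x 1 : ℤ) : ℂ) ^ (-k) else 0)]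
  have hne : (![0, 1] : Fin 2 → ℤ) ≠ ![0, -1] := by
    intro h
    have := congrFun h 1
    simp at this
  rw [tsum_eq_sum (s := {![0, 1], ![0, -1]})]
  · rw [Finset.sum_pair hne]
    congr 1
    · by_cases h : a = ![0, 1]
      · rw [if_pos h, Set.indicator_of_mem ((zero_one_mem_gammaSet_iff a).mpr h)]
        simp
      · rw [if_neg h, Set.indicator_of_notMem (fun h' => h ((zero_one_mem_gammaSet_iff a).mp h'))]
    · by_cases h : a = ![0, -1]
      · rw [if_pos h, Set.indicator_of_mem ((zero_neg_one_mem_gammaSet_iff a).mpr h)]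
        simp only [Matrix.cons_val_zero, if_true, Matrix.cons_val_one, Matrix.cons_val_fin_one,
          Int.cast_neg, Int.cast_one]
        rw [zpow_neg, ← inv_zpow, inv_neg_one]
      · rw [if_neg h, Set.indicator_of_notMem (fun h' => h ((zero_neg_one_mem_gammaSet_iff a).mp h'))]
  · intro x hx
    by_cases hmem : x ∈ gammaSet N 1 a
    · rw [Set.indicator_of_mem hmem]
      by_cases h0 : x 0 = 0
      · exfalso
        apply hx
        have hg : (x 0).gcd (x 1) = 1 := hmem.2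
        rw [h0, Int.gcd_zero_left] at hg
        have h1 : x 1 = 1 ∨ x 1 = -1 := Int.natAbs_eq_natAbs_iff.mp (by rw [hg]; rfl)
        rcases h1 with h1 | h1
        · have : x = ![0, 1] := by
            funext i
            fin_cases i <;> simp [h0, h1]
          simp [this]
        · have : x = ![0, -1] := by
            funext i
            fin_cases i <;> simp [h0, h1]
          simp [this]
      · rw [if_neg h0]
    · rw [Set.indicator_of_notMem hmem]

/-- **Value at `i∞` of the level `N` Eisenstein series** of weight `k ≥ 3` with congruence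
condition `a`: it is `[a = (0,1)] + (-1)^k [a = (0,-1)]`. -/
theorem tendsto_eisensteinSeries_atImInfty {N : ℕ} [NeZero N] (a : Fin 2 → ZMod N) {k : ℤ}
    (hk : 3 ≤ k) :
    Tendsto (eisensteinSeries a k) atImInfty
      (𝓝 ((if a = ![0, 1] then 1 else 0) + (if a = ![0, -1] then (-1 : ℂ) ^ k else 0))) := by
  set f : ModularForm Γ(N) k := eisensteinSeriesMF hk a with hf
  have hN : (0 : ℝ) < N := by exact_mod_cast NeZero.pos N
  have hΓ : (N : ℝ) ∈ (Γ(N) : Subgroup (GL (Fin 2) ℝ)).strictPeriods := by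
    simp [strictPeriods_Gamma]
  have han : AnalyticAt ℂ (cuspFunction N f) 0 :=
    ModularFormClass.analyticAt_cuspFunction_zero f hN hΓ
  have hcomp : (cuspFunction N f ∘ fun τ : ℍ ↦ Function.Periodic.qParam N τ : ℍ → ℂ) = f := by
    funext τ
    simpa using SlashInvariantFormClass.eq_cuspFunction f τ hΓ hN.ne'
  have h1 : Tendsto (f : ℍ → ℂ) atImInfty (𝓝 (cuspFunction N f 0)) := by
    simpa [hcomp] using han.continuousAt.tendsto.comp (qParam_tendsto_atImInfty hN)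
  have hfe : (f : ℍ → ℂ) = eisensteinSeries a k := rfl
  have h2 := tendsto_eisensteinSeries_axis a hk
  rw [tsum_limit_eq] at h2
  have : cuspFunction N f 0 =
      (if a = ![0, 1] then 1 else 0) + (if a = ![0, -1] then (-1 : ℂ) ^ k else 0) :=
    tendsto_nhds_unique ((hfe ▸ h1).mono_left inf_le_left) h2
  rw [← this]
  exact hfe ▸ h1

/-! ### The `Γ₀(N)` Eisenstein series -/

/-- The function underlying the coset-separating Eisenstein series for `Γ₀(N)`:
`∑_{d ∈ (ℤ/N)ˣ} E_k^{(0,d)}`. -/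
noncomputable def gamma0EisFun (N : ℕ) [NeZero N] (k : ℤ) : ℍ → ℂ :=
  ∑ d : (ZMod N)ˣ, eisensteinSeries (![0, (d : ZMod N)] : Fin 2 → ZMod N) k

lemma gamma0EisFun_slash (N : ℕ) [NeZero N] (k : ℤ) (γ : SL(2, ℤ)) :
    gamma0EisFun N k ∣[k] γ =
      ∑ d : (ZMod N)ˣ, eisensteinSeries
        (![(d : ZMod N) * ((γ 1 0 : ℤ) : ZMod N), (d : ZMod N) * ((γ 1 1 : ℤ) : ZMod N)] :
          Fin 2 → ZMod N) k := by
  unfold gamma0EisFun
  rw [SL_slash, SlashAction.sum_slash]
  refine Finset.sum_congr rfl fun d _ => ?_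
  rw [← SL_slash, eisensteinSeries_slash_apply]
  congr 1
  funext i
  fin_cases i <;> simp [Matrix.vecMul] <;> rfl

lemma gamma0EisFun_slash_of_mem (N : ℕ) [NeZero N] (k : ℤ) {γ : SL(2, ℤ)} (hγ : γ ∈ Gamma0 N) :
    gamma0EisFun N k ∣[k] γ = gamma0EisFun N k := by
  rw [gamma0EisFun_slash]
  have h10 : ((γ 1 0 : ℤ) : ZMod N) = 0 := Gamma0_mem.mp hγ
  have hdet : ((γ 0 0 : ℤ) : ZMod N) * ((γ 1 1 : ℤ) : ZMod N) = 1 := by
    have h1 : (γ 0 0 : ℤ) * γ 1 1 - γ 0 1 * γ 1 0 = 1 := by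
      have := Matrix.SpecialLinearGroup.det_coe γ
      rw [Matrix.det_fin_two] at this
      exact this
    have h2 := congrArg (Int.cast : ℤ → ZMod N) h1
    push_cast at h2
    rw [h10] at h2
    simpa using h2
  let u : (ZMod N)ˣ := ⟨((γ 1 1 : ℤ) : ZMod N), ((γ 0 0 : ℤ) : ZMod N),
    by rw [mul_comm]; exact hdet, hdet⟩
  unfold gamma0EisFun
  rw [← Equiv.sum_comp (Equiv.mulRight u)
    (fun d : (ZMod N)ˣ => eisensteinSeries (![0, (d : ZMod N)] : Fin 2 → ZMod N) k)]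
  refine Finset.sum_congr rfl fun d _ => ?_
  simp [h10, u]

/-- The limit value of `eisensteinSeries a k` at `i∞`. -/
noncomputable def eisLim {N : ℕ} (a : Fin 2 → ZMod N) (k : ℤ) : ℂ :=
  (if a = ![0, 1] then 1 else 0) + (if a = ![0, -1] then (-1 : ℂ) ^ k else 0)

lemma eisLim_eq_zero_of_ne {N : ℕ} (a : Fin 2 → ZMod N) (k : ℤ) (h : a 0 ≠ 0) :
    eisLim a k = 0 := by
  have h1 : a ≠ ![0, 1] := fun h' => h (by rw [h']; rfl)
  have h2 : a ≠ ![0, -1] := fun h' => h (by rw [h']; rfl)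
  simp [eisLim, h1, h2]

lemma isBoundedAtImInfty_eisensteinSeries {N : ℕ} [NeZero N] (a : Fin 2 → ZMod N) {k : ℤ}
    (hk : 3 ≤ k) : IsBoundedAtImInfty (eisensteinSeries a k) :=
  (tendsto_eisensteinSeries_atImInfty a hk).isBigO_one ℝ

/-- The coset-separating Eisenstein series for `Γ₀(N)` as a modular form of weight `k ≥ 3`. -/
noncomputable def gamma0Eis (N : ℕ) [NeZero N] {k : ℤ} (hk : 3 ≤ k) :
    ModularForm ((Gamma0 N).map (Matrix.SpecialLinearGroup.mapGL ℝ)) k where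
  toFun := gamma0EisFun N k
  slash_action_eq' A hA := by
    obtain ⟨γ, hγ, rfl⟩ := hA
    have h := gamma0EisFun_slash_of_mem N k hγ
    rw [SL_slash] at h
    exact h
  holo' := by
    unfold gamma0EisFun
    exact MDifferentiable.sum (fun d _ => eisensteinSeriesSIF_mdifferentiable hk _)
  bdd_at_cusps' {c} hc := by
    rw [Subgroup.IsArithmetic.isCusp_iff_isCusp_SL2Z] at hc
    rw [OnePoint.isBoundedAt_iff_forall_SL2Z hc]
    intro γ _
    rw [gamma0EisFun_slash, IsBoundedAtImInfty, BoundedAtFilter, Finset.sum_fn]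
    exact .fun_sum fun d _ => isBoundedAtImInfty_eisensteinSeries _ hk

@[simp]
lemma coe_gamma0Eis (N : ℕ) [NeZero N] {k : ℤ} (hk : 3 ≤ k) :
    (gamma0Eis N hk : ℍ → ℂ) = gamma0EisFun N k := rfl

lemma tendsto_gamma0EisFun_slash (N : ℕ) [NeZero N] {k : ℤ} (hk : 3 ≤ k) (γ : SL(2, ℤ)) :
    Tendsto (gamma0EisFun N k ∣[k] γ) atImInfty
      (𝓝 (∑ d : (ZMod N)ˣ, eisLim (![(d : ZMod N) * ((γ 1 0 : ℤ) : ZMod N),
        (d : ZMod N) * ((γ 1 1 : ℤ) : ZMod N)] : Fin 2 → ZMod N) k)) := by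
  rw [gamma0EisFun_slash, Finset.sum_fn]
  exact tendsto_finsetSum _ fun d _ => tendsto_eisensteinSeries_atImInfty _ hk

/-- **Coset separation.** For even `k ≥ 4`, the translate of the `Γ₀(N)` Eisenstein series by
`γ ∈ SL(2, ℤ)` tends to `2` at `i∞` if `γ ∈ Γ₀(N)` and to `0` otherwise. -/
theorem tendsto_gamma0Eis_slash (N : ℕ) [NeZero N] {k : ℤ} (hk : 3 ≤ k) (hk2 : Even k)
    (γ : SL(2, ℤ)) [Decidable (γ ∈ Gamma0 N)] :
    Tendsto ((gamma0Eis N hk : ℍ → ℂ) ∣[k] γ) atImInfty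
      (𝓝 (if γ ∈ Gamma0 N then 2 else 0)) := by
  rw [coe_gamma0Eis]
  split_ifs with hγ
  · rw [gamma0EisFun_slash_of_mem N k hγ]
    have h := tendsto_gamma0EisFun_slash N hk 1
    rw [show gamma0EisFun N k ∣[k] (1 : SL(2, ℤ)) = gamma0EisFun N k by
      rw [SL_slash]; simp] at h
    convert h using 2
    have hval : ∀ d : (ZMod N)ˣ, eisLim (![(d : ZMod N) * (((1 : SL(2, ℤ)) 1 0 : ℤ) : ZMod N),
        (d : ZMod N) * (((1 : SL(2, ℤ)) 1 1 : ℤ) : ZMod N)] : Fin 2 → ZMod N) k =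
        (if d = 1 then 1 else 0) + (if d = -1 then 1 else 0) := by
      intro d
      have e1 : (![(d : ZMod N) * (((1 : SL(2, ℤ)) 1 0 : ℤ) : ZMod N),
        (d : ZMod N) * (((1 : SL(2, ℤ)) 1 1 : ℤ) : ZMod N)] : Fin 2 → ZMod N) = ![0, (d : ZMod N)] := by
        funext i
        fin_cases i <;> simp
      rw [e1, eisLim, hk2.neg_one_zpow]
      congr 1
      · refine if_congr ⟨fun h => ?_, fun h => by rw [h]; rfl⟩ rfl rfl
        exact Units.ext (by simpa using congrFun h 1)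
      · refine if_congr ⟨fun h => ?_, fun h => by rw [h]; simp⟩ rfl rfl
        exact Units.ext (by simpa using congrFun h 1)
    rw [Finset.sum_congr rfl fun d _ => hval d, Finset.sum_add_distrib]
    simp
    norm_num
  · have h := tendsto_gamma0EisFun_slash N hk γ
    convert h using 2
    symm
    refine Finset.sum_eq_zero fun d _ => eisLim_eq_zero_of_ne _ k ?_
    have h10 : ((γ 1 0 : ℤ) : ZMod N) ≠ 0 := fun h0 => hγ (Gamma0_mem.mpr h0)
    simpa using h10

/-- **Separation of cosets.** If a linear combination of translates `G ∣[k] γ i` of the `Γ₀(N)`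
Eisenstein series by representatives `γ i` of pairwise distinct right cosets `Γ₀(N) γ i`
vanishes identically, then all coefficients vanish. -/
theorem gamma0Eis_separation (N : ℕ) [NeZero N] {k : ℤ} (hk : 3 ≤ k) (hk2 : Even k)
    {ι : Type*} (s : Finset ι) (γ : ι → SL(2, ℤ)) (v : ι → ℂ)
    (hγ : ∀ i ∈ s, ∀ j ∈ s, γ i * (γ j)⁻¹ ∈ Gamma0 N → i = j)
    (h : ∀ z : ℍ, ∑ i ∈ s, v i * (gamma0EisFun N k ∣[k] γ i) z = 0) :
    ∀ i ∈ s, v i = 0 := by
  classical
  intro i0 hi0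
  have h0 : (∑ i ∈ s, v i • (gamma0EisFun N k ∣[k] γ i)) = 0 := by
    funext z
    simpa [Finset.sum_apply] using h z
  have h1 : (∑ i ∈ s, v i • (gamma0EisFun N k ∣[k] (γ i * (γ i0)⁻¹))) = 0 := by
    have := congrArg (fun f => f ∣[k] (γ i0)⁻¹) h0
    simp only [SL_slash, SlashAction.sum_slash, SlashAction.zero_slash] at this
    rw [← this]
    refine Finset.sum_congr rfl fun i _ => ?_
    rw [← SL_slash, ← SL_slash, SL_smul_slash, SlashAction.slash_mul]
  have h2 : Tendsto (fun z : ℍ => ∑ i ∈ s, (v i • (gamma0EisFun N k ∣[k] (γ i * (γ i0)⁻¹))) z)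
      atImInfty (𝓝 (∑ i ∈ s, v i * (if i = i0 then 2 else 0))) := by
    refine tendsto_finsetSum _ fun i hi => ?_
    have ht := tendsto_gamma0Eis_slash N hk hk2 (γ i * (γ i0)⁻¹)
    rw [coe_gamma0Eis] at ht
    have hiff : (γ i * (γ i0)⁻¹ ∈ Gamma0 N) ↔ i = i0 := by
      constructor
      · exact hγ i hi i0 hi0
      · rintro rfl
        simp
    rw [if_congr hiff rfl rfl] at ht
    exact ht.const_mul (v i)
  have h3 : (fun z : ℍ => ∑ i ∈ s, (v i • (gamma0EisFun N k ∣[k] (γ i * (γ i0)⁻¹))) z) =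
      fun _ => 0 := by
    funext z
    have := congrFun h1 z
    simpa [Finset.sum_apply] using this
  rw [h3] at h2
  have h4 := tendsto_nhds_unique h2 tendsto_const_nhds
  rw [Finset.sum_eq_single i0 (fun j _ hj => by simp [hj]) (fun hni => absurd hi0 hni)] at h4
  simpa using h4

/-- The `Γ₀(N)` Eisenstein series has stabiliser exactly `Γ₀(N)` in `SL(2, ℤ)`. -/
theorem mem_Gamma0_of_gamma0EisFun_slash_eq (N : ℕ) [NeZero N] {k : ℤ} (hk : 3 ≤ k)
    (hk2 : Even k) (γ : SL(2, ℤ)) (h : gamma0EisFun N k ∣[k] γ = gamma0EisFun N k) :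
    γ ∈ Gamma0 N := by
  classical
  by_contra hγ
  have h1 := tendsto_gamma0Eis_slash N hk hk2 γ
  have h2 := tendsto_gamma0Eis_slash N hk hk2 1
  rw [coe_gamma0Eis] at h1 h2
  rw [if_neg hγ, h] at h1
  rw [if_pos (one_mem _), show gamma0EisFun N k ∣[k] (1 : SL(2, ℤ)) = gamma0EisFun N k by
      rw [SL_slash]; simp] at h2
  have := tendsto_nhds_unique h1 h2
  norm_num at this

end Fermat.Agent.S20.helper2540



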