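/-
S20: `Goal_Seed` of `helper560_Spec` (seat helper2540), from the coset-separating Eisenstein
series of `helper2540_EisSep`, plus the separation statement in the `tr`/`Q` language of
`helper560_Defs`.
-/
import Fermat.Agent.S20.helper560_Spec
import Fermat.Agent.S20.helper2540_EisSep

set_option autoImplicit false

open UpperHalfPlane ModularForm CongruenceSubgroup Filter Topology
open scoped MatrixGroups

namespace Fermat.Agent.S20.helper2540

open Fermat.Agent.S20.helper560

/-- `Goal_Seed` of the S20 spec: the weight 4 Eisenstein series `∑_{d ∈ (ℤ/N)ˣ} E_4^{(0,d)}` is a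
modular form on `Γ₀(N)` whose stabiliser in `SL(2,ℤ)` is exactly `Γ₀(N)`. -/
theorem goal_Seed : Goal_Seed := by
  intro N _
  refine ⟨4, gamma0EisFun N 4, ⟨gamma0Eis N (by norm_num), rfl⟩, fun γ hγ => ?_⟩
  exact Subgroup.mem_map_of_mem _
    (mem_Gamma0_of_gamma0EisFun_slash_eq N (by norm_num) ⟨2, rfl⟩ γ hγ)

end Fermat.Agent.S20.helper2540
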