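/-
S20 backup (seat helper3006): `Goal_Hilbert` of `helper560_Spec`
(Hilbert function of a free graded module over the level one ring; pure linear algebra).
-/
import Fermat.Agent.S20.helper3006_RRdim

set_option autoImplicit false

open UpperHalfPlane ModularForm
open scoped MatrixGroups Manifold Pointwise

namespace Fermat.Agent.S20.helper3006

open Fermat.Agent.S20.helper560

noncomputable section

/-- The expansion map `P ↦ ∑ j, P j * F j` from tuples of level one forms to `V k`. -/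
def expansionMap (V : ℤ → Submodule ℂ (ℍ → ℂ)) {J : Type} [Fintype J] (κ : J → ℤ)
    (F : J → ℍ → ℂ) (hF : ∀ j, F j ∈ V (κ j))
    (hmul : ∀ (a b : ℤ) (P f : ℍ → ℂ), P ∈ RR a → f ∈ V b → P * f ∈ V (a + b)) (k : ℤ) :
    (∀ j, RR (k - κ j)) →ₗ[ℂ] V k where
  toFun P := ⟨∑ j, (P j : ℍ → ℂ) * F j, Submodule.sum_mem _ fun j _ => by
    have h := hmul (k - κ j) (κ j) _ _ (P j).2 (hF j)
    rwa [sub_add_cancel] at h⟩
  map_add' P P' := by
    apply Subtype.ext
    simp only [Pi.add_apply, Submodule.coe_add, add_mul, Finset.sum_add_distrib]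
  map_smul' c P := by
    apply Subtype.ext
    simp only [Pi.smul_apply, Submodule.coe_smul, smul_mul_assoc, RingHom.id_apply,
      Finset.smul_sum]

theorem expansionMap_bijective (V : ℤ → Submodule ℂ (ℍ → ℂ)) {J : Type} [Fintype J] (κ : J → ℤ)
    (F : J → ℍ → ℂ) (hfree : IsFreeBasis V κ F)
    (hmul : ∀ (a b : ℤ) (P f : ℍ → ℂ), P ∈ RR a → f ∈ V b → P * f ∈ V (a + b)) (k : ℤ) :
    Function.Bijective (expansionMap V κ F hfree.1 hmul k) := by
  constructor
  · intro P P' h
    have hval : (∑ j, (P j : ℍ → ℂ) * F j) = ∑ j, (P' j : ℍ → ℂ) * F j :=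
      congrArg Subtype.val h
    obtain ⟨P0, -, huniq⟩ := hfree.2 k _ (expansionMap V κ F hfree.1 hmul k P).2
    have h1 : (fun j => (P j : ℍ → ℂ)) = P0 := huniq _ ⟨fun j => (P j).2, rfl⟩
    have h2 : (fun j => (P' j : ℍ → ℂ)) = P0 := huniq _ ⟨fun j => (P' j).2, hval⟩
    funext j
    apply Subtype.ext
    exact congrFun (h1.trans h2.symm) j
  · intro f
    obtain ⟨P0, ⟨hP0, hf⟩, -⟩ := hfree.2 k f.1 f.2
    refine ⟨fun j => ⟨P0 j, hP0 j⟩, ?_⟩
    apply Subtype.ext
    exact hf.symm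

/-- (HILB) Hilbert function of a free graded module. -/
theorem goal_Hilbert : Goal_Hilbert := by
  intro V J _ κ F hfree hmul k
  have e : (∀ j, RR (k - κ j)) ≃ₗ[ℂ] V k :=
    LinearEquiv.ofBijective _ (expansionMap_bijective V κ F hfree hmul k)
  rw [← e.finrank_eq, Module.finrank_pi_fintype]

end

end Fermat.Agent.S20.helper3006
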