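/-
S20 R6 (board #321): the two cusp hypotheses of `helper20.core_of_parts` in the exact
`helper20_Spec` shape:
  * `leadIndep : B.IsBasis → B.LeadIndep`
  * `stmt_cusp : B.IsBasis → Stmt_SD N → B.CardEq → B.LeadIndep → B.Stmt_Cusp`
Author: helper2780.
-/
import Mathlib
import Fermat.Agent.S20.helper20_Spec
import Fermat.Agent.S20.helper1220_CuspToolkit
import Fermat.Agent.S20.helper1760_SerreD
import Fermat.Agent.S20.helper687_CuspTrace

set_option autoImplicit false

namespace Fermat.Agent.S20.helper2780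

open UpperHalfPlane ModularForm CongruenceSubgroup Matrix.SpecialLinearGroup Function
open scoped MatrixGroups ModularForm Manifold Real
open Derivative
open Fermat.Agent.S20.helper20

noncomputable section

/-! ## `q_N`-expansions as `HasSum` statements -/

/-- `g` is given on all of `ℍ` by the convergent `q_N`-expansion with coefficients `c`. -/
def HasQ (N : ℕ) (c : ℕ → ℂ) (g : ℍ → ℂ) : Prop :=
  ∀ τ : ℍ, HasSum (fun n : ℕ => c n * Periodic.qParam (N : ℝ) τ ^ n) (g τ)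

theorem HasQ.add {N : ℕ} {c c' : ℕ → ℂ} {g g' : ℍ → ℂ} (h : HasQ N c g) (h' : HasQ N c' g') :
    HasQ N (fun n => c n + c' n) (fun τ => g τ + g' τ) := by
  intro τ
  simpa [add_mul] using (h τ).add (h' τ)

theorem HasQ.const_mul {N : ℕ} {c : ℕ → ℂ} {g : ℍ → ℂ} (a : ℂ) (h : HasQ N c g) :
    HasQ N (fun n => a * c n) (fun τ => a * g τ) := by
  intro τ
  simpa [mul_assoc] using (h τ).mul_left a

theorem HasQ.sum {N : ℕ} {ι : Type*} (s : Finset ι) {c : ι → ℕ → ℂ} {g : ι → ℍ → ℂ}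
    (h : ∀ i ∈ s, HasQ N (c i) (g i)) :
    HasQ N (fun n => ∑ i ∈ s, c i n) (fun τ => ∑ i ∈ s, g i τ) := by
  intro τ
  simpa [Finset.sum_mul] using hasSum_sum (fun i hi => h i hi τ)

theorem HasQ.congr {N : ℕ} {c : ℕ → ℂ} {g g' : ℍ → ℂ} (h : HasQ N c g) (hg : ∀ τ, g' τ = g τ) :
    HasQ N c g' := by
  intro τ
  rw [hg τ]
  exact h τ

theorem hasQ_zero_unique {N : ℕ} [NeZero N] {c : ℕ → ℂ} (h : HasQ N c (0 : ℍ → ℂ)) (n : ℕ) :
    c n = 0 := by
  have hN : (0 : ℝ) < N := by exact_mod_cast Nat.pos_of_ne_zero (NeZero.ne N)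
  have hper : Periodic ((0 : ℍ → ℂ) ∘ ofComplex) (N : ℝ) := fun w => by simp
  have hhol : MDiff (0 : ℍ → ℂ) := mdifferentiable_const
  have hbdd : IsBoundedAtImInfty (0 : ℍ → ℂ) := by
    have : (0 : ℍ → ℂ) = fun _ => (0 : ℂ) := rfl
    rw [this]
    exact Filter.const_boundedAtFilter _ _
  have han := analyticAt_cuspFunction_zero hN hper hhol hbdd
  have := qExpansion_coeff_unique (0 : ModularForm 𝒮ℒ 0) (c := c) hN
    (by rw [FunLike.coe_zero]; exact han) (fun τ => by simpa using h τ) n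
  rw [this, FunLike.coe_zero, qExpansion_zero]
  simp

theorem HasQ.unique {N : ℕ} [NeZero N] {c c' : ℕ → ℂ} {g : ℍ → ℂ} (h : HasQ N c g)
    (h' : HasQ N c' g) (n : ℕ) : c n = c' n := by
  have h0 : HasQ N (fun n => c n - c' n) (0 : ℍ → ℂ) := by
    intro τ
    simpa [sub_mul] using (h τ).sub (h' τ)
  exact sub_eq_zero.mp (hasQ_zero_unique h0 n)

theorem HasQ.mul {N : ℕ} {p c : ℕ → ℂ} {P g : ℍ → ℂ} (hP : HasQ N p P) (hg : HasQ N c g) :
    HasQ N (fun n => ∑ ij ∈ Finset.HasAntidiagonal.antidiagonal n, p ij.1 * c ij.2)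
      (fun τ => P τ * g τ) := by
  intro τ
  have h1 := hP τ
  have h2 := hg τ
  have hs1 := h1.summable.norm
  have hs2 := h2.summable.norm
  have h3 := (summable_norm_sum_mul_antidiagonal_of_summable_norm hs1 hs2).of_norm.hasSum
  rw [← tsum_mul_tsum_eq_tsum_sum_antidiagonal_of_summable_norm hs1 hs2, h1.tsum_eq,
    h2.tsum_eq] at h3
  have he : (fun n : ℕ => (∑ ij ∈ Finset.HasAntidiagonal.antidiagonal n, p ij.1 * c ij.2) *
      Periodic.qParam (N : ℝ) τ ^ n) = fun n : ℕ => ∑ kl ∈ Finset.HasAntidiagonal.antidiagonal n,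
        p kl.1 * Periodic.qParam (N : ℝ) τ ^ kl.1 * (c kl.2 * Periodic.qParam (N : ℝ) τ ^ kl.2) := by
    funext n
    rw [Finset.sum_mul]
    refine Finset.sum_congr rfl fun ij hij => ?_
    have : ij.1 + ij.2 = n := Finset.HasAntidiagonal.mem_antidiagonal.mp hij
    rw [← this, pow_add]
    ring
  rw [he]
  exact h3

/-- A `q_1`-expansion is a `q_N`-expansion in `q_N ^ N`. -/
theorem HasQ.of_one {N : ℕ} [NeZero N] {p : ℕ → ℂ} {P : ℍ → ℂ} (hP : HasQ 1 p P) :
    HasQ N (fun n => if N ∣ n then p (n / N) else 0) P := by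
  intro τ
  have hN : N ≠ 0 := NeZero.ne N
  have hNC : (N : ℂ) ≠ 0 := Nat.cast_ne_zero.mpr hN
  have hq : Periodic.qParam ((1 : ℕ) : ℝ) τ = Periodic.qParam (N : ℝ) τ ^ N := by
    rw [Periodic.qParam, Periodic.qParam, ← Complex.exp_nat_mul]
    congr 1
    push_cast
    field_simp
  have h1 := hP τ
  rw [hq] at h1
  have hinj : Function.Injective (fun m : ℕ => N * m) := fun a b hab =>
    Nat.eq_of_mul_eq_mul_left (Nat.pos_of_ne_zero hN) hab
  have h2 := (hinj.hasSum_iff (f := fun n : ℕ => (if N ∣ n then p (n / N) else 0) *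
    Periodic.qParam (N : ℝ) τ ^ n) (a := P τ) ?_).mp ?_
  · exact h2
  · intro n hn
    have : ¬ N ∣ n := by
      rintro ⟨m, rfl⟩
      exact hn ⟨m, rfl⟩
    simp [this]
  · convert h1 using 1
    funext m
    simp only [Function.comp_apply]
    rw [if_pos (Dvd.intro _ rfl), Nat.mul_div_cancel_left _ (Nat.pos_of_ne_zero hN), pow_mul]

theorem sum_antidiagonal_of_one {N : ℕ} (p c : ℕ → ℂ) {n : ℕ} (hn : n < N) :
    ∑ ij ∈ Finset.HasAntidiagonal.antidiagonal n,
      (if N ∣ ij.1 then p (ij.1 / N) else 0) * c ij.2 = p 0 * c n := by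
  rw [Finset.sum_eq_single (0, n)]
  · simp
  · rintro ⟨i, j⟩ hij hne
    have hsum : i + j = n := Finset.HasAntidiagonal.mem_antidiagonal.mp hij
    have hi : ¬ N ∣ i := by
      intro hdvd
      have hi0 : i = 0 := Nat.eq_zero_of_dvd_of_lt hdvd (by omega)
      apply hne
      subst hi0
      simp at hsum
      simp [hsum]
    simp [hi]
  · intro h
    exact absurd (Finset.HasAntidiagonal.mem_antidiagonal.mpr (zero_add n)) h

/-- power series of the derivative of the cusp function -/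
theorem hasSum_deriv_cuspFunction {N : ℕ} [NeZero N] {g : ℍ → ℂ}
    (hper : Periodic (g ∘ ofComplex) (N : ℝ)) (hhol : MDiff g) (hbdd : IsBoundedAtImInfty g)
    {y : ℂ} (hy : ‖y‖ < 1) :
    HasSum (fun n : ℕ => ((n : ℂ) + 1) * (qExpansion (N : ℝ) g).coeff (n + 1) * y ^ n)
      (deriv (cuspFunction (N : ℝ) g) y) := by
  have hN : (0 : ℝ) < N := by exact_mod_cast Nat.pos_of_ne_zero (NeZero.ne N)
  have han := analyticAt_cuspFunction_zero hN hper hhol hbdd
  have hps := hasFPowerSeriesOnBall_cuspFunction hN han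
    (c := fun n => (qExpansion (N : ℝ) g).coeff n) (hasSum_qExpansion hN hper hhol hbdd)
  have hyb : y ∈ Metric.eball (0 : ℂ) 1 := by
    rw [← ENNReal.coe_one, Metric.eball_coe, NNReal.coe_one, mem_ball_zero_iff]
    exact hy
  have h1 := hps.fderiv.hasSum hyb
  have h2 := (ContinuousLinearMap.apply ℂ ℂ (1 : ℂ)).hasSum h1
  simp only [zero_add, ContinuousLinearMap.apply_apply, fderiv_apply_one_eq_deriv] at h2
  have he : (fun n : ℕ => ((n : ℂ) + 1) * (qExpansion (N : ℝ) g).coeff (n + 1) * y ^ n) =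
      fun b => (((FormalMultilinearSeries.ofScalars ℂ fun n =>
        (PowerSeries.coeff n) (qExpansion (↑N) g)).derivSeries b) fun x => y) 1 := by
    funext n
    rw [FormalMultilinearSeries.apply_eq_pow_smul_coeff]
    simp [FormalMultilinearSeries.coeff_ofScalars]
    ring
  rw [he]
  exact h2

theorem hasQ_D {N : ℕ} [NeZero N] {g : ℍ → ℂ} (hper : Periodic (g ∘ ofComplex) (N : ℝ))
    (hhol : MDiff g) (hbdd : IsBoundedAtImInfty g) :
    HasQ N (fun n => (n : ℂ) / N * (qExpansion (N : ℝ) g).coeff n) (D g) := by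
  intro τ
  have hN : (0 : ℝ) < N := by exact_mod_cast Nat.pos_of_ne_zero (NeZero.ne N)
  have hNC : (N : ℂ) ≠ 0 := Nat.cast_ne_zero.mpr (NeZero.ne N)
  set q : ℂ := Periodic.qParam (N : ℝ) τ with hq
  have hqn : ‖q‖ < 1 := Periodic.norm_qParam_lt_one hN τ.im_pos
  have h1 := hasSum_deriv_cuspFunction hper hhol hbdd hqn
  -- chain rule
  have hev : (g ∘ ofComplex) =ᶠ[nhds (τ : ℂ)] (cuspFunction (N : ℝ) g ∘ Periodic.qParam (N : ℝ)) := by
    have hopen : IsOpen {w : ℂ | 0 < w.im} := isOpen_lt continuous_const Complex.continuous_im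
    filter_upwards [hopen.mem_nhds τ.im_pos] with w hw
    simp only [Function.comp_apply, ofComplex_apply_of_im_pos hw]
    exact (eq_cuspFunction ⟨w, hw⟩ hN.ne' hper).symm
  have hdG : DifferentiableAt ℂ (cuspFunction (N : ℝ) g) q :=
    differentiableAt_cuspFunction hN hper hhol hbdd hqn
  have hdq : HasDerivAt (Periodic.qParam (N : ℝ)) (q * (2 * π * Complex.I / N)) (τ : ℂ) := by
    have h0 : HasDerivAt (fun z : ℂ => 2 * π * Complex.I * z / (N : ℝ)) (2 * π * Complex.I / N) (τ : ℂ) := by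
      have := ((hasDerivAt_id (τ : ℂ)).const_mul (2 * π * Complex.I)).div_const ((N : ℝ) : ℂ)
      simpa using this
    exact h0.cexp
  have hD : D g τ = (1 / (N : ℂ)) * (q * deriv (cuspFunction (N : ℝ) g) q) := by
    simp only [normalizedDerivOfComplex]
    rw [hev.deriv_eq, (hdG.hasDerivAt.comp (τ : ℂ) hdq).deriv]
    have hpi : (2 * π * Complex.I : ℂ) ≠ 0 := Complex.two_pi_I_ne_zero
    field_simp
  rw [hD]
  have h2 := (h1.mul_left q).mul_left (1 / (N : ℂ))
  have h3 : HasSum (fun n : ℕ => ((n + 1 : ℕ) : ℂ) / N * (qExpansion (N : ℝ) g).coeff (n + 1)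
      * q ^ (n + 1)) (1 / (N : ℂ) * (q * deriv (cuspFunction (N : ℝ) g) q)) := by
    have he : (fun n : ℕ => ((n + 1 : ℕ) : ℂ) / N * (qExpansion (N : ℝ) g).coeff (n + 1)
        * q ^ (n + 1)) = fun i : ℕ => 1 / (N : ℂ) * (q * (((i : ℂ) + 1) *
          (qExpansion (N : ℝ) g).coeff (i + 1) * q ^ i)) := by
      funext n
      push_cast
      field_simp
      ring
    rw [he]
    exact h2
  exact (hasSum_nat_add_iff' (f := fun n : ℕ => (n : ℂ) / N * (qExpansion (N : ℝ) g).coeff n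
    * q ^ n) 1).mp (by simpa using h3)

/-! ## Level structure and translates -/

theorem Gamma_le_Gamma0 (N : ℕ) : Gamma N ≤ Gamma0 N := by
  intro γ hγ
  rw [Gamma_mem] at hγ
  rw [Gamma0_mem]
  exact hγ.2.2.1

/-- Level-one forms are invariant under every `γ ∈ SL(2,ℤ)`. -/
theorem levelOne_slash {a : ℤ} (P : ModularForm 𝒮ℒ a) (γ : SL(2, ℤ)) : ⇑P ∣[a] γ = ⇑P := by
  rw [SL_slash]
  exact SlashInvariantForm.slash_action_eqn P _ ⟨γ, rfl⟩

theorem levelOne_mul_slash {a b k : ℤ} (hk : a + b = k) (P : ModularForm 𝒮ℒ a) (g : ℍ → ℂ)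
    (γ : SL(2, ℤ)) : (fun z => P z * g z) ∣[k] γ = fun z => P z * (g ∣[b] γ) z := by
  subst hk
  have := mul_slash_SL2 a b γ (⇑P) g
  rw [levelOne_slash] at this
  exact this

theorem hasQ_levelOne {a : ℤ} (P : ModularForm 𝒮ℒ a) :
    HasQ 1 (fun n => (qExpansion 1 P).coeff n) P := by
  intro τ
  have := ModularForm.hasSum_qExpansion (h := 1) P one_pos one_mem_strictPeriods_SL τ
  simpa using this

/-- `q_N`-expansion of a level-one form times a function with a `q_N`-expansion: the first `N`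
coefficients. -/
theorem HasQ.levelOne_mul {N : ℕ} [NeZero N] {a : ℤ} (P : ModularForm 𝒮ℒ a) {c : ℕ → ℂ}
    {g : ℍ → ℂ} (hg : HasQ N c g) :
    ∃ c' : ℕ → ℂ, HasQ N c' (fun z => P z * g z) ∧
      ∀ n < N, c' n = (qExpansion 1 P).coeff 0 * c n := by
  refine ⟨_, (hasQ_levelOne P).of_one.mul hg, fun n hn => ?_⟩
  exact sum_antidiagonal_of_one (fun m => (qExpansion 1 P).coeff m) c hn

variable {N : ℕ}

theorem hasQ_slash [NeZero N] {k : ℤ} (f : ModularForm (Gam N) k) (γ : SL(2, ℤ)) :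
    HasQ N (fun n => (qExpansion (N : ℝ) (⇑f ∣[k] γ)).coeff n) (⇑f ∣[k] γ) := fun τ =>
  helper1220.hasSum_cuspCoeff (Gamma_le_Gamma0 N) f γ τ

theorem quotientFunc_toSL_inv {k : ℤ} (f : ModularForm (Gam N) k) (γ : SL(2, ℤ)) :
    SlashInvariantForm.quotientFunc f ((QuotientGroup.mk (toSL γ⁻¹) : Q N)) = ⇑f ∣[k] γ := by
  have : (QuotientGroup.mk (toSL γ⁻¹) : Q N) = ⟦toSL γ⁻¹⟧ := rfl
  rw [this, SlashInvariantForm.quotientFunc_mk, SL_slash]
  congr 1
  simp [toSL]
  rfl

theorem exists_toSL_inv (q : Q N) : ∃ γ : SL(2, ℤ), q = QuotientGroup.mk (toSL γ⁻¹) := by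
  induction q using QuotientGroup.induction_on with
  | H r =>
    obtain ⟨γ, hγ⟩ := r.2
    refine ⟨γ⁻¹, ?_⟩
    congr 1
    apply Subtype.ext
    simp [toSL, hγ]

/-! ## Building forms; evenness of the generator weights -/

/-- Build a level-one modular form from function-level data. -/
def mkLevelOne (k : ℤ) (g : ℍ → ℂ) (hinv : ∀ γ : SL(2, ℤ), g ∣[k] γ = g) (hhol : MDiff g)
    (hbdd : IsBoundedAtImInfty g) : ModularForm 𝒮ℒ k where
  toFun := g
  slash_action_eq' := by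
    rintro _ ⟨γ, rfl⟩
    exact hinv γ
  holo' := hhol
  bdd_at_cusps' := by
    intro c hc
    rw [OnePoint.isBoundedAt_iff_forall_SL2Z hc]
    intro γ _
    rw [hinv γ]
    exact hbdd

@[simp] theorem mkLevelOne_apply (k : ℤ) (g : ℍ → ℂ) (hinv : ∀ γ : SL(2, ℤ), g ∣[k] γ = g)
    (hhol : MDiff g) (hbdd : IsBoundedAtImInfty g) (z : ℍ) :
    mkLevelOne k g hinv hhol hbdd z = g z := rfl

/-- Build a modular form on `Γ₀(N)` from function-level data. -/
def mkLevelN (N : ℕ) [NeZero N] (k : ℤ) (g : ℍ → ℂ) (hinv : ∀ γ ∈ Gamma0 N, g ∣[k] γ = g)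
    (hhol : MDiff g) (hbdd : ∀ γ : SL(2, ℤ), IsBoundedAtImInfty (g ∣[k] γ)) :
    ModularForm (Gam N) k where
  toFun := g
  slash_action_eq' := by
    rintro _ ⟨γ, hγ, rfl⟩
    exact hinv γ hγ
  holo' := hhol
  bdd_at_cusps' := by
    intro c hc
    rw [Subgroup.IsArithmetic.isCusp_iff_isCusp_SL2Z] at hc
    rw [OnePoint.isBoundedAt_iff_forall_SL2Z hc]
    intro γ _
    exact hbdd γ

@[simp] theorem mkLevelN_apply (N : ℕ) [NeZero N] (k : ℤ) (g : ℍ → ℂ)
    (hinv : ∀ γ ∈ Gamma0 N, g ∣[k] γ = g)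
    (hhol : MDiff g) (hbdd : ∀ γ : SL(2, ℤ), IsBoundedAtImInfty (g ∣[k] γ)) (z : ℍ) :
    mkLevelN N k g hinv hhol hbdd z = g z := rfl

theorem coe_mkLevelN (N : ℕ) [NeZero N] (k : ℤ) (g : ℍ → ℂ)
    (hinv : ∀ γ ∈ Gamma0 N, g ∣[k] γ = g)
    (hhol : MDiff g) (hbdd : ∀ γ : SL(2, ℤ), IsBoundedAtImInfty (g ∣[k] γ)) :
    ⇑(mkLevelN N k g hinv hhol hbdd) = g := rfl

/-- The constant `1` as a level-one form of weight `k = 0`. -/
def oneForm (k : ℤ) (hk : k = 0) : ModularForm 𝒮ℒ k :=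
  mkLevelOne k (fun _ => 1) (fun γ => by subst hk; exact is_invariant_const γ 1)
    (by
      show MDiff (fun _ : ℍ => (1 : ℂ))
      exact mdifferentiable_const)
    (by
      show IsBoundedAtImInfty (fun _ : ℍ => (1 : ℂ))
      exact Filter.const_boundedAtFilter _ _)

theorem oneForm_apply (k : ℤ) (hk : k = 0) (z : ℍ) : oneForm k hk z = 1 := rfl

theorem exists_F_ne_zero (B : Gens N) (hindep : B.IsIndep) (j : B.ι) : ∃ z, B.F j z ≠ 0 := by
  classical
  by_contra hcon
  push Not at hcon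
  have h0 := hindep (B.wt j) (fun i => if h : i = j then oneForm _ (by rw [h]; exact sub_self _)
    else 0) ?_ j
  · have h1 := congrArg (fun P : ModularForm 𝒮ℒ _ => P UpperHalfPlane.I) h0
    simp only [dif_pos] at h1
    rw [oneForm_apply] at h1
    exact one_ne_zero h1
  · intro z
    apply Finset.sum_eq_zero
    intro i _
    by_cases h : i = j
    · subst h
      simp [hcon z]
    · simp [h]

theorem neg_one_mem_Gam (N : ℕ) : (-1 : GL (Fin 2) ℝ) ∈ Gam N := by
  refine ⟨-1, ?_, ?_⟩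
  · show (-1 : SL(2, ℤ)) ∈ Gamma0 N
    rw [Gamma0_mem]
    simp
  · ext i j
    simp

theorem wt_even (B : Gens N) (hindep : B.IsIndep) (j : B.ι) : Even (B.wt j) := by
  by_contra hodd
  rw [Nat.not_even_iff_odd] at hodd
  obtain ⟨z, hz⟩ := exists_F_ne_zero B hindep j
  have hk : Odd ((B.wt j : ℕ) : ℤ) := by exact_mod_cast hodd
  have := ModularForm.eq_zero_of_neg_one_mem (neg_one_mem_Gam N) hk (B.F j)
  apply hz
  rw [this]
  rfl

/-! ## R6a: independence of the leading columns -/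

theorem levelOne_slash' {a k : ℤ} (h : a = k) (P : ModularForm 𝒮ℒ a) (γ : SL(2, ℤ)) :
    ⇑P ∣[k] γ = ⇑P := by
  subst h
  exact levelOne_slash P γ

theorem disc_mul_slash {b k : ℤ} (h : 12 + b = k) (R : ModularForm 𝒮ℒ b) (γ : SL(2, ℤ)) :
    (ModularForm.discriminant * ⇑R) ∣[k] γ = ModularForm.discriminant * ⇑R := by
  subst h
  rw [mul_slash_SL2, helper1220.discriminant_slash, levelOne_slash]

/-- The leading matrix at the coset of `γ⁻¹`. -/
theorem leadMat_toSL_inv (B : Gens N) (γ : SL(2, ℤ)) (j : B.ι) :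
    B.LeadMat (QuotientGroup.mk (toSL γ⁻¹)) j =
      ∑ m ∈ Finset.range N, (qExpansion (N : ℝ) (⇑(B.F j) ∣[(B.wt j : ℤ)] γ)).coeff m := by
  unfold Gens.LeadMat lead
  have : (fun z => B.Phi z (QuotientGroup.mk (toSL γ⁻¹)) j) = ⇑(B.F j) ∣[(B.wt j : ℤ)] γ := by
    rw [← quotientFunc_toSL_inv]
    rfl
  rw [this]

theorem hasQ_levelOne' {a : ℤ} {F : Type*} [FunLike F ℍ ℂ] [ModularFormClass F 𝒮ℒ a] (P : F) :
    HasQ 1 (fun n => (qExpansion 1 P).coeff n) P := by
  intro τ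
  have := ModularForm.hasSum_qExpansion (h := 1) P one_pos one_mem_strictPeriods_SL τ
  simpa using this


/-- **R6a**: for a basis, the columns of the leading matrix are linearly independent. -/
theorem leadIndep (N : ℕ) [NeZero N] (B : Gens N) (hB : B.IsBasis) : B.LeadIndep := by
  classical
  obtain ⟨hspan, hindep⟩ := hB
  intro c hc
  have heven := wt_even B hindep
  set K : ℕ := (∑ j, B.wt j) + 4 with hKdef
  have hle : ∀ j, B.wt j ≤ ∑ i, B.wt i := fun j =>
    Finset.single_le_sum (f := fun i => B.wt i) (fun i _ => Nat.zero_le _) (Finset.mem_univ j)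
  have hK3 : ∀ j, 3 ≤ K - B.wt j := fun j => by have := hle j; omega
  have hKeven : Even K := (Finset.even_sum _ fun j _ => heven j).add (by decide)
  have hKev : ∀ j, Even (K - B.wt j) := fun j => by
    have hj : B.wt j ≤ K := by have := hle j; omega
    exact (Nat.even_sub hj).mpr ⟨fun _ => heven j, fun _ => hKeven⟩
  let P : (j : B.ι) → ModularForm 𝒮ℒ ((K - B.wt j : ℕ) : ℤ) := fun j => ModularForm.E (hK3 j)
  have hP0 : ∀ j, (qExpansion 1 (P j)).coeff 0 = 1 := fun j =>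
    EisensteinSeries.E_qExpansion_coeff_zero (hK3 j) (hKev j)
  have hw : ∀ j, ((K - B.wt j : ℕ) : ℤ) + (B.wt j : ℤ) = (K : ℤ) := fun j => by
    have := hle j
    omega
  -- the form `f = ∑ c_j P_j F_j`
  let fF : ℍ → ℂ := fun z => ∑ j, c j * (P j z * B.F j z)
  have hfF : fF = ∑ j, c j • (fun z => P j z * B.F j z) := by
    funext z
    simp [fF, Finset.sum_apply]
  have hslash : ∀ γ : SL(2, ℤ), fF ∣[(K : ℤ)] γ =
      fun z => ∑ j, c j * (P j z * (⇑(B.F j) ∣[(B.wt j : ℤ)] γ) z) := by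
    intro γ
    rw [hfF, SlashAction.sum_slash]
    funext z
    rw [Finset.sum_apply]
    refine Finset.sum_congr rfl fun j _ => ?_
    rw [SL_smul_slash, levelOne_mul_slash (hw j)]
    rfl
  have hQ : ∀ γ : SL(2, ℤ), ∃ c' : ℕ → ℂ, HasQ N c' (fF ∣[(K : ℤ)] γ) ∧ ∀ n < N,
      c' n = ∑ j, c j * (qExpansion (N : ℝ) (⇑(B.F j) ∣[(B.wt j : ℤ)] γ)).coeff n := by
    intro γ
    choose c' hc' hc'n using fun j => HasQ.levelOne_mul (P j) (hasQ_slash (B.F j) γ)
    refine ⟨fun n => ∑ j, c j * c' j n, ?_, fun n hn => ?_⟩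
    · rw [hslash γ]
      exact HasQ.sum Finset.univ fun j _ => (hc' j).const_mul (c j)
    · refine Finset.sum_congr rfl fun j _ => ?_
      rw [hc'n j n hn, hP0 j, one_mul]
  have hN : (0 : ℝ) < N := by exact_mod_cast Nat.pos_of_ne_zero (NeZero.ne N)
  have hinv : ∀ γ ∈ Gamma0 N, fF ∣[(K : ℤ)] γ = fF := by
    intro γ hγ
    rw [hslash γ]
    funext z
    refine Finset.sum_congr rfl fun j _ => ?_
    rw [helper1220.slash_eq_of_mem (B.F j) hγ]
  have hhol : MDiff fF := by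
    rw [hfF]
    exact MDifferentiable.sum fun j _ => ((P j).holo'.mul (B.F j).holo').const_smul (c j)
  have hbdd : ∀ γ : SL(2, ℤ), IsBoundedAtImInfty (fF ∣[(K : ℤ)] γ) := by
    intro γ
    obtain ⟨c', hc', -⟩ := hQ γ
    exact isBoundedAtImInfty_of_hasSum_qExpansion hN (c := c') (fun τ => by simpa using hc' τ)
  let f : ModularForm (Gam N) (K : ℤ) := mkLevelN N K fF hinv hhol hbdd
  have hcoef : ∀ γ : SL(2, ℤ), ∀ n < N, helper1220.cuspCoeff N (K : ℤ) f γ n =
      ∑ j, c j * (qExpansion (N : ℝ) (⇑(B.F j) ∣[(B.wt j : ℤ)] γ)).coeff n := by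
    intro γ n hn
    obtain ⟨c', hc', hc'n⟩ := hQ γ
    rw [← hc'n n hn]
    exact (helper1220.cuspCoeff_unique (Gamma_le_Gamma0 N) f γ (c := c') (fun z => hc' z) n).symm
  have hlead : ∀ γ : SL(2, ℤ), helper1220.leadSum N (K : ℤ) f γ = 0 := by
    intro γ
    unfold helper1220.leadSum
    rw [Finset.sum_congr rfl fun n hn => hcoef γ n (Finset.mem_range.mp hn), Finset.sum_comm]
    have h1 := hc (QuotientGroup.mk (toSL γ⁻¹))
    rw [← h1]
    refine Finset.sum_congr rfl fun j _ => ?_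
    rw [leadMat_toSL_inv, ← Finset.mul_sum, mul_comm]
  obtain ⟨g, hg⟩ := helper1220.exists_eq_discriminant_mul (Gamma_le_Gamma0 N) f
    (fun γ n hn => helper1220.cuspCoeff_eq_zero_of_leadSum_eq_zero (Gamma_le_Gamma0 N) f hlead γ hn)
  obtain ⟨R, hR⟩ := hspan ((K : ℤ) - 12) g
  have hPdef : ∀ j, ∃ P' : ModularForm 𝒮ℒ ((K : ℤ) - B.wt j),
      ∀ z, P' z = c j * P j z - ModularForm.discriminant z * R j z := by
    intro j
    have hfun : (fun z => c j * P j z - ModularForm.discriminant z * R j z) =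
        c j • ⇑(P j) + -(ModularForm.discriminant * ⇑(R j)) := by
      funext z
      simp [sub_eq_add_neg]
    refine ⟨mkLevelOne _ (fun z => c j * P j z - ModularForm.discriminant z * R j z) ?_ ?_ ?_,
      fun z => rfl⟩
    · intro γ
      rw [hfun, SlashAction.add_slash, SlashAction.neg_slash, SL_smul_slash,
        levelOne_slash' (by have := hle j; omega) (P j) γ, disc_mul_slash (by ring) (R j) γ]
    · rw [hfun]
      exact ((P j).holo'.const_smul (c j)).add
        ((CuspForm.discriminant.holo'.mul (R j).holo').neg)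
    · rw [hfun]
      exact ((ModularFormClass.bdd_at_infty (P j)).smul (c j)).add
        (((CuspFormClass.zero_at_infty CuspForm.discriminant).boundedAtFilter.mul
          (ModularFormClass.bdd_at_infty (R j))).neg)
  choose P' hP' using hPdef
  have hzero := hindep (K : ℤ) P' (fun z => by
    simp_rw [hP', sub_mul, Finset.sum_sub_distrib]
    have h1 : ∑ j, c j * P j z * B.F j z = f z := by
      show _ = fF z
      refine Finset.sum_congr rfl fun j _ => by ring
    have h2 : ∑ j, ModularForm.discriminant z * R j z * B.F j z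
        = ModularForm.discriminant z * g z := by
      rw [hR z, Finset.mul_sum]
      refine Finset.sum_congr rfl fun j _ => by ring
    rw [h1, h2, hg z, sub_self])
  funext j
  have hj : ∀ z, c j * P j z = ModularForm.discriminant z * R j z := fun z => by
    have h3 : P' j z = 0 := by rw [hzero j]; rfl
    rw [hP'] at h3
    exact sub_eq_zero.mp h3
  -- compare constant terms at level 1
  have hq1 : HasQ 1 (fun n => c j * (qExpansion 1 (P j)).coeff n) (fun z => c j * P j z) :=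
    (hasQ_levelOne (P j)).const_mul (c j)
  have hq2 := ((hasQ_levelOne' CuspForm.discriminant).mul (hasQ_levelOne (R j))).congr
    (g' := fun z => c j * P j z) (fun z => hj z)
  have h0 := hq1.unique hq2 0
  rw [hP0 j, mul_one] at h0
  have hΔ0 := CuspFormClass.qExpansion_coeff_zero CuspForm.discriminant one_pos
    one_mem_strictPeriods_SL
  rw [h0, Finset.Nat.antidiagonal_zero, Finset.sum_singleton, hΔ0, zero_mul]
  rfl

/-! ## R6: the weight sum -/

/-- Product of a function with a `q_1`-expansion and one with a `q_N`-expansion: the first `N`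
coefficients. -/
theorem HasQ.one_mul {N : ℕ} [NeZero N] {p c : ℕ → ℂ} {P g : ℍ → ℂ} (hP : HasQ 1 p P)
    (hg : HasQ N c g) :
    ∃ c' : ℕ → ℂ, HasQ N c' (fun z => P z * g z) ∧ ∀ n < N, c' n = p 0 * c n :=
  ⟨_, hP.of_one.mul hg, fun _ hn => sum_antidiagonal_of_one p c hn⟩

theorem hasQ_E2 : HasQ 1 (fun m : ℕ => if m = 0 then (1 : ℂ) else -24 * ArithmeticFunction.sigma 1 m)
    EisensteinSeries.E2 := by
  intro τ
  have := EisensteinSeries.hasSum_qExpansion_E2 (z := τ)
  simpa only [Function.Periodic.qParam, Nat.cast_one, Complex.ofReal_one, div_one, smul_eq_mul]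
    using this

theorem levelOne_wt_two_eq_zero {k : ℤ} (hk : k = 2) (f : ModularForm 𝒮ℒ k) : f = 0 := by
  subst hk
  exact rank_zero_iff_forall_zero.mp ModularForm.levelOne_weight_two_rank_zero f

theorem toSL_mul (a b : SL(2, ℤ)) : toSL (a * b) = toSL a * toSL b := by
  apply Subtype.ext
  simp [toSL]

theorem toSL_inv (a : SL(2, ℤ)) : toSL a⁻¹ = (toSL a)⁻¹ := by
  apply Subtype.ext
  simp [toSL]

theorem toSL_pow (a : SL(2, ℤ)) (n : ℕ) : toSL (a ^ n) = toSL a ^ n := by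
  induction n with
  | zero => apply Subtype.ext; simp [toSL]
  | succ n ih => rw [pow_succ, pow_succ, toSL_mul, ih]

theorem toSL_T_smul (γ : SL(2, ℤ)) :
    toSL ModularGroup.T • (QuotientGroup.mk (toSL γ⁻¹) : Q N) =
      QuotientGroup.mk (toSL (γ * ModularGroup.T⁻¹)⁻¹) := by
  have : toSL (γ * ModularGroup.T⁻¹)⁻¹ = toSL ModularGroup.T * toSL γ⁻¹ := by
    rw [← toSL_mul]
    congr 1
    group
  rw [this]
  rfl

theorem toSL_T_pow_smul (q : Q N) : toSL ModularGroup.T ^ N • q = q := by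
  obtain ⟨γ, rfl⟩ := exists_toSL_inv q
  have h1 : toSL ModularGroup.T ^ N • (QuotientGroup.mk (toSL γ⁻¹) : Q N) =
      QuotientGroup.mk (toSL ModularGroup.T ^ N * toSL γ⁻¹) := rfl
  rw [h1, eq_comm, QuotientGroup.eq]
  have h2 : (toSL γ⁻¹)⁻¹ * (toSL ModularGroup.T ^ N * toSL γ⁻¹) =
      toSL (γ * ModularGroup.T ^ (N : ℤ) * γ⁻¹) := by
    rw [toSL_mul, toSL_mul, toSL_inv, inv_inv, zpow_natCast, mul_assoc, toSL_pow]
  rw [h2]
  exact Subgroup.mem_map_of_mem _ (helper1220.conj_T_pow_mem (Gamma_le_Gamma0 N) γ)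


theorem phi_toSL_inv (B : Gens N) (γ : SL(2, ℤ)) (j : B.ι) :
    (fun z => B.Phi z (QuotientGroup.mk (toSL γ⁻¹)) j) = ⇑(B.F j) ∣[(B.wt j : ℤ)] γ := by
  rw [← quotientFunc_toSL_inv]
  rfl

/-- The "differential equation" on the first `N` `q_N`-coefficients of the translates. -/
theorem deriv_relation [NeZero N] (B : Gens N) (j : B.ι)
    (G : ModularForm (Gam N) ((B.wt j : ℤ) + 2))
    (hG : (G : ℍ → ℂ) = serreDerivative (B.wt j : ℤ) (B.F j))
    (A : (i : B.ι) → ModularForm 𝒮ℒ ((B.wt j : ℤ) + 2 - B.wt i))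
    (hA : ∀ z : ℍ, G z = ∑ i, A i z * B.F i z) (γ : SL(2, ℤ)) {n : ℕ} (hn : n < N) :
    ((n : ℂ) / N - (B.wt j : ℂ) / 12) *
        (qExpansion (N : ℝ) (⇑(B.F j) ∣[(B.wt j : ℤ)] γ)).coeff n
      = ∑ i, (qExpansion 1 (A i)).coeff 0 *
          (qExpansion (N : ℝ) (⇑(B.F i) ∣[(B.wt i : ℤ)] γ)).coeff n := by
  classical
  set fq : ℍ → ℂ := ⇑(B.F j) ∣[(B.wt j : ℤ)] γ with hfq
  have hΓ := Gamma_le_Gamma0 N
  have h1 : HasQ N (fun n => (n : ℂ) / N * (qExpansion (N : ℝ) fq).coeff n) (D fq) :=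
    hasQ_D (helper1220.periodic_slash hΓ (B.F j) γ) (helper1220.mdiff_slash (B.F j) γ)
      (helper1220.bdd_slash (B.F j) γ)
  have hGs : ⇑G ∣[(B.wt j : ℤ) + 2] γ =
      fun z => ∑ i, A i z * (⇑(B.F i) ∣[(B.wt i : ℤ)] γ) z := by
    have hGf : (G : ℍ → ℂ) = ∑ i, (fun z => A i z * B.F i z) := by
      funext z
      rw [hA z]
      simp [Finset.sum_apply]
    rw [hGf, SlashAction.sum_slash]
    funext z
    rw [Finset.sum_apply]
    refine Finset.sum_congr rfl fun i _ => ?_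
    rw [levelOne_mul_slash (show ((B.wt j : ℤ) + 2 - B.wt i) + (B.wt i : ℤ) = (B.wt j : ℤ) + 2
      by ring)]
  have hfun : ∀ z, D fq z = (∑ i, A i z * (⇑(B.F i) ∣[(B.wt i : ℤ)] γ) z) +
      (B.wt j : ℂ) / 12 * (EisensteinSeries.E2 z * fq z) := by
    intro z
    have h2 := congrFun (serreDerivative_slash_equivariant (k := (B.wt j : ℤ))
      (ModularFormClass.holo (B.F j)) (γ := γ)) z
    rw [← hG, hGs, serreDerivative_apply] at h2
    push_cast at h2
    linear_combination -h2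
  choose c' hc' hc'n using fun i => HasQ.levelOne_mul (A i) (hasQ_slash (B.F i) γ)
  obtain ⟨c'', hc'', hc''n⟩ := HasQ.one_mul hasQ_E2 (hasQ_slash (B.F j) γ)
  have h3 : HasQ N (fun n => (∑ i, c' i n) + (B.wt j : ℂ) / 12 * c'' n) (D fq) :=
    ((HasQ.sum Finset.univ fun i _ => hc' i).add (hc''.const_mul _)).congr hfun
  have h4 := h1.unique h3 n
  rw [hc''n n hn, Finset.sum_congr rfl fun i _ => hc'n i n hn] at h4
  simp only [if_true, one_mul] at h4
  linear_combination h4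


/-- **R6 (CUSP)**: `∑ wt j + 6 * (#cusps) = 6 * index`. -/
theorem stmt_cusp (N : ℕ) [NeZero N] (B : Gens N) (hB : B.IsBasis) (hSD : Stmt_SD N)
    (hcard : B.CardEq) (hlead : B.LeadIndep) : B.Stmt_Cusp := by
  classical
  obtain ⟨hspan, hindep⟩ := hB
  have hNpos : 0 < N := Nat.pos_of_ne_zero (NeZero.ne N)
  choose G hG using fun j => hSD (B.wt j) (B.F j)
  choose A hA using fun j => hspan ((B.wt j : ℤ) + 2) (G j)
  let a : B.ι → Q N → ℕ → ℂ := fun j q n => (qExpansion (N : ℝ) (fun z => B.Phi z q j)).coeff n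
  let Bm : Matrix B.ι B.ι ℂ := fun i j => (qExpansion 1 (A j i)).coeff 0
  have hdiag : ∀ j, Bm j j = 0 := by
    intro j
    have h0 : A j j = 0 := levelOne_wt_two_eq_zero (by ring) (A j j)
    show (qExpansion 1 (A j j)).coeff 0 = 0
    rw [h0, FunLike.coe_zero, qExpansion_zero]
    simp
  have hD : ∀ j q n, n < N →
      ((n : ℂ) / N - ((B.wt j : ℤ) : ℂ) / 12) * a j q n = ∑ i, Bm i j * a i q n := by
    intro j q n hn
    obtain ⟨γ, rfl⟩ := exists_toSL_inv q
    have h1 := deriv_relation B j (G j) (hG j) (A j) (hA j) γ hn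
    simp only [a, Bm, phi_toSL_inv]
    push_cast
    exact h1
  set ζ : ℂ := (Complex.exp (2 * π * Complex.I / N))⁻¹ with hζdef
  have hζ : IsPrimitiveRoot ζ N := (Complex.isPrimitiveRoot_exp N (NeZero.ne N)).inv
  have ha : ∀ j q n, n < N → a j (toSL ModularGroup.T • q) n = ζ ^ n * a j q n := by
    intro j q n _
    obtain ⟨γ, rfl⟩ := exists_toSL_inv q
    simp only [a]
    rw [toSL_T_smul, phi_toSL_inv, phi_toSL_inv]
    have h1 := helper1220.cuspCoeff_mul_T (Gamma_le_Gamma0 N) (B.F j) (γ * ModularGroup.T⁻¹) n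
    rw [inv_mul_cancel_right] at h1
    have hne : Complex.exp (2 * π * Complex.I / N) ^ n ≠ 0 := pow_ne_zero _ (Complex.exp_ne_zero _)
    unfold helper1220.cuspCoeff at h1
    rw [h1, hζdef, inv_pow, inv_mul_cancel_left₀ hne]
  have hinj : ∀ c : B.ι → ℂ, (∀ q, ∑ j, c j * ∑ n ∈ Finset.range N, a j q n = 0) → c = 0 := by
    intro c hc
    apply hlead
    intro q
    rw [← hc q]
    refine Finset.sum_congr rfl fun j _ => ?_
    rw [mul_comm]
    rfl
  have hcard' : Fintype.card B.ι = Fintype.card (Q N) := by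
    rw [← Nat.card_eq_fintype_card (α := Q N)]
    exact hcard
  have key := helper687.sum_int_weights_eq_of_injective (toSL ModularGroup.T) N hNpos
    toSL_T_pow_smul ζ hζ a ha hcard' hinj (fun j => (B.wt j : ℤ)) Bm hdiag hD
  unfold Gens.Stmt_Cusp orbT mu
  rw [Nat.card_eq_fintype_card (α := Q N)]
  have key' : ((∑ j, B.wt j : ℕ) : ℤ) = 6 * ((Fintype.card (Q N) : ℤ) -
      (Nat.card (MulAction.orbitRel.Quotient (Subgroup.zpowers (toSL ModularGroup.T)) (Q N)) : ℤ)) := by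
    rw [Nat.cast_sum]
    exact key
  omega

end

end Fermat.Agent.S20.helper2780
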