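/-
S20 (seat helper3006): PRE-ASSEMBLY.  All goals of `helper560_Spec` that are proved on main are
plugged into `helper560.S20_of_goals`; what remains are exactly the four goals
`Goal_BasisM`, `Goal_BasisS`, `Goal_Cusp`, `Goal_Dual`.
-/
import Fermat.Agent.S20.helper560_Assembly
import Fermat.Agent.S20.helper3006_Basic
import Fermat.Agent.S20.helper3006_Hilbert
import Fermat.Agent.S20.helper387_GoalODE
import Fermat.Agent.S20.helper1774_Ell
import Fermat.Agent.S20.helper1982_GoodLevel
import Fermat.Agent.S20.helper200_GoalSeed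
import Fermat.Agent.S20.helper2600_Goals

set_option autoImplicit false

namespace Fermat.Agent.S20.helper3006

open Fermat.Agent.S20.helper560

/-- `Goal_S20` from the four goals of `helper560_Spec` that are not yet proved on main. -/
theorem goal_S20_of_four (hBM : Goal_BasisM) (hBS : Goal_BasisS) (hC : Goal_Cusp)
    (hD : Goal_Dual) : Goal_S20 :=
  S20_of_goals goal_Basic goal_Hilbert goal_RRdim hBM hBS
    Fermat.Agent.S20.helper387.goal_ODEM Fermat.Agent.S20.helper387.goal_ODES
    Fermat.Agent.S20.helper1774.goal_EllS Fermat.Agent.S20.helper1774.goal_EllST hC hD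
    Fermat.Agent.S20.helper1982.goal_GoodLevel Fermat.Agent.S20.helper200.goal_Seed
    Fermat.Agent.S20.helper2600.goal_Index Fermat.Agent.S20.helper2600.goal_E2
    Fermat.Agent.S20.helper2600.goal_E3 Fermat.Agent.S20.helper2600.goal_Cusps

/-- The frozen statement S20 (verbatim), from the four remaining goals. -/
theorem s20_of_four (hBM : Goal_BasisM) (hBS : Goal_BasisS) (hC : Goal_Cusp) (hD : Goal_Dual)
    (N : ℕ) [NeZero N] :
    (Module.finrank ℂ (CuspForm (CongruenceSubgroup.Gamma0 N) 2) : ℚ) =
      ModularCurve.genusFormula N :=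
  goal_S20_of_four hBM hBS hC hD N

end Fermat.Agent.S20.helper3006
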