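/-
S20, helper560 route, `Goal_Dual`: abstract analytic core (seat helper3080).

Setting: a finite set `X` with a permutation `τ`, and families `u v : X → ℍ → ℂ` of
`N`-periodic holomorphic functions bounded at `i∞` which are `τ`-equivariant:
`u (τ x) z = u x (z + 1)`.  If the `v x` vanish at `i∞` then
`e^{-2πiz} ∑ x, u x z * v x z → ∑ x, LM (u x) * LS (v x)`, where `LM` is the sum of the
`q_N`-coefficients `0, …, N-1` and `LS` the sum of the `q_N`-coefficients `1, …, N`.
Moreover `LM (u x) = 0` for all `x` forces `u x / Δ` bounded at `i∞`, and `LS (v x) = 0`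
for all `x` forces `v x / Δ → 0` at `i∞`.

Built on the twist toolkit `helper500_Twist` (`eN`, `tw`, `lead`, `Good`).
-/
import Mathlib
import Fermat.Agent.S20.helper500_Twist

set_option autoImplicit false

open Complex Filter Function Asymptotics UpperHalfPlane
open scoped Real Topology Manifold ModularForm

namespace Fermat.Agent.S20.helper3080

open Fermat.Agent.S20.helper500

noncomputable section

local notation "Δ" => ModularForm.discriminant

/-- The shifted function `e^{-2πiz/N} v(z)`. -/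
def sh (N : ℕ) (v : ℍ → ℂ) : ℍ → ℂ := fun z => eN N (-1) (z : ℂ) * v z

/-- Leading functional on the modular side: the sum of the `q_N`-coefficients `0, …, N-1`. -/
def LM (N : ℕ) (u : ℍ → ℂ) : ℂ := ∑ n ∈ Finset.range N, lead N n u

/-- Leading functional on the cuspidal side: the sum of the `q_N`-coefficients `1, …, N`. -/
def LS (N : ℕ) (v : ℍ → ℂ) : ℂ := LM N (sh N v)

lemma coe_one_vadd (z : ℍ) : (((1 : ℝ) +ᵥ z : ℍ) : ℂ) = (z : ℂ) + 1 := by
  simp [add_comm]

lemma coe_natCast_vadd (N : ℕ) (z : ℍ) : (((N : ℝ) +ᵥ z : ℍ) : ℂ) = (z : ℂ) + N := by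
  simp [add_comm]

lemma eN_one_ne_one {N : ℕ} (hN : N ≠ 0) {a : ℤ} (ha : ¬ (N : ℤ) ∣ a) : eN N a 1 ≠ 1 := by
  intro h
  have hprim := Complex.isPrimitiveRoot_exp N hN
  have h1 := eN_natCast N a 1
  simp only [Nat.cast_one, mul_one] at h1
  rw [h1] at h
  exact ha ((hprim.zpow_eq_one_iff_dvd a).mp h)

lemma eN_self (N : ℕ) (hN : N ≠ 0) (z : ℂ) : eN N (N : ℤ) z = eN 1 1 z := by
  have hN' : (N : ℂ) ≠ 0 := Nat.cast_ne_zero.mpr hN
  unfold eN
  congr 1
  push_cast
  field_simp

/-- `sh N v` is again `Good` when `v` vanishes at `i∞`. -/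
lemma good_sh {N : ℕ} (hN : N ≠ 0) {v : ℍ → ℂ} (hv : Good N v) (hv0 : IsZeroAtImInfty v) :
    Good N (sh N v) where
  per z := by
    unfold sh
    rw [hv.per, coe_natCast_vadd, eN_add_period hN]
  holo := (mdiff_eN N (-1)).mul hv.holo
  bdd := by
    have hN' : (0 : ℝ) < N := Nat.cast_pos.mpr (Nat.pos_of_ne_zero hN)
    have hdecay := hv0.exp_decay_atImInfty hN' (periodic_comp_ofComplex_of_vadd hv.per)
      hv.holo hv.bdd
    have h1 : (fun z : ℍ => eN N (-1) (z : ℂ)) =O[atImInfty]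
        fun z : ℍ => Real.exp (2 * π * z.im / N) := by
      refine IsBigO.of_bound 1 (Eventually.of_forall fun z => ?_)
      rw [norm_eN, one_mul, Real.norm_of_nonneg (Real.exp_pos _).le]
      apply le_of_eq
      congr 1
      simp
    have h2 := h1.mul hdecay
    have h3 : (fun z : ℍ => Real.exp (2 * π * z.im / N) * Real.exp (-2 * π * z.im / N)) =
        (1 : ℍ → ℝ) := by
      ext z
      rw [← Real.exp_add]
      simp only [Pi.one_apply]
      rw [Real.exp_eq_one_iff]
      ring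
    rw [h3] at h2
    exact h2

lemma sh_mul (N : ℕ) (A v : ℍ → ℂ) : sh N (A * v) = A * sh N v := by
  ext z
  simp only [sh, Pi.mul_apply]
  ring

lemma eN_one_mul_sh (N : ℕ) (v : ℍ → ℂ) (z : ℍ) : eN N 1 (z : ℂ) * sh N v z = v z := by
  unfold sh
  rw [← mul_assoc]
  have := eN_neg_mul_eN N 1 (z : ℂ)
  rw [mul_comm] at this
  rw [this, one_mul]

/-! ### Linearity of the leading functionals -/

lemma LM_sum_const_mul {N : ℕ} {ι : Type*} (s : Finset ι) (c : ι → ℂ) {g : ι → ℍ → ℂ}
    (hg : ∀ i ∈ s, Good N (g i)) :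
    LM N (fun z => ∑ i ∈ s, c i * g i z) = ∑ i ∈ s, c i * LM N (g i) := by
  unfold LM
  have h1 : ∀ n ∈ Finset.range N, lead N n (fun z => ∑ i ∈ s, c i * g i z) =
      ∑ i ∈ s, c i * lead N n (g i) := by
    intro n hn
    have hn' : n < N := Finset.mem_range.mp hn
    rw [lead_sum hn' s (g := fun i z => c i * g i z) (fun i hi => (hg i hi).const_mul (c i))]
    exact Finset.sum_congr rfl fun i hi => lead_const_mul hn' (c i) (hg i hi)
  rw [Finset.sum_congr rfl h1, Finset.sum_comm]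
  simp_rw [Finset.mul_sum]

lemma LM_mul_periodic {N : ℕ} {A g : ℍ → ℂ} (hA : Good 1 A) (hg : Good N g) :
    LM N (A * g) = valueAtInfty A * LM N g := by
  unfold LM
  rw [Finset.mul_sum]
  refine Finset.sum_congr rfl fun n hn => ?_
  exact lead_mul_periodic (Finset.mem_range.mp hn) hA hg

lemma LS_sum_const_mul {N : ℕ} (hN : N ≠ 0) {ι : Type*} (s : Finset ι) (c : ι → ℂ)
    {g : ι → ℍ → ℂ} (hg : ∀ i ∈ s, Good N (g i)) (hg0 : ∀ i ∈ s, IsZeroAtImInfty (g i)) :
    LS N (fun z => ∑ i ∈ s, c i * g i z) = ∑ i ∈ s, c i * LS N (g i) := by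
  unfold LS
  have h1 : sh N (fun z => ∑ i ∈ s, c i * g i z) = fun z => ∑ i ∈ s, c i * sh N (g i) z := by
    ext z
    simp only [sh, Finset.mul_sum]
    refine Finset.sum_congr rfl fun i _ => ?_
    ring
  rw [h1]
  exact LM_sum_const_mul s c fun i hi => good_sh hN (hg i hi) (hg0 i hi)

lemma LS_mul_periodic {N : ℕ} (hN : N ≠ 0) {A g : ℍ → ℂ} (hA : Good 1 A) (hg : Good N g)
    (hg0 : IsZeroAtImInfty g) :
    LS N (A * g) = valueAtInfty A * LS N g := by
  unfold LS
  rw [sh_mul]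
  exact LM_mul_periodic hA (good_sh hN hg hg0)

/-! ### Equivariant families -/

/-- A family `g : X → ℍ → ℂ` of `Good` functions which is equivariant up to the constant `c`:
`g (τ x) z = c * g x (z + 1)`. -/
structure EqFam {X : Type*} (τ : X → X) (N : ℕ) (c : ℂ) (g : X → ℍ → ℂ) : Prop where
  good : ∀ x, Good N (g x)
  eqv : ∀ x z, g (τ x) z = c * g x ((1 : ℝ) +ᵥ z)

namespace EqFam

variable {X : Type*} {τ : X → X} {N : ℕ} {c : ℂ} {g : X → ℍ → ℂ}

lemma tw_step (h : EqFam τ N c g) (hN : N ≠ 0) (n : ℕ) (x : X) (z : ℍ) :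
    tw N n (g (τ x)) z = c * eN N n 1 * tw N n (g x) z := by
  have h1 : g (τ x) = fun w => c * (fun w' => g x ((1 : ℝ) +ᵥ w')) w := by
    ext w
    exact h.eqv x w
  rw [h1, tw_const_mul, tw_translate hN n (h.good x).per, mul_assoc]

lemma lead_step (h : EqFam τ N c g) {n : ℕ} (hn : n < N) (x : X) :
    lead N n (g (τ x)) = c * eN N n 1 * lead N n (g x) := by
  have h1 : g (τ x) = fun w => c * (fun w' => g x ((1 : ℝ) +ᵥ w')) w := by
    ext w
    exact h.eqv x w
  rw [h1, lead_const_mul hn c ((h.good x).comp_vadd 1), lead_translate hn (h.good x), mul_assoc]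

lemma lead_iter (h : EqFam τ N c g) {n : ℕ} (hn : n < N) (m : ℕ) (x : X) :
    lead N n (g (τ^[m] x)) = c ^ m * eN N n (m : ℂ) * lead N n (g x) := by
  induction m with
  | zero => simp [eN_zero_right]
  | succ m ih =>
    rw [Function.iterate_succ_apply', h.lead_step hn, ih]
    have : eN N n ((m + 1 : ℕ) : ℂ) = eN N n (m : ℂ) * eN N n 1 := by
      rw [← eN_add]
      push_cast
      rfl
    rw [this]
    ring

/-- If all leading sums of an equivariant family vanish, so do all the `q_N`-coefficients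
`0, …, N-1` of all its members. -/
lemma lead_eq_zero (h : EqFam τ N c g) (hN : N ≠ 0) (hc : c ≠ 0)
    (h0 : ∀ x, LM N (g x) = 0) (x : X) : ∀ n < N, lead N n (g x) = 0 := by
  refine eq_zero_of_sum_eN_eq_zero hN (fun n => lead N n (g x)) fun m _ => ?_
  have h1 := h0 (τ^[m] x)
  unfold LM at h1
  have h2 : ∑ n ∈ Finset.range N, lead N n (g (τ^[m] x)) =
      c ^ m * ∑ n ∈ Finset.range N, eN N n (m : ℂ) * lead N n (g x) := by
    rw [Finset.mul_sum]
    refine Finset.sum_congr rfl fun n hn => ?_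
    rw [h.lead_iter (Finset.mem_range.mp hn), mul_assoc]
  rw [h2] at h1
  exact (mul_eq_zero.mp h1).resolve_left (pow_ne_zero _ hc)

lemma isBigO_of_LM_eq_zero (h : EqFam τ N c g) (hN : N ≠ 0) (hc : c ≠ 0)
    (h0 : ∀ x, LM N (g x) = 0) (x : X) :
    g x =O[atImInfty] fun z : ℍ => Real.exp (-2 * π * z.im) :=
  isBigO_of_lead_eq_zero hN (h.good x) (h.lead_eq_zero hN hc h0 x)

/-- The shifted family of an equivariant family of functions vanishing at `i∞`. -/
lemma shift (h : EqFam τ N 1 g) (hN : N ≠ 0) (h0 : ∀ x, IsZeroAtImInfty (g x)) :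
    EqFam τ N (eN N 1 1) (fun x => sh N (g x)) where
  good x := good_sh hN (h.good x) (h0 x)
  eqv x z := by
    simp only [sh]
    rw [h.eqv x z, coe_one_vadd, eN_add, one_mul]
    have := eN_neg_mul_eN N 1 (1 : ℂ)
    calc eN N (-1) (z : ℂ) * g x ((1 : ℝ) +ᵥ z)
        = (eN N (-1) 1 * eN N 1 1) * (eN N (-1) (z : ℂ) * g x ((1 : ℝ) +ᵥ z)) := by
          rw [this, one_mul]
      _ = eN N 1 1 * (eN N (-1) (z : ℂ) * eN N (-1) 1 * g x ((1 : ℝ) +ᵥ z)) := by ring

end EqFam

/-! ### Division by `Δ` -/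

/-- Modular side: vanishing leading sums give `u x / Δ` bounded at `i∞`. -/
lemma isBoundedAtImInfty_div_discriminant {X : Type*} {τ : X → X} {N : ℕ} {u : X → ℍ → ℂ}
    (hu : EqFam τ N 1 u) (hN : N ≠ 0) (h0 : ∀ x, LM N (u x) = 0) (x : X) :
    IsBoundedAtImInfty (fun z => u x z / Δ z) := by
  have h1 := hu.isBigO_of_LM_eq_zero hN one_ne_zero h0 x
  have h2 : u x =O[atImInfty] Δ := h1.trans ModularForm.exp_isBigO_discriminant
  exact (div_isBoundedUnder_of_isBigO h2).isBigO_one ℝ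

/-- Cuspidal side: vanishing leading sums give `v x / Δ → 0` at `i∞`. -/
lemma isZeroAtImInfty_div_discriminant {X : Type*} {τ : X → X} {N : ℕ} {v : X → ℍ → ℂ}
    (hv : EqFam τ N 1 v) (hN : N ≠ 0) (hv0 : ∀ x, IsZeroAtImInfty (v x))
    (h0 : ∀ x, LS N (v x) = 0) (x : X) :
    IsZeroAtImInfty (fun z => v x z / Δ z) := by
  have hN' : (0 : ℝ) < N := Nat.cast_pos.mpr (Nat.pos_of_ne_zero hN)
  have hw := hv.shift hN hv0
  have h1 := hw.isBigO_of_LM_eq_zero hN (eN_ne_zero N 1 1) h0 x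
  have h2 : sh N (v x) =O[atImInfty] Δ := h1.trans ModularForm.exp_isBigO_discriminant
  have h3 : (fun z : ℍ => sh N (v x) z / Δ z) =O[atImInfty] (1 : ℍ → ℝ) :=
    (div_isBoundedUnder_of_isBigO h2).isBigO_one ℝ
  have h4 : (fun z : ℍ => eN N 1 (z : ℂ)) =O[atImInfty]
      fun z : ℍ => Real.exp (-(2 * π / N) * z.im) := by
    refine IsBigO.of_bound 1 (Eventually.of_forall fun z => ?_)
    rw [norm_eN, one_mul, Real.norm_of_nonneg (Real.exp_pos _).le]
    apply le_of_eq
    congr 1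
    simp
    ring
  have h5 := h4.mul h3
  have h6 : Tendsto (fun z : ℍ => Real.exp (-(2 * π / N) * z.im) * (1 : ℍ → ℝ) z) atImInfty
      (𝓝 0) := by
    simp only [Pi.one_apply, mul_one]
    exact tendsto_exp_neg_mul_im (by positivity)
  have h7 := h5.trans_tendsto h6
  refine h7.congr fun z => ?_
  rw [← mul_div_assoc, eN_one_mul_sh]

/-- `e^{-2πiz} Δ(z) → 1` at `i∞`. -/
lemma tendsto_eN_mul_discriminant :
    Tendsto (fun z : ℍ => eN 1 (-1) (z : ℂ) * Δ z) atImInfty (𝓝 1) := by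
  refine ModularForm.tendsto_atImInfty_tprod_one_sub_eta_q_pow.congr fun z => ?_
  rw [ModularForm.discriminant_eq_q_prod, ← mul_assoc]
  have : eN 1 (-1) (z : ℂ) * Periodic.qParam 1 (z : ℂ) = 1 := by
    unfold eN Periodic.qParam
    rw [← Complex.exp_add]
    simp
  rw [this, one_mul]

/-! ### The pairing limit -/

section pairing

variable {X : Type*} [Fintype X] (τ : Equiv.Perm X) {N : ℕ} {u v : X → ℍ → ℂ}

/-- Orthogonality: the `(n, m)` component of `∑ x, u x * w x` vanishes identically unless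
`n + m + 1 = N`. -/
lemma sum_tw_mul_tw_eq_zero (hN : N ≠ 0) (hu : EqFam τ N 1 u) {w : X → ℍ → ℂ}
    (hw : EqFam τ N (eN N 1 1) w) {n m : ℕ} (hn : n < N) (hm : m < N) (hnm : n + m + 1 ≠ N)
    (z : ℍ) : ∑ x, tw N n (u x) z * tw N m (w x) z = 0 := by
  set S := ∑ x, tw N n (u x) z * tw N m (w x) z with hS
  have h1 : S = ∑ x, tw N n (u (τ x)) z * tw N m (w (τ x)) z :=
    (Equiv.sum_comp τ (fun x => tw N n (u x) z * tw N m (w x) z)).symm
  have h2 : ∑ x, tw N n (u (τ x)) z * tw N m (w (τ x)) z =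
      eN N ((n : ℤ) + m + 1) 1 * S := by
    rw [hS, Finset.mul_sum]
    refine Finset.sum_congr rfl fun x _ => ?_
    rw [hu.tw_step hN, hw.tw_step hN, eN_add_left, eN_add_left]
    ring
  rw [h2] at h1
  have h3 : eN N ((n : ℤ) + m + 1) 1 ≠ 1 := by
    apply eN_one_ne_one hN
    intro hdvd
    have hdvd' : N ∣ n + m + 1 := by
      have : ((n : ℤ) + m + 1) = ((n + m + 1 : ℕ) : ℤ) := by push_cast; ring
      rw [this] at hdvd
      exact Int.natCast_dvd_natCast.mp hdvd
    obtain ⟨k, hk⟩ := hdvd'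
    rcases k with _ | _ | k
    · omega
    · omega
    · have : N * 2 ≤ N * (k + 1 + 1) := Nat.mul_le_mul_left N (by omega)
      omega
  have h4 : (1 - eN N ((n : ℤ) + m + 1) 1) * S = 0 := by
    rw [sub_mul, one_mul, ← h1, sub_self]
  exact (mul_eq_zero.mp h4).resolve_left (sub_ne_zero.mpr (Ne.symm h3))

/-- **Pairing limit.** -/
theorem tendsto_pairing (hN : N ≠ 0) (hu : EqFam τ N 1 u) (hv : EqFam τ N 1 v)
    (hv0 : ∀ x, IsZeroAtImInfty (v x)) :
    Tendsto (fun z : ℍ => eN 1 (-1) (z : ℂ) * ∑ x, u x z * v x z) atImInfty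
      (𝓝 (∑ x, LM N (u x) * LS N (v x))) := by
  have hw := hv.shift hN hv0
  set w : X → ℍ → ℂ := fun x => sh N (v x) with hw_def
  -- the components and their limits
  have hlim : ∀ n < N, ∀ m < N, Tendsto (fun z : ℍ => ∑ x, tw N n (u x) z * tw N m (w x) z)
      atImInfty (𝓝 (∑ x, lead N n (u x) * lead N m (w x))) := by
    intro n hn m hm
    refine tendsto_finsetSum _ fun x _ => ?_
    exact (tendsto_tw hn (hu.good x)).mul (tendsto_tw hm (hw.good x))
  -- orthogonality at the level of the limits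
  have horth : ∀ n < N, ∀ m < N, n + m + 1 ≠ N →
      ∑ x, lead N n (u x) * lead N m (w x) = 0 := by
    intro n hn m hm hnm
    refine tendsto_nhds_unique (hlim n hn m hm) ?_
    refine tendsto_const_nhds.congr fun z => ?_
    exact (sum_tw_mul_tw_eq_zero τ hN hu hw hn hm hnm z).symm
  -- decomposition of the function
  have hdec : ∀ z : ℍ, eN 1 (-1) (z : ℂ) * ∑ x, u x z * v x z =
      ∑ n ∈ Finset.range N, ∑ x, tw N n (u x) z * tw N (N - 1 - n) (w x) z := by
    intro z
    have e1 : ∀ x, u x z * v x z = eN N 1 (z : ℂ) * ∑ n ∈ Finset.range N, ∑ m ∈ Finset.range N,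
        eN N n (z : ℂ) * eN N m (z : ℂ) * (tw N n (u x) z * tw N m (w x) z) := by
      intro x
      have hu' := sum_eN_mul_tw hN (u x) z
      have hw' := sum_eN_mul_tw hN (w x) z
      have hv' : v x z = eN N 1 (z : ℂ) * w x z := (eN_one_mul_sh N (v x) z).symm
      rw [hv', ← hu', ← hw', mul_left_comm, Finset.sum_mul_sum]
      congr 1
      refine Finset.sum_congr rfl fun n _ => Finset.sum_congr rfl fun m _ => ?_
      ring
    simp_rw [e1]
    rw [← Finset.mul_sum, Finset.sum_comm]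
    have e2 : ∀ n ∈ Finset.range N, ∑ x, ∑ m ∈ Finset.range N,
        eN N n (z : ℂ) * eN N m (z : ℂ) * (tw N n (u x) z * tw N m (w x) z) =
        eN N n (z : ℂ) * eN N ((N - 1 - n : ℕ) : ℤ) (z : ℂ) *
          ∑ x, tw N n (u x) z * tw N (N - 1 - n) (w x) z := by
      intro n hn
      have hn' : n < N := Finset.mem_range.mp hn
      rw [Finset.sum_comm]
      rw [Finset.sum_eq_single (N - 1 - n)]
      · rw [Finset.mul_sum]
      · intro m hm hmn
        have hm' : m < N := Finset.mem_range.mp hm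
        rw [← Finset.mul_sum, sum_tw_mul_tw_eq_zero τ hN hu hw hn' hm' (by omega),
          mul_zero]
      · intro h
        exact absurd (Finset.mem_range.mpr (by omega)) h
    rw [Finset.sum_congr rfl e2, Finset.mul_sum, Finset.mul_sum]
    refine Finset.sum_congr rfl fun n hn => ?_
    have hn' : n < N := Finset.mem_range.mp hn
    have e3 : eN 1 (-1) (z : ℂ) * (eN N 1 (z : ℂ) *
        (eN N n (z : ℂ) * eN N ((N - 1 - n : ℕ) : ℤ) (z : ℂ))) = 1 := by
      rw [← eN_add_left, ← eN_add_left]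
      have : (1 : ℤ) + ((n : ℤ) + ((N - 1 - n : ℕ) : ℤ)) = (N : ℤ) := by omega
      rw [this, eN_self N hN, ← eN_add_left]
      simp [eN_zero_left]
    calc eN 1 (-1) (z : ℂ) * (eN N 1 (z : ℂ) * (eN N n (z : ℂ) *
          eN N ((N - 1 - n : ℕ) : ℤ) (z : ℂ) * ∑ x, tw N n (u x) z * tw N (N - 1 - n) (w x) z))
        = (eN 1 (-1) (z : ℂ) * (eN N 1 (z : ℂ) * (eN N n (z : ℂ) *
          eN N ((N - 1 - n : ℕ) : ℤ) (z : ℂ)))) *
            ∑ x, tw N n (u x) z * tw N (N - 1 - n) (w x) z := by ring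
      _ = _ := by rw [e3, one_mul]
  -- the limit
  have hmain : Tendsto (fun z : ℍ => eN 1 (-1) (z : ℂ) * ∑ x, u x z * v x z) atImInfty
      (𝓝 (∑ n ∈ Finset.range N, ∑ x, lead N n (u x) * lead N (N - 1 - n) (w x))) := by
    refine Tendsto.congr (fun z => (hdec z).symm) ?_
    refine tendsto_finsetSum _ fun n hn => ?_
    have hn' : n < N := Finset.mem_range.mp hn
    exact hlim n hn' (N - 1 - n) (by omega)
  -- identify the limit
  have hval : ∑ x, LM N (u x) * LS N (v x) =
      ∑ n ∈ Finset.range N, ∑ x, lead N n (u x) * lead N (N - 1 - n) (w x) := by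
    unfold LS LM
    simp_rw [Finset.sum_mul_sum]
    rw [Finset.sum_comm]
    refine Finset.sum_congr rfl fun n hn => ?_
    have hn' : n < N := Finset.mem_range.mp hn
    rw [Finset.sum_comm]
    rw [Finset.sum_eq_single (N - 1 - n)]
    · intro m hm hmn
      exact horth n hn' m (Finset.mem_range.mp hm) (by omega)
    · intro h
      exact absurd (Finset.mem_range.mpr (by omega)) h
  rw [hval]
  exact hmain

end pairing

end

end Fermat.Agent.S20.helper3080
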