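/-
S20, helper560 route, `Goal_Dual`: translates `tr 𝒢 k f q` of forms on a `GoodLevel` group
(seat helper3080).  `T`-equivariance, `Good`-ness, division by `Δ`, and linear independence of
the leading vectors of a free basis (modular and cuspidal versions).
-/
import Mathlib
import Fermat.Agent.S20.helper560_Defs
import Fermat.Agent.S20.helper2805_Basic
import Fermat.Agent.S20.helper3080_Pairing

set_option autoImplicit false

open Complex Filter Function Asymptotics UpperHalfPlane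
open scoped Real Topology Manifold ModularForm MatrixGroups Pointwise

namespace Fermat.Agent.S20.helper3080

open Fermat.Agent.S20.helper500 Fermat.Agent.S20.helper560

noncomputable section

local notation "Δ" => ModularForm.discriminant

variable {𝒢 : Subgroup (GL (Fin 2) ℝ)}

/-! ### Translates as `SL(2,ℤ)`-slashes -/

/-- A representative in `SL(2,ℤ)` such that `tr 𝒢 k f q = f ∣[k] rep q`. -/
def rep (q : Q 𝒢) : SL(2, ℤ) := ((q.out : 𝒮ℒ)⁻¹).2.choose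

lemma mapGL_rep (q : Q 𝒢) :
    Matrix.SpecialLinearGroup.mapGL ℝ (rep q) = ((q.out : 𝒮ℒ) : GL (Fin 2) ℝ)⁻¹ :=
  ((q.out : 𝒮ℒ)⁻¹).2.choose_spec

lemma tr_eq_slash (k : ℤ) (f : ℍ → ℂ) (q : Q 𝒢) : tr 𝒢 k f q = f ∣[k] rep q := by
  rw [ModularForm.SL_slash]
  change f ∣[k] ((q.out : 𝒮ℒ) : GL (Fin 2) ℝ)⁻¹ = f ∣[k] (Matrix.SpecialLinearGroup.mapGL ℝ (rep q))
  rw [mapGL_rep]

/-- The slash action of `T` is the translation by `1`. -/
lemma slash_T_apply (k : ℤ) (g : ℍ → ℂ) (z : ℍ) :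
    (g ∣[k] ModularGroup.T) z = g ((1 : ℝ) +ᵥ z) := by
  rw [ModularForm.SL_slash_apply, modular_T_smul]
  have h2 : denom (ModularGroup.T : SL(2, ℤ)) z = 1 := by
    rw [ModularGroup.denom_apply]
    simp [ModularGroup.T]
  rw [h2]
  simp

/-- For a genuine form, the translate attached to the coset of `h` is `f ∣ h⁻¹`. -/
lemma tr_mk [𝒢.HasDetOne] {k : ℤ} (F : ModularForm 𝒢 k) (h : 𝒮ℒ) :
    tr 𝒢 k ⇑F (QuotientGroup.mk h) = ⇑F ∣[k] (h : GL (Fin 2) ℝ)⁻¹ := by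
  rw [tr_eq_quotientFunc]
  rfl

/-- Every `SL(2,ℤ)`-slash of a genuine form is one of the translates. -/
lemma slash_eq_tr [𝒢.HasDetOne] {k : ℤ} (F : ModularForm 𝒢 k) (γ : SL(2, ℤ)) :
    ⇑F ∣[k] γ = tr 𝒢 k ⇑F (QuotientGroup.mk (sl γ)⁻¹) := by
  rw [tr_mk, ModularForm.SL_slash]
  congr 1

/-- The permutation of the cosets induced by `T⁻¹`. -/
def tauQ (𝒢 : Subgroup (GL (Fin 2) ℝ)) : Equiv.Perm (Q 𝒢) :=
  MulAction.toPerm (sl ModularGroup.T)⁻¹

lemma tr_tauQ [𝒢.HasDetOne] {k : ℤ} {f : ℍ → ℂ} (hf : f ∈ MFG 𝒢 k) (q : Q 𝒢) (z : ℍ) :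
    tr 𝒢 k f (tauQ 𝒢 q) z = tr 𝒢 k f q ((1 : ℝ) +ᵥ z) := by
  obtain ⟨F, rfl⟩ := hf
  have h := SlashInvariantForm.quotientFunc_smul (ℋ := 𝒮ℒ) F
    (h := Matrix.SpecialLinearGroup.mapGL ℝ ModularGroup.T) ⟨ModularGroup.T, rfl⟩ q
  rw [tr_eq_quotientFunc, tr_eq_quotientFunc]
  have h2 := slash_T_apply k (SlashInvariantForm.quotientFunc (ℋ := 𝒮ℒ) F q) z
  rw [← h2]
  exact (congrFun h z).symm

lemma tr_vadd_natCast [𝒢.HasDetOne] {N : ℕ} (hG : GoodLevel 𝒢 N) {k : ℤ} {f : ℍ → ℂ}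
    (hf : f ∈ MFG 𝒢 k) (q : Q 𝒢) (z : ℍ) :
    tr 𝒢 k f q ((N : ℝ) +ᵥ z) = tr 𝒢 k f q z := by
  obtain ⟨F, rfl⟩ := hf
  obtain ⟨γ₀, hγ₀⟩ := (q.out : 𝒮ℒ).2
  have h1 := hG.per γ₀
  rw [hγ₀] at h1
  exact SlashInvariantForm.vAdd_apply_of_mem_strictPeriods
    (SlashInvariantForm.translate F ((q.out : 𝒮ℒ) : GL (Fin 2) ℝ)⁻¹) z (h := (N : ℝ))
    (by rwa [inv_inv])

lemma mdiff_tr [𝒢.HasDetOne] {k : ℤ} {f : ℍ → ℂ} (hf : f ∈ MFG 𝒢 k) (q : Q 𝒢) :
    MDiff (tr 𝒢 k f q) := by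
  obtain ⟨F, rfl⟩ := hf
  exact (ModularFormClass.holo F).slash k _

lemma bdd_tr [𝒢.IsArithmetic] [𝒢.HasDetOne] {k : ℤ} {f : ℍ → ℂ} (hf : f ∈ MFG 𝒢 k) (q : Q 𝒢) :
    IsBoundedAtImInfty (tr 𝒢 k f q) := by
  obtain ⟨F, rfl⟩ := hf
  rw [tr_eq_slash]
  exact ModularFormClass.bdd_at_infty_slash F (rep q)

lemma zero_tr [𝒢.IsArithmetic] [𝒢.HasDetOne] {k : ℤ} {f : ℍ → ℂ} (hf : f ∈ CFG 𝒢 k) (q : Q 𝒢) :
    IsZeroAtImInfty (tr 𝒢 k f q) := by
  obtain ⟨F, rfl⟩ := hf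
  rw [tr_eq_slash]
  exact CuspFormClass.zero_at_infty_slash F (rep q)

lemma good_tr [𝒢.IsArithmetic] [𝒢.HasDetOne] {N : ℕ} (hG : GoodLevel 𝒢 N) {k : ℤ} {f : ℍ → ℂ}
    (hf : f ∈ MFG 𝒢 k) (q : Q 𝒢) : Good N (tr 𝒢 k f q) where
  per := tr_vadd_natCast hG hf q
  holo := mdiff_tr hf q
  bdd := bdd_tr hf q

/-- The translates of a form are an equivariant family for `tauQ`. -/
lemma eqFam_tr [𝒢.IsArithmetic] [𝒢.HasDetOne] {N : ℕ} (hG : GoodLevel 𝒢 N) {k : ℤ} {f : ℍ → ℂ}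
    (hf : f ∈ MFG 𝒢 k) : EqFam (tauQ 𝒢) N 1 (fun q => tr 𝒢 k f q) where
  good := good_tr hG hf
  eqv q z := by rw [tr_tauQ hf, one_mul]

/-! ### Level one forms -/

lemma slash_of_mem_RR {a : ℤ} {P : ℍ → ℂ} (hP : P ∈ RR a) (γ : SL(2, ℤ)) : P ∣[a] γ = P := by
  obtain ⟨P, rfl⟩ := hP
  rw [ModularForm.SL_slash]
  exact SlashInvariantForm.slash_action_eqn P _ ⟨γ, rfl⟩

lemma good_of_mem_RR {a : ℤ} {P : ℍ → ℂ} (hP : P ∈ RR a) : Good 1 P where
  per z := by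
    have h := slash_T_apply a P z
    rw [slash_of_mem_RR hP] at h
    simpa using h.symm
  holo := by
    obtain ⟨P, rfl⟩ := hP
    exact ModularFormClass.holo P
  bdd := by
    obtain ⟨P, rfl⟩ := hP
    have := ModularFormClass.bdd_at_infty_slash P (1 : SL(2, ℤ))
    simpa using this

/-- Translates of a product with a level one form. -/
lemma tr_mul {a b c : ℤ} (hc : a + b = c) {P : ℍ → ℂ} (hP : P ∈ RR a) (f : ℍ → ℂ) (q : Q 𝒢) :
    tr 𝒢 c (P * f) q = P * tr 𝒢 b f q := by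
  subst hc
  rw [tr_eq_slash, tr_eq_slash, ModularForm.mul_slash_SL2, slash_of_mem_RR hP]

lemma tr_sum_const_mul {ι : Type*} (s : Finset ι) (k : ℤ) (c : ι → ℂ) (g : ι → ℍ → ℂ) (q : Q 𝒢) :
    tr 𝒢 k (fun z => ∑ i ∈ s, c i * g i z) q = fun z => ∑ i ∈ s, c i * tr 𝒢 k (g i) q z := by
  have h1 : (fun z => ∑ i ∈ s, c i * g i z) = ∑ i ∈ s, c i • g i := by
    ext z
    simp [Finset.sum_apply]
  rw [h1, tr_eq_slash, SlashAction.sum_slash]
  ext z
  rw [Finset.sum_apply]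
  refine Finset.sum_congr rfl fun i _ => ?_
  rw [ModularForm.SL_smul_slash, tr_eq_slash]
  rfl

/-! ### Division by `Δ` -/

lemma discriminant_slash (γ : SL(2, ℤ)) : (Δ ∣[(12 : ℤ)] γ) = Δ := by
  rw [ModularForm.SL_slash]
  exact SlashInvariantForm.slash_action_eqn CuspForm.discriminant _ ⟨γ, rfl⟩

lemma div_discriminant_slash (k : ℤ) (f : ℍ → ℂ) (γ : SL(2, ℤ)) :
    (fun z => f z / Δ z) ∣[k - 12] γ = fun z => (f ∣[k] γ) z / Δ z := by
  change (f / Δ) ∣[k - 12] γ = (f ∣[k] γ) / Δ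
  rw [ModularForm.div_slash_SL2, discriminant_slash]

/-- Division by `Δ` in `MFG`: if all the translates of `f` divided by `Δ` are bounded at `i∞`
then `f / Δ` is a modular form of weight `k - 12`. -/
theorem div_discriminant_mem_MFG [𝒢.IsArithmetic] [𝒢.HasDetOne] (hle : 𝒢 ≤ 𝒮ℒ) {k : ℤ}
    {f : ℍ → ℂ} (hf : f ∈ MFG 𝒢 k)
    (h : ∀ q, IsBoundedAtImInfty (fun z => tr 𝒢 k f q z / Δ z)) :
    (fun z => f z / Δ z) ∈ MFG 𝒢 (k - 12) := by
  obtain ⟨F, rfl⟩ := hf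
  refine ⟨{ toFun := fun z => F z / Δ z
            slash_action_eq' := ?_
            holo' := ?_
            bdd_at_cusps' := ?_ }, rfl⟩
  · intro γ hγ
    obtain ⟨γ₀, rfl⟩ := hle hγ
    have h1 := div_discriminant_slash k (⇑F) γ₀
    have h2 : (⇑F ∣[k] γ₀) = ⇑F := by
      rw [ModularForm.SL_slash]
      exact SlashInvariantForm.slash_action_eqn F _ hγ
    rw [h2] at h1
    exact h1
  · exact (ModularFormClass.holo F).div CuspForm.discriminant.holo' ModularForm.discriminant_ne_zero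
  · intro c hc
    rw [Subgroup.IsArithmetic.isCusp_iff_isCusp_SL2Z] at hc
    rw [OnePoint.isBoundedAt_iff_forall_SL2Z hc]
    intro γ _
    rw [div_discriminant_slash k (⇑F) γ, slash_eq_tr F γ]
    exact h _

/-- Division by `Δ` in `CFG`: if all the translates of `f` divided by `Δ` vanish at `i∞`
then `f / Δ` is a cusp form of weight `k - 12`. -/
theorem div_discriminant_mem_CFG [𝒢.IsArithmetic] [𝒢.HasDetOne] (hle : 𝒢 ≤ 𝒮ℒ) {k : ℤ}
    {f : ℍ → ℂ} (hf : f ∈ MFG 𝒢 k)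
    (h : ∀ q, IsZeroAtImInfty (fun z => tr 𝒢 k f q z / Δ z)) :
    (fun z => f z / Δ z) ∈ CFG 𝒢 (k - 12) := by
  obtain ⟨F, rfl⟩ := hf
  refine ⟨{ toFun := fun z => F z / Δ z
            slash_action_eq' := ?_
            holo' := ?_
            zero_at_cusps' := ?_ }, rfl⟩
  · intro γ hγ
    obtain ⟨γ₀, rfl⟩ := hle hγ
    have h1 := div_discriminant_slash k (⇑F) γ₀
    have h2 : (⇑F ∣[k] γ₀) = ⇑F := by
      rw [ModularForm.SL_slash]
      exact SlashInvariantForm.slash_action_eqn F _ hγ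
    rw [h2] at h1
    exact h1
  · exact (ModularFormClass.holo F).div CuspForm.discriminant.holo' ModularForm.discriminant_ne_zero
  · intro c hc
    rw [Subgroup.IsArithmetic.isCusp_iff_isCusp_SL2Z] at hc
    rw [OnePoint.isZeroAt_iff_forall_SL2Z hc]
    intro γ _
    rw [div_discriminant_slash k (⇑F) γ, slash_eq_tr F γ]
    exact h _

/-! ### Level one forms with value `1` at `i∞` -/

lemma exists_RR_valueAtInfty_one {m : ℤ} (hm : 4 ≤ m) (hm2 : Even m) :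
    ∃ A ∈ RR m, valueAtInfty A = 1 := by
  lift m to ℕ using (by omega)
  have hk : 3 ≤ m := by omega
  have hk2 : Even m := by exact_mod_cast hm2
  refine ⟨⇑(ModularForm.E hk), ⟨ModularForm.E hk, rfl⟩, ?_⟩
  rw [← EisensteinSeries.E_qExpansion_coeff_zero hk hk2]
  exact (UpperHalfPlane.qExpansion_coeff_zero one_pos
    (ModularFormClass.analyticAt_cuspFunction_zero (ModularForm.E hk) one_pos
      one_mem_strictPeriods_SL)
    (SlashInvariantFormClass.periodic_comp_ofComplex (ModularForm.E hk)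
      one_mem_strictPeriods_SL)).symm

lemma discriminant_mem_RR : (Δ : ℍ → ℂ) ∈ RR 12 :=
  helper2805.CFG_le_MFG 12 ⟨CuspForm.discriminant, rfl⟩

/-! ### Independence of the leading vectors of a free basis -/

/-- **Independence of leading vectors** of a free basis (abstract form): `V` is a graded module
of forms on `𝒢` over the level one forms, `Λ` a "leading functional" on translates which is
linear, multiplicative with respect to level one forms, and whose vanishing on all translates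
of `f` allows the division of `f` by `Δ` inside `V`. -/
theorem lead_indep [𝒢.IsArithmetic] [𝒢.HasDetOne] (hneg : -1 ∈ 𝒢)
    (V : ℤ → Submodule ℂ (ℍ → ℂ)) (Λ : (ℍ → ℂ) → ℂ)
    (hV : ∀ k, V k ≤ MFG 𝒢 k)
    (hmul : ∀ (a b : ℤ) (P f : ℍ → ℂ), P ∈ RR a → f ∈ V b → P * f ∈ V (a + b))
    (hΛsum : ∀ (k : ℤ) {J : Type} (s : Finset J) (c : J → ℂ) (g : J → ℍ → ℂ),
      (∀ j ∈ s, g j ∈ V k) →
      ∀ q, Λ (tr 𝒢 k (fun z => ∑ j ∈ s, c j * g j z) q) = ∑ j ∈ s, c j * Λ (tr 𝒢 k (g j) q))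
    (hΛmul : ∀ (a b c : ℤ), a + b = c → ∀ (P f : ℍ → ℂ), P ∈ RR a → f ∈ V b →
      ∀ q, Λ (tr 𝒢 c (P * f) q) = valueAtInfty P * Λ (tr 𝒢 b f q))
    (hdiv : ∀ (k : ℤ) (f : ℍ → ℂ), f ∈ V k → (∀ q, Λ (tr 𝒢 k f q) = 0) →
      (fun z => f z / Δ z) ∈ V (k - 12))
    {J : Type} [Fintype J] (κ : J → ℤ) (F : J → ℍ → ℂ) (hF : IsFreeBasis V κ F)
    (c : J → ℂ) (hc : ∀ q, ∑ j, c j * Λ (tr 𝒢 (κ j) (F j) q) = 0) : c = 0 := by
  classical
  obtain ⟨hFV, hFuniq⟩ := hF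
  -- each generator is nonzero
  have hF0 : ∀ j, F j ≠ 0 := by
    intro j hj
    obtain ⟨P, -, hPuniq⟩ := hFuniq (κ j) 0 (V (κ j)).zero_mem
    have h1 := hPuniq 0 ⟨fun i => (RR _).zero_mem, by simp⟩
    have h2 := hPuniq (Pi.single j 1) ⟨fun i => ?_, ?_⟩
    · have h3 := congrFun (congrFun (h2.trans h1.symm) j) UpperHalfPlane.I
      simp at h3
    · by_cases hij : i = j
      · subst hij
        rw [Pi.single_eq_same, sub_self]
        exact ⟨1, ModularForm.one_coe_eq_one⟩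
      · rw [Pi.single_eq_of_ne hij]
        exact (RR _).zero_mem
    · rw [Finset.sum_eq_single j]
      · rw [hj, mul_zero]
      · intro i _ hij
        rw [Pi.single_eq_of_ne hij, zero_mul]
      · intro h
        exact absurd (Finset.mem_univ j) h
  -- the weights are even and nonnegative
  have hκ : ∀ j, 0 ≤ κ j ∧ Even (κ j) := by
    intro j
    have h1 : F j ∈ MFG 𝒢 (κ j) := hV _ (hFV j)
    constructor
    · by_contra hneg'
      rw [helper2805.MFG_eq_bot_of_neg (𝒢 := 𝒢) (k := κ j) (by omega)] at h1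
      exact hF0 j ((Submodule.mem_bot ℂ).mp h1)
    · by_contra hodd
      rw [helper2805.MFG_eq_bot_of_odd (𝒢 := 𝒢) hneg (k := κ j)
        (Int.not_even_iff_odd.mp hodd)] at h1
      exact hF0 j ((Submodule.mem_bot ℂ).mp h1)
  -- homogenise
  set S : ℤ := ∑ j, κ j with hS
  set K₀ : ℤ := 4 + 2 * S with hK₀
  have hle : ∀ j, κ j ≤ S := fun j =>
    Finset.single_le_sum (fun i _ => (hκ i).1) (Finset.mem_univ j)
  have hm : ∀ j, 4 ≤ K₀ - κ j ∧ Even (K₀ - κ j) := by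
    intro j
    obtain ⟨h0, t, ht⟩ := hκ j
    have := hle j
    exact ⟨by omega, ⟨2 + S - t, by omega⟩⟩
  choose A hA hA1 using fun j => exists_RR_valueAtInfty_one (hm j).1 (hm j).2
  set H : ℍ → ℂ := fun z => ∑ j, c j * (A j * F j) z with hH
  have hAF : ∀ j, A j * F j ∈ V K₀ := by
    intro j
    have := hmul (K₀ - κ j) (κ j) (A j) (F j) (hA j) (hFV j)
    rwa [sub_add_cancel] at this
  have hHV : H ∈ V K₀ := by
    have : H = ∑ j, c j • (A j * F j) := by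
      ext z
      simp [hH, Finset.sum_apply]
    rw [this]
    exact Submodule.sum_mem _ fun j _ => Submodule.smul_mem _ _ (hAF j)
  have hLH : ∀ q, Λ (tr 𝒢 K₀ H q) = 0 := by
    intro q
    rw [hH, hΛsum K₀ Finset.univ c (fun j => A j * F j) (fun j _ => hAF j) q, ← hc q]
    refine Finset.sum_congr rfl fun j _ => ?_
    rw [hΛmul (K₀ - κ j) (κ j) K₀ (sub_add_cancel _ _) (A j) (F j) (hA j) (hFV j) q, hA1 j,
      one_mul]
  -- divide by `Δ` and expand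
  have hdivH := hdiv K₀ H hHV hLH
  obtain ⟨P, ⟨hP, hPH⟩, -⟩ := hFuniq (K₀ - 12) _ hdivH
  obtain ⟨P₀, -, hP₀uniq⟩ := hFuniq K₀ H hHV
  have e1 : (fun j => c j • A j) = P₀ := by
    refine hP₀uniq (fun j => c j • A j) ⟨fun j => Submodule.smul_mem _ _ (hA j), ?_⟩
    ext z
    simp [hH, Finset.sum_apply]
  have e2 : (fun j => Δ * P j) = P₀ := by
    refine hP₀uniq (fun j => Δ * P j) ⟨fun j => ?_, ?_⟩
    · have h := helper2805.RR_mul_MFG (𝒢 := 𝒮ℒ) le_rfl 12 (K₀ - 12 - κ j) Δ (P j)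
        discriminant_mem_RR (hP j)
      have e : (12 : ℤ) + (K₀ - 12 - κ j) = K₀ - κ j := by ring
      rwa [e] at h
    · ext z
      have h := congrFun hPH z
      simp only [Finset.sum_apply, Pi.mul_apply] at h ⊢
      have hΔ := ModularForm.discriminant_ne_zero z
      have h' : H z = Δ z * ∑ j, P j z * F j z := by
        rw [← h]
        field_simp
      rw [h', Finset.mul_sum]
      refine Finset.sum_congr rfl fun j _ => ?_
      ring
  -- compare the values at `i∞`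
  funext j
  have e3 : c j • A j = Δ * P j := congrFun (e1.trans e2.symm) j
  have hgA := good_of_mem_RR (hA j)
  have hlimA : Tendsto (A j) atImInfty (𝓝 (valueAtInfty (A j))) :=
    tendsto_valueAtInfty (fun z => by simpa using hgA.per z) hgA.holo hgA.bdd
  have hlim1 : Tendsto (c j • A j) atImInfty (𝓝 (c j * 1)) := by
    rw [hA1 j] at hlimA
    exact hlimA.const_mul (c j)
  have hlim2 : Tendsto (Δ * P j) atImInfty (𝓝 0) :=
    ModularForm.discriminant_isZeroAtImInfty.mul_boundedAtFilter (good_of_mem_RR (hP j)).bdd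
  rw [e3] at hlim1
  have := tendsto_nhds_unique hlim1 hlim2
  simpa using this

/-- Independence of the leading vectors of a free basis of `MFG 𝒢`. -/
theorem lead_indep_MFG [𝒢.IsArithmetic] [𝒢.HasDetOne] {N : ℕ} (hG : GoodLevel 𝒢 N)
    {J : Type} [Fintype J] (κ : J → ℤ) (F : J → ℍ → ℂ) (hF : IsFreeBasis (MFG 𝒢) κ F)
    (c : J → ℂ) (hc : ∀ q, ∑ j, c j * LM N (tr 𝒢 (κ j) (F j) q) = 0) : c = 0 := by
  have hN : N ≠ 0 := hG.pos.ne'
  refine lead_indep hG.neg (MFG 𝒢) (LM N) (fun k => le_rfl) (helper2805.RR_mul_MFG hG.le)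
    ?_ ?_ ?_ κ F hF c hc
  · intro k J s c g hg q
    rw [tr_sum_const_mul]
    exact LM_sum_const_mul s c fun j hj => good_tr hG (hg j hj) q
  · intro a b c hab P f hP hf q
    rw [tr_mul hab hP]
    exact LM_mul_periodic (good_of_mem_RR hP) (good_tr hG hf q)
  · intro k f hf h0
    exact div_discriminant_mem_MFG hG.le hf
      (isBoundedAtImInfty_div_discriminant (eqFam_tr hG hf) hN h0)

/-- Independence of the (cuspidal) leading vectors of a free basis of `CFG 𝒢`. -/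
theorem lead_indep_CFG [𝒢.IsArithmetic] [𝒢.HasDetOne] {N : ℕ} (hG : GoodLevel 𝒢 N)
    {J : Type} [Fintype J] (κ : J → ℤ) (F : J → ℍ → ℂ) (hF : IsFreeBasis (CFG 𝒢) κ F)
    (c : J → ℂ) (hc : ∀ q, ∑ j, c j * LS N (tr 𝒢 (κ j) (F j) q) = 0) : c = 0 := by
  have hN : N ≠ 0 := hG.pos.ne'
  have hCM : ∀ k, CFG 𝒢 k ≤ MFG 𝒢 k := helper2805.CFG_le_MFG
  refine lead_indep hG.neg (CFG 𝒢) (LS N) hCM (helper2805.RR_mul_CFG hG.le)
    ?_ ?_ ?_ κ F hF c hc
  · intro k J s c g hg q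
    rw [tr_sum_const_mul]
    exact LS_sum_const_mul hN s c (fun j hj => good_tr hG (hCM _ (hg j hj)) q)
      (fun j hj => zero_tr (hg j hj) q)
  · intro a b c hab P f hP hf q
    rw [tr_mul hab hP]
    exact LS_mul_periodic hN (good_of_mem_RR hP) (good_tr hG (hCM _ hf) q) (zero_tr hf q)
  · intro k f hf h0
    exact div_discriminant_mem_CFG hG.le (hCM _ hf)
      (isZeroAtImInfty_div_discriminant (eqFam_tr hG (hCM _ hf)) hN (fun q => zero_tr hf q) h0)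

/-- The leading matrix of a free basis of `MFG 𝒢` indexed by the cosets is invertible. -/
theorem det_leadM_ne_zero [𝒢.IsArithmetic] [𝒢.HasDetOne] {N : ℕ} (hG : GoodLevel 𝒢 N)
    [DecidableEq (Q 𝒢)] (κ : Q 𝒢 → ℤ) (F : Q 𝒢 → ℍ → ℂ) (hF : IsFreeBasis (MFG 𝒢) κ F) :
    (Matrix.of fun q j => LM N (tr 𝒢 (κ j) (F j) q) : Matrix (Q 𝒢) (Q 𝒢) ℂ).det ≠ 0 := by
  intro hdet
  obtain ⟨c, hc0, hc⟩ := Matrix.exists_mulVec_eq_zero_iff.mpr hdet
  apply hc0
  refine lead_indep_MFG hG κ F hF c fun q => ?_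
  have := congrFun hc q
  simp only [Matrix.mulVec, dotProduct, Matrix.of_apply, Pi.zero_apply] at this
  rw [← this]
  exact Finset.sum_congr rfl fun j _ => mul_comm _ _

/-- The cuspidal leading matrix of a free basis of `CFG 𝒢` indexed by the cosets is
invertible. -/
theorem det_leadS_ne_zero [𝒢.IsArithmetic] [𝒢.HasDetOne] {N : ℕ} (hG : GoodLevel 𝒢 N)
    [DecidableEq (Q 𝒢)] (κ : Q 𝒢 → ℤ) (F : Q 𝒢 → ℍ → ℂ) (hF : IsFreeBasis (CFG 𝒢) κ F) :
    (Matrix.of fun q j => LS N (tr 𝒢 (κ j) (F j) q) : Matrix (Q 𝒢) (Q 𝒢) ℂ).det ≠ 0 := by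
  intro hdet
  obtain ⟨c, hc0, hc⟩ := Matrix.exists_mulVec_eq_zero_iff.mpr hdet
  apply hc0
  refine lead_indep_CFG hG κ F hF c fun q => ?_
  have := congrFun hc q
  simp only [Matrix.mulVec, dotProduct, Matrix.of_apply, Pi.zero_apply] at this
  rw [← this]
  exact Finset.sum_congr rfl fun j _ => mul_comm _ _

end

end Fermat.Agent.S20.helper3080
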