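/-
S20, formal half of `helper560.Goal_Dual` (seat helper321).

For a family `F` of modular forms (weights `κ`, indexed by the cosets `Q 𝒢`) whose fundamental
matrix `Φ z = transMatrix 𝒢 κ F z` is invertible at every point, the functions
`dualFun 𝒢 κ F j q z = Δ z * (Φ z)⁻¹ j q` are holomorphic and transform under `SL(2,ℤ)` like the
translates of a form of weight `12 - κ j`.  If moreover they tend to `0` at `i∞`
(`hdecay`, a consequence of the invertibility of the leading matrix of `F` at the cusp), then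
`H j := dualFun 𝒢 κ F j ⟦1⟧` are cusp forms of weight `12 - κ j` forming a `Δ`-dual family.
-/
import Fermat.Agent.S20.helper321_DualBridge

set_option autoImplicit false

open UpperHalfPlane ModularForm
open scoped MatrixGroups Manifold

namespace Fermat.Agent.S20.helper321

open Fermat.Agent.S20.helper560

noncomputable section

local notation "Δ" => ModularForm.discriminant

/-! ### Pure matrix / holomorphy lemmas -/

section matrix

variable {n : Type} [Fintype n] [DecidableEq n]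

/-- If `A` is obtained from `B` by permuting the rows and scaling the columns, the inverse of `A`
is obtained from the inverse of `B` by permuting the columns and scaling the rows. -/
theorem inv_apply_of_perm_scale (A B : Matrix n n ℂ) (ρ : n ≃ n) (w : n → ℂ)
    (hw : ∀ j, w j ≠ 0) (hB : B.det ≠ 0) (hAB : ∀ q j, A q j = w j * B (ρ q) j) (j q : n) :
    A⁻¹ j q = (w j)⁻¹ * B⁻¹ j (ρ q) := by
  have hX : (Matrix.of fun j q => (w j)⁻¹ * B⁻¹ j (ρ q)) * A = 1 := by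
    ext j i
    rw [Matrix.mul_apply]
    simp only [Matrix.of_apply, hAB]
    have h1 : ∑ q, (w j)⁻¹ * B⁻¹ j (ρ q) * (w i * B (ρ q) i)
        = (w j)⁻¹ * w i * ∑ q, B⁻¹ j (ρ q) * B (ρ q) i := by
      rw [Finset.mul_sum]
      refine Finset.sum_congr rfl fun q _ => by ring
    rw [h1, Equiv.sum_comp ρ (fun q' => B⁻¹ j q' * B q' i), ← Matrix.mul_apply,
      Matrix.nonsing_inv_mul _ hB.isUnit, Matrix.one_apply]
    split_ifs with h
    · subst h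
      rw [mul_one, inv_mul_cancel₀ (hw j)]
    · rw [mul_zero]
  rw [Matrix.inv_eq_left_inv hX]
  rfl

/-- The determinant of a matrix of holomorphic functions on `ℍ` is holomorphic. -/
theorem mdifferentiable_det (M : ℍ → Matrix n n ℂ)
    (hM : ∀ i j, MDifferentiable 𝓘(ℂ) 𝓘(ℂ) (fun z => M z i j)) :
    MDifferentiable 𝓘(ℂ) 𝓘(ℂ) (fun z => (M z).det) := by
  have h : (fun z => (M z).det)
      = ∑ σ : Equiv.Perm n, (fun _ : ℍ => ((Equiv.Perm.sign σ : ℤ) : ℂ)) *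
          ∏ i, (fun z => M z (σ i) i) := by
    ext z
    simp [Matrix.det_apply']
  rw [h]
  refine MDifferentiable.sum fun σ _ => ?_
  exact MDifferentiable.mul mdifferentiable_const (MDifferentiable.prod fun i _ => hM _ _)

/-- The entries of the inverse of an everywhere invertible matrix of holomorphic functions on
`ℍ` are holomorphic. -/
theorem mdifferentiable_inv_apply (M : ℍ → Matrix n n ℂ)
    (hM : ∀ i j, MDifferentiable 𝓘(ℂ) 𝓘(ℂ) (fun z => M z i j))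
    (hdet : ∀ z, (M z).det ≠ 0) (j q : n) :
    MDifferentiable 𝓘(ℂ) 𝓘(ℂ) (fun z => (M z)⁻¹ j q) := by
  have h : (fun z => (M z)⁻¹ j q)
      = (fun z => (M z).det)⁻¹ * fun z => ((M z).updateRow q (Pi.single j 1)).det := by
    ext z
    rw [Matrix.inv_def, Matrix.smul_apply, Matrix.adjugate_apply, Ring.inverse_eq_inv']
    rfl
  rw [h]
  refine MDifferentiable.mul ((mdifferentiable_det M hM).inv hdet) (mdifferentiable_det _ ?_)
  intro i l
  by_cases hi : i = q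
  · subst hi
    simp only [Matrix.updateRow_self]
    exact mdifferentiable_const
  · simp only [Matrix.updateRow_ne hi]
    exact hM i l

end matrix

/-! ### The dual functions -/

variable {𝒢 : Subgroup (GL (Fin 2) ℝ)} [𝒢.IsArithmetic] [𝒢.HasDetOne]

omit [𝒢.IsArithmetic] [𝒢.HasDetOne] in
/-- Every translate `tr 𝒢 k f q` is the slash of `f` by `γ : SL(2,ℤ)` with `(sl γ)⁻¹ = q.out`. -/
theorem exists_SL_out (q : Q 𝒢) :
    ∃ γ : SL(2, ℤ), (sl γ)⁻¹ = q.out ∧ ∀ (k : ℤ) (f : ℍ → ℂ), tr 𝒢 k f q = f ∣[k] γ := by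
  have h : ((q.out : 𝒮ℒ) : GL (Fin 2) ℝ)⁻¹ ∈ 𝒮ℒ := inv_mem (q.out : 𝒮ℒ).2
  obtain ⟨γ, hγ⟩ := h
  refine ⟨γ, ?_, fun k f => ?_⟩
  · rw [inv_eq_iff_eq_inv]
    exact Subtype.ext hγ
  · rw [ModularForm.SL_slash, tr]
    congr 1
    exact hγ.symm

omit [𝒢.IsArithmetic] in
/-- Transformation law of the translates under `SL(2,ℤ)`. -/
theorem tr_slash {k : ℤ} {f : ℍ → ℂ} (hf : f ∈ MFG 𝒢 k) (γ : SL(2, ℤ)) (q : Q 𝒢) :
    tr 𝒢 k f q ∣[k] γ = tr 𝒢 k f ((sl γ)⁻¹ • q) := by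
  obtain ⟨F, rfl⟩ := hf
  rw [tr_eq_quotientFunc, tr_eq_quotientFunc, ModularForm.SL_slash]
  exact SlashInvariantForm.quotientFunc_smul F (sl γ).2 q

omit [𝒢.IsArithmetic] in
/-- Pointwise form of `tr_slash`. -/
theorem tr_smul_apply {k : ℤ} {f : ℍ → ℂ} (hf : f ∈ MFG 𝒢 k) (γ : SL(2, ℤ)) (q : Q 𝒢) (z : ℍ) :
    tr 𝒢 k f q (γ • z) = denom γ z ^ k * tr 𝒢 k f ((sl γ)⁻¹ • q) z := by
  have h := congrFun (tr_slash hf γ q) z
  rw [ModularForm.SL_slash_apply] at h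
  rw [← h, mul_comm, mul_assoc, ← zpow_add₀ (denom_ne_zero γ z)]
  simp

omit [𝒢.IsArithmetic] in
/-- The translates of a modular form are holomorphic. -/
theorem mdifferentiable_tr {k : ℤ} {f : ℍ → ℂ} (hf : f ∈ MFG 𝒢 k) (q : Q 𝒢) :
    MDifferentiable 𝓘(ℂ) 𝓘(ℂ) (tr 𝒢 k f q) := by
  obtain ⟨F, rfl⟩ := hf
  exact (ModularForm.translate F _).holo'

variable [DecidableEq (Q 𝒢)]

/-- The entries of `Δ · Φ⁻¹`, `Φ` the fundamental matrix of the family `F`. -/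
def dualFun (𝒢 : Subgroup (GL (Fin 2) ℝ)) [𝒢.IsArithmetic] [DecidableEq (Q 𝒢)]
    (κ : Q 𝒢 → ℤ) (F : Q 𝒢 → ℍ → ℂ) (j q : Q 𝒢) : ℍ → ℂ :=
  fun z => Δ z * (transMatrix 𝒢 κ F z)⁻¹ j q

theorem discriminant_smul_apply (γ : SL(2, ℤ)) (z : ℍ) :
    Δ (γ • z) = denom γ z ^ (12 : ℤ) * Δ z := by
  have h : (⇑CuspForm.discriminant) ∣[(12 : ℤ)] γ = ⇑CuspForm.discriminant := by
    rw [ModularForm.SL_slash]
    exact SlashInvariantFormClass.slash_action_eq CuspForm.discriminant _ ⟨γ, rfl⟩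
  have h2 := congrFun h z
  rw [ModularForm.SL_slash_apply, CuspForm.coe_discriminant] at h2
  rw [← h2, mul_comm, mul_assoc, ← zpow_add₀ (denom_ne_zero γ z)]
  simp

variable {κ : Q 𝒢 → ℤ} {F : Q 𝒢 → ℍ → ℂ}

theorem mdifferentiable_dualFun (hF : ∀ j, F j ∈ MFG 𝒢 (κ j))
    (hdet : ∀ z, (transMatrix 𝒢 κ F z).det ≠ 0) (j q : Q 𝒢) :
    MDifferentiable 𝓘(ℂ) 𝓘(ℂ) (dualFun 𝒢 κ F j q) := by
  have hΔ : MDifferentiable 𝓘(ℂ) 𝓘(ℂ) (Δ : ℍ → ℂ) := CuspForm.discriminant.holo'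
  exact hΔ.mul (mdifferentiable_inv_apply _ (fun i l => mdifferentiable_tr (hF l) i) hdet j q)

/-- The entries of `Δ · Φ⁻¹` transform like translates of a form of weight `12 - κ j`. -/
theorem dualFun_slash (hF : ∀ j, F j ∈ MFG 𝒢 (κ j))
    (hdet : ∀ z, (transMatrix 𝒢 κ F z).det ≠ 0) (γ : SL(2, ℤ)) (j q : Q 𝒢) :
    dualFun 𝒢 κ F j q ∣[12 - κ j] γ = dualFun 𝒢 κ F j ((sl γ)⁻¹ • q) := by
  ext z
  rw [ModularForm.SL_slash_apply]
  have hd : denom γ z ≠ 0 := denom_ne_zero γ z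
  have hinv := inv_apply_of_perm_scale (transMatrix 𝒢 κ F (γ • z)) (transMatrix 𝒢 κ F z)
    (MulAction.toPerm (sl γ)⁻¹) (fun j => denom γ z ^ κ j) (fun j => zpow_ne_zero _ hd) (hdet z)
    (fun q j => by
      simp only [transMatrix, Matrix.of_apply, MulAction.toPerm_apply]
      exact tr_smul_apply (hF j) γ q z) j q
  simp only [dualFun, hinv, discriminant_smul_apply, MulAction.toPerm_apply]
  have e : denom γ z ^ (12 : ℤ) * (denom γ z ^ κ j)⁻¹ * denom γ z ^ (-(12 - κ j)) = 1 := by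
    rw [← zpow_neg, ← zpow_add₀ hd, ← zpow_add₀ hd]
    have : (12 : ℤ) + -κ j + -(12 - κ j) = 0 := by ring
    rw [this, zpow_zero]
  calc denom γ z ^ (12 : ℤ) * Δ z *
        ((denom γ z ^ κ j)⁻¹ * (transMatrix 𝒢 κ F z)⁻¹ j ((sl γ)⁻¹ • q)) *
        denom γ z ^ (-(12 - κ j))
      = (denom γ z ^ (12 : ℤ) * (denom γ z ^ κ j)⁻¹ * denom γ z ^ (-(12 - κ j))) *
        (Δ z * (transMatrix 𝒢 κ F z)⁻¹ j ((sl γ)⁻¹ • q)) := by ring
    _ = Δ z * (transMatrix 𝒢 κ F z)⁻¹ j ((sl γ)⁻¹ • q) := by rw [e, one_mul]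

/-- **Formal half of the duality.** If the entries of `Δ · Φ⁻¹` tend to `0` at `i∞`, they are the
translates of cusp forms of weights `12 - κ j`. -/
theorem exists_dual_of_decay {N : ℕ} (hL : GoodLevel 𝒢 N) (hF : ∀ j, F j ∈ MFG 𝒢 (κ j))
    (hdet : ∀ z, (transMatrix 𝒢 κ F z).det ≠ 0)
    (hdecay : ∀ j q, IsZeroAtImInfty (dualFun 𝒢 κ F j q)) :
    ∃ H : Q 𝒢 → ℍ → ℂ, (∀ j, H j ∈ CFG 𝒢 (12 - κ j)) ∧
      ∀ j q z, tr 𝒢 (12 - κ j) (H j) q z = Δ z * (transMatrix 𝒢 κ F z)⁻¹ j q := by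
  let q₁ : Q 𝒢 := ((1 : 𝒮ℒ) : Q 𝒢)
  have hfix : ∀ γ : SL(2, ℤ), Matrix.SpecialLinearGroup.mapGL ℝ γ ∈ 𝒢 → (sl γ)⁻¹ • q₁ = q₁ := by
    intro γ hγ
    change (((sl γ)⁻¹ * (1 : 𝒮ℒ) : 𝒮ℒ) : Q 𝒢) = ((1 : 𝒮ℒ) : Q 𝒢)
    rw [QuotientGroup.eq]
    simp only [mul_one, inv_inv, Subgroup.mem_subgroupOf]
    exact hγ
  refine ⟨fun j => dualFun 𝒢 κ F j q₁, fun j => ?_, fun j q z => ?_⟩
  · refine ⟨{ toFun := dualFun 𝒢 κ F j q₁
              slash_action_eq' := ?_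
              holo' := mdifferentiable_dualFun hF hdet j q₁
              zero_at_cusps' := ?_ }, rfl⟩
    · intro A hA
      obtain ⟨γ, rfl⟩ := hL.le hA
      have h2 := dualFun_slash hF hdet γ j q₁
      rw [hfix γ hA] at h2
      exact h2
    · intro c hc
      rw [Subgroup.IsArithmetic.isCusp_iff_isCusp_SL2Z] at hc
      rw [OnePoint.isZeroAt_iff_forall_SL2Z hc]
      intro γ _
      show IsZeroAtImInfty (dualFun 𝒢 κ F j q₁ ∣[12 - κ j] γ)
      rw [dualFun_slash hF hdet γ j q₁]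
      exact hdecay j _
  · obtain ⟨γ, hγ1, hγ⟩ := exists_SL_out q
    have hγ' := hγ (12 - κ j) (dualFun 𝒢 κ F j q₁)
    show tr 𝒢 (12 - κ j) (dualFun 𝒢 κ F j q₁) q z = _
    rw [hγ', dualFun_slash hF hdet γ j q₁, hγ1]
    have hq : (q.out : 𝒮ℒ) • q₁ = q := by
      change (((q.out : 𝒮ℒ) * (1 : 𝒮ℒ) : 𝒮ℒ) : Q 𝒢) = q
      rw [mul_one]
      exact QuotientGroup.out_eq' q
    rw [hq]
    rfl

/-- `helper560.Stmt_Dual 𝒢` from the decay at `i∞` of the entries of `Δ · Φ⁻¹`. -/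
theorem stmt_Dual_of_decay {N : ℕ} (hL : GoodLevel 𝒢 N)
    (hdecay : ∀ (κ : Q 𝒢 → ℤ) (F : Q 𝒢 → ℍ → ℂ), IsFreeBasis (MFG 𝒢) κ F →
      (∀ z, fundDet 𝒢 κ F z ≠ 0) → ∀ j q, IsZeroAtImInfty (dualFun 𝒢 κ F j q)) :
    Stmt_Dual 𝒢 := by
  refine stmt_Dual_of_inverse fun κ F hF hdF => ?_
  exact exists_dual_of_decay hL hF.1 (fun z => by rw [← fundDet_eq_det]; exact hdF z)
    (hdecay κ F hF hdF)

end

end Fermat.Agent.S20.helper321
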