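/-
S20, rank bound by trace-Vandermonde growth (seat helper3380).

For a level `𝒢` with `GoodLevel 𝒢 N` and a seed `h` of weight `w` (a form whose stabiliser in
`SL(2,ℤ)` is exactly `𝒢`, so that its translates `h_q` are pairwise distinct):

* `finrank_MFG_le_moments` : `dim M_k(𝒢) ≤ ∑_{i<μ} dim M_{k+i·w}(SL₂ℤ)`; the moment map
  `f ↦ (∑_q f_q · h_q^i)_{i<μ}` (traces of `f·h^i`) is injective by Vandermonde.
* `card_le_mu` : a finite homogeneous free basis of a graded submodule `V ⊆ M_*(𝒢)` has at most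
  `μ = [SL₂ℤ : 𝒢]` elements (growth comparison with the level one dimension formula; no Cramer
  rule, no determinants of modular forms).
-/
import Fermat.Agent.S20.helper560_Basic

set_option autoImplicit false

open UpperHalfPlane ModularForm
open scoped MatrixGroups Manifold Pointwise

namespace Fermat.Agent.S20.helper3380

open Fermat.Agent.S20.helper560

noncomputable section

/-! ### Basic facts on translates -/

section basics

variable {𝒢 : Subgroup (GL (Fin 2) ℝ)}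

/-- Every translate `tr 𝒢 k f q` is the slash of `f` by one element of `SL(2,ℤ)` (depending
only on the coset `q`). -/
theorem exists_SL_tr_eq (q : Q 𝒢) :
    ∃ γ : SL(2, ℤ), ∀ (k : ℤ) (f : ℍ → ℂ), tr 𝒢 k f q = f ∣[k] γ := by
  have h : ((q.out : 𝒮ℒ) : GL (Fin 2) ℝ)⁻¹ ∈ 𝒮ℒ := inv_mem (q.out : 𝒮ℒ).2
  obtain ⟨γ, hγ⟩ := h
  refine ⟨γ, fun k f => ?_⟩
  rw [ModularForm.SL_slash, tr]
  congr 1
  exact hγ.symm

theorem tr_add (k : ℤ) (f g : ℍ → ℂ) (q : Q 𝒢) :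
    tr 𝒢 k (f + g) q = tr 𝒢 k f q + tr 𝒢 k g q := by
  obtain ⟨γ, hγ⟩ := exists_SL_tr_eq q
  simp only [hγ, SlashAction.add_slash]

theorem tr_smul (k : ℤ) (c : ℂ) (f : ℍ → ℂ) (q : Q 𝒢) :
    tr 𝒢 k (c • f) q = c • tr 𝒢 k f q := by
  obtain ⟨γ, hγ⟩ := exists_SL_tr_eq q
  simp only [hγ, SL_smul_slash]

theorem tr_sum {ι : Type} (s : Finset ι) (k : ℤ) (f : ι → ℍ → ℂ) (q : Q 𝒢) :
    tr 𝒢 k (∑ l ∈ s, f l) q = ∑ l ∈ s, tr 𝒢 k (f l) q := by
  unfold tr
  exact SlashAction.sum_slash ..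

theorem tr_mul (a b : ℤ) (f g : ℍ → ℂ) (q : Q 𝒢) :
    tr 𝒢 (a + b) (f * g) q = tr 𝒢 a f q * tr 𝒢 b g q := by
  obtain ⟨γ, hγ⟩ := exists_SL_tr_eq q
  rw [hγ, hγ, hγ, ModularForm.mul_slash_SL2]

theorem tr_mul' {k a b : ℤ} (hk : k = a + b) (f g : ℍ → ℂ) (q : Q 𝒢) :
    tr 𝒢 k (f * g) q = tr 𝒢 a f q * tr 𝒢 b g q := by
  subst hk
  exact tr_mul a b f g q

theorem tr_RR {a : ℤ} {P : ℍ → ℂ} (hP : P ∈ RR a) (q : Q 𝒢) : tr 𝒢 a P q = P := by
  obtain ⟨γ, hγ⟩ := exists_SL_tr_eq q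
  obtain ⟨P', rfl⟩ := hP
  rw [hγ, ModularForm.SL_slash]
  exact SlashInvariantFormClass.slash_action_eq P' _ ⟨γ, rfl⟩

theorem tr_one (q : Q 𝒢) : tr 𝒢 0 (1 : ℍ → ℂ) q = 1 :=
  tr_RR ⟨ModularForm.const 1, by ext z; simp⟩ q

theorem tr_pow (w : ℤ) (h : ℍ → ℂ) (q : Q 𝒢) (n : ℕ) :
    tr 𝒢 (n * w) (h ^ n) q = (tr 𝒢 w h q) ^ n := by
  induction n with
  | zero =>
    simp only [Nat.cast_zero, zero_mul, pow_zero]
    exact tr_one q
  | succ n ih =>
    rw [pow_succ, pow_succ, ← ih]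
    exact tr_mul' (by push_cast; ring) _ _ q

/-- If a translate of `f` vanishes then `f` vanishes. -/
theorem eq_zero_of_tr_eq_zero (k : ℤ) (f : ℍ → ℂ) (q : Q 𝒢) (h : tr 𝒢 k f q = 0) : f = 0 := by
  obtain ⟨γ, hγ⟩ := exists_SL_tr_eq q
  rw [hγ] at h
  have h2 : (f ∣[k] γ) ∣[k] γ⁻¹ = 0 := by rw [h]; exact SlashAction.zero_slash _ _
  rw [← SlashAction.slash_mul, mul_inv_cancel, SlashAction.slash_one] at h2
  exact h2

theorem tr_mdiff [𝒢.HasDetOne] {k : ℤ} {f : ℍ → ℂ} (hf : f ∈ MFG 𝒢 k) (q : Q 𝒢) :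
    MDiff (tr 𝒢 k f q) := by
  obtain ⟨F, rfl⟩ := hf
  exact (ModularForm.translate F (((q.out : 𝒮ℒ) : GL (Fin 2) ℝ)⁻¹)).holo'

theorem MFG_pow [𝒢.HasDetOne] {w : ℤ} {h : ℍ → ℂ} (hh : h ∈ MFG 𝒢 w) (n : ℕ) :
    h ^ n ∈ MFG 𝒢 (n * w) := by
  induction n with
  | zero =>
    simp only [Nat.cast_zero, zero_mul, pow_zero]
    exact ⟨ModularForm.const 1, by ext z; simp⟩
  | succ n ih =>
    rw [pow_succ]
    have := MFG_mul_mem ih hh
    rwa [show (n : ℤ) * w + w = ((n + 1 : ℕ) : ℤ) * w by push_cast; ring] at this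

end basics

/-! ### The seed separates the cosets -/

section seed

variable {𝒢 : Subgroup (GL (Fin 2) ℝ)}

/-- The translates of a seed are pairwise distinct. -/
theorem tr_seed_injective {w : ℤ} {h : ℍ → ℂ}
    (hstab : ∀ γ : SL(2, ℤ), h ∣[w] γ = h → Matrix.SpecialLinearGroup.mapGL ℝ γ ∈ 𝒢) :
    Function.Injective (tr 𝒢 w h) := by
  intro q q' hqq
  unfold tr at hqq
  -- `h ∣ g⁻¹ = h ∣ g'⁻¹`, hence `h ∣ (g'⁻¹ g) = h`
  have h1 : h ∣[w] (((q'.out : 𝒮ℒ) : GL (Fin 2) ℝ)⁻¹ * ((q.out : 𝒮ℒ) : GL (Fin 2) ℝ)) = h := by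
    rw [SlashAction.slash_mul, ← hqq, ← SlashAction.slash_mul, inv_mul_cancel,
      SlashAction.slash_one]
  have hmem : ((q'.out : 𝒮ℒ) : GL (Fin 2) ℝ)⁻¹ * ((q.out : 𝒮ℒ) : GL (Fin 2) ℝ) ∈ 𝒮ℒ :=
    mul_mem (inv_mem (q'.out : 𝒮ℒ).2) (q.out : 𝒮ℒ).2
  obtain ⟨γ, hγ⟩ := hmem
  have h2 : h ∣[w] γ = h := by
    rw [ModularForm.SL_slash]
    rw [← hγ] at h1
    exact h1
  have h3 := hstab γ h2
  have h4 : (q'.out)⁻¹ * q.out ∈ 𝒢.subgroupOf 𝒮ℒ := by
    rw [Subgroup.mem_subgroupOf]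
    have : (((q'.out)⁻¹ * q.out : 𝒮ℒ) : GL (Fin 2) ℝ) =
        ((q'.out : 𝒮ℒ) : GL (Fin 2) ℝ)⁻¹ * ((q.out : 𝒮ℒ) : GL (Fin 2) ℝ) := rfl
    rw [this, ← hγ]
    exact h3
  have h5 : (QuotientGroup.mk q'.out : Q 𝒢) = QuotientGroup.mk q.out :=
    QuotientGroup.eq.mpr h4
  rw [QuotientGroup.out_eq', QuotientGroup.out_eq'] at h5
  exact h5.symm

end seed

/-! ### Vandermonde -/

/-- If `∑_q a_q x_q^i = 0` for all `i < #Q` and the `x_q` are pairwise distinct, then `a = 0`. -/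
theorem eq_zero_of_moments_eq_zero {Qt : Type} [Fintype Qt] (x a : Qt → ℂ)
    (hx : Function.Injective x)
    (h : ∀ i < Fintype.card Qt, ∑ q, a q * x q ^ i = 0) : a = 0 := by
  classical
  let e := Fintype.equivFin Qt
  have hdet : (Matrix.vandermonde (x ∘ e.symm)).det ≠ 0 :=
    Matrix.det_vandermonde_ne_zero_iff.mpr (hx.comp e.symm.injective)
  have hv : Matrix.vecMul (a ∘ e.symm) (Matrix.vandermonde (x ∘ e.symm)) = 0 := by
    funext j
    simp only [Matrix.vecMul, dotProduct, Matrix.vandermonde_apply, Function.comp_apply,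
      Pi.zero_apply]
    rw [Equiv.sum_comp e.symm (fun q => a q * x q ^ (j : ℕ))]
    exact h j j.2
  have h0 := Matrix.eq_zero_of_vecMul_eq_zero hdet hv
  funext q
  have := congrFun h0 (e q)
  simpa using this

/-! ### The moment map -/

section moments

variable {𝒢 : Subgroup (GL (Fin 2) ℝ)} [𝒢.IsArithmetic] [𝒢.HasDetOne]

/-- A holomorphic function, not identically zero, off whose zero set the translates of the
seed take pairwise distinct values. -/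
theorem exists_sep_fun {w : ℤ} {h : ℍ → ℂ} (hh : h ∈ MFG 𝒢 w)
    (hinj : Function.Injective (tr 𝒢 w h)) :
    ∃ D : ℍ → ℂ, MDiff D ∧ D ≠ 0 ∧
      ∀ z, D z ≠ 0 → Function.Injective (fun q => tr 𝒢 w h q z) := by
  classical
  refine ⟨∏ p ∈ (Finset.univ : Finset (Q 𝒢)).offDiag, (tr 𝒢 w h p.1 - tr 𝒢 w h p.2), ?_, ?_, ?_⟩
  · exact MDifferentiable.prod fun p _ => (tr_mdiff hh p.1).sub (tr_mdiff hh p.2)
  · intro h0
    rw [UpperHalfPlane.prod_eq_zero_iff
      (fun p _ => (tr_mdiff hh p.1).sub (tr_mdiff hh p.2))] at h0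
    obtain ⟨p, hp, hp0⟩ := h0
    exact (Finset.mem_offDiag.mp hp).2.2 (hinj (sub_eq_zero.mp hp0))
  · intro z hz q q' hqq
    by_contra hne
    apply hz
    rw [Finset.prod_apply]
    refine Finset.prod_eq_zero (i := (q, q')) ?_ ?_
    · exact Finset.mem_offDiag.mpr ⟨Finset.mem_univ _, Finset.mem_univ _, hne⟩
    · simp only [Pi.sub_apply]
      exact sub_eq_zero.mpr hqq

/-- The `i`-th moment of `f` (weight `k`) against `h` (weight `w`): `∑_q f_q · h_q^i`. -/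
def moment (𝒢 : Subgroup (GL (Fin 2) ℝ)) [𝒢.IsArithmetic] (k w : ℤ) (h : ℍ → ℂ) (i : ℕ) :
    (ℍ → ℂ) →ₗ[ℂ] (ℍ → ℂ) where
  toFun f := ∑ q, tr 𝒢 k f q * (tr 𝒢 w h q) ^ i
  map_add' f g := by
    simp only [tr_add, add_mul, Finset.sum_add_distrib]
  map_smul' c f := by
    simp only [tr_smul, smul_mul_assoc, Finset.smul_sum, RingHom.id_apply]

omit [𝒢.HasDetOne] in
theorem moment_apply (k w : ℤ) (h : ℍ → ℂ) (i : ℕ) (f : ℍ → ℂ) :
    moment 𝒢 k w h i f = ∑ q, tr 𝒢 k f q * (tr 𝒢 w h q) ^ i := rfl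

/-- The moments of a modular form of level `𝒢` against a form of level `𝒢` are level one
modular forms (they are traces). -/
theorem moment_mem {k w : ℤ} {h f : ℍ → ℂ} (hh : h ∈ MFG 𝒢 w) (hf : f ∈ MFG 𝒢 k) (i : ℕ) :
    moment 𝒢 k w h i f ∈ RR (k + i * w) := by
  obtain ⟨G, hG⟩ := MFG_mul_mem hf (MFG_pow hh i)
  refine ⟨ModularForm.trace 𝒮ℒ G, ?_⟩
  rw [ModularForm.coe_trace, moment_apply]
  refine Finset.sum_congr rfl fun q _ => ?_
  rw [← tr_eq_quotientFunc, hG, tr_mul, tr_pow]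

/-- The moment map `f ↦ (∑_q f_q h_q^i)_{i<n}`. -/
def momentMap {w : ℤ} {h : ℍ → ℂ} (hh : h ∈ MFG 𝒢 w) (k : ℤ) (n : ℕ) :
    MFG 𝒢 k →ₗ[ℂ] (∀ i : Fin n, RR (k + ((i : ℕ) : ℤ) * w)) :=
  LinearMap.pi fun i => (moment 𝒢 k w h i).restrict (fun _ hf => moment_mem hh hf i)

/-- The moment map with `n = [SL₂ℤ : 𝒢]` moments is injective. -/
theorem momentMap_injective {w : ℤ} {h : ℍ → ℂ} (hh : h ∈ MFG 𝒢 w)
    (hinj : Function.Injective (tr 𝒢 w h)) (k : ℤ) :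
    Function.Injective (momentMap hh k (Fintype.card (Q 𝒢))) := by
  rw [← LinearMap.ker_eq_bot, LinearMap.ker_eq_bot']
  rintro ⟨f, hf⟩ h0
  obtain ⟨D, hD, hD0, hDsep⟩ := exists_sep_fun hh hinj
  have hmom : ∀ i < Fintype.card (Q 𝒢), moment 𝒢 k w h i f = 0 := by
    intro i hi
    have := congrFun h0 ⟨i, hi⟩
    exact congrArg Subtype.val this
  have hpt : ∀ z, D z ≠ 0 → ∀ q, tr 𝒢 k f q z = 0 := by
    intro z hz
    have := eq_zero_of_moments_eq_zero (fun q => tr 𝒢 w h q z) (fun q => tr 𝒢 k f q z)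
      (hDsep z hz) (fun i hi => by
        have h1 := congrFun (hmom i hi) z
        rw [moment_apply, Finset.sum_apply] at h1
        simpa using h1)
    exact fun q => congrFun this q
  have hq0 : D * tr 𝒢 k f (QuotientGroup.mk 1) = 0 := by
    funext z
    by_cases hz : D z = 0
    · simp [hz]
    · simp [hpt z hz]
  rcases (UpperHalfPlane.mul_eq_zero_iff hD (tr_mdiff hf _)).mp hq0 with h1 | h1
  · exact absurd h1 hD0
  · exact Subtype.ext (eq_zero_of_tr_eq_zero k f _ h1)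

/-- **Growth bound.** `dim M_k(𝒢) ≤ ∑_{i<μ} dim M_{k+i·w}(SL₂ℤ)` if `𝒢` has a seed of weight
`w`. -/
theorem finrank_MFG_le_moments {w : ℤ} {h : ℍ → ℂ} (hh : h ∈ MFG 𝒢 w)
    (hinj : Function.Injective (tr 𝒢 w h)) (k : ℤ) :
    Module.finrank ℂ (MFG 𝒢 k) ≤
      ∑ i ∈ Finset.range (mu 𝒢), Module.finrank ℂ (RR (k + (i : ℤ) * w)) := by
  have h1 := LinearMap.finrank_le_finrank_of_injective (momentMap_injective hh hinj k)
  rw [Module.finrank_pi_fintype] at h1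
  have h2 : mu 𝒢 = Fintype.card (Q 𝒢) := Nat.card_eq_fintype_card
  rw [h2, ← Fin.sum_univ_eq_sum_range (fun i => Module.finrank ℂ (RR (k + (i : ℤ) * w)))]
  exact h1

end moments

/-! ### Growth comparison -/

/-- Pure arithmetic: if the Hilbert function `∑_j r(k - κ_j)` is bounded by `∑_{i<μ} r(k + i w)`
for all `k`, where `r` grows like `n/12`, then there are at most `μ` generators. -/
theorem card_le_of_growth {J : Type} [Fintype J] (κ : J → ℤ) (μ : ℕ) (w : ℤ) (r : ℤ → ℕ)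
    (hr_le : ∀ n, 12 * (r n : ℤ) ≤ |n| + 12)
    (hr_ge : ∀ n, Even n → n - 2 ≤ 12 * (r n : ℤ))
    (hκ : ∀ j, Even (κ j))
    (h : ∀ k, ∑ j, r (k - κ j) ≤ ∑ i ∈ Finset.range μ, r (k + (i : ℤ) * w)) :
    Fintype.card J ≤ μ := by
  by_contra hlt
  have hlt := not_le.mp hlt
  set C : ℤ := ∑ j, |κ j| + 2 * Fintype.card J + μ * μ * |w| + 12 * μ with hC
  have hC0 : 0 ≤ C := by positivity
  set k : ℤ := 2 * (C + 1) with hk
  have hkeven : Even k := ⟨C + 1, by rw [hk]; ring⟩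
  have hk0 : 0 ≤ k := by rw [hk]; linarith
  -- lower bound
  have hL : (Fintype.card J : ℤ) * k - ∑ j, |κ j| - 2 * Fintype.card J ≤
      12 * ∑ j, (r (k - κ j) : ℤ) := by
    rw [Finset.mul_sum]
    have h1 : ∀ j, k - |κ j| - 2 ≤ 12 * (r (k - κ j) : ℤ) := fun j => by
      have h1 := hr_ge (k - κ j) (hkeven.sub (hκ j))
      have h2 := le_abs_self (κ j)
      linarith
    have h3 := Finset.sum_le_sum (fun j (_ : j ∈ Finset.univ) => h1 j)
    simp only [Finset.sum_sub_distrib, Finset.sum_const, Finset.card_univ, nsmul_eq_mul] at h3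
    linarith
  -- upper bound
  have hU : 12 * ∑ i ∈ Finset.range μ, (r (k + (i : ℤ) * w) : ℤ) ≤
      (μ : ℤ) * k + μ * μ * |w| + 12 * μ := by
    rw [Finset.mul_sum]
    have h1 : ∀ i ∈ Finset.range μ, 12 * (r (k + (i : ℤ) * w) : ℤ) ≤ k + μ * |w| + 12 := by
      intro i hi
      have h1 := hr_le (k + (i : ℤ) * w)
      have h2 : |k + (i : ℤ) * w| ≤ k + μ * |w| := by
        calc |k + (i : ℤ) * w| ≤ |k| + |(i : ℤ) * w| := abs_add_le _ _
          _ = k + i * |w| := by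
            rw [abs_of_nonneg hk0, abs_mul, abs_of_nonneg (Int.natCast_nonneg i)]
          _ ≤ k + μ * |w| := by
            have h4 : (i : ℤ) ≤ μ := by exact_mod_cast (Finset.mem_range.mp hi).le
            nlinarith [abs_nonneg w]
      linarith
    have h3 := Finset.sum_le_sum h1
    simp only [Finset.sum_const, Finset.card_range, nsmul_eq_mul] at h3
    nlinarith
  have hmain : ((∑ j, r (k - κ j) : ℕ) : ℤ) ≤
      ((∑ i ∈ Finset.range μ, r (k + (i : ℤ) * w) : ℕ) : ℤ) := by exact_mod_cast h k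
  push_cast at hmain
  have hcard : (μ : ℤ) + 1 ≤ Fintype.card J := by exact_mod_cast hlt
  have h4 : (Fintype.card J : ℤ) * k - ∑ j, |κ j| - 2 * Fintype.card J ≤
      (μ : ℤ) * k + μ * μ * |w| + 12 * μ := by linarith
  have h5 : k ≤ ((Fintype.card J : ℤ) - μ) * k := by nlinarith
  have h6 : k ≤ C := by rw [hC]; linarith
  rw [hk] at h6
  linarith

/-- Upper bound for the level one dimensions. -/
theorem rr_le (n : ℤ) : 12 * (Module.finrank ℂ (RR n) : ℤ) ≤ |n| + 12 := by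
  rw [goal_RRdim n]
  have habs := abs_nonneg n
  split_ifs with h1 h2
  · simp only [Nat.cast_zero, mul_zero]; linarith
  · have h0 : 0 ≤ n := by
      by_contra hn
      exact h1 (Or.inl (not_le.mp hn))
    rw [abs_of_nonneg h0]
    have h3 : ((n / 12).toNat : ℤ) = n / 12 := Int.toNat_of_nonneg (Int.ediv_nonneg h0 (by norm_num))
    rw [h3]
    omega
  · have h0 : 0 ≤ n := by
      by_contra hn
      exact h1 (Or.inl (not_le.mp hn))
    rw [abs_of_nonneg h0]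
    have h3 : ((n / 12).toNat : ℤ) = n / 12 := Int.toNat_of_nonneg (Int.ediv_nonneg h0 (by norm_num))
    push_cast
    rw [h3]
    omega

/-- Lower bound for the level one dimensions in even weights. -/
theorem rr_ge (n : ℤ) (hn : Even n) : n - 2 ≤ 12 * (Module.finrank ℂ (RR n) : ℤ) := by
  rw [goal_RRdim n]
  split_ifs with h1 h2
  · rcases h1 with h1 | h1
    · simp only [Nat.cast_zero, mul_zero]; linarith
    · exact absurd hn (Int.not_even_iff_odd.mpr h1)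
  · have h0 : 0 ≤ n := by
      by_contra hn'
      exact h1 (Or.inl (not_le.mp hn'))
    have h3 : ((n / 12).toNat : ℤ) = n / 12 := Int.toNat_of_nonneg (Int.ediv_nonneg h0 (by norm_num))
    rw [h3]
    omega
  · have h0 : 0 ≤ n := by
      by_contra hn'
      exact h1 (Or.inl (not_le.mp hn'))
    have h3 : ((n / 12).toNat : ℤ) = n / 12 := Int.toNat_of_nonneg (Int.ediv_nonneg h0 (by norm_num))
    push_cast
    rw [h3]
    omega

/-- The members of a free basis are nonzero. -/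
theorem isFreeBasis_ne_zero {V : ℤ → Submodule ℂ (ℍ → ℂ)} {J : Type} [Fintype J] {κ : J → ℤ}
    {F : J → ℍ → ℂ} (hF : IsFreeBasis V κ F) (j : J) : F j ≠ 0 := by
  classical
  intro h0
  obtain ⟨P, -, huniq⟩ := hF.2 (κ j) 0 (Submodule.zero_mem _)
  have hz : (0 : J → ℍ → ℂ) = P := by
    apply huniq
    refine ⟨fun j' => Submodule.zero_mem _, ?_⟩
    simp
  have hs : (Pi.single j (1 : ℍ → ℂ) : J → ℍ → ℂ) = P := by
    apply huniq
    refine ⟨fun j' => ?_, ?_⟩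
    · by_cases hj : j' = j
      · subst hj
        rw [Pi.single_eq_same, sub_self]
        exact ⟨ModularForm.const 1, by ext z; simp⟩
      · rw [Pi.single_eq_of_ne hj]
        exact Submodule.zero_mem _
    · rw [Fintype.sum_eq_single j]
      · rw [Pi.single_eq_same, h0, mul_zero]
      · intro j' hj
        rw [Pi.single_eq_of_ne hj, zero_mul]
  have h1 : (Pi.single j (1 : ℍ → ℂ) : J → ℍ → ℂ) j = 0 := by
    rw [hs, ← hz]; rfl
  rw [Pi.single_eq_same] at h1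
  have := congrFun h1 UpperHalfPlane.I
  simp at this

section card

variable {𝒢 : Subgroup (GL (Fin 2) ℝ)} [𝒢.IsArithmetic] [𝒢.HasDetOne]

/-- **Rank bound.** A finite homogeneous free basis of a graded submodule `V ⊆ M_*(𝒢)` over
the level one ring has at most `μ = [SL₂ℤ : 𝒢]` elements. -/
theorem card_le_mu {N : ℕ} (hG : GoodLevel 𝒢 N) (hS : Seed 𝒢) (V : ℤ → Submodule ℂ (ℍ → ℂ))
    (hV : ∀ k, V k ≤ MFG 𝒢 k)
    (hmul : ∀ (a b : ℤ) (P f : ℍ → ℂ), P ∈ RR a → f ∈ V b → P * f ∈ V (a + b))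
    {J : Type} [Fintype J] {κ : J → ℤ} {F : J → ℍ → ℂ} (hF : IsFreeBasis V κ F) :
    Fintype.card J ≤ mu 𝒢 := by
  obtain ⟨w, h, hh, hstab⟩ := hS
  have hinj := tr_seed_injective hstab
  have hfin : ∀ k, Module.Finite ℂ (MFG 𝒢 k) := (goal_Basic 𝒢 N hG).2.2.2.2.2.2.2.1
  have hodd : ∀ k, Odd k → MFG 𝒢 k = ⊥ := (goal_Basic 𝒢 N hG).2.1
  refine card_le_of_growth κ (mu 𝒢) w (fun n => Module.finrank ℂ (RR n)) rr_le rr_ge ?_ ?_
  · intro j
    rw [← Int.not_odd_iff_even]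
    intro ho
    have hmem := hV _ (hF.1 j)
    rw [hodd _ ho] at hmem
    exact isFreeBasis_ne_zero hF j ((Submodule.mem_bot ℂ).mp hmem)
  · intro k
    have := hfin k
    calc ∑ j, Module.finrank ℂ (RR (k - κ j)) = Module.finrank ℂ (V k) :=
          (goal_Hilbert V J κ F hF hmul k).symm
      _ ≤ Module.finrank ℂ (MFG 𝒢 k) := Submodule.finrank_mono (hV k)
      _ ≤ _ := finrank_MFG_le_moments hh hinj k

end card

end

end Fermat.Agent.S20.helper3380
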