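import Mathlib

/-!
# S20 / R1 (FREE), abstract algebra core (helper646)

Pure graded-algebra statement: if `(x, y)` (degrees 4 and 6) is a "regular sequence" on a graded
module `M` (given here through the syzygy statement `syz`) over a graded ring `R` with
`R_0 = K`, `R_m = x R_{m-4} + y R_{m-6}` for `m ≠ 0`, and `M_k = 0` for `k < 0`, then lifts of
bases of the spaces `M_w / (x M_{w-4} + y M_{w-6})` form a free `R`-basis of `M`:
every `f ∈ M_w` is uniquely `∑ r_j F_j` with `r_j ∈ R_{w - κ_j}`.

Everything is "function level": `R m` and `M k` are `K`-submodules of one commutative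
`K`-algebra `A` (in the application `A = ℍ → ℂ`), so there are no dependent-type casts.
-/

set_option autoImplicit false

namespace Fermat.Agent.S20.helper646

section Abstract

variable {K A : Type*} [Field K] [CommRing A] [Algebra K A]

/-- The abstract graded set-up: `R` (graded ring pieces), `M` (graded module pieces),
`x ∈ R 4`, `y ∈ R 6`. -/
structure GradedSetup (R M : ℤ → Submodule K A) (x y : A) : Prop where
  R_mul_R : ∀ {m n : ℤ} {r s : A}, r ∈ R m → s ∈ R n → r * s ∈ R (m + n)
  R_mul_M : ∀ {m k : ℤ} {r f : A}, r ∈ R m → f ∈ M k → r * f ∈ M (m + k)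
  R_neg : ∀ {m : ℤ}, m < 0 → ∀ r ∈ R m, r = 0
  M_neg : ∀ {k : ℤ}, k < 0 → ∀ f ∈ M k, f = 0
  R_zero : ∀ r ∈ R 0, ∃ c : K, r = algebraMap K A c
  one_mem : (1 : A) ∈ R 0
  x_mem : x ∈ R 4
  y_mem : y ∈ R 6
  R_decomp : ∀ {m : ℤ}, m ≠ 0 → ∀ r ∈ R m, ∃ s ∈ R (m - 4), ∃ t ∈ R (m - 6), r = x * s + y * t
  syz : ∀ {k : ℤ} {a b : A}, a ∈ M (k - 4) → b ∈ M (k - 6) → x * a = y * b →
      ∃ h ∈ M (k - 10), a = y * h ∧ b = x * h

theorem mem_of_eq {R : ℤ → Submodule K A} {m n : ℤ} {r : A} (h : r ∈ R m) (e : m = n) :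
    r ∈ R n := e ▸ h

variable {J : Type*}

/-- Coefficient families of total weight `w`: `r j ∈ R (w - κ j)`. -/
def coeffSpace (R : ℤ → Submodule K A) (κ : J → ℤ) (w : ℤ) : Submodule K (J →₀ A) where
  carrier := {r | ∀ j, r j ∈ R (w - κ j)}
  add_mem' := by
    intro a b ha hb j
    simpa using (R _).add_mem (ha j) (hb j)
  zero_mem' := by
    intro j
    simp
  smul_mem' := by
    intro c r hr j
    simpa using (R _).smul_mem c (hr j)

theorem mem_coeffSpace {R : ℤ → Submodule K A} {κ : J → ℤ} {w : ℤ} {r : J →₀ A} :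
    r ∈ coeffSpace R κ w ↔ ∀ j, r j ∈ R (w - κ j) := Iff.rfl

/-- Scalars as constant coefficients. -/
noncomputable def constEmb (A : Type*) [CommRing A] [Algebra K A] (c : J →₀ K) : J →₀ A :=
  c.mapRange (algebraMap K A) (map_zero _)

@[simp] theorem constEmb_apply (c : J →₀ K) (j : J) :
    constEmb A c j = algebraMap K A (c j) := by
  simp [constEmb]

theorem lc_constEmb (F : J → A) (c : J →₀ K) :
    Finsupp.linearCombination A F (constEmb A c) = Finsupp.linearCombination K F c := by
  simp only [constEmb, Finsupp.linearCombination_apply]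
  rw [Finsupp.sum_mapRange_index (by simp)]
  simp [Finsupp.sum, Algebra.smul_def]

theorem constEmb_zero : constEmb A (0 : J →₀ K) = 0 := by
  simp [constEmb]

theorem constEmb_add (c d : J →₀ K) : constEmb A (c + d) = constEmb A c + constEmb A d := by
  ext j
  simp

theorem constEmb_single (j : J) (c : K) :
    constEmb A (Finsupp.single j c) = Finsupp.single j (algebraMap K A c) := by
  simp [constEmb]

end Abstract

section Main

variable {K A : Type*} [Field K] [CommRing A] [Algebra K A]
variable {R M : ℤ → Submodule K A} {x y : A} {J : Type*} {κ : J → ℤ} {F : J → A}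

theorem lc_mem (hS : GradedSetup R M x y) (hF : ∀ j, F j ∈ M (κ j)) {w : ℤ} {r : J →₀ A}
    (hr : r ∈ coeffSpace R κ w) : Finsupp.linearCombination A F r ∈ M w := by
  rw [Finsupp.linearCombination_apply]
  refine Submodule.sum_mem _ fun j _ => ?_
  exact mem_of_eq (hS.R_mul_M (hr j) (hF j)) (by ring)

theorem constEmb_mem (hS : GradedSetup R M x y) {w : ℤ} {c : J →₀ K}
    (hc : ∀ j, c j ≠ 0 → κ j = w) : constEmb A c ∈ coeffSpace R κ w := by
  intro j
  rw [constEmb_apply]
  by_cases h : c j = 0
  · simp [h]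
  · have h0 : w - κ j = 0 := by rw [hc j h]; ring
    rw [h0, Algebra.algebraMap_eq_smul_one]
    exact (R 0).smul_mem _ hS.one_mem

theorem smul_mem_coeffSpace (hS : GradedSetup R M x y) {m w w' : ℤ} {a : A} (ha : a ∈ R m)
    {s : J →₀ A} (hs : s ∈ coeffSpace R κ w) (e : m + w = w') :
    a • s ∈ coeffSpace R κ w' := by
  intro j
  rw [Finsupp.smul_apply, smul_eq_mul]
  exact mem_of_eq (hS.R_mul_R ha (hs j)) (by rw [← e]; ring)

/-- Split a coefficient family into its constant part (supported on generators of weight `w`)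
and a part in `x • _ + y • _`. -/
theorem decomp_coeff (hS : GradedSetup R M x y) (w : ℤ) (r : J →₀ A)
    (hr : r ∈ coeffSpace R κ w) :
    ∃ c : J →₀ K, (∀ j, c j ≠ 0 → κ j = w) ∧ ∃ s ∈ coeffSpace R κ (w - 4),
      ∃ t ∈ coeffSpace R κ (w - 6), r = constEmb A c + x • s + y • t := by
  induction r using Finsupp.induction with
  | zero =>
    exact ⟨0, by simp, 0, Submodule.zero_mem _, 0, Submodule.zero_mem _, by simp [constEmb_zero]⟩
  | single_add j a f hj ha ih =>
    have hfj : f j = 0 := by simpa using hj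
    have haR : a ∈ R (w - κ j) := by
      have := hr j
      simpa [hfj] using this
    have hf : f ∈ coeffSpace R κ w := by
      intro i
      by_cases hij : i = j
      · subst hij
        rw [hfj]
        exact Submodule.zero_mem _
      · have := hr i
        simpa [Finsupp.single_apply, Ne.symm hij] using this
    obtain ⟨c, hc, s, hs, t, ht, hf_eq⟩ := ih hf
    obtain ⟨c0, s0, hs0, t0, ht0, ha_eq, hc0⟩ : ∃ c0 : K, ∃ s0 ∈ R (w - κ j - 4),
        ∃ t0 ∈ R (w - κ j - 6), a = algebraMap K A c0 + x * s0 + y * t0 ∧ (c0 ≠ 0 → κ j = w) := by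
      by_cases h0 : w - κ j = 0
      · obtain ⟨c0, hc0⟩ := hS.R_zero a (mem_of_eq haR h0)
        exact ⟨c0, 0, Submodule.zero_mem _, 0, Submodule.zero_mem _, by simp [hc0],
          fun _ => by omega⟩
      · obtain ⟨s0, hs0, t0, ht0, h⟩ := hS.R_decomp h0 a haR
        exact ⟨0, s0, hs0, t0, ht0, by simp [h], fun h => absurd rfl h⟩
    refine ⟨Finsupp.single j c0 + c, ?_, Finsupp.single j s0 + s, ?_,
      Finsupp.single j t0 + t, ?_, ?_⟩
    · intro i hi
      by_cases hij : i = j
      · subst hij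
        by_cases hc0' : c0 = 0
        · apply hc
          simpa [hc0'] using hi
        · exact hc0 hc0'
      · apply hc
        simpa [Finsupp.single_apply, Ne.symm hij] using hi
    · refine Submodule.add_mem _ ?_ hs
      intro i
      by_cases hij : i = j
      · subst hij
        simpa using mem_of_eq hs0 (by ring)
      · simp [Ne.symm hij]
    · refine Submodule.add_mem _ ?_ ht
      intro i
      by_cases hij : i = j
      · subst hij
        simpa using mem_of_eq ht0 (by ring)
      · simp [Ne.symm hij]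
    · conv_lhs => rw [hf_eq, ha_eq]
      rw [constEmb_add, constEmb_single]
      simp only [smul_add, Finsupp.smul_single, smul_eq_mul, Finsupp.single_add]
      abel

/-- The spanning hypothesis on the family `F`. -/
def SpanHyp (M : ℤ → Submodule K A) (x y : A) (κ : J → ℤ) (F : J → A) : Prop :=
  ∀ w, ∀ f ∈ M w, ∃ c : J →₀ K, (∀ j, c j ≠ 0 → κ j = w) ∧
    ∃ a ∈ M (w - 4), ∃ b ∈ M (w - 6), f = Finsupp.linearCombination K F c + x * a + y * b

/-- The independence hypothesis on the family `F`. -/
def IndepHyp (M : ℤ → Submodule K A) (x y : A) (κ : J → ℤ) (F : J → A) : Prop :=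
  ∀ w, ∀ c : J →₀ K, (∀ j, c j ≠ 0 → κ j = w) → ∀ a ∈ M (w - 4), ∀ b ∈ M (w - 6),
    Finsupp.linearCombination K F c = x * a + y * b → c = 0

theorem gen_aux (hS : GradedSetup R M x y) (hSPAN : SpanHyp M x y κ F) :
    ∀ n : ℕ, ∀ w : ℤ, w < n → ∀ f ∈ M w,
      ∃ r ∈ coeffSpace R κ w, Finsupp.linearCombination A F r = f := by
  intro n
  induction n with
  | zero =>
    intro w hw f hf
    exact ⟨0, Submodule.zero_mem _, by simp [hS.M_neg (by simpa using hw) f hf]⟩
  | succ n ih =>
    intro w hw f hf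
    obtain ⟨c, hc, a, ha, b, hb, rfl⟩ := hSPAN w f hf
    obtain ⟨ra, hra, rfl⟩ := ih (w - 4) (by push_cast at hw; omega) a ha
    obtain ⟨rb, hrb, rfl⟩ := ih (w - 6) (by push_cast at hw; omega) b hb
    refine ⟨constEmb A c + x • ra + y • rb, ?_, ?_⟩
    · exact Submodule.add_mem _ (Submodule.add_mem _ (constEmb_mem hS hc)
        (smul_mem_coeffSpace hS hS.x_mem hra (by ring)))
        (smul_mem_coeffSpace hS hS.y_mem hrb (by ring))
    · simp [lc_constEmb]

/-- GENERATION: every `f ∈ M w` is `∑ r_j F_j` with `r_j ∈ R (w - κ j)`. -/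
theorem gen (hS : GradedSetup R M x y) (hSPAN : SpanHyp M x y κ F) (w : ℤ) (f : A)
    (hf : f ∈ M w) : ∃ r ∈ coeffSpace R κ w, Finsupp.linearCombination A F r = f :=
  gen_aux hS hSPAN (w.toNat + 1) w (by omega) f hf

theorem kappa_nonneg (hS : GradedSetup R M x y) (hF : ∀ j, F j ∈ M (κ j))
    (hLI : IndepHyp M x y κ F) (j : J) : 0 ≤ κ j := by
  by_contra h
  push Not at h
  have hFj : F j = 0 := hS.M_neg h _ (hF j)
  have h1 := hLI (κ j) (Finsupp.single j 1) (by
    intro i hi
    have : i = j := by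
      by_contra hne
      simp [Ne.symm hne] at hi
    rw [this]) 0 (Submodule.zero_mem _) 0 (Submodule.zero_mem _) (by simp [hFj])
  have h2 := DFunLike.congr_fun h1 j
  simp at h2

theorem uniq_aux (hS : GradedSetup R M x y) (hF : ∀ j, F j ∈ M (κ j))
    (hSPAN : SpanHyp M x y κ F) (hLI : IndepHyp M x y κ F) :
    ∀ n : ℕ, ∀ w : ℤ, w < n → ∀ r ∈ coeffSpace R κ w,
      Finsupp.linearCombination A F r = 0 → r = 0 := by
  intro n
  induction n with
  | zero =>
    intro w hw r hr _
    ext j
    have hj : w - κ j < 0 := by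
      have := kappa_nonneg hS hF hLI j
      simp at hw
      omega
    simpa using hS.R_neg hj _ (hr j)
  | succ n ih =>
    intro w hw r hr h0
    obtain ⟨c, hc, s, hs, t, ht, rfl⟩ := decomp_coeff hS w r hr
    have hsM := lc_mem hS hF hs
    have htM := lc_mem hS hF ht
    have h1 : Finsupp.linearCombination K F c + x * Finsupp.linearCombination A F s
        + y * Finsupp.linearCombination A F t = 0 := by
      simpa [lc_constEmb] using h0
    have hc0 : c = 0 := hLI w c hc (-Finsupp.linearCombination A F s)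
      (Submodule.neg_mem _ hsM) (-Finsupp.linearCombination A F t) (Submodule.neg_mem _ htM)
      (by linear_combination h1)
    subst hc0
    have h2 : x * Finsupp.linearCombination A F s = y * (-Finsupp.linearCombination A F t) := by
      simp only [map_zero, zero_add] at h1
      linear_combination h1
    obtain ⟨h, hh, hS_eq, hT_eq⟩ := hS.syz hsM (Submodule.neg_mem _ htM) h2
    obtain ⟨u, hu, rfl⟩ := gen hS hSPAN (w - 10) h hh
    have hs' : s - y • u = 0 := ih (w - 4) (by push_cast at hw; omega) (s - y • u)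
      (Submodule.sub_mem _ hs (smul_mem_coeffSpace hS hS.y_mem hu (by ring)))
      (by simp [hS_eq])
    have ht' : t + x • u = 0 := ih (w - 6) (by push_cast at hw; omega) (t + x • u)
      (Submodule.add_mem _ ht (smul_mem_coeffSpace hS hS.x_mem hu (by ring)))
      (by
        rw [map_add, map_smul, smul_eq_mul, ← hT_eq]
        ring)
    have hs'' : s = y • u := sub_eq_zero.mp hs'
    have ht'' : t = -(x • u) := eq_neg_of_add_eq_zero_left ht'
    rw [hs'', ht'', constEmb_zero, smul_neg, smul_smul, smul_smul, mul_comm x y]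
    simp

/-- UNIQUENESS: a relation `∑ r_j F_j = 0` with `r_j ∈ R (w - κ j)` is trivial. -/
theorem uniq (hS : GradedSetup R M x y) (hF : ∀ j, F j ∈ M (κ j))
    (hSPAN : SpanHyp M x y κ F) (hLI : IndepHyp M x y κ F) (w : ℤ) (r : J →₀ A)
    (hr : r ∈ coeffSpace R κ w) (h0 : Finsupp.linearCombination A F r = 0) : r = 0 :=
  uniq_aux hS hF hSPAN hLI (w.toNat + 1) w (by omega) r hr h0

end Main

end Fermat.Agent.S20.helper646
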