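import Mathlib
import Fermat.Agent.S20.helper646_FreeAlg

/-!
# S20 / R1 (FREE): modular forms of arithmetic level are free over `ℂ[E₄, E₆]` (helper646)

Function-level statements.  `MF 𝒢 k` is the `ℂ`-submodule of `ℍ → ℂ` of (coercions of)
modular forms of weight `k` and level `𝒢`.

* `syzygy` (F1): `E₄ * a = E₆ * b` with `a ∈ M_{k+6}(𝒢)`, `b ∈ M_{k+4}(𝒢)` forces
  `a = E₆ * c`, `b = E₄ * c` with `c ∈ M_k(𝒢)`.
* `levelOne_decomp` (F2): every level one form of weight `m ≠ 0` is `E₄ * s + E₆ * t`.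
* `gradedSetup` : the abstract set-up of `helper646_FreeAlg` holds for
  `R = MF 𝒮ℒ`, `M = MF 𝒢`, `x = E₄`, `y = E₆`.
-/

set_option autoImplicit false

namespace Fermat.Agent.S20.helper646

open UpperHalfPlane ModularForm MatrixGroups Filter Topology Matrix.SpecialLinearGroup
open scoped Manifold

noncomputable section

/-- Function-level space of modular forms of weight `k` and level `𝒢`. -/
def MF (𝒢 : Subgroup (GL (Fin 2) ℝ)) [𝒢.HasDetOne] (k : ℤ) : Submodule ℂ (ℍ → ℂ) where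
  carrier := {f | ∃ F : ModularForm 𝒢 k, ⇑F = f}
  add_mem' := by
    rintro _ _ ⟨F, rfl⟩ ⟨G, rfl⟩
    exact ⟨F + G, rfl⟩
  zero_mem' := ⟨0, rfl⟩
  smul_mem' := by
    rintro c _ ⟨F, rfl⟩
    exact ⟨c • F, rfl⟩

theorem mem_MF {𝒢 : Subgroup (GL (Fin 2) ℝ)} [𝒢.HasDetOne] {k : ℤ} {f : ℍ → ℂ} :
    f ∈ MF 𝒢 k ↔ ∃ F : ModularForm 𝒢 k, ⇑F = f := Iff.rfl

theorem coe_mem_MF {𝒢 : Subgroup (GL (Fin 2) ℝ)} [𝒢.HasDetOne] {k : ℤ} (F : ModularForm 𝒢 k) :
    ⇑F ∈ MF 𝒢 k := ⟨F, rfl⟩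

theorem MF_mul {𝒢 : Subgroup (GL (Fin 2) ℝ)} [𝒢.HasDetOne] {k l : ℤ} {f g : ℍ → ℂ}
    (hf : f ∈ MF 𝒢 k) (hg : g ∈ MF 𝒢 l) : f * g ∈ MF 𝒢 (k + l) := by
  obtain ⟨F, rfl⟩ := hf
  obtain ⟨G, rfl⟩ := hg
  exact ⟨F.mul G, rfl⟩

/-- Level one forms are forms of any arithmetic level contained in `𝒮ℒ`. -/
theorem MF_of_levelOne {𝒢 : Subgroup (GL (Fin 2) ℝ)} [𝒢.IsArithmetic] [𝒢.HasDetOne]
    (h𝒢 : 𝒢 ≤ 𝒮ℒ) {k : ℤ} {f : ℍ → ℂ} (hf : f ∈ MF 𝒮ℒ k) : f ∈ MF 𝒢 k := by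
  obtain ⟨F, rfl⟩ := hf
  exact ⟨{ toFun := F
           slash_action_eq' := fun γ hγ => F.slash_action_eq' γ (h𝒢 hγ)
           holo' := F.holo'
           bdd_at_cusps' := fun {c} hc =>
            F.bdd_at_cusps' ((Subgroup.IsArithmetic.isCusp_iff_isCusp_SL2Z 𝒢).mp hc) }, rfl⟩

theorem E4_mem : (⇑E₄ : ℍ → ℂ) ∈ MF 𝒮ℒ 4 := ⟨E₄, rfl⟩

theorem E6_mem : (⇑E₆ : ℍ → ℂ) ∈ MF 𝒮ℒ 6 := ⟨E₆, rfl⟩

theorem E4_E6_not_both_zero (z : ℍ) : E₄ z ≠ 0 ∨ E₆ z ≠ 0 := by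
  by_contra h
  push Not at h
  have h1 := ModularForm.discriminant_eq_E₄_cube_sub_E₆_sq z
  rw [h.1, h.2] at h1
  exact ModularForm.discriminant_ne_zero z (by simpa using h1)

theorem quot_unique {z : ℍ} {u v p q : ℂ} (hu6 : E₆ z * u = p) (hu4 : E₄ z * u = q)
    (hv6 : E₆ z * v = p) (hv4 : E₄ z * v = q) : u = v := by
  rcases E4_E6_not_both_zero z with h | h
  · exact mul_left_cancel₀ h (hu4.trans hv4.symm)
  · exact mul_left_cancel₀ h (hu6.trans hv6.symm)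

/-- Local division: a function `c` with `E₆ c = a`, `E₄ c = b` (`a`, `b` holomorphic) is
holomorphic. -/
theorem quot_mdiff {a b c : ℍ → ℂ} (ha : MDiff a) (hb : MDiff b)
    (hc6 : ∀ z, E₆ z * c z = a z) (hc4 : ∀ z, E₄ z * c z = b z) : MDiff c := by
  intro τ
  rw [UpperHalfPlane.mdifferentiableAt_iff]
  rcases E4_E6_not_both_zero τ with h | h
  · have hE : DifferentiableAt ℂ (⇑E₄ ∘ ofComplex) ↑τ :=
      UpperHalfPlane.mdifferentiableAt_iff.mp (E₄.holo' τ)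
    have hb' := UpperHalfPlane.mdifferentiableAt_iff.mp (hb τ)
    have hne : (⇑E₄ ∘ ofComplex) ↑τ ≠ 0 := by simpa [ofComplex_apply] using h
    refine (hb'.div hE hne).congr_of_eventuallyEq ?_
    filter_upwards [hE.continuousAt.eventually_ne hne] with w hw
    simp only [Function.comp_apply, Pi.div_apply] at hw ⊢
    rw [eq_div_iff hw, mul_comm, hc4]
  · have hE : DifferentiableAt ℂ (⇑E₆ ∘ ofComplex) ↑τ :=
      UpperHalfPlane.mdifferentiableAt_iff.mp (E₆.holo' τ)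
    have ha' := UpperHalfPlane.mdifferentiableAt_iff.mp (ha τ)
    have hne : (⇑E₆ ∘ ofComplex) ↑τ ≠ 0 := by simpa [ofComplex_apply] using h
    refine (ha'.div hE hne).congr_of_eventuallyEq ?_
    filter_upwards [hE.continuousAt.eventually_ne hne] with w hw
    simp only [Function.comp_apply, Pi.div_apply] at hw ⊢
    rw [eq_div_iff hw, mul_comm, hc6]

theorem E4_slash (γ : SL(2, ℤ)) : (⇑E₄ : ℍ → ℂ) ∣[(4 : ℤ)] γ = ⇑E₄ :=
  E₄.slash_action_eq' _ ⟨γ, rfl⟩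

theorem E6_slash (γ : SL(2, ℤ)) : (⇑E₆ : ℍ → ℂ) ∣[(6 : ℤ)] γ = ⇑E₆ :=
  E₆.slash_action_eq' _ ⟨γ, rfl⟩

theorem quot_slash6 {a c : ℍ → ℂ} {k : ℤ} (γ : SL(2, ℤ)) (hc6 : ∀ z, E₆ z * c z = a z) (z : ℍ) :
    E₆ z * (c ∣[k] γ) z = (a ∣[6 + k] γ) z := by
  have h : a = ⇑E₆ * c := funext fun z => (hc6 z).symm
  rw [h, mul_slash_SL2 6 k γ, E6_slash]
  rfl

theorem quot_slash4 {b c : ℍ → ℂ} {k : ℤ} (γ : SL(2, ℤ)) (hc4 : ∀ z, E₄ z * c z = b z) (z : ℍ) :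
    E₄ z * (c ∣[k] γ) z = (b ∣[4 + k] γ) z := by
  have h : b = ⇑E₄ * c := funext fun z => (hc4 z).symm
  rw [h, mul_slash_SL2 4 k γ, E4_slash]
  rfl

/-- A level one modular form tends to its constant `q`-coefficient at `i∞`. -/
theorem tendsto_levelOne {k : ℤ} (f : ModularForm 𝒮ℒ k) :
    Tendsto f atImInfty (𝓝 ((qExpansion 1 f).coeff 0)) := by
  have hper := SlashInvariantFormClass.periodic_comp_ofComplex f one_mem_strictPeriods_SL
  have han := ModularFormClass.analyticAt_cuspFunction_zero f one_pos one_mem_strictPeriods_SL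
  have h0 : (qExpansion 1 f).coeff 0 = cuspFunction 1 f 0 := by simp [qExpansion_coeff]
  have h1 : (cuspFunction 1 f ∘ fun τ : ℍ ↦ Function.Periodic.qParam 1 τ) = f := by
    funext τ
    simpa using eq_cuspFunction τ one_ne_zero hper
  rw [h0]
  simpa [h1] using han.continuousAt.tendsto.comp (qParam_tendsto_atImInfty one_pos)

theorem tendsto_E6 : Tendsto E₆ atImInfty (𝓝 1) := by
  have h := tendsto_levelOne E₆
  rwa [EisensteinSeries.E_qExpansion_coeff_zero (by norm_num) ⟨3, rfl⟩] at h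

theorem tendsto_E4 : Tendsto E₄ atImInfty (𝓝 1) := by
  have h := tendsto_levelOne E₄
  rwa [EisensteinSeries.E_qExpansion_coeff_zero (by norm_num) ⟨2, rfl⟩] at h

theorem quot_bdd {A c : ℍ → ℂ} (h6 : ∀ z, E₆ z * c z = A z) (hA : IsBoundedAtImInfty A) :
    IsBoundedAtImInfty c := by
  have hev : ∀ᶠ z in atImInfty, (1 / 2 : ℝ) < ‖E₆ z‖ :=
    tendsto_E6.norm.eventually_const_lt (by norm_num)
  have h1 : c =O[atImInfty] A := by
    refine Asymptotics.IsBigO.of_bound 2 ?_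
    filter_upwards [hev] with z hz
    rw [← h6 z, norm_mul]
    nlinarith [norm_nonneg (c z)]
  exact h1.trans hA

theorem quot_zero {A c : ℍ → ℂ} (h6 : ∀ z, E₆ z * c z = A z) (hA : IsZeroAtImInfty A) :
    IsZeroAtImInfty c := by
  have hev : ∀ᶠ z in atImInfty, E₆ z ≠ 0 := tendsto_E6.eventually_ne one_ne_zero
  have h1 : Tendsto (fun z => A z / E₆ z) atImInfty (𝓝 (0 / 1)) := hA.div tendsto_E6 one_ne_zero
  rw [zero_div] at h1
  refine h1.congr' ?_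
  filter_upwards [hev] with z hz
  rw [← h6 z, mul_div_cancel_left₀ _ hz]

/-- **F1 (syzygy / division).** If `E₄ * a = E₆ * b` with `a ∈ M_{k-4}(𝒢)`, `b ∈ M_{k-6}(𝒢)`,
then `a = E₆ * c`, `b = E₄ * c` for some `c ∈ M_{k-10}(𝒢)`.  (Only uses `Δ ≠ 0` on `ℍ` and
`E₆ → 1` at `i∞`.) -/
theorem syzygy {𝒢 : Subgroup (GL (Fin 2) ℝ)} [𝒢.IsArithmetic] [𝒢.HasDetOne] (h𝒢 : 𝒢 ≤ 𝒮ℒ)
    {k : ℤ} {a b : ℍ → ℂ} (ha : a ∈ MF 𝒢 (k - 4)) (hb : b ∈ MF 𝒢 (k - 6))
    (h : ⇑E₄ * a = ⇑E₆ * b) : ∃ c ∈ MF 𝒢 (k - 10), a = ⇑E₆ * c ∧ b = ⇑E₄ * c := by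
  obtain ⟨Fa, rfl⟩ := ha
  obtain ⟨Fb, rfl⟩ := hb
  have hpt : ∀ z, E₄ z * Fa z = E₆ z * Fb z := fun z => congrFun h z
  let c : ℍ → ℂ := fun z => if E₆ z = 0 then Fb z / E₄ z else Fa z / E₆ z
  have hc6 : ∀ z, E₆ z * c z = Fa z := by
    intro z
    by_cases h6 : E₆ z = 0
    · have h4 : E₄ z ≠ 0 := (E4_E6_not_both_zero z).resolve_right (not_not.mpr h6)
      have h0 : Fa z = 0 := by
        have h1 := hpt z
        rw [h6, zero_mul] at h1
        exact (mul_eq_zero.mp h1).resolve_left h4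
      simp [h6, h0]
    · simp only [c, if_neg h6]
      field_simp
  have hc4 : ∀ z, E₄ z * c z = Fb z := by
    intro z
    by_cases h6 : E₆ z = 0
    · have h4 : E₄ z ≠ 0 := (E4_E6_not_both_zero z).resolve_right (not_not.mpr h6)
      simp only [c, if_pos h6]
      field_simp
    · simp only [c, if_neg h6]
      rw [← mul_div_assoc, hpt z, mul_div_cancel_left₀ _ h6]
  refine ⟨c, ⟨{ toFun := c
                slash_action_eq' := ?_
                holo' := quot_mdiff Fa.holo' Fb.holo' hc6 hc4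
                bdd_at_cusps' := ?_ }, rfl⟩,
    funext fun z => (hc6 z).symm, funext fun z => (hc4 z).symm⟩
  · intro γ hγ
    obtain ⟨γ', rfl⟩ := h𝒢 hγ
    funext z
    have e6 := quot_slash6 (k := k - 10) γ' hc6 z
    have e4 := quot_slash4 (k := k - 10) γ' hc4 z
    have ha' : (⇑Fa ∣[6 + (k - 10)] γ') = ⇑Fa := by
      rw [show (6 : ℤ) + (k - 10) = k - 4 by ring]
      exact Fa.slash_action_eq' _ hγ
    have hb' : (⇑Fb ∣[4 + (k - 10)] γ') = ⇑Fb := by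
      rw [show (4 : ℤ) + (k - 10) = k - 6 by ring]
      exact Fb.slash_action_eq' _ hγ
    exact quot_unique (e6.trans (congrFun ha' z)) (e4.trans (congrFun hb' z)) (hc6 z) (hc4 z)
  · intro cc hc
    have hc' := (Subgroup.IsArithmetic.isCusp_iff_isCusp_SL2Z 𝒢).mp hc
    rw [OnePoint.isBoundedAt_iff_forall_SL2Z hc']
    intro γ hγ
    refine quot_bdd (A := ⇑Fa ∣[6 + (k - 10)] γ) (fun z => quot_slash6 γ hc6 z) ?_
    rw [show (6 : ℤ) + (k - 10) = k - 4 by ring]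
    exact Fa.bdd_at_cusps' hc (mapGL ℝ γ) hγ

/-- **F2 (level one).** Every level one modular form of weight `m ≠ 0` lies in
`E₄ * M_{m-4} + E₆ * M_{m-6}`. -/
theorem levelOne_decomp {m : ℤ} (hm : m ≠ 0) {r : ℍ → ℂ} (hr : r ∈ MF 𝒮ℒ m) :
    ∃ s ∈ MF 𝒮ℒ (m - 4), ∃ t ∈ MF 𝒮ℒ (m - 6), r = ⇑E₄ * s + ⇑E₆ * t := by
  obtain ⟨P, rfl⟩ := hr
  have triv : P = 0 → ∃ s ∈ MF 𝒮ℒ (m - 4), ∃ t ∈ MF 𝒮ℒ (m - 6), ⇑P = ⇑E₄ * s + ⇑E₆ * t := by
    intro h
    exact ⟨0, zero_mem _, 0, zero_mem _, by simp [h]⟩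
  rcases lt_or_ge m 0 with hneg | hnn
  · exact triv (ModularForm.isZero_of_neg_weight hneg P)
  rcases Int.even_or_odd m with hev | hodd
  swap
  · exact triv (ModularForm.levelOne_odd_weight_eq_zero hodd P)
  lift m to ℕ using hnn
  have hev' : Even m := by exact_mod_cast hev
  have hm' : m ≠ 0 := by exact_mod_cast hm
  obtain ⟨n, hn⟩ := hev'
  have hcases : m = 2 ∨ m = 4 ∨ m = 6 ∨ 8 ≤ m := by omega
  rcases hcases with rfl | rfl | rfl | h8
  · exact triv (rank_zero_iff_forall_zero.mp ModularForm.levelOne_weight_two_rank_zero P)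
  · obtain ⟨c4, hc4⟩ : ∃ c4 : ℂ, c4 • E₄ = P :=
      (finrank_eq_one_iff_of_nonzero' E₄ (EisensteinSeries.E_ne_zero _ ⟨2, rfl⟩)).mp
        (Module.rank_eq_one_iff_finrank_eq_one.mp ModularForm.levelOne_weight_four_rank_one) P
    refine ⟨c4 • (1 : ℍ → ℂ), ?_, 0, zero_mem _, ?_⟩
    · exact Submodule.smul_mem _ _ ⟨ModularForm.const 1, rfl⟩
    · rw [← hc4]
      ext z
      simp
  · obtain ⟨c6, hc6⟩ : ∃ c6 : ℂ, c6 • E₆ = P :=
      (finrank_eq_one_iff_of_nonzero' E₆ (EisensteinSeries.E_ne_zero _ ⟨3, rfl⟩)).mp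
        (Module.rank_eq_one_iff_finrank_eq_one.mp ModularForm.levelOne_weight_six_rank_one) P
    refine ⟨0, zero_mem _, c6 • (1 : ℍ → ℂ), ?_, ?_⟩
    · exact Submodule.smul_mem _ _ ⟨ModularForm.const 1, rfl⟩
    · rw [← hc6]
      ext z
      simp
  · have hl : 3 ≤ m - 4 := by omega
    have hl2 : Even (m - 4) := ⟨n - 2, by omega⟩
    have hcast : (4 : ℤ) + ((m - 4 : ℕ) : ℤ) = (m : ℤ) := by
      rw [Nat.cast_sub (by omega)]
      push_cast
      ring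
    let G : ModularForm 𝒮ℒ (m : ℤ) := ModularForm.mcast hcast (E₄.mul (E hl))
    have hG0 : (qExpansion 1 G).coeff 0 = 1 := by
      have h1 : qExpansion 1 G = qExpansion 1 E₄ * qExpansion 1 (E hl) :=
        ModularForm.qExpansion_mul one_pos one_mem_strictPeriods_SL E₄ (E hl)
      rw [h1, PowerSeries.coeff_zero_eq_constantCoeff_apply, map_mul,
        ← PowerSeries.coeff_zero_eq_constantCoeff_apply,
        ← PowerSeries.coeff_zero_eq_constantCoeff_apply,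
        EisensteinSeries.E_qExpansion_coeff_zero _ ⟨2, rfl⟩,
        EisensteinSeries.E_qExpansion_coeff_zero hl hl2, mul_one]
    obtain ⟨g, hg⟩ := ModularForm.sub_smul_isCuspForm P G hG0
    set c := (qExpansion 1 P).coeff 0 with hc
    let Q : ModularForm 𝒮ℒ ((m : ℤ) - 12) := CuspForm.discriminantEquiv g
    have hPz : ∀ z, P z = c * (E₄ z * E hl z) + ModularForm.discriminant z * Q z := by
      intro z
      have h1 : g z = P z - c * (E₄ z * E hl z) := by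
        have h2 := DFunLike.congr_fun hg z
        rw [CuspForm.toModularFormₗ_apply] at h2
        rw [h2]
        rfl
      have h3 : ModularForm.discriminant z * Q z = g z :=
        ModularForm.discriminant_mul_discriminantEquiv_apply g z
      rw [h3, h1]
      ring
    refine ⟨c • ⇑(E hl) + (1 / 1728 : ℂ) • (⇑E₄ * ⇑E₄ * ⇑Q), ?_,
      (-1 / 1728 : ℂ) • (⇑E₆ * ⇑Q), ?_, ?_⟩
    · refine Submodule.add_mem _ (Submodule.smul_mem _ _ ?_) (Submodule.smul_mem _ _ ?_)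
      · exact mem_of_eq (coe_mem_MF (E hl)) (by rw [Nat.cast_sub (by omega)]; push_cast; ring)
      · exact mem_of_eq (MF_mul (MF_mul E4_mem E4_mem) (coe_mem_MF Q)) (by ring)
    · exact Submodule.smul_mem _ _ (mem_of_eq (MF_mul E6_mem (coe_mem_MF Q)) (by ring))
    · ext z
      simp only [Pi.add_apply, Pi.mul_apply, Pi.smul_apply, smul_eq_mul]
      rw [hPz z, ModularForm.discriminant_eq_E₄_cube_sub_E₆_sq z]
      ring

/-- The abstract graded set-up holds for `R = M_*(SL₂(ℤ))`, `M = M_*(𝒢)`, `x = E₄`, `y = E₆`. -/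
theorem gradedSetup {𝒢 : Subgroup (GL (Fin 2) ℝ)} [𝒢.IsArithmetic] [𝒢.HasDetOne]
    (h𝒢 : 𝒢 ≤ 𝒮ℒ) : GradedSetup (K := ℂ) (MF 𝒮ℒ) (MF 𝒢) (⇑E₄) (⇑E₆) where
  R_mul_R := fun hr hs => MF_mul hr hs
  R_mul_M := fun hr hf => MF_mul (MF_of_levelOne h𝒢 hr) hf
  R_neg := by
    rintro m hm _ ⟨F, rfl⟩
    exact ModularFormClass.levelOne_neg_weight_eq_zero hm F
  M_neg := by
    rintro k hk _ ⟨F, rfl⟩
    rw [ModularForm.isZero_of_neg_weight hk F]
    rfl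
  R_zero := by
    rintro _ ⟨F, rfl⟩
    obtain ⟨c, hc⟩ := ModularFormClass.levelOne_weight_zero_const F
    exact ⟨c, hc⟩
  one_mem := ⟨ModularForm.const 1, rfl⟩
  x_mem := E4_mem
  y_mem := E6_mem
  R_decomp := fun hm _ hr => levelOne_decomp hm hr
  syz := fun ha hb h => syzygy h𝒢 ha hb h

end

end Fermat.Agent.S20.helper646
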