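/-
S20: freeness of the graded modules `MFG 𝒢` and `CFG 𝒢` over the level one ring, for every
`GoodLevel 𝒢 N`, in the shape `helper560.IsFreeBasis` (finite index type).
Assembles: the abstract core `helper1235.RegSeqData.exists_free_generators`, the division
lemma (`helper813_Div`), the level one decomposition (`helper646.levelOne_decomp`) and the
structural facts of `helper2805_Basic` (weak Sturm bound for the finiteness).
Author seat: helper813.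
-/
import Fermat.Agent.S20.helper813_Div
import Fermat.Agent.S20.helper1235_FreeCore
import Fermat.Agent.S20.helper646_Free
import Fermat.Agent.S20.helper2805_Basic

set_option autoImplicit false

open UpperHalfPlane ModularForm EisensteinSeries
open scoped MatrixGroups Manifold Pointwise Topology

namespace Fermat.Agent.S20.helper813

open Fermat.Agent.S20.helper560

noncomputable section

theorem mem_of_weight_eq {V : ℤ → Submodule ℂ (ℍ → ℂ)} {a b : ℤ} {f : ℍ → ℂ} (h : a = b)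
    (hf : f ∈ V a) : f ∈ V b := h ▸ hf

section level

variable {𝒢 : Subgroup (GL (Fin 2) ℝ)} [𝒢.IsArithmetic] [𝒢.HasDetOne]

/-- `E₄` is a non-zero-divisor on modular forms of level `𝒢`. -/
theorem E₄_mul_eq_zero_MFG {N : ℕ} (hG : GoodLevel 𝒢 N) {k : ℤ} {f : ℍ → ℂ}
    (hf : f ∈ MFG 𝒢 k) (h : ⇑E₄ * f = 0) : f = 0 := by
  obtain ⟨F, rfl⟩ := hf
  by_contra hne
  have hF : F ≠ 0 := by
    rintro rfl
    exact hne rfl
  have hE : helper2805.restrictMF hG.le E₄ ≠ 0 := by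
    intro h0
    have h4 : (E₄ : ModularForm 𝒮ℒ 4) ≠ 0 := E_ne_zero (k := 4) (by norm_num) ⟨2, rfl⟩
    apply h4
    ext z
    exact DFunLike.congr_fun h0 z
  have hper : ∃ h ∈ 𝒢.strictPeriods, 0 < h :=
    ⟨(N : ℝ), by simpa using hG.per 1, by exact_mod_cast hG.pos⟩
  refine ModularForm.mul_ne_zero hper hE hF ?_
  ext z
  exact congrFun h z

/-- The weak Sturm bound: `dim M_k(𝒢) ≤ N ⌊k μ / 12⌋ + 1`. -/
theorem finrank_MFG_le {N : ℕ} (hG : GoodLevel 𝒢 N) (k : ℤ) :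
    Module.finrank ℂ (MFG 𝒢 k) ≤ N * ((k * 𝒢.relIndex 𝒮ℒ).toNat / 12) + 1 := by
  have hper : (N : ℝ) ∈ 𝒢.strictPeriods := by
    have := hG.per 1
    simpa using this
  set B : ℕ := N * ((k * 𝒢.relIndex 𝒮ℒ).toNat / 12) with hB
  have hinj : Function.Injective (helper2805.coeffMap 𝒢 k hG.pos hper B) := by
    rw [← LinearMap.ker_eq_bot, LinearMap.ker_eq_bot']
    intro F hF
    apply ModularForm.eq_zero_of_lt_order_qExpansion_of_isArithmetic F hG.pos hG.per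
    rw [← hB]
    have h1 : ((B + 1 : ℕ) : ℕ∞) ≤ (qExpansion (N : ℝ) ⇑F).order := by
      apply PowerSeries.nat_le_order
      intro i hi
      exact congrFun hF ⟨i, hi⟩
    calc ((B : ℕ) : ℕ∞) < ((B + 1 : ℕ) : ℕ∞) := by exact_mod_cast Nat.lt_succ_self B
      _ ≤ _ := h1
  have h2 := LinearMap.finrank_le_finrank_of_injective hinj
  rw [Module.finrank_fin_fun] at h2
  rw [← (helper2805.mfgEquiv 𝒢 k).finrank_eq]
  exact h2

theorem growth_MFG {N : ℕ} (hG : GoodLevel 𝒢 N) (k : ℤ) (hk : 0 ≤ k) :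
    12 * (Module.finrank ℂ (MFG 𝒢 k) : ℤ) ≤ ((N * 𝒢.relIndex 𝒮ℒ : ℕ) : ℤ) * k + 12 := by
  have h1 := finrank_MFG_le hG k
  have h2 : (Module.finrank ℂ (MFG 𝒢 k) : ℤ) ≤
      (N : ℤ) * (((k * 𝒢.relIndex 𝒮ℒ).toNat / 12 : ℕ) : ℤ) + 1 := by exact_mod_cast h1
  have h3 : (12 : ℤ) * (((k * 𝒢.relIndex 𝒮ℒ).toNat / 12 : ℕ) : ℤ) ≤ k * 𝒢.relIndex 𝒮ℒ := by
    have h4 : 12 * ((k * 𝒢.relIndex 𝒮ℒ).toNat / 12) ≤ (k * 𝒢.relIndex 𝒮ℒ).toNat :=
      Nat.mul_div_le _ _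
    have h5 : ((k * 𝒢.relIndex 𝒮ℒ).toNat : ℤ) = k * 𝒢.relIndex 𝒮ℒ :=
      Int.toNat_of_nonneg (mul_nonneg hk (by positivity))
    calc (12 : ℤ) * (((k * 𝒢.relIndex 𝒮ℒ).toNat / 12 : ℕ) : ℤ)
        = ((12 * ((k * 𝒢.relIndex 𝒮ℒ).toNat / 12) : ℕ) : ℤ) := by push_cast; ring
      _ ≤ ((k * 𝒢.relIndex 𝒮ℒ).toNat : ℤ) := by exact_mod_cast h4
      _ = k * 𝒢.relIndex 𝒮ℒ := h5
  have hN : (0 : ℤ) ≤ N := by positivity
  push_cast
  nlinarith [mul_le_mul_of_nonneg_left h3 hN]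

/-- The hypotheses of the abstract freeness theorem hold for `MFG 𝒢`. -/
theorem regSeqData_MFG {N : ℕ} (hG : GoodLevel 𝒢 N) :
    helper1235.RegSeqData (K := ℂ) (⇑E₄ : ℍ → ℂ) (⇑E₆ : ℍ → ℂ) (MFG 𝒢) RR where
  xM k f hf := mem_of_weight_eq (add_comm 4 k) (helper2805.RR_mul_MFG hG.le 4 k _ f ⟨E₄, rfl⟩ hf)
  yM k f hf := mem_of_weight_eq (add_comm 6 k) (helper2805.RR_mul_MFG hG.le 6 k _ f ⟨E₆, rfl⟩ hf)
  neg k hk := helper2805.MFG_eq_bot_of_neg hk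
  fin k := helper2805.finite_MFG hG k
  xreg k f hf h := E₄_mul_eq_zero_MFG hG hf h
  reg k c hc b hb h := by
    obtain ⟨c', hc', h1, -⟩ := stmt_Div_MFG hG.le (k + 6) b c
      (mem_of_weight_eq (by ring) hb) (mem_of_weight_eq (by ring) hc) h
    exact ⟨c', mem_of_weight_eq (by ring) hc', h1⟩
  Rneg m hm := helper2805.MFG_eq_bot_of_neg hm
  R0 P hP := by
    obtain ⟨F, rfl⟩ := hP
    obtain ⟨c, hc⟩ := ModularFormClass.levelOne_weight_zero_const F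
    exact ⟨c, hc⟩
  oneR := ⟨ModularForm.const 1, by ext z; simp⟩
  Rdec m hm P hP := helper646.levelOne_decomp hm hP
  xR m P hP := mem_of_weight_eq (add_comm 4 m)
    (helper2805.RR_mul_MFG le_rfl 4 m _ P ⟨E₄, rfl⟩ hP)
  yR m P hP := mem_of_weight_eq (add_comm 6 m)
    (helper2805.RR_mul_MFG le_rfl 6 m _ P ⟨E₆, rfl⟩ hP)

/-- The hypotheses of the abstract freeness theorem hold for `CFG 𝒢`. -/
theorem regSeqData_CFG {N : ℕ} (hG : GoodLevel 𝒢 N) :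
    helper1235.RegSeqData (K := ℂ) (⇑E₄ : ℍ → ℂ) (⇑E₆ : ℍ → ℂ) (CFG 𝒢) RR where
  xM k f hf := mem_of_weight_eq (add_comm 4 k) (helper2805.RR_mul_CFG hG.le 4 k _ f ⟨E₄, rfl⟩ hf)
  yM k f hf := mem_of_weight_eq (add_comm 6 k) (helper2805.RR_mul_CFG hG.le 6 k _ f ⟨E₆, rfl⟩ hf)
  neg k hk := helper2805.CFG_eq_bot_of_nonpos hk.le
  fin k :=
    haveI := helper2805.finite_MFG hG k
    Submodule.finiteDimensional_of_le (helper2805.CFG_le_MFG k)
  xreg k f hf h := E₄_mul_eq_zero_MFG hG (helper2805.CFG_le_MFG k hf) h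
  reg k c hc b hb h := by
    obtain ⟨c', hc', h1, -⟩ := stmt_Div_CFG hG.le (k + 6) b c
      (mem_of_weight_eq (by ring) hb) (mem_of_weight_eq (by ring) hc) h
    exact ⟨c', mem_of_weight_eq (by ring) hc', h1⟩
  Rneg := (regSeqData_MFG hG).Rneg
  R0 := (regSeqData_MFG hG).R0
  oneR := (regSeqData_MFG hG).oneR
  Rdec := (regSeqData_MFG hG).Rdec
  xR := (regSeqData_MFG hG).xR
  yR := (regSeqData_MFG hG).yR

/-- FREE for modular forms: a finite homogeneous free basis of `MFG 𝒢` over level one forms. -/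
theorem exists_freeBasis_MFG {N : ℕ} (hG : GoodLevel 𝒢 N) :
    ∃ (J : Type) (_ : Fintype J) (κ : J → ℤ) (F : J → ℍ → ℂ), IsFreeBasis (MFG 𝒢) κ F := by
  obtain ⟨r, wt, F, -, -, hF, hex⟩ :=
    (regSeqData_MFG hG).exists_free_generators (N * 𝒢.relIndex 𝒮ℒ)
      (fun k hk => helper2805.MFG_eq_bot_of_odd hG.neg hk) (growth_MFG hG)
  exact ⟨Fin r, inferInstance, wt, F, hF, hex⟩

/-- FREE for cusp forms: a finite homogeneous free basis of `CFG 𝒢` over level one forms. -/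
theorem exists_freeBasis_CFG {N : ℕ} (hG : GoodLevel 𝒢 N) :
    ∃ (J : Type) (_ : Fintype J) (κ : J → ℤ) (F : J → ℍ → ℂ), IsFreeBasis (CFG 𝒢) κ F := by
  have hodd : ∀ k : ℤ, Odd k → CFG 𝒢 k = ⊥ := fun k hk =>
    le_bot_iff.mp ((helper2805.MFG_eq_bot_of_odd hG.neg hk) ▸ helper2805.CFG_le_MFG k)
  have hgrowth : ∀ k : ℤ, 0 ≤ k →
      12 * (Module.finrank ℂ (CFG 𝒢 k) : ℤ) ≤ ((N * 𝒢.relIndex 𝒮ℒ : ℕ) : ℤ) * k + 12 := by
    intro k hk
    haveI := helper2805.finite_MFG hG k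
    have h1 : Module.finrank ℂ (CFG 𝒢 k) ≤ Module.finrank ℂ (MFG 𝒢 k) :=
      Submodule.finrank_mono (helper2805.CFG_le_MFG k)
    have h2 := growth_MFG hG k hk
    have h3 : (Module.finrank ℂ (CFG 𝒢 k) : ℤ) ≤ Module.finrank ℂ (MFG 𝒢 k) := by
      exact_mod_cast h1
    linarith
  obtain ⟨r, wt, F, -, -, hF, hex⟩ :=
    (regSeqData_CFG hG).exists_free_generators (N * 𝒢.relIndex 𝒮ℒ) hodd hgrowth
  exact ⟨Fin r, inferInstance, wt, F, hF, hex⟩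

end level

/-- FREE-M in the shape requested by the basis bridge. -/
theorem free_MFG : ∀ (𝒢 : Subgroup (GL (Fin 2) ℝ)) [𝒢.IsArithmetic] [𝒢.HasDetOne] (N : ℕ),
    GoodLevel 𝒢 N →
    ∃ (J : Type) (_ : Fintype J) (κ : J → ℤ) (F : J → ℍ → ℂ), IsFreeBasis (MFG 𝒢) κ F :=
  fun _ _ _ _ hG => exists_freeBasis_MFG hG

/-- FREE-S in the shape requested by the basis bridge. -/
theorem free_CFG : ∀ (𝒢 : Subgroup (GL (Fin 2) ℝ)) [𝒢.IsArithmetic] [𝒢.HasDetOne] (N : ℕ),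
    GoodLevel 𝒢 N →
    ∃ (J : Type) (_ : Fintype J) (κ : J → ℤ) (F : J → ℍ → ℂ), IsFreeBasis (CFG 𝒢) κ F :=
  fun _ _ _ _ hG => exists_freeBasis_CFG hG

end

end Fermat.Agent.S20.helper813
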