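/-
S20, BASIS-BRIDGE (seat helper3380): the goals `Goal_BasisM` and `Goal_BasisS` of
`helper560_Spec`.

* `stmt_Basis_of_witness` : a free basis `(J, κ, F)` of `V ⊆ M_*(𝒢)` with any finite index type,
  a seed, and a `Q 𝒢`-indexed family in `V` whose matrix of translates is invertible at one
  point  ⟹  `Stmt_Basis 𝒢 V` (rank argument `A = Φ·B` gives `μ ≤ #J`; `card_le_mu` gives
  `#J ≤ μ`; reindex; `det A = det Φ · det B`).
* the witnesses are the powers `h^i` of the seed (Vandermonde), resp. `h^i · Δ` for cusp forms.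
* `goal_BasisM : Goal_BasisM`, `goal_BasisS : Goal_BasisS` (freeness from `helper813_Free`).
-/
import Fermat.Agent.S20.helper3380_CardLe
import Fermat.Agent.S20.helper813_Free

set_option autoImplicit false

open UpperHalfPlane ModularForm
open scoped MatrixGroups Manifold Pointwise

namespace Fermat.Agent.S20.helper3380

open Fermat.Agent.S20.helper560

noncomputable section

/-- Reindexing a free basis along an equivalence of index types. -/
theorem isFreeBasis_reindex {V : ℤ → Submodule ℂ (ℍ → ℂ)} {J J' : Type} [Fintype J] [Fintype J']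
    {κ : J → ℤ} {F : J → ℍ → ℂ} (hF : IsFreeBasis V κ F) (e : J' ≃ J) :
    IsFreeBasis V (κ ∘ e) (F ∘ e) := by
  refine ⟨fun j => hF.1 (e j), fun k f hf => ?_⟩
  obtain ⟨P, ⟨hP, hfP⟩, huniq⟩ := hF.2 k f hf
  refine ⟨P ∘ e, ⟨fun j => hP (e j), ?_⟩, ?_⟩
  · rw [hfP]
    exact (Equiv.sum_comp e (fun j => P j * F j)).symm
  · rintro P' ⟨hP', hfP'⟩
    have h1 : P' ∘ e.symm = P := by
      apply huniq
      refine ⟨fun j => ?_, ?_⟩
      · have := hP' (e.symm j)
        simpa using this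
      · rw [hfP']
        have := Equiv.sum_comp e (fun j => (P' ∘ e.symm) j * F j)
        simpa using this
    funext j'
    have := congrFun h1 (e j')
    simpa using this

section bridge

variable {𝒢 : Subgroup (GL (Fin 2) ℝ)} [𝒢.IsArithmetic] [𝒢.HasDetOne]

omit [𝒢.IsArithmetic] [𝒢.HasDetOne] in
/-- The translate of an expansion `∑ P_j F_j` with level one coefficients. -/
theorem tr_expansion {J : Type} [Fintype J] {κ : J → ℤ} (F : J → ℍ → ℂ) {k : ℤ}
    {P : J → ℍ → ℂ} (hP : ∀ j, P j ∈ RR (k - κ j)) (q : Q 𝒢) :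
    tr 𝒢 k (∑ j, P j * F j) q = ∑ j, P j * tr 𝒢 (κ j) (F j) q := by
  rw [tr_sum]
  refine Finset.sum_congr rfl fun j _ => ?_
  rw [tr_mul' (show k = (k - κ j) + κ j by ring), tr_RR (hP j)]

/-- **Bridge.** A free basis of `V` with an arbitrary finite index type, together with a
`Q 𝒢`-indexed family in `V` whose matrix of translates is invertible at one point, gives a free
basis indexed by `Q 𝒢` whose fundamental determinant does not vanish at that point. -/
theorem stmt_Basis_of_witness {N : ℕ} (hG : GoodLevel 𝒢 N) (hS : Seed 𝒢)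
    (V : ℤ → Submodule ℂ (ℍ → ℂ)) (hV : ∀ k, V k ≤ MFG 𝒢 k)
    (hmul : ∀ (a b : ℤ) (P f : ℍ → ℂ), P ∈ RR a → f ∈ V b → P * f ∈ V (a + b))
    {J : Type} [Fintype J] {κ : J → ℤ} {F : J → ℍ → ℂ} (hF : IsFreeBasis V κ F)
    (a : Q 𝒢 → ℤ) (G : Q 𝒢 → ℍ → ℂ) (hGV : ∀ i, G i ∈ V (a i)) (z0 : ℍ)
    (A : Matrix (Q 𝒢) (Q 𝒢) ℂ) (hA : ∀ q i, A q i = tr 𝒢 (a i) (G i) q z0)
    (hdet : ∀ [DecidableEq (Q 𝒢)], A.det ≠ 0) :
    Stmt_Basis 𝒢 V := by
  classical
  have hdet' : A.det ≠ 0 := hdet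
  choose P hP hGP using fun i => (hF.2 (a i) (G i) (hGV i)).exists
  set Φ : Matrix (Q 𝒢) J ℂ := transMatrix 𝒢 κ F z0 with hΦ
  set B : Matrix J (Q 𝒢) ℂ := Matrix.of fun j i => P i j z0 with hB
  have hAΦB : A = Φ * B := by
    ext q i
    rw [hA, Matrix.mul_apply]
    conv_lhs => rw [hGP i]
    rw [tr_expansion F (hP i), Finset.sum_apply]
    refine Finset.sum_congr rfl fun j _ => ?_
    simp only [hΦ, hB, transMatrix, Matrix.of_apply, Pi.mul_apply]
    ring
  have hle : Fintype.card J ≤ mu 𝒢 := card_le_mu hG hS V hV hmul hF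
  have hge : Fintype.card (Q 𝒢) ≤ Fintype.card J := by
    have h1 : A.rank = Fintype.card (Q 𝒢) :=
      Matrix.rank_of_isUnit A ((Matrix.isUnit_iff_isUnit_det A).mpr (isUnit_iff_ne_zero.mpr hdet'))
    have h2 : A.rank ≤ Φ.rank := by
      rw [hAΦB]
      exact Matrix.rank_mul_le_left Φ B
    have h3 : Φ.rank ≤ Fintype.card J := Matrix.rank_le_card_width Φ
    omega
  have hmu : mu 𝒢 = Fintype.card (Q 𝒢) := Nat.card_eq_fintype_card
  have hcard : Fintype.card (Q 𝒢) = Fintype.card J := le_antisymm hge (hmu ▸ hle)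
  let e : Q 𝒢 ≃ J := Fintype.equivOfCardEq hcard
  refine ⟨κ ∘ e, F ∘ e, isFreeBasis_reindex hF e, z0, ?_⟩
  unfold fundDet
  have hΦ' : transMatrix 𝒢 (κ ∘ e) (F ∘ e) z0 = Φ.submatrix id e := rfl
  have hA' : A = Φ.submatrix id e * B.submatrix e id := by
    rw [Matrix.submatrix_mul_equiv, Matrix.submatrix_id_id]
    exact hAΦB
  intro h0
  apply hdet'
  rw [hA', Matrix.det_mul, ← hΦ']
  convert zero_mul _

omit [𝒢.HasDetOne] in
/-- The Vandermonde matrix of the values of the translates of the seed at a separating point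
is invertible. -/
theorem vandermonde_witness {w : ℤ} {h : ℍ → ℂ} (z0 : ℍ)
    (hinj : Function.Injective (fun q => tr 𝒢 w h q z0)) [DecidableEq (Q 𝒢)] :
    (Matrix.of fun (q i : Q 𝒢) =>
      tr 𝒢 w h q z0 ^ ((Fintype.equivFin (Q 𝒢) i : Fin _) : ℕ)).det ≠ 0 := by
  set e0 := Fintype.equivFin (Q 𝒢) with he0
  have h1 : (Matrix.of fun (q i : Q 𝒢) => tr 𝒢 w h q z0 ^ ((e0 i : Fin _) : ℕ)) =
      (Matrix.vandermonde (fun t => tr 𝒢 w h (e0.symm t) z0)).submatrix e0 e0 := by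
    ext q i
    simp [Matrix.vandermonde_apply]
  rw [h1, Matrix.det_submatrix_equiv_self]
  exact Matrix.det_vandermonde_ne_zero_iff.mpr (hinj.comp e0.symm.injective)

/-- `Stmt_Basis` for modular forms, from any finite free basis and a seed. -/
theorem stmt_Basis_MFG {N : ℕ} (hG : GoodLevel 𝒢 N) (hS : Seed 𝒢)
    {J : Type} [Fintype J] {κ : J → ℤ} {F : J → ℍ → ℂ} (hF : IsFreeBasis (MFG 𝒢) κ F) :
    Stmt_Basis 𝒢 (MFG 𝒢) := by
  classical
  have hS' := hS
  obtain ⟨w, h, hh, hstab⟩ := hS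
  have hinj := tr_seed_injective hstab
  obtain ⟨D, hD, hD0, hDsep⟩ := exists_sep_fun hh hinj
  obtain ⟨z0, hz0⟩ : ∃ z0, D z0 ≠ 0 := by
    by_contra hcon
    exact hD0 (funext fun z => not_not.mp (not_exists.mp hcon z))
  refine stmt_Basis_of_witness hG hS' (MFG 𝒢) (fun _ => le_rfl)
    (goal_Basic 𝒢 N hG).2.2.2.2.2.1 hF
    (fun i => (((Fintype.equivFin (Q 𝒢) i : Fin _) : ℕ) : ℤ) * w)
    (fun i => h ^ ((Fintype.equivFin (Q 𝒢) i : Fin _) : ℕ)) (fun i => MFG_pow hh _) z0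
    (Matrix.of fun q i => tr 𝒢 w h q z0 ^ ((Fintype.equivFin (Q 𝒢) i : Fin _) : ℕ))
    (fun q i => ?_) ?_
  · rw [tr_pow]
    rfl
  · intro _
    convert vandermonde_witness z0 (hDsep z0 hz0)

/-- `Stmt_Basis` for cusp forms, from any finite free basis and a seed. -/
theorem stmt_Basis_CFG {N : ℕ} (hG : GoodLevel 𝒢 N) (hS : Seed 𝒢)
    {J : Type} [Fintype J] {κ : J → ℤ} {F : J → ℍ → ℂ} (hF : IsFreeBasis (CFG 𝒢) κ F) :
    Stmt_Basis 𝒢 (CFG 𝒢) := by
  classical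
  have hS' := hS
  obtain ⟨w, h, hh, hstab⟩ := hS
  have hinj := tr_seed_injective hstab
  obtain ⟨D, hD, hD0, hDsep⟩ := exists_sep_fun hh hinj
  obtain ⟨z0, hz0⟩ : ∃ z0, D z0 ≠ 0 := by
    by_contra hcon
    exact hD0 (funext fun z => not_not.mp (not_exists.mp hcon z))
  have hΔ : (ModularForm.discriminant : ℍ → ℂ) ∈ CFG 𝒢 12 :=
    ⟨helper2805.restrictCF hG.le CuspForm.discriminant, rfl⟩
  have hΔRR : (ModularForm.discriminant : ℍ → ℂ) ∈ RR 12 :=
    CFG_le_MFG 𝒮ℒ 12 ⟨CuspForm.discriminant, rfl⟩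
  refine stmt_Basis_of_witness hG hS' (CFG 𝒢) (CFG_le_MFG 𝒢)
    (goal_Basic 𝒢 N hG).2.2.2.2.2.2.1 hF
    (fun i => (((Fintype.equivFin (Q 𝒢) i : Fin _) : ℕ) : ℤ) * w + 12)
    (fun i => h ^ ((Fintype.equivFin (Q 𝒢) i : Fin _) : ℕ) * ModularForm.discriminant)
    (fun i => CFG_mul_mem (MFG_pow hh _) hΔ) z0
    (ModularForm.discriminant z0 •
      Matrix.of fun q i => tr 𝒢 w h q z0 ^ ((Fintype.equivFin (Q 𝒢) i : Fin _) : ℕ))
    (fun q i => ?_) ?_
  · rw [tr_mul, tr_pow, tr_RR hΔRR]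
    simp only [Matrix.smul_apply, Matrix.of_apply, Pi.mul_apply, Pi.pow_apply, smul_eq_mul]
    ring
  · intro _
    rw [Matrix.det_smul]
    refine mul_ne_zero (pow_ne_zero _ (ModularForm.discriminant_ne_zero z0)) ?_
    convert vandermonde_witness z0 (hDsep z0 hz0)

end bridge

/-- **`Goal_BasisM`** of `helper560_Spec`. -/
theorem goal_BasisM : Goal_BasisM := by
  intro 𝒢 _ _ N hG hS
  obtain ⟨J, _, κ, F, hF⟩ := helper813.free_MFG 𝒢 N hG
  exact stmt_Basis_MFG hG hS hF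

/-- **`Goal_BasisS`** of `helper560_Spec`. -/
theorem goal_BasisS : Goal_BasisS := by
  intro 𝒢 _ _ N hG hS
  obtain ⟨J, _, κ, F, hF⟩ := helper813.free_CFG 𝒢 N hG
  exact stmt_Basis_CFG hG hS hF

end

end Fermat.Agent.S20.helper3380
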