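/-
S20, BASIS-BRIDGE (seat helper3386).

From any finite homogeneous free basis of the graded module `MFG 𝒢` (resp. `CFG 𝒢`) over the
level one ring we produce a basis indexed by the cosets `Q 𝒢` whose fundamental matrix is
invertible at some point, i.e. `helper560.Stmt_Basis`:

* upper bound `card J ≤ μ` for every free basis (Gram matrix of the trace pairing, minors,
  power sums);
* lower bound via the seed form (Vandermonde of the translates of `h`), resp. via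
  multiplication by `Δ` for cusp forms.
-/
import Fermat.Agent.S20.helper560_Spec

set_option autoImplicit false

open UpperHalfPlane ModularForm
open scoped MatrixGroups Manifold Pointwise

namespace Fermat.Agent.S20.helper3386

open Fermat.Agent.S20.helper560

noncomputable section

/-! ### Elementary facts on translates -/

section toolkit

variable {𝒢 : Subgroup (GL (Fin 2) ℝ)}

theorem det_coe_SL (g : 𝒮ℒ) : (g : GL (Fin 2) ℝ).det = 1 :=
  Subgroup.HasDetOne.det_eq g.2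

theorem tr_congr {k k' : ℤ} (h : k = k') (f : ℍ → ℂ) (q : Q 𝒢) :
    tr 𝒢 k f q = tr 𝒢 k' f q := by
  subst h; rfl

theorem tr_add (k : ℤ) (f g : ℍ → ℂ) (q : Q 𝒢) :
    tr 𝒢 k (f + g) q = tr 𝒢 k f q + tr 𝒢 k g q :=
  SlashAction.add_slash _ _ _ _

theorem tr_sum {ι : Type*} (k : ℤ) (s : Finset ι) (f : ι → ℍ → ℂ) (q : Q 𝒢) :
    tr 𝒢 k (∑ i ∈ s, f i) q = ∑ i ∈ s, tr 𝒢 k (f i) q :=
  SlashAction.sum_slash _ _

theorem tr_mul (a b : ℤ) (f g : ℍ → ℂ) (q : Q 𝒢) :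
    tr 𝒢 (a + b) (f * g) q = tr 𝒢 a f q * tr 𝒢 b g q := by
  unfold tr
  rw [ModularForm.mul_slash]
  have h1 : (((q.out : 𝒮ℒ) : GL (Fin 2) ℝ)⁻¹).det = 1 := by
    rw [map_inv, det_coe_SL, inv_one]
  rw [h1]
  simp

theorem tr_eq_zero_iff (k : ℤ) (f : ℍ → ℂ) (q : Q 𝒢) : tr 𝒢 k f q = 0 ↔ f = 0 :=
  SlashAction.slash_eq_zero_iff _ _ _

/-- Level one forms are their own translates. -/
theorem tr_of_mem_RR {a : ℤ} {P : ℍ → ℂ} (hP : P ∈ RR a) (q : Q 𝒢) : tr 𝒢 a P q = P := by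
  obtain ⟨P', rfl⟩ := hP
  exact SlashInvariantFormClass.slash_action_eq P' _ (inv_mem (q.out : 𝒮ℒ).2)

theorem tr_RR_mul {a b : ℤ} {P : ℍ → ℂ} (hP : P ∈ RR a) (f : ℍ → ℂ) (q : Q 𝒢) :
    tr 𝒢 (a + b) (P * f) q = P * tr 𝒢 b f q := by
  rw [tr_mul, tr_of_mem_RR hP]

end toolkit

/-! ### Closure properties -/

section closure

variable {𝒢 : Subgroup (GL (Fin 2) ℝ)} [𝒢.HasDetOne]

theorem MFG_mul {a b : ℤ} {f g : ℍ → ℂ} (hf : f ∈ MFG 𝒢 a) (hg : g ∈ MFG 𝒢 b) :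
    f * g ∈ MFG 𝒢 (a + b) := by
  obtain ⟨F, rfl⟩ := hf
  obtain ⟨G, rfl⟩ := hg
  exact ⟨F.mul G, rfl⟩

theorem CFG_le_MFG (k : ℤ) : CFG 𝒢 k ≤ MFG 𝒢 k := by
  rintro _ ⟨F, rfl⟩
  exact ⟨ModularFormClass.modularForm F, rfl⟩

theorem CFG_mul_MFG {a b : ℤ} {f g : ℍ → ℂ} (hf : f ∈ CFG 𝒢 a) (hg : g ∈ MFG 𝒢 b) :
    f * g ∈ CFG 𝒢 (a + b) := by
  obtain ⟨F, rfl⟩ := hf
  obtain ⟨G, rfl⟩ := hg
  exact ⟨F.mulModularForm G, rfl⟩

/-- restriction of a level one form to a subgroup `𝒢 ≤ 𝒮ℒ` -/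
def restrictOne (h𝒢 : 𝒢 ≤ 𝒮ℒ) {a : ℤ} (P : ModularForm 𝒮ℒ a) : ModularForm 𝒢 a where
  toFun := P
  slash_action_eq' γ hγ := P.slash_action_eq' γ (h𝒢 hγ)
  holo' := P.holo'
  bdd_at_cusps' hc := P.bdd_at_cusps' (hc.mono h𝒢)

/-- restriction of a level one cusp form to a subgroup `𝒢 ≤ 𝒮ℒ` -/
def restrictOneCusp (h𝒢 : 𝒢 ≤ 𝒮ℒ) {a : ℤ} (P : CuspForm 𝒮ℒ a) : CuspForm 𝒢 a where
  toFun := P
  slash_action_eq' γ hγ := P.slash_action_eq' γ (h𝒢 hγ)
  holo' := P.holo'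
  zero_at_cusps' hc := P.zero_at_cusps' (hc.mono h𝒢)

theorem RR_le_MFG (h𝒢 : 𝒢 ≤ 𝒮ℒ) (a : ℤ) : RR a ≤ MFG 𝒢 a := by
  rintro _ ⟨P, rfl⟩
  exact ⟨restrictOne h𝒢 P, rfl⟩

theorem one_mem_RR : (1 : ℍ → ℂ) ∈ RR 0 :=
  ⟨ModularForm.const 1, by ext z; simp [ModularForm.const_apply]⟩

theorem RR_mul {a b : ℤ} {f g : ℍ → ℂ} (hf : f ∈ RR a) (hg : g ∈ RR b) :
    f * g ∈ RR (a + b) := MFG_mul hf hg

theorem RR_mul_MFG (h𝒢 : 𝒢 ≤ 𝒮ℒ) {a b : ℤ} {P f : ℍ → ℂ} (hP : P ∈ RR a)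
    (hf : f ∈ MFG 𝒢 b) : P * f ∈ MFG 𝒢 (a + b) :=
  MFG_mul (RR_le_MFG h𝒢 a hP) hf

theorem RR_mul_CFG (h𝒢 : 𝒢 ≤ 𝒮ℒ) {a b : ℤ} {P f : ℍ → ℂ} (hP : P ∈ RR a)
    (hf : f ∈ CFG 𝒢 b) : P * f ∈ CFG 𝒢 (a + b) := by
  rw [add_comm a b, mul_comm]
  exact CFG_mul_MFG hf (RR_le_MFG h𝒢 a hP)

/-- `Δ` times a modular form is a cusp form. -/
theorem delta_mul_mem_CFG (h𝒢 : 𝒢 ≤ 𝒮ℒ) {b : ℤ} {f : ℍ → ℂ} (hf : f ∈ MFG 𝒢 b) :
    (⇑CuspForm.discriminant : ℍ → ℂ) * f ∈ CFG 𝒢 (12 + b) := by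
  obtain ⟨F, rfl⟩ := hf
  exact ⟨(restrictOneCusp h𝒢 CuspForm.discriminant).mulModularForm F, rfl⟩

theorem mem_of_eq {V : ℤ → Submodule ℂ (ℍ → ℂ)} {k k' : ℤ} {f : ℍ → ℂ} (hf : f ∈ V k)
    (h : k = k') : f ∈ V k' := h ▸ hf

/-- The trace of a modular form of level `𝒢` is a level one form. -/
theorem sum_tr_mem_RR [𝒢.IsArithmetic] {k : ℤ} {f : ℍ → ℂ} (hf : f ∈ MFG 𝒢 k) :
    (∑ q : Q 𝒢, tr 𝒢 k f q) ∈ RR k := by
  obtain ⟨F, rfl⟩ := hf
  refine ⟨ModularForm.trace 𝒮ℒ F, ?_⟩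
  rw [ModularForm.coe_trace]
  refine Finset.sum_congr ?_ fun q _ => (tr_eq_quotientFunc F q).symm
  congr

end closure

/-! ### Pure algebra: power sums and ranks -/

section algebra

/-- If all power sums of exponent `≥ 2` of a finite family of complex numbers vanish, the
family is zero. -/
theorem eq_zero_of_pow_sums {ι : Type*} [Fintype ι] (y : ι → ℂ)
    (h : ∀ n : ℕ, ∑ i, y i ^ (n + 2) = 0) (i₀ : ι) : y i₀ = 0 := by
  classical
  by_contra h0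
  set S : Finset ℂ := (Finset.univ.image y).erase (y i₀) with hS
  set r : Polynomial ℂ := ∏ v ∈ S, (Polynomial.X - Polynomial.C v) with hr
  have h1 : ∀ x : ℂ, x ^ 2 * r.eval x =
      ∑ m ∈ Finset.range (r.natDegree + 1), r.coeff m * x ^ (m + 2) := by
    intro x
    rw [Polynomial.eval_eq_sum_range, Finset.mul_sum]
    refine Finset.sum_congr rfl fun m _ => ?_
    ring
  have h2 : ∑ i, y i ^ 2 * r.eval (y i) = 0 := by
    simp_rw [h1]
    rw [Finset.sum_comm]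
    refine Finset.sum_eq_zero fun m _ => ?_
    rw [← Finset.mul_sum, h, mul_zero]
  have h3 : ∀ i, y i ^ 2 * r.eval (y i) =
      if y i = y i₀ then y i₀ ^ 2 * r.eval (y i₀) else 0 := by
    intro i
    split_ifs with hi
    · rw [hi]
    · have h31 : r.eval (y i) = 0 := by
        rw [hr, Polynomial.eval_prod]
        refine Finset.prod_eq_zero (i := y i) ?_ (by simp)
        rw [hS]
        exact Finset.mem_erase.mpr ⟨hi, Finset.mem_image_of_mem y (Finset.mem_univ i)⟩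
      rw [h31, mul_zero]
  have h4 : r.eval (y i₀) ≠ 0 := by
    rw [hr, Polynomial.eval_prod]
    refine Finset.prod_ne_zero_iff.mpr fun v hv => ?_
    have h41 : v ≠ y i₀ := (Finset.mem_erase.mp hv).1
    simp only [Polynomial.eval_sub, Polynomial.eval_X, Polynomial.eval_C]
    exact sub_ne_zero.mpr fun h => h41 h.symm
  rw [Finset.sum_congr rfl fun i _ => h3 i] at h2
  rw [Finset.sum_ite, Finset.sum_const_zero, add_zero, Finset.sum_const, nsmul_eq_mul] at h2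
  have h5 : ((Finset.univ.filter fun i => y i = y i₀).card : ℂ) ≠ 0 := by
    have h51 : 0 < (Finset.univ.filter fun i => y i = y i₀).card :=
      Finset.card_pos.mpr ⟨i₀, by simp⟩
    exact_mod_cast h51.ne'
  exact (mul_ne_zero h5 (mul_ne_zero (pow_ne_zero 2 h0) h4)) h2

theorem card_le_of_det_mul_ne_zero {m n : Type*} [Fintype m] [Fintype n] [DecidableEq m]
    (A : Matrix m n ℂ) (B : Matrix n m ℂ) (h : (A * B).det ≠ 0) :
    Fintype.card m ≤ Fintype.card n := by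
  rw [← Matrix.rank_of_det_ne_zero h]
  exact (Matrix.rank_mul_le_left A B).trans (Matrix.rank_le_card_width A)

end algebra

/-! ### The graded modules we work with -/

section goodV

variable {𝒢 : Subgroup (GL (Fin 2) ℝ)} [𝒢.HasDetOne]

/-- The properties of the graded modules `MFG 𝒢`, `CFG 𝒢` used below. -/
structure GoodV (𝒢 : Subgroup (GL (Fin 2) ℝ)) [𝒢.HasDetOne]
    (V : ℤ → Submodule ℂ (ℍ → ℂ)) : Prop where
  le : ∀ k, V k ≤ MFG 𝒢 k
  smul : ∀ (a b : ℤ) (P f : ℍ → ℂ), P ∈ RR a → f ∈ V b → P * f ∈ V (a + b)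
  mul : ∀ (a b : ℤ) (f g : ℍ → ℂ), f ∈ V a → g ∈ V b → f * g ∈ V (a + b)

theorem goodV_MFG (h𝒢 : 𝒢 ≤ 𝒮ℒ) : GoodV 𝒢 (MFG 𝒢) :=
  ⟨fun _ => le_rfl, fun _ _ _ _ hP hf => RR_mul_MFG h𝒢 hP hf, fun _ _ _ _ hf hg => MFG_mul hf hg⟩

theorem goodV_CFG (h𝒢 : 𝒢 ≤ 𝒮ℒ) : GoodV 𝒢 (CFG 𝒢) :=
  ⟨CFG_le_MFG, fun _ _ _ _ hP hf => RR_mul_CFG h𝒢 hP hf,
    fun _ _ _ _ hf hg => CFG_mul_MFG hf (CFG_le_MFG _ hg)⟩

theorem GoodV.exists_pow {V : ℤ → Submodule ℂ (ℍ → ℂ)} (hV : GoodV 𝒢 V) {k : ℤ} {f : ℍ → ℂ}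
    (hf : f ∈ V k) (n : ℕ) :
    ∃ kn : ℤ, f ^ (n + 1) ∈ V kn ∧
      ∀ q : Q 𝒢, tr 𝒢 kn (f ^ (n + 1)) q = (tr 𝒢 k f q) ^ (n + 1) := by
  induction n with
  | zero => exact ⟨k, by simpa using hf, fun q => by simp⟩
  | succ n ih =>
    obtain ⟨kn, h1, h2⟩ := ih
    refine ⟨kn + k, ?_, fun q => ?_⟩
    · rw [pow_succ]; exact hV.mul _ _ _ _ h1 hf
    · rw [pow_succ, tr_mul, h2, ← pow_succ]

theorem exists_pow_MFG (h𝒢 : 𝒢 ≤ 𝒮ℒ) {k : ℤ} {f : ℍ → ℂ} (hf : f ∈ MFG 𝒢 k) (n : ℕ) :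
    ∃ kn : ℤ, f ^ n ∈ MFG 𝒢 kn ∧ ∀ q : Q 𝒢, tr 𝒢 kn (f ^ n) q = (tr 𝒢 k f q) ^ n := by
  rcases n with _ | n
  · exact ⟨0, by simpa using RR_le_MFG h𝒢 0 one_mem_RR,
      fun q => by simpa using tr_of_mem_RR one_mem_RR q⟩
  · exact (goodV_MFG h𝒢).exists_pow hf n

end goodV

/-! ### The Gram matrix of the trace pairing and the upper bound -/

section gram

variable {𝒢 : Subgroup (GL (Fin 2) ℝ)} [𝒢.IsArithmetic] [𝒢.HasDetOne]
variable {J : Type} (κ : J → ℤ) (F : J → ℍ → ℂ)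

theorem prod_mem_RR {ι : Type*} (s : Finset ι) (w : ι → ℤ) (g : ι → ℍ → ℂ)
    (h : ∀ i ∈ s, g i ∈ RR (w i)) : (∏ i ∈ s, g i) ∈ RR (∑ i ∈ s, w i) := by
  classical
  induction s using Finset.induction_on with
  | empty => simpa using one_mem_RR
  | insert i s hi ih =>
    rw [Finset.prod_insert hi, Finset.sum_insert hi]
    exact RR_mul (h i (Finset.mem_insert_self i s))
      (ih fun j hj => h j (Finset.mem_insert_of_mem hj))

/-- Gram matrix of the trace pairing on a family of forms. -/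
def gram (𝒢 : Subgroup (GL (Fin 2) ℝ)) [𝒢.IsArithmetic] {J : Type} (κ : J → ℤ)
    (F : J → ℍ → ℂ) (i j : J) : ℍ → ℂ :=
  ∑ q : Q 𝒢, tr 𝒢 (κ i) (F i) q * tr 𝒢 (κ j) (F j) q

omit [𝒢.HasDetOne] in
theorem gram_apply (i j : J) (z : ℍ) :
    gram 𝒢 κ F i j z = ∑ q : Q 𝒢, tr 𝒢 (κ i) (F i) q z * tr 𝒢 (κ j) (F j) q z := by
  simp [gram]

theorem gram_mem (hF : ∀ j, F j ∈ MFG 𝒢 (κ j)) (i j : J) :
    gram 𝒢 κ F i j ∈ RR (κ i + κ j) := by
  have h := sum_tr_mem_RR (MFG_mul (hF i) (hF j))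
  simp_rw [tr_mul] at h
  exact h

/-- Minors of the Gram matrix. -/
def minor (𝒢 : Subgroup (GL (Fin 2) ℝ)) [𝒢.IsArithmetic] {J : Type} (κ : J → ℤ)
    (F : J → ℍ → ℂ) {n : ℕ} (a b : Fin n → J) : ℍ → ℂ :=
  fun z => (Matrix.of fun s t => gram 𝒢 κ F (a s) (b t) z).det

theorem minor_mem (hF : ∀ j, F j ∈ MFG 𝒢 (κ j)) {n : ℕ} (a b : Fin n → J) :
    minor 𝒢 κ F a b ∈ RR (∑ s, κ (a s) + ∑ t, κ (b t)) := by
  have h1 : minor 𝒢 κ F a b = ∑ σ : Equiv.Perm (Fin n),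
      (((Equiv.Perm.sign σ : ℤˣ) : ℤ) : ℂ) • ∏ t, gram 𝒢 κ F (a (σ t)) (b t) := by
    funext z
    simp [minor, Matrix.det_apply, Units.smul_def]
  rw [h1]
  refine sum_mem fun σ _ => Submodule.smul_mem _ _ ?_
  refine mem_of_eq (prod_mem_RR Finset.univ (fun t => κ (a (σ t)) + κ (b t)) _
    fun t _ => gram_mem κ F hF _ _) ?_
  rw [Finset.sum_add_distrib, Equiv.sum_comp σ (fun s => κ (a s))]

omit [𝒢.HasDetOne] in
theorem minor_eq_zero_of_card_lt {n : ℕ} (hn : Fintype.card (Q 𝒢) < n) (a b : Fin n → J)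
    (z : ℍ) : minor 𝒢 κ F a b z = 0 := by
  classical
  by_contra h
  have hAB : (Matrix.of fun s t => gram 𝒢 κ F (a s) (b t) z) =
      (Matrix.of fun (s : Fin n) (q : Q 𝒢) => tr 𝒢 (κ (a s)) (F (a s)) q z) *
      (Matrix.of fun (q : Q 𝒢) (t : Fin n) => tr 𝒢 (κ (b t)) (F (b t)) q z) := by
    ext s t
    simp [Matrix.mul_apply, gram_apply]
  rw [minor, hAB] at h
  have h2 := card_le_of_det_mul_ne_zero _ _ h
  rw [Fintype.card_fin] at h2
  omega

/-- A relation with level one coefficients which is orthogonal to the whole basis for the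
trace pairing is trivial. -/
theorem coeff_eq_zero_of_orth {V : ℤ → Submodule ℂ (ℍ → ℂ)} (hV : GoodV 𝒢 V) [Fintype J]
    (hF : IsFreeBasis V κ F) (W : ℤ) (C : J → ℍ → ℂ) (hC : ∀ j, C j ∈ RR (W - κ j))
    (horth : ∀ i, ∑ j, C j * gram 𝒢 κ F i j = 0) : ∀ j, C j = 0 := by
  classical
  set f : ℍ → ℂ := ∑ j, C j * F j with hfdef
  have hf : f ∈ V W := sum_mem fun j _ =>
    mem_of_eq (hV.smul _ _ _ _ (hC j) (hF.1 j)) (by ring)
  have htrf : ∀ q : Q 𝒢, tr 𝒢 W f q = ∑ j, C j * tr 𝒢 (κ j) (F j) q := by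
    intro q
    rw [hfdef, tr_sum]
    refine Finset.sum_congr rfl fun j _ => ?_
    rw [tr_congr (show W = (W - κ j) + κ j by ring), tr_RR_mul (hC j)]
  have key : ∀ (k : ℤ) (g : ℍ → ℂ), g ∈ V k → ∑ q : Q 𝒢, tr 𝒢 k g q * tr 𝒢 W f q = 0 := by
    intro k g hg
    obtain ⟨P, ⟨hP, hgP⟩, -⟩ := hF.2 k g hg
    have htrg : ∀ q : Q 𝒢, tr 𝒢 k g q = ∑ i, P i * tr 𝒢 (κ i) (F i) q := by
      intro q
      rw [hgP, tr_sum]
      refine Finset.sum_congr rfl fun j _ => ?_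
      rw [tr_congr (show k = (k - κ j) + κ j by ring), tr_RR_mul (hP j)]
    have h1 : ∑ q : Q 𝒢, tr 𝒢 k g q * tr 𝒢 W f q =
        ∑ i, P i * ∑ j, C j * gram 𝒢 κ F i j := by
      simp_rw [htrg, htrf]
      calc ∑ q : Q 𝒢, (∑ i, P i * tr 𝒢 (κ i) (F i) q) * ∑ j, C j * tr 𝒢 (κ j) (F j) q
          = ∑ q : Q 𝒢, ∑ i, ∑ j,
              P i * (C j * (tr 𝒢 (κ i) (F i) q * tr 𝒢 (κ j) (F j) q)) := by
            refine Finset.sum_congr rfl fun q _ => ?_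
            rw [Finset.sum_mul_sum]
            refine Finset.sum_congr rfl fun i _ => Finset.sum_congr rfl fun j _ => by ring
        _ = ∑ i, ∑ q : Q 𝒢, ∑ j,
              P i * (C j * (tr 𝒢 (κ i) (F i) q * tr 𝒢 (κ j) (F j) q)) := Finset.sum_comm
        _ = ∑ i, P i * ∑ j, C j * gram 𝒢 κ F i j := by
            refine Finset.sum_congr rfl fun i _ => ?_
            rw [Finset.sum_comm]
            simp only [gram, Finset.mul_sum]
    rw [h1]
    simp [horth]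
  have hz : ∀ (z : ℍ) (q : Q 𝒢), tr 𝒢 W f q z = 0 := by
    intro z
    apply eq_zero_of_pow_sums (fun q => tr 𝒢 W f q z)
    intro n
    obtain ⟨kn, h1, h2⟩ := hV.exists_pow hf n
    have h3 := congrFun (key kn (f ^ (n + 1)) h1) z
    simp only [h2, Finset.sum_apply, Pi.mul_apply, Pi.pow_apply, Pi.zero_apply] at h3
    rw [← h3]
    refine Finset.sum_congr rfl fun q _ => ?_
    ring
  have hf0 : f = 0 :=
    (tr_eq_zero_iff W f (QuotientGroup.mk 1 : Q 𝒢)).mp (funext fun z => hz z _)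
  obtain ⟨P, -, huniq⟩ := hF.2 W f hf
  have e1 := huniq C ⟨hC, rfl⟩
  have e2 := huniq 0 ⟨fun j => zero_mem _, by simp [hf0]⟩
  intro j
  rw [e1, ← e2]
  rfl

/-- **Upper bound**: a finite homogeneous free basis has at most `[SL₂(ℤ) : 𝒢]` elements. -/
theorem card_le_card_Q {V : ℤ → Submodule ℂ (ℍ → ℂ)} (hV : GoodV 𝒢 V) [Fintype J]
    (hF : IsFreeBasis V κ F) : Fintype.card J ≤ Fintype.card (Q 𝒢) := by
  classical
  have hFM : ∀ j, F j ∈ MFG 𝒢 (κ j) := fun j => hV.le _ (hF.1 j)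
  let P : ℕ → Prop := fun n => ∀ (a b : Fin n → J) (z : ℍ), minor 𝒢 κ F a b z = 0
  have hP : ∃ n, P n := ⟨Fintype.card (Q 𝒢) + 1, fun a b z =>
    minor_eq_zero_of_card_lt κ F (Nat.lt_succ_self _) a b z⟩
  have hn0 : Nat.find hP ≠ 0 := by
    intro h0
    have h1 : P 0 := h0 ▸ Nat.find_spec hP
    have h2 := h1 Fin.elim0 Fin.elim0 UpperHalfPlane.I
    simp [minor] at h2
  obtain ⟨r, hr⟩ := Nat.exists_eq_succ_of_ne_zero hn0
  have hPr1 : P (r + 1) := by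
    have h1 := Nat.find_spec hP
    rwa [hr] at h1
  have hPr : ¬ P r := Nat.find_min hP (by omega)
  have hrle : r + 1 ≤ Fintype.card (Q 𝒢) + 1 := by
    have h1 : Nat.find hP ≤ Fintype.card (Q 𝒢) + 1 := Nat.find_min' hP
      (fun a b z => minor_eq_zero_of_card_lt κ F (Nat.lt_succ_self _) a b z)
    omega
  simp only [P] at hPr
  push Not at hPr
  obtain ⟨a₀, b₀, z₁, hz₁⟩ := hPr
  have hsurj : Function.Surjective b₀ := by
    by_contra hns
    rw [Function.Surjective] at hns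
    push Not at hns
    obtain ⟨jstar, hj⟩ := hns
    let b : Fin (r + 1) → J := Fin.cons jstar b₀
    let c : Fin (r + 1) → ℍ → ℂ := fun s =>
      ((-1 : ℂ) ^ (s : ℕ)) • minor 𝒢 κ F a₀ (fun t => b (s.succAbove t))
    let W : ℤ := ∑ t, κ (a₀ t) + ∑ s, κ (b s)
    have hc : ∀ s, c s ∈ RR (W - κ (b s)) := by
      intro s
      refine Submodule.smul_mem _ _ (mem_of_eq (minor_mem κ F hFM a₀ _) ?_)
      have h1 := Fin.sum_univ_succAbove (fun s => κ (b s)) s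
      simp only [W]
      rw [h1]
      ring
    let C : J → ℍ → ℂ := fun j => ∑ s, if b s = j then c s else 0
    have hC : ∀ j, C j ∈ RR (W - κ j) := fun j => sum_mem fun s _ => by
      split_ifs with h
      · exact h ▸ hc s
      · exact zero_mem _
    have horth : ∀ i, ∑ j, C j * gram 𝒢 κ F i j = 0 := by
      intro i
      funext z
      have hlap := hPr1 (Fin.cons i a₀) b z
      rw [minor, Matrix.det_succ_row_zero] at hlap
      have h1 : (∑ j, C j * gram 𝒢 κ F i j) z =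
          ∑ s : Fin (r + 1), c s z * gram 𝒢 κ F i (b s) z := by
        simp only [C, Finset.sum_apply, Pi.mul_apply, Finset.sum_mul]
        rw [Finset.sum_comm]
        refine Finset.sum_congr rfl fun s _ => ?_
        rw [Finset.sum_eq_single (b s)]
        · rw [if_pos rfl]
        · intro x _ hx
          rw [if_neg (Ne.symm hx)]
          simp
        · intro hx
          exact absurd (Finset.mem_univ _) hx
      rw [h1, Pi.zero_apply, ← hlap]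
      refine Finset.sum_congr rfl fun s _ => ?_
      have h2 : (Matrix.of fun s' t => gram 𝒢 κ F ((Fin.cons i a₀ : Fin (r + 1) → J) s')
          (b t) z).submatrix Fin.succ s.succAbove =
          Matrix.of fun s' t => gram 𝒢 κ F (a₀ s') (b (s.succAbove t)) z := by
        ext s' t
        simp
      rw [h2]
      simp only [c, minor, Pi.smul_apply, smul_eq_mul, Matrix.of_apply, Fin.cons_zero]
      ring
    have hC0 := coeff_eq_zero_of_orth κ F hV hF W C hC horth jstar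
    have hCc : C jstar = c 0 := by
      simp only [C]
      rw [Fin.sum_univ_succ]
      have h3 : ∀ t : Fin r, b t.succ ≠ jstar := fun t => by
        simp only [b, Fin.cons_succ]
        exact hj t
      rw [Finset.sum_eq_zero (fun t _ => if_neg (h3 t)), add_zero, if_pos (Fin.cons_zero _ _)]
    have hc0 : c 0 z₁ = minor 𝒢 κ F a₀ b₀ z₁ := by
      simp [c, b]
    apply hz₁
    rw [← hc0, ← hCc, hC0]
    rfl
  calc Fintype.card J ≤ Fintype.card (Fin r) := Fintype.card_le_of_surjective b₀ hsurj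
    _ = r := Fintype.card_fin r
    _ ≤ Fintype.card (Q 𝒢) := by omega

end gram

/-! ### Reindexing and the rank glue -/

section glue

variable {𝒢 : Subgroup (GL (Fin 2) ℝ)} [𝒢.IsArithmetic] [𝒢.HasDetOne]

theorem isFreeBasis_reindex {V : ℤ → Submodule ℂ (ℍ → ℂ)} {J J' : Type} [Fintype J]
    [Fintype J'] {κ : J → ℤ} {F : J → ℍ → ℂ} (hF : IsFreeBasis V κ F) (e : J' ≃ J) :
    IsFreeBasis V (fun j' => κ (e j')) (fun j' => F (e j')) := by
  refine ⟨fun j => hF.1 (e j), fun k f hf => ?_⟩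
  obtain ⟨P, ⟨hP, hfP⟩, huniq⟩ := hF.2 k f hf
  refine ⟨fun j' => P (e j'), ⟨fun j => hP (e j), ?_⟩, ?_⟩
  · rw [hfP]
    exact (Equiv.sum_comp e (fun j => P j * F j)).symm
  · rintro P' ⟨hP', hfP'⟩
    have h1 := huniq (fun j => P' (e.symm j)) ⟨fun j => ?_, ?_⟩
    · funext j'
      have h2 := congrFun h1 (e j')
      simpa using h2
    · have h3 := hP' (e.symm j)
      simpa using h3
    · rw [hfP']
      rw [← Equiv.sum_comp e (fun j => P' (e.symm j) * F j)]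
      simp

/-- **Rank glue**: a free basis whose matrix of translates has full row rank at some point
can be indexed by the cosets, with invertible fundamental matrix at that point. -/
theorem stmt_Basis_of_det_ne_zero {V : ℤ → Submodule ℂ (ℍ → ℂ)} (hV : GoodV 𝒢 V) {J : Type}
    [Fintype J] {κ : J → ℤ} {F : J → ℍ → ℂ} (hF : IsFreeBasis V κ F) (z₀ : ℍ)
    [DecidableEq (Q 𝒢)] (A : Matrix J (Q 𝒢) ℂ)
    (hdet : (transMatrix 𝒢 κ F z₀ * A).det ≠ 0) : Stmt_Basis 𝒢 V := by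
  have h1 : Fintype.card (Q 𝒢) ≤ Fintype.card J := card_le_of_det_mul_ne_zero _ _ hdet
  have h2 : Fintype.card J ≤ Fintype.card (Q 𝒢) := card_le_card_Q κ F hV hF
  obtain ⟨e⟩ : Nonempty (Q 𝒢 ≃ J) := Fintype.card_eq.mp (le_antisymm h1 h2)
  refine ⟨fun q => κ (e q), fun q => F (e q), isFreeBasis_reindex hF e, z₀, ?_⟩
  have h3 : transMatrix 𝒢 κ F z₀ * A =
      transMatrix 𝒢 (fun q => κ (e q)) (fun q => F (e q)) z₀ * A.submatrix e id := by
    ext q q'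
    simp only [Matrix.mul_apply, transMatrix, Matrix.of_apply, Matrix.submatrix_apply, id]
    exact (Equiv.sum_comp e (fun j => tr 𝒢 (κ j) (F j) q z₀ * A j q')).symm
  rw [h3, Matrix.det_mul] at hdet
  unfold fundDet
  convert left_ne_zero_of_mul hdet

end glue

/-! ### The lower bound from the seed form -/

section seed

variable {𝒢 : Subgroup (GL (Fin 2) ℝ)} [𝒢.IsArithmetic] [𝒢.HasDetOne]

omit [𝒢.IsArithmetic] [𝒢.HasDetOne] in
/-- The translates of a form with stabiliser `𝒢` are pairwise distinct. -/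
theorem tr_injective_of_stab {k₀ : ℤ} {h : ℍ → ℂ}
    (hstab : ∀ γ : SL(2, ℤ), h ∣[k₀] γ = h → Matrix.SpecialLinearGroup.mapGL ℝ γ ∈ 𝒢) :
    Function.Injective (fun q : Q 𝒢 => tr 𝒢 k₀ h q) := by
  intro q q' hqq'
  simp only [tr] at hqq'
  have h1 : h ∣[k₀] (((q.out : 𝒮ℒ) : GL (Fin 2) ℝ)⁻¹ * ((q'.out : 𝒮ℒ) : GL (Fin 2) ℝ)) = h := by
    rw [SlashAction.slash_mul, hqq', ← SlashAction.slash_mul, inv_mul_cancel,
      SlashAction.slash_one]
  obtain ⟨γ, hγ⟩ : ∃ γ : SL(2, ℤ), Matrix.SpecialLinearGroup.mapGL ℝ γ =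
      (((q.out : 𝒮ℒ)⁻¹ * (q'.out : 𝒮ℒ) : 𝒮ℒ) : GL (Fin 2) ℝ) :=
    ((q.out : 𝒮ℒ)⁻¹ * (q'.out : 𝒮ℒ)).2
  have h2 : h ∣[k₀] γ = h := by
    change h ∣[k₀] (Matrix.SpecialLinearGroup.mapGL ℝ γ) = h
    rw [hγ]
    simpa using h1
  have h3 := hstab γ h2
  rw [← QuotientGroup.out_eq' q, ← QuotientGroup.out_eq' q', QuotientGroup.eq,
    Subgroup.mem_subgroupOf]
  rw [hγ] at h3
  exact h3

/-- Finitely many pairwise distinct holomorphic functions on `ℍ` take pairwise distinct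
values at some point. -/
theorem exists_injective_point {ι : Type*} [Finite ι] (φ : ι → ℍ → ℂ)
    (hφ : ∀ i, MDiff (φ i)) (hinj : Function.Injective φ) :
    ∃ z : ℍ, Function.Injective (fun i => φ i z) := by
  set U : Set ℂ := {z : ℂ | 0 < z.im} with hU
  have hUo : IsOpen U := isOpen_upperHalfPlaneSet
  have hUc : IsPreconnected U := (convex_halfSpace_im_gt 0).isPreconnected
  have hI : Complex.I ∈ U := by simp [hU]
  have hev : ∀ᶠ x in Filter.codiscreteWithin U,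
      ∀ i j, i ≠ j → φ i (ofComplex x) ≠ φ j (ofComplex x) := by
    refine Filter.eventually_all.2 fun i => Filter.eventually_all.2 fun j => ?_
    by_cases hij : i = j
    · exact Filter.Eventually.of_forall fun x h => absurd hij h
    · have hd : DifferentiableOn ℂ (fun x => φ i (ofComplex x) - φ j (ofComplex x)) U :=
        (UpperHalfPlane.mdifferentiable_iff.mp (hφ i)).sub
          (UpperHalfPlane.mdifferentiable_iff.mp (hφ j))
      have ha : AnalyticOnNhd ℂ (fun x => φ i (ofComplex x) - φ j (ofComplex x)) U :=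
        hd.analyticOnNhd hUo
      rcases ha.eqOn_zero_or_eventually_ne_zero_of_preconnected hUc with h0 | h0
      · exfalso
        apply hij
        apply hinj
        funext z
        have h1 := h0 (show (z : ℂ) ∈ U from z.im_pos)
        simp only [UpperHalfPlane.ofComplex_apply, Pi.zero_apply] at h1
        exact sub_eq_zero.mp h1
      · filter_upwards [h0] with x hx _
        exact fun h => hx (sub_eq_zero.mpr h)
  have h1 := (mem_codiscreteWithin_iff_forall_mem_nhdsNE.mp hev) Complex.I hI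
  have h2 : U ∈ nhdsWithin Complex.I {Complex.I}ᶜ :=
    mem_nhdsWithin_of_mem_nhds (hUo.mem_nhds hI)
  obtain ⟨x, hx1, hx2⟩ := Filter.nonempty_of_mem (Filter.inter_mem h1 h2)
  have hx3 : ∀ i j, i ≠ j → φ i (ofComplex x) ≠ φ j (ofComplex x) := by
    rcases hx1 with hx1 | hx1
    · exact hx1
    · exact absurd hx2 hx1
  refine ⟨ofComplex x, fun i j hij => ?_⟩
  by_contra hne
  exact hx3 i j hne hij

end seed

/-! ### The bridge theorems -/

section bridge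

variable {𝒢 : Subgroup (GL (Fin 2) ℝ)} [𝒢.IsArithmetic] [𝒢.HasDetOne]

omit [𝒢.IsArithmetic] [𝒢.HasDetOne] in
/-- Translates of an expansion in a free basis. -/
theorem tr_expansion {V : ℤ → Submodule ℂ (ℍ → ℂ)} {J : Type} [Fintype J] {κ : J → ℤ}
    {F : J → ℍ → ℂ} (hF : IsFreeBasis V κ F) {k : ℤ} {f : ℍ → ℂ} (hf : f ∈ V k) :
    ∃ P : J → ℍ → ℂ, ∀ q : Q 𝒢, tr 𝒢 k f q = ∑ j, P j * tr 𝒢 (κ j) (F j) q := by
  obtain ⟨P, ⟨hP, hfP⟩, -⟩ := hF.2 k f hf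
  refine ⟨P, fun q => ?_⟩
  rw [hfP, tr_sum]
  refine Finset.sum_congr rfl fun j _ => ?_
  rw [tr_congr (show k = (k - κ j) + κ j by ring), tr_RR_mul (hP j)]

/-- **(B1)** Any finite free basis of `MFG 𝒢` plus the seed form give `Stmt_Basis` for
`MFG 𝒢`. -/
theorem stmt_BasisM_of_free {N : ℕ} (hG : GoodLevel 𝒢 N) (hseed : Seed 𝒢) {J : Type}
    [Fintype J] {κ : J → ℤ} {F : J → ℍ → ℂ} (hF : IsFreeBasis (MFG 𝒢) κ F) :
    Stmt_Basis 𝒢 (MFG 𝒢) := by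
  classical
  obtain ⟨k₀, h, hh, hstab⟩ := hseed
  have hinj := tr_injective_of_stab hstab
  have hhol : ∀ q : Q 𝒢, MDiff (tr 𝒢 k₀ h q) := by
    obtain ⟨H, rfl⟩ := hh
    exact fun q => MDifferentiable.slash H.holo' _ _
  obtain ⟨z₀, hz₀⟩ := exists_injective_point (fun q : Q 𝒢 => tr 𝒢 k₀ h q) hhol hinj
  let e : Q 𝒢 ≃ Fin (Fintype.card (Q 𝒢)) := Fintype.equivFin _
  have hexp : ∀ n : ℕ, ∃ A : J → ℍ → ℂ, ∀ q : Q 𝒢,
      (tr 𝒢 k₀ h q) ^ n = ∑ j, A j * tr 𝒢 (κ j) (F j) q := by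
    intro n
    obtain ⟨kn, h1, h2⟩ := exists_pow_MFG hG.le hh n
    obtain ⟨P, hP⟩ := tr_expansion (𝒢 := 𝒢) hF h1
    exact ⟨P, fun q => by rw [← h2, hP]⟩
  choose A hA using hexp
  let Amat : Matrix J (Q 𝒢) ℂ := Matrix.of fun j q' => A (e q') j z₀
  have hprod : transMatrix 𝒢 κ F z₀ * Amat =
      (Matrix.vandermonde (fun i => tr 𝒢 k₀ h (e.symm i) z₀)).submatrix e e := by
    ext q q'
    have h1 := congrFun (hA (e q') q) z₀
    simp only [Pi.pow_apply, Finset.sum_apply, Pi.mul_apply] at h1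
    simp only [Matrix.mul_apply, transMatrix, Matrix.of_apply, Amat, Matrix.submatrix_apply,
      Matrix.vandermonde_apply, Equiv.symm_apply_apply]
    rw [h1]
    exact Finset.sum_congr rfl fun j _ => mul_comm _ _
  refine stmt_Basis_of_det_ne_zero (goodV_MFG hG.le) hF z₀ Amat ?_
  rw [hprod, Matrix.det_submatrix_equiv_self, Matrix.det_vandermonde_ne_zero_iff]
  exact fun i i' hii' => e.symm.injective (hz₀ hii')

/-- **(B2)** `Stmt_Basis` for `MFG 𝒢` plus any finite free basis of `CFG 𝒢` give `Stmt_Basis`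
for `CFG 𝒢`. -/
theorem stmt_BasisS_of_free {N : ℕ} (hG : GoodLevel 𝒢 N) (hM : Stmt_Basis 𝒢 (MFG 𝒢))
    {L : Type} [Fintype L] {κ' : L → ℤ} {G : L → ℍ → ℂ} (hGb : IsFreeBasis (CFG 𝒢) κ' G) :
    Stmt_Basis 𝒢 (CFG 𝒢) := by
  classical
  obtain ⟨κ, F, hF, z₀, hz₀⟩ := hM
  have hΔ : (⇑CuspForm.discriminant : ℍ → ℂ) ∈ RR 12 :=
    CFG_le_MFG 12 ⟨CuspForm.discriminant, rfl⟩
  have hexp : ∀ j : Q 𝒢, ∃ B : L → ℍ → ℂ, ∀ q : Q 𝒢,
      (⇑CuspForm.discriminant : ℍ → ℂ) * tr 𝒢 (κ j) (F j) q =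
        ∑ l, B l * tr 𝒢 (κ' l) (G l) q := by
    intro j
    obtain ⟨P, hP⟩ := tr_expansion (𝒢 := 𝒢) hGb (delta_mul_mem_CFG hG.le (hF.1 j))
    exact ⟨P, fun q => by rw [← hP, tr_RR_mul hΔ]⟩
  choose B hB using hexp
  let Bmat : Matrix L (Q 𝒢) ℂ := Matrix.of fun l j => B j l z₀
  have hprod : transMatrix 𝒢 κ' G z₀ * Bmat =
      (CuspForm.discriminant z₀) • transMatrix 𝒢 κ F z₀ := by
    ext q j
    have h1 := congrFun (hB j q) z₀
    simp only [Finset.sum_apply, Pi.mul_apply] at h1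
    simp only [Matrix.mul_apply, transMatrix, Matrix.of_apply, Bmat, Matrix.smul_apply,
      smul_eq_mul]
    rw [h1]
    exact Finset.sum_congr rfl fun l _ => mul_comm _ _
  refine stmt_Basis_of_det_ne_zero (goodV_CFG hG.le) hGb z₀ Bmat ?_
  rw [hprod, Matrix.det_smul]
  refine mul_ne_zero (pow_ne_zero _ (ModularForm.discriminant_ne_zero z₀)) ?_
  unfold fundDet at hz₀
  convert hz₀

/-- Goal-level wrapper for `MFG`: existence of finite free bases gives `Goal_BasisM`. -/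
theorem goal_BasisM_of_free
    (hfree : ∀ (𝒢 : Subgroup (GL (Fin 2) ℝ)) [𝒢.IsArithmetic] [𝒢.HasDetOne] (N : ℕ),
      GoodLevel 𝒢 N → ∃ (J : Type) (_ : Fintype J) (κ : J → ℤ) (F : J → ℍ → ℂ),
        IsFreeBasis (MFG 𝒢) κ F) : Goal_BasisM := by
  intro 𝒢 _ _ N hG hseed
  obtain ⟨J, _, κ, F, hF⟩ := hfree 𝒢 N hG
  exact stmt_BasisM_of_free hG hseed hF

/-- Goal-level wrapper for `CFG`: `Goal_BasisM` and existence of finite free bases of the
cusp form modules give `Goal_BasisS`. -/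
theorem goal_BasisS_of_free (hM : Goal_BasisM)
    (hfree : ∀ (𝒢 : Subgroup (GL (Fin 2) ℝ)) [𝒢.IsArithmetic] [𝒢.HasDetOne] (N : ℕ),
      GoodLevel 𝒢 N → ∃ (L : Type) (_ : Fintype L) (κ : L → ℤ) (G : L → ℍ → ℂ),
        IsFreeBasis (CFG 𝒢) κ G) : Goal_BasisS := by
  intro 𝒢 _ _ N hG hseed
  obtain ⟨L, _, κ, G, hGb⟩ := hfree 𝒢 N hG
  exact stmt_BasisS_of_free hG (hM 𝒢 N hG hseed) hGb

end bridge

end

end Fermat.Agent.S20.helper3386
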