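import Fermat.Agent.S20.helper34_Index
import Fermat.Agent.S20.helper560_Spec

/-!
# `Goal_Index` of the S20 spec `helper560_Spec`

`mu (G0 N) = dedekindPsi N`, from `Fermat.Agent.S20.helper34.card_quotient_Gamma0`.
-/

set_option autoImplicit false

namespace Fermat.Agent.S20.helper34

/-- `Goal_Index` of `helper560_Spec`: the index of `Γ₀(N)` is `ψ(N)`. -/
theorem goal_Index : Fermat.Agent.S20.helper560.Goal_Index :=
  fun N _ => card_quotient_Gamma0 N

end Fermat.Agent.S20.helper34
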