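import Fermat.Agent.S20.helper34_Index
import Fermat.Agent.S20.helper20_Spec

/-!
# `Stmt_Index` of the S20 spec `helper20_Spec`
-/

set_option autoImplicit false

namespace Fermat.Agent.S20.helper34

/-- `Stmt_Index N` of `helper20_Spec`: the index of `Γ₀(N)` is `ψ(N)`. -/
theorem stmt_Index_20 (N : ℕ) [NeZero N] : Fermat.Agent.S20.helper20.Stmt_Index N :=
  card_quotient_Gamma0 N

end Fermat.Agent.S20.helper34
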