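import Fermat.Agent.S20.helper1040_Spec
import Fermat.Agent.S20.helper2600_Counts
import Fermat.Agent.S24.helper227_CuspCount

/-!
# SPEC-G9 (board row 299): the four counting statements of `helper1040_Spec` for `Γ₀(N)`

* `stmt_EllTwo N : Stmt_EllTwo N`     (from `helper2600.card_fixedBy_S`)
* `stmt_EllThree N : Stmt_EllThree N` (from `helper2600.card_fixedBy_ST`)
* `stmt_CuspNum N : Stmt_CuspNum N`   (from `S24.helper227.card_orbits_T`)
* `stmt_Index_of` : `Stmt_Index N` is literally `(Gamma0 N).index = dedekindPsi N`.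
-/

set_option autoImplicit false

open scoped MatrixGroups
open CongruenceSubgroup

namespace Fermat.Agent.S20.helper3724

open Fermat.Agent.S20.helper1040

/-- `#Fix(S) = nuTwo N` in the shape of `helper1040_Spec`. -/
theorem stmt_EllTwo (N : ℕ) [NeZero N] : Stmt_EllTwo N := by
  unfold Stmt_EllTwo ellTwo
  exact Fermat.Agent.S20.helper2600.card_fixedBy_S N

/-- `#Fix(S * T) = nuThree N` in the shape of `helper1040_Spec`. -/
theorem stmt_EllThree (N : ℕ) [NeZero N] : Stmt_EllThree N := by
  unfold Stmt_EllThree ellThree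
  exact Fermat.Agent.S20.helper2600.card_fixedBy_ST N

/-- `#T-orbits = cuspCount N` in the shape of `helper1040_Spec`. -/
theorem stmt_CuspNum (N : ℕ) [NeZero N] : Stmt_CuspNum N := by
  unfold Stmt_CuspNum cuspNum
  exact Fermat.Agent.S24.helper227.card_orbits_T N

/-- `Stmt_Index N` is by definition the index formula. -/
theorem stmt_Index_of (N : ℕ) (h : (Gamma0 N).index = ModularCurve.dedekindPsi N) :
    Stmt_Index N := h

end Fermat.Agent.S20.helper3724
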