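import Mathlib

set_option autoImplicit false

namespace Fermat.Agent.S20.helper376

open UpperHalfPlane ModularForm SlashInvariantForm Filter Topology Matrix.SpecialLinearGroup
open scoped MatrixGroups ModularForm Manifold

noncomputable section

variable {𝒢 : Subgroup (GL (Fin 2) ℝ)}

local notation "𝒬" => 𝒮ℒ ⧸ (𝒢.subgroupOf 𝒮ℒ)

local notation "Δ" => ModularForm.discriminant

/-- Transformation law of the translates `quotientFunc f q` under `h ∈ 𝒮ℒ`. -/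
theorem quotientFunc_smul_apply {F : Type*} [FunLike F ℍ ℂ] {k : ℤ} [SlashInvariantFormClass F 𝒢 k]
    (f : F) (h : 𝒮ℒ) (q : 𝒬) (z : ℍ) :
    quotientFunc f q ((h : GL (Fin 2) ℝ) • z)
      = denom (h : GL (Fin 2) ℝ) z ^ k * quotientFunc f (h⁻¹ • q) z := by
  have h1 := congrFun (quotientFunc_smul f h.2 q) z
  rw [ModularForm.slash_apply] at h1
  obtain ⟨γ, hγ⟩ := h.2
  have hσ : σ (h : GL (Fin 2) ℝ) = ContinuousAlgEquiv.refl ℝ ℂ := by
    rw [← hγ]; simp [σ]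
  have hdet : |(h : GL (Fin 2) ℝ).det.val| = 1 := by
    rw [← hγ]; simp
  rw [hσ, hdet] at h1
  have hd : denom (h : GL (Fin 2) ℝ) z ≠ 0 := denom_ne_zero _ z
  have h2 : quotientFunc f q ((h : GL (Fin 2) ℝ) • z) * denom (h : GL (Fin 2) ℝ) z ^ (-k)
      = quotientFunc f (h⁻¹ • q) z := by
    simpa using h1
  rw [← h2, mul_comm, mul_assoc, ← zpow_add₀ hd, neg_add_cancel, zpow_zero, mul_one]

/-- The fundamental matrix `Φ(z) = (F_j|γ_q⁻¹ (z))_{q,j}` of a family of modular forms indexed by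
the coset space. -/
def fundMatrix (k : 𝒬 → ℤ) (F : (j : 𝒬) → ModularForm 𝒢 (k j)) (z : ℍ) : Matrix 𝒬 𝒬 ℂ :=
  Matrix.of fun q j => quotientFunc (F j) q z

theorem fundMatrix_apply (k : 𝒬 → ℤ) (F : (j : 𝒬) → ModularForm 𝒢 (k j)) (z : ℍ) (q j : 𝒬) :
    fundMatrix k F z q j = quotientFunc (F j) q z := rfl

theorem fundMatrix_smul (k : 𝒬 → ℤ) (F : (j : 𝒬) → ModularForm 𝒢 (k j)) (h : 𝒮ℒ) (z : ℍ)
    (q j : 𝒬) :
    fundMatrix k F ((h : GL (Fin 2) ℝ) • z) q j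
      = denom (h : GL (Fin 2) ℝ) z ^ (k j) * fundMatrix k F z (h⁻¹ • q) j := by
  rw [fundMatrix_apply, fundMatrix_apply, quotientFunc_smul_apply]

/-- Transformation law of the inverse of the fundamental matrix. -/
theorem fundMatrix_inv_smul [Fintype 𝒬] [DecidableEq 𝒬] (k : 𝒬 → ℤ) (F : (j : 𝒬) → ModularForm 𝒢 (k j)) (h : 𝒮ℒ) (z : ℍ)
    (hz : (fundMatrix k F z).det ≠ 0) (l q : 𝒬) :
    (fundMatrix k F ((h : GL (Fin 2) ℝ) • z))⁻¹ l q
      = denom (h : GL (Fin 2) ℝ) z ^ (-(k l)) * (fundMatrix k F z)⁻¹ l (h⁻¹ • q) := by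
  set A := fundMatrix k F z with hA
  set B := fundMatrix k F ((h : GL (Fin 2) ℝ) • z) with hB
  set d := denom (h : GL (Fin 2) ℝ) z with hd
  have hd0 : d ≠ 0 := denom_ne_zero _ z
  have hAu : IsUnit A.det := isUnit_iff_ne_zero.mpr hz
  have key : (Matrix.of fun l q => d ^ (-(k l)) * A⁻¹ l (h⁻¹ • q)) * B = 1 := by
    ext l j
    rw [Matrix.mul_apply]
    have hsum : ∑ q, (Matrix.of fun l q => d ^ (-(k l)) * A⁻¹ l (h⁻¹ • q)) l q * B q j
        = d ^ (-(k l)) * d ^ (k j) * ∑ q, A⁻¹ l (h⁻¹ • q) * A (h⁻¹ • q) j := by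
      rw [Finset.mul_sum]
      refine Finset.sum_congr rfl fun q _ => ?_
      rw [Matrix.of_apply, hB, fundMatrix_smul, ← hA, ← hd]
      ring
    rw [hsum]
    have hre : ∑ q, A⁻¹ l (h⁻¹ • q) * A (h⁻¹ • q) j = ∑ q, A⁻¹ l q * A q j :=
      Equiv.sum_comp (MulAction.toPerm (h⁻¹ : 𝒮ℒ)) (fun q => A⁻¹ l q * A q j)
    rw [hre, ← Matrix.mul_apply, Matrix.nonsing_inv_mul A hAu, Matrix.one_apply]
    by_cases hlj : l = j
    · subst hlj
      rw [if_pos rfl, mul_one, ← zpow_add₀ hd0, neg_add_cancel, zpow_zero]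
    · rw [if_neg hlj, mul_zero]
  rw [Matrix.inv_eq_left_inv key, Matrix.of_apply]

/-- The slash action of `mapGL ℝ γ`, `γ ∈ SL(2, ℤ)`, evaluated at a point. -/
theorem slash_mapGL_apply (f : ℍ → ℂ) (w : ℤ) (γ : SL(2, ℤ)) (z : ℍ) :
    (f ∣[w] (mapGL ℝ γ)) z = f ((mapGL ℝ γ) • z) * denom (mapGL ℝ γ) z ^ (-w) := by
  rw [ModularForm.slash_apply]
  simp [σ]

/-- `Δ(γ z) = (cz+d)^12 Δ(z)` for `γ ∈ SL(2, ℤ)`. -/
theorem discriminant_smul (γ : SL(2, ℤ)) (z : ℍ) :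
    Δ ((mapGL ℝ γ) • z) = denom (mapGL ℝ γ) z ^ (12 : ℤ) * Δ z := by
  have h1 : (⇑CuspForm.discriminant ∣[(12 : ℤ)] (mapGL ℝ γ)) = ⇑CuspForm.discriminant :=
    SlashInvariantFormClass.slash_action_eq CuspForm.discriminant (mapGL ℝ γ) ⟨γ, rfl⟩
  have h2 := congrFun h1 z
  rw [CuspForm.coe_discriminant, slash_mapGL_apply] at h2
  have hd : denom (mapGL ℝ γ) z ≠ 0 := denom_ne_zero _ z
  rw [← h2, mul_comm, mul_assoc, ← zpow_add₀ hd, neg_add_cancel, zpow_zero, mul_one]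

/-- The entries of `Δ · Φ⁻¹`. -/
def dualFun [Fintype 𝒬] [DecidableEq 𝒬] (k : 𝒬 → ℤ) (F : (j : 𝒬) → ModularForm 𝒢 (k j))
    (l q : 𝒬) : ℍ → ℂ :=
  fun z => Δ z * (fundMatrix k F z)⁻¹ l q

/-- The element of `𝒮ℒ` attached to `γ ∈ SL(2, ℤ)`. -/
def toSL (γ : SL(2, ℤ)) : 𝒮ℒ := ⟨mapGL ℝ γ, γ, rfl⟩

theorem dualFun_slash [Fintype 𝒬] [DecidableEq 𝒬] (k : 𝒬 → ℤ)
    (F : (j : 𝒬) → ModularForm 𝒢 (k j)) (hdet : ∀ z, (fundMatrix k F z).det ≠ 0)
    (l q : 𝒬) (w : ℤ) (hw : w = 12 - k l) (γ : SL(2, ℤ)) :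
    dualFun k F l q ∣[w] (mapGL ℝ γ) = dualFun k F l ((toSL γ)⁻¹ • q) := by
  ext z
  rw [slash_mapGL_apply]
  have hd : denom (mapGL ℝ γ) z ≠ 0 := denom_ne_zero _ z
  have h1 : (fundMatrix k F ((mapGL ℝ γ) • z))⁻¹ l q
      = denom (mapGL ℝ γ) z ^ (-(k l)) * (fundMatrix k F z)⁻¹ l ((toSL γ)⁻¹ • q) :=
    fundMatrix_inv_smul k F (toSL γ) z (hdet z) l q
  simp only [dualFun]
  rw [h1, discriminant_smul, hw]
  have e : denom (mapGL ℝ γ) z ^ (12 : ℤ) * denom (mapGL ℝ γ) z ^ (-(k l))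
      * denom (mapGL ℝ γ) z ^ (-(12 - k l)) = 1 := by
    rw [← zpow_add₀ hd, ← zpow_add₀ hd]
    have : (12 : ℤ) + -(k l) + -(12 - k l) = 0 := by ring
    rw [this, zpow_zero]
  linear_combination (Δ z * (fundMatrix k F z)⁻¹ l ((toSL γ)⁻¹ • q)) * e

theorem differentiableOn_det {n : Type*} [Fintype n] [DecidableEq n] {U : Set ℂ}
    (M : ℂ → Matrix n n ℂ) (hM : ∀ i j, DifferentiableOn ℂ (fun w => M w i j) U) :
    DifferentiableOn ℂ (fun w => (M w).det) U := by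
  simp_rw [Matrix.det_apply']
  exact DifferentiableOn.fun_sum fun σ _ =>
    (differentiableOn_const _).mul (DifferentiableOn.fun_finsetProd fun i _ => hM (σ i) i)

theorem differentiableOn_inv_apply {n : Type*} [Fintype n] [DecidableEq n] {U : Set ℂ}
    (M : ℂ → Matrix n n ℂ) (hM : ∀ i j, DifferentiableOn ℂ (fun w => M w i j) U)
    (hdet : ∀ w ∈ U, (M w).det ≠ 0) (i j : n) :
    DifferentiableOn ℂ (fun w => (M w)⁻¹ i j) U := by
  have h1 : (fun w => (M w)⁻¹ i j)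
      = fun w => ((M w).det)⁻¹ * ((M w).updateRow j (Pi.single i 1)).det := by
    funext w
    rw [Matrix.inv_def, Matrix.smul_apply, Matrix.adjugate_apply, smul_eq_mul,
      Ring.inverse_eq_inv']
  rw [h1]
  refine ((differentiableOn_det M hM).inv hdet).mul (differentiableOn_det _ fun a b => ?_)
  by_cases ha : a = j
  · subst ha
    simp only [Matrix.updateRow_self]
    exact differentiableOn_const _
  · simp only [Matrix.updateRow_ne ha]
    exact hM a b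

theorem mdifferentiable_quotientFunc {k : ℤ} (f : ModularForm 𝒢 k) (q : 𝒬) :
    MDiff (quotientFunc f q) := by
  induction q using Quotient.inductionOn with
  | h r => exact (ModularFormClass.holo f).slash k _

theorem mdifferentiable_dualFun [Fintype 𝒬] [DecidableEq 𝒬] (k : 𝒬 → ℤ)
    (F : (j : 𝒬) → ModularForm 𝒢 (k j)) (hdet : ∀ z, (fundMatrix k F z).det ≠ 0) (l q : 𝒬) :
    MDiff (dualFun k F l q) := by
  rw [UpperHalfPlane.mdifferentiable_iff]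
  have hΔ : DifferentiableOn ℂ (Δ ∘ ofComplex) {z | 0 < z.im} :=
    UpperHalfPlane.mdifferentiable_iff.mp (CuspFormClass.holo CuspForm.discriminant)
  have hM : ∀ i j, DifferentiableOn ℂ (fun w => fundMatrix k F (ofComplex w) i j)
      {z | 0 < z.im} := fun i j =>
    UpperHalfPlane.mdifferentiable_iff.mp (mdifferentiable_quotientFunc (F j) i)
  exact hΔ.mul (differentiableOn_inv_apply _ hM (fun w _ => hdet _) l q)

/-- The coset of the identity. -/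
def baseCoset : 𝒬 := QuotientGroup.mk (1 : 𝒮ℒ)

theorem toSL_inv_smul_baseCoset {γ : SL(2, ℤ)} (hγ : mapGL ℝ γ ∈ 𝒢) :
    (toSL γ)⁻¹ • (baseCoset : 𝒬) = baseCoset := by
  show (QuotientGroup.mk ((toSL γ)⁻¹ * 1) : 𝒬) = QuotientGroup.mk 1
  rw [QuotientGroup.eq]
  simp only [mul_one, inv_inv]
  exact Subgroup.mem_subgroupOf.mpr hγ

/-- The rows of `Δ · Φ⁻¹` are (translates of) cusp forms of weight `12 - k l`. -/
def dualCuspForm [𝒢.IsArithmetic] (h𝒢 : 𝒢 ≤ 𝒮ℒ) [Fintype 𝒬] [DecidableEq 𝒬] (k : 𝒬 → ℤ)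
    (F : (j : 𝒬) → ModularForm 𝒢 (k j)) (hdet : ∀ z, (fundMatrix k F z).det ≠ 0)
    (hcusp : ∀ l q, IsZeroAtImInfty (dualFun k F l q)) (l : 𝒬) (w : ℤ) (hw : w = 12 - k l) :
    CuspForm 𝒢 w where
  toFun := dualFun k F l baseCoset
  slash_action_eq' γ hγ := by
    obtain ⟨g, rfl⟩ := h𝒢 hγ
    rw [dualFun_slash k F hdet l _ w hw g, toSL_inv_smul_baseCoset hγ]
  holo' := mdifferentiable_dualFun k F hdet l _
  zero_at_cusps' hc := by
    rw [Subgroup.IsArithmetic.isCusp_iff_isCusp_SL2Z] at hc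
    rw [OnePoint.isZeroAt_iff_forall_SL2Z hc]
    intro γ _
    show IsZeroAtImInfty (dualFun k F l baseCoset ∣[w] (mapGL ℝ γ))
    rw [dualFun_slash k F hdet l _ w hw γ]
    exact hcusp _ _

theorem coe_dualCuspForm [𝒢.IsArithmetic] (h𝒢 : 𝒢 ≤ 𝒮ℒ) [Fintype 𝒬] [DecidableEq 𝒬] (k : 𝒬 → ℤ)
    (F : (j : 𝒬) → ModularForm 𝒢 (k j)) (hdet : ∀ z, (fundMatrix k F z).det ≠ 0)
    (hcusp : ∀ l q, IsZeroAtImInfty (dualFun k F l q)) (l : 𝒬) (w : ℤ) (hw : w = 12 - k l) :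
    ⇑(dualCuspForm h𝒢 k F hdet hcusp l w hw) = dualFun k F l baseCoset := rfl

/-- The translates of the dual cusp forms are the entries of `Δ · Φ⁻¹`. -/
theorem quotientFunc_dualCuspForm [𝒢.IsArithmetic] (h𝒢 : 𝒢 ≤ 𝒮ℒ) [Fintype 𝒬] [DecidableEq 𝒬]
    (k : 𝒬 → ℤ)
    (F : (j : 𝒬) → ModularForm 𝒢 (k j)) (hdet : ∀ z, (fundMatrix k F z).det ≠ 0)
    (hcusp : ∀ l q, IsZeroAtImInfty (dualFun k F l q)) (l : 𝒬) (w : ℤ) (hw : w = 12 - k l)
    (q : 𝒬) :
    quotientFunc (dualCuspForm h𝒢 k F hdet hcusp l w hw) q = dualFun k F l q := by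
  induction q using Quotient.inductionOn with
  | h r =>
    obtain ⟨g, hg⟩ := r.2
    rw [quotientFunc_mk, coe_dualCuspForm]
    have h1 : (r : GL (Fin 2) ℝ)⁻¹ = mapGL ℝ g⁻¹ := by
      rw [← hg, map_inv]
    rw [h1, dualFun_slash k F hdet l _ w hw g⁻¹]
    congr 1
    have h2 : (toSL g⁻¹)⁻¹ = r := by
      apply Subtype.ext
      simp [toSL, ← hg]
    rw [h2]
    show (QuotientGroup.mk (r * 1) : 𝒬) = _
    rw [mul_one]

/-- `(Δ Φ⁻¹) Φ = Δ`. -/
theorem sum_dualFun_mul_fundMatrix [Fintype 𝒬] [DecidableEq 𝒬] (k : 𝒬 → ℤ)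
    (F : (j : 𝒬) → ModularForm 𝒢 (k j)) (z : ℍ) (hz : (fundMatrix k F z).det ≠ 0) (l j : 𝒬) :
    ∑ q, dualFun k F l q z * fundMatrix k F z q j = if l = j then Δ z else 0 := by
  have h1 : ∑ q, dualFun k F l q z * fundMatrix k F z q j
      = Δ z * ((fundMatrix k F z)⁻¹ * fundMatrix k F z) l j := by
    rw [Matrix.mul_apply, Finset.mul_sum]
    refine Finset.sum_congr rfl fun q _ => ?_
    simp only [dualFun]
    ring
  rw [h1, Matrix.nonsing_inv_mul _ (isUnit_iff_ne_zero.mpr hz), Matrix.one_apply]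
  split_ifs <;> simp

/-- `Φ (Δ Φ⁻¹) = Δ`. -/
theorem sum_fundMatrix_mul_dualFun [Fintype 𝒬] [DecidableEq 𝒬] (k : 𝒬 → ℤ)
    (F : (j : 𝒬) → ModularForm 𝒢 (k j)) (z : ℍ) (hz : (fundMatrix k F z).det ≠ 0) (q q' : 𝒬) :
    ∑ j, fundMatrix k F z q j * dualFun k F j q' z = if q = q' then Δ z else 0 := by
  have h1 : ∑ j, fundMatrix k F z q j * dualFun k F j q' z
      = Δ z * (fundMatrix k F z * (fundMatrix k F z)⁻¹) q q' := by
    rw [Matrix.mul_apply, Finset.mul_sum]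
    refine Finset.sum_congr rfl fun j _ => ?_
    simp only [dualFun]
    ring
  rw [h1, Matrix.mul_nonsing_inv _ (isUnit_iff_ne_zero.mpr hz), Matrix.one_apply]
  split_ifs <;> simp

/-- Reconstruction: a vector `h` is recovered from its pairings `b j = ∑ q, Φ q j * h q` with the
columns of `Φ` through the dual family. -/
theorem sum_pairing_mul_dualFun [Fintype 𝒬] [DecidableEq 𝒬] (k : 𝒬 → ℤ)
    (F : (j : 𝒬) → ModularForm 𝒢 (k j)) (z : ℍ) (hz : (fundMatrix k F z).det ≠ 0)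
    (h : 𝒬 → ℂ) (q' : 𝒬) :
    ∑ j, (∑ q, fundMatrix k F z q j * h q) * dualFun k F j q' z = Δ z * h q' := by
  have h1 : ∑ j, (∑ q, fundMatrix k F z q j * h q) * dualFun k F j q' z
      = ∑ q, h q * ∑ j, fundMatrix k F z q j * dualFun k F j q' z := by
    simp_rw [Finset.sum_mul, Finset.mul_sum]
    rw [Finset.sum_comm]
    refine Finset.sum_congr rfl fun q _ => Finset.sum_congr rfl fun j _ => ?_
    ring
  rw [h1]
  simp_rw [sum_fundMatrix_mul_dualFun k F z hz]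
  simp [mul_comm]

/-- The rows of `Δ Φ⁻¹` are linearly independent at every point. -/
theorem eq_zero_of_sum_mul_dualFun [Fintype 𝒬] [DecidableEq 𝒬] (k : 𝒬 → ℤ)
    (F : (j : 𝒬) → ModularForm 𝒢 (k j)) (z : ℍ) (hz : (fundMatrix k F z).det ≠ 0)
    (c : 𝒬 → ℂ) (hc : ∀ q, ∑ j, c j * dualFun k F j q z = 0) : c = 0 := by
  funext l
  have h1 : ∑ q, (∑ j, c j * dualFun k F j q z) * fundMatrix k F z q l = c l * Δ z := by
    have : ∑ q, (∑ j, c j * dualFun k F j q z) * fundMatrix k F z q l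
        = ∑ j, c j * ∑ q, dualFun k F j q z * fundMatrix k F z q l := by
      simp_rw [Finset.sum_mul, Finset.mul_sum]
      rw [Finset.sum_comm]
      refine Finset.sum_congr rfl fun q _ => Finset.sum_congr rfl fun j _ => ?_
      ring
    rw [this]
    simp_rw [sum_dualFun_mul_fundMatrix k F z hz]
    simp
  simp_rw [hc, zero_mul, Finset.sum_const_zero] at h1
  have hΔ : Δ z ≠ 0 := ModularForm.discriminant_ne_zero z
  simpa [hΔ] using h1.symm

end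

end Fermat.Agent.S20.helper376
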