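/-
S20, helper560 Spec: the ALGEBRAIC half of `Goal_Dual` (seat helper376).

`goal_Dual_of_decay : Goal_Hilbert → Goal_Basic → Goal_RRdim → Goal_Decay → Goal_Dual`,
where `Goal_Decay` is the cusp decay `Δ · Φ⁻¹ → 0` at `i∞` of the inverse fundamental matrix of a
free basis of `MFG 𝒢`.  Proof: the rows of `Δ · Φ⁻¹` are translates of cusp forms `H_l` of weight
`12 - κ l` (file `helper376_Dual`), the `H_l` form a free basis of `CFG 𝒢` (span: trace to level
one and division by `Δ`; uniqueness: invertibility of `Φ`), and two free bases of `CFG 𝒢` have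
the same weights up to a permutation (comparison of Hilbert functions).
-/
import Fermat.Agent.S20.helper376_Dual
import Fermat.Agent.S20.helper560_Spec

set_option autoImplicit false

namespace Fermat.Agent.S20.helper376

open UpperHalfPlane ModularForm SlashInvariantForm Filter Topology Matrix.SpecialLinearGroup
open scoped MatrixGroups ModularForm Manifold
open Fermat.Agent.S20.helper560

noncomputable section

local notation "Δ" => ModularForm.discriminant

/-- Two finite families of integers with the same "Hilbert function" (for a weight function `r`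
with `r m = 0` for `m < 0` and `r 0 = 1`) have the same fibres. -/
theorem card_fiber_eq_of_hilbert {J : Type*} [Fintype J] (r : ℤ → ℕ)
    (hr_neg : ∀ m, m < 0 → r m = 0) (hr0 : r 0 = 1) (a b : J → ℤ)
    (h : ∀ k, ∑ j, r (k - a j) = ∑ j, r (k - b j)) (m : ℤ) :
    (Finset.univ.filter (fun j => a j = m)).card = (Finset.univ.filter (fun j => b j = m)).card := by
  classical
  -- a common lower bound
  obtain ⟨L, hLa, hLb⟩ : ∃ L : ℤ, (∀ j, L ≤ a j) ∧ (∀ j, L ≤ b j) := by
    refine ⟨-(∑ j, (|a j| + |b j|)), fun j => ?_, fun j => ?_⟩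
    · have h1 : |a j| + |b j| ≤ ∑ j, (|a j| + |b j|) :=
        Finset.single_le_sum (f := fun j => |a j| + |b j|) (fun i _ => by positivity)
          (Finset.mem_univ j)
      have h2 := neg_abs_le (a j)
      have h3 := abs_nonneg (b j)
      linarith
    · have h1 : |a j| + |b j| ≤ ∑ j, (|a j| + |b j|) :=
        Finset.single_le_sum (f := fun j => |a j| + |b j|) (fun i _ => by positivity)
          (Finset.mem_univ j)
      have h2 := neg_abs_le (b j)
      have h3 := abs_nonneg (a j)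
      linarith
  -- expansion of the Hilbert function along the fibres
  have expand : ∀ (c : J → ℤ), (∀ j, L ≤ c j) → ∀ n : ℕ,
      ∑ j, r (L + n - c j)
        = ∑ i ∈ Finset.range (n + 1),
            (Finset.univ.filter (fun j => c j = L + i)).card * r ((n : ℤ) - i) := by
    intro c hc n
    have h1 : ∀ j, r (L + n - c j)
        = ∑ i ∈ Finset.range (n + 1), if c j = L + i then r ((n : ℤ) - i) else 0 := by
      intro j
      by_cases hj : c j ≤ L + n
      · obtain ⟨i, hi⟩ : ∃ i : ℕ, c j = L + i := ⟨(c j - L).toNat, by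
          have := hc j
          omega⟩
        have hin : i ∈ Finset.range (n + 1) := by
          rw [Finset.mem_range]
          omega
        rw [Finset.sum_eq_single_of_mem i hin]
        · rw [if_pos hi, hi]
          congr 1
          ring
        · intro i' _ hne
          rw [if_neg]
          intro h'
          apply hne
          omega
      · rw [hr_neg _ (by omega)]
        symm
        apply Finset.sum_eq_zero
        intro i hi
        rw [Finset.mem_range] at hi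
        rw [if_neg]
        intro h'
        omega
    simp_rw [h1]
    rw [Finset.sum_comm]
    refine Finset.sum_congr rfl fun i _ => ?_
    rw [← Finset.sum_filter, Finset.sum_const, smul_eq_mul]
  -- strong induction
  have key : ∀ n : ℕ, (Finset.univ.filter (fun j => a j = L + n)).card
      = (Finset.univ.filter (fun j => b j = L + n)).card := by
    intro n
    induction n using Nat.strong_induction_on with
    | _ n ih =>
      have e := h (L + n)
      rw [expand a hLa n, expand b hLb n, Finset.sum_range_succ, Finset.sum_range_succ] at e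
      have e2 : ∑ i ∈ Finset.range n,
            (Finset.univ.filter (fun j => a j = L + i)).card * r ((n : ℤ) - i)
          = ∑ i ∈ Finset.range n,
            (Finset.univ.filter (fun j => b j = L + i)).card * r ((n : ℤ) - i) := by
        refine Finset.sum_congr rfl fun i hi => ?_
        rw [ih i (Finset.mem_range.mp hi)]
      rw [e2, sub_self, hr0, mul_one, mul_one] at e
      exact Nat.add_left_cancel e
  by_cases hm : L ≤ m
  · obtain ⟨n, rfl⟩ : ∃ n : ℕ, m = L + n := ⟨(m - L).toNat, by omega⟩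
    exact key n
  · have ha : (Finset.univ.filter (fun j => a j = m)) = ∅ := by
      rw [Finset.filter_eq_empty_iff]
      intro j _ hj
      have := hLa j
      omega
    have hb : (Finset.univ.filter (fun j => b j = m)) = ∅ := by
      rw [Finset.filter_eq_empty_iff]
      intro j _ hj
      have := hLb j
      omega
    rw [ha, hb]

/-- Two finite families of integers with the same Hilbert function differ by a permutation. -/
theorem exists_equiv_of_hilbert {J : Type*} [Fintype J] (r : ℤ → ℕ)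
    (hr_neg : ∀ m, m < 0 → r m = 0) (hr0 : r 0 = 1) (a b : J → ℤ)
    (h : ∀ k, ∑ j, r (k - a j) = ∑ j, r (k - b j)) :
    ∃ σ : J ≃ J, ∀ j, b (σ j) = a j := by
  classical
  have hc : ∀ m : ℤ, Fintype.card {j // a j = m} = Fintype.card {j // b j = m} := by
    intro m
    rw [Fintype.card_subtype, Fintype.card_subtype]
    exact card_fiber_eq_of_hilbert r hr_neg hr0 a b h m
  refine ⟨Equiv.ofFiberEquiv (f := a) (g := b) fun m => Fintype.equivOfCardEq (hc m), fun j => ?_⟩
  exact Equiv.ofFiberEquiv_map _ j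

/-- Transformation law of a level one form under `h ∈ 𝒮ℒ`. -/
theorem levelOne_smul_apply {m : ℤ} (A : ModularForm 𝒮ℒ m) (h : 𝒮ℒ) (z : ℍ) :
    A ((h : GL (Fin 2) ℝ) • z) = denom (h : GL (Fin 2) ℝ) z ^ m * A z := by
  have h1 := congrFun (SlashInvariantFormClass.slash_action_eq A (h : GL (Fin 2) ℝ) h.2) z
  rw [ModularForm.slash_apply] at h1
  obtain ⟨γ, hγ⟩ := h.2
  have hσ : σ (h : GL (Fin 2) ℝ) = ContinuousAlgEquiv.refl ℝ ℂ := by
    rw [← hγ]; simp [σ]
  have hdet : |(h : GL (Fin 2) ℝ).det.val| = 1 := by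
    rw [← hγ]; simp
  rw [hσ, hdet] at h1
  have hd : denom (h : GL (Fin 2) ℝ) z ≠ 0 := denom_ne_zero _ z
  have h2 : A ((h : GL (Fin 2) ℝ) • z) * denom (h : GL (Fin 2) ℝ) z ^ (-m) = A z := by
    simpa using h1
  rw [← h2, mul_comm, mul_assoc, ← zpow_add₀ hd, neg_add_cancel, zpow_zero, mul_one]

variable {𝒢 : Subgroup (GL (Fin 2) ℝ)}

/-- The translates of a product are the products of the translates. -/
theorem quotientFunc_mulModularForm [𝒢.HasDetOne] {k₁ k₂ : ℤ} (f : CuspForm 𝒢 k₁)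
    (g : ModularForm 𝒢 k₂) (q : Q 𝒢) (z : ℍ) :
    quotientFunc (ℋ := 𝒮ℒ) (f.mulModularForm g) q z
      = quotientFunc (ℋ := 𝒮ℒ) f q z * quotientFunc (ℋ := 𝒮ℒ) g q z := by
  induction q using Quotient.inductionOn with
  | h r =>
    simp only [quotientFunc_mk]
    obtain ⟨γ, hγ⟩ := r.2
    have h1 : (r : GL (Fin 2) ℝ)⁻¹ = mapGL ℝ γ⁻¹ := by rw [← hγ, map_inv]
    rw [h1, CuspForm.coe_mulModularForm]
    exact congrFun (ModularForm.mul_slash_SL2 k₁ k₂ γ⁻¹ ⇑f ⇑g) z

theorem quotientFunc_baseCoset {F : Type*} [FunLike F ℍ ℂ] {k : ℤ} [SlashInvariantFormClass F 𝒢 k]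
    (f : F) (z : ℍ) : quotientFunc (ℋ := 𝒮ℒ) f (baseCoset : Q 𝒢) z = f z := by
  show quotientFunc (ℋ := 𝒮ℒ) f (⟦(1 : 𝒮ℒ)⟧ : Q 𝒢) z = f z
  rw [quotientFunc_mk]
  simp

/-- Every coset is a translate of the base coset. -/
theorem exists_inv_smul_baseCoset (q : Q 𝒢) : ∃ h : 𝒮ℒ, h⁻¹ • (baseCoset : Q 𝒢) = q := by
  induction q using Quotient.inductionOn with
  | h r =>
    refine ⟨r⁻¹, ?_⟩
    show (QuotientGroup.mk (r⁻¹⁻¹ * 1) : Q 𝒢) = _
    rw [inv_inv, mul_one]

/-- The dual family is a free basis of the cusp forms, with weights `12 - κ`. -/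
theorem dual_isFreeBasis [𝒢.IsArithmetic] [𝒢.HasDetOne] (h𝒢 : 𝒢 ≤ 𝒮ℒ) [DecidableEq (Q 𝒢)]
    (κ : Q 𝒢 → ℤ) (F : (j : Q 𝒢) → ModularForm 𝒢 (κ j))
    (hdet : ∀ z, (fundMatrix κ F z).det ≠ 0)
    (hcusp : ∀ l q, IsZeroAtImInfty (dualFun κ F l q)) :
    IsFreeBasis (CFG 𝒢) (fun l => 12 - κ l)
      (fun l => ⇑(dualCuspForm h𝒢 κ F hdet hcusp l (12 - κ l) rfl)) := by
  refine ⟨fun l => ⟨_, rfl⟩, fun k f hf => ?_⟩
  obtain ⟨f', rfl⟩ := hf
  -- the coefficients: traces of the products, divided by `Δ`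
  let T : (j : Q 𝒢) → CuspForm 𝒮ℒ (k + κ j) :=
    fun j => CuspForm.trace 𝒮ℒ (f'.mulModularForm (F j))
  let P : (j : Q 𝒢) → ModularForm 𝒮ℒ (k - (12 - κ j)) := fun j =>
    ModularForm.mcast (by ring) (CuspForm.discriminantEquiv (T j))
  have hT : ∀ j z, T j z = ∑ q, fundMatrix κ F z q j * quotientFunc (ℋ := 𝒮ℒ) f' q z := by
    intro j z
    show (⇑(CuspForm.trace 𝒮ℒ (f'.mulModularForm (F j)))) z = _
    rw [CuspForm.coe_trace, Finset.sum_apply]
    refine Finset.sum_congr rfl fun q _ => ?_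
    rw [quotientFunc_mulModularForm, fundMatrix_apply, mul_comm]
  have hΔ : ∀ z, Δ z ≠ 0 := ModularForm.discriminant_ne_zero
  have hP : ∀ j z, P j z = T j z / Δ z := by
    intro j z
    show (ModularForm.mcast _ (CuspForm.discriminantEquiv (T j))) z = _
    rw [ModularForm.mcast_apply, CuspForm.discriminantEquiv_apply]
  -- `f = ∑ P j * H j`
  have hspan : ⇑f' = ∑ j, ⇑(P j) * ⇑(dualCuspForm h𝒢 κ F hdet hcusp j (12 - κ j) rfl) := by
    funext z
    simp only [Finset.sum_apply, Pi.mul_apply, coe_dualCuspForm]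
    have h1 := sum_pairing_mul_dualFun κ F z (hdet z) (fun q => quotientFunc (ℋ := 𝒮ℒ) f' q z)
      baseCoset
    rw [quotientFunc_baseCoset] at h1
    have h2 : ∑ j, P j z * dualFun κ F j baseCoset z
        = (Δ z)⁻¹ * ∑ j, (∑ q, fundMatrix κ F z q j * quotientFunc (ℋ := 𝒮ℒ) f' q z)
            * dualFun κ F j baseCoset z := by
      rw [Finset.mul_sum]
      refine Finset.sum_congr rfl fun j _ => ?_
      rw [hP, hT]
      field_simp
    rw [h2, h1, ← mul_assoc, inv_mul_cancel₀ (hΔ z), one_mul]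
  -- evaluation of an expansion at `h • z`
  have e1 : ∀ (B : (j : Q 𝒢) → ModularForm 𝒮ℒ (k - (12 - κ j))) (h : 𝒮ℒ) (z : ℍ),
      (∑ j, ⇑(B j) * ⇑(dualCuspForm h𝒢 κ F hdet hcusp j (12 - κ j) rfl))
          ((h : GL (Fin 2) ℝ) • z)
        = denom (h : GL (Fin 2) ℝ) z ^ k
          * ∑ j, B j z * dualFun κ F j (h⁻¹ • baseCoset) z := by
    intro B h z
    rw [Finset.sum_apply, Finset.mul_sum]
    refine Finset.sum_congr rfl fun j _ => ?_
    rw [Pi.mul_apply, levelOne_smul_apply,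
      ← quotientFunc_baseCoset (𝒢 := 𝒢) (dualCuspForm h𝒢 κ F hdet hcusp j (12 - κ j) rfl),
      quotientFunc_smul_apply, quotientFunc_dualCuspForm]
    have hd : denom (h : GL (Fin 2) ℝ) z ≠ 0 := denom_ne_zero _ z
    have e : denom (h : GL (Fin 2) ℝ) z ^ (k - (12 - κ j))
        * denom (h : GL (Fin 2) ℝ) z ^ (12 - κ j) = denom (h : GL (Fin 2) ℝ) z ^ k := by
      rw [← zpow_add₀ hd]
      congr 1
      ring
    rw [← e]
    ring
  refine ⟨fun j => ⇑(P j), ⟨fun j => ⟨P j, rfl⟩, hspan⟩, ?_⟩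
  -- uniqueness
  rintro P' ⟨hP'mem, hP'eq⟩
  choose A hA using hP'mem
  have hP'A : P' = fun j => ⇑(A j) := by
    funext j
    exact (hA j).symm
  subst hP'A
  funext j z
  have key : (fun j => A j z - P j z) = 0 := by
    apply eq_zero_of_sum_mul_dualFun κ F z (hdet z)
    intro q
    obtain ⟨h, rfl⟩ := exists_inv_smul_baseCoset q
    have e2 := congrFun hP'eq ((h : GL (Fin 2) ℝ) • z)
    have e3 := congrFun hspan ((h : GL (Fin 2) ℝ) • z)
    rw [e1 A h z] at e2
    rw [e1 P h z, e2] at e3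
    have hd : denom (h : GL (Fin 2) ℝ) z ^ k ≠ 0 := zpow_ne_zero _ (denom_ne_zero _ z)
    have e4 := mul_left_cancel₀ hd e3
    simp_rw [sub_mul]
    rw [Finset.sum_sub_distrib, e4, sub_self]
  exact sub_eq_zero.mp (congrFun key j)


/-! ### The decay hypothesis and the reduction of `Goal_Dual` to it -/

open Classical in
/-- (DECAY) for a free basis of `MFG 𝒢` with everywhere invertible fundamental matrix `Φ`,
all entries of `Δ · Φ⁻¹` tend to `0` at `i∞`. -/
def Stmt_Decay (𝒢 : Subgroup (GL (Fin 2) ℝ)) [𝒢.IsArithmetic] [𝒢.HasDetOne] : Prop :=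
  ∀ (κ : Q 𝒢 → ℤ) (F : Q 𝒢 → ℍ → ℂ), IsFreeBasis (MFG 𝒢) κ F → (∀ z, fundDet 𝒢 κ F z ≠ 0) →
    ∀ j q : Q 𝒢, IsZeroAtImInfty (fun z => Δ z * (transMatrix 𝒢 κ F z)⁻¹ j q)

/-- (DECAY) for all good levels. -/
def Goal_Decay : Prop :=
  ∀ (𝒢 : Subgroup (GL (Fin 2) ℝ)) [𝒢.IsArithmetic] [𝒢.HasDetOne] (N : ℕ),
    GoodLevel 𝒢 N → Stmt_Decay 𝒢

theorem transMatrix_eq_fundMatrix [𝒢.HasDetOne] (κ : Q 𝒢 → ℤ) (F : Q 𝒢 → ℍ → ℂ)
    (F' : (j : Q 𝒢) → ModularForm 𝒢 (κ j)) (hF : ∀ j, ⇑(F' j) = F j) (z : ℍ) :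
    transMatrix 𝒢 κ F z = fundMatrix κ F' z := by
  ext q j
  rw [fundMatrix_apply, transMatrix, Matrix.of_apply, ← hF j, tr_eq_quotientFunc]

open Classical in
/-- `Stmt_Dual` from the decay of `Δ · Φ⁻¹`. -/
theorem stmt_Dual_of_decay (hH : Goal_Hilbert) (hRR : Goal_RRdim)
    {𝒢 : Subgroup (GL (Fin 2) ℝ)} [𝒢.IsArithmetic] [𝒢.HasDetOne] (h𝒢 : 𝒢 ≤ 𝒮ℒ)
    (hB : Stmt_Basic 𝒢) (hD : Stmt_Decay 𝒢) : Stmt_Dual 𝒢 := by
  intro κ κ' F G hF hG hdetF _
  choose F' hF' using hF.1
  have hΦ : ∀ z, transMatrix 𝒢 κ F z = fundMatrix κ F' z :=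
    transMatrix_eq_fundMatrix κ F F' hF'
  have hdet : ∀ z, (fundMatrix κ F' z).det ≠ 0 := by
    intro z
    have h1 := hdetF z
    unfold fundDet at h1
    rw [← hΦ z]
    convert h1
  have hcusp : ∀ l q, IsZeroAtImInfty (dualFun κ F' l q) := by
    intro l q
    have h1 := hD κ F hF hdetF l q
    have h2 : dualFun κ F' l q = fun z => Δ z * (transMatrix 𝒢 κ F z)⁻¹ l q := by
      funext z
      rw [hΦ z]
      rfl
    rw [h2]
    exact h1
  have hdual := dual_isFreeBasis h𝒢 κ F' hdet hcusp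
  have hclos := hB.2.2.2.2.2.2.1
  have h1 := hH (CFG 𝒢) (Q 𝒢) _ _ hdual hclos
  have h2 := hH (CFG 𝒢) (Q 𝒢) _ _ hG hclos
  have hr_neg : ∀ m : ℤ, m < 0 → Module.finrank ℂ (RR m) = 0 := by
    intro m hm
    rw [hRR m, if_pos (Or.inl hm)]
  have hr0 : Module.finrank ℂ (RR 0) = 1 := by
    rw [hRR 0]
    simp
  obtain ⟨σ, hσ⟩ := exists_equiv_of_hilbert (fun m => Module.finrank ℂ (RR m)) hr_neg hr0
    (fun l => 12 - κ l) κ' (fun k => (h1 k).symm.trans (h2 k))
  exact ⟨σ, fun j => by rw [hσ j]; ring⟩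

/-- **The algebraic half of `Goal_Dual`**: it follows from the decay of `Δ · Φ⁻¹` at `i∞`. -/
theorem goal_Dual_of_decay (hH : Goal_Hilbert) (hB : Goal_Basic) (hRR : Goal_RRdim)
    (hD : Goal_Decay) : Goal_Dual := by
  intro 𝒢 _ _ N hN
  exact stmt_Dual_of_decay hH hRR hN.le (hB 𝒢 N hN) (hD 𝒢 N hN)

end

end Fermat.Agent.S20.helper376
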