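import Fermat.Agent.S20.helper435_BasisG0
import Fermat.Agent.S21.helper921_LowerAsm
import Fermat.Agent.S20.helper440_GoalLower

/-!
# S20 and S21 from ONE leaf at `Γ₀(N)` (helper435)

With the basis goal proved for `Γ₀(N)` (`helper435.stmt_Basis_G0_strong`), the lower bound on
`finrank S₂(Γ₀(N))`, hence the frozen statements S20 and S21, follow from the single statement

`∀ N [NeZero N], helper921.Stmt_SumWeightsLe (G0 N)`,

i.e. `∑ κ j + 6 * cusps (G0 N) ≤ 6 * mu (G0 N)` for every coset-indexed free basis of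
`M_*(Γ₀(N))` with nowhere vanishing fundamental determinant.  (The equality
`helper260.Stmt_SumWeights (G0 N)` and the general goals `helper260.Goal_SumWeights`,
`helper921.Goal_SumWeightsLe` imply it.)  The proof is the one of
`helper921.genus_le_of_leaves`, with `Goal_BasisM` and `Goal_ODEM` replaced by
`stmt_Basis_G0_strong`, and `Goal_Lower` plugged in from `helper440`.
-/

set_option autoImplicit false

open UpperHalfPlane ModularForm
open scoped MatrixGroups Manifold Pointwise

namespace Fermat.Agent.S20.helper435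

open Fermat.Agent.S20.helper560 Fermat.Agent.S20.helper260 Fermat.Agent.S21.helper921

/-- **The lower bound** `genusFormula N ≤ finrank S₂(Γ₀(N))` from the weight-sum inequality at
`Γ₀(N)` alone. -/
theorem genus_le_of_sumWeightsLe_G0
    (hSW : ∀ (M : ℕ) [NeZero M], Stmt_SumWeightsLe (G0 M)) (N : ℕ) [NeZero N] :
    ModularCurve.genusFormula N
      ≤ (Module.finrank ℂ (CuspForm (CongruenceSubgroup.Gamma0 N) 2) : ℚ) := by
  have hBasic : Goal_Basic := Fermat.Agent.S20.helper2805.goal_Basic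
  have hHilb : Goal_Hilbert := Fermat.Agent.S20.helper2805.goal_Hilbert
  have hRR : Goal_RRdim := Fermat.Agent.S20.helper2805.goal_RRdim
  have hES : Goal_EllS := Fermat.Agent.S20.helper1774.goal_EllS
  have hEST : Goal_EllST := Fermat.Agent.S20.helper1774.goal_EllST
  have hGL : Goal_GoodLevel := Fermat.Agent.S20.helper1982.goal_GoodLevel
  have hI : Goal_Index := Fermat.Agent.S20.helper2600.goal_Index
  have hE2 : Goal_E2 := Fermat.Agent.S20.helper2600.goal_E2
  have hE3 : Goal_E3 := Fermat.Agent.S20.helper2600.goal_E3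
  have hCu : Goal_Cusps := Fermat.Agent.S20.helper2600.goal_Cusps
  have hL : Goal_Lower := Fermat.Agent.S20.helper440.goal_Lower
  have hg := hGL N
  obtain ⟨hneg, hodd, hM0, hS0, hSM, hmulM, hmulS, hfin, hS2⟩ := hBasic (G0 N) N hg
  obtain ⟨κ, F, hF, hΦ⟩ := stmt_Basis_G0_strong N
  have hellS := hES (G0 N) N hg κ F hF.1 (hΦ _)
  have hellST := hEST (G0 N) N hg κ F hF.1 (hΦ _)
  have hHM := fun k => hHilb (MFG (G0 N)) (Q (G0 N)) κ F hF hmulM k
  have hFne : ∀ j, F j ≠ 0 := fun j hj =>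
    hΦ UpperHalfPlane.I (fundDet_eq_zero_of_eq_zero (G0 N) κ F _ j hj)
  have h0 : ∀ j, 0 ≤ κ j := by
    intro j
    have hmem := hF.1 j
    by_contra hlt
    rw [hneg _ (not_le.mp hlt)] at hmem
    exact hFne j ((Submodule.mem_bot ℂ).mp hmem)
  have he : ∀ j, κ j % 2 = 0 := by
    intro j
    have hmem := hF.1 j
    by_contra ho
    have ho' : Odd (κ j) := Int.odd_iff.mpr (by omega)
    rw [hodd _ ho'] at hmem
    exact hFne j ((Submodule.mem_bot ℂ).mp hmem)
  have hcard : (Fintype.card (Q (G0 N)) : ℤ) = (mu (G0 N) : ℤ) := by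
    have : Fintype.card (Q (G0 N)) = mu (G0 N) := Nat.card_eq_fintype_card.symm
    exact_mod_cast this
  have ha := count_of_ellS κ h0 he (e2 (G0 N)) hellS
  obtain ⟨hb1, hb2⟩ := count_of_ellST κ h0 he (e3 (G0 N)) hellST
  have hc := hSW N κ F hF hΦ
  have hn2 := lower_arith κ h0 he (mu (G0 N)) (e2 (G0 N)) (e3 (G0 N)) (cusps (G0 N))
    hcard ha hb1 hb2 hc
  have hlo : ∑ j, (if κ j = 2 then (1 : ℤ) else 0) + 1 ≤
      (Module.finrank ℂ (CFG (G0 N) 2) : ℤ) + (cusps (G0 N) : ℤ) := by
    have h1 := hL (G0 N) N hg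
    unfold Stmt_Lower at h1
    rw [hHM 2] at h1
    have h2 : ((∑ j, Module.finrank ℂ (RR (2 - κ j)) + 1 : ℕ) : ℤ) ≤
        ((Module.finrank ℂ (CFG (G0 N) 2) + cusps (G0 N) : ℕ) : ℤ) := by exact_mod_cast h1
    push_cast at h2
    rw [Finset.sum_congr rfl fun j _ => finrank_RR_eq_dA hRR (2 - κ j)] at h2
    rw [Finset.sum_congr rfl fun j _ => dA_two_sub_of_even (κ j) (h0 j) (he j)] at h2
    exact h2
  have hfin' : 12 + (mu (G0 N) : ℤ) - 3 * (e2 (G0 N) : ℤ) - 4 * (e3 (G0 N) : ℤ)
        - 6 * (cusps (G0 N) : ℤ) ≤ 12 * (Module.finrank ℂ (CFG (G0 N) 2) : ℤ) := by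
    linarith
  rw [hS2, hI N, hE2 N, hE3 N, hCu N] at hfin'
  have hQ : 12 + (ModularCurve.dedekindPsi N : ℚ) - 3 * (ModularCurve.nuTwo N : ℚ)
        - 4 * (ModularCurve.nuThree N : ℚ) - 6 * (ModularCurve.cuspCount N : ℚ)
      ≤ 12 * (Module.finrank ℂ (CuspForm (G0 N) 2) : ℚ) := by
    exact_mod_cast hfin'
  show ModularCurve.genusFormula N ≤ (Module.finrank ℂ (CuspForm (G0 N) 2) : ℚ)
  unfold ModularCurve.genusFormula
  linarith

/-- **S20 (frozen statement, verbatim) from the weight-sum inequality at `Γ₀(N)` alone.** -/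
theorem s20_of_sumWeightsLe_G0
    (hSW : ∀ (M : ℕ) [NeZero M], Stmt_SumWeightsLe (G0 M)) (N : ℕ) [NeZero N] :
    (Module.finrank ℂ (CuspForm (CongruenceSubgroup.Gamma0 N) 2) : ℚ)
      = ModularCurve.genusFormula N :=
  s20_of_ge N (genus_le_of_sumWeightsLe_G0 hSW N)

/-- **S21 (frozen statement, verbatim) from the weight-sum inequality at `Γ₀(N)` alone.** -/
theorem s21_of_sumWeightsLe_G0
    (hSW : ∀ (M : ℕ) [NeZero M], Stmt_SumWeightsLe (G0 M)) (N : ℕ) [NeZero N] :
    Function.Injective (ModularCurve.periodHomPair N)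
      ∧ LinearMap.range (ModularCurve.periodHomPair N)
          = ModularCurve.Period.parabolicHoms ℂ (CongruenceSubgroup.Gamma0 N) ℂ :=
  s21_of_ge N (genus_le_of_sumWeightsLe_G0 hSW N)

/-- S20 from the general weight-sum goal (equality form) of the sandwich route. -/
theorem s20_of_goal_SumWeights (hSW : Goal_SumWeights) (N : ℕ) [NeZero N] :
    (Module.finrank ℂ (CuspForm (CongruenceSubgroup.Gamma0 N) 2) : ℚ)
      = ModularCurve.genusFormula N :=
  s20_of_sumWeightsLe_G0
    (fun M _ κ F hF hΦ =>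
      (hSW (G0 M) M (Fermat.Agent.S20.helper1982.goal_GoodLevel M) κ F hF hΦ).le) N

/-- S20 from the general weight-sum goal (inequality form). -/
theorem s20_of_goal_SumWeightsLe (hSW : Goal_SumWeightsLe) (N : ℕ) [NeZero N] :
    (Module.finrank ℂ (CuspForm (CongruenceSubgroup.Gamma0 N) 2) : ℚ)
      = ModularCurve.genusFormula N :=
  s20_of_sumWeightsLe_G0
    (fun M _ => hSW (G0 M) M (Fermat.Agent.S20.helper1982.goal_GoodLevel M)) N

/-- S21 from the general weight-sum goal (inequality form). -/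
theorem s21_of_goal_SumWeightsLe (hSW : Goal_SumWeightsLe) (N : ℕ) [NeZero N] :
    Function.Injective (ModularCurve.periodHomPair N)
      ∧ LinearMap.range (ModularCurve.periodHomPair N)
          = ModularCurve.Period.parabolicHoms ℂ (CongruenceSubgroup.Gamma0 N) ℂ :=
  s21_of_sumWeightsLe_G0
    (fun M _ => hSW (G0 M) M (Fermat.Agent.S20.helper1982.goal_GoodLevel M)) N

end Fermat.Agent.S20.helper435
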