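import Mathlib

/-!
# S20, step R4 (INV): the fundamental matrix has trivial left kernel at every point (helper435)

Hypothesis-passing glue for the Riemann–Roch-free route to `S20`.  Everything is function-level
on the Mathlib translates `SlashInvariantForm.quotientFunc f q`, where `q` runs over
`𝒬 = 𝒮ℒ ⧸ 𝒢.subgroupOf 𝒮ℒ` (`𝒢` the level, e.g. the image of `Γ₀(N)` in `GL(2, ℝ)`).

Inputs (hypotheses of the main theorems; `F j : ModularForm 𝒢 (k j)` a finite family):

* `hSpan` : every `f : ModularForm 𝒢 w` is `∑ j, P j * F j` with `P j : ModularForm 𝒮ℒ (w - k j)`;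
* `hSD`   : for every `f : ModularForm 𝒢 w` there is `g : ModularForm 𝒢 (w + 2)` whose underlying
  function is `Derivative.serreDerivative w f`;
* `hSep`  : a vector `v : 𝒬 → ℂ` with `∑ q, v q * quotientFunc f q z = 0` for all forms `f` of
  all weights and all `z` is zero.

Results:

* `ode_unique` : uniqueness for holomorphic linear ODE systems on the upper half plane
  (Grönwall along segments);
* `exists_quotientFunc_eq_slash`, `quotientFunc_of_span`, `mdiff_quotientFunc` : basic facts on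
  translates;
* `translate_ode` : `D (F j)_q = (k j / 12) E₂ (F j)_q + ∑ i, B i j (F i)_q` with level-one `B i j`
  not depending on `q`;
* `left_kernel_trivial` : for EVERY `z0`, `(∀ j, ∑ q, v q * (F j)_q z0 = 0) → v = 0`;
* `card_quotient_le` : `card 𝒬 ≤ card J`;
* `right_kernel_trivial` : if `card J = card 𝒬`, the columns are independent at every point;
* `det_fundamental_ne_zero`, `det_fundamental_reindex_ne_zero` : determinant forms.
-/

set_option autoImplicit false

open UpperHalfPlane ModularForm Derivative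
open scoped MatrixGroups Manifold

namespace Fermat.Agent.S20.helper435

/-- Points of the segment between two points of the upper half plane have positive imaginary
part. -/
lemma segment_im_pos (z0 z : ℍ) {t : ℝ} (ht0 : 0 ≤ t) (ht1 : t ≤ 1) :
    0 < ((z0 : ℂ) + (t : ℂ) * ((z : ℂ) - (z0 : ℂ))).im := by
  have h0 : 0 < (z0 : ℂ).im := z0.im_pos
  have h1 : 0 < (z : ℂ).im := z.im_pos
  have : ((z0 : ℂ) + (t : ℂ) * ((z : ℂ) - (z0 : ℂ))).im
      = (1 - t) * (z0 : ℂ).im + t * (z : ℂ).im := by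
    simp [Complex.add_im, Complex.mul_im]; ring
  rw [this]
  rcases eq_or_lt_of_le ht0 with rfl | ht0'
  · simpa using h0
  · have : 0 ≤ (1 - t) * (z0 : ℂ).im := mul_nonneg (by linarith) h0.le
    have : 0 < t * (z : ℂ).im := mul_pos ht0' h1
    linarith

/-- **Uniqueness for holomorphic linear ODE systems on the upper half plane.**
If `w : J → ℍ → ℂ` is a family of holomorphic functions with
`(w j)' = ∑ i, w i * A i j` for holomorphic coefficients `A i j`, and `w` vanishes at one point,
then `w` vanishes identically. -/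
theorem ode_unique {J : Type*} [Fintype J] (w : J → ℍ → ℂ) (A : J → J → ℍ → ℂ)
    (hw : ∀ j, MDiff (w j)) (hA : ∀ i j, MDiff (A i j))
    (hode : ∀ (j : J) (z : ℍ), deriv (w j ∘ ofComplex) z = ∑ i, w i z * A i j z)
    (z0 : ℍ) (h0 : ∀ j, w j z0 = 0) (j : J) (z : ℍ) : w j z = 0 := by
  classical
  set γ : ℝ → ℂ := fun t => (z0 : ℂ) + (t : ℂ) * ((z : ℂ) - (z0 : ℂ)) with hγ
  have hγim : ∀ t ∈ Set.Icc (0 : ℝ) 1, 0 < (γ t).im := fun t ht => segment_im_pos z0 z ht.1 ht.2
  have hγd : ∀ t : ℝ, HasDerivAt γ ((z : ℂ) - (z0 : ℂ)) t := by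
    intro t
    have h1 : HasDerivAt (fun t : ℝ => (t : ℂ)) 1 t := Complex.ofRealCLM.hasDerivAt
    have := (h1.mul_const ((z : ℂ) - (z0 : ℂ))).const_add (z0 : ℂ)
    simpa [hγ] using this
  set f : ℝ → (J → ℂ) := fun t j => (w j ∘ ofComplex) (γ t) with hf
  set f' : ℝ → (J → ℂ) := fun t j =>
    ((z : ℂ) - (z0 : ℂ)) * ∑ i, f t i * (A i j ∘ ofComplex) (γ t) with hf'
  have hderiv : ∀ t ∈ Set.Icc (0 : ℝ) 1, HasDerivAt f (f' t) t := by
    intro t ht
    rw [hasDerivAt_pi]
    intro j
    set τ : ℍ := ⟨γ t, hγim t ht⟩ with hτ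
    have hτc : (τ : ℂ) = γ t := rfl
    have hd : DifferentiableAt ℂ (w j ∘ ofComplex) (γ t) := by
      rw [← hτc]; exact mdifferentiableAt_iff.mp (hw j τ)
    have h2 : HasDerivAt (w j ∘ ofComplex) (∑ i, w i τ * A i j τ) (γ t) := by
      have := hd.hasDerivAt
      rwa [← hτc, hode j τ] at this
    have h3 := HasDerivAt.scomp t h2 (hγd t)
    have hval : ∀ (g : ℍ → ℂ), (g ∘ ofComplex) (γ t) = g τ := by
      intro g
      simp only [Function.comp_apply]
      rw [ofComplex_apply_of_im_pos (hγim t ht)]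
    have : f' t j = ((z : ℂ) - (z0 : ℂ)) • ∑ i, w i τ * A i j τ := by
      simp only [hf', hf, smul_eq_mul]
      congr 1
      refine Finset.sum_congr rfl fun i _ => ?_
      rw [hval, hval]
    rw [this]
    exact h3
  have hcont : ContinuousOn f (Set.Icc (0 : ℝ) 1) := fun t ht =>
    (hderiv t ht).continuousAt.continuousWithinAt
  -- bound on the coefficients along the segment
  have hAc : ∀ i j, ∃ C : ℝ, ∀ t ∈ Set.Icc (0 : ℝ) 1, ‖(A i j ∘ ofComplex) (γ t)‖ ≤ C := by
    intro i j
    have hc : ContinuousOn (fun t : ℝ => (A i j ∘ ofComplex) (γ t)) (Set.Icc (0 : ℝ) 1) := by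
      intro t ht
      have hd : DifferentiableAt ℂ (A i j ∘ ofComplex) (γ t) := by
        have := mdifferentiableAt_iff.mp (hA i j ⟨γ t, hγim t ht⟩)
        exact this
      exact (hd.continuousAt.comp (hγd t).continuousAt).continuousWithinAt
    exact isCompact_Icc.exists_bound_of_continuousOn hc
  choose C hC using hAc
  set M : ℝ := ∑ i, ∑ j, |C i j| with hM
  have hCM : ∀ i j, ∀ t ∈ Set.Icc (0 : ℝ) 1, ‖(A i j ∘ ofComplex) (γ t)‖ ≤ M := by
    intro i j t ht
    refine (hC i j t ht).trans ((le_abs_self _).trans ?_)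
    have h1 : |C i j| ≤ ∑ j', |C i j'| :=
      Finset.single_le_sum (f := fun j' => |C i j'|) (fun _ _ => abs_nonneg _) (Finset.mem_univ j)
    have h2 : ∑ j', |C i j'| ≤ ∑ i', ∑ j', |C i' j'| :=
      Finset.single_le_sum (f := fun i' => ∑ j', |C i' j'|)
        (fun _ _ => Finset.sum_nonneg fun _ _ => abs_nonneg _) (Finset.mem_univ i)
    exact h1.trans h2
  have hM0 : 0 ≤ M := Finset.sum_nonneg fun _ _ => Finset.sum_nonneg fun _ _ => abs_nonneg _
  set K : ℝ := ‖(z : ℂ) - (z0 : ℂ)‖ * ((Fintype.card J : ℝ) * M) with hK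
  have hbound : ∀ t ∈ Set.Ico (0 : ℝ) 1, ‖f' t‖ ≤ K * ‖f t‖ := by
    intro t ht
    have ht' : t ∈ Set.Icc (0 : ℝ) 1 := ⟨ht.1, ht.2.le⟩
    have hK0 : 0 ≤ K * ‖f t‖ := by positivity
    rw [pi_norm_le_iff_of_nonneg hK0]
    intro j
    simp only [hf']
    rw [norm_mul]
    have hsum : ‖∑ i, f t i * (A i j ∘ ofComplex) (γ t)‖ ≤ (Fintype.card J : ℝ) * M * ‖f t‖ := by
      calc ‖∑ i, f t i * (A i j ∘ ofComplex) (γ t)‖
          ≤ ∑ i, ‖f t i * (A i j ∘ ofComplex) (γ t)‖ := norm_sum_le _ _
        _ ≤ ∑ _i : J, ‖f t‖ * M := by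
            refine Finset.sum_le_sum fun i _ => ?_
            rw [norm_mul]
            exact mul_le_mul (norm_le_pi_norm (f t) i) (hCM i j t ht') (norm_nonneg _)
              (norm_nonneg _)
        _ = (Fintype.card J : ℝ) * M * ‖f t‖ := by
            rw [Finset.sum_const, Finset.card_univ, nsmul_eq_mul]; ring
    calc ‖(z : ℂ) - (z0 : ℂ)‖ * ‖∑ i, f t i * (A i j ∘ ofComplex) (γ t)‖
        ≤ ‖(z : ℂ) - (z0 : ℂ)‖ * ((Fintype.card J : ℝ) * M * ‖f t‖) :=
          mul_le_mul_of_nonneg_left hsum (norm_nonneg _)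
      _ = K * ‖f t‖ := by rw [hK]; ring
  have hfa : f 0 = 0 := by
    funext j
    simp only [hf, hγ, Function.comp_apply, Complex.ofReal_zero, zero_mul, add_zero,
      ofComplex_apply, Pi.zero_apply]
    exact h0 j
  have hzero := eq_zero_of_abs_deriv_le_mul_abs_self_of_eq_zero_right (K := K) hcont
    (fun t ht => (hderiv t ⟨ht.1, ht.2.le⟩).hasDerivWithinAt) hfa hbound 1
    (Set.right_mem_Icc.mpr zero_le_one)
  have := congrFun hzero j
  simpa [hf, hγ] using this


section translates

variable {𝒢 : Subgroup (GL (Fin 2) ℝ)}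

local notation "𝒬" => 𝒮ℒ ⧸ (𝒢.subgroupOf 𝒮ℒ)

open SlashInvariantForm

/-- Every translate `quotientFunc f q` (`q` a coset of `𝒮ℒ` modulo the level) is the slash of `f`
by one element of `SL(2, ℤ)`, which depends on `q` only. -/
lemma exists_quotientFunc_eq_slash (q : 𝒬) :
    ∃ γ : SL(2, ℤ), ∀ (k : ℤ) (f : ModularForm 𝒢 k),
      quotientFunc f q = (f : ℍ → ℂ) ∣[k] γ := by
  induction q using Quotient.inductionOn with
  | h r =>
    obtain ⟨γ, hγ⟩ : ∃ γ : SL(2, ℤ), Matrix.SpecialLinearGroup.mapGL ℝ γ = (r : GL (Fin 2) ℝ)⁻¹ :=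
      (inv_mem r.2 : (r : GL (Fin 2) ℝ)⁻¹ ∈ 𝒮ℒ)
    refine ⟨γ, fun k f => ?_⟩
    rw [quotientFunc_mk, ← hγ]
    rfl

/-- Level-one forms are invariant under the slash action of `SL(2, ℤ)`. -/
lemma levelOne_slash {k : ℤ} (P : ModularForm 𝒮ℒ k) (γ : SL(2, ℤ)) :
    (P : ℍ → ℂ) ∣[k] γ = P :=
  SlashInvariantFormClass.slash_action_eq P (Matrix.SpecialLinearGroup.mapGL ℝ γ) ⟨γ, rfl⟩

end translates


section translates2

variable {𝒢 : Subgroup (GL (Fin 2) ℝ)}

local notation "𝒬" => 𝒮ℒ ⧸ (𝒢.subgroupOf 𝒮ℒ)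

open SlashInvariantForm

/-- Translates of a modular form are holomorphic. -/
lemma mdiff_quotientFunc {k : ℤ} (f : ModularForm 𝒢 k) (q : 𝒬) : MDiff (quotientFunc f q) := by
  induction q using Quotient.inductionOn with
  | h r => exact (ModularForm.translate f (r : GL (Fin 2) ℝ)⁻¹).holo'

/-- If `f = ∑ j, P j * F j` with level-one coefficients, the same holds for all translates. -/
lemma quotientFunc_of_span {J : Type*} [Fintype J] {k : J → ℤ} (F : ∀ j, ModularForm 𝒢 (k j))
    {w : ℤ} (f : ModularForm 𝒢 w) (P : ∀ j, ModularForm 𝒮ℒ (w - k j))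
    (hf : ∀ z, f z = ∑ j, P j z * F j z) (q : 𝒬) (z : ℍ) :
    quotientFunc f q z = ∑ j, P j z * quotientFunc (F j) q z := by
  obtain ⟨γ, hγ⟩ := exists_quotientFunc_eq_slash (𝒢 := 𝒢) q
  have h1 : (f : ℍ → ℂ) = ∑ j, (P j : ℍ → ℂ) * (F j : ℍ → ℂ) := by
    funext z
    rw [hf z, Finset.sum_apply]
    rfl
  rw [hγ w f, h1, SlashAction.sum_slash, Finset.sum_apply]
  refine Finset.sum_congr rfl fun j _ => ?_
  have h2 := ModularForm.mul_slash_SL2 (w - k j) (k j) γ (P j) (F j)
  have e : w - k j + k j = w := by ring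
  rw [e] at h2
  rw [h2, levelOne_slash, hγ (k j) (F j)]
  rfl

/-- **Translate ODE.** Given a spanning family `F j` (over level-one forms) of the modular forms
of level `𝒢` and the Serre derivative on level `𝒢`, the translates of the `F j` satisfy a linear
ODE system whose coefficients are level-one forms (independent of the translate). -/
theorem translate_ode {J : Type*} [Fintype J] (k : J → ℤ) (F : ∀ j, ModularForm 𝒢 (k j))
    (hSpan : ∀ (w : ℤ) (f : ModularForm 𝒢 w), ∃ P : ∀ j, ModularForm 𝒮ℒ (w - k j),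
      ∀ z, f z = ∑ j, P j z * F j z)
    (hSD : ∀ (w : ℤ) (f : ModularForm 𝒢 w), ∃ g : ModularForm 𝒢 (w + 2),
      ∀ z, g z = serreDerivative w f z) :
    ∃ B : ∀ i j, ModularForm 𝒮ℒ (k j + 2 - k i), ∀ (q : 𝒬) (j : J) (z : ℍ),
      D (quotientFunc (F j) q) z
        = (k j : ℂ) * 12⁻¹ * EisensteinSeries.E2 z * quotientFunc (F j) q z
          + ∑ i, B i j z * quotientFunc (F i) q z := by
  choose g hg using fun j => hSD (k j) (F j)
  choose P hP using fun j => hSpan (k j + 2) (g j)
  refine ⟨fun i j => P j i, fun q j z => ?_⟩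
  obtain ⟨γ, hγ⟩ := exists_quotientFunc_eq_slash (𝒢 := 𝒢) q
  have h1 : quotientFunc (g j) q z = serreDerivative (k j) (quotientFunc (F j) q) z := by
    have hF : MDiff (F j : ℍ → ℂ) := (F j).holo'
    rw [hγ (k j + 2) (g j), hγ (k j) (F j), ← serreDerivative_slash_equivariant hF]
    have : (g j : ℍ → ℂ) = serreDerivative (k j) (F j) := funext (hg j)
    rw [this]
  have h2 := quotientFunc_of_span F (g j) (P j) (hP j) q z
  rw [h1, serreDerivative_apply] at h2
  linear_combination h2

end translates2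


section inv

variable {𝒢 : Subgroup (GL (Fin 2) ℝ)}

local notation "𝒬" => 𝒮ℒ ⧸ (𝒢.subgroupOf 𝒮ℒ)

open SlashInvariantForm

/-- `deriv` of a finite linear combination of holomorphic functions on `ℍ`. -/
lemma deriv_sum_mul_comp_ofComplex {X : Type*} [Fintype X] (v : X → ℂ) (G : X → ℍ → ℂ)
    (hG : ∀ x, MDiff (G x)) (z : ℍ) :
    deriv ((fun τ : ℍ => ∑ x, v x * G x τ) ∘ ofComplex) z
      = ∑ x, v x * deriv (G x ∘ ofComplex) z := by
  have h : ∀ x, HasDerivAt (fun y : ℂ => v x * (G x ∘ ofComplex) y)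
      (v x * deriv (G x ∘ ofComplex) z) z := fun x =>
    ((mdifferentiableAt_iff.mp (hG x z)).hasDerivAt).const_mul (v x)
  have h2 := HasDerivAt.fun_sum (u := Finset.univ) fun x _ => h x
  have h3 : ((fun τ : ℍ => ∑ x, v x * G x τ) ∘ ofComplex)
      = fun y : ℂ => ∑ x, v x * (G x ∘ ofComplex) y := rfl
  rw [h3]
  exact h2.deriv

/-- `MDiff` of a finite linear combination. -/
lemma mdiff_sum_mul {X : Type*} [Fintype X] (v : X → ℂ) (G : X → ℍ → ℂ)
    (hG : ∀ x, MDiff (G x)) : MDiff (fun τ : ℍ => ∑ x, v x * G x τ) := by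
  rw [UpperHalfPlane.mdifferentiable_iff]
  have : ((fun τ : ℍ => ∑ x, v x * G x τ) ∘ ofComplex)
      = fun y : ℂ => ∑ x, v x * (G x ∘ ofComplex) y := rfl
  rw [this]
  refine DifferentiableOn.fun_sum fun x _ => ?_
  exact (UpperHalfPlane.mdifferentiable_iff.mp (hG x)).const_mul (v x)

/-- **INV (step R4), kernel form.** Assume
* `hSpan`: every modular form of level `𝒢` is a combination of the `F j` with level-one
  coefficients,
* `hSD`: the Serre derivative maps `M_w(𝒢)` to `M_{w+2}(𝒢)`,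
* `hSep`: separation — a constant vector `v` with `∑ q, v q * f_q = 0` for all forms `f` is `0`.
Then at *every* point `z0` of the upper half plane the fundamental matrix
`(quotientFunc (F j) q z0)_{q, j}` has trivial left kernel. -/
theorem left_kernel_trivial [Fintype 𝒬] {J : Type*} [Fintype J] (k : J → ℤ)
    (F : ∀ j, ModularForm 𝒢 (k j))
    (hSpan : ∀ (w : ℤ) (f : ModularForm 𝒢 w), ∃ P : ∀ j, ModularForm 𝒮ℒ (w - k j),
      ∀ z, f z = ∑ j, P j z * F j z)
    (hSD : ∀ (w : ℤ) (f : ModularForm 𝒢 w), ∃ g : ModularForm 𝒢 (w + 2),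
      ∀ z, g z = serreDerivative w f z)
    (hSep : ∀ v : 𝒬 → ℂ,
      (∀ (w : ℤ) (f : ModularForm 𝒢 w) (z : ℍ), ∑ q, v q * quotientFunc f q z = 0) → v = 0)
    (z0 : ℍ) (v : 𝒬 → ℂ) (hv : ∀ j, ∑ q, v q * quotientFunc (F j) q z0 = 0) : v = 0 := by
  classical
  obtain ⟨B, hB⟩ := translate_ode k F hSpan hSD
  -- the row vector `w j = ∑ q, v q * (F j)_q`
  set w : J → ℍ → ℂ := fun j τ => ∑ q, v q * quotientFunc (F j) q τ with hw
  set A : J → J → ℍ → ℂ := fun i j τ =>
    (2 * Real.pi * Complex.I) *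
      ((if i = j then (k j : ℂ) * 12⁻¹ * EisensteinSeries.E2 τ else 0) + B i j τ) with hA
  have hwd : ∀ j, MDiff (w j) := fun j =>
    mdiff_sum_mul v (fun q => quotientFunc (F j) q) fun q => mdiff_quotientFunc (F j) q
  have hAd : ∀ i j, MDiff (A i j) := by
    intro i j
    have h1 : MDiff (fun τ : ℍ => (if i = j then (k j : ℂ) * 12⁻¹ * EisensteinSeries.E2 τ else 0)) := by
      by_cases hij : i = j
      · simp only [hij, if_true]
        exact MDifferentiable.mul mdifferentiable_const E2_mdifferentiable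
      · simp only [hij, if_false]
        exact mdifferentiable_const
    have h2 : MDiff (B i j : ℍ → ℂ) := (B i j).holo'
    exact MDifferentiable.mul mdifferentiable_const (h1.add h2)
  have h2pi : (2 * Real.pi * Complex.I : ℂ) ≠ 0 := by
    simp [Real.pi_ne_zero]
  have hode : ∀ (j : J) (z : ℍ), deriv (w j ∘ ofComplex) z = ∑ i, w i z * A i j z := by
    intro j z
    rw [hw]
    rw [deriv_sum_mul_comp_ofComplex v (fun q => quotientFunc (F j) q)
      (fun q => mdiff_quotientFunc (F j) q) z]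
    have hD : ∀ q : 𝒬, deriv (quotientFunc (F j) q ∘ ofComplex) z
        = (2 * Real.pi * Complex.I) * ((k j : ℂ) * 12⁻¹ * EisensteinSeries.E2 z
            * quotientFunc (F j) q z + ∑ i, B i j z * quotientFunc (F i) q z) := by
      intro q
      rw [← hB q j z]
      simp only [normalizedDerivOfComplex]
      field_simp
    simp only [hD, hA]
    -- pure algebra with finite sums
    have e1 : ∑ q, v q * ((2 * Real.pi * Complex.I) * ((k j : ℂ) * 12⁻¹ * EisensteinSeries.E2 z
            * quotientFunc (F j) q z + ∑ i, B i j z * quotientFunc (F i) q z))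
        = (2 * Real.pi * Complex.I) * ((k j : ℂ) * 12⁻¹ * EisensteinSeries.E2 z
            * (∑ q, v q * quotientFunc (F j) q z)
            + ∑ i, B i j z * ∑ q, v q * quotientFunc (F i) q z) := by
      simp only [Finset.mul_sum, mul_add, Finset.sum_add_distrib]
      congr 1
      · refine Finset.sum_congr rfl fun q _ => by ring
      · rw [Finset.sum_comm]
        refine Finset.sum_congr rfl fun i _ => Finset.sum_congr rfl fun q _ => by ring
    have e2 : ∑ i, (∑ q, v q * quotientFunc (F i) q z) * ((2 * Real.pi * Complex.I) *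
          ((if i = j then (k j : ℂ) * 12⁻¹ * EisensteinSeries.E2 z else 0) + B i j z))
        = (2 * Real.pi * Complex.I) * ((k j : ℂ) * 12⁻¹ * EisensteinSeries.E2 z
            * (∑ q, v q * quotientFunc (F j) q z)
            + ∑ i, B i j z * ∑ q, v q * quotientFunc (F i) q z) := by
      have : ∀ i, (∑ q, v q * quotientFunc (F i) q z) * ((2 * Real.pi * Complex.I) *
          ((if i = j then (k j : ℂ) * 12⁻¹ * EisensteinSeries.E2 z else 0) + B i j z))
          = (2 * Real.pi * Complex.I) * ((if i = j then (k j : ℂ) * 12⁻¹ * EisensteinSeries.E2 z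
              * (∑ q, v q * quotientFunc (F i) q z) else 0)
            + B i j z * ∑ q, v q * quotientFunc (F i) q z) := by
        intro i
        by_cases hij : i = j
        · simp only [hij, if_true]; ring
        · simp only [hij, if_false]; ring
      simp only [this]
      rw [← Finset.mul_sum, Finset.sum_add_distrib, Finset.sum_ite_eq' Finset.univ j]
      simp
    rw [e1, e2]
  have hzero : ∀ j z, w j z = 0 := ode_unique w A hwd hAd hode z0 hv
  refine hSep v fun w' f z => ?_
  obtain ⟨P, hP⟩ := hSpan w' f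
  have : ∀ q : 𝒬, v q * quotientFunc f q z = ∑ j, P j z * (v q * quotientFunc (F j) q z) := by
    intro q
    rw [quotientFunc_of_span F f P hP q z, Finset.mul_sum]
    refine Finset.sum_congr rfl fun j _ => by ring
  simp only [this]
  rw [Finset.sum_comm]
  simp only [← Finset.mul_sum]
  refine Finset.sum_eq_zero fun j _ => ?_
  have := hzero j z
  simp only [hw] at this
  rw [this, mul_zero]

end inv


section corollaries

variable {𝒢 : Subgroup (GL (Fin 2) ℝ)}

local notation "𝒬" => 𝒮ℒ ⧸ (𝒢.subgroupOf 𝒮ℒ)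

open SlashInvariantForm

/-- Pure linear algebra: a rectangular complex matrix with trivial left kernel has at least as many
columns as rows. -/
lemma card_le_card_of_left_kernel_trivial {X J : Type*} [Fintype X] [Fintype J] (M : X → J → ℂ)
    (h : ∀ v : X → ℂ, (∀ j, ∑ x, v x * M x j = 0) → v = 0) : Fintype.card X ≤ Fintype.card J := by
  classical
  let L : (X → ℂ) →ₗ[ℂ] (J → ℂ) :=
    { toFun := fun v j => ∑ x, v x * M x j
      map_add' := fun v v' => by
        funext j; simp [add_mul, Finset.sum_add_distrib]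
      map_smul' := fun c v => by
        funext j; simp [Finset.mul_sum, mul_assoc] }
  have hinj : Function.Injective L := by
    rw [← LinearMap.ker_eq_bot, LinearMap.ker_eq_bot']
    intro v hv
    exact h v fun j => congrFun hv j
  have := LinearMap.finrank_le_finrank_of_injective hinj
  simpa using this

/-- Pure linear algebra: a square complex matrix with trivial left kernel has nonzero
determinant. -/
lemma det_ne_zero_of_left_kernel_trivial {X : Type*} [Fintype X] [DecidableEq X]
    (M : Matrix X X ℂ) (h : ∀ v : X → ℂ, (∀ j, ∑ x, v x * M x j = 0) → v = 0) : M.det ≠ 0 := by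
  intro hdet
  obtain ⟨v, hv0, hv⟩ := Matrix.exists_vecMul_eq_zero_iff.mpr hdet
  exact hv0 (h v fun j => by simpa [Matrix.vecMul, dotProduct] using congrFun hv j)

/-- Pure linear algebra: if a rectangular complex matrix with as many columns as rows has trivial
left kernel, then it has trivial right kernel (its columns are linearly independent). -/
lemma right_kernel_trivial_of_left_kernel_trivial {X J : Type*} [Fintype X] [Fintype J]
    (M : X → J → ℂ) (hcard : Fintype.card J = Fintype.card X)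
    (h : ∀ v : X → ℂ, (∀ j, ∑ x, v x * M x j = 0) → v = 0)
    (c : J → ℂ) (hc : ∀ x, ∑ j, M x j * c j = 0) : c = 0 := by
  classical
  let e : J ≃ X := Fintype.equivOfCardEq hcard
  let M' : Matrix X X ℂ := Matrix.of fun x y => M x (e.symm y)
  have hM' : M'.det ≠ 0 := by
    refine det_ne_zero_of_left_kernel_trivial M' fun v hv => h v fun j => ?_
    simpa [M'] using hv (e j)
  by_contra hc0
  have hc' : (c ∘ e.symm) ≠ 0 := by
    intro h0
    apply hc0
    funext j
    simpa using congrFun h0 (e j)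
  refine hM' (Matrix.exists_mulVec_eq_zero_iff.mp ⟨c ∘ e.symm, hc', ?_⟩)
  funext x
  simp only [Matrix.mulVec, dotProduct, M', Matrix.of_apply, Function.comp_apply, Pi.zero_apply]
  rw [← hc x]
  exact Fintype.sum_equiv e.symm _ _ fun y => rfl

/-- **INV (step R4), cardinality bound**: the index is at most the number of generators. -/
theorem card_quotient_le [Fintype 𝒬] {J : Type*} [Fintype J] (k : J → ℤ)
    (F : ∀ j, ModularForm 𝒢 (k j))
    (hSpan : ∀ (w : ℤ) (f : ModularForm 𝒢 w), ∃ P : ∀ j, ModularForm 𝒮ℒ (w - k j),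
      ∀ z, f z = ∑ j, P j z * F j z)
    (hSD : ∀ (w : ℤ) (f : ModularForm 𝒢 w), ∃ g : ModularForm 𝒢 (w + 2),
      ∀ z, g z = serreDerivative w f z)
    (hSep : ∀ v : 𝒬 → ℂ,
      (∀ (w : ℤ) (f : ModularForm 𝒢 w) (z : ℍ), ∑ q, v q * quotientFunc f q z = 0) → v = 0) :
    Fintype.card 𝒬 ≤ Fintype.card J :=
  card_le_card_of_left_kernel_trivial (fun (q : 𝒬) j => quotientFunc (F j) q UpperHalfPlane.I)
    fun v hv => left_kernel_trivial k F hSpan hSD hSep UpperHalfPlane.I v hv

/-- **INV (step R4), column form**: if the number of generators equals the index, the columns of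
the fundamental matrix are linearly independent at every point. -/
theorem right_kernel_trivial [Fintype 𝒬] {J : Type*} [Fintype J] (k : J → ℤ)
    (F : ∀ j, ModularForm 𝒢 (k j))
    (hSpan : ∀ (w : ℤ) (f : ModularForm 𝒢 w), ∃ P : ∀ j, ModularForm 𝒮ℒ (w - k j),
      ∀ z, f z = ∑ j, P j z * F j z)
    (hSD : ∀ (w : ℤ) (f : ModularForm 𝒢 w), ∃ g : ModularForm 𝒢 (w + 2),
      ∀ z, g z = serreDerivative w f z)
    (hSep : ∀ v : 𝒬 → ℂ,
      (∀ (w : ℤ) (f : ModularForm 𝒢 w) (z : ℍ), ∑ q, v q * quotientFunc f q z = 0) → v = 0)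
    (hcard : Fintype.card J = Fintype.card 𝒬)
    (z0 : ℍ) (c : J → ℂ) (hc : ∀ q : 𝒬, ∑ j, quotientFunc (F j) q z0 * c j = 0) : c = 0 :=
  right_kernel_trivial_of_left_kernel_trivial (fun (q : 𝒬) j => quotientFunc (F j) q z0) hcard
    (fun v hv => left_kernel_trivial k F hSpan hSD hSep z0 v hv) c hc

/-- **INV (step R4), determinant form**: if the generators are indexed by the coset space itself
(any family indexed by `J` with an equivalence `J ≃ 𝒬` can be transported), the fundamental matrix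
has nonzero determinant at every point of the upper half plane. -/
theorem det_fundamental_ne_zero [Fintype 𝒬] [DecidableEq 𝒬] (k : 𝒬 → ℤ)
    (F : ∀ j : 𝒬, ModularForm 𝒢 (k j))
    (hSpan : ∀ (w : ℤ) (f : ModularForm 𝒢 w), ∃ P : ∀ j, ModularForm 𝒮ℒ (w - k j),
      ∀ z, f z = ∑ j, P j z * F j z)
    (hSD : ∀ (w : ℤ) (f : ModularForm 𝒢 w), ∃ g : ModularForm 𝒢 (w + 2),
      ∀ z, g z = serreDerivative w f z)
    (hSep : ∀ v : 𝒬 → ℂ,
      (∀ (w : ℤ) (f : ModularForm 𝒢 w) (z : ℍ), ∑ q, v q * quotientFunc f q z = 0) → v = 0)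
    (z0 : ℍ) :
    (Matrix.of fun (q j : 𝒬) => quotientFunc (F j) q z0).det ≠ 0 :=
  det_ne_zero_of_left_kernel_trivial _ fun v hv =>
    left_kernel_trivial k F hSpan hSD hSep z0 v (by simpa using hv)

/-- **INV (step R4), determinant form with a reindexing** `e : J ≃ 𝒬`. -/
theorem det_fundamental_reindex_ne_zero [Fintype 𝒬] [DecidableEq 𝒬] {J : Type*} [Fintype J]
    (k : J → ℤ) (F : ∀ j, ModularForm 𝒢 (k j))
    (hSpan : ∀ (w : ℤ) (f : ModularForm 𝒢 w), ∃ P : ∀ j, ModularForm 𝒮ℒ (w - k j),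
      ∀ z, f z = ∑ j, P j z * F j z)
    (hSD : ∀ (w : ℤ) (f : ModularForm 𝒢 w), ∃ g : ModularForm 𝒢 (w + 2),
      ∀ z, g z = serreDerivative w f z)
    (hSep : ∀ v : 𝒬 → ℂ,
      (∀ (w : ℤ) (f : ModularForm 𝒢 w) (z : ℍ), ∑ q, v q * quotientFunc f q z = 0) → v = 0)
    (e : J ≃ 𝒬) (z0 : ℍ) :
    (Matrix.of fun (q q' : 𝒬) => quotientFunc (F (e.symm q')) q z0).det ≠ 0 :=
  det_ne_zero_of_left_kernel_trivial _ fun v hv =>
    left_kernel_trivial k F hSpan hSD hSep z0 v fun j => by
      have h := hv (e j)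
      simp only [Matrix.of_apply] at h
      rw [Equiv.symm_apply_apply] at h
      exact h

end corollaries

end Fermat.Agent.S20.helper435
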