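import Fermat.Agent.S20.helper20_Spec
import Fermat.Agent.S20.helper435_InvGlue
import Fermat.Agent.S20.helper2180_SerreDeriv
import Fermat.Agent.S20.helper800_Separation

/-!
# S20: bridges to the captain spec `helper20_Spec` (helper435)

Exact-shape proofs of four hypotheses of `helper20.core_of_parts`:

* `stmt_SD`   : `Stmt_SD N`   (from `helper2180.serreD`);
* `stmt_Sep`  : `Stmt_Sep N`  (from `helper800.separation`);
* `rowIndep`  : `∀ B : Gens N, B.IsBasis → Stmt_SD N → Stmt_Sep N → B.RowIndep`  (= `hrow`);
* `cardge`    : `∀ B : Gens N, B.RowIndep → mu N ≤ Fintype.card B.ι`            (= `hcardge`).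
-/

set_option autoImplicit false

open UpperHalfPlane ModularForm Derivative
open scoped MatrixGroups Manifold

namespace Fermat.Agent.S20.helper435

open Fermat.Agent.S20.helper20

/-- R2 in the captain shape: the Serre derivative on `Γ₀(N)`. -/
theorem stmt_SD (N : ℕ) [NeZero N] : Stmt_SD N :=
  fun _ f => ⟨helper2180.serreD f, rfl⟩

/-- R3 in the captain shape: the `Γ₀(N)` Eisenstein series of weight 4 separates the cosets. -/
theorem stmt_Sep (N : ℕ) [NeZero N] : Stmt_Sep N :=
  ⟨4, helper800.eisGamma0 N, fun v hv => helper800.separation N v hv⟩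

/-- R4a in the captain shape (`hrow` of `core_of_parts`): the rows of the fundamental matrix of a
spanning family are linearly independent at every point of the upper half plane. -/
theorem rowIndep (N : ℕ) [NeZero N] (B : Gens N) (hB : B.IsBasis) (hSD : Stmt_SD N)
    (hsep : Stmt_Sep N) : B.RowIndep := by
  obtain ⟨k0, G, hG⟩ := hsep
  intro z v hv
  refine left_kernel_trivial (𝒢 := Gam N) (fun j => (B.wt j : ℤ)) B.F hB.1 ?_ ?_ z v hv
  · intro w f
    obtain ⟨g, hg⟩ := hSD w f
    exact ⟨g, fun z => congrFun hg z⟩
  · intro v' hv'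
    exact hG v' fun z => hv' k0 G z

/-- R4 lower bound in the captain shape (`hcardge` of `core_of_parts`). -/
theorem cardge (N : ℕ) [NeZero N] (B : Gens N) (h : B.RowIndep) : mu N ≤ Fintype.card B.ι := by
  have h1 : Fintype.card (Q N) ≤ Fintype.card B.ι :=
    card_le_card_of_left_kernel_trivial (fun (q : Q N) (j : B.ι) => B.Phi UpperHalfPlane.I q j)
      fun v hv => h UpperHalfPlane.I v hv
  rwa [mu, Nat.card_eq_fintype_card]

end Fermat.Agent.S20.helper435
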