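import Fermat.Agent.S20.helper20_Spec
import Fermat.Agent.S20.helper34_StmtIndex20
import Fermat.Prelude.Thm_ModularForm_sturm_bound_Gamma0
import Fermat.Prelude.Thm_CongruenceSubgroup_one_mem_strictPeriods_Gamma0

/-!
# S20: `hcardle` of the captain spec (helper435)

`cardle : ∀ B : Gens N, B.IsIndep → B.CardLe`: a family of modular forms on `Γ₀(N)` which is
linearly independent over the level-one forms has at most `μ = [SL(2,ℤ) : Γ₀(N)]` members.

Proof: the map `(P j) ↦ ∑ j, P j * F j` embeds `∏ j, M_{k - wt j}(SL(2,ℤ))` into `M_k(Γ₀(N))`,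
whose dimension is at most `k μ / 12 + 1` by the Sturm bound of the Prelude, while the level-one
dimension formula makes the left side grow like `(card ι) k / 12`.
-/

set_option autoImplicit false

open UpperHalfPlane ModularForm
open scoped MatrixGroups Manifold

namespace Fermat.Agent.S20.helper435

open Fermat.Agent.S20.helper20

/-- `Γ₀(N)` (inside `GL(2, ℝ)`) is contained in the image of `SL(2, ℤ)`. -/
theorem gam_le (N : ℕ) : Gam N ≤ 𝒮ℒ := by
  rintro _ ⟨γ, -, rfl⟩
  exact ⟨γ, rfl⟩

/-- `-1 ∈ Γ₀(N)`. -/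
theorem neg_one_mem_gam (N : ℕ) : (-1 : GL (Fin 2) ℝ) ∈ Gam N := by
  refine ⟨-1, ?_, ?_⟩
  · simp [CongruenceSubgroup.Gamma0_mem]
  · ext i j
    fin_cases i <;> fin_cases j <;> simp [Matrix.SpecialLinearGroup.mapGL]

/-- The index in the captain normalisation. -/
theorem mu_eq_index (N : ℕ) [NeZero N] : mu N = (CongruenceSubgroup.Gamma0 N).index := by
  rw [helper34.index_Gamma0 N]
  exact helper34.stmt_Index_20 N

/-- Restriction of a level-one form to `Γ₀(N)`. -/
noncomputable def restrictGam (N : ℕ) {a : ℤ} (P : ModularForm 𝒮ℒ a) : ModularForm (Gam N) a where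
  toFun := P
  slash_action_eq' γ hγ := P.slash_action_eq' γ (gam_le N hγ)
  holo' := P.holo'
  bdd_at_cusps' hc := P.bdd_at_cusps' (hc.mono (gam_le N))

/-- Evaluation of a finite sum of modular forms. -/
theorem mf_sum_apply {Γ : Subgroup (GL (Fin 2) ℝ)} {k : ℤ} {ι : Type*} (s : Finset ι)
    (f : ι → ModularForm Γ k) (z : ℍ) : (∑ j ∈ s, f j) z = ∑ j ∈ s, f j z := by
  classical
  induction s using Finset.induction_on with
  | empty => rfl
  | insert a s ha ih =>
    rw [Finset.sum_insert ha, Finset.sum_insert ha, ← ih]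
    rfl

/-- One summand `P * F` as a form of weight `k` on `Γ₀(N)`. -/
noncomputable def term {N : ℕ} (B : Gens N) (k : ℤ) (j : B.ι)
    (P : ModularForm 𝒮ℒ (k - B.wt j)) : ModularForm (Gam N) k :=
  ModularForm.mcast (by ring) ((restrictGam N P).mul (B.F j))

theorem term_apply {N : ℕ} (B : Gens N) (k : ℤ) (j : B.ι)
    (P : ModularForm 𝒮ℒ (k - B.wt j)) (z : ℍ) : term B k j P z = P z * B.F j z := rfl

/-- The form `∑ j, P j * F j` of weight `k` on `Γ₀(N)`, linearly in the coefficient family. -/
noncomputable def combo {N : ℕ} (B : Gens N) (k : ℤ) :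
    ((j : B.ι) → ModularForm 𝒮ℒ (k - B.wt j)) →ₗ[ℂ] ModularForm (Gam N) k where
  toFun P := ∑ j, term B k j (P j)
  map_add' P P' := by
    ext z
    have h1 : (∑ j, term B k j (P j) + ∑ j, term B k j (P' j)) z
        = (∑ j, term B k j (P j)) z + (∑ j, term B k j (P' j)) z := rfl
    rw [h1, mf_sum_apply, mf_sum_apply, mf_sum_apply, ← Finset.sum_add_distrib]
    refine Finset.sum_congr rfl fun j _ => ?_
    rw [term_apply, term_apply, term_apply]
    change (P j z + P' j z) * B.F j z = P j z * B.F j z + P' j z * B.F j z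
    ring
  map_smul' c P := by
    ext z
    have h1 : (c • ∑ j, term B k j (P j)) z = c * (∑ j, term B k j (P j)) z := rfl
    rw [RingHom.id_apply, h1, mf_sum_apply, mf_sum_apply, Finset.mul_sum]
    refine Finset.sum_congr rfl fun j _ => ?_
    rw [term_apply, term_apply]
    change (c * P j z) * B.F j z = c * (P j z * B.F j z)
    ring

theorem combo_apply {N : ℕ} (B : Gens N) (k : ℤ) (P : (j : B.ι) → ModularForm 𝒮ℒ (k - B.wt j))
    (z : ℍ) : combo B k P z = ∑ j, P j z * B.F j z := by
  change (∑ j, term B k j (P j)) z = _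
  rw [mf_sum_apply]
  rfl

theorem combo_injective {N : ℕ} (B : Gens N) (hB : B.IsIndep) (k : ℤ) :
    Function.Injective (combo B k) := by
  rw [← LinearMap.ker_eq_bot, LinearMap.ker_eq_bot']
  intro P hP
  funext j
  refine hB k P (fun z => ?_) j
  rw [← combo_apply, hP]
  rfl

/-- The first `m + 1` `q`-expansion coefficients, as a linear map. -/
noncomputable def coeffMap (N : ℕ) (k : ℤ) (m : ℕ) :
    ModularForm (Gam N) k →ₗ[ℂ] (Fin (m + 1) → ℂ) where
  toFun f n := (qExpansion 1 f).coeff n
  map_add' f g := by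
    funext n
    have := ModularForm.qExpansion_add (h := 1) one_pos
      (CongruenceSubgroup.one_mem_strictPeriods_Gamma0 N) f g
    have h2 : (⇑(f + g) : ℍ → ℂ) = ⇑f + ⇑g := rfl
    simp only [Pi.add_apply]
    rw [h2, this, map_add]
  map_smul' c f := by
    funext n
    have := ModularForm.qExpansion_smul (h := 1) one_pos
      (CongruenceSubgroup.one_mem_strictPeriods_Gamma0 N) c f
    have h2 : (⇑(c • f) : ℍ → ℂ) = c • ⇑f := rfl
    simp only [Pi.smul_apply, RingHom.id_apply]
    rw [h2, this]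
    simp

/-- Sturm bound as an injectivity statement. -/
theorem coeffMap_injective (N : ℕ) [NeZero N] (k : ℤ) :
    Function.Injective
      (coeffMap N k ((k * (CongruenceSubgroup.Gamma0 N).index).toNat / 12)) := by
  rw [← LinearMap.ker_eq_bot, LinearMap.ker_eq_bot']
  intro f hf
  refine ModularForm.sturm_bound_Gamma0 N f fun n hn => ?_
  have := congrFun hf ⟨n, Nat.lt_succ_of_le hn⟩
  simpa [coeffMap] using this

/-- Dimension count: `∑ j, dim M_{k - wt j}(SL(2,ℤ)) ≤ k μ / 12 + 1`. -/
theorem sum_finrank_le (N : ℕ) [NeZero N] (B : Gens N) (hB : B.IsIndep) (k : ℤ) :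
    ∑ j, Module.finrank ℂ (ModularForm 𝒮ℒ (k - B.wt j))
      ≤ (k * (CongruenceSubgroup.Gamma0 N).index).toNat / 12 + 1 := by
  have hinj : Function.Injective
      ((coeffMap N k ((k * (CongruenceSubgroup.Gamma0 N).index).toNat / 12)).comp (combo B k)) :=
    (coeffMap_injective N k).comp (combo_injective B hB k)
  have h := LinearMap.finrank_le_finrank_of_injective hinj
  rw [Module.finrank_pi_fintype] at h
  simpa using h

/-- The generators of an independent family have even weight. -/
theorem even_wt (N : ℕ) [NeZero N] (B : Gens N) (hB : B.IsIndep) (j : B.ι) : Even (B.wt j) := by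
  classical
  by_contra hodd
  rw [Nat.not_even_iff_odd] at hodd
  have hodd' : Odd ((B.wt j : ℕ) : ℤ) := by exact_mod_cast hodd
  -- all forms of weight `wt j` vanish, so `combo` is zero there, contradicting injectivity
  have hzero : ∀ f : ModularForm (Gam N) (B.wt j), f = 0 :=
    fun f => ModularForm.eq_zero_of_neg_one_mem (neg_one_mem_gam N) hodd' f
  let c : ModularForm 𝒮ℒ ((B.wt j : ℤ) - B.wt j) := ModularForm.mcast (by ring) (ModularForm.const 1)
  have hc : c ≠ 0 := by
    intro h
    have := congrArg (fun f : ModularForm 𝒮ℒ ((B.wt j : ℤ) - B.wt j) => f UpperHalfPlane.I) h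
    simp [c, ModularForm.mcast_apply] at this
  have h1 : combo B (B.wt j) (Pi.single j c) = combo B (B.wt j) 0 := by
    rw [hzero (combo B (B.wt j) (Pi.single j c)), hzero (combo B (B.wt j) 0)]
  have h2 := combo_injective B hB _ h1
  have h3 := congrFun h2 j
  simp only [Pi.single_eq_same, Pi.zero_apply] at h3
  exact hc h3

/-- Level-one dimension lower bound for even natural weights. -/
theorem le_finrank_levelOne (w : ℕ) (hw : Even w) :
    w / 12 ≤ Module.finrank ℂ (ModularForm 𝒮ℒ (w : ℤ)) := by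
  have h : Module.finrank ℂ (ModularForm 𝒮ℒ (w : ℤ)) =
      if w % 12 = 2 then w / 12 else w / 12 + 1 := by
    apply Module.finrank_eq_of_rank_eq
    rw [ModularForm.dimension_level_one w hw]
    simp only [Nat.ModEq]
    norm_num
  rw [h]
  split_ifs <;> omega

/-- **`hcardle` of `helper20.core_of_parts`.** -/
theorem cardle (N : ℕ) [NeZero N] (B : Gens N) (hB : B.IsIndep) : B.CardLe := by
  unfold Gens.CardLe
  rw [mu_eq_index]
  set μ := (CongruenceSubgroup.Gamma0 N).index with hμ
  set n := Fintype.card B.ι with hn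
  set W := ∑ j, B.wt j with hW
  by_contra hlt
  have hlt' : μ + 1 ≤ n := by omega
  set t : ℕ := (μ + 1) * W + 2 with ht
  have hmain := sum_finrank_le N B hB ((12 * t : ℕ) : ℤ)
  have hupper : (((12 * t : ℕ) : ℤ) * (μ : ℤ)).toNat / 12 + 1 = t * μ + 1 := by
    have : (((12 * t : ℕ) : ℤ) * (μ : ℤ)).toNat = 12 * (t * μ) := by
      have : (((12 * t : ℕ) : ℤ) * (μ : ℤ)) = ((12 * (t * μ) : ℕ) : ℤ) := by push_cast; ring
      rw [this, Int.toNat_natCast]
    rw [this, Nat.mul_div_cancel_left _ (by norm_num : 0 < 12)]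
  rw [hupper] at hmain
  have hlower : ∀ j, t - W ≤ Module.finrank ℂ (ModularForm 𝒮ℒ (((12 * t : ℕ) : ℤ) - B.wt j)) := by
    intro j
    have hjW : B.wt j ≤ W := Finset.single_le_sum (f := fun j => B.wt j)
      (fun _ _ => Nat.zero_le _) (Finset.mem_univ j)
    have htW : W ≤ t := by rw [ht]; nlinarith [Nat.zero_le (μ * W)]
    have hle : B.wt j ≤ 12 * t := by omega
    have hcast : (((12 * t : ℕ) : ℤ) - B.wt j) = ((12 * t - B.wt j : ℕ) : ℤ) := by
      rw [Nat.cast_sub hle]
    rw [hcast]
    have heven : Even (12 * t - B.wt j) := by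
      obtain ⟨r, hr⟩ := even_wt N B hB j
      exact ⟨6 * t - r, by omega⟩
    refine le_trans ?_ (le_finrank_levelOne _ heven)
    omega
  have hsum : n * (t - W) ≤ t * μ + 1 := by
    calc n * (t - W) = ∑ _j : B.ι, (t - W) := by
          rw [Finset.sum_const, Finset.card_univ, smul_eq_mul]
      _ ≤ ∑ j, Module.finrank ℂ (ModularForm 𝒮ℒ (((12 * t : ℕ) : ℤ) - B.wt j)) :=
          Finset.sum_le_sum fun j _ => hlower j
      _ ≤ t * μ + 1 := hmain
  have h1 : (μ + 1) * (t - W) ≤ n * (t - W) := Nat.mul_le_mul_right _ hlt'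
  have h2 : t - W = μ * W + 2 := by
    rw [ht]
    have : (μ + 1) * W + 2 - W = μ * W + 2 := by
      have : (μ + 1) * W = μ * W + W := by ring
      omega
    exact this
  rw [h2] at h1 hsum
  have h3 : t * μ + 1 = μ * (μ * W) + μ * W + 2 * μ + 1 := by rw [ht]; ring
  have h4 : (μ + 1) * (μ * W + 2) = μ * (μ * W) + μ * W + 2 * μ + 2 := by ring
  rw [h3] at hsum
  rw [h4] at h1
  omega


/-! ### `hm0`: exactly one generator of weight `0` -/

/-- Weight-zero forms on `Γ₀(N)` form a one-dimensional space. -/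
theorem finrank_weight_zero (N : ℕ) [NeZero N] :
    Module.finrank ℂ (ModularForm (Gam N) 0) = 1 := by
  let L : ℂ →ₗ[ℂ] ModularForm (Gam N) 0 :=
    { toFun := fun c => ModularForm.const c
      map_add' := fun a b => by ext z; rfl
      map_smul' := fun c a => by ext z; rfl }
  have hinj : Function.Injective L := by
    intro a b h
    have := congrArg (fun f : ModularForm (Gam N) 0 => f UpperHalfPlane.I) h
    simpa [L] using this
  have hsurj : Function.Surjective L := by
    intro f
    obtain ⟨c, hc⟩ := ModularForm.eq_const_of_weight_zero f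
    refine ⟨c, ?_⟩
    ext z
    rw [hc]
    rfl
  have := (LinearEquiv.ofBijective L ⟨hinj, hsurj⟩).finrank_eq
  rw [← this]
  simp

/-- Level-one forms of weight `0 - w`. -/
theorem finrank_levelOne_zero_sub (w : ℕ) :
    Module.finrank ℂ (ModularForm 𝒮ℒ ((0 : ℤ) - (w : ℤ))) = if w = 0 then 1 else 0 := by
  split_ifs with h
  · subst h
    have h0 : Module.finrank ℂ (ModularForm 𝒮ℒ ((0 : ℕ) : ℤ)) = 1 := by
      apply Module.finrank_eq_of_rank_eq
      rw [ModularForm.dimension_level_one 0 ⟨0, rfl⟩]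
      simp [Nat.ModEq]
    have e : ((0 : ℤ) - ((0 : ℕ) : ℤ)) = ((0 : ℕ) : ℤ) := by simp
    rw [e]
    exact h0
  · apply Module.finrank_eq_of_rank_eq
    rw [ModularForm.levelOne_neg_weight_rank_zero (by omega)]
    simp

theorem combo_surjective {N : ℕ} (B : Gens N) (hB : B.IsSpanning) (k : ℤ) :
    Function.Surjective (combo B k) := by
  intro f
  obtain ⟨P, hP⟩ := hB k f
  refine ⟨P, ?_⟩
  ext z
  rw [combo_apply, hP z]

/-- **`hm0` of `helper20.core_of_parts`**: a basis has exactly one generator of weight `0`. -/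
theorem stmt_M0 (N : ℕ) [NeZero N] (B : Gens N) (hB : B.IsBasis) : B.Stmt_M0 := by
  unfold Gens.Stmt_M0 Gens.cnt
  have h1 := (LinearEquiv.ofBijective (combo B 0)
    ⟨combo_injective B hB.2 0, combo_surjective B hB.1 0⟩).finrank_eq
  rw [Module.finrank_pi_fintype, finrank_weight_zero] at h1
  rw [Finset.card_filter]
  have h2 : (∑ j, if B.wt j = 0 then 1 else 0)
      = ∑ j, Module.finrank ℂ (ModularForm 𝒮ℒ ((0 : ℤ) - (B.wt j : ℤ))) :=
    Finset.sum_congr rfl fun j _ => (finrank_levelOne_zero_sub (B.wt j)).symm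
  exact h2.trans h1

end Fermat.Agent.S20.helper435
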