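/-
S20, sandwich route (seat helper440): `helper20.Goal_Lower` (captain's `helper20_Sandwich`
shape) from the Mathlib-only lemma `finrank_modularForm_two_add_one_le` of `helper440_Lower`.
-/
import Fermat.Agent.S20.helper440_Lower
import Fermat.Agent.S20.helper20_Sandwich

set_option autoImplicit false

open UpperHalfPlane ModularForm
open scoped MatrixGroups

namespace Fermat.Agent.S20.helper440

/-- (LOWER), captain's shape, for every arithmetic `𝒢` with `det = 1`. -/
theorem stmt_Lower20 (𝒢 : Subgroup (GL (Fin 2) ℝ)) [𝒢.IsArithmetic] [𝒢.HasDetOne] :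
    Fermat.Agent.S20.helper20.Stmt_Lower 𝒢 := by
  unfold Fermat.Agent.S20.helper20.Stmt_Lower
  rw [Fermat.Agent.S20.helper3006.finrank_MFG, Fermat.Agent.S20.helper3006.finrank_CFG]
  exact finrank_modularForm_two_add_one_le (𝒢 := 𝒢)

/-- `helper20.Goal_Lower`, exact shape. -/
theorem goal_Lower20 : Fermat.Agent.S20.helper20.Goal_Lower :=
  fun 𝒢 _ _ _ _ => stmt_Lower20 𝒢

end Fermat.Agent.S20.helper440
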