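/-
S20 (seat helper440): SANDWICH PRE-ASSEMBLY.  All goals that are proved on main are plugged
into `helper260.goal_S20_of_sandwich`; what remains are exactly the two goals
`helper560.Goal_BasisM` and `helper260.Goal_SumWeights`.
-/
import Fermat.Agent.S20.helper260_Sandwich
import Fermat.Agent.S20.helper260_Upper
import Fermat.Agent.S20.helper440_GoalLower
import Fermat.Agent.S20.helper3006_Basic
import Fermat.Agent.S20.helper3006_Hilbert
import Fermat.Agent.S20.helper387_GoalODE
import Fermat.Agent.S20.helper1774_Ell
import Fermat.Agent.S20.helper1982_GoodLevel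
import Fermat.Agent.S20.helper200_GoalSeed
import Fermat.Agent.S20.helper2600_Goals

set_option autoImplicit false

namespace Fermat.Agent.S20.helper440

open Fermat.Agent.S20.helper560

/-- `Goal_S20` from the two goals of the sandwich route that are not yet proved on main. -/
theorem goal_S20_of_two (hBM : Goal_BasisM) (hSW : Fermat.Agent.S20.helper260.Goal_SumWeights) :
    Goal_S20 :=
  Fermat.Agent.S20.helper260.goal_S20_of_sandwich
    Fermat.Agent.S20.helper3006.goal_Basic Fermat.Agent.S20.helper3006.goal_Hilbert
    Fermat.Agent.S20.helper3006.goal_RRdim hBM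
    Fermat.Agent.S20.helper387.goal_ODEM
    Fermat.Agent.S20.helper1774.goal_EllS Fermat.Agent.S20.helper1774.goal_EllST hSW
    Fermat.Agent.S20.helper260.goal_Upper goal_Lower
    Fermat.Agent.S20.helper1982.goal_GoodLevel Fermat.Agent.S20.helper200.goal_Seed
    Fermat.Agent.S20.helper2600.goal_Index Fermat.Agent.S20.helper2600.goal_E2
    Fermat.Agent.S20.helper2600.goal_E3 Fermat.Agent.S20.helper2600.goal_Cusps

/-- The frozen statement S20 (verbatim), from the two remaining goals. -/
theorem s20_of_two (hBM : Goal_BasisM) (hSW : Fermat.Agent.S20.helper260.Goal_SumWeights)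
    (N : ℕ) [NeZero N] :
    (Module.finrank ℂ (CuspForm (CongruenceSubgroup.Gamma0 N) 2) : ℚ) =
      ModularCurve.genusFormula N :=
  goal_S20_of_two hBM hSW N

end Fermat.Agent.S20.helper440
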