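/-
S20 (dim S₂(Γ₀(N)) = genus formula), CUSP chunk.  Author seat: helper457.

Analytic input at the cusps for the elementary (free module over ℂ[E₄,E₆]) route, for an
arbitrary arithmetic `𝒢 ≤ 𝒮ℒ` with `GoodLevel 𝒢 N` (helper560_Defs).  Everything is phrased with
Mathlib's `SlashInvariantForm.quotientFunc` (translates `F_q`, `q : Q 𝒢 = 𝒮ℒ ⧸ 𝒢`).

Main results (all sorry-free):
* `nice_qf` : every translate `F_q` of `F : ModularForm 𝒢 k` is holomorphic, bounded at `i∞`
  and `N`-periodic, hence has a `q_N`-expansion with coefficients `cq N F q n`.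
* `cq_T_inv_smul` : `cq N F (T⁻¹ • q) n = ζ_N ^ n * cq N F q n`.
* `exists_eq_discriminant_mul` (DIVISION): if `cq N F q n = 0` for all `q` and all `n < N`
  then `F = Δ * G` with `G : ModularForm 𝒢 (k - 12)`.
* `leadMap`, `cstMap : ModularForm 𝒢 k →ₗ[ℂ] (Q 𝒢 → ℂ)` (leading vector / constant terms),
  `fourier_inversion`, `ker_leadMap_le_range_mulDisc`, `leadMap_surjective`,
  `ker_cstMap` (= cusp forms), `range_cstMap` (= `T`-invariant vectors), `finrank_invSub`.
* `finrank_modularForm_eq_cuspForm_add_cusps` : if `dim M_k = dim M_{k-12} + μ` then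
  `dim M_k = dim S_k + #cusps`.
-/
import Mathlib
import Fermat.Agent.S20.helper560_Defs

set_option autoImplicit false
set_option linter.unusedSectionVars false
set_option linter.unusedVariables false

open ModularForm Complex Filter Function
open UpperHalfPlane hiding I
open scoped MatrixGroups Manifold Topology Real Pointwise
open Fermat.Agent.S20.helper560

namespace Fermat.Agent.S20.helper457

local notation "𝕢" => Periodic.qParam

/-! ### Analytic preliminaries: functions with a `q_N`-expansion -/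

/-- If the first `N` coefficients of the power series of `G` at `0` vanish then
`G w = w ^ N • H w` with `H` the `N`-fold iterated `dslope`. -/
theorem eq_pow_smul_iterate_dslope {p : FormalMultilinearSeries ℂ ℂ ℂ} (N : ℕ) :
    ∀ {G : ℂ → ℂ}, HasFPowerSeriesAt G p 0 → (∀ m < N, p.coeff m = 0) →
      ∀ w, G w = w ^ N • (swap dslope 0)^[N] G w := by
  induction N generalizing p with
  | zero => intro G _ _ w; simp
  | succ N ih =>
    intro G hp h0 w
    have hG0 : G 0 = 0 := by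
      have := hp.coeff_zero 1
      rw [← this]
      exact h0 0 (Nat.succ_pos N)
    have h1 : G w = w • dslope G 0 w := by
      have := sub_smul_dslope G 0 w
      simp only [sub_zero, hG0] at this
      exact this.symm
    have h2 := ih (p := p.fslope) hp.has_fpower_series_dslope_fslope
      (fun m hm => by rw [FormalMultilinearSeries.coeff_fslope]; exact h0 (m + 1) (by omega)) w
    rw [Function.iterate_succ_apply, h1, h2, pow_succ, smul_smul]
    simp [swap, mul_comm]

/-- `g : ℍ → ℂ` is holomorphic, bounded at `i∞` and has period `N`. -/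
structure Nice (N : ℕ) (g : ℍ → ℂ) : Prop where
  per : Periodic (g ∘ ofComplex) ((N : ℝ) : ℂ)
  holo : MDiff g
  bdd : IsBoundedAtImInfty g

/-- The `n`-th coefficient of the `q_N`-expansion. -/
noncomputable def co (N : ℕ) (g : ℍ → ℂ) (n : ℕ) : ℂ := (qExpansion (N : ℝ) g).coeff n

section nice

variable {N : ℕ} {g g₁ g₂ : ℍ → ℂ}

theorem Nice.analyticAt (hN : 0 < N) (hg : Nice N g) : AnalyticAt ℂ (cuspFunction (N : ℝ) g) 0 :=
  analyticAt_cuspFunction_zero (by exact_mod_cast hN) hg.per hg.holo hg.bdd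

theorem Nice.hasSum (hN : 0 < N) (hg : Nice N g) (τ : ℍ) :
    HasSum (fun m : ℕ ↦ co N g m • 𝕢 (N : ℝ) τ ^ m) (g τ) :=
  hasSum_qExpansion (by exact_mod_cast hN) hg.per hg.holo hg.bdd τ

theorem Nice.hasFPowerSeriesAt (hN : 0 < N) (hg : Nice N g) :
    HasFPowerSeriesAt (cuspFunction (N : ℝ) g) (.ofScalars ℂ (co N g)) 0 :=
  (hasFPowerSeriesOnBall_cuspFunction (by exact_mod_cast hN) (hg.analyticAt hN)
    (hg.hasSum hN)).hasFPowerSeriesAt

/-- Uniqueness of the coefficients of a `q_N`-expansion. -/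
theorem Nice.co_unique (hN : 0 < N) (hg : Nice N g) {c : ℕ → ℂ}
    (hc : ∀ τ : ℍ, HasSum (fun m : ℕ ↦ c m • 𝕢 (N : ℝ) τ ^ m) (g τ)) (m : ℕ) :
    c m = co N g m := by
  have h1 := (hasFPowerSeriesOnBall_cuspFunction (by exact_mod_cast hN) (hg.analyticAt hN)
    hc).hasFPowerSeriesAt
  have h2 := hg.hasFPowerSeriesAt hN
  simpa using congr_arg (FormalMultilinearSeries.coeff · m) (h1.eq_formalMultilinearSeries h2)

theorem Nice.co_add (hN : 0 < N) (hg₁ : Nice N g₁) (hg₂ : Nice N g₂) (n : ℕ) :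
    co N (g₁ + g₂) n = co N g₁ n + co N g₂ n := by
  simp [co, qExpansion_add (hg₁.analyticAt hN) (hg₂.analyticAt hN)]

theorem Nice.co_smul (hN : 0 < N) (hg : Nice N g) (c : ℂ) (n : ℕ) :
    co N (c • g) n = c * co N g n := by
  simp [co, qExpansion_smul (hg.analyticAt hN) c]

/-- A nice function tends to its `0`-th coefficient at `i∞`. -/
theorem Nice.tendsto (hN : 0 < N) (hg : Nice N g) : Tendsto g atImInfty (𝓝 (co N g 0)) := by
  have hN' : (0 : ℝ) < N := by exact_mod_cast hN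
  have h0 : co N g 0 = cuspFunction (N : ℝ) g 0 := by simp [co, qExpansion_coeff]
  rw [h0]
  exact ((hg.analyticAt hN).continuousAt.tendsto.comp (qParam_tendsto_atImInfty hN')).congr
    fun τ ↦ eq_cuspFunction τ hN'.ne' hg.per

/-- If the first `N` coefficients of the `q_N`-expansion vanish, the function decays like `q`. -/
theorem Nice.isBigO_exp (hN : 0 < N) (hg : Nice N g) (h0 : ∀ n < N, co N g n = 0) :
    g =O[atImInfty] fun τ : ℍ ↦ Real.exp (-2 * π * τ.im) := by
  have hN' : (0 : ℝ) < N := by exact_mod_cast hN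
  have hps := hg.hasFPowerSeriesAt hN
  have hfac := eq_pow_smul_iterate_dslope N hps
    (fun m hm => by rw [FormalMultilinearSeries.coeff_ofScalars]; exact h0 m hm)
  have hH : ContinuousAt ((swap dslope (0 : ℂ))^[N] (cuspFunction (N : ℝ) g)) 0 :=
    (hps.has_fpower_series_iterate_dslope_fslope N).continuousAt
  have hO : (cuspFunction (N : ℝ) g) =O[𝓝 0] fun w : ℂ ↦ w ^ N := by
    have h1 : ((swap dslope (0 : ℂ))^[N] (cuspFunction (N : ℝ) g)) =O[𝓝 0] (fun _ : ℂ ↦ (1 : ℂ)) :=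
      hH.tendsto.isBigO_one ℂ
    have h2 : (fun w : ℂ ↦ w ^ N • (swap dslope (0 : ℂ))^[N] (cuspFunction (N : ℝ) g) w)
        =O[𝓝 0] fun w : ℂ ↦ w ^ N • (1 : ℂ) :=
      (Asymptotics.isBigO_refl (fun w : ℂ ↦ w ^ N) (𝓝 0)).smul h1
    rw [show cuspFunction (N : ℝ) g = fun w : ℂ ↦
      w ^ N • (swap dslope (0 : ℂ))^[N] (cuspFunction (N : ℝ) g) w from funext hfac]
    simpa using h2
  have hcomp := hO.comp_tendsto (qParam_tendsto_atImInfty hN')
  refine (hcomp.congr_left fun τ => ?_).trans (Asymptotics.IsBigO.of_norm_eventuallyLE ?_)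
  · simpa using eq_cuspFunction τ hN'.ne' hg.per
  · filter_upwards with τ
    simp only [Function.comp_apply, norm_pow, Periodic.norm_qParam]
    rw [← Real.exp_nat_mul]
    apply le_of_eq
    congr 1
    simp only [UpperHalfPlane.coe_im]
    field_simp

/-- Coefficients of the translate `τ ↦ g (τ + 1)`. -/
theorem Nice.co_shift (hN : 0 < N) (hg : Nice N g) (hg' : Nice N fun τ : ℍ ↦ g ((1 : ℝ) +ᵥ τ))
    (n : ℕ) :
    co N (fun τ : ℍ ↦ g ((1 : ℝ) +ᵥ τ)) n = Complex.exp (2 * π * I / N) ^ n * co N g n := by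
  have hN' : (0 : ℝ) < N := by exact_mod_cast hN
  have key : ∀ τ : ℍ, HasSum (fun m : ℕ ↦ (Complex.exp (2 * π * I / N) ^ m * co N g m) •
      𝕢 (N : ℝ) τ ^ m) (g ((1 : ℝ) +ᵥ τ)) := by
    intro τ
    have h := hg.hasSum hN ((1 : ℝ) +ᵥ τ)
    have hq : 𝕢 (N : ℝ) (((1 : ℝ) +ᵥ τ : ℍ) : ℂ) = Complex.exp (2 * π * I / N) * 𝕢 (N : ℝ) τ := by
      rw [Periodic.qParam, Periodic.qParam, ← Complex.exp_add, UpperHalfPlane.coe_vadd]
      congr 1
      push_cast
      ring
    convert h using 2 with m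
    rw [hq, mul_pow, smul_eq_mul, smul_eq_mul]
    ring
  exact (hg'.co_unique hN key n).symm

end nice

/-! ### Translates of a modular form -/

section modular

variable {𝒢 : Subgroup (GL (Fin 2) ℝ)} [𝒢.IsArithmetic] [𝒢.HasDetOne] {N : ℕ} {k : ℤ}

/-- The translate of `F` attached to the coset `q` (Mathlib's `quotientFunc` for `ℋ = 𝒮ℒ`). -/
noncomputable abbrev qf (F : ModularForm 𝒢 k) (q : Q 𝒢) : ℍ → ℂ :=
  SlashInvariantForm.quotientFunc (ℋ := 𝒮ℒ) F q

theorem SL_slash_mapGL (f : ℍ → ℂ) (k : ℤ) (γ : SL(2, ℤ)) :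
    f ∣[k] γ = f ∣[k] (Matrix.SpecialLinearGroup.mapGL ℝ γ) := rfl

/-- Translates of a modular form by `SL(2, ℤ)` have a `q_N`-expansion. -/
theorem nice_slash (hG : GoodLevel 𝒢 N) (F : ModularForm 𝒢 k) (γ : SL(2, ℤ)) :
    Nice N ((F : ℍ → ℂ) ∣[k] γ) where
  per := by
    have hper : (N : ℝ) ∈ (ConjAct.toConjAct (Matrix.SpecialLinearGroup.mapGL ℝ γ)⁻¹ •
        𝒢).strictPeriods := by
      simpa using hG.per γ⁻¹
    exact SlashInvariantFormClass.periodic_comp_ofComplex
      (ModularForm.translate F (Matrix.SpecialLinearGroup.mapGL ℝ γ)) hper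
  holo := (ModularFormClass.holo F).slash k _
  bdd := ModularFormClass.bdd_at_infty_slash F γ

/-- Every coset translate is a slash by an element of `SL(2, ℤ)` (uniformly in the form). -/
theorem exists_slash_eq (q : Q 𝒢) :
    ∃ γ : SL(2, ℤ), ∀ {k : ℤ} (F : ModularForm 𝒢 k), qf F q = (F : ℍ → ℂ) ∣[k] γ := by
  induction q using QuotientGroup.induction_on with
  | H h =>
    obtain ⟨γ, hγ⟩ := h.2
    refine ⟨γ⁻¹, fun {k} F => ?_⟩
    change (F : ℍ → ℂ) ∣[k] h.val⁻¹ = _
    rw [SL_slash_mapGL, map_inv, hγ]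

/-- Every slash by an element of `SL(2, ℤ)` is a coset translate. -/
theorem slash_eq_qf (F : ModularForm 𝒢 k) (γ : SL(2, ℤ)) :
    (F : ℍ → ℂ) ∣[k] γ = qf F ((sl γ⁻¹ : 𝒮ℒ) : Q 𝒢) := by
  change _ = (F : ℍ → ℂ) ∣[k] (sl γ⁻¹).val⁻¹
  rw [SL_slash_mapGL]
  simp [sl]

theorem nice_qf (hG : GoodLevel 𝒢 N) (F : ModularForm 𝒢 k) (q : Q 𝒢) : Nice N (qf F q) := by
  obtain ⟨γ, hγ⟩ := exists_slash_eq q
  rw [hγ F]
  exact nice_slash hG F γ

theorem qf_add (F G : ModularForm 𝒢 k) (q : Q 𝒢) : qf (F + G) q = qf F q + qf G q := by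
  obtain ⟨γ, hγ⟩ := exists_slash_eq q
  rw [hγ, hγ, hγ]
  exact SlashAction.add_slash k γ _ _

theorem qf_smul (c : ℂ) (F : ModularForm 𝒢 k) (q : Q 𝒢) : qf (c • F) q = c • qf F q := by
  obtain ⟨γ, hγ⟩ := exists_slash_eq q
  rw [hγ, hγ]
  exact SL_smul_slash k γ _ c

/-- The translate attached to `T⁻¹ • q` is the translate attached to `q` shifted by `1`. -/
theorem qf_T_inv_smul (F : ModularForm 𝒢 k) (q : Q 𝒢) (τ : ℍ) :
    qf F ((sl ModularGroup.T)⁻¹ • q) τ = qf F q ((1 : ℝ) +ᵥ τ) := by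
  have h := SlashInvariantForm.quotientFunc_smul (ℋ := 𝒮ℒ) F (sl ModularGroup.T).2 q
  have h2 : qf F ((sl ModularGroup.T)⁻¹ • q) = qf F q ∣[k] ModularGroup.T := h.symm
  rw [h2, SL_slash_apply, modular_T_smul]
  simp [denom, ModularGroup.T]

/-- The `n`-th `q_N`-coefficient of the translate attached to the coset `q`. -/
noncomputable def cq (N : ℕ) (F : ModularForm 𝒢 k) (q : Q 𝒢) (n : ℕ) : ℂ := co N (qf F q) n

theorem cq_add (hG : GoodLevel 𝒢 N) (F G : ModularForm 𝒢 k) (q : Q 𝒢) (n : ℕ) :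
    cq N (F + G) q n = cq N F q n + cq N G q n := by
  rw [cq, qf_add]
  exact (nice_qf hG F q).co_add hG.pos (nice_qf hG G q) n

theorem cq_smul (hG : GoodLevel 𝒢 N) (c : ℂ) (F : ModularForm 𝒢 k) (q : Q 𝒢) (n : ℕ) :
    cq N (c • F) q n = c * cq N F q n := by
  rw [cq, qf_smul]
  exact (nice_qf hG F q).co_smul hG.pos c n

/-- The primitive `N`-th root of unity `e^{2πi/N}`. -/
noncomputable def zetaN (N : ℕ) : ℂ := Complex.exp (2 * π * I / N)

theorem cq_T_inv_smul (hG : GoodLevel 𝒢 N) (F : ModularForm 𝒢 k) (q : Q 𝒢) (n : ℕ) :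
    cq N F ((sl ModularGroup.T)⁻¹ • q) n = zetaN N ^ n * cq N F q n := by
  have h1 := nice_qf hG F q
  have h2 := nice_qf hG F ((sl ModularGroup.T)⁻¹ • q)
  have h3 : qf F ((sl ModularGroup.T)⁻¹ • q) = fun τ : ℍ ↦ qf F q ((1 : ℝ) +ᵥ τ) :=
    funext (qf_T_inv_smul F q)
  rw [cq, h3]
  exact h1.co_shift hG.pos (h3 ▸ h2) n

theorem cq_T_inv_pow_smul (hG : GoodLevel 𝒢 N) (F : ModularForm 𝒢 k) (q : Q 𝒢) (n t : ℕ) :
    cq N F (((sl ModularGroup.T)⁻¹) ^ t • q) n = zetaN N ^ (n * t) * cq N F q n := by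
  induction t with
  | zero => simp
  | succ t ih =>
    rw [pow_succ', mul_smul, cq_T_inv_smul hG, ih, Nat.mul_succ, pow_add]
    ring

local notation "Δ" => ModularForm.discriminant

/-- **Division by `Δ`**: if the first `N` coefficients of the `q_N`-expansion of every translate
of `F` vanish, then `F = Δ * G` with `G` a modular form of weight `k - 12` on `𝒢`. -/
theorem exists_eq_discriminant_mul (hG : GoodLevel 𝒢 N) (F : ModularForm 𝒢 k)
    (h0 : ∀ q : Q 𝒢, ∀ n < N, cq N F q n = 0) :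
    ∃ G : ModularForm 𝒢 (k - 12), ∀ z, F z = Δ z * G z := by
  have hslash : ∀ γ : SL(2, ℤ), (fun z ↦ F z / Δ z) ∣[k - 12] γ = (⇑F ∣[k] γ) / Δ := by
    intro γ
    have hγ : (γ : GL (Fin 2) ℝ) ∈ 𝒮ℒ := ⟨γ, rfl⟩
    change (⇑F / ⇑CuspForm.discriminant) ∣[k - 12] γ = _
    rw [div_slash_SL2, SL_slash (f := ⇑CuspForm.discriminant),
      SlashInvariantForm.slash_action_eqn CuspForm.discriminant _ hγ]
    rfl
  refine ⟨{ toFun := fun z ↦ F z / Δ z
            slash_action_eq' := ?_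
            holo' := F.holo'.div CuspForm.discriminant.holo' discriminant_ne_zero
            bdd_at_cusps' := ?_ }, fun z ↦ ?_⟩
  · intro γ hγ
    obtain ⟨γ', rfl⟩ := hG.le hγ
    have := hslash γ'
    rw [SL_slash_mapGL] at this
    have h2 : (⇑F ∣[k] γ') = ⇑F := SlashInvariantForm.slash_action_eqn F _ hγ
    rw [this, h2]
    rfl
  · intro c hc
    rw [Subgroup.IsArithmetic.isCusp_iff_isCusp_SL2Z] at hc
    rw [OnePoint.isBoundedAt_iff_forall_SL2Z hc]
    intro γ _
    have hO : (⇑F ∣[k] γ) =O[atImInfty] Δ := by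
      refine ((nice_slash hG F γ).isBigO_exp hG.pos ?_).trans exp_isBigO_discriminant
      intro n hn
      rw [slash_eq_qf]
      exact h0 _ n hn
    change IsBoundedAtImInfty ((fun z ↦ F z / Δ z) ∣[k - 12] γ)
    rw [hslash γ, IsBoundedAtImInfty, BoundedAtFilter]
    exact (Asymptotics.div_isBoundedUnder_of_isBigO hO).isBigO_one ℝ
  · change F z = Δ z * (F z / Δ z)
    rw [mul_div_cancel₀ _ (discriminant_ne_zero z)]

/-! ### Finite Fourier inversion along `T`-orbits -/

theorem zetaN_isPrimitiveRoot (hN : 0 < N) : IsPrimitiveRoot (zetaN N) N :=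
  Complex.isPrimitiveRoot_exp N hN.ne'

theorem sum_zetaN_pow (hN : 0 < N) {m n : ℕ} (hm : m < N) (hn : n < N) :
    ∑ t ∈ Finset.range N, (zetaN N ^ m * (zetaN N)⁻¹ ^ n) ^ t = if m = n then (N : ℂ) else 0 := by
  have hζ := zetaN_isPrimitiveRoot hN
  have hζ0 : zetaN N ≠ 0 := hζ.ne_zero hN.ne'
  split_ifs with h
  · subst h
    have : zetaN N ^ m * (zetaN N)⁻¹ ^ m = 1 := by
      rw [← mul_pow, mul_inv_cancel₀ hζ0, one_pow]
    rw [Finset.sum_congr rfl (fun t _ => by rw [this, one_pow])]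
    simp
  · set ω := zetaN N ^ m * (zetaN N)⁻¹ ^ n with hω
    have hω1 : ω ≠ 1 := by
      intro h1
      apply h
      apply hζ.pow_inj hm hn
      have : zetaN N ^ m = ω * zetaN N ^ n := by
        rw [hω, mul_assoc, ← mul_pow, inv_mul_cancel₀ hζ0, one_pow, mul_one]
      rw [this, h1, one_mul]
    have hωN : ω ^ N = 1 := by
      rw [hω, mul_pow, ← pow_mul, ← pow_mul, mul_comm m N, mul_comm n N, pow_mul, pow_mul,
        inv_pow, hζ.pow_eq_one]
      simp
    have := mul_geom_sum ω N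
    rw [hωN, sub_self] at this
    exact (mul_eq_zero.mp this).resolve_left (sub_ne_zero.mpr hω1)

/-- The leading vector of `F`: the sum of the first `N` coefficients of the `q_N`-expansions
of the translates. -/
noncomputable def leadMap (hG : GoodLevel 𝒢 N) (k : ℤ) : ModularForm 𝒢 k →ₗ[ℂ] (Q 𝒢 → ℂ) where
  toFun F q := ∑ n ∈ Finset.range N, cq N F q n
  map_add' F G := by
    ext q
    simp [cq_add hG, Finset.sum_add_distrib]
  map_smul' c F := by
    ext q
    simp [cq_smul hG, Finset.mul_sum]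

/-- The constant term vector of `F`: the values at `i∞` of the translates. -/
noncomputable def cstMap (hG : GoodLevel 𝒢 N) (k : ℤ) : ModularForm 𝒢 k →ₗ[ℂ] (Q 𝒢 → ℂ) where
  toFun F q := cq N F q 0
  map_add' F G := by
    ext q
    simp [cq_add hG]
  map_smul' c F := by
    ext q
    simp [cq_smul hG]

theorem leadMap_apply (hG : GoodLevel 𝒢 N) (F : ModularForm 𝒢 k) (q : Q 𝒢) :
    leadMap hG k F q = ∑ n ∈ Finset.range N, cq N F q n := rfl

theorem cstMap_apply (hG : GoodLevel 𝒢 N) (F : ModularForm 𝒢 k) (q : Q 𝒢) :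
    cstMap hG k F q = cq N F q 0 := rfl

/-- Finite Fourier inversion: the individual coefficients are recovered from the leading
vector. -/
theorem fourier_inversion (hG : GoodLevel 𝒢 N) (F : ModularForm 𝒢 k) (q : Q 𝒢) {n : ℕ}
    (hn : n < N) :
    ∑ t ∈ Finset.range N, (zetaN N)⁻¹ ^ (n * t) *
      leadMap hG k F (((sl ModularGroup.T)⁻¹) ^ t • q) = N * cq N F q n := by
  have h1 : ∀ t ∈ Finset.range N, (zetaN N)⁻¹ ^ (n * t) *
      leadMap hG k F (((sl ModularGroup.T)⁻¹) ^ t • q) =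
      ∑ m ∈ Finset.range N, cq N F q m * (zetaN N ^ m * (zetaN N)⁻¹ ^ n) ^ t := by
    intro t _
    rw [leadMap_apply, Finset.mul_sum]
    refine Finset.sum_congr rfl fun m _ => ?_
    rw [cq_T_inv_pow_smul hG, mul_pow, ← pow_mul, ← pow_mul]
    ring
  rw [Finset.sum_congr rfl h1, Finset.sum_comm]
  have h2 : ∀ m ∈ Finset.range N, ∑ t ∈ Finset.range N,
      cq N F q m * (zetaN N ^ m * (zetaN N)⁻¹ ^ n) ^ t =
      if m = n then (N : ℂ) * cq N F q n else 0 := by
    intro m hm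
    rw [← Finset.mul_sum, sum_zetaN_pow hG.pos (Finset.mem_range.mp hm) hn]
    split_ifs with h
    · subst h; ring
    · simp
  rw [Finset.sum_congr rfl h2, Finset.sum_ite_eq' (Finset.range N) n]
  simp [hn]

theorem cq_eq_zero_of_leadMap_eq_zero (hG : GoodLevel 𝒢 N) (F : ModularForm 𝒢 k)
    (hF : leadMap hG k F = 0) (q : Q 𝒢) {n : ℕ} (hn : n < N) : cq N F q n = 0 := by
  have h := fourier_inversion hG F q hn
  rw [hF] at h
  have hN : (N : ℂ) ≠ 0 := by exact_mod_cast hG.pos.ne'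
  simpa [hN] using h.symm

/-! ### Multiplication by `Δ` and surjectivity of the leading map -/

/-- `Δ` as a modular form on `𝒢 ≤ 𝒮ℒ`. -/
noncomputable def discG (hG : GoodLevel 𝒢 N) : ModularForm 𝒢 12 where
  toFun := Δ
  slash_action_eq' γ hγ := CuspForm.discriminant.slash_action_eq' γ (hG.le hγ)
  holo' := CuspForm.discriminant.holo'
  bdd_at_cusps' hc g hg :=
    (CuspForm.discriminant.zero_at_cusps' (hc.mono hG.le) g hg).boundedAtFilter

/-- Multiplication by `Δ`, as a linear map `M_{k-12}(𝒢) → M_k(𝒢)`. -/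
noncomputable def mulDisc (hG : GoodLevel 𝒢 N) (k : ℤ) :
    ModularForm 𝒢 (k - 12) →ₗ[ℂ] ModularForm 𝒢 k where
  toFun G := ((discG hG).mul G).mcast (by ring)
  map_add' G₁ G₂ := by
    ext z
    change Δ z * (G₁ z + G₂ z) = Δ z * G₁ z + Δ z * G₂ z
    ring
  map_smul' c G := by
    ext z
    change Δ z * (c * G z) = c * (Δ z * G z)
    ring

theorem mulDisc_apply (hG : GoodLevel 𝒢 N) (G : ModularForm 𝒢 (k - 12)) (z : ℍ) :
    mulDisc hG k G z = Δ z * G z := rfl

theorem mulDisc_injective (hG : GoodLevel 𝒢 N) : Function.Injective (mulDisc hG k) := by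
  intro G₁ G₂ h
  ext z
  have := congr_arg (fun F : ModularForm 𝒢 k => F z) h
  simp only [mulDisc_apply] at this
  exact mul_left_cancel₀ (discriminant_ne_zero z) this

theorem ker_leadMap_le_range_mulDisc (hG : GoodLevel 𝒢 N) :
    LinearMap.ker (leadMap hG k) ≤ LinearMap.range (mulDisc hG k) := by
  intro F hF
  obtain ⟨G, hG'⟩ := exists_eq_discriminant_mul hG F
    (fun q n hn => cq_eq_zero_of_leadMap_eq_zero hG F (LinearMap.mem_ker.mp hF) q hn)
  exact ⟨G, by ext z; rw [mulDisc_apply, hG' z]⟩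

/-- If `dim M_k = dim M_{k-12} + μ` then the leading map is onto `ℂ^Q`. -/
theorem leadMap_surjective (hG : GoodLevel 𝒢 N)
    (h : Module.finrank ℂ (ModularForm 𝒢 k) =
      Module.finrank ℂ (ModularForm 𝒢 (k - 12)) + Nat.card (Q 𝒢)) :
    Function.Surjective (leadMap hG k) := by
  have hpos : 0 < Module.finrank ℂ (ModularForm 𝒢 k) := by
    rw [h]
    have : 0 < Nat.card (Q 𝒢) := Nat.card_pos
    omega
  have hfin : Module.Finite ℂ (ModularForm 𝒢 k) := Module.finite_of_finrank_pos hpos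
  have h1 := LinearMap.finrank_range_add_finrank_ker (leadMap hG k)
  have h2 : Module.finrank ℂ (LinearMap.ker (leadMap hG k)) ≤
      Module.finrank ℂ (ModularForm 𝒢 (k - 12)) := by
    rw [← LinearMap.finrank_range_of_inj (mulDisc_injective hG (k := k))]
    exact Submodule.finrank_mono (ker_leadMap_le_range_mulDisc hG)
  have h3 : Module.finrank ℂ (Q 𝒢 → ℂ) = Nat.card (Q 𝒢) := by
    rw [Module.finrank_fintype_fun_eq_card, Nat.card_eq_fintype_card]
  have h4 : Module.finrank ℂ (LinearMap.range (leadMap hG k)) ≤ Module.finrank ℂ (Q 𝒢 → ℂ) :=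
    Submodule.finrank_le _
  rw [← LinearMap.range_eq_top]
  apply Submodule.eq_top_of_finrank_eq
  omega

/-! ### The constant term map: kernel = cusp forms, range = `T`-invariant vectors -/

theorem cstMap_eq_avg_leadMap (hG : GoodLevel 𝒢 N) (F : ModularForm 𝒢 k) (q : Q 𝒢) :
    ∑ t ∈ Finset.range N, leadMap hG k F (((sl ModularGroup.T)⁻¹) ^ t • q) =
      N * cstMap hG k F q := by
  have h := fourier_inversion hG F q hG.pos
  simpa [cstMap_apply] using h

/-- A modular form lies in the kernel of the constant term map iff it is a cusp form. -/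
theorem ker_cstMap (hG : GoodLevel 𝒢 N) :
    LinearMap.ker (cstMap hG k) = LinearMap.range (CuspForm.toModularFormₗ (Γ := 𝒢) (k := k)) := by
  ext F
  rw [LinearMap.mem_ker]
  constructor
  · intro hF
    have hcusp : ModularForm.IsCuspForm F := by
      rw [ModularForm.isCuspForm_iff]
      intro c hc
      rw [Subgroup.IsArithmetic.isCusp_iff_isCusp_SL2Z] at hc
      rw [OnePoint.isZeroAt_iff_forall_SL2Z hc]
      intro γ _
      have h1 := (nice_slash hG F γ).tendsto hG.pos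
      have h2 : co N ((F : ℍ → ℂ) ∣[k] γ) 0 = 0 := by
        rw [slash_eq_qf]
        exact congr_fun hF _
      rw [h2] at h1
      exact h1
    exact hcusp
  · rintro ⟨f, rfl⟩
    ext q
    obtain ⟨γ, hγ⟩ := exists_slash_eq q
    change co N (qf (CuspForm.toModularFormₗ f) q) 0 = 0
    rw [hγ]
    have h1 := (nice_slash hG (CuspForm.toModularFormₗ f) γ).tendsto hG.pos
    have h2 : IsZeroAtImInfty ((f : ℍ → ℂ) ∣[k] γ) := CuspFormClass.zero_at_infty_slash f γ
    exact tendsto_nhds_unique h1 h2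

/-- The submodule of `T`-invariant vectors of `ℂ^Q`. -/
def invSub (𝒢 : Subgroup (GL (Fin 2) ℝ)) : Submodule ℂ (Q 𝒢 → ℂ) where
  carrier := {v | ∀ q, v ((sl ModularGroup.T)⁻¹ • q) = v q}
  add_mem' {v w} hv hw q := by simp [hv q, hw q]
  zero_mem' q := rfl
  smul_mem' c v hv q := by simp [hv q]

theorem mem_invSub {v : Q 𝒢 → ℂ} :
    v ∈ invSub 𝒢 ↔ ∀ q, v ((sl ModularGroup.T)⁻¹ • q) = v q := Iff.rfl

theorem invSub_pow {v : Q 𝒢 → ℂ} (hv : v ∈ invSub 𝒢) (t : ℕ) (q : Q 𝒢) :
    v (((sl ModularGroup.T)⁻¹) ^ t • q) = v q := by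
  induction t with
  | zero => simp
  | succ t ih => rw [pow_succ', mul_smul, hv, ih]

theorem range_cstMap (hG : GoodLevel 𝒢 N)
    (hsurj : Function.Surjective (leadMap hG k)) :
    LinearMap.range (cstMap hG k) = invSub 𝒢 := by
  have hN : (N : ℂ) ≠ 0 := by exact_mod_cast hG.pos.ne'
  apply le_antisymm
  · rintro _ ⟨F, rfl⟩
    intro q
    rw [cstMap_apply, cstMap_apply, cq_T_inv_smul hG]
    simp
  · intro v hv
    obtain ⟨F, rfl⟩ := hsurj v
    refine ⟨F, ?_⟩
    ext q
    have h := cstMap_eq_avg_leadMap hG F q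
    rw [Finset.sum_congr rfl (fun t _ => invSub_pow hv t q)] at h
    simp only [Finset.sum_const, Finset.card_range, nsmul_eq_mul] at h
    exact (mul_left_cancel₀ hN h).symm

/-- The `T`-invariant vectors are the functions on the set of `T`-orbits; hence their
dimension is the number of cusps. -/
theorem finrank_invSub (𝒢 : Subgroup (GL (Fin 2) ℝ)) [𝒢.IsArithmetic] :
    Module.finrank ℂ (invSub 𝒢) = cusps 𝒢 := by
  classical
  let Ω := MulAction.orbitRel.Quotient (Subgroup.zpowers (sl ModularGroup.T)) (Q 𝒢)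
  let mk : Q 𝒢 → Ω := Quotient.mk''
  have hmk : Function.Surjective mk := Quotient.mk''_surjective
  let φ : (Ω → ℂ) →ₗ[ℂ] (Q 𝒢 → ℂ) := LinearMap.funLeft ℂ ℂ mk
  have hφ : Function.Injective φ := LinearMap.funLeft_injective_of_surjective ℂ ℂ mk hmk
  have hrange : LinearMap.range φ = invSub 𝒢 := by
    apply le_antisymm
    · rintro _ ⟨w, rfl⟩ q
      change w (mk _) = w (mk q)
      congr 1
      apply Quotient.sound
      change MulAction.orbitRel _ _ _ _
      rw [MulAction.orbitRel_apply]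
      exact ⟨⟨(sl ModularGroup.T)⁻¹, inv_mem (Subgroup.mem_zpowers _)⟩, rfl⟩
    · intro v hv
      let S : Subgroup 𝒮ℒ :=
        { carrier := {g | ∀ q : Q 𝒢, v (g • q) = v q}
          mul_mem' := fun {a b} ha hb q => by rw [mul_smul, ha, hb]
          one_mem' := fun q => by rw [one_smul]
          inv_mem' := fun {a} ha q => by
            have := ha (a⁻¹ • q)
            rw [smul_inv_smul] at this
            exact this.symm }
      have hT : sl ModularGroup.T ∈ S := by
        have h1 : (sl ModularGroup.T)⁻¹ ∈ S := hv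
        simpa using S.inv_mem h1
      have hle : Subgroup.zpowers (sl ModularGroup.T) ≤ S := (Subgroup.zpowers_le).mpr hT
      refine ⟨Quotient.lift v ?_, ?_⟩
      · intro a b hab
        have hab' : a ∈ MulAction.orbit (Subgroup.zpowers (sl ModularGroup.T)) b :=
          (MulAction.orbitRel_apply).mp hab
        obtain ⟨g, rfl⟩ := hab'
        exact hle g.2 b
      · ext q
        rfl
  have hfin : Finite Ω := Quotient.finite _
  let _ : Fintype Ω := Fintype.ofFinite Ω
  rw [← hrange, LinearMap.finrank_range_of_inj hφ, Module.finrank_fintype_fun_eq_card, cusps,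
    Nat.card_eq_fintype_card]

/-- **Cusp dimension count** (Mathlib-native form): if `dim M_k = dim M_{k-12} + μ`, then
`dim M_k = dim S_k + #(T-orbits on the cosets)`. -/
theorem finrank_modularForm_eq_cuspForm_add_cusps (hG : GoodLevel 𝒢 N)
    (h : Module.finrank ℂ (ModularForm 𝒢 k) =
      Module.finrank ℂ (ModularForm 𝒢 (k - 12)) + Nat.card (Q 𝒢)) :
    Module.finrank ℂ (ModularForm 𝒢 k) = Module.finrank ℂ (CuspForm 𝒢 k) + cusps 𝒢 := by
  have hpos : 0 < Module.finrank ℂ (ModularForm 𝒢 k) := by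
    rw [h]
    have : 0 < Nat.card (Q 𝒢) := Nat.card_pos
    omega
  have hfin : Module.Finite ℂ (ModularForm 𝒢 k) := Module.finite_of_finrank_pos hpos
  have h1 := LinearMap.finrank_range_add_finrank_ker (cstMap hG k)
  rw [range_cstMap hG (leadMap_surjective hG h), finrank_invSub, ker_cstMap hG,
    LinearMap.finrank_range_of_inj CuspForm.toModularFormₗ_injective] at h1
  omega

end modular

/-! ### Bridge to the statement shape of `helper560_Spec` -/

section bridge

variable {𝒢 : Subgroup (GL (Fin 2) ℝ)} [𝒢.HasDetOne] {k : ℤ}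

/-- `ModularForm 𝒢 k` is linearly equivalent to the submodule `MFG 𝒢 k` of functions. -/
noncomputable def mfgEquiv (𝒢 : Subgroup (GL (Fin 2) ℝ)) [𝒢.HasDetOne] (k : ℤ) :
    ModularForm 𝒢 k ≃ₗ[ℂ] MFG 𝒢 k :=
  LinearEquiv.ofBijective
    ({ toFun := fun F => (⟨⇑F, ⟨F, rfl⟩⟩ : MFG 𝒢 k)
       map_add' := fun _ _ => rfl
       map_smul' := fun _ _ => rfl } : ModularForm 𝒢 k →ₗ[ℂ] MFG 𝒢 k)
    ⟨fun F G h => DFunLike.coe_injective (congr_arg Subtype.val h),
     fun ⟨_, F, hF⟩ => ⟨F, Subtype.ext hF⟩⟩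

/-- `CuspForm 𝒢 k` is linearly equivalent to the submodule `CFG 𝒢 k` of functions. -/
noncomputable def cfgEquiv (𝒢 : Subgroup (GL (Fin 2) ℝ)) [𝒢.HasDetOne] (k : ℤ) :
    CuspForm 𝒢 k ≃ₗ[ℂ] CFG 𝒢 k :=
  LinearEquiv.ofBijective
    ({ toFun := fun F => (⟨⇑F, ⟨F, rfl⟩⟩ : CFG 𝒢 k)
       map_add' := fun _ _ => rfl
       map_smul' := fun _ _ => rfl } : CuspForm 𝒢 k →ₗ[ℂ] CFG 𝒢 k)
    ⟨fun F G h => DFunLike.coe_injective (congr_arg Subtype.val h),
     fun ⟨_, F, hF⟩ => ⟨F, Subtype.ext hF⟩⟩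

theorem finrank_MFG : Module.finrank ℂ (MFG 𝒢 k) = Module.finrank ℂ (ModularForm 𝒢 k) :=
  (mfgEquiv 𝒢 k).finrank_eq.symm

theorem finrank_CFG : Module.finrank ℂ (CFG 𝒢 k) = Module.finrank ℂ (CuspForm 𝒢 k) :=
  (cfgEquiv 𝒢 k).finrank_eq.symm

end bridge

end Fermat.Agent.S20.helper457
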