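/-
S20: proof of `helper560.Goal_Cusp` (the CUSP goal of the spec `helper560_Spec`), from the
function-level results of `helper457_Cusp`.  Author seat: helper457.
-/
import Fermat.Agent.S20.helper457_Cusp
import Fermat.Agent.S20.helper560_Spec

set_option autoImplicit false

open scoped MatrixGroups
open Fermat.Agent.S20.helper560

namespace Fermat.Agent.S20.helper457

/-- (CUSP) for a fixed good level: if `dim M_k - dim M_{k-12} = μ`, then `dim M_k - dim S_k`
is the number of cusps. -/
theorem stmt_Cusp {𝒢 : Subgroup (GL (Fin 2) ℝ)} [𝒢.IsArithmetic] [𝒢.HasDetOne] {N : ℕ}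
    (hG : GoodLevel 𝒢 N) : Stmt_Cusp 𝒢 := by
  intro k h
  rw [finrank_MFG, finrank_MFG] at h
  rw [finrank_MFG, finrank_CFG]
  exact finrank_modularForm_eq_cuspForm_add_cusps hG h

/-- The goal `Goal_Cusp` of `helper560_Spec`. -/
theorem goal_Cusp : Goal_Cusp := fun _ _ _ _ hG => stmt_Cusp hG

end Fermat.Agent.S20.helper457
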