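/-
S20, cusp chunk (seat helper4760): `q_N`-expansions of the translates `f ∣[k] γ` of a modular
form on a level `𝒢` satisfying `helper560.GoodLevel 𝒢 N`.
-/
import Fermat.Agent.S20.helper560_Defs
import Fermat.Agent.S20.helper4760_QExp
import Fermat.Agent.S20.helper1760_SerreD

set_option autoImplicit false

open UpperHalfPlane hiding I
open Complex Filter Function ModularForm
open scoped Real Manifold Topology ModularForm MatrixGroups Pointwise

namespace Fermat.Agent.S20.helper4760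

open Fermat.Agent.S20.helper560

local notation "𝕢" => Function.Periodic.qParam

variable {𝒢 : Subgroup (GL (Fin 2) ℝ)} [𝒢.IsArithmetic] [𝒢.HasDetOne] {N : ℕ} {k : ℤ}

omit [𝒢.HasDetOne] in
/-- Translates of a modular form of good level `N` are `N`-periodic, holomorphic and bounded. -/
theorem nice_slash_MF (hG : GoodLevel 𝒢 N) (F : ModularForm 𝒢 k) (γ : SL(2, ℤ)) :
    Nice (N : ℝ) (⇑F ∣[k] γ) where
  hol := (ModularFormClass.holo F).slash k _
  per := by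
    have hper := hG.per γ⁻¹
    have h1 : (ConjAct.toConjAct (Matrix.SpecialLinearGroup.mapGL ℝ γ⁻¹) • 𝒢) =
        (ConjAct.toConjAct (Matrix.SpecialLinearGroup.mapGL ℝ γ)⁻¹ • 𝒢) := by
      rw [map_inv]
    rw [h1] at hper
    exact SlashInvariantFormClass.periodic_comp_ofComplex
      (ModularForm.translate F (Matrix.SpecialLinearGroup.mapGL ℝ γ)) hper
  bdd := ModularFormClass.bdd_at_infty_slash F γ

omit [𝒢.IsArithmetic] in
theorem CFG_le_MFG : CFG 𝒢 k ≤ MFG 𝒢 k := by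
  rintro _ ⟨F, rfl⟩
  exact ⟨ModularFormClass.modularForm F, rfl⟩

theorem nice_slash (hG : GoodLevel 𝒢 N) {f : ℍ → ℂ} (hf : f ∈ MFG 𝒢 k) (γ : SL(2, ℤ)) :
    Nice (N : ℝ) (f ∣[k] γ) := by
  obtain ⟨F, rfl⟩ := hf
  exact nice_slash_MF hG F γ

/-- A representative in `SL(2, ℤ)` of the inverse of the chosen representative of a coset. -/
noncomputable def rep (q : Q 𝒢) : SL(2, ℤ) := (Classical.choose (q.out : 𝒮ℒ).2)⁻¹

omit [𝒢.IsArithmetic] [𝒢.HasDetOne] in
theorem mapGL_rep (q : Q 𝒢) :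
    Matrix.SpecialLinearGroup.mapGL ℝ (rep q) = ((q.out : 𝒮ℒ) : GL (Fin 2) ℝ)⁻¹ := by
  rw [rep, map_inv, Classical.choose_spec (q.out : 𝒮ℒ).2]

omit [𝒢.IsArithmetic] [𝒢.HasDetOne] in
theorem tr_eq_slash_rep (k : ℤ) (f : ℍ → ℂ) (q : Q 𝒢) : tr 𝒢 k f q = f ∣[k] (rep q) := by
  rw [tr, ← mapGL_rep q]
  rfl

theorem nice_tr (hG : GoodLevel 𝒢 N) {f : ℍ → ℂ} (hf : f ∈ MFG 𝒢 k) (q : Q 𝒢) :
    Nice (N : ℝ) (tr 𝒢 k f q) := by
  rw [tr_eq_slash_rep]
  exact nice_slash hG hf _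

omit [𝒢.IsArithmetic] in
theorem slash_eq_tr {f : ℍ → ℂ} (hf : f ∈ MFG 𝒢 k) (γ : SL(2, ℤ)) :
    f ∣[k] γ = tr 𝒢 k f (QuotientGroup.mk (sl γ)⁻¹ : Q 𝒢) := by
  obtain ⟨F, rfl⟩ := hf
  rw [tr_eq_quotientFunc]
  show _ = SlashInvariantForm.quotientFunc (ℋ := 𝒮ℒ) F ⟦(sl γ)⁻¹⟧
  rw [SlashInvariantForm.quotientFunc_mk]
  simp only [Subgroup.coe_inv, inv_inv]
  rfl

omit [𝒢.IsArithmetic] in
/-- The translate attached to `T⁻¹ • q` is the translate attached to `q`, slashed by `T`. -/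
theorem tr_T_inv_smul {f : ℍ → ℂ} (hf : f ∈ MFG 𝒢 k) (q : Q 𝒢) :
    tr 𝒢 k f ((sl ModularGroup.T)⁻¹ • q) = (tr 𝒢 k f q) ∣[k] ModularGroup.T := by
  obtain ⟨F, rfl⟩ := hf
  rw [tr_eq_quotientFunc, tr_eq_quotientFunc]
  have := SlashInvariantForm.quotientFunc_smul (ℋ := 𝒮ℒ) F (sl ModularGroup.T).2 q
  rw [ModularForm.SL_slash]
  exact this.symm

theorem slash_T_eq_vshift (g : ℍ → ℂ) (k : ℤ) : g ∣[k] ModularGroup.T = vshift 1 g := by
  funext z
  rw [ModularForm.SL_slash_apply, UpperHalfPlane.modular_T_smul]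
  have : denom ModularGroup.T z = 1 := by
    simp [denom, ModularGroup.T]
  rw [this]
  simp [vshift]

/-- The twist of the `q_N`-coefficients of the translates under `T`. -/
theorem cf_tr_T_inv_smul (hG : GoodLevel 𝒢 N) {f : ℍ → ℂ} (hf : f ∈ MFG 𝒢 k) (q : Q 𝒢)
    (n : ℕ) :
    cf (N : ℝ) (tr 𝒢 k f ((sl ModularGroup.T)⁻¹ • q)) n =
      cexp (2 * π * I / N) ^ n * cf (N : ℝ) (tr 𝒢 k f q) n := by
  have hN : (0 : ℝ) < N := by exact_mod_cast hG.pos
  rw [tr_T_inv_smul hf, slash_T_eq_vshift, cf_vshift (nice_tr hG hf q) hN]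
  simp

/-! ### Division by the discriminant -/

local notation "Δ" => ModularForm.discriminant

theorem slash_discriminant (γ : SL(2, ℤ)) : (Δ : ℍ → ℂ) ∣[(12 : ℤ)] γ = Δ := by
  have hγ : (γ : GL (Fin 2) ℝ) ∈ 𝒮ℒ := ⟨γ, rfl⟩
  have := SlashInvariantFormClass.slash_action_eq CuspForm.discriminant _ hγ
  rw [ModularForm.SL_slash]
  exact this

theorem slash_div_discriminant (f : ℍ → ℂ) (k : ℤ) (γ : SL(2, ℤ)) :
    (fun z => f z / Δ z) ∣[k - 12] γ = fun z => (f ∣[k] γ) z / Δ z := by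
  change (f / Δ) ∣[k - 12] γ = (f ∣[k] γ) / Δ
  rw [ModularForm.div_slash_SL2, slash_discriminant]

theorem tendsto_im_atImInfty' : Tendsto (fun τ : ℍ => τ.im) atImInfty atTop :=
  tendsto_comap

theorem isBoundedAtImInfty_div_discriminant {g : ℍ → ℂ}
    (hg : g =O[atImInfty] fun τ : ℍ => Real.exp (-2 * π * τ.im)) :
    IsBoundedAtImInfty (fun z => g z / Δ z) := by
  have h1 : g =O[atImInfty] (Δ : ℍ → ℂ) := hg.trans ModularForm.exp_isBigO_discriminant
  exact (Asymptotics.div_isBoundedUnder_of_isBigO h1).isBigO_one ℝ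

theorem isZeroAtImInfty_div_discriminant {g : ℍ → ℂ} {c : ℝ} (hc : 1 < c)
    (hg : g =O[atImInfty] fun τ : ℍ => Real.exp (-2 * π * c * τ.im)) :
    IsZeroAtImInfty (fun z => g z / Δ z) := by
  have h2 : (fun τ : ℍ => (Δ τ)⁻¹) =O[atImInfty] fun τ : ℍ => (Real.exp (-2 * π * τ.im))⁻¹ :=
    ModularForm.exp_isBigO_discriminant.inv_rev
      (Eventually.of_forall fun τ h => absurd h (Real.exp_ne_zero _))
  have h3 := hg.mul h2
  have h4 : Tendsto (fun τ : ℍ => Real.exp (-2 * π * c * τ.im) * (Real.exp (-2 * π * τ.im))⁻¹)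
      atImInfty (𝓝 0) := by
    have h5 : (fun τ : ℍ => Real.exp (-2 * π * c * τ.im) * (Real.exp (-2 * π * τ.im))⁻¹) =
        fun τ : ℍ => Real.exp (-(2 * π * (c - 1)) * τ.im) := by
      funext τ
      rw [← Real.exp_neg, ← Real.exp_add]
      congr 1
      ring
    rw [h5]
    apply Real.tendsto_exp_atBot.comp
    have hpos : 0 < 2 * π * (c - 1) := by
      have := Real.pi_pos
      have : 0 < c - 1 := by linarith
      positivity
    exact tendsto_im_atImInfty'.const_mul_atTop_of_neg (by linarith)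
  have h6 := h3.trans_tendsto h4
  exact h6.congr fun τ => by simp [div_eq_mul_inv]

theorem isBigO_slash_of_cf_eq_zero (hG : GoodLevel 𝒢 N) {f : ℍ → ℂ} (hf : f ∈ MFG 𝒢 k)
    (M : ℕ) (h0 : ∀ q : Q 𝒢, ∀ n < M, cf (N : ℝ) (tr 𝒢 k f q) n = 0) (γ : SL(2, ℤ)) :
    (f ∣[k] γ) =O[atImInfty] fun τ : ℍ => Real.exp (-2 * π * ((M : ℝ) / N) * τ.im) := by
  have hN : (0 : ℝ) < N := by exact_mod_cast hG.pos
  have := (nice_slash hG hf γ).isBigO_of_cf_eq_zero hN M
    (by intro n hn; rw [slash_eq_tr hf γ]; exact h0 _ n hn)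
  refine this.congr_right fun τ => ?_
  congr 1
  field_simp

theorem isBoundedAtImInfty_slash_div (hG : GoodLevel 𝒢 N) {f : ℍ → ℂ} (hf : f ∈ MFG 𝒢 k)
    (h0 : ∀ q : Q 𝒢, ∀ n < N, cf (N : ℝ) (tr 𝒢 k f q) n = 0) (γ : SL(2, ℤ)) :
    IsBoundedAtImInfty ((fun z => f z / Δ z) ∣[k - 12] γ) := by
  rw [slash_div_discriminant]
  apply isBoundedAtImInfty_div_discriminant
  have hN : (N : ℝ) ≠ 0 := by exact_mod_cast hG.pos.ne'
  have := isBigO_slash_of_cf_eq_zero hG hf N h0 γ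
  refine this.congr_right fun τ => ?_
  rw [div_self hN, mul_one]

theorem isZeroAtImInfty_slash_div (hG : GoodLevel 𝒢 N) {f : ℍ → ℂ} (hf : f ∈ MFG 𝒢 k)
    (h0 : ∀ q : Q 𝒢, ∀ n < N + 1, cf (N : ℝ) (tr 𝒢 k f q) n = 0) (γ : SL(2, ℤ)) :
    IsZeroAtImInfty ((fun z => f z / Δ z) ∣[k - 12] γ) := by
  rw [slash_div_discriminant]
  have hN : (0 : ℝ) < N := by exact_mod_cast hG.pos
  apply isZeroAtImInfty_div_discriminant (c := ((N + 1 : ℕ) : ℝ) / N)
  · rw [lt_div_iff₀ hN]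
    push_cast
    linarith
  · exact isBigO_slash_of_cf_eq_zero hG hf (N + 1) h0 γ

/-- DIVISION BY `Δ` (modular forms): if the first `N` coefficients of the `q_N`-expansions of all
translates vanish, then `f = Δ * g` with `g` a modular form of weight `k - 12`. -/
theorem exists_eq_discriminant_mul_MFG (hG : GoodLevel 𝒢 N) {f : ℍ → ℂ} (hf : f ∈ MFG 𝒢 k)
    (h0 : ∀ q : Q 𝒢, ∀ n < N, cf (N : ℝ) (tr 𝒢 k f q) n = 0) :
    ∃ g ∈ MFG 𝒢 (k - 12), f = Δ * g := by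
  have hf' := hf
  obtain ⟨F, rfl⟩ := hf
  refine ⟨fun z => F z / Δ z, ⟨{
    toFun := fun z => F z / Δ z
    slash_action_eq' := ?_
    holo' := ?_
    bdd_at_cusps' := ?_ }, rfl⟩, ?_⟩
  · intro γ hγ
    obtain ⟨γ', rfl⟩ := hG.le hγ
    have h2 : (⇑F ∣[k] γ') = ⇑F := by
      rw [ModularForm.SL_slash]
      exact SlashInvariantFormClass.slash_action_eq F _ hγ
    show (fun z => F z / Δ z) ∣[k - 12] γ' = _
    rw [slash_div_discriminant, h2]
  · exact (ModularFormClass.holo F).div CuspForm.discriminant.holo'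
      ModularForm.discriminant_ne_zero
  · intro c hc
    rw [Subgroup.IsArithmetic.isCusp_iff_isCusp_SL2Z] at hc
    rw [OnePoint.isBoundedAt_iff_forall_SL2Z hc]
    intro γ _
    exact isBoundedAtImInfty_slash_div hG hf' h0 γ
  · funext z
    simp only [Pi.mul_apply]
    field_simp [ModularForm.discriminant_ne_zero z]

/-- DIVISION BY `Δ` (cusp forms): if the coefficients `0, …, N` of the `q_N`-expansions of all
translates vanish, then `f = Δ * g` with `g` a cusp form of weight `k - 12`. -/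
theorem exists_eq_discriminant_mul_CFG (hG : GoodLevel 𝒢 N) {f : ℍ → ℂ} (hf : f ∈ MFG 𝒢 k)
    (h0 : ∀ q : Q 𝒢, ∀ n < N + 1, cf (N : ℝ) (tr 𝒢 k f q) n = 0) :
    ∃ g ∈ CFG 𝒢 (k - 12), f = Δ * g := by
  have hf' := hf
  obtain ⟨F, rfl⟩ := hf
  refine ⟨fun z => F z / Δ z, ⟨{
    toFun := fun z => F z / Δ z
    slash_action_eq' := ?_
    holo' := ?_
    zero_at_cusps' := ?_ }, rfl⟩, ?_⟩
  · intro γ hγ
    obtain ⟨γ', rfl⟩ := hG.le hγ
    have h2 : (⇑F ∣[k] γ') = ⇑F := by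
      rw [ModularForm.SL_slash]
      exact SlashInvariantFormClass.slash_action_eq F _ hγ
    show (fun z => F z / Δ z) ∣[k - 12] γ' = _
    rw [slash_div_discriminant, h2]
  · exact (ModularFormClass.holo F).div CuspForm.discriminant.holo'
      ModularForm.discriminant_ne_zero
  · intro c hc
    rw [Subgroup.IsArithmetic.isCusp_iff_isCusp_SL2Z] at hc
    rw [OnePoint.isZeroAt_iff_forall_SL2Z hc]
    intro γ _
    exact isZeroAtImInfty_slash_div hG hf' h0 γ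
  · funext z
    simp only [Pi.mul_apply]
    field_simp [ModularForm.discriminant_ne_zero z]

/-! ### Multiplication by level one forms -/

theorem nice_levelOne {P : ℍ → ℂ} {m : ℤ} (hP : P ∈ RR m) : Nice 1 P := by
  obtain ⟨P', rfl⟩ := hP
  exact {
    hol := ModularFormClass.holo P'
    per := by
      have := SlashInvariantFormClass.periodic_comp_ofComplex (h := 1) P'
        _root_.one_mem_strictPeriods_SL
      simpa using this
    bdd := ModularFormClass.bdd_at_infty P' }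

theorem slash_levelOne {P : ℍ → ℂ} {m : ℤ} (hP : P ∈ RR m) (γ : SL(2, ℤ)) : P ∣[m] γ = P := by
  obtain ⟨P', rfl⟩ := hP
  have hγ : (γ : GL (Fin 2) ℝ) ∈ 𝒮ℒ := ⟨γ, rfl⟩
  rw [ModularForm.SL_slash]
  exact SlashInvariantFormClass.slash_action_eq P' _ hγ

omit [𝒢.IsArithmetic] [𝒢.HasDetOne] in
theorem tr_levelOne_mul {P : ℍ → ℂ} {m : ℤ} (hP : P ∈ RR m) (k : ℤ) (f : ℍ → ℂ) (q : Q 𝒢) :
    tr 𝒢 (m + k) (P * f) q = P * tr 𝒢 k f q := by
  rw [tr_eq_slash_rep, tr_eq_slash_rep, ModularForm.mul_slash_SL2, slash_levelOne hP]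

/-- Multiplying by a level one form `P` multiplies the first `N` coefficients of the
`q_N`-expansions of the translates by the value of `P` at infinity. -/
theorem cf_tr_levelOne_mul (hG : GoodLevel 𝒢 N) {P f : ℍ → ℂ} {m : ℤ} (hP : P ∈ RR m)
    (hf : f ∈ MFG 𝒢 k) (q : Q 𝒢) {n : ℕ}
    (hn : n < N ∨ (n = N ∧ cf (N : ℝ) (tr 𝒢 k f q) 0 = 0)) :
    cf (N : ℝ) (tr 𝒢 (m + k) (P * f) q) n = cf 1 P 0 * cf (N : ℝ) (tr 𝒢 k f q) n := by
  rw [tr_levelOne_mul hP]
  exact cf_mul_of_one (nice_levelOne hP) hG.pos (nice_tr hG hf q) hn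

/-! ### The Serre derivative -/

open Derivative

theorem periodic_of_vshift_eq {F : ℍ → ℂ} {t : ℝ} (hF : vshift t F = F) :
    Periodic (F ∘ ofComplex) t := by
  intro w
  by_cases hw : 0 < w.im
  · have h1 := vshift_comp_ofComplex t F hw
    rw [hF] at h1
    rw [h1, add_comm]
  · have hw1 : w.im ≤ 0 := not_lt.mp hw
    have hw' : (w + t).im ≤ 0 := by simpa using hw1
    simp [ofComplex_apply_of_im_nonpos hw1, ofComplex_apply_of_im_nonpos hw']

theorem nice_E2 : Nice 1 EisensteinSeries.E2 where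
  hol := _root_.E2_mdifferentiable
  per := by
    have h1 : vshift 1 EisensteinSeries.E2 = EisensteinSeries.E2 := by
      rw [← slash_T_eq_vshift _ 2, EisensteinSeries.E2_slash_action, EisensteinSeries.D2_T]
      simp
    simpa using periodic_of_vshift_eq h1
  bdd := EisensteinSeries.isBoundedAtImInfty_E2

theorem cf_E2_zero : cf 1 EisensteinSeries.E2 0 = 1 := by
  have := nice_E2.cf_unique one_pos
    (c := fun m : ℕ => (if m = 0 then 1 else -24 * ArithmeticFunction.sigma 1 m : ℂ))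
    (fun τ => by
      simpa only [Function.Periodic.qParam, ofReal_one, div_one] using
        EisensteinSeries.hasSum_qExpansion_E2 (z := τ)) 0
  simpa using this.symm

theorem serre_mem_MFG (hG : GoodLevel 𝒢 N) {f : ℍ → ℂ} (hf : f ∈ MFG 𝒢 k) :
    serreDerivative k f ∈ MFG 𝒢 (k + 2) := by
  obtain ⟨F, rfl⟩ := hf
  exact ⟨helper1760.serreDMFaux hG.le k F, rfl⟩

theorem serre_mem_CFG (hG : GoodLevel 𝒢 N) {f : ℍ → ℂ} (hf : f ∈ CFG 𝒢 k) :
    serreDerivative k f ∈ CFG 𝒢 (k + 2) := by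
  obtain ⟨F, rfl⟩ := hf
  exact ⟨helper1760.serreDCFaux hG.le k F, rfl⟩

omit [𝒢.IsArithmetic] [𝒢.HasDetOne] in
theorem tr_serre {f : ℍ → ℂ} (hf : MDiff f) (k : ℤ) (q : Q 𝒢) :
    tr 𝒢 (k + 2) (serreDerivative k f) q = serreDerivative k (tr 𝒢 k f q) := by
  rw [tr_eq_slash_rep, tr_eq_slash_rep]
  exact serreDerivative_slash_equivariant hf

/-- The Serre derivative multiplies the `n`-th coefficient (`n < N`) of a `q_N`-expansion by
`n / N - k / 12`. -/
theorem cf_serre {g : ℍ → ℂ} (hg : Nice (N : ℝ) g) (hN : 0 < N) (k : ℂ) {n : ℕ}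
    (hn : n < N ∨ (n = N ∧ cf (N : ℝ) g 0 = 0)) :
    cf (N : ℝ) (serreDerivative k g) n = ((n : ℂ) / N - k / 12) * cf (N : ℝ) g n := by
  have hN' : (0 : ℝ) < N := by exact_mod_cast hN
  have hE : Nice (N : ℝ) (EisensteinSeries.E2 * g) := (nice_E2.of_one N).mul hg
  rw [helper1760.serreDerivative_eq_sub_smul, cf_add (hg.D hN') (hE.smul _) hN',
    cf_smul hE hN', cf_D hg hN', cf_mul_of_one nice_E2 hN hg hn, cf_E2_zero]
  push_cast
  ring

theorem cf_tr_serre (hG : GoodLevel 𝒢 N) {f : ℍ → ℂ} (hf : f ∈ MFG 𝒢 k) (q : Q 𝒢) {n : ℕ}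
    (hn : n < N ∨ (n = N ∧ cf (N : ℝ) (tr 𝒢 k f q) 0 = 0)) :
    cf (N : ℝ) (tr 𝒢 (k + 2) (serreDerivative k f) q) n =
      ((n : ℂ) / N - k / 12) * cf (N : ℝ) (tr 𝒢 k f q) n := by
  have hhol : MDiff f := by
    obtain ⟨F, rfl⟩ := hf
    exact ModularFormClass.holo F
  rw [tr_serre hhol]
  exact cf_serre (nice_tr hG hf q) hG.pos k hn

end Fermat.Agent.S20.helper4760
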