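import Mathlib
import Fermat.Agent.S20.helper500_Twist

/-!
# S20 / DUAL: q-expansion bridge and cusp behaviour of the inverse of a fundamental matrix

* `qExpansion_coeff_eq_lead` : for an `N`-periodic holomorphic function bounded at `i∞`, the
  `n`-th `q_N`-expansion coefficient (`n < N`) is the limit of the twisted component `tw N n g`.
* `tendsto_mul_inv_zero` : abstract "cusp vanishing" of `D • A⁻¹` for a matrix-valued function
  `A` whose rows are permuted by the translation `z ↦ z + 1`.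
-/

set_option autoImplicit false

open Complex Filter Function Asymptotics
open scoped Real Topology Manifold UpperHalfPlane

namespace Fermat.Agent.S20.helper500

lemma qParam_pow_eq_eN (N : ℕ) (m : ℕ) (τ : ℂ) :
    Function.Periodic.qParam (N : ℝ) τ ^ m = eN N m τ := by
  unfold Function.Periodic.qParam eN
  rw [← Complex.exp_nat_mul]
  congr 1
  push_cast
  ring

lemma qParam_one_pow_eq_eN {N : ℕ} (hN : N ≠ 0) (k : ℕ) (τ : ℂ) :
    Function.Periodic.qParam (1 : ℝ) τ ^ k = eN N ((N : ℤ) * k) τ := by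
  have hN' : (N : ℂ) ≠ 0 := Nat.cast_ne_zero.mpr hN
  unfold Function.Periodic.qParam eN
  rw [← Complex.exp_nat_mul]
  congr 1
  push_cast
  field_simp

/-- The `q_N`-expansion of a good function, written with `eN`. -/
lemma hasSum_eN {N : ℕ} (hN : N ≠ 0) {g : ℍ → ℂ} (hg : Good N g) (τ : ℍ) :
    HasSum (fun m : ℕ => (UpperHalfPlane.qExpansion (N : ℝ) g).coeff m * eN N m τ) (g τ) := by
  have hN' : (0 : ℝ) < N := Nat.cast_pos.mpr (Nat.pos_of_ne_zero hN)
  have hper : Periodic (g ∘ UpperHalfPlane.ofComplex) ((N : ℝ) : ℂ) :=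
    periodic_comp_ofComplex_of_vadd hg.per
  have := UpperHalfPlane.hasSum_qExpansion hN' hper hg.holo hg.bdd τ
  simp only [smul_eq_mul, qParam_pow_eq_eN] at this
  exact this

/-- Twisting a convergent `eN`-expansion. -/
lemma hasSum_tw {N : ℕ} (hN : N ≠ 0) (n : ℕ) {g : ℍ → ℂ} {a : ℕ → ℂ}
    (h1 : ∀ τ : ℍ, HasSum (fun m : ℕ => a m * eN N m τ) (g τ)) (z : ℍ) :
    HasSum (fun m : ℕ => a m * eN N ((m : ℤ) - n) z *
      (if (N : ℤ) ∣ (m : ℤ) - n then 1 else 0)) (tw N n g z) := by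
  have hNC : (N : ℂ) ≠ 0 := Nat.cast_ne_zero.mpr hN
  have e1 : ∀ t ∈ Finset.range N, HasSum (fun m : ℕ =>
      eN N (-(n : ℤ)) (((t : ℝ) +ᵥ z : ℍ) : ℂ) * (a m * eN N m (((t : ℝ) +ᵥ z : ℍ) : ℂ)))
      (eN N (-(n : ℤ)) (((t : ℝ) +ᵥ z : ℍ) : ℂ) * g ((t : ℝ) +ᵥ z)) :=
    fun t _ => (h1 _).mul_left _
  have e2 := (hasSum_sum e1).mul_left ((N : ℂ)⁻¹)
  rw [← tw_apply] at e2
  have e3 : ∀ (m t : ℕ), eN N (-(n : ℤ)) (((t : ℝ) +ᵥ z : ℍ) : ℂ) *
      (a m * eN N m (((t : ℝ) +ᵥ z : ℍ) : ℂ))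
      = a m * eN N ((m : ℤ) - n) z * eN N ((m : ℤ) - n) (t : ℂ) := by
    intro m t
    have c1 : (((t : ℝ) +ᵥ z : ℍ) : ℂ) = (z : ℂ) + t := by simp [add_comm]
    have c2 : ∀ w : ℂ, eN N ((m : ℤ) - n) w = eN N (-(n : ℤ)) w * eN N m w := by
      intro w
      rw [← eN_add_left]
      congr 1
      ring
    rw [c1, c2, c2, eN_add, eN_add]
    ring
  have e4 : (fun m : ℕ => a m * eN N ((m : ℤ) - n) z *
      (if (N : ℤ) ∣ (m : ℤ) - n then (1 : ℂ) else 0)) = fun m : ℕ => (N : ℂ)⁻¹ *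
      ∑ t ∈ Finset.range N, eN N (-(n : ℤ)) (((t : ℝ) +ᵥ z : ℍ) : ℂ) *
        (a m * eN N m (((t : ℝ) +ᵥ z : ℍ) : ℂ)) := by
    funext m
    simp_rw [e3]
    rw [← Finset.mul_sum, sum_eN_natCast hN]
    split_ifs with hd
    · field_simp
    · simp
  rw [e4]
  exact e2

lemma hasSum_tw_qParam {N n : ℕ} (hn : n < N) {g : ℍ → ℂ} {a : ℕ → ℂ}
    (h1 : ∀ τ : ℍ, HasSum (fun m : ℕ => a m * eN N m τ) (g τ)) (z : ℍ) :
    HasSum (fun k : ℕ => a (n + N * k) • Function.Periodic.qParam (1 : ℝ) z ^ k)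
      (tw N n g z) := by
  have hN : N ≠ 0 := by omega
  have hi : Function.Injective (fun k : ℕ => n + N * k) := by
    intro k₁ k₂ h
    have : N * k₁ = N * k₂ := by simpa using h
    exact Nat.eq_of_mul_eq_mul_left (Nat.pos_of_ne_zero hN) this
  have hf : ∀ m ∉ Set.range (fun k : ℕ => n + N * k), a m * eN N ((m : ℤ) - n) z *
      (if (N : ℤ) ∣ (m : ℤ) - n then 1 else 0) = 0 := by
    intro m hm
    rw [if_neg, mul_zero]
    rintro ⟨c, hc⟩
    apply hm
    have hc0 : 0 ≤ c := by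
      by_contra hneg
      rw [not_le] at hneg
      have hNpos : (0 : ℤ) < N := by exact_mod_cast Nat.pos_of_ne_zero hN
      have h1 : (N : ℤ) * c ≤ (N : ℤ) * (-1) :=
        mul_le_mul_of_nonneg_left (by omega) hNpos.le
      have hm0 : (0 : ℤ) ≤ m := Int.natCast_nonneg m
      have hnN : (n : ℤ) < N := by exact_mod_cast hn
      linarith
    refine ⟨c.toNat, ?_⟩
    have h2 : ((n + N * c.toNat : ℕ) : ℤ) = m := by
      push_cast
      rw [Int.toNat_of_nonneg hc0]
      linarith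
    exact_mod_cast h2
  have e5 : (fun k : ℕ => a (n + N * k) • Function.Periodic.qParam (1 : ℝ) z ^ k)
      = (fun m : ℕ => a m * eN N ((m : ℤ) - n) z *
        (if (N : ℤ) ∣ (m : ℤ) - n then (1 : ℂ) else 0)) ∘ (fun k : ℕ => n + N * k) := by
    funext k
    have c1 : ((n + N * k : ℕ) : ℤ) - n = (N : ℤ) * k := by push_cast; ring
    simp only [comp_apply, smul_eq_mul]
    rw [qParam_one_pow_eq_eN hN, c1, if_pos (dvd_mul_right _ _), mul_one]
  rw [e5]
  exact (hi.hasSum_iff hf).mpr (hasSum_tw hN n h1 z)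

/-- The `q_N`-expansion coefficients of index `< N` are the leading values of the twisted
components. -/
lemma qExpansion_coeff_eq_lead {N n : ℕ} (hn : n < N) {g : ℍ → ℂ} (hg : Good N g) :
    (UpperHalfPlane.qExpansion (N : ℝ) g).coeff n = lead N n g := by
  have hN : N ≠ 0 := by omega
  have h3 := hasSum_tw_qParam hn (a := fun m => (UpperHalfPlane.qExpansion (N : ℝ) g).coeff m)
    (hasSum_eN hN hg)
  have hper1 : Periodic (tw N n g ∘ UpperHalfPlane.ofComplex) ((1 : ℝ) : ℂ) :=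
    periodic_comp_ofComplex_of_vadd (tw_vadd_one hN n hg.per)
  have han : AnalyticAt ℂ (UpperHalfPlane.cuspFunction 1 (tw N n g)) 0 :=
    UpperHalfPlane.analyticAt_cuspFunction_zero one_pos hper1 (mdiff_tw N n hg.holo)
      (isBoundedAtImInfty_tw hn hg)
  have hcont : Continuous (tw N n g) := (mdiff_tw N n hg.holo).continuous
  have h4 := UpperHalfPlane.qExpansion_coeff_unique (ContinuousMap.mk (tw N n g) hcont)
    (c := fun k => (UpperHalfPlane.qExpansion (N : ℝ) g).coeff (n + N * k)) one_pos han h3 0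
  have h5 : (UpperHalfPlane.qExpansion 1 (tw N n g)).coeff 0
      = UpperHalfPlane.valueAtInfty (tw N n g) :=
    UpperHalfPlane.qExpansion_coeff_zero one_pos han hper1
  rw [lead, ← h5]
  simpa using h4

/-! ### The inverse of a fundamental matrix at the cusp -/

section InvCusp

variable {X : Type*} [Fintype X] [DecidableEq X]

/-- The twist matrix `E(z)`. -/
noncomputable def twE (N : ℕ) (σ : X → X) (z : ℍ) : Matrix X X ℂ :=
  fun x x' => ∑ n ∈ Finset.range N, (N : ℂ)⁻¹ * ∑ m ∈ Finset.range N,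
    eN N (-(n : ℤ)) (((m : ℝ) +ᵥ z : ℍ) : ℂ) * (if σ^[m] x = x' then 1 else 0)

/-- The twisted matrix `E(z) A(z)`: entrywise sum of the twisted components. -/
noncomputable def twA (N : ℕ) (A : ℍ → Matrix X X ℂ) (z : ℍ) : Matrix X X ℂ :=
  fun x y => ∑ n ∈ Finset.range N, tw N n (fun w => A w x y) z

omit [Fintype X] [DecidableEq X] in
lemma shift_iterate {σ : X → X} {A : ℍ → Matrix X X ℂ}
    (hshift : ∀ (z : ℍ) (x y : X), A ((1 : ℝ) +ᵥ z) x y = A z (σ x) y) (m : ℕ) (z : ℍ)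
    (x y : X) : A ((m : ℝ) +ᵥ z) x y = A z (σ^[m] x) y := by
  induction m generalizing x with
  | zero => simp
  | succ m ih =>
    have e1 : ((m + 1 : ℕ) : ℝ) +ᵥ z = (m : ℝ) +ᵥ ((1 : ℝ) +ᵥ z) := by
      rw [vadd_vadd_uhp]; push_cast; rfl
    have e2 : ∀ (x' : X), A ((m : ℝ) +ᵥ ((1 : ℝ) +ᵥ z)) x' y = A ((m : ℝ) +ᵥ z) (σ x') y := by
      intro x'
      have : (m : ℝ) +ᵥ ((1 : ℝ) +ᵥ z) = (1 : ℝ) +ᵥ ((m : ℝ) +ᵥ z) := by
        rw [vadd_vadd_uhp, vadd_vadd_uhp, add_comm]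
      rw [this, hshift]
    rw [e1, e2, ih, Function.iterate_succ_apply]

lemma twE_mul (N : ℕ) {σ : X → X} {A : ℍ → Matrix X X ℂ}
    (hshift : ∀ (z : ℍ) (x y : X), A ((1 : ℝ) +ᵥ z) x y = A z (σ x) y) (z : ℍ) :
    twE N σ z * A z = twA N A z := by
  ext x y
  simp only [Matrix.mul_apply, twE, twA, tw_apply]
  simp_rw [Finset.sum_mul]
  rw [Finset.sum_comm]
  refine Finset.sum_congr rfl fun n _ => ?_
  simp_rw [Finset.mul_sum, Finset.sum_mul]
  rw [Finset.sum_comm]
  refine Finset.sum_congr rfl fun m _ => ?_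
  rw [shift_iterate hshift m z x y]
  rw [Finset.sum_eq_single (σ^[m] x)]
  · simp [mul_assoc]
  · intro b _ hb
    simp [Ne.symm hb]
  · intro h
    exact absurd (Finset.mem_univ _) h

lemma tendsto_mul_eN_zero {N n : ℕ} (hn : n < N) {D : ℍ → ℂ}
    (hD : D =O[UpperHalfPlane.atImInfty] fun τ : ℍ => Real.exp (-2 * π * τ.im)) (m : ℕ) :
    Tendsto (fun z : ℍ => D z * eN N (-(n : ℤ)) (((m : ℝ) +ᵥ z : ℍ) : ℂ))
      UpperHalfPlane.atImInfty (𝓝 0) := by
  have hN : (0 : ℝ) < N := by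
    have : 0 < N := by omega
    exact_mod_cast this
  have h1 : (fun z : ℍ => eN N (-(n : ℤ)) (((m : ℝ) +ᵥ z : ℍ) : ℂ))
      =O[UpperHalfPlane.atImInfty] fun τ : ℍ => Real.exp (2 * π * n * τ.im / N) := by
    refine Asymptotics.isBigO_of_le _ fun z => ?_
    rw [norm_eN, Real.norm_eq_abs, abs_of_pos (Real.exp_pos _)]
    apply le_of_eq
    congr 1
    have : (((m : ℝ) +ᵥ z : ℍ) : ℂ).im = z.im := by simp
    rw [this]
    push_cast
    ring
  have h2 := hD.mul h1
  have h3 : Tendsto (fun τ : ℍ => Real.exp (-2 * π * τ.im) * Real.exp (2 * π * n * τ.im / N))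
      UpperHalfPlane.atImInfty (𝓝 0) := by
    have hc : 0 < 2 * π * (1 - n / N) := by
      have : (n : ℝ) / N < 1 := by
        rw [div_lt_one hN]
        exact_mod_cast hn
      have := Real.pi_pos
      nlinarith
    refine (tendsto_exp_neg_mul_im hc).congr fun τ => ?_
    rw [← Real.exp_add]
    congr 1
    field_simp
    ring
  exact h2.trans_tendsto h3

/-- **Cusp vanishing of the inverse.**  Let `A(z)` be a square matrix of good functions whose
rows are permuted by `z ↦ z + 1`, and suppose its leading matrix `L` is invertible.  Then for any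
`D = O(exp(-2π Im z))` all entries of `D(z) • A(z)⁻¹` tend to `0` at `i∞`. -/
theorem tendsto_mul_inv_zero {N : ℕ} {σ : X → X} {A : ℍ → Matrix X X ℂ}
    (hshift : ∀ (z : ℍ) (x y : X), A ((1 : ℝ) +ᵥ z) x y = A z (σ x) y)
    (hgood : ∀ x y, Good N (fun z => A z x y))
    {L : Matrix X X ℂ} (hL : ∀ x y, L x y = ∑ n ∈ Finset.range N, lead N n (fun z => A z x y))
    (hLdet : L.det ≠ 0)
    {D : ℍ → ℂ} (hD : D =O[UpperHalfPlane.atImInfty] fun τ : ℍ => Real.exp (-2 * π * τ.im))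
    (x y : X) :
    Tendsto (fun z => D z * (A z)⁻¹ x y) UpperHalfPlane.atImInfty (𝓝 0) := by
  -- the twisted matrix tends to `L`
  have htw : Tendsto (fun z => twA N A z) UpperHalfPlane.atImInfty (𝓝 L) := by
    refine tendsto_pi_nhds.mpr fun x' => tendsto_pi_nhds.mpr fun y' => ?_
    rw [hL]
    exact tendsto_finsetSum _ fun n hn =>
      tendsto_tw (Finset.mem_range.mp hn) (hgood x' y')
  have hdet : ∀ᶠ z in UpperHalfPlane.atImInfty, (twA N A z).det ≠ 0 := by
    have : Tendsto (fun z => (twA N A z).det) UpperHalfPlane.atImInfty (𝓝 L.det) :=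
      ((continuous_id.matrix_det (A := fun M : Matrix X X ℂ => M)).tendsto L).comp htw
    exact this.eventually_ne hLdet
  have hinv : Tendsto (fun z => (twA N A z)⁻¹) UpperHalfPlane.atImInfty (𝓝 L⁻¹) := by
    have hc : ContinuousAt Inv.inv L :=
      continuousAt_matrix_inv L (NormedRing.inverse_continuousAt (Units.mk0 _ hLdet))
    exact hc.tendsto.comp htw
  have hE : Tendsto (fun z => D z • twE N σ z) UpperHalfPlane.atImInfty (𝓝 0) := by
    refine tendsto_pi_nhds.mpr fun x' => tendsto_pi_nhds.mpr fun y' => ?_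
    have e1 : ∀ z : ℍ, (D z • twE N σ z) x' y' = ∑ n ∈ Finset.range N, (N : ℂ)⁻¹ *
        ∑ m ∈ Finset.range N, (D z * eN N (-(n : ℤ)) (((m : ℝ) +ᵥ z : ℍ) : ℂ)) *
          (if σ^[m] x' = y' then 1 else 0) := by
      intro z
      simp only [Matrix.smul_apply, twE, smul_eq_mul, Finset.mul_sum]
      refine Finset.sum_congr rfl fun n _ => Finset.sum_congr rfl fun m _ => ?_
      ring
    simp_rw [e1]
    have e2 : (0 : Matrix X X ℂ) x' y' = ∑ n ∈ Finset.range N, (N : ℂ)⁻¹ *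
        ∑ m ∈ Finset.range N, (0 : ℂ) * (if σ^[m] x' = y' then 1 else 0) := by simp
    rw [e2]
    exact tendsto_finsetSum _ fun n hn => (tendsto_finsetSum _ fun m _ =>
      (tendsto_mul_eN_zero (Finset.mem_range.mp hn) hD m).mul_const _).const_mul _
  have hprod : Tendsto (fun z => (twA N A z)⁻¹ * (D z • twE N σ z)) UpperHalfPlane.atImInfty
      (𝓝 (L⁻¹ * 0)) := hinv.mul hE
  rw [mul_zero] at hprod
  have hev : ∀ᶠ z in UpperHalfPlane.atImInfty,
      (twA N A z)⁻¹ * (D z • twE N σ z) = D z • (A z)⁻¹ := by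
    filter_upwards [hdet] with z hz
    have h1 : (twA N A z)⁻¹ * twE N σ z * A z = 1 := by
      rw [mul_assoc, twE_mul N hshift z]
      exact Matrix.nonsing_inv_mul _ (Ne.isUnit hz)
    have h2 : (A z)⁻¹ = (twA N A z)⁻¹ * twE N σ z := Matrix.inv_eq_left_inv h1
    rw [h2, Matrix.mul_smul]
  have hfin : Tendsto (fun z => D z • (A z)⁻¹) UpperHalfPlane.atImInfty (𝓝 0) :=
    hprod.congr' hev
  have := (tendsto_pi_nhds.mp (tendsto_pi_nhds.mp hfin x)) y
  simpa using this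

end InvCusp

end Fermat.Agent.S20.helper500
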