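import Mathlib
import Fermat.Agent.S20.helper20_Spec
import Fermat.Agent.S20.helper500_InvCusp

/-!
# S20 / R7a (DUAL FORMS), exact `helper20_Spec` shape

`dualForms : B.IsBasis → B.RowIndep → B.CardEq → B.LeadIndep → B.DualForms`:
the rows of `Δ · Φ⁻¹` are the translates of cusp forms `H_l` of weight `12 - wt l`.
-/

set_option autoImplicit false

open UpperHalfPlane ModularForm CongruenceSubgroup Matrix.SpecialLinearGroup Filter
open scoped MatrixGroups ModularForm Manifold Topology Real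

namespace Fermat.Agent.S20.helper500

attribute [local instance] Classical.propDecidable

/-! ### `toSL` and the coset space -/

/-- `toSL` as a monoid hom. -/
noncomputable def slHom : SL(2, ℤ) →* ↥𝒮ℒ := (mapGL ℝ).rangeRestrict

lemma slHom_apply (γ : SL(2, ℤ)) : slHom γ = helper20.toSL γ := rfl

lemma toSL_surjective : Function.Surjective helper20.toSL :=
  (mapGL ℝ).rangeRestrict_surjective

lemma toSL_mul (a b : SL(2, ℤ)) : helper20.toSL (a * b) = helper20.toSL a * helper20.toSL b :=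
  map_mul slHom a b

lemma toSL_inv (a : SL(2, ℤ)) : helper20.toSL a⁻¹ = (helper20.toSL a)⁻¹ := map_inv slHom a

lemma toSL_one : helper20.toSL 1 = 1 := map_one slHom

lemma toSL_pow (a : SL(2, ℤ)) (n : ℕ) : helper20.toSL (a ^ n) = helper20.toSL a ^ n :=
  map_pow slHom a n

lemma toSL_mem_iff (N : ℕ) (γ : SL(2, ℤ)) :
    helper20.toSL γ ∈ (helper20.Gam N).subgroupOf 𝒮ℒ ↔ γ ∈ Gamma0 N := by
  rw [Subgroup.mem_subgroupOf]
  constructor
  · rintro ⟨g, hg, hgγ⟩
    have : g = γ := mapGL_injective hgγ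
    exact this ▸ hg
  · intro h
    exact ⟨γ, h, rfl⟩

lemma conj_T_pow_mem (N : ℕ) (γ : SL(2, ℤ)) :
    γ⁻¹ * ModularGroup.T ^ N * γ ∈ Gamma0 N := by
  have h1 : ModularGroup.T ^ N ∈ Gamma N := by
    have := ModularGroup_T_pow_mem_Gamma (N : ℤ) (N : ℤ) dvd_rfl
    simpa using this
  have h2 : γ⁻¹ * ModularGroup.T ^ N * γ ∈ Gamma N := by
    have := (Gamma_normal N).conj_mem _ h1 γ⁻¹
    simpa using this
  have h3 : Gamma N ≤ Gamma0 N := by
    intro A hA
    rw [Gamma_mem] at hA
    rw [Gamma0_mem]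
    exact hA.2.2.1
  exact h3 h2

section Coset

variable {N : ℕ}

lemma smul_mk_eq_iff (a b : SL(2, ℤ)) :
    helper20.toSL a • ((helper20.toSL b : ↥𝒮ℒ) : helper20.Q N) = (helper20.toSL b : ↥𝒮ℒ)
      ↔ b⁻¹ * a⁻¹ * b ∈ Gamma0 N := by
  rw [MulAction.Quotient.smul_mk, QuotientGroup.eq, ← toSL_mem_iff]
  simp [toSL_mul, toSL_inv, mul_assoc]

lemma T_inv_pow_smul (q : helper20.Q N) : ((helper20.toSL ModularGroup.T)⁻¹) ^ N • q = q := by
  induction q using QuotientGroup.induction_on with
  | H h =>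
    obtain ⟨γ, rfl⟩ := toSL_surjective h
    rw [← toSL_inv, ← toSL_pow, smul_mk_eq_iff]
    simpa using conj_T_pow_mem N γ

/-- The base point of the coset space: the coset of `1`. -/
noncomputable def q0 (N : ℕ) : helper20.Q N := ((helper20.toSL 1 : ↥𝒮ℒ) : helper20.Q N)

lemma toSL_smul_q0 (γ : SL(2, ℤ)) :
    helper20.toSL γ • q0 N = ((helper20.toSL γ : ↥𝒮ℒ) : helper20.Q N) := by
  rw [q0, MulAction.Quotient.smul_mk, smul_eq_mul, ← toSL_mul, mul_one]

lemma toSL_inv_smul_q0_of_mem {γ : SL(2, ℤ)} (hγ : γ ∈ Gamma0 N) :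
    (helper20.toSL γ)⁻¹ • q0 N = q0 N := by
  rw [← toSL_inv, q0, smul_mk_eq_iff]
  simpa using hγ

end Coset

/-! ### Translates of forms -/

section QuotientFunc

variable {N : ℕ} {k : ℤ} {F : Type*} [FunLike F ℍ ℂ]

lemma quotientFunc_slash [SlashInvariantFormClass F (helper20.Gam N) k] (f : F) (γ : SL(2, ℤ))
    (q : helper20.Q N) :
    SlashInvariantForm.quotientFunc f q ∣[k] γ
      = SlashInvariantForm.quotientFunc f ((helper20.toSL γ)⁻¹ • q) :=
  SlashInvariantForm.quotientFunc_smul f (helper20.toSL γ).2 q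

lemma quotientFunc_smul_apply [SlashInvariantFormClass F (helper20.Gam N) k] (f : F)
    (γ : SL(2, ℤ)) (q : helper20.Q N) (z : ℍ) :
    SlashInvariantForm.quotientFunc f q (γ • z)
      = denom γ z ^ k * SlashInvariantForm.quotientFunc f ((helper20.toSL γ)⁻¹ • q) z := by
  have h := congrFun (quotientFunc_slash f γ q) z
  rw [SL_slash_apply] at h
  rw [← h, mul_comm, mul_assoc, ← zpow_add₀ (denom_ne_zero γ z), neg_add_cancel, zpow_zero,
    mul_one]

lemma quotientFunc_vadd_one [SlashInvariantFormClass F (helper20.Gam N) k] (f : F)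
    (q : helper20.Q N) (z : ℍ) :
    SlashInvariantForm.quotientFunc f q ((1 : ℝ) +ᵥ z)
      = SlashInvariantForm.quotientFunc f ((helper20.toSL ModularGroup.T)⁻¹ • q) z := by
  have h := quotientFunc_smul_apply f ModularGroup.T q z
  rw [UpperHalfPlane.modular_T_smul] at h
  have hd : denom (ModularGroup.T : SL(2, ℤ)) z = 1 := by
    simp [denom, ModularGroup.coe_T]
  rw [h, hd, one_zpow, one_mul]

lemma quotientFunc_mk_toSL [SlashInvariantFormClass F (helper20.Gam N) k] (f : F)
    (γ : SL(2, ℤ)) :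
    SlashInvariantForm.quotientFunc f ((helper20.toSL γ : ↥𝒮ℒ) : helper20.Q N)
      = (f : ℍ → ℂ) ∣[k] γ⁻¹ := by
  have h := SlashInvariantForm.quotientFunc_mk (𝒢 := helper20.Gam N) (ℋ := 𝒮ℒ) f
    (helper20.toSL γ)
  have h2 : ((helper20.toSL γ : ↥𝒮ℒ) : GL (Fin 2) ℝ)⁻¹ = mapGL ℝ γ⁻¹ := (map_inv _ _).symm
  rw [h2] at h
  exact h

lemma shift_iterate' {X : Type*} {σ : X → X} {g : X → ℍ → ℂ}
    (hshift : ∀ (x : X) (z : ℍ), g x ((1 : ℝ) +ᵥ z) = g (σ x) z) (m : ℕ) (x : X) (z : ℍ) :
    g x ((m : ℝ) +ᵥ z) = g (σ^[m] x) z := by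
  induction m generalizing x with
  | zero => simp
  | succ m ih =>
    have e1 : ((m + 1 : ℕ) : ℝ) +ᵥ z = (1 : ℝ) +ᵥ ((m : ℝ) +ᵥ z) := by
      rw [vadd_vadd_uhp]; push_cast; rw [add_comm]
    rw [e1, hshift, ih, Function.iterate_succ_apply]

lemma good_quotientFunc [NeZero N] (f : ModularForm (helper20.Gam N) k) (q : helper20.Q N) :
    Good N (SlashInvariantForm.quotientFunc f q) := by
  refine ⟨fun z => ?_, ?_, ?_⟩
  · have h := shift_iterate' (σ := fun q : helper20.Q N => (helper20.toSL ModularGroup.T)⁻¹ • q)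
      (g := fun q => SlashInvariantForm.quotientFunc f q) (quotientFunc_vadd_one f) N q z
    rw [h, smul_iterate]
    beta_reduce
    rw [T_inv_pow_smul]
  · induction q using QuotientGroup.induction_on with
    | H h =>
      obtain ⟨γ, rfl⟩ := toSL_surjective h
      rw [quotientFunc_mk_toSL]
      exact (ModularFormClass.holo f).slash k _
  · induction q using QuotientGroup.induction_on with
    | H h =>
      obtain ⟨γ, rfl⟩ := toSL_surjective h
      rw [quotientFunc_mk_toSL]
      exact ModularFormClass.bdd_at_infty_slash f γ⁻¹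

end QuotientFunc

/-! ### Holomorphy of determinants and inverses -/

section Holo

variable {n : Type*} [Fintype n] [DecidableEq n]

lemma mdiff_det {M : ℍ → Matrix n n ℂ} (hM : ∀ i j, MDiff (fun z => M z i j)) :
    MDiff (fun z => (M z).det) := by
  rw [UpperHalfPlane.mdifferentiable_iff]
  have h : ∀ i j, DifferentiableOn ℂ ((fun z => M z i j) ∘ ofComplex) {z | 0 < z.im} :=
    fun i j => UpperHalfPlane.mdifferentiable_iff.mp (hM i j)
  have e : ((fun z => (M z).det) ∘ ofComplex) = fun w => ∑ σ : Equiv.Perm n,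
      Equiv.Perm.sign σ • ∏ i, ((fun z => M z (σ i) i) ∘ ofComplex) w := by
    funext w
    simp [Matrix.det_apply]
  rw [e]
  exact DifferentiableOn.fun_sum fun σ _ =>
    (DifferentiableOn.fun_finsetProd fun i _ => h (σ i) i).const_smul _

lemma mdiff_adjugate {M : ℍ → Matrix n n ℂ} (hM : ∀ i j, MDiff (fun z => M z i j)) (a b : n) :
    MDiff (fun z => (M z).adjugate a b) := by
  simp_rw [Matrix.adjugate_apply]
  refine mdiff_det fun i j => ?_
  simp only [Matrix.updateRow_apply]
  split_ifs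
  · exact mdifferentiable_const
  · exact hM i j

lemma mdiff_inv {M : ℍ → Matrix n n ℂ} (hM : ∀ i j, MDiff (fun z => M z i j))
    (hdet : ∀ z, (M z).det ≠ 0) (a b : n) : MDiff (fun z => (M z)⁻¹ a b) := by
  have e : (fun z => (M z)⁻¹ a b) = fun z => ((M z).det)⁻¹ * (M z).adjugate a b := by
    funext z
    rw [Matrix.inv_def, Ring.inverse_eq_inv', Matrix.smul_apply, smul_eq_mul]
  rw [e]
  have h1 : MDiff (fun z => ((M z).det)⁻¹) := by
    rw [UpperHalfPlane.mdifferentiable_iff]
    have := UpperHalfPlane.mdifferentiable_iff.mp (mdiff_det hM)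
    exact (this.inv fun w _ => hdet _)
  exact h1.mul (mdiff_adjugate hM a b)

end Holo

/-! ### The fundamental matrix and its inverse -/

section Dual

variable {N : ℕ} [NeZero N] (B : helper20.Gens N)

lemma discriminant_smul (γ : SL(2, ℤ)) (z : ℍ) :
    ModularForm.discriminant (γ • z) = denom γ z ^ (12 : ℤ) * ModularForm.discriminant z := by
  have h : (ModularForm.discriminant ∣[(12 : ℤ)] γ) = ModularForm.discriminant :=
    CuspForm.discriminant.slash_action_eq' _ ⟨γ, rfl⟩
  have h2 := congrFun h z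
  rw [SL_slash_apply] at h2
  rw [← h2, mul_comm, mul_assoc, ← zpow_add₀ (denom_ne_zero γ z), neg_add_cancel, zpow_zero,
    mul_one]

lemma discriminant_isBigO :
    ModularForm.discriminant =O[atImInfty] fun τ : ℍ => Real.exp (-2 * π * τ.im) := by
  have h := CuspFormClass.exp_decay_atImInfty (h := 1) CuspForm.discriminant one_pos
    one_mem_strictPeriods_SL
  simpa using h

/-- The square fundamental matrix, the generators being reindexed by the cosets. -/
noncomputable def fundMat (e : B.ι ≃ helper20.Q N) (z : ℍ) :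
    Matrix (helper20.Q N) (helper20.Q N) ℂ :=
  fun q q' => B.Phi z q (e.symm q')

omit [NeZero N] in
lemma fundMat_apply (e : B.ι ≃ helper20.Q N) (z : ℍ) (q q' : helper20.Q N) :
    fundMat B e z q q' = SlashInvariantForm.quotientFunc (B.F (e.symm q')) q z := rfl

lemma fundMat_good (e : B.ι ≃ helper20.Q N) (q q' : helper20.Q N) :
    Good N (fun z => fundMat B e z q q') :=
  good_quotientFunc (B.F (e.symm q')) q

omit [NeZero N] in
lemma fundMat_shift (e : B.ι ≃ helper20.Q N) (z : ℍ) (q q' : helper20.Q N) :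
    fundMat B e ((1 : ℝ) +ᵥ z) q q'
      = fundMat B e z ((helper20.toSL ModularGroup.T)⁻¹ • q) q' :=
  quotientFunc_vadd_one (B.F (e.symm q')) q z

lemma fundMat_det_ne_zero (hrow : B.RowIndep) (e : B.ι ≃ helper20.Q N) (z : ℍ) :
    (fundMat B e z).det ≠ 0 := by
  intro h
  obtain ⟨v, hv, hv0⟩ := Matrix.exists_vecMul_eq_zero_iff.mpr h
  apply hv
  apply hrow z v
  intro j
  have := congrFun hv0 (e j)
  simpa [Matrix.vecMul, dotProduct, fundMat] using this

/-- The leading matrix, reindexed. -/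
noncomputable def leadMat (e : B.ι ≃ helper20.Q N) : Matrix (helper20.Q N) (helper20.Q N) ℂ :=
  fun q q' => B.LeadMat q (e.symm q')

lemma leadMat_eq (e : B.ι ≃ helper20.Q N) (q q' : helper20.Q N) :
    leadMat B e q q' = ∑ n ∈ Finset.range N, lead N n (fun z => fundMat B e z q q') := by
  unfold leadMat helper20.Gens.LeadMat helper20.lead
  refine Finset.sum_congr rfl fun n hn => ?_
  exact qExpansion_coeff_eq_lead (Finset.mem_range.mp hn) (fundMat_good B e q q')

lemma leadMat_det_ne_zero (hlead : B.LeadIndep) (e : B.ι ≃ helper20.Q N) :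
    (leadMat B e).det ≠ 0 := by
  intro h
  obtain ⟨c, hc, hc0⟩ := Matrix.exists_mulVec_eq_zero_iff.mpr h
  apply hc
  have h1 : (fun j => c (e j)) = 0 := by
    apply hlead
    intro q
    have h2 := congrFun hc0 q
    simp only [Matrix.mulVec, dotProduct, leadMat, Pi.zero_apply] at h2
    rw [← h2]
    exact (Equiv.sum_comp e.symm (fun j => B.LeadMat q j * c (e j))).symm.trans
      (Finset.sum_congr rfl fun q' _ => by simp)
  funext q'
  have := congrFun h1 (e.symm q')
  simpa using this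

/-- Cusp vanishing of `Δ · Φ⁻¹`. -/
lemma tendsto_discriminant_mul_inv (hlead : B.LeadIndep) (e : B.ι ≃ helper20.Q N)
    (q q' : helper20.Q N) :
    Tendsto (fun z => ModularForm.discriminant z * (fundMat B e z)⁻¹ q q') atImInfty (𝓝 0) :=
  tendsto_mul_inv_zero (fundMat_shift B e) (fundMat_good B e) (leadMat_eq B e)
    (leadMat_det_ne_zero B hlead e) discriminant_isBigO q q'

/-- Transformation law of the inverse of the fundamental matrix. -/
lemma fundMat_inv_smul (hrow : B.RowIndep) (e : B.ι ≃ helper20.Q N) (γ : SL(2, ℤ)) (z : ℍ)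
    (q' q : helper20.Q N) :
    (fundMat B e (γ • z))⁻¹ q' q = denom γ z ^ (-(B.wt (e.symm q') : ℤ)) *
      (fundMat B e z)⁻¹ q' ((helper20.toSL γ)⁻¹ • q) := by
  set M : Matrix (helper20.Q N) (helper20.Q N) ℂ := fun q' q =>
    denom γ z ^ (-(B.wt (e.symm q') : ℤ)) * (fundMat B e z)⁻¹ q' ((helper20.toSL γ)⁻¹ • q)
    with hM
  have hd := denom_ne_zero γ z
  have h1 : M * fundMat B e (γ • z) = 1 := by
    ext a b
    rw [Matrix.mul_apply]
    have e1 : ∀ q, M a q * fundMat B e (γ • z) q b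
        = denom γ z ^ (-(B.wt (e.symm a) : ℤ)) * denom γ z ^ ((B.wt (e.symm b) : ℤ)) *
          ((fundMat B e z)⁻¹ a ((helper20.toSL γ)⁻¹ • q) *
            fundMat B e z ((helper20.toSL γ)⁻¹ • q) b) := by
      intro q
      rw [hM, fundMat_apply, fundMat_apply, quotientFunc_smul_apply]
      ring
    simp_rw [e1]
    rw [← Finset.mul_sum]
    have e2 : ∑ q, (fundMat B e z)⁻¹ a ((helper20.toSL γ)⁻¹ • q) *
        fundMat B e z ((helper20.toSL γ)⁻¹ • q) b
        = ((fundMat B e z)⁻¹ * fundMat B e z) a b := by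
      rw [Matrix.mul_apply]
      exact Equiv.sum_comp (MulAction.toPerm (helper20.toSL γ)⁻¹)
        (fun q => (fundMat B e z)⁻¹ a q * fundMat B e z q b)
    rw [e2, Matrix.nonsing_inv_mul _ (Ne.isUnit (fundMat_det_ne_zero B hrow e z)),
      Matrix.one_apply]
    split_ifs with hab
    · subst hab
      rw [← zpow_add₀ hd, neg_add_cancel, zpow_zero, mul_one]
    · rw [mul_zero]
  exact congrFun (congrFun (Matrix.inv_eq_left_inv h1) q') q

/-- The dual function `h_l = Δ · (Φ⁻¹)_{l, q₀}`. -/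
noncomputable def dualFun (e : B.ι ≃ helper20.Q N) (l : B.ι) (z : ℍ) : ℂ :=
  ModularForm.discriminant z * (fundMat B e z)⁻¹ (e l) (q0 N)

lemma dualFun_slash (hrow : B.RowIndep) (e : B.ι ≃ helper20.Q N) (l : B.ι) (γ : SL(2, ℤ))
    (z : ℍ) :
    (dualFun B e l ∣[(12 - (B.wt l : ℤ))] γ) z
      = ModularForm.discriminant z * (fundMat B e z)⁻¹ (e l) ((helper20.toSL γ)⁻¹ • q0 N) := by
  rw [SL_slash_apply]
  unfold dualFun
  rw [fundMat_inv_smul B hrow e γ z, e.symm_apply_apply, discriminant_smul]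
  have hd := denom_ne_zero γ z
  have h1 : denom γ z ^ (12 : ℤ) * denom γ z ^ (-(B.wt l : ℤ)) *
      denom γ z ^ (-(12 - (B.wt l : ℤ))) = 1 := by
    rw [← zpow_add₀ hd, ← zpow_add₀ hd]
    have : (12 : ℤ) + -(B.wt l : ℤ) + -(12 - (B.wt l : ℤ)) = 0 := by ring
    rw [this, zpow_zero]
  linear_combination (ModularForm.discriminant z *
    (fundMat B e z)⁻¹ (e l) ((helper20.toSL γ)⁻¹ • q0 N)) * h1

lemma dualFun_mdiff (hrow : B.RowIndep) (e : B.ι ≃ helper20.Q N) (l : B.ι) :
    MDiff (dualFun B e l) := by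
  have h1 : MDiff (fun z => (fundMat B e z)⁻¹ (e l) (q0 N)) :=
    mdiff_inv (fun q q' => (fundMat_good B e q q').holo) (fundMat_det_ne_zero B hrow e) _ _
  exact CuspForm.discriminant.holo'.mul h1

/-- The dual cusp form `H_l ∈ S_{12 - wt l}(Γ₀(N))`. -/
noncomputable def dualForm (hrow : B.RowIndep) (hlead : B.LeadIndep) (e : B.ι ≃ helper20.Q N)
    (l : B.ι) : CuspForm (helper20.Gam N) (12 - (B.wt l : ℤ)) where
  toFun := dualFun B e l
  slash_action_eq' := by
    rintro _ ⟨g, hg, rfl⟩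
    funext z
    have h := dualFun_slash B hrow e l g z
    rw [toSL_inv_smul_q0_of_mem hg] at h
    exact h
  holo' := dualFun_mdiff B hrow e l
  zero_at_cusps' := by
    intro c hc
    rw [Subgroup.IsArithmetic.isCusp_iff_isCusp_SL2Z] at hc
    rw [OnePoint.isZeroAt_iff_forall_SL2Z hc]
    intro γ _
    have h : (dualFun B e l ∣[(12 - (B.wt l : ℤ))] γ) = fun z =>
        ModularForm.discriminant z * (fundMat B e z)⁻¹ (e l) ((helper20.toSL γ)⁻¹ • q0 N) :=
      funext (dualFun_slash B hrow e l γ)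
    rw [h]
    exact tendsto_discriminant_mul_inv B hlead e _ _

lemma dualForm_quotientFunc (hrow : B.RowIndep) (hlead : B.LeadIndep)
    (e : B.ι ≃ helper20.Q N) (l : B.ι) (q : helper20.Q N) (z : ℍ) :
    SlashInvariantForm.quotientFunc (dualForm B hrow hlead e l) q z
      = ModularForm.discriminant z * (fundMat B e z)⁻¹ (e l) q := by
  induction q using QuotientGroup.induction_on with
  | H h =>
    obtain ⟨γ, rfl⟩ := toSL_surjective h
    rw [quotientFunc_mk_toSL]
    have h1 := dualFun_slash B hrow e l γ⁻¹ z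
    rw [toSL_inv, inv_inv, toSL_smul_q0] at h1
    exact h1

/-- **R7a (DUAL FORMS)** in the exact shape of `helper20_Spec`. -/
theorem dualForms (B : helper20.Gens N) (_hB : B.IsBasis) (hrow : B.RowIndep)
    (hcard : B.CardEq) (hlead : B.LeadIndep) : B.DualForms := by
  have hc : Fintype.card B.ι = Fintype.card (helper20.Q N) := by
    rw [← Nat.card_eq_fintype_card (α := helper20.Q N)]
    exact hcard
  let e : B.ι ≃ helper20.Q N := Fintype.equivOfCardEq hc
  intro l
  refine ⟨dualForm B hrow hlead e l, fun z j => ?_⟩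
  simp_rw [dualForm_quotientFunc]
  have h1 : ∀ q, ModularForm.discriminant z * (fundMat B e z)⁻¹ (e l) q * B.Phi z q j
      = ModularForm.discriminant z * ((fundMat B e z)⁻¹ (e l) q * fundMat B e z q (e j)) := by
    intro q
    unfold fundMat
    rw [e.symm_apply_apply]
    ring
  simp_rw [h1]
  rw [← Finset.mul_sum, ← Matrix.mul_apply,
    Matrix.nonsing_inv_mul _ (Ne.isUnit (fundMat_det_ne_zero B hrow e z)), Matrix.one_apply]
  by_cases hjl : j = l
  · subst hjl
    simp
  · have : e l ≠ e j := fun h => hjl (e.injective h).symm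
    simp [this, hjl]

end Dual

end Fermat.Agent.S20.helper500
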