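/-
S20-FREE (backup of board row 43), seat helper634.

Freeness of the graded module of modular forms of an arithmetic level `𝒢 ≤ 𝒮ℒ` over the graded
ring of level-one forms:

* `exists_div_E`            : division lemma (`E₄ a + E₆ b = 0` forces `a = -E₆ h`, `b = E₄ h`);
* `levelOne_exists_E₄_E₆`   : every level-one form of weight `n ≠ 0` is `E₄ A + E₆ B`;
* `exists_free_family`      : abstract graded freeness engine;
* `exists_free_generators`  : finitely many homogeneous generators `F j` of weights `k j ≥ 0`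
                              with unique expansions `f = ∑ P j * F j`, `P j` of level one.
-/
import Mathlib
import Fermat.Prelude.Thm_ModularForm_sturm_bound_of_isArithmetic
import Fermat.Prelude.Thm_CongruenceSubgroup_one_mem_strictPeriods_Gamma0

set_option autoImplicit false

namespace Fermat.Agent.S20.helper634

open UpperHalfPlane ModularForm MatrixGroups EisensteinSeries Filter Topology CongruenceSubgroup
open SlashInvariantFormClass ModularFormClass Matrix.SpecialLinearGroup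
open scoped Manifold

noncomputable section

local notation "Δ" => ModularForm.discriminant

/-! ### Abstract graded freeness engine -/

section Engine

variable {𝕜 𝔸 : Type*} [Field 𝕜] [CommRing 𝔸] [Algebra 𝕜 𝔸]

/-- Hypotheses of the graded freeness engine: `M` is a graded module over the graded ring `R`
(both realised as families of subspaces of one commutative algebra `𝔸`), `R` is generated by
`e4, e6` in the weak sense `R n = e4 R (n-4) + e6 R (n-6)` for `n ≠ 0`, and `e4, e6` is a regular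
sequence on `M` (field `div`). -/
structure GradedHyp (M R : ℤ → Submodule 𝕜 𝔸) (e4 e6 : 𝔸) : Prop where
  R_neg : ∀ n : ℤ, n < 0 → ∀ p ∈ R n, p = 0
  R_zero : ∀ p ∈ R 0, ∃ c : 𝕜, p = algebraMap 𝕜 𝔸 c
  one_mem : (1 : 𝔸) ∈ R 0
  R_dec : ∀ n : ℤ, n ≠ 0 → ∀ p ∈ R n, ∃ A ∈ R (n - 4), ∃ B ∈ R (n - 6), p = e4 * A + e6 * B
  e4_mem : e4 ∈ R 4
  e6_mem : e6 ∈ R 6
  R_mul_R : ∀ (a b : ℤ) (p q : 𝔸), p ∈ R a → q ∈ R b → p * q ∈ R (a + b)
  R_mul_M : ∀ (a b : ℤ) (p f : 𝔸), p ∈ R a → f ∈ M b → p * f ∈ M (a + b)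
  M_neg : ∀ k : ℤ, k < 0 → ∀ f ∈ M k, f = 0
  div : ∀ (k : ℤ) (a b : 𝔸), a ∈ M (k - 4) → b ∈ M (k - 6) → e4 * a + e6 * b = 0 →
    ∃ h ∈ M (k - 10), a = -(e6 * h) ∧ b = e4 * h

lemma mem_of_weight_eq {S : ℤ → Submodule 𝕜 𝔸} {a b : ℤ} (h : a = b) {x : 𝔸} (hx : x ∈ S a) :
    x ∈ S b := h ▸ hx

variable {M R : ℤ → Submodule 𝕜 𝔸} {e4 e6 : 𝔸}

/-- Engine, generation part. -/
theorem gen_of_span {J : Type*} [Fintype J] (H : GradedHyp M R e4 e6) (k : J → ℤ) (G : J → 𝔸)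
    (W : Set ℤ) (hW : ∀ w ∈ W, ∀ w' : ℤ, w' ≤ w → w' ∈ W)
    (hspan : ∀ w ∈ W, ∀ f ∈ M w, ∃ c : J → 𝕜, ∃ a ∈ M (w - 4), ∃ b ∈ M (w - 6),
      f = ∑ j, (if k j = w then c j else 0) • G j + (e4 * a + e6 * b)) :
    ∀ w ∈ W, ∀ f ∈ M w, ∃ P : J → 𝔸, (∀ j, P j ∈ R (w - k j)) ∧ f = ∑ j, P j * G j := by
  suffices h : ∀ n : ℕ, ∀ w : ℤ, w < n → w ∈ W → ∀ f ∈ M w,
      ∃ P : J → 𝔸, (∀ j, P j ∈ R (w - k j)) ∧ f = ∑ j, P j * G j from
    fun w hw f hf ↦ h (w.toNat + 1) w (by push_cast; omega) hw f hf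
  intro n
  induction n with
  | zero =>
    intro w hw _ f hf
    have := H.M_neg w (by exact_mod_cast hw) f hf
    exact ⟨0, fun j ↦ zero_mem _, by simp [this]⟩
  | succ n ih =>
    intro w hw hwW f hf
    obtain ⟨c, a, ha, b, hb, rfl⟩ := hspan w hwW f hf
    obtain ⟨Pa, hPa, rfl⟩ := ih (w - 4) (by push_cast at hw; omega) (hW w hwW _ (by omega)) a ha
    obtain ⟨Pb, hPb, rfl⟩ := ih (w - 6) (by push_cast at hw; omega) (hW w hwW _ (by omega)) b hb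
    refine ⟨fun j ↦ (if k j = w then algebraMap 𝕜 𝔸 (c j) else 0) + e4 * Pa j + e6 * Pb j,
      fun j ↦ ?_, ?_⟩
    · refine add_mem (add_mem ?_ ?_) ?_
      · split_ifs with h
        · refine mem_of_weight_eq (S := R) (by omega : (0 : ℤ) = w - k j) ?_
          rw [Algebra.algebraMap_eq_smul_one]
          exact Submodule.smul_mem _ _ H.one_mem
        · exact zero_mem _
      · exact mem_of_weight_eq (S := R) (by ring) (H.R_mul_R 4 (w - 4 - k j) _ _ H.e4_mem (hPa j))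
      · exact mem_of_weight_eq (S := R) (by ring) (H.R_mul_R 6 (w - 6 - k j) _ _ H.e6_mem (hPb j))
    · rw [Finset.mul_sum, Finset.mul_sum, ← Finset.sum_add_distrib, ← Finset.sum_add_distrib]
      refine Finset.sum_congr rfl fun j _ ↦ ?_
      by_cases h : k j = w
      · simp only [h, if_true, Algebra.smul_def]; ring
      · simp only [h, if_false, zero_smul, zero_add]; ring

/-- Engine, independence part. -/
theorem ind_of_indep {J : Type*} [Fintype J] (H : GradedHyp M R e4 e6) (k : J → ℤ) (G : J → 𝔸)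
    (hG : ∀ j, G j ∈ M (k j)) (hk : ∀ j, 0 ≤ k j)
    (W : Set ℤ) (hW : ∀ w ∈ W, ∀ w' : ℤ, w' ≤ w → w' ∈ W)
    (hgen : ∀ w ∈ W, ∀ f ∈ M w, ∃ P : J → 𝔸, (∀ j, P j ∈ R (w - k j)) ∧ f = ∑ j, P j * G j)
    (hindep : ∀ (w : ℤ) (c : J → 𝕜), ∀ a ∈ M (w - 4), ∀ b ∈ M (w - 6),
      ∑ j, (if k j = w then c j else 0) • G j = e4 * a + e6 * b → ∀ j, k j = w → c j = 0) :
    ∀ w : ℤ, w - 10 ∈ W → ∀ P : J → 𝔸, (∀ j, P j ∈ R (w - k j)) → ∑ j, P j * G j = 0 →
      ∀ j, P j = 0 := by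
  suffices h : ∀ n : ℕ, ∀ w : ℤ, w < n → w - 10 ∈ W → ∀ P : J → 𝔸, (∀ j, P j ∈ R (w - k j)) →
      ∑ j, P j * G j = 0 → ∀ j, P j = 0 from
    fun w hw P hP hs ↦ h (w.toNat + 1) w (by push_cast; omega) hw P hP hs
  intro n
  induction n with
  | zero =>
    intro w hw _ P hP _ j
    exact H.R_neg (w - k j) (by have := hk j; have : w < 0 := (by exact_mod_cast hw); omega) _ (hP j)
  | succ n ih =>
    intro w hw hwW P hP hsum
    have hdec : ∀ j, ∃ c : 𝕜, ∃ A ∈ R (w - k j - 4), ∃ B ∈ R (w - k j - 6),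
        P j = (if k j = w then algebraMap 𝕜 𝔸 c else 0) + (e4 * A + e6 * B) := by
      intro j
      by_cases hj : k j = w
      · obtain ⟨c, hc⟩ := H.R_zero (P j) (mem_of_weight_eq (S := R) (by omega) (hP j))
        exact ⟨c, 0, zero_mem _, 0, zero_mem _, by simp [hj, hc]⟩
      · obtain ⟨A, hA, B, hB, hAB⟩ := H.R_dec (w - k j) (by omega) (P j) (hP j)
        exact ⟨0, A, hA, B, hB, by simp [hj, hAB]⟩
    choose c A hA B hB hPeq using hdec
    have ha : ∑ j, A j * G j ∈ M (w - 4) := sum_mem fun j _ ↦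
      mem_of_weight_eq (S := M) (by ring) (H.R_mul_M _ _ _ _ (hA j) (hG j))
    have hb : ∑ j, B j * G j ∈ M (w - 6) := sum_mem fun j _ ↦
      mem_of_weight_eq (S := M) (by ring) (H.R_mul_M _ _ _ _ (hB j) (hG j))
    have hkey : ∑ j, (if k j = w then c j else 0) • G j +
        (e4 * ∑ j, A j * G j + e6 * ∑ j, B j * G j) = 0 := by
      rw [← hsum]
      simp only [Finset.mul_sum, ← Finset.sum_add_distrib]
      refine Finset.sum_congr rfl fun j _ ↦ ?_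
      rw [hPeq j]
      by_cases h : k j = w
      · simp only [h, if_true, Algebra.smul_def]; ring
      · simp only [h, if_false, zero_smul, zero_add]; ring
    have hc0 : ∀ j, k j = w → c j = 0 :=
      hindep w c (-∑ j, A j * G j) (neg_mem ha) (-∑ j, B j * G j) (neg_mem hb)
        (by linear_combination hkey)
    have hab : e4 * ∑ j, A j * G j + e6 * ∑ j, B j * G j = 0 := by
      have : ∑ j, (if k j = w then c j else 0) • G j = 0 :=
        Finset.sum_eq_zero fun j _ ↦ by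
          split_ifs with h
          · simp [hc0 j h]
          · simp
      rw [this, zero_add] at hkey
      exact hkey
    obtain ⟨h, hh, hah, hbh⟩ := H.div w _ _ ha hb hab
    obtain ⟨Hc, hHc, rfl⟩ := hgen (w - 10) hwW h hh
    have hA0 : ∀ j, A j + e6 * Hc j = 0 :=
      ih (w - 4) (by push_cast at hw; omega) (hW _ hwW _ (by omega)) (fun j ↦ A j + e6 * Hc j)
        (fun j ↦ add_mem (mem_of_weight_eq (S := R) (by ring) (hA j))
          (mem_of_weight_eq (S := R) (by ring) (H.R_mul_R 6 _ _ _ H.e6_mem (hHc j))))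
        (by
          simp only [add_mul, Finset.sum_add_distrib]
          rw [hah, Finset.mul_sum, ← sub_eq_neg_add, sub_eq_zero]
          exact Finset.sum_congr rfl fun j _ ↦ by ring)
    have hB0 : ∀ j, B j - e4 * Hc j = 0 :=
      ih (w - 6) (by push_cast at hw; omega) (hW _ hwW _ (by omega)) (fun j ↦ B j - e4 * Hc j)
        (fun j ↦ sub_mem (mem_of_weight_eq (S := R) (by ring) (hB j))
          (mem_of_weight_eq (S := R) (by ring) (H.R_mul_R 4 _ _ _ H.e4_mem (hHc j))))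
        (by
          simp only [sub_mul, Finset.sum_sub_distrib]
          rw [hbh, Finset.mul_sum, sub_eq_zero]
          exact Finset.sum_congr rfl fun j _ ↦ by ring)
    intro j
    rw [hPeq j]
    have h1 : (if k j = w then algebraMap 𝕜 𝔸 (c j) else 0) = 0 := by
      split_ifs with h
      · simp [hc0 j h]
      · rfl
    rw [h1]
    linear_combination e4 * hA0 j + e6 * hB0 j

/-- Generators in one weight: a finite family in `M k` which is a basis of `M k` modulo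
`e4 M (k-4) + e6 M (k-6)`. -/
theorem exists_weight_gens (H : GradedHyp M R e4 e6) (k : ℤ) (hfin : Module.Finite 𝕜 (M k)) :
    ∃ (m : ℕ) (g : Fin m → 𝔸), (∀ i, g i ∈ M k) ∧
      (∀ f ∈ M k, ∃ c : Fin m → 𝕜, ∃ a ∈ M (k - 4), ∃ b ∈ M (k - 6),
        f = ∑ i, c i • g i + (e4 * a + e6 * b)) ∧
      (∀ c : Fin m → 𝕜, ∀ a ∈ M (k - 4), ∀ b ∈ M (k - 6),
        ∑ i, c i • g i = e4 * a + e6 * b → ∀ i, c i = 0) := by
  let D : Submodule 𝕜 𝔸 :=
    (M (k - 4)).map (LinearMap.mulLeft 𝕜 e4) ⊔ (M (k - 6)).map (LinearMap.mulLeft 𝕜 e6)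
  have hD : ∀ x, x ∈ D ↔ ∃ a ∈ M (k - 4), ∃ b ∈ M (k - 6), x = e4 * a + e6 * b := by
    intro x
    simp only [D, Submodule.mem_sup, Submodule.mem_map, LinearMap.mulLeft_apply]
    constructor
    · rintro ⟨_, ⟨a, ha, rfl⟩, _, ⟨b, hb, rfl⟩, rfl⟩; exact ⟨a, ha, b, hb, rfl⟩
    · rintro ⟨a, ha, b, hb, rfl⟩; exact ⟨_, ⟨a, ha, rfl⟩, _, ⟨b, hb, rfl⟩, rfl⟩
  have hDle : D ≤ M k := by
    intro x hx
    obtain ⟨a, ha, b, hb, rfl⟩ := (hD x).mp hx
    exact add_mem (mem_of_weight_eq (S := M) (by ring) (H.R_mul_M 4 (k - 4) _ _ H.e4_mem ha))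
      (mem_of_weight_eq (S := M) (by ring) (H.R_mul_M 6 (k - 6) _ _ H.e6_mem hb))
  obtain ⟨C', hC'⟩ := Submodule.exists_isCompl D
  let C : Submodule 𝕜 𝔸 := C' ⊓ M k
  have hCle : C ≤ M k := inf_le_right
  have : Module.Finite 𝕜 C := Submodule.finiteDimensional_of_le hCle
  let bas := Module.finBasis 𝕜 C
  refine ⟨Module.finrank 𝕜 C, fun i ↦ (bas i : 𝔸), fun i ↦ hCle (bas i).2, ?_, ?_⟩
  · intro f hf
    have : f ∈ D ⊔ C' := by rw [hC'.sup_eq_top]; trivial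
    obtain ⟨y, hy, z, hz, rfl⟩ := Submodule.mem_sup.mp this
    have hzM : z ∈ M k := by simpa using sub_mem hf (hDle hy)
    obtain ⟨a, ha, b, hb, rfl⟩ := (hD y).mp hy
    refine ⟨fun i ↦ bas.repr ⟨z, hz, hzM⟩ i, a, ha, b, hb, ?_⟩
    have h2 := congrArg (Subtype.val) (bas.sum_repr ⟨z, hz, hzM⟩)
    simp only [Submodule.coe_sum, Submodule.coe_smul] at h2
    rw [h2, add_comm]
  · intro c a ha b hb hsum i
    have h1 : (∑ i, c i • bas i : C) = 0 := by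
      have hcoe : ((∑ i, c i • bas i : C) : 𝔸) = ∑ i, c i • (bas i : 𝔸) := by
        simp only [Submodule.coe_sum, Submodule.coe_smul]
      have hmemD : ((∑ i, c i • bas i : C) : 𝔸) ∈ D := by
        rw [hD]; exact ⟨a, ha, b, hb, by rw [hcoe]; exact hsum⟩
      have hmemC' : ((∑ i, c i • bas i : C) : 𝔸) ∈ C' := (∑ i, c i • bas i : C).2.1
      have := hC'.disjoint.le_bot ⟨hmemD, hmemC'⟩
      exact Subtype.ext (by simpa using this)
    exact (Fintype.linearIndependent_iff.mp bas.linearIndependent) c h1 i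

/-- Dimension count from the independence statement. -/
theorem sum_finrank_le {J : Type*} [Fintype J] (k : J → ℤ) (G : J → 𝔸) (w : ℤ)
    (hRfin : ∀ n, Module.Finite 𝕜 (R n)) (hMfin : Module.Finite 𝕜 (M w))
    (hGM : ∀ j, ∀ p ∈ R (w - k j), p * G j ∈ M w)
    (hind : ∀ P : J → 𝔸, (∀ j, P j ∈ R (w - k j)) → ∑ j, P j * G j = 0 → ∀ j, P j = 0) :
    ∑ j, Module.finrank 𝕜 (R (w - k j)) ≤ Module.finrank 𝕜 (M w) := by
  let Φ : (Π j, R (w - k j)) →ₗ[𝕜] M w :=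
    { toFun := fun P ↦ ⟨∑ j, (P j : 𝔸) * G j, sum_mem fun j _ ↦ hGM j _ (P j).2⟩
      map_add' := fun P Q ↦ by
        apply Subtype.ext
        simp only [Pi.add_apply, Submodule.coe_add, add_mul, Finset.sum_add_distrib]
      map_smul' := fun c P ↦ by
        apply Subtype.ext
        simp only [Pi.smul_apply, Submodule.coe_smul, RingHom.id_apply, Finset.smul_sum,
          smul_mul_assoc] }
  have hinj : Function.Injective Φ := by
    rw [← LinearMap.ker_eq_bot, LinearMap.ker_eq_bot']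
    intro P hP
    funext j
    exact Subtype.ext (hind (fun j ↦ (P j : 𝔸)) (fun j ↦ (P j).2) (congrArg Subtype.val hP) j)
  calc ∑ j, Module.finrank 𝕜 (R (w - k j)) = Module.finrank 𝕜 (Π j, R (w - k j)) :=
        (Module.finrank_pi_fintype 𝕜).symm
    _ ≤ Module.finrank 𝕜 (M w) := LinearMap.finrank_le_finrank_of_injective hinj

/-- Exact dimension count from generation and independence. -/
theorem sum_finrank_eq {J : Type*} [Fintype J] (k : J → ℤ) (G : J → 𝔸) (w : ℤ)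
    (hRfin : ∀ n, Module.Finite 𝕜 (R n))
    (hGM : ∀ j, ∀ p ∈ R (w - k j), p * G j ∈ M w)
    (hgen : ∀ f ∈ M w, ∃ P : J → 𝔸, (∀ j, P j ∈ R (w - k j)) ∧ f = ∑ j, P j * G j)
    (hind : ∀ P : J → 𝔸, (∀ j, P j ∈ R (w - k j)) → ∑ j, P j * G j = 0 → ∀ j, P j = 0) :
    Module.finrank 𝕜 (M w) = ∑ j, Module.finrank 𝕜 (R (w - k j)) := by
  let Φ : (Π j, R (w - k j)) →ₗ[𝕜] M w :=
    { toFun := fun P ↦ ⟨∑ j, (P j : 𝔸) * G j, sum_mem fun j _ ↦ hGM j _ (P j).2⟩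
      map_add' := fun P Q ↦ by
        apply Subtype.ext
        simp only [Pi.add_apply, Submodule.coe_add, add_mul, Finset.sum_add_distrib]
      map_smul' := fun c P ↦ by
        apply Subtype.ext
        simp only [Pi.smul_apply, Submodule.coe_smul, RingHom.id_apply, Finset.smul_sum,
          smul_mul_assoc] }
  have hinj : Function.Injective Φ := by
    rw [← LinearMap.ker_eq_bot, LinearMap.ker_eq_bot']
    intro P hP
    funext j
    exact Subtype.ext (hind (fun j ↦ (P j : 𝔸)) (fun j ↦ (P j).2) (congrArg Subtype.val hP) j)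
  have hsurj : Function.Surjective Φ := by
    rintro ⟨f, hf⟩
    obtain ⟨P, hP, rfl⟩ := hgen f hf
    exact ⟨fun j ↦ ⟨P j, hP j⟩, rfl⟩
  rw [← (LinearEquiv.ofBijective Φ ⟨hinj, hsurj⟩).finrank_eq, Module.finrank_pi_fintype 𝕜]

section Family

variable (m : ℕ → ℕ) (g : (k : ℕ) → Fin (m k) → 𝔸)

/-- Index type of the generators of weight `≤ K`. -/
abbrev TruncIdx (m : ℕ → ℕ) (K : ℕ) : Type := Σ κ : Fin (K + 1), Fin (m κ)

/-- Weight of a generator. -/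
def truncWt (K : ℕ) (j : TruncIdx m K) : ℤ := ((j.1 : ℕ) : ℤ)

/-- The generators of weight `≤ K`. -/
def truncGen (K : ℕ) (j : TruncIdx m K) : 𝔸 := g j.1 j.2

variable {m g}

lemma trunc_sum_eq (K : ℕ) (κ : Fin (K + 1)) (c : TruncIdx m K → 𝕜) :
    ∑ j, (if truncWt m K j = ((κ : ℕ) : ℤ) then c j else 0) • truncGen m g K j =
      ∑ i : Fin (m κ), c ⟨κ, i⟩ • g κ i := by
  rw [Fintype.sum_sigma, Finset.sum_eq_single κ]
  · simp [truncWt, truncGen]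
  · intro b _ hb
    refine Finset.sum_eq_zero fun i _ ↦ ?_
    have : truncWt m K ⟨b, i⟩ ≠ ((κ : ℕ) : ℤ) := by
      simp only [truncWt]
      intro h
      exact hb (Fin.ext (by exact_mod_cast h))
    simp [this]
  · intro h; exact absurd (Finset.mem_univ κ) h

lemma trunc_span (H : GradedHyp M R e4 e6)
    (hsp : ∀ k : ℕ, ∀ f ∈ M k, ∃ c : Fin (m k) → 𝕜, ∃ a ∈ M ((k : ℤ) - 4), ∃ b ∈ M ((k : ℤ) - 6),
      f = ∑ i, c i • g k i + (e4 * a + e6 * b))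
    (K : ℕ) (w : ℤ) (hw : w ≤ K ∨ m w.toNat = 0) :
    ∀ f ∈ M w, ∃ c : TruncIdx m K → 𝕜, ∃ a ∈ M (w - 4), ∃ b ∈ M (w - 6),
      f = ∑ j, (if truncWt m K j = w then c j else 0) • truncGen m g K j + (e4 * a + e6 * b) := by
  intro f hf
  rcases lt_or_ge w 0 with hneg | hpos
  · refine ⟨0, 0, zero_mem _, 0, zero_mem _, ?_⟩
    simp [H.M_neg w hneg f hf]
  · lift w to ℕ using hpos with k₀
    by_cases hk : k₀ ≤ K
    · let κ : Fin (K + 1) := ⟨k₀, by omega⟩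
      obtain ⟨c₀, a, ha, b, hb, rfl⟩ := hsp (κ : ℕ) f hf
      refine ⟨fun j ↦ if h : j.1 = κ then c₀ (h ▸ j.2) else 0, a, ha, b, hb, ?_⟩
      congr 1
      have h1 := trunc_sum_eq (𝕜 := 𝕜) (g := g) K κ
        (fun j ↦ if h : j.1 = κ then c₀ (h ▸ j.2) else 0)
      rw [h1]
      exact Finset.sum_congr rfl fun i _ ↦ by rw [dif_pos rfl]
    · obtain ⟨c₀, a, ha, b, hb, rfl⟩ := hsp k₀ f hf
      have hm : m k₀ = 0 := by
        rcases hw with hw | hw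
        · exact absurd (by exact_mod_cast hw) hk
        · simpa using hw
      refine ⟨0, a, ha, b, hb, ?_⟩
      congr 1
      have hempty : IsEmpty (Fin (m k₀)) := by rw [hm]; infer_instance
      simp

lemma trunc_indep
    (hin : ∀ k : ℕ, ∀ c : Fin (m k) → 𝕜, ∀ a ∈ M ((k : ℤ) - 4), ∀ b ∈ M ((k : ℤ) - 6),
      ∑ i, c i • g k i = e4 * a + e6 * b → ∀ i, c i = 0)
    (K : ℕ) (w : ℤ) (c : TruncIdx m K → 𝕜) (a : 𝔸) (ha : a ∈ M (w - 4)) (b : 𝔸)
    (hb : b ∈ M (w - 6))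
    (hsum : ∑ j, (if truncWt m K j = w then c j else 0) • truncGen m g K j = e4 * a + e6 * b) :
    ∀ j, truncWt m K j = w → c j = 0 := by
  rintro ⟨κ, i⟩ hj
  simp only [truncWt] at hj
  subst hj
  refine hin κ (fun i ↦ c ⟨κ, i⟩) a ha b hb ?_ i
  rw [← hsum, trunc_sum_eq]

end Family

/-- Numeric core of the generator count. -/
theorem numeric_finite (m : ℕ → ℕ) (μ : ℕ)
    (h : ∀ K : ℕ, Even K →
      ∑ k ∈ Finset.range (K + 1), m k * ((K - k) / 12) ≤ K * μ / 12 + 1) :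
    ∃ K₀ : ℕ, (∀ k, K₀ < k → m k = 0) ∧ ∑ k ∈ Finset.range (K₀ + 1), m k ≤ μ := by
  -- Step 1: partial sums are bounded
  have hS : ∀ K, ∑ k ∈ Finset.range (K + 1), m k ≤ 2 * μ + 1 := by
    intro K
    set n := K + 1 with hn
    have h0 := h (24 * n) ⟨12 * n, by ring⟩
    have h1 : n * ∑ k ∈ Finset.range (K + 1), m k ≤
        ∑ k ∈ Finset.range (24 * n + 1), m k * ((24 * n - k) / 12) := by
      rw [Finset.mul_sum]
      calc ∑ k ∈ Finset.range (K + 1), n * m k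
          ≤ ∑ k ∈ Finset.range (K + 1), m k * ((24 * n - k) / 12) := by
            refine Finset.sum_le_sum fun k hk ↦ ?_
            rw [mul_comm]
            have hk' : k < K + 1 := Finset.mem_range.mp hk
            exact Nat.mul_le_mul_left _ (by omega)
        _ ≤ ∑ k ∈ Finset.range (24 * n + 1), m k * ((24 * n - k) / 12) :=
            Finset.sum_le_sum_of_subset (Finset.range_subset_range.mpr (by omega))
    have h2 : 24 * n * μ / 12 = 2 * n * μ := by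
      rw [show 24 * n * μ = 12 * (2 * n * μ) by ring, Nat.mul_div_cancel_left _ (by norm_num)]
    rw [h2] at h0
    have h3 := h1.trans h0
    by_contra hlt
    push Not at hlt
    have hn1 : 1 ≤ n := by omega
    nlinarith
  -- Step 2: `m` is eventually zero
  have hfin : ∃ K₀ : ℕ, ∀ k, K₀ < k → m k = 0 := by
    by_contra hne
    push Not at hne
    have hub : ∀ t : ℕ, ∃ K, t ≤ ∑ k ∈ Finset.range (K + 1), m k := by
      intro t
      induction t with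
      | zero => exact ⟨0, Nat.zero_le _⟩
      | succ t ih =>
        obtain ⟨K, hK⟩ := ih
        obtain ⟨k, hk, hmk⟩ := hne K
        refine ⟨k, ?_⟩
        rw [Finset.sum_range_succ]
        have : ∑ k ∈ Finset.range (K + 1), m k ≤ ∑ x ∈ Finset.range k, m x :=
          Finset.sum_le_sum_of_subset (Finset.range_subset_range.mpr (by omega))
        have : 1 ≤ m k := Nat.pos_of_ne_zero hmk
        omega
    obtain ⟨K, hK⟩ := hub (2 * μ + 2)
    have := hS K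
    omega
  obtain ⟨K₀, hK₀⟩ := hfin
  refine ⟨K₀, hK₀, ?_⟩
  by_contra hr
  push Not at hr
  set r := ∑ k ∈ Finset.range (K₀ + 1), m k with hr_def
  set E := 2 * K₀ with hE
  set t := E * μ + 2 with ht
  have h0 := h (E + 12 * t) ⟨K₀ + 6 * t, by rw [hE]; ring⟩
  have h1 : t * r ≤ ∑ k ∈ Finset.range (E + 12 * t + 1), m k * ((E + 12 * t - k) / 12) := by
    rw [hr_def, Finset.mul_sum]
    calc ∑ k ∈ Finset.range (K₀ + 1), t * m k
        ≤ ∑ k ∈ Finset.range (K₀ + 1), m k * ((E + 12 * t - k) / 12) := by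
          refine Finset.sum_le_sum fun k hk ↦ ?_
          rw [mul_comm]
          have hk' : k < K₀ + 1 := Finset.mem_range.mp hk
          exact Nat.mul_le_mul_left _ (by omega)
      _ ≤ ∑ k ∈ Finset.range (E + 12 * t + 1), m k * ((E + 12 * t - k) / 12) :=
          Finset.sum_le_sum_of_subset (Finset.range_subset_range.mpr (by omega))
  have h2 : (E + 12 * t) * μ / 12 ≤ t * μ + E * μ := by
    apply Nat.div_le_of_le_mul
    nlinarith [Nat.zero_le (E * μ)]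
  have h3 : t * r ≤ t * μ + E * μ + 1 := by omega
  have h4 : t * (μ + 1) ≤ t * r := Nat.mul_le_mul_left _ hr
  have h5 : t ≤ E * μ + 1 := by nlinarith
  omega

/-- **Abstract freeness theorem.** Under `GradedHyp` and the numeric growth hypotheses, `M` is a
free graded `R`-module on finitely many (at most `μ`) homogeneous generators. -/
theorem exists_free_family (H : GradedHyp M R e4 e6)
    (hMfin : ∀ k, Module.Finite 𝕜 (M k)) (hRfin : ∀ k, Module.Finite 𝕜 (R k))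
    (hodd : ∀ k : ℤ, Odd k → ∀ f ∈ M k, f = 0) (μ : ℕ)
    (hD : ∀ K : ℕ, Module.finrank 𝕜 (M K) ≤ K * μ / 12 + 1)
    (hd : ∀ n : ℕ, Even n → n / 12 ≤ Module.finrank 𝕜 (R n)) :
    ∃ (J : Type) (_ : Fintype J) (k : J → ℤ) (G : J → 𝔸),
      Fintype.card J ≤ μ ∧ (∀ j, 0 ≤ k j) ∧ (∀ j, G j ∈ M (k j)) ∧
      (∀ w : ℤ, ∀ f ∈ M w, ∃ P : J → 𝔸, (∀ j, P j ∈ R (w - k j)) ∧ f = ∑ j, P j * G j) ∧
      (∀ w : ℤ, ∀ P : J → 𝔸, (∀ j, P j ∈ R (w - k j)) → ∑ j, P j * G j = 0 → ∀ j, P j = 0) := by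
  choose m g hg hsp hin using fun k : ℕ ↦ exists_weight_gens H (k : ℤ) (hMfin k)
  have hm_odd : ∀ k : ℕ, Odd k → m k = 0 := by
    intro k hk
    by_contra h0
    let i : Fin (m k) := ⟨0, Nat.pos_of_ne_zero h0⟩
    have hgi : g k i = 0 := hodd k (by exact_mod_cast hk) _ (hg k i)
    have := hin k (Pi.single i 1) 0 (zero_mem _) 0 (zero_mem _) (by
      rw [Finset.sum_eq_single i]
      · simp [hgi]
      · intro b _ hb; simp [Pi.single_eq_of_ne hb]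
      · intro h; exact absurd (Finset.mem_univ i) h) i
    simp at this
  have hGK : ∀ K (j : TruncIdx m K), truncGen m g K j ∈ M (truncWt m K j) := fun K j ↦ hg _ _
  have hkK : ∀ K (j : TruncIdx m K), 0 ≤ truncWt m K j := fun K j ↦ by simp [truncWt]
  have hstar : ∀ K : ℕ, Even K →
      ∑ k ∈ Finset.range (K + 1), m k * ((K - k) / 12) ≤ K * μ / 12 + 1 := by
    intro K hK
    let W : Set ℤ := {w | w ≤ K}
    have hW : ∀ w ∈ W, ∀ w' : ℤ, w' ≤ w → w' ∈ W := fun w hw w' h ↦ le_trans h hw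
    have hgenK := gen_of_span H (truncWt m K) (truncGen m g K) W hW
      (fun w hw ↦ trunc_span H hsp K w (Or.inl hw))
    have hindK := ind_of_indep H (truncWt m K) (truncGen m g K) (hGK K) (hkK K) W hW hgenK
      (trunc_indep hin K) (K : ℤ) (show (K : ℤ) - 10 ≤ K by omega)
    have h1 := sum_finrank_le (truncWt m K) (truncGen m g K) (K : ℤ) hRfin (hMfin K)
      (fun j p hp ↦ mem_of_weight_eq (S := M) (by ring) (H.R_mul_M _ _ _ _ hp (hGK K j))) hindK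
    calc ∑ k ∈ Finset.range (K + 1), m k * ((K - k) / 12)
        = ∑ κ : Fin (K + 1), m κ * ((K - κ) / 12) :=
          (Fin.sum_univ_eq_sum_range (fun k ↦ m k * ((K - k) / 12)) (K + 1)).symm
      _ ≤ ∑ κ : Fin (K + 1), ∑ _i : Fin (m κ), Module.finrank 𝕜 (R ((K : ℤ) - ((κ : ℕ) : ℤ))) := by
          refine Finset.sum_le_sum fun κ _ ↦ ?_
          rw [Finset.sum_const, Finset.card_univ, Fintype.card_fin, smul_eq_mul]
          rcases Nat.even_or_odd (κ : ℕ) with hκ | hκ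
          · refine Nat.mul_le_mul_left _ ?_
            have hle : (κ : ℕ) ≤ K := by have := κ.2; omega
            have := hd (K - κ) ((Nat.even_sub hle).mpr ⟨fun _ ↦ hκ, fun _ ↦ hK⟩)
            rwa [Nat.cast_sub hle] at this
          · rw [hm_odd κ hκ]; simp
      _ = ∑ j : TruncIdx m K, Module.finrank 𝕜 (R ((K : ℤ) - truncWt m K j)) :=
          (Fintype.sum_sigma
            (fun j : TruncIdx m K ↦ Module.finrank 𝕜 (R ((K : ℤ) - truncWt m K j)))).symm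
      _ ≤ Module.finrank 𝕜 (M K) := h1
      _ ≤ K * μ / 12 + 1 := hD K
  obtain ⟨K₀, hK₀, hr⟩ := numeric_finite m μ hstar
  have hgen := gen_of_span H (truncWt m K₀) (truncGen m g K₀) Set.univ (fun _ _ _ _ ↦ trivial)
    (fun w _ ↦ trunc_span H hsp K₀ w (by
      by_cases hw : w ≤ K₀
      · exact Or.inl hw
      · exact Or.inr (hK₀ _ (by omega))))
  refine ⟨TruncIdx m K₀, inferInstance, truncWt m K₀, truncGen m g K₀, ?_, hkK K₀, hGK K₀,
    fun w ↦ hgen w trivial, fun w ↦ ?_⟩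
  · rw [Fintype.card_sigma]
    simp only [Fintype.card_fin]
    rw [Fin.sum_univ_eq_sum_range (fun k ↦ m k) (K₀ + 1)]
    exact hr
  · exact ind_of_indep H (truncWt m K₀) (truncGen m g K₀) (hGK K₀) (hkK K₀) Set.univ
      (fun _ _ _ _ ↦ trivial) hgen (trunc_indep hin K₀) w trivial

end Engine

/-! ### Analytic input -/

lemma slash_SL_of_mem {𝒢 : Subgroup (GL (Fin 2) ℝ)} {k : ℤ} (f : ModularForm 𝒢 k)
    (γ : SL(2, ℤ)) (hγ : (γ : GL (Fin 2) ℝ) ∈ 𝒢) : (f : ℍ → ℂ) ∣[k] γ = f := by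
  rw [SL_slash]; exact SlashInvariantFormClass.slash_action_eq f _ hγ

lemma slash_SL_levelOne {k : ℤ} (f : ModularForm 𝒮ℒ k) (γ : SL(2, ℤ)) :
    (f : ℍ → ℂ) ∣[k] γ = f := slash_SL_of_mem f γ ⟨γ, rfl⟩

lemma discriminant_slash_SL (γ : SL(2, ℤ)) : (Δ : ℍ → ℂ) ∣[(12 : ℤ)] γ = Δ :=
  slash_SL_levelOne (CuspForm.discriminant : ModularForm 𝒮ℒ 12) γ

lemma tendsto_levelOne_atImInfty {k : ℤ} (f : ModularForm 𝒮ℒ k) :
    Tendsto f atImInfty (𝓝 ((qExpansion 1 f).coeff 0)) := by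
  have hanal := ModularFormClass.analyticAt_cuspFunction_zero f one_pos one_mem_strictPeriods_SL
  have hper := SlashInvariantFormClass.periodic_comp_ofComplex f one_mem_strictPeriods_SL
  rw [qExpansion_coeff_zero one_pos hanal hper, ← cuspFunction_apply_zero one_pos hanal hper]
  exact (hanal.continuousAt.tendsto.comp (qParam_tendsto_atImInfty one_pos)).congr
    (fun τ ↦ SlashInvariantFormClass.eq_cuspFunction f τ one_mem_strictPeriods_SL one_ne_zero)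

lemma tendsto_E₆_atImInfty : Tendsto E₆ atImInfty (𝓝 1) := by
  have := tendsto_levelOne_atImInfty E₆
  rwa [show (qExpansion 1 E₆).coeff 0 = 1 from E_qExpansion_coeff_zero _ ⟨3, rfl⟩] at this

/-- **Division lemma** (regularity of the sequence `E₄, E₆` on modular forms of level `𝒢`). -/
theorem exists_div_E (𝒢 : Subgroup (GL (Fin 2) ℝ)) [𝒢.IsArithmetic] (h𝒢 : 𝒢 ≤ 𝒮ℒ)
    {k₁ k₂ k₃ : ℤ} (hk₁ : k₁ = k₃ + 6) (hk₂ : k₂ = k₃ + 4)
    (a : ModularForm 𝒢 k₁) (b : ModularForm 𝒢 k₂)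
    (hab : ∀ z, E₄ z * a z + E₆ z * b z = 0) :
    ∃ h : ModularForm 𝒢 k₃, (∀ z, a z = -(E₆ z * h z)) ∧ (∀ z, b z = E₄ z * h z) := by
  -- the candidate function
  set num : ℍ → ℂ := (⇑E₄ * ⇑E₄) * ⇑b + ⇑E₆ * ⇑a with num_def
  set den : ℍ → ℂ := (1728 : ℂ) • (Δ : ℍ → ℂ) with den_def
  set hfun : ℍ → ℂ := num / den with hfun_def
  have hΔ : ∀ z, den z = E₄ z ^ 3 - E₆ z ^ 2 := fun z ↦ by
    simp only [den_def, Pi.smul_apply, smul_eq_mul]
    rw [discriminant_eq_E₄_cube_sub_E₆_sq z]; ring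
  have hΔne : ∀ z, den z ≠ 0 := fun z ↦ by
    simp only [den_def, Pi.smul_apply, smul_eq_mul]
    exact mul_ne_zero (by norm_num) (discriminant_ne_zero z)
  have hnum : ∀ z, num z = E₄ z ^ 2 * b z + E₆ z * a z := fun z ↦ by
    simp only [num_def, Pi.add_apply, Pi.mul_apply]; ring
  have ha : ∀ z, a z = -(E₆ z * hfun z) := fun z ↦ by
    have : a z * den z = -(E₆ z * num z) := by
      rw [hΔ z, hnum z]; linear_combination ((E₄ z) ^ 2) * hab z
    simp only [hfun_def, Pi.div_apply]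
    rw [← mul_div_assoc, ← neg_div, eq_div_iff (hΔne z)]; exact this
  have hb : ∀ z, b z = E₄ z * hfun z := fun z ↦ by
    have : b z * den z = E₄ z * num z := by
      rw [hΔ z, hnum z]; linear_combination (-(E₆ z)) * hab z
    simp only [hfun_def, Pi.div_apply]
    rw [← mul_div_assoc, eq_div_iff (hΔne z)]; exact this
  have hholo : MDiff hfun := by
    have h1 : MDiff num :=
      ((E₄.holo'.mul E₄.holo').mul b.holo').add (E₆.holo'.mul a.holo')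
    have h2 : MDiff den := CuspForm.discriminant.holo'.const_smul (1728 : ℂ)
    exact h1.div h2 hΔne
  have hslash : ∀ γ : SL(2, ℤ), (γ : GL (Fin 2) ℝ) ∈ 𝒢 → hfun ∣[k₃] γ = hfun := by
    intro γ hγ
    have hnum' : num ∣[k₃ + 12] γ = num := by
      have e1 : ((⇑E₄ * ⇑E₄) * ⇑b) ∣[k₃ + 12] γ = (⇑E₄ * ⇑E₄) * ⇑b := by
        rw [show k₃ + 12 = (4 + 4) + k₂ by rw [hk₂]; ring, mul_slash_SL2, mul_slash_SL2,
          slash_SL_levelOne, slash_SL_of_mem b γ hγ]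
      have e2 : (⇑E₆ * ⇑a) ∣[k₃ + 12] γ = ⇑E₆ * ⇑a := by
        rw [show k₃ + 12 = 6 + k₁ by rw [hk₁]; ring, mul_slash_SL2,
          slash_SL_levelOne, slash_SL_of_mem a γ hγ]
      rw [num_def, SlashAction.add_slash, e1, e2]
    have hden : den ∣[(12 : ℤ)] γ = den := by
      rw [den_def, SL_smul_slash, discriminant_slash_SL]
    have := div_slash_SL2 (k₃ + 12) 12 γ num den
    rw [hnum', hden, show k₃ + 12 - 12 = k₃ by ring] at this
    exact this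
  have hbdd : ∀ γ : SL(2, ℤ), IsBoundedAtImInfty (hfun ∣[k₃] γ) := by
    intro γ
    -- `a ∣ γ = -E₆ * (hfun ∣ γ)`
    have hfa : (⇑a : ℍ → ℂ) = (-⇑E₆) * hfun := by
      ext z; simp [ha z]
    have h1 : (⇑a) ∣[k₁] γ = (-⇑E₆) * (hfun ∣[k₃] γ) := by
      rw [hfa, show k₁ = 6 + k₃ by rw [hk₁]; ring, mul_slash_SL2, SlashAction.neg_slash,
        slash_SL_levelOne]
    have hbd : IsBoundedAtImInfty ((⇑a) ∣[k₁] γ) := ModularFormClass.bdd_at_infty_slash a γ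
    -- eventually `E₆ ≠ 0`
    have hE : Tendsto (fun z ↦ (E₆ z)⁻¹) atImInfty (𝓝 1) := by
      simpa using tendsto_E₆_atImInfty.inv₀ one_ne_zero
    have hEb : IsBoundedAtImInfty (fun z ↦ (E₆ z)⁻¹) := hE.isBigO_one ℝ
    have hev : ∀ᶠ z in atImInfty, E₆ z ≠ 0 :=
      tendsto_E₆_atImInfty.eventually_ne one_ne_zero
    have hprod : IsBoundedAtImInfty (fun z ↦ -((E₆ z)⁻¹ * ((⇑a) ∣[k₁] γ) z)) := by
      have := hEb.mul hbd
      exact this.neg_left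
    refine hprod.congr' ?_ (EventuallyEq.refl _ _)
    filter_upwards [hev] with z hz
    rw [h1]
    simp only [Pi.mul_apply, Pi.neg_apply]
    field_simp
  refine ⟨{ toFun := hfun
            slash_action_eq' := fun g hg ↦ by
              obtain ⟨γ, rfl⟩ := h𝒢 hg
              have := hslash γ hg
              rwa [SL_slash] at this
            holo' := hholo
            bdd_at_cusps' := fun {c} hc ↦ by
              rw [Subgroup.IsArithmetic.isCusp_iff_isCusp_SL2Z] at hc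
              rw [OnePoint.isBoundedAt_iff_forall_SL2Z hc]
              exact fun γ _ ↦ hbdd γ }, ha, hb⟩


/-! ### Function-level spaces of modular forms -/

/-- The space of functions `ℍ → ℂ` underlying modular forms of weight `k` and level `𝒢`. -/
def Mfun (𝒢 : Subgroup (GL (Fin 2) ℝ)) [𝒢.HasDetOne] (k : ℤ) : Submodule ℂ (ℍ → ℂ) where
  carrier := {f | ∃ F : ModularForm 𝒢 k, ⇑F = f}
  add_mem' := by rintro _ _ ⟨F, rfl⟩ ⟨G, rfl⟩; exact ⟨F + G, rfl⟩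
  zero_mem' := ⟨0, rfl⟩
  smul_mem' := by rintro c _ ⟨F, rfl⟩; exact ⟨c • F, rfl⟩

lemma mem_Mfun {𝒢 : Subgroup (GL (Fin 2) ℝ)} [𝒢.HasDetOne] {k : ℤ} {f : ℍ → ℂ} :
    f ∈ Mfun 𝒢 k ↔ ∃ F : ModularForm 𝒢 k, ⇑F = f := Iff.rfl

lemma coe_mem_Mfun {𝒢 : Subgroup (GL (Fin 2) ℝ)} [𝒢.HasDetOne] {k : ℤ} (F : ModularForm 𝒢 k) :
    ⇑F ∈ Mfun 𝒢 k := ⟨F, rfl⟩

/-- The coercion to functions, as a linear map onto `Mfun 𝒢 k`. -/
def MfunMap (𝒢 : Subgroup (GL (Fin 2) ℝ)) [𝒢.HasDetOne] (k : ℤ) :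
    ModularForm 𝒢 k →ₗ[ℂ] Mfun 𝒢 k where
  toFun F := ⟨⇑F, F, rfl⟩
  map_add' _ _ := rfl
  map_smul' _ _ := rfl

/-- `ModularForm 𝒢 k` is linearly equivalent to its space of underlying functions. -/
def MfunEquiv (𝒢 : Subgroup (GL (Fin 2) ℝ)) [𝒢.HasDetOne] (k : ℤ) :
    ModularForm 𝒢 k ≃ₗ[ℂ] Mfun 𝒢 k :=
  LinearEquiv.ofBijective (MfunMap 𝒢 k)
    ⟨fun _ _ h ↦ DFunLike.coe_injective (congrArg Subtype.val h),
      fun ⟨_, F, hF⟩ ↦ ⟨F, Subtype.ext hF⟩⟩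

lemma Mfun_mul {𝒢 : Subgroup (GL (Fin 2) ℝ)} [𝒢.HasDetOne] {a b : ℤ} {f g : ℍ → ℂ}
    (hf : f ∈ Mfun 𝒢 a) (hg : g ∈ Mfun 𝒢 b) : f * g ∈ Mfun 𝒢 (a + b) := by
  obtain ⟨F, rfl⟩ := hf
  obtain ⟨G, rfl⟩ := hg
  exact ⟨F.mul G, rfl⟩

lemma Mfun_of_eq {𝒢 : Subgroup (GL (Fin 2) ℝ)} [𝒢.HasDetOne] {a b : ℤ} (h : a = b) {f : ℍ → ℂ}
    (hf : f ∈ Mfun 𝒢 a) : f ∈ Mfun 𝒢 b := h ▸ hf

/-- Restriction of a level-one modular form to a subgroup `𝒢 ≤ 𝒮ℒ`. -/
def restrictLevelOne {𝒢 : Subgroup (GL (Fin 2) ℝ)} (h𝒢 : 𝒢 ≤ 𝒮ℒ) {k : ℤ}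
    (P : ModularForm 𝒮ℒ k) : ModularForm 𝒢 k where
  toFun := P
  slash_action_eq' γ hγ := P.slash_action_eq' γ (h𝒢 hγ)
  holo' := P.holo'
  bdd_at_cusps' hc := P.bdd_at_cusps' (hc.mono h𝒢)

@[simp] lemma restrictLevelOne_apply {𝒢 : Subgroup (GL (Fin 2) ℝ)} (h𝒢 : 𝒢 ≤ 𝒮ℒ) {k : ℤ}
    (P : ModularForm 𝒮ℒ k) (z : ℍ) : restrictLevelOne h𝒢 P z = P z := rfl

lemma Mfun_levelOne_le {𝒢 : Subgroup (GL (Fin 2) ℝ)} [𝒢.HasDetOne] (h𝒢 : 𝒢 ≤ 𝒮ℒ) (k : ℤ) :
    Mfun 𝒮ℒ k ≤ Mfun 𝒢 k := by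
  rintro _ ⟨P, rfl⟩
  exact ⟨restrictLevelOne h𝒢 P, rfl⟩

/-! ### Level one: `M_n = E₄ M_{n-4} + E₆ M_{n-6}` for `n ≠ 0` -/

lemma levelOne_dec_of_mono {n : ℤ} (mono : ModularForm 𝒮ℒ n)
    (hmono : (qExpansion 1 mono).coeff 0 = 1) {A₀ B₀ : ℍ → ℂ}
    (hA₀ : A₀ ∈ Mfun 𝒮ℒ (n - 4)) (hB₀ : B₀ ∈ Mfun 𝒮ℒ (n - 6))
    (hdec : ⇑mono = ⇑E₄ * A₀ + ⇑E₆ * B₀) (P : ModularForm 𝒮ℒ n) :
    ∃ A ∈ Mfun 𝒮ℒ (n - 4), ∃ B ∈ Mfun 𝒮ℒ (n - 6), ⇑P = ⇑E₄ * A + ⇑E₆ * B := by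
  obtain ⟨g, hg⟩ := sub_smul_isCuspForm P mono hmono
  generalize (qExpansion 1 P).coeff 0 = c at hg
  set Q : ModularForm 𝒮ℒ (n - 12) := CuspForm.discriminantEquiv g with hQ
  have hgz : ∀ z, g z = P z - c * mono z := fun z ↦
    congrArg (fun F : ModularForm 𝒮ℒ n ↦ F z) hg
  have hQz : ∀ z, Δ z * Q z = P z - c * mono z := fun z ↦ by
    rw [hQ, discriminant_mul_discriminantEquiv_apply, hgz z]
  have hE4 : (⇑E₄ : ℍ → ℂ) ∈ Mfun 𝒮ℒ 4 := coe_mem_Mfun E₄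
  have hE6 : (⇑E₆ : ℍ → ℂ) ∈ Mfun 𝒮ℒ 6 := coe_mem_Mfun E₆
  have hQm : (⇑Q : ℍ → ℂ) ∈ Mfun 𝒮ℒ (n - 12) := coe_mem_Mfun Q
  refine ⟨c • A₀ + (1 / 1728 : ℂ) • (⇑E₄ * (⇑E₄ * ⇑Q)), ?_,
    c • B₀ - (1 / 1728 : ℂ) • (⇑E₆ * ⇑Q), ?_, ?_⟩
  · exact add_mem (Submodule.smul_mem _ _ hA₀) (Submodule.smul_mem _ _
      (Mfun_of_eq (by ring) (Mfun_mul hE4 (Mfun_mul hE4 hQm))))
  · exact sub_mem (Submodule.smul_mem _ _ hB₀) (Submodule.smul_mem _ _
      (Mfun_of_eq (by ring) (Mfun_mul hE6 hQm)))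
  · ext z
    have h1 := hQz z
    have h2 := congrFun hdec z
    have h3 := discriminant_eq_E₄_cube_sub_E₆_sq z
    simp only [Pi.add_apply, Pi.mul_apply, Pi.sub_apply, Pi.smul_apply, smul_eq_mul] at h2 ⊢
    rw [h3, h2] at h1
    linear_combination (-1 : ℂ) * h1

/-- Every level-one modular form of weight `n ≠ 0` is `E₄ A + E₆ B` with `A, B` of level one. -/
theorem levelOne_dec {n : ℤ} (hn : n ≠ 0) {p : ℍ → ℂ} (hp : p ∈ Mfun 𝒮ℒ n) :
    ∃ A ∈ Mfun 𝒮ℒ (n - 4), ∃ B ∈ Mfun 𝒮ℒ (n - 6), p = ⇑E₄ * A + ⇑E₆ * B := by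
  obtain ⟨P, rfl⟩ := hp
  have hzero : (⇑P : ℍ → ℂ) = 0 →
      ∃ A ∈ Mfun 𝒮ℒ (n - 4), ∃ B ∈ Mfun 𝒮ℒ (n - 6), ⇑P = ⇑E₄ * A + ⇑E₆ * B :=
    fun h ↦ ⟨0, zero_mem _, 0, zero_mem _, by simp [h]⟩
  rcases lt_or_gt_of_ne hn with hneg | hpos
  · exact hzero (levelOne_neg_weight_eq_zero hneg P)
  rcases Int.even_or_odd n with heven | hodd
  swap
  · exact hzero (by rw [levelOne_odd_weight_eq_zero hodd P]; rfl)
  have hone : (1 : ℍ → ℂ) ∈ Mfun 𝒮ℒ 0 := ⟨1, rfl⟩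
  by_cases h2 : n = 2
  · subst h2
    exact hzero (by
      rw [rank_zero_iff_forall_zero.mp levelOne_weight_two_rank_zero P]; rfl)
  by_cases h4 : n = 4
  · subst h4
    exact levelOne_dec_of_mono E₄ (E_qExpansion_coeff_zero _ ⟨2, rfl⟩)
      (A₀ := 1) (B₀ := 0) hone (zero_mem _) (by simp) P
  by_cases h6 : n = 6
  · subst h6
    exact levelOne_dec_of_mono E₆ (E_qExpansion_coeff_zero _ ⟨3, rfl⟩)
      (A₀ := 0) (B₀ := 1) (zero_mem _) hone (by simp) P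
  -- now `n ≥ 8`, even
  obtain ⟨t, ht⟩ := heven
  have hn8 : 8 ≤ n := by omega
  obtain ⟨m, hm⟩ : ∃ m : ℕ, (m : ℤ) = n - 4 := ⟨(n - 4).toNat, by omega⟩
  have hm3 : 3 ≤ m := by omega
  have hmeven : Even m := ⟨(t - 2).toNat, by omega⟩
  let Em : ModularForm 𝒮ℒ (m : ℤ) := E hm3
  let mono : ModularForm 𝒮ℒ n := mcast (by omega) (E₄.mul Em)
  refine levelOne_dec_of_mono mono ?_ (A₀ := ⇑Em) (B₀ := 0)
    (Mfun_of_eq hm (coe_mem_Mfun Em)) (zero_mem _) (by simp [mono]) P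
  have : (⇑mono : ℍ → ℂ) = ⇑(E₄.mul Em) := rfl
  rw [this, ModularForm.qExpansion_mul one_pos one_mem_strictPeriods_SL]
  simp only [PowerSeries.coeff_zero_eq_constantCoeff, map_mul]
  have h4' : PowerSeries.constantCoeff (qExpansion 1 ⇑E₄) = 1 := by
    rw [← PowerSeries.coeff_zero_eq_constantCoeff]; exact E_qExpansion_coeff_zero _ ⟨2, rfl⟩
  have hm' : PowerSeries.constantCoeff (qExpansion 1 ⇑Em) = 1 := by
    rw [← PowerSeries.coeff_zero_eq_constantCoeff]; exact E_qExpansion_coeff_zero hm3 hmeven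
  rw [h4', hm', one_mul]

/-! ### The hypotheses of the engine hold for modular forms -/

/-- Modular forms of level `𝒢 ≤ 𝒮ℒ` satisfy the hypotheses of the graded freeness engine. -/
theorem gradedHyp_modularForm (𝒢 : Subgroup (GL (Fin 2) ℝ)) [𝒢.IsArithmetic] [𝒢.HasDetOne]
    (h𝒢 : 𝒢 ≤ 𝒮ℒ) :
    GradedHyp (𝕜 := ℂ) (𝔸 := ℍ → ℂ) (Mfun 𝒢) (Mfun 𝒮ℒ) ⇑E₄ ⇑E₆ where
  R_neg n hn p hp := by
    obtain ⟨P, rfl⟩ := hp
    exact levelOne_neg_weight_eq_zero hn P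
  R_zero p hp := by
    obtain ⟨P, rfl⟩ := hp
    obtain ⟨c, hc⟩ := levelOne_weight_zero_const P
    exact ⟨c, by rw [hc]; rfl⟩
  one_mem := ⟨1, rfl⟩
  R_dec n hn p hp := levelOne_dec hn hp
  e4_mem := coe_mem_Mfun E₄
  e6_mem := coe_mem_Mfun E₆
  R_mul_R a b p q hp hq := Mfun_mul hp hq
  R_mul_M a b p f hp hf := Mfun_mul (Mfun_levelOne_le h𝒢 a hp) hf
  M_neg k hk f hf := by
    obtain ⟨F, rfl⟩ := hf
    rw [isZero_of_neg_weight hk F]; rfl
  div k a b ha hb hab := by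
    obtain ⟨A, rfl⟩ := ha
    obtain ⟨B, rfl⟩ := hb
    obtain ⟨h, h1, h2⟩ := exists_div_E 𝒢 h𝒢 (k₁ := k - 4) (k₂ := k - 6) (k₃ := k - 10)
      (by ring) (by ring) A B (fun z ↦ congrFun hab z)
    exact ⟨⇑h, coe_mem_Mfun h, funext h1, funext h2⟩

/-! ### Dimension bounds -/

/-- The first `B + 1` `q`-expansion coefficients, as a linear map. -/
def coeffMap (𝒢 : Subgroup (GL (Fin 2) ℝ)) [𝒢.IsArithmetic] [𝒢.HasDetOne]
    (h1 : (1 : ℝ) ∈ 𝒢.strictPeriods) (k : ℤ) (B : ℕ) :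
    ModularForm 𝒢 k →ₗ[ℂ] (Fin (B + 1) → ℂ) where
  toFun f i := (qExpansion 1 f).coeff i
  map_add' f g := by
    ext i
    have := ModularForm.qExpansion_add one_pos h1 f g
    simp only [FunLike.coe_add, Pi.add_apply]
    rw [this, map_add]
  map_smul' c f := by
    ext i
    have := ModularForm.qExpansion_smul one_pos h1 c f
    simp only [FunLike.coe_smul, Pi.smul_apply, RingHom.id_apply]
    rw [this, PowerSeries.coeff_smul]

lemma coeffMap_injective (𝒢 : Subgroup (GL (Fin 2) ℝ)) [𝒢.IsArithmetic] [𝒢.HasDetOne]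
    (h1 : (1 : ℝ) ∈ 𝒢.strictPeriods) (k : ℤ) :
    Function.Injective (coeffMap 𝒢 h1 k ((k * 𝒢.relIndex 𝒮ℒ).toNat / 12)) := by
  rw [← LinearMap.ker_eq_bot, LinearMap.ker_eq_bot']
  intro f hf
  refine ModularForm.sturm_bound_of_isArithmetic h1 ?_
  have hle : ((((k * 𝒢.relIndex 𝒮ℒ).toNat / 12 + 1 : ℕ)) : ℕ∞) ≤ (qExpansion 1 f).order := by
    refine PowerSeries.nat_le_order _ _ fun i hi ↦ ?_
    exact congrFun hf ⟨i, hi⟩
  refine lt_of_lt_of_le ?_ hle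
  exact_mod_cast Nat.lt_succ_self _

theorem finite_modularForm (𝒢 : Subgroup (GL (Fin 2) ℝ)) [𝒢.IsArithmetic] [𝒢.HasDetOne]
    (h1 : (1 : ℝ) ∈ 𝒢.strictPeriods) (k : ℤ) : Module.Finite ℂ (ModularForm 𝒢 k) :=
  Module.Finite.of_injective _ (coeffMap_injective 𝒢 h1 k)

theorem finrank_modularForm_le (𝒢 : Subgroup (GL (Fin 2) ℝ)) [𝒢.IsArithmetic] [𝒢.HasDetOne]
    (h1 : (1 : ℝ) ∈ 𝒢.strictPeriods) (k : ℤ) :
    Module.finrank ℂ (ModularForm 𝒢 k) ≤ (k * 𝒢.relIndex 𝒮ℒ).toNat / 12 + 1 := by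
  have := LinearMap.finrank_le_finrank_of_injective (coeffMap_injective 𝒢 h1 k)
  simpa using this

lemma finrank_levelOne_ge (n : ℕ) (hn : Even n) :
    n / 12 ≤ Module.finrank ℂ (ModularForm 𝒮ℒ (n : ℤ)) := by
  have h := dimension_level_one n hn
  rw [Module.finrank, h]
  split_ifs
  · simp
  · simp

/-! ### The freeness theorem -/

/-- **Freeness of `M_*(𝒢)` over `M_*(SL₂(ℤ))`, function level.** -/
theorem exists_free_generators_fun (𝒢 : Subgroup (GL (Fin 2) ℝ)) [𝒢.IsArithmetic] [𝒢.HasDetOne]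
    (h𝒢 : 𝒢 ≤ 𝒮ℒ) (hneg : -1 ∈ 𝒢) (h1 : (1 : ℝ) ∈ 𝒢.strictPeriods) :
    ∃ (J : Type) (_ : Fintype J) (k : J → ℤ) (G : J → ℍ → ℂ),
      Fintype.card J ≤ 𝒢.relIndex 𝒮ℒ ∧ (∀ j, 0 ≤ k j) ∧ (∀ j, G j ∈ Mfun 𝒢 (k j)) ∧
      (∀ w : ℤ, ∀ f ∈ Mfun 𝒢 w,
        ∃ P : J → ℍ → ℂ, (∀ j, P j ∈ Mfun 𝒮ℒ (w - k j)) ∧ f = ∑ j, P j * G j) ∧
      (∀ w : ℤ, ∀ P : J → ℍ → ℂ, (∀ j, P j ∈ Mfun 𝒮ℒ (w - k j)) →
        ∑ j, P j * G j = 0 → ∀ j, P j = 0) := by
  have H := gradedHyp_modularForm 𝒢 h𝒢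
  refine exists_free_family H (fun k ↦ ?_) (fun k ↦ ?_) ?_ (𝒢.relIndex 𝒮ℒ) ?_ ?_
  · have := finite_modularForm 𝒢 h1 k
    exact Module.Finite.equiv (MfunEquiv 𝒢 k)
  · exact Module.Finite.equiv (MfunEquiv 𝒮ℒ k)
  · rintro k hk _ ⟨F, rfl⟩
    rw [eq_zero_of_neg_one_mem hneg hk F]; rfl
  · intro K
    rw [← (MfunEquiv 𝒢 K).finrank_eq]
    have := finrank_modularForm_le 𝒢 h1 (K : ℤ)
    rwa [show ((K : ℤ) * (𝒢.relIndex 𝒮ℒ : ℤ)).toNat = K * 𝒢.relIndex 𝒮ℒ from by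
      rw [← Nat.cast_mul]; exact Int.toNat_natCast _] at this
  · intro n hn
    rw [← (MfunEquiv 𝒮ℒ n).finrank_eq]
    exact finrank_levelOne_ge n hn

/-- **Freeness of `M_*(𝒢)` over `M_*(SL₂(ℤ))`.** For an arithmetic subgroup `𝒢 ≤ 𝒮ℒ` containing
`-1` and with `1` as a strict period there are finitely many (at most `[𝒮ℒ : 𝒢]`) modular forms
`F j` of weights `k j ≥ 0` such that every modular form `f` of level `𝒢` and weight `w` has a
unique expansion `f = ∑ j, P j * F j` with `P j` of level one and weight `w - k j`. -/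
theorem exists_free_generators (𝒢 : Subgroup (GL (Fin 2) ℝ)) [𝒢.IsArithmetic] [𝒢.HasDetOne]
    (h𝒢 : 𝒢 ≤ 𝒮ℒ) (hneg : -1 ∈ 𝒢) (h1 : (1 : ℝ) ∈ 𝒢.strictPeriods) :
    ∃ (J : Type) (_ : Fintype J) (k : J → ℤ) (F : ∀ j, ModularForm 𝒢 (k j)),
      Fintype.card J ≤ 𝒢.relIndex 𝒮ℒ ∧ (∀ j, 0 ≤ k j) ∧
      ∀ (w : ℤ) (f : ModularForm 𝒢 w),
        ∃! P : ∀ j, ModularForm 𝒮ℒ (w - k j), ∀ z, f z = ∑ j, P j z * F j z := by
  obtain ⟨J, hJ, k, G, hcard, hk, hG, hgen, hind⟩ := exists_free_generators_fun 𝒢 h𝒢 hneg h1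
  choose F hF using hG
  refine ⟨J, hJ, k, F, hcard, hk, fun w f ↦ ?_⟩
  obtain ⟨P, hP, hfP⟩ := hgen w f (coe_mem_Mfun f)
  choose P' hP' using hP
  refine ⟨P', fun z ↦ ?_, fun Q hQ ↦ ?_⟩
  · have := congrFun hfP z
    rw [this, Finset.sum_apply]
    exact Finset.sum_congr rfl fun j _ ↦ by rw [Pi.mul_apply, ← hP' j, ← hF j]
  · have h0 := hind w (fun j ↦ ⇑(Q j) - P j)
      (fun j ↦ sub_mem (coe_mem_Mfun (Q j)) (hP' j ▸ coe_mem_Mfun (P' j))) (by
        ext z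
        have h1 := hQ z
        have h2 := congrFun hfP z
        rw [Finset.sum_apply] at h2 ⊢
        simp only [Pi.mul_apply] at h2
        simp only [Pi.mul_apply, Pi.sub_apply, sub_mul, Finset.sum_sub_distrib, Pi.zero_apply]
        rw [← h2, h1, sub_eq_zero]
        exact Finset.sum_congr rfl fun j _ ↦ by rw [← hF j])
    funext j
    exact DFunLike.coe_injective (by rw [hP' j]; exact sub_eq_zero.mp (h0 j))

/-- Freeness for `Γ₀(N)`: at most `[SL₂(ℤ) : Γ₀(N)]` homogeneous generators with unique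
expansions over level-one forms. -/
theorem exists_free_generators_Gamma0 (N : ℕ) [NeZero N] :
    ∃ (J : Type) (_ : Fintype J) (k : J → ℤ) (F : ∀ j, ModularForm (Gamma0 N) (k j)),
      Fintype.card J ≤ (Gamma0 N).index ∧ (∀ j, 0 ≤ k j) ∧
      ∀ (w : ℤ) (f : ModularForm (Gamma0 N) w),
        ∃! P : ∀ j, ModularForm 𝒮ℒ (w - k j), ∀ z, f z = ∑ j, P j z * F j z := by
  have hidx : ((Gamma0 N : Subgroup SL(2, ℤ)) : Subgroup (GL (Fin 2) ℝ)).relIndex 𝒮ℒ =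
      (Gamma0 N).index := by
    rw [← Subgroup.index_comap, Subgroup.comap_map_eq_self_of_injective mapGL_injective]
  have hneg : (-1 : GL (Fin 2) ℝ) ∈ ((Gamma0 N : Subgroup SL(2, ℤ)) : Subgroup (GL (Fin 2) ℝ)) :=
    ⟨-1, by simp [Gamma0_mem], by ext; simp⟩
  have := exists_free_generators ((Gamma0 N : Subgroup SL(2, ℤ)) : Subgroup (GL (Fin 2) ℝ))
    (Subgroup.map_le_range _ _) hneg (CongruenceSubgroup.one_mem_strictPeriods_Gamma0 N)
  rwa [hidx] at this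

end

end Fermat.Agent.S20.helper634
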