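import Mathlib
import Fermat.Prelude.Thm_ModularForm_sturm_bound_Gamma0
import Fermat.Prelude.Thm_ModularForm_sturm_bound_of_isArithmetic
import Fermat.Prelude.Thm_CongruenceSubgroup_one_mem_strictPeriods_Gamma0
import Fermat.Agent.S20.helper646_Free

/-!
# S20 / R1 (FREE): existence of a finite free basis of `M_*(𝒢)` over `M_*(SL₂(ℤ))` (helper646)

* `exists_family` (abstract): in a `GradedSetup`, lifts of bases of
  `M_w / (x M_{w-4} + y M_{w-6})` satisfy `SpanHyp` and `IndepHyp`.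
* `sum_finrank_le` (abstract): `∑_{j ∈ S} dim R_{w-κ_j} ≤ dim M_w`.
* `exists_free_basis`, `exists_free_basis_Gamma0`: the final statements (F3 + F4).
-/

set_option autoImplicit false

namespace Fermat.Agent.S20.helper646

section AbstractFamily

universe u

variable {K : Type*} {A : Type u} [Field K] [CommRing A] [Algebra K A]
variable {R M : ℤ → Submodule K A} {x y : A}

/-- The subspace `x M_{w-4} + y M_{w-6}` of `M_w`. -/
def imgSub (M : ℤ → Submodule K A) (x y : A) (w : ℤ) : Submodule K A :=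
  (M (w - 4)).map (LinearMap.mulLeft K x) ⊔ (M (w - 6)).map (LinearMap.mulLeft K y)

theorem mem_imgSub {M : ℤ → Submodule K A} {x y : A} {w : ℤ} {n : A} :
    n ∈ imgSub M x y w ↔ ∃ a ∈ M (w - 4), ∃ b ∈ M (w - 6), n = x * a + y * b := by
  simp only [imgSub, Submodule.mem_sup, Submodule.mem_map, LinearMap.mulLeft_apply]
  constructor
  · rintro ⟨_, ⟨a, ha, rfl⟩, _, ⟨b, hb, rfl⟩, rfl⟩
    exact ⟨a, ha, b, hb, rfl⟩
  · rintro ⟨a, ha, b, hb, rfl⟩
    exact ⟨_, ⟨a, ha, rfl⟩, _, ⟨b, hb, rfl⟩, rfl⟩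

theorem imgSub_le (hS : GradedSetup R M x y) (w : ℤ) : imgSub M x y w ≤ M w := by
  intro n hn
  obtain ⟨a, ha, b, hb, rfl⟩ := mem_imgSub.mp hn
  exact Submodule.add_mem _ (mem_of_eq (hS.R_mul_M hS.x_mem ha) (by ring))
    (mem_of_eq (hS.R_mul_M hS.y_mem hb) (by ring))

theorem exists_compl (hS : GradedSetup R M x y) (w : ℤ) :
    ∃ C : Submodule K A, C ≤ M w ∧ Disjoint C (imgSub M x y w) ∧
      ∀ f ∈ M w, ∃ c ∈ C, ∃ n ∈ imgSub M x y w, f = c + n := by
  obtain ⟨C', hC'⟩ := Submodule.exists_isCompl (imgSub M x y w)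
  refine ⟨C' ⊓ M w, inf_le_right, ?_, ?_⟩
  · exact hC'.symm.disjoint.mono_left inf_le_left
  · intro f hf
    have hmem : f ∈ imgSub M x y w ⊔ C' := by
      rw [hC'.sup_eq_top]
      trivial
    obtain ⟨n, hn, c, hc, rfl⟩ := Submodule.mem_sup.mp hmem
    refine ⟨c, ⟨hc, ?_⟩, n, hn, add_comm _ _⟩
    have h1 := Submodule.sub_mem _ hf (imgSub_le hS w hn)
    simpa using h1

/-- Existence of a family of "minimal generators": lifts of bases of
`M_w / (x M_{w-4} + y M_{w-6})`. -/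
theorem exists_family (hS : GradedSetup R M x y) :
    ∃ (J : Type u) (κ : J → ℤ) (F : J → A), (∀ j, F j ∈ M (κ j)) ∧
      SpanHyp M x y κ F ∧ IndepHyp M x y κ F := by
  choose C hC1 hC2 hC3 using fun w => exists_compl hS w
  let ι : ℤ → Type u := fun w => Module.Free.ChooseBasisIndex K ↥(C w)
  let bas : ∀ w, Module.Basis (ι w) K ↥(C w) := fun w => Module.Free.chooseBasis K ↥(C w)
  let J : Type u := Σ w : ℤ, ι w
  let F : J → A := fun j => ((bas j.1 j.2 : ↥(C j.1)) : A)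
  have hlc : ∀ (w : ℤ) (l : ι w →₀ K),
      Finsupp.linearCombination K F (Finsupp.mapDomain (Sigma.mk w) l)
        = ((Finsupp.linearCombination K (bas w) l : ↥(C w)) : A) := by
    intro w l
    rw [Finsupp.linearCombination_mapDomain]
    exact ((C w).subtype.map_finsupp_linearCombination (g := ⇑(bas w)) l).symm
  refine ⟨J, Sigma.fst, F, ?_, ?_, ?_⟩
  · intro j
    exact hC1 j.1 (bas j.1 j.2).2
  · intro w f hf
    obtain ⟨c, hc, n, hn, rfl⟩ := hC3 w f hf
    obtain ⟨a, ha, b, hb, rfl⟩ := mem_imgSub.mp hn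
    refine ⟨Finsupp.mapDomain (Sigma.mk w) ((bas w).repr ⟨c, hc⟩), ?_, a, ha, b, hb, ?_⟩
    · intro j hj
      by_contra hne
      apply hj
      apply Finsupp.mapDomain_of_notMem_range
      rintro ⟨i, rfl⟩
      exact hne rfl
    · rw [hlc, (bas w).linearCombination_repr]
      ring
  · intro w c hc a ha b hb hEq
    have hinj : Function.Injective (Sigma.mk w : ι w → J) := sigma_mk_injective
    have hrange : (↑c.support : Set J) ⊆ Set.range (Sigma.mk w : ι w → J) := by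
      rintro ⟨w', i⟩ hj
      have hw : w' = w := hc ⟨w', i⟩ (by simpa using hj)
      subst hw
      exact ⟨i, rfl⟩
    have hc_eq := Finsupp.mapDomain_comapDomain (Sigma.mk w : ι w → J) hinj c hrange
    set l := Finsupp.comapDomain (Sigma.mk w : ι w → J) c hinj.injOn with hl
    rw [← hc_eq, hlc] at hEq
    have h0 : ((Finsupp.linearCombination K (bas w) l : ↥(C w)) : A) = 0 := by
      refine Submodule.disjoint_def.mp (hC2 w) _ (Subtype.property _) ?_
      rw [hEq]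
      exact mem_imgSub.mpr ⟨a, ha, b, hb, rfl⟩
    have h1 : Finsupp.linearCombination K (bas w) l = 0 := Subtype.ext h0
    have h2 : l = 0 := linearIndependent_iff.mp (bas w).linearIndependent l h1
    rw [← hc_eq, h2, Finsupp.mapDomain_zero]

end AbstractFamily

section AbstractCount

variable {K A : Type*} [Field K] [CommRing A] [Algebra K A]
variable {R M : ℤ → Submodule K A} {x y : A} {J : Type*} {κ : J → ℤ} {F : J → A}

/-- Dimension count from uniqueness: `∑_{j ∈ S} dim R_{w-κ_j} ≤ dim M_w`. -/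
theorem sum_finrank_le (hS : GradedSetup R M x y) (hF : ∀ j, F j ∈ M (κ j))
    (hSPAN : SpanHyp M x y κ F) (hLI : IndepHyp M x y κ F) (S : Finset J) (w : ℤ)
    [Module.Finite K ↥(M w)] [∀ m, Module.Finite K ↥(R m)] :
    ∑ j ∈ S, Module.finrank K ↥(R (w - κ j)) ≤ Module.finrank K ↥(M w) := by
  classical
  let Ψ : (∀ j : ↥S, ↥(R (w - κ j))) →ₗ[K] ↥(M w) :=
    { toFun := fun r => ⟨∑ j : ↥S, (r j : A) * F j, Submodule.sum_mem _ fun j _ =>
        mem_of_eq (hS.R_mul_M (r j).2 (hF j)) (by ring)⟩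
      map_add' := by
        intro r s
        ext
        simp [add_mul, Finset.sum_add_distrib]
      map_smul' := by
        intro c r
        ext
        simp [Finset.smul_sum] }
  have hinj : Function.Injective Ψ := by
    rw [← LinearMap.ker_eq_bot, LinearMap.ker_eq_bot']
    intro r hr
    have hr0 : ∑ j : ↥S, (r j : A) * F j = 0 := congrArg Subtype.val hr
    let r' : J →₀ A := ∑ j : ↥S, Finsupp.single (j : J) (r j : A)
    have hr'_apply : ∀ j : ↥S, r' j = (r j : A) := by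
      intro j
      simp only [r', Finsupp.coe_finsetSum, Finset.sum_apply]
      rw [Finset.sum_eq_single j]
      · simp
      · intro i _ hij
        have : (i : J) ≠ (j : J) := fun h => hij (Subtype.ext h)
        simp [this]
      · simp
    have hr'_mem : r' ∈ coeffSpace R κ w := by
      refine Submodule.sum_mem _ fun j _ => ?_
      intro i
      by_cases hij : (j : J) = i
      · subst hij
        simp
      · simp [hij]
    have hr'_lc : Finsupp.linearCombination A F r' = 0 := by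
      simp only [r', map_sum, Finsupp.linearCombination_single, smul_eq_mul]
      exact hr0
    have hr'0 := uniq hS hF hSPAN hLI w r' hr'_mem hr'_lc
    funext j
    apply Subtype.ext
    rw [← hr'_apply j, hr'0]
    rfl
  have h1 := LinearMap.finrank_le_finrank_of_injective hinj
  rw [Module.finrank_pi_fintype] at h1
  rw [← Finset.sum_coe_sort S (fun j => Module.finrank K ↥(R (w - κ j)))]
  exact h1

/-- Members of an independent family are nonzero. -/
theorem family_ne_zero (hLI : IndepHyp M x y κ F) (j : J) : F j ≠ 0 := by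
  intro hFj
  have h1 := hLI (κ j) (Finsupp.single j 1) (by
    intro i hi
    have : i = j := by
      by_contra hne
      simp [Ne.symm hne] at hi
    rw [this]) 0 (Submodule.zero_mem _) 0 (Submodule.zero_mem _) (by simp [hFj])
  have h2 := DFunLike.congr_fun h1 j
  simp at h2

end AbstractCount

section Modular

open UpperHalfPlane ModularForm MatrixGroups Filter Topology Matrix.SpecialLinearGroup

noncomputable section

/-- Bundled modular forms versus the function-level space `MF`. -/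
def MFlin (𝒢 : Subgroup (GL (Fin 2) ℝ)) [𝒢.HasDetOne] (k : ℤ) :
    ModularForm 𝒢 k →ₗ[ℂ] ↥(MF 𝒢 k) where
  toFun F := ⟨⇑F, coe_mem_MF F⟩
  map_add' _ _ := rfl
  map_smul' _ _ := rfl

/-- Bundled modular forms versus the function-level space `MF` (linear equivalence). -/
def MFequiv (𝒢 : Subgroup (GL (Fin 2) ℝ)) [𝒢.HasDetOne] (k : ℤ) :
    ModularForm 𝒢 k ≃ₗ[ℂ] ↥(MF 𝒢 k) :=
  LinearEquiv.ofBijective (MFlin 𝒢 k)
    ⟨fun _ _ h => DFunLike.coe_injective (congrArg Subtype.val h),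
      fun ⟨_, F, hF⟩ => ⟨F, Subtype.ext hF⟩⟩

@[simp] theorem MFequiv_apply_coe (𝒢 : Subgroup (GL (Fin 2) ℝ)) [𝒢.HasDetOne] (k : ℤ)
    (F : ModularForm 𝒢 k) : ((MFequiv 𝒢 k F : ↥(MF 𝒢 k)) : ℍ → ℂ) = ⇑F := rfl

instance instFiniteMFLevelOne (k : ℤ) : Module.Finite ℂ ↥(MF 𝒮ℒ k) :=
  Module.Finite.equiv (MFequiv 𝒮ℒ k)

theorem finrank_levelOne_ge (m : ℕ) (hm : Even m) :
    m / 12 ≤ Module.finrank ℂ ↥(MF 𝒮ℒ (m : ℤ)) := by
  rw [← (MFequiv 𝒮ℒ (m : ℤ)).finrank_eq]
  have h := ModularForm.dimension_level_one m hm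
  split_ifs at h with h2
  · rw [Module.finrank_eq_of_rank_eq h]
  · rw [Module.finrank_eq_of_rank_eq h]
    omega

/-- A Sturm-type hypothesis: forms of level `𝒢` are determined by their first
`⌊k μ / 12⌋ + 1` `q`-expansion coefficients. -/
def SturmHyp (𝒢 : Subgroup (GL (Fin 2) ℝ)) (μ : ℕ) : Prop :=
  ∀ (k : ℤ) (f : ModularForm 𝒢 k),
    (∀ n : ℕ, n ≤ (k * μ).toNat / 12 → (qExpansion 1 f).coeff n = 0) → f = 0

theorem finrank_le_of_sturm {𝒢 : Subgroup (GL (Fin 2) ℝ)} [𝒢.HasDetOne]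
    (h1 : (1 : ℝ) ∈ 𝒢.strictPeriods) {μ : ℕ} (hSt : SturmHyp 𝒢 μ) (k : ℤ) :
    Module.Finite ℂ (ModularForm 𝒢 k) ∧
      Module.finrank ℂ (ModularForm 𝒢 k) ≤ (k * μ).toNat / 12 + 1 := by
  set B := (k * μ).toNat / 12 with hB
  let L : ModularForm 𝒢 k →ₗ[ℂ] (Fin (B + 1) → ℂ) :=
    { toFun := fun f i => (qExpansion 1 f).coeff i
      map_add' := by
        intro f g
        funext i
        have h := ModularForm.qExpansion_add one_pos h1 f g
        change (qExpansion 1 (⇑f + ⇑g)).coeff i = _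
        rw [h]
        simp
      map_smul' := by
        intro c f
        funext i
        have h := ModularForm.qExpansion_smul one_pos h1 c f
        change (qExpansion 1 (c • ⇑f)).coeff i = _
        rw [h]
        simp }
  have hinj : Function.Injective L := by
    rw [← LinearMap.ker_eq_bot, LinearMap.ker_eq_bot']
    intro f hf
    apply hSt k f
    intro n hn
    have h2 := congrFun hf ⟨n, by omega⟩
    simpa [L] using h2
  refine ⟨Module.Finite.of_injective L hinj, ?_⟩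
  have h3 := LinearMap.finrank_le_finrank_of_injective hinj
  simpa using h3

/-- **F4 (count).** Any finite set of members of a minimal generating family has at most
`μ` elements (`μ` from a Sturm-type bound), provided `-1 ∈ 𝒢`. -/
theorem card_le_of_sturm {𝒢 : Subgroup (GL (Fin 2) ℝ)} [𝒢.IsArithmetic] [𝒢.HasDetOne]
    (h𝒢 : 𝒢 ≤ 𝒮ℒ) (hneg : -1 ∈ 𝒢) (h1 : (1 : ℝ) ∈ 𝒢.strictPeriods) {μ : ℕ}
    (hSt : SturmHyp 𝒢 μ) {J : Type*} {κ : J → ℤ} {F : J → ℍ → ℂ}
    (hF : ∀ j, F j ∈ MF 𝒢 (κ j)) (hSPAN : SpanHyp (MF 𝒢) (⇑E₄) (⇑E₆) κ F)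
    (hLI : IndepHyp (MF 𝒢) (⇑E₄) (⇑E₆) κ F) (S : Finset J) : S.card ≤ μ := by
  have hS := gradedSetup h𝒢
  have hκ0 : ∀ j, 0 ≤ κ j := kappa_nonneg hS hF hLI
  have hκev : ∀ j, Even (κ j) := by
    intro j
    by_contra hodd
    rw [Int.not_even_iff_odd] at hodd
    obtain ⟨G, hG⟩ := hF j
    have hG0 := ModularForm.eq_zero_of_neg_one_mem hneg hodd G
    apply family_ne_zero hLI j
    rw [← hG, hG0]
    rfl
  set k0 : ℕ := S.sup (fun j => (κ j).toNat) with hk0
  have hk0le : ∀ j ∈ S, κ j ≤ (k0 : ℤ) := by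
    intro j hj
    have h2 : (κ j).toNat ≤ k0 := Finset.le_sup (f := fun j => (κ j).toNat) hj
    have h3 := hκ0 j
    omega
  set t : ℕ := 2 * k0 * μ + 2 with ht
  set W : ℤ := 2 * (k0 : ℤ) + 12 * (t : ℤ) with hW
  have hfinW : Module.Finite ℂ ↥(MF 𝒢 W) :=
    haveI := (finrank_le_of_sturm h1 hSt W).1
    Module.Finite.equiv (MFequiv 𝒢 W)
  have hsum := sum_finrank_le hS hF hSPAN hLI S W
  have hupper : Module.finrank ℂ ↥(MF 𝒢 W) ≤ (W * μ).toNat / 12 + 1 := by
    rw [← (MFequiv 𝒢 W).finrank_eq]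
    exact (finrank_le_of_sturm h1 hSt W).2
  have hlower : ∀ j ∈ S, t ≤ Module.finrank ℂ ↥(MF 𝒮ℒ (W - κ j)) := by
    intro j hj
    have h2 := hk0le j hj
    have h3 := hκ0 j
    obtain ⟨e, he⟩ := hκev j
    have hcast : W - κ j = (((W - κ j).toNat : ℕ) : ℤ) := by
      rw [Int.toNat_of_nonneg]
      omega
    rw [hcast]
    have heven : Even (W - κ j).toNat := by
      refine ⟨(k0 : ℤ).toNat + 6 * t - e.toNat, ?_⟩
      omega
    refine le_trans ?_ (finrank_levelOne_ge _ heven)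
    omega
  have h4 : S.card * t ≤ ∑ j ∈ S, Module.finrank ℂ ↥(MF 𝒮ℒ (W - κ j)) := by
    rw [← smul_eq_mul, ← Finset.sum_const]
    exact Finset.sum_le_sum hlower
  have h5 : (W * μ).toNat / 12 ≤ 2 * k0 * μ + t * μ := by
    have h6 : (W * μ).toNat = 2 * k0 * μ + 12 * (t * μ) := by
      have : W * (μ : ℤ) = ((2 * k0 * μ + 12 * (t * μ) : ℕ) : ℤ) := by
        rw [hW]
        push_cast
        ring
      rw [this, Int.toNat_natCast]
    rw [h6]
    omega
  have h7 : S.card * t < (μ + 1) * t := by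
    calc S.card * t ≤ (W * μ).toNat / 12 + 1 := le_trans h4 (le_trans hsum hupper)
      _ ≤ 2 * k0 * μ + t * μ + 1 := by omega
      _ < (μ + 1) * t := by
        rw [ht]
        ring_nf
        omega
  have h8 := Nat.lt_of_mul_lt_mul_right h7
  omega

/-- **F3 + F4 (general form).** For an arithmetic `𝒢 ≤ 𝒮ℒ` containing `-1`, with strict
period `1` and a Sturm-type bound with constant `μ`: there is a finite family
`F j ∈ M_{κ j}(𝒢)`, of cardinality `≤ μ`, such that every `f ∈ M_w(𝒢)` is uniquely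
`∑ j, P j * F j` with `P j ∈ M_{w - κ j}(SL₂(ℤ))`. -/
theorem exists_free_basis {𝒢 : Subgroup (GL (Fin 2) ℝ)} [𝒢.IsArithmetic] [𝒢.HasDetOne]
    (h𝒢 : 𝒢 ≤ 𝒮ℒ) (hneg : -1 ∈ 𝒢) (h1 : (1 : ℝ) ∈ 𝒢.strictPeriods) {μ : ℕ}
    (hSt : SturmHyp 𝒢 μ) :
    ∃ (J : Type) (_ : Fintype J) (κ : J → ℕ) (F : (j : J) → ModularForm 𝒢 (κ j)),
      Fintype.card J ≤ μ ∧ (∀ j, Even (κ j)) ∧ (∀ j, F j ≠ 0) ∧
      ∀ (w : ℤ) (f : ModularForm 𝒢 w), ∃! P : (j : J) → ModularForm 𝒮ℒ (w - κ j),
        ∀ z, f z = ∑ j, P j z * F j z := by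
  have hS := gradedSetup h𝒢
  obtain ⟨J, κ, F, hF, hSPAN, hLI⟩ := exists_family hS
  have hκ0 : ∀ j, 0 ≤ κ j := kappa_nonneg hS hF hLI
  have hfin : Finite J := by
    by_contra hinf
    rw [not_finite_iff_infinite] at hinf
    obtain ⟨S, hScard⟩ := Infinite.exists_subset_card_eq J (μ + 1)
    have h2 := card_le_of_sturm h𝒢 hneg h1 hSt hF hSPAN hLI S
    omega
  let _ : Fintype J := Fintype.ofFinite J
  have hκcast : ∀ j, ((κ j).toNat : ℤ) = κ j := fun j => Int.toNat_of_nonneg (hκ0 j)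
  have hF' : ∀ j, ∃ G : ModularForm 𝒢 ((κ j).toNat : ℤ), ⇑G = F j :=
    fun j => mem_of_eq (hF j) (hκcast j).symm
  choose G hG using hF'
  refine ⟨J, inferInstance, fun j => (κ j).toNat, G, ?_, ?_, ?_, ?_⟩
  · have h2 := card_le_of_sturm h𝒢 hneg h1 hSt hF hSPAN hLI Finset.univ
    simpa using h2
  · intro j
    by_contra hodd
    rw [Nat.not_even_iff_odd] at hodd
    have hodd' : Odd (((κ j).toNat : ℕ) : ℤ) := by exact_mod_cast hodd
    have hG0 := ModularForm.eq_zero_of_neg_one_mem hneg hodd' (G j)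
    apply family_ne_zero hLI j
    rw [← hG j, hG0]
    rfl
  · intro j h0
    apply family_ne_zero hLI j
    rw [← hG j, h0]
    rfl
  · intro w f
    have hsum : ∀ (Q : (j : J) → ModularForm 𝒮ℒ (w - ((κ j).toNat : ℤ))) (z : ℍ),
        (Finsupp.linearCombination (ℍ → ℂ) F
          (Finsupp.equivFunOnFinite.symm fun j => ⇑(Q j))) z = ∑ j, Q j z * G j z := by
      intro Q z
      rw [Finsupp.linearCombination_apply,
        Finsupp.sum_fintype _ (fun i a => a • F i) (fun i => zero_smul _ _)]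
      simp [hG]
    have hmem : ∀ (Q : (j : J) → ModularForm 𝒮ℒ (w - ((κ j).toNat : ℤ))),
        (Finsupp.equivFunOnFinite.symm fun j => ⇑(Q j)) ∈ coeffSpace (MF 𝒮ℒ) κ w := by
      intro Q j
      exact mem_of_eq (coe_mem_MF (Q j)) (by rw [hκcast j])
    obtain ⟨r, hr, hlc⟩ := gen hS hSPAN w ⇑f (coe_mem_MF f)
    have hr' : ∀ j, ∃ P : ModularForm 𝒮ℒ (w - ((κ j).toNat : ℤ)), ⇑P = r j :=
      fun j => mem_of_eq (hr j) (by rw [hκcast j])
    choose P hP using hr'
    refine ⟨P, ?_, ?_⟩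
    · intro z
      have hrP : r = Finsupp.equivFunOnFinite.symm fun j => ⇑(P j) := by
        ext j
        simp [hP]
      rw [← hsum P z, ← hrP, hlc]
    · intro P' hP'
      have hd_lc : Finsupp.linearCombination (ℍ → ℂ) F
          (Finsupp.equivFunOnFinite.symm fun j => ⇑(P' j - P j)) = 0 := by
        funext z
        rw [hsum (fun j => P' j - P j) z]
        have hz1 : f z = ∑ j, P' j z * G j z := hP' z
        have hz2 : f z = ∑ j, P j z * G j z := by
          have hrP : r = Finsupp.equivFunOnFinite.symm fun j => ⇑(P j) := by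
            ext j
            simp [hP]
          rw [← hsum P z, ← hrP, hlc]
        simp only [sub_apply, sub_mul, Finset.sum_sub_distrib, Pi.zero_apply]
        rw [← hz1, ← hz2, sub_self]
      have h0 := uniq hS hF hSPAN hLI w _ (hmem fun j => P' j - P j) hd_lc
      funext j
      have h2 := DFunLike.congr_fun h0 j
      have h3 : (⇑(P' j - P j) : ℍ → ℂ) = 0 := by simpa using h2
      have h4 : P' j - P j = 0 := DFunLike.coe_injective h3
      exact sub_eq_zero.mp h4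

/-- The Prelude Sturm bound for `Γ₀(N)` in the form `SturmHyp`. -/
theorem sturmHyp_Gamma0 (N : ℕ) [NeZero N] :
    SturmHyp ((CongruenceSubgroup.Gamma0 N).map (mapGL ℝ)) (CongruenceSubgroup.Gamma0 N).index :=
  fun _ f h => ModularForm.sturm_bound_Gamma0 N f h

/-- The Prelude Sturm bound for arithmetic subgroups in the form `SturmHyp`. -/
theorem sturmHyp_of_isArithmetic {𝒢 : Subgroup (GL (Fin 2) ℝ)} [𝒢.IsArithmetic]
    (h1 : (1 : ℝ) ∈ 𝒢.strictPeriods) : SturmHyp 𝒢 (𝒢.relIndex 𝒮ℒ) := by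
  intro k f h
  apply ModularForm.sturm_bound_of_isArithmetic h1
  refine lt_of_lt_of_le ?_ (PowerSeries.nat_le_order _ ((k * 𝒢.relIndex 𝒮ℒ).toNat / 12 + 1)
    fun i hi => h i (by omega))
  exact_mod_cast Nat.lt_succ_self _

theorem neg_one_mem_Gamma0 (N : ℕ) :
    (-1 : GL (Fin 2) ℝ) ∈ (CongruenceSubgroup.Gamma0 N).map (mapGL ℝ) := by
  refine ⟨-1, ?_, ?_⟩
  · simp [CongruenceSubgroup.Gamma0_mem]
  · ext i j
    simp

/-- **F3 + F4 for `Γ₀(N)`.** `M_*(Γ₀(N))` is free over `M_*(SL₂(ℤ)) = ℂ[E₄, E₆]` on a finite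
family of at most `[SL₂(ℤ) : Γ₀(N)]` homogeneous generators of even weights. -/
theorem exists_free_basis_Gamma0 (N : ℕ) [NeZero N] :
    ∃ (J : Type) (_ : Fintype J) (κ : J → ℕ)
      (F : (j : J) → ModularForm (CongruenceSubgroup.Gamma0 N) (κ j)),
      Fintype.card J ≤ (CongruenceSubgroup.Gamma0 N).index ∧ (∀ j, Even (κ j)) ∧
      (∀ j, F j ≠ 0) ∧
      ∀ (w : ℤ) (f : ModularForm (CongruenceSubgroup.Gamma0 N) w),
        ∃! P : (j : J) → ModularForm 𝒮ℒ (w - κ j), ∀ z, f z = ∑ j, P j z * F j z :=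
  exists_free_basis (Subgroup.map_le_range _ _) (neg_one_mem_Gamma0 N)
    (CongruenceSubgroup.one_mem_strictPeriods_Gamma0 N) (sturmHyp_Gamma0 N)

/-- **F3 + F4 for arithmetic subgroups** (bound by `𝒢.relIndex 𝒮ℒ`). -/
theorem exists_free_basis_of_isArithmetic {𝒢 : Subgroup (GL (Fin 2) ℝ)} [𝒢.IsArithmetic]
    [𝒢.HasDetOne] (h𝒢 : 𝒢 ≤ 𝒮ℒ) (hneg : -1 ∈ 𝒢) (h1 : (1 : ℝ) ∈ 𝒢.strictPeriods) :
    ∃ (J : Type) (_ : Fintype J) (κ : J → ℕ) (F : (j : J) → ModularForm 𝒢 (κ j)),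
      Fintype.card J ≤ 𝒢.relIndex 𝒮ℒ ∧ (∀ j, Even (κ j)) ∧ (∀ j, F j ≠ 0) ∧
      ∀ (w : ℤ) (f : ModularForm 𝒢 w), ∃! P : (j : J) → ModularForm 𝒮ℒ (w - κ j),
        ∀ z, f z = ∑ j, P j z * F j z :=
  exists_free_basis h𝒢 hneg h1 (sturmHyp_of_isArithmetic h1)

/-- Dimension formula from a free basis (hypothesis-passing; works with any free basis in this
shape): `dim M_w(𝒢) = ∑_j dim M_{w - κ_j}(SL₂(ℤ))`. -/
theorem finrank_eq_sum_of_free {𝒢 : Subgroup (GL (Fin 2) ℝ)} [𝒢.IsArithmetic] [𝒢.HasDetOne]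
    (h𝒢 : 𝒢 ≤ 𝒮ℒ) {J : Type*} [Fintype J] (κ : J → ℕ) (F : (j : J) → ModularForm 𝒢 (κ j))
    (hfree : ∀ (w : ℤ) (f : ModularForm 𝒢 w), ∃! P : (j : J) → ModularForm 𝒮ℒ (w - κ j),
      ∀ z, f z = ∑ j, P j z * F j z) (w : ℤ) :
    Module.finrank ℂ (ModularForm 𝒢 w) = ∑ j, Module.finrank ℂ (ModularForm 𝒮ℒ (w - κ j)) := by
  let Φ : ((j : J) → ModularForm 𝒮ℒ (w - κ j)) →ₗ[ℂ] ↥(MF 𝒢 w) :=
    { toFun := fun P => ⟨∑ j, ⇑(P j) * ⇑(F j), Submodule.sum_mem _ fun j _ =>
        mem_of_eq (MF_mul (MF_of_levelOne h𝒢 (coe_mem_MF (P j))) (coe_mem_MF (F j))) (by ring)⟩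
      map_add' := by
        intro P P'
        apply Subtype.ext
        funext z
        simp [add_mul, Finset.sum_add_distrib]
      map_smul' := by
        intro c P
        apply Subtype.ext
        funext z
        simp [Finset.mul_sum] }
  have hΦ : ∀ P (z : ℍ), (Φ P : ℍ → ℂ) z = ∑ j, P j z * F j z := by
    intro P z
    simp [Φ]
  have hbij : Function.Bijective Φ := by
    constructor
    · intro P P' hPP'
      obtain ⟨f, hf⟩ := (Φ P).2
      obtain ⟨Q, -, hQ⟩ := hfree w f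
      have e1 : P = Q := hQ P (fun z => by rw [← hΦ P z, ← hf])
      have e2 : P' = Q := hQ P' (fun z => by rw [← hΦ P' z, ← hPP', ← hf])
      rw [e1, e2]
    · rintro ⟨g, f, rfl⟩
      obtain ⟨P, hP, -⟩ := hfree w f
      refine ⟨P, Subtype.ext ?_⟩
      funext z
      rw [hΦ P z, ← hP z]
  have e := (LinearEquiv.ofBijective Φ hbij).finrank_eq
  rw [Module.finrank_pi_fintype] at e
  rw [(MFequiv 𝒢 w).finrank_eq, ← e]

/-- A free basis has exactly one generator of weight `0` (hypothesis-passing). -/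
theorem card_weight_zero_of_free {𝒢 : Subgroup (GL (Fin 2) ℝ)} [𝒢.IsArithmetic] [𝒢.HasDetOne]
    (h𝒢 : 𝒢 ≤ 𝒮ℒ) {J : Type*} [Fintype J] [DecidableEq J] (κ : J → ℕ)
    (F : (j : J) → ModularForm 𝒢 (κ j))
    (hfree : ∀ (w : ℤ) (f : ModularForm 𝒢 w), ∃! P : (j : J) → ModularForm 𝒮ℒ (w - κ j),
      ∀ z, f z = ∑ j, P j z * F j z) :
    (Finset.univ.filter fun j => κ j = 0).card = 1 := by
  have h0 := finrank_eq_sum_of_free h𝒢 κ F hfree 0
  have hM0 : Module.finrank ℂ (ModularForm 𝒢 0) = 1 := by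
    have hne : (ModularForm.const 1 : ModularForm 𝒢 0) ≠ 0 := by
      intro h
      have h2 := DFunLike.congr_fun h I
      simp at h2
    refine (finrank_eq_one_iff_of_nonzero' _ hne).mpr fun f => ?_
    obtain ⟨c, hc⟩ := ModularForm.eq_const_of_weight_zero f
    refine ⟨c, ?_⟩
    ext z
    simp [hc]
  have hterm : ∀ j, Module.finrank ℂ (ModularForm 𝒮ℒ ((0 : ℤ) - κ j))
      = if κ j = 0 then 1 else 0 := by
    intro j
    by_cases hj : κ j = 0
    · rw [if_pos hj, hj]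
      have e : (0 : ℤ) - ((0 : ℕ) : ℤ) = 0 := by simp
      rw [e]
      exact Module.finrank_eq_of_rank_eq (n := 1) (by
        simpa using ModularForm.levelOne_weight_zero_rank_one)
    · rw [if_neg hj]
      have hneg : (0 : ℤ) - (κ j : ℤ) < 0 := by
        have : 0 < κ j := Nat.pos_of_ne_zero hj
        omega
      exact Module.finrank_eq_of_rank_eq (n := 0) (by
        simpa using ModularForm.levelOne_neg_weight_rank_zero hneg)
  rw [Finset.card_filter]
  have h1 : ∑ j, (if κ j = 0 then 1 else 0)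
      = ∑ j, Module.finrank ℂ (ModularForm 𝒮ℒ ((0 : ℤ) - κ j)) :=
    Finset.sum_congr rfl fun j _ => (hterm j).symm
  rw [h1, ← h0, hM0]

end

end Modular

end Fermat.Agent.S20.helper646
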