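/-
S20, helper560_Spec `Goal_Dual` (backup, seat helper648), ALGEBRAIC HALF.

`LeadPairing 𝒢`: for free bases `(κ, F)` of `MFG 𝒢` and `(κ', G)` of `CFG 𝒢`, the matrix of
trace pairings `Tr(F_j G_l) / Δ` has an invertible limit at `i∞`.

Main result: `stmt_Dual_of_leadPairing : LeadPairing 𝒢 → Stmt_Dual 𝒢`.
-/
import Fermat.Agent.S20.helper560_Spec

set_option autoImplicit false

open UpperHalfPlane ModularForm Filter
open scoped MatrixGroups Manifold Pointwise Topology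

namespace Fermat.Agent.S20.helper648

open Fermat.Agent.S20.helper560

noncomputable section

local notation "Δ" => ModularForm.discriminant

/-! ### Level one forms as functions -/

theorem RR_mul {a b : ℤ} {P P' : ℍ → ℂ} (hP : P ∈ RR a) (hP' : P' ∈ RR b) :
    P * P' ∈ RR (a + b) := by
  obtain ⟨F, rfl⟩ := hP
  obtain ⟨G, rfl⟩ := hP'
  exact ⟨F.mul G, rfl⟩

theorem RR_one : (1 : ℍ → ℂ) ∈ RR 0 := ⟨1, rfl⟩

theorem RR_prod {ι : Type} (s : Finset ι) (a : ι → ℤ) (P : ι → ℍ → ℂ)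
    (h : ∀ i ∈ s, P i ∈ RR (a i)) : ∏ i ∈ s, P i ∈ RR (∑ i ∈ s, a i) := by
  classical
  induction s using Finset.induction_on with
  | empty => simpa using RR_one
  | insert i t hi IH =>
    rw [Finset.prod_insert hi, Finset.sum_insert hi]
    exact RR_mul (h i (Finset.mem_insert_self i t))
      (IH fun j hj => h j (Finset.mem_insert_of_mem hj))

theorem RR_eq_zero_of_neg {k : ℤ} (hk : k < 0) {P : ℍ → ℂ} (hP : P ∈ RR k) : P = 0 := by
  obtain ⟨F, rfl⟩ := hP
  exact ModularFormClass.levelOne_neg_weight_eq_zero hk F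

/-- A level one form of weight `w` without zeros on `ℍ` and with a nonzero limit at `i∞`
has weight `0`. -/
theorem weight_eq_zero_of_nonvanishing {w : ℤ} {D : ℍ → ℂ} (hD : D ∈ RR w)
    (hne : ∀ z, D z ≠ 0) {L : ℂ} (hL : L ≠ 0) (hlim : Tendsto D atImInfty (𝓝 L)) : w = 0 := by
  obtain ⟨F, rfl⟩ := hD
  by_contra hw
  rcases lt_or_gt_of_ne hw with h | h
  · exact hne I (by rw [ModularFormClass.levelOne_neg_weight_eq_zero h F]; rfl)
  · have hinv : ∀ γ : SL(2, ℤ), ((1 : ℍ → ℂ) / ⇑F) ∣[0 - w] γ = (1 : ℍ → ℂ) / ⇑F := by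
      intro γ
      have hγ : (γ : GL (Fin 2) ℝ) ∈ 𝒮ℒ := ⟨γ, rfl⟩
      rw [ModularForm.div_slash_SL2, ModularForm.is_invariant_one, ModularForm.SL_slash,
        SlashInvariantForm.slash_action_eqn F _ hγ]
    let Finv : ModularForm 𝒮ℒ (0 - w) :=
      { toFun := (1 : ℍ → ℂ) / ⇑F
        slash_action_eq' := fun _ ⟨γ, hγ⟩ ↦ hγ ▸ hinv γ
        holo' := (1 : ModularForm 𝒮ℒ 0).holo'.div F.holo' hne
        bdd_at_cusps' := by
          intro c hc
          rw [Subgroup.IsArithmetic.isCusp_iff_isCusp_SL2Z] at hc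
          rw [OnePoint.isBoundedAt_iff_forall_SL2Z hc]
          intro γ _
          rw [hinv γ, IsBoundedAtImInfty, BoundedAtFilter]
          have : Tendsto ((1 : ℍ → ℂ) / ⇑F) atImInfty (𝓝 (1 / L)) :=
            Tendsto.div tendsto_const_nhds hlim hL
          exact this.isBigO_one ℝ }
    have h0 := ModularFormClass.levelOne_neg_weight_eq_zero (by omega : 0 - w < 0) Finv
    have h1 : (1 : ℂ) / F I = 0 := congrFun h0 I
    exact hne I (by simpa using h1)

/-! ### The trace pairing -/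

variable (𝒢 : Subgroup (GL (Fin 2) ℝ)) [𝒢.IsArithmetic] [𝒢.HasDetOne]

/-- The pairing function `∑_x f_x g_x` of the translates of `f` (weight `k`) and `g`
(weight `k'`). -/
def pairFun (k k' : ℤ) (f g : ℍ → ℂ) : ℍ → ℂ :=
  fun z => ∑ x : Q 𝒢, tr 𝒢 k f x z * tr 𝒢 k' g x z

omit [𝒢.HasDetOne] in
theorem quotientFunc_mulModularForm {a b : ℤ} (G : CuspForm 𝒢 b) (F : ModularForm 𝒢 a)
    (q : Q 𝒢) :
    SlashInvariantForm.quotientFunc (ℋ := 𝒮ℒ) (G.mulModularForm F) q =
      SlashInvariantForm.quotientFunc (ℋ := 𝒮ℒ) G q *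
        SlashInvariantForm.quotientFunc (ℋ := 𝒮ℒ) F q := by
  induction q using Quotient.inductionOn with
  | h r =>
    obtain ⟨γ, hγ⟩ := r.2
    have hr : (r : GL (Fin 2) ℝ)⁻¹ = Matrix.SpecialLinearGroup.mapGL ℝ γ⁻¹ := by
      rw [map_inv, hγ]
    simp only [SlashInvariantForm.quotientFunc_mk, hr]
    rw [CuspForm.coe_mulModularForm]
    exact ModularForm.mul_slash_SL2 b a γ⁻¹ ⇑G ⇑F

/-- The trace pairing of a modular form and a cusp form is `Δ` times a level one form. -/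
theorem pairFun_mem (a b : ℤ) {f g : ℍ → ℂ} (hf : f ∈ MFG 𝒢 a) (hg : g ∈ CFG 𝒢 b) :
    ∃ B ∈ RR (a + b - 12), ∀ z, pairFun 𝒢 a b f g z = Δ z * B z := by
  obtain ⟨F, rfl⟩ := hf
  obtain ⟨G, rfl⟩ := hg
  refine ⟨_, ⟨ModularForm.mcast (by ring : b + a - 12 = a + b - 12)
    (CuspForm.discriminantEquiv (CuspForm.trace 𝒮ℒ (G.mulModularForm F))), rfl⟩, fun z => ?_⟩
  rw [ModularForm.coe_mcast, ModularForm.discriminant_mul_discriminantEquiv_apply]
  rw [CuspForm.coe_trace]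
  simp only [pairFun, tr_eq_quotientFunc, tr_eq_quotientFunc_cusp, Finset.sum_apply,
    quotientFunc_mulModularForm, Pi.mul_apply]
  refine Finset.sum_congr ?_ fun x _ => mul_comm _ _
  ext; simp

/-! ### The hypothesis and the main theorem -/

open Classical in
/-- The analytic input: the matrix of trace pairings `Tr(F_j G_l)/Δ` of free bases of
`MFG 𝒢` and `CFG 𝒢` has an invertible limit at `i∞`. -/
def LeadPairing : Prop :=
  ∀ (κ κ' : Q 𝒢 → ℤ) (F G : Q 𝒢 → ℍ → ℂ),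
    IsFreeBasis (MFG 𝒢) κ F → IsFreeBasis (CFG 𝒢) κ' G →
    ∃ L : Matrix (Q 𝒢) (Q 𝒢) ℂ, L.det ≠ 0 ∧
      ∀ j l, Tendsto (fun z : ℍ => pairFun 𝒢 (κ j) (κ' l) (F j) (G l) z / Δ z)
        atImInfty (𝓝 (L j l))

theorem stmt_Dual_of_leadPairing (h : LeadPairing 𝒢) : Stmt_Dual 𝒢 := by
  classical
  intro κ κ' F G hF hG hΦ hΨ
  obtain ⟨L, hLdet, hLlim⟩ := h κ κ' F G hF hG
  have hB : ∀ j l, ∃ B ∈ RR (κ j + κ' l - 12),
      ∀ z, pairFun 𝒢 (κ j) (κ' l) (F j) (G l) z = Δ z * B z :=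
    fun j l => pairFun_mem 𝒢 _ _ (hF.1 j) (hG.1 l)
  choose B hBmem hBeq using hB
  set Bm : ℍ → Matrix (Q 𝒢) (Q 𝒢) ℂ := fun z => Matrix.of fun j l => B j l z with hBm
  set w : ℤ := ∑ j, κ j + ∑ l, κ' l - 12 * Fintype.card (Q 𝒢) with hw
  -- the determinant is a level one form of weight `w`
  have hterm : ∀ σ : Equiv.Perm (Q 𝒢), (∏ i, B (σ i) i) ∈ RR w := by
    intro σ
    have h1 := RR_prod Finset.univ (fun i => κ (σ i) + κ' i - 12) (fun i => B (σ i) i)
      (fun i _ => hBmem (σ i) i)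
    have h2 : ∑ i, (κ (σ i) + κ' i - 12) = w := by
      rw [hw, Finset.sum_sub_distrib, Finset.sum_add_distrib, Equiv.sum_comp σ κ]
      simp [mul_comm]
    rwa [h2] at h1
  have hDfun : (fun z => (Bm z).det) =
      ∑ σ : Equiv.Perm (Q 𝒢), ((Equiv.Perm.sign σ : ℤ) : ℂ) • ∏ i, B (σ i) i := by
    funext z
    simp only [hBm, Matrix.det_apply', Matrix.of_apply, Finset.sum_apply, Pi.smul_apply,
      Finset.prod_apply, smul_eq_mul]
  have hDmem : (fun z => (Bm z).det) ∈ RR w := by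
    rw [hDfun]
    exact Submodule.sum_mem _ fun σ _ => Submodule.smul_mem _ _ (hterm σ)
  -- the determinant does not vanish on `ℍ`
  have hmat : ∀ z, (transMatrix 𝒢 κ F z).transpose * transMatrix 𝒢 κ' G z = Δ z • Bm z := by
    intro z
    ext j l
    simp only [Matrix.mul_apply, Matrix.transpose_apply, transMatrix, Matrix.of_apply,
      Matrix.smul_apply, hBm, smul_eq_mul]
    exact hBeq j l z
  have hDne : ∀ z, (Bm z).det ≠ 0 := by
    intro z hz
    have h1 := congrArg Matrix.det (hmat z)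
    rw [Matrix.det_mul, Matrix.det_transpose, Matrix.det_smul, hz, mul_zero] at h1
    have h2 : fundDet 𝒢 κ F z ≠ 0 := hΦ z
    have h3 : fundDet 𝒢 κ' G z ≠ 0 := hΨ z
    unfold fundDet at h2 h3
    exact mul_ne_zero h2 h3 h1
  -- the determinant has a nonzero limit at `i∞`
  have hBlim : Tendsto Bm atImInfty (𝓝 L) := by
    have h1 : Tendsto (fun z : ℍ => (fun j l => B j l z : Q 𝒢 → Q 𝒢 → ℂ)) atImInfty
        (𝓝 (fun j l => L j l)) := by
      refine tendsto_pi_nhds.mpr fun j => tendsto_pi_nhds.mpr fun l => ?_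
      refine (hLlim j l).congr fun z => ?_
      rw [hBeq j l z, mul_div_cancel_left₀ _ (discriminant_ne_zero z)]
    exact h1
  have hDlim : Tendsto (fun z => (Bm z).det) atImInfty (𝓝 L.det) :=
    ((Continuous.matrix_det continuous_id).tendsto L).comp hBlim
  have hw0 : w = 0 := weight_eq_zero_of_nonvanishing hDmem hDne hLdet hDlim
  -- extract a permutation with nonzero term
  obtain ⟨σ, hσ⟩ : ∃ σ : Equiv.Perm (Q 𝒢), (∏ i, B (σ i) i) ≠ 0 := by
    by_contra hcon
    push Not at hcon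
    have : (fun z => (Bm z).det) = 0 := by
      rw [hDfun]
      exact Finset.sum_eq_zero fun σ _ => by rw [hcon σ, smul_zero]
    exact hDne I (congrFun this I)
  have hnonneg : ∀ i, 0 ≤ κ (σ i) + κ' i - 12 := by
    intro i
    by_contra hlt
    have h0 : B (σ i) i = 0 := RR_eq_zero_of_neg (not_le.mp hlt) (hBmem (σ i) i)
    exact hσ (Finset.prod_eq_zero (Finset.mem_univ i) h0)
  have hsum : ∑ i, (κ (σ i) + κ' i - 12) = 0 := by
    rw [← hw0, hw, Finset.sum_sub_distrib, Finset.sum_add_distrib, Equiv.sum_comp σ κ]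
    simp [mul_comm]
  have hzero : ∀ i, κ (σ i) + κ' i - 12 = 0 := by
    intro i
    exact (Finset.sum_eq_zero_iff_of_nonneg fun i _ => hnonneg i).mp hsum i (Finset.mem_univ i)
  refine ⟨σ.symm, fun j => ?_⟩
  have := hzero (σ.symm j)
  rw [Equiv.apply_symm_apply] at this
  omega

end

end Fermat.Agent.S20.helper648
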