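import Fermat.Agent.S20.helper648_DualAlg
import Fermat.Prelude.Thm_UpperHalfPlane_qExpansion_coeff_nat_mul

set_option autoImplicit false
set_option linter.unusedSectionVars false

open UpperHalfPlane ModularForm Filter Function Asymptotics
open scoped MatrixGroups Manifold Pointwise Topology Real

namespace Fermat.Agent.S20.helper648

open Fermat.Agent.S20.helper560

noncomputable section

local notation "Δ" => ModularForm.discriminant
local notation "𝕢" => Periodic.qParam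

/-- A holomorphic function on `ℍ`, periodic of period `N`, bounded at `i∞`. -/
structure NiceN (N : ℕ) (g : ℍ → ℂ) : Prop where
  per : Periodic (g ∘ ofComplex) ((N : ℝ) : ℂ)
  holo : MDiff g
  bdd : IsBoundedAtImInfty g

/-- The `n`-th coefficient of the `q_N`-expansion. -/
def co (N : ℕ) (g : ℍ → ℂ) (n : ℕ) : ℂ := (qExpansion (N : ℝ) g).coeff n

variable {N : ℕ} [NeZero N]

theorem natCast_pos' : (0 : ℝ) < (N : ℝ) := by exact_mod_cast Nat.pos_of_ne_zero (NeZero.ne N)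

namespace NiceN

variable {g g' : ℍ → ℂ}

theorem analytic (hg : NiceN N g) : AnalyticAt ℂ (cuspFunction (N : ℝ) g) 0 :=
  analyticAt_cuspFunction_zero natCast_pos' hg.per hg.holo hg.bdd

theorem hasSum (hg : NiceN N g) (τ : ℍ) :
    HasSum (fun n : ℕ => co N g n * 𝕢 (N : ℝ) τ ^ n) (g τ) := by
  simpa [co] using hasSum_qExpansion natCast_pos' hg.per hg.holo hg.bdd τ

theorem hasFPowerSeriesAt (hg : NiceN N g) :
    HasFPowerSeriesAt (cuspFunction (N : ℝ) g) (.ofScalars ℂ (co N g)) 0 :=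
  (hasFPowerSeriesOnBall_cuspFunction natCast_pos' hg.analytic
    (fun τ => by simpa using hg.hasSum τ)).hasFPowerSeriesAt

/-- Uniqueness of the coefficients. -/
theorem co_unique (hg : NiceN N g) {c : ℕ → ℂ}
    (hc : ∀ τ : ℍ, HasSum (fun n : ℕ => c n * 𝕢 (N : ℝ) τ ^ n) (g τ)) (n : ℕ) :
    c n = co N g n := by
  have h1 : HasFPowerSeriesAt (cuspFunction (N : ℝ) g) (.ofScalars ℂ c) 0 :=
    (hasFPowerSeriesOnBall_cuspFunction natCast_pos' hg.analytic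
      (fun τ => by simpa using hc τ)).hasFPowerSeriesAt
  have h2 := hg.hasFPowerSeriesAt
  simpa [FormalMultilinearSeries.coeff_ofScalars] using
    congr_arg (FormalMultilinearSeries.coeff · n) (h1.eq_formalMultilinearSeries h2)

theorem eq_cusp (hg : NiceN N g) (τ : ℍ) : cuspFunction (N : ℝ) g (𝕢 (N : ℝ) τ) = g τ :=
  eq_cuspFunction τ natCast_pos'.ne' hg.per

/-- The value at `i∞` is the constant coefficient. -/
theorem tendsto (hg : NiceN N g) : Tendsto g atImInfty (𝓝 (co N g 0)) := by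
  have h1 := hg.analytic.continuousAt.tendsto.comp (qParam_tendsto_atImInfty (natCast_pos' (N := N)))
  have h2 : co N g 0 = cuspFunction (N : ℝ) g 0 := by simp [co, qExpansion_coeff]
  rw [h2]
  refine h1.congr fun τ => ?_
  simpa using hg.eq_cusp τ

/-- Taylor expansion with remainder. -/
theorem isBigO_sub (hg : NiceN N g) (M : ℕ) :
    (fun τ : ℍ => g τ - ∑ n ∈ Finset.range M, co N g n * 𝕢 (N : ℝ) τ ^ n) =O[atImInfty]
      fun τ : ℍ => ‖𝕢 (N : ℝ) τ‖ ^ M := by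
  have hO := hg.hasFPowerSeriesAt.isBigO_sub_partialSum_pow M
  have hO' := hO.comp_tendsto (qParam_tendsto_atImInfty (natCast_pos' (N := N)))
  refine hO'.congr' (Eventually.of_forall fun τ => ?_) (Eventually.of_forall fun τ => rfl)
  simp only [comp_apply, zero_add, hg.eq_cusp τ, FormalMultilinearSeries.partialSum,
    FormalMultilinearSeries.ofScalars_apply_eq, smul_eq_mul]

theorem add (hg : NiceN N g) (hg' : NiceN N g') : NiceN N (g + g') where
  per := by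
    intro w
    have h1 := hg.per w
    have h2 := hg'.per w
    simp only [comp_apply, Pi.add_apply] at h1 h2 ⊢
    rw [h1, h2]
  holo := hg.holo.add hg'.holo
  bdd := hg.bdd.add hg'.bdd

theorem mul (hg : NiceN N g) (hg' : NiceN N g') : NiceN N (g * g') where
  per := by
    intro w
    have h1 := hg.per w
    have h2 := hg'.per w
    simp only [comp_apply, Pi.mul_apply] at h1 h2 ⊢
    rw [h1, h2]
  holo := hg.holo.mul hg'.holo
  bdd := hg.bdd.mul hg'.bdd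

theorem smul (c : ℂ) (hg : NiceN N g) : NiceN N (c • g) where
  per := by
    intro w
    have h1 := hg.per w
    simp only [comp_apply, Pi.smul_apply] at h1 ⊢
    rw [h1]
  holo := hg.holo.const_smul c
  bdd := hg.bdd.const_smul_left c

theorem zero : NiceN N (0 : ℍ → ℂ) where
  per := by intro w; simp
  holo := mdifferentiable_const
  bdd := zero_form_isBoundedAtImInfty

theorem sum {ι : Type} (s : Finset ι) (f : ι → ℍ → ℂ) (h : ∀ i ∈ s, NiceN N (f i)) :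
    NiceN N (∑ i ∈ s, f i) := by
  classical
  induction s using Finset.induction_on with
  | empty => simpa using (zero : NiceN N (0 : ℍ → ℂ))
  | insert i t hi IH =>
    rw [Finset.sum_insert hi]
    exact (h i (Finset.mem_insert_self i t)).add (IH fun j hj => h j (Finset.mem_insert_of_mem hj))

end NiceN

theorem co_add {g g' : ℍ → ℂ} (hg : NiceN N g) (hg' : NiceN N g') (n : ℕ) :
    co N (g + g') n = co N g n + co N g' n := by
  simp [co, qExpansion_add hg.analytic hg'.analytic]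

theorem co_smul {g : ℍ → ℂ} (c : ℂ) (hg : NiceN N g) (n : ℕ) :
    co N (c • g) n = c * co N g n := by
  simp [co, qExpansion_smul hg.analytic]

theorem co_zero_fun (n : ℕ) : co N (0 : ℍ → ℂ) n = 0 := by
  simp [co, qExpansion_zero]

theorem co_sum {ι : Type} (s : Finset ι) (f : ι → ℍ → ℂ) (h : ∀ i ∈ s, NiceN N (f i)) (n : ℕ) :
    co N (∑ i ∈ s, f i) n = ∑ i ∈ s, co N (f i) n := by
  classical
  induction s using Finset.induction_on with
  | empty => simpa using co_zero_fun (N := N) n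
  | insert i t hi IH =>
    rw [Finset.sum_insert hi, Finset.sum_insert hi,
      co_add (h i (Finset.mem_insert_self i t))
        (NiceN.sum t f fun j hj => h j (Finset.mem_insert_of_mem hj)),
      IH fun j hj => h j (Finset.mem_insert_of_mem hj)]

theorem co_mul {g g' : ℍ → ℂ} (hg : NiceN N g) (hg' : NiceN N g') (n : ℕ) :
    co N (g * g') n =
      ∑ p ∈ Finset.HasAntidiagonal.antidiagonal n, co N g p.1 * co N g' p.2 := by
  simp [co, qExpansion_mul hg.analytic hg'.analytic, PowerSeries.coeff_mul]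

/-! ### The shift `z ↦ z + 1` -/

/-- `ζ_N = exp (2πi/N)`. -/
def zetaN (N : ℕ) : ℂ := Complex.exp (2 * π * Complex.I / N)

theorem zetaN_isPrimitiveRoot : IsPrimitiveRoot (zetaN N) N :=
  Complex.isPrimitiveRoot_exp N (NeZero.ne N)

theorem zetaN_ne_zero (N : ℕ) : zetaN N ≠ 0 := Complex.exp_ne_zero _

theorem qParam_one_vadd (z : ℍ) :
    𝕢 (N : ℝ) (((1 : ℝ) +ᵥ z : ℍ) : ℂ) = zetaN N * 𝕢 (N : ℝ) z := by
  have hN : (N : ℂ) ≠ 0 := by exact_mod_cast NeZero.ne N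
  rw [zetaN, Periodic.qParam, Periodic.qParam, ← Complex.exp_add]
  congr 1
  simp only [coe_vadd, Complex.ofReal_one, Complex.ofReal_natCast]
  field_simp

/-- The function `z ↦ g (z + 1)`. -/
def shiftFun (g : ℍ → ℂ) : ℍ → ℂ := fun z => g ((1 : ℝ) +ᵥ z)

theorem shiftFun_eq_slash_T (g : ℍ → ℂ) (k : ℤ) : shiftFun g = g ∣[k] ModularGroup.T := by
  funext z
  rw [SL_slash_apply, modular_T_smul]
  have h2 : denom (ModularGroup.T : SL(2, ℤ)) z = 1 := by
    rw [ModularGroup.denom_apply]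
    simp [ModularGroup.T]
  rw [h2]
  simp [shiftFun]

theorem NiceN.shiftFun {g : ℍ → ℂ} (hg : NiceN N g) : NiceN N (shiftFun g) where
  per := by
    intro w
    by_cases hw : 0 < Complex.im w
    · have hw' : 0 < Complex.im (w + ((N : ℝ) : ℂ)) := by simp [hw]
      have hw1 : 0 < Complex.im (w + 1) := by simp [hw]
      have hw1' : 0 < Complex.im (w + 1 + ((N : ℝ) : ℂ)) := by simp [hw]
      have e1 : ((1 : ℝ) +ᵥ (⟨w + ((N : ℝ) : ℂ), hw'⟩ : ℍ)) = ofComplex (w + 1 + ((N : ℝ) : ℂ)) := by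
        rw [ofComplex_apply_of_im_pos hw1']
        ext
        simp [coe_vadd]
        ring
      have e2 : ((1 : ℝ) +ᵥ (⟨w, hw⟩ : ℍ)) = ofComplex (w + 1) := by
        rw [ofComplex_apply_of_im_pos hw1]
        ext
        simp [coe_vadd]
        ring
      simp only [comp_apply, ofComplex_apply_of_im_pos hw', ofComplex_apply_of_im_pos hw]
      change g _ = g _
      rw [e1, e2]
      exact hg.per (w + 1)
    · have hw' : Complex.im (w + ((N : ℝ) : ℂ)) ≤ 0 := by simpa using not_lt.mp hw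
      simp only [comp_apply]
      rw [ofComplex_apply_of_im_nonpos hw', ofComplex_apply_of_im_nonpos (not_lt.mp hw)]
  holo := by
    rw [shiftFun_eq_slash_T g 0, SL_slash]
    exact hg.holo.slash 0 _
  bdd := by
    obtain ⟨M, A, h⟩ := isBoundedAtImInfty_iff.mp hg.bdd
    refine isBoundedAtImInfty_iff.mpr ⟨M, A, fun z hz => ?_⟩
    exact h _ (by simpa using hz)

theorem co_shiftFun {g : ℍ → ℂ} (hg : NiceN N g) (n : ℕ) :
    co N (shiftFun g) n = zetaN N ^ n * co N g n := by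
  symm
  refine hg.shiftFun.co_unique (c := fun n => zetaN N ^ n * co N g n) (fun τ => ?_) n
  have h1 := hg.hasSum ((1 : ℝ) +ᵥ τ)
  simp only [qParam_one_vadd, mul_pow] at h1
  have h2 : HasSum (fun m => zetaN N ^ m * co N g m * 𝕢 (N : ℝ) τ ^ m) (g ((1 : ℝ) +ᵥ τ)) := by
    convert h1 using 2 with m
    ring
  exact h2

/-! ### Level one forms -/

theorem niceN_of_levelOne {a : ℤ} {F : Type*} [FunLike F ℍ ℂ] [ModularFormClass F 𝒮ℒ a] (A : F) :
    NiceN N ⇑A where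
  per := by
    have h1 : Periodic (⇑A ∘ ofComplex) ((1 : ℝ) : ℂ) :=
      SlashInvariantFormClass.periodic_comp_ofComplex A one_mem_strictPeriods_SL
    simpa using h1.nat_mul N
  holo := ModularFormClass.holo A
  bdd := ModularFormClass.bdd_at_infty A

theorem co_of_levelOne {a : ℤ} {F : Type*} [FunLike F ℍ ℂ] [ModularFormClass F 𝒮ℒ a] (A : F)
    (n : ℕ) : co N ⇑A n = if N ∣ n then (qExpansion 1 ⇑A).coeff (n / N) else 0 := by
  have h := UpperHalfPlane.qExpansion_coeff_nat_mul (h := 1) one_pos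
    (SlashInvariantFormClass.periodic_comp_ofComplex A one_mem_strictPeriods_SL)
    (ModularFormClass.holo A) (ModularFormClass.bdd_at_infty A)
    (Nat.pos_of_ne_zero (NeZero.ne N)) n
  simpa [co] using h

theorem co_of_levelOne_of_lt {a : ℤ} {F : Type*} [FunLike F ℍ ℂ] [ModularFormClass F 𝒮ℒ a]
    (A : F) {n : ℕ} (hn0 : n ≠ 0) (hn : n < N) : co N ⇑A n = 0 := by
  rw [co_of_levelOne, if_neg]
  exact fun h => hn0 (Nat.eq_zero_of_dvd_of_lt h hn)

theorem niceN_of_RR {a : ℤ} {A : ℍ → ℂ} (hA : A ∈ RR a) : NiceN N A := by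
  obtain ⟨A', rfl⟩ := hA
  exact niceN_of_levelOne A'

theorem co_of_RR_of_lt {a : ℤ} {A : ℍ → ℂ} (hA : A ∈ RR a) {n : ℕ} (hn0 : n ≠ 0) (hn : n < N) :
    co N A n = 0 := by
  obtain ⟨A', rfl⟩ := hA
  exact co_of_levelOne_of_lt A' hn0 hn

theorem co_discriminant_of_lt {n : ℕ} (hn : n < N) : co N Δ n = 0 := by
  rw [show (Δ : ℍ → ℂ) = ⇑CuspForm.discriminant from rfl, co_of_levelOne]
  split_ifs with h
  · have h0 : n = 0 := Nat.eq_zero_of_dvd_of_lt h hn
    subst h0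
    simpa using CuspFormClass.qExpansion_coeff_zero CuspForm.discriminant one_pos
      one_mem_strictPeriods_SL
  · rfl

theorem co_discriminant_self : co N Δ N = 1 := by
  rw [show (Δ : ℍ → ℂ) = ⇑CuspForm.discriminant from rfl, co_of_levelOne, if_pos dvd_rfl,
    Nat.div_self (Nat.pos_of_ne_zero (NeZero.ne N))]
  exact discriminant_qExpansion_coeff_one

/-! ### Translates -/

variable {𝒢 : Subgroup (GL (Fin 2) ℝ)} [𝒢.IsArithmetic] [𝒢.HasDetOne] {k : ℤ}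

theorem niceN_slash (hG : GoodLevel 𝒢 N) {F : Type*} [FunLike F ℍ ℂ] [ModularFormClass F 𝒢 k]
    (f : F) (γ : SL(2, ℤ)) : NiceN N (⇑f ∣[k] γ) where
  per := by
    have hper : (N : ℝ) ∈ (ConjAct.toConjAct (Matrix.SpecialLinearGroup.mapGL ℝ γ)⁻¹ • 𝒢).strictPeriods := by
      simpa [map_inv] using hG.per γ⁻¹
    exact SlashInvariantFormClass.periodic_comp_ofComplex
      (ModularForm.translate f (Matrix.SpecialLinearGroup.mapGL ℝ γ)) hper
  holo := (ModularFormClass.holo f).slash k _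
  bdd := ModularFormClass.bdd_at_infty_slash f γ

/-- The translate attached to a coset is a slash by an element of `SL(2,ℤ)`. -/
theorem exists_tr_eq_slash (x : Q 𝒢) :
    ∃ γ : SL(2, ℤ), ∀ (k : ℤ) (f : ℍ → ℂ), tr 𝒢 k f x = f ∣[k] γ := by
  obtain ⟨γ, hγ⟩ := (x.out).2
  refine ⟨γ⁻¹, fun k f => ?_⟩
  unfold tr
  rw [← hγ, ← map_inv]
  rfl

theorem niceN_tr (hG : GoodLevel 𝒢 N) {f : ℍ → ℂ} (hf : f ∈ MFG 𝒢 k) (x : Q 𝒢) :
    NiceN N (tr 𝒢 k f x) := by
  obtain ⟨F, rfl⟩ := hf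
  obtain ⟨γ, hγ⟩ := exists_tr_eq_slash x
  rw [hγ]
  exact niceN_slash hG F γ

theorem niceN_tr_cusp (hG : GoodLevel 𝒢 N) {f : ℍ → ℂ} (hf : f ∈ CFG 𝒢 k) (x : Q 𝒢) :
    NiceN N (tr 𝒢 k f x) := by
  obtain ⟨F, rfl⟩ := hf
  obtain ⟨γ, hγ⟩ := exists_tr_eq_slash x
  rw [hγ]
  exact niceN_slash hG F γ

theorem isZero_tr_cusp {f : ℍ → ℂ} (hf : f ∈ CFG 𝒢 k) (x : Q 𝒢) :
    IsZeroAtImInfty (tr 𝒢 k f x) := by
  obtain ⟨F, rfl⟩ := hf
  obtain ⟨γ, hγ⟩ := exists_tr_eq_slash x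
  rw [hγ]
  exact CuspFormClass.zero_at_infty_slash F γ

theorem co_tr_cusp_zero (hG : GoodLevel 𝒢 N) {f : ℍ → ℂ} (hf : f ∈ CFG 𝒢 k) (x : Q 𝒢) :
    co N (tr 𝒢 k f x) 0 = 0 :=
  tendsto_nhds_unique (niceN_tr_cusp hG hf x).tendsto (isZero_tr_cusp hf x)

theorem tr_add (k : ℤ) (f g : ℍ → ℂ) (x : Q 𝒢) :
    tr 𝒢 k (f + g) x = tr 𝒢 k f x + tr 𝒢 k g x := by
  obtain ⟨γ, hγ⟩ := exists_tr_eq_slash x
  simp only [hγ, SlashAction.add_slash]

theorem tr_smul (k : ℤ) (c : ℂ) (f : ℍ → ℂ) (x : Q 𝒢) :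
    tr 𝒢 k (c • f) x = c • tr 𝒢 k f x := by
  obtain ⟨γ, hγ⟩ := exists_tr_eq_slash x
  simp only [hγ, ModularForm.SL_smul_slash]

theorem tr_sum {ι : Type} (k : ℤ) (s : Finset ι) (f : ι → ℍ → ℂ) (x : Q 𝒢) :
    tr 𝒢 k (∑ i ∈ s, f i) x = ∑ i ∈ s, tr 𝒢 k (f i) x := by
  obtain ⟨γ, hγ⟩ := exists_tr_eq_slash x
  simp only [hγ, SlashAction.sum_slash]

theorem tr_mul_RR {a : ℤ} {A : ℍ → ℂ} (hA : A ∈ RR a) (b : ℤ) (f : ℍ → ℂ) (x : Q 𝒢) :
    tr 𝒢 (a + b) (A * f) x = A * tr 𝒢 b f x := by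
  obtain ⟨γ, hγ⟩ := exists_tr_eq_slash x
  obtain ⟨A', rfl⟩ := hA
  have hγ' : (γ : GL (Fin 2) ℝ) ∈ 𝒮ℒ := ⟨γ, rfl⟩
  rw [hγ, hγ, ModularForm.mul_slash_SL2, ModularForm.SL_slash,
    SlashInvariantForm.slash_action_eqn A' _ hγ']

theorem CFG_le_MFG {g : ℍ → ℂ} (hg : g ∈ CFG 𝒢 k) : g ∈ MFG 𝒢 k := by
  obtain ⟨G, rfl⟩ := hg
  exact ⟨CuspForm.toModularFormₗ G, rfl⟩

/-- The element `T` of `𝒮ℒ`. -/
abbrev sT : 𝒮ℒ := sl ModularGroup.T

theorem tr_smul_T {f : ℍ → ℂ} (hf : f ∈ MFG 𝒢 k) (x : Q 𝒢) :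
    tr 𝒢 k f ((sT)⁻¹ • x) = shiftFun (tr 𝒢 k f x) := by
  obtain ⟨F, rfl⟩ := hf
  rw [tr_eq_quotientFunc, tr_eq_quotientFunc, shiftFun_eq_slash_T _ k, SL_slash]
  exact (SlashInvariantForm.quotientFunc_smul F (sl ModularGroup.T).2 x).symm

theorem co_tr_smul_T (hG : GoodLevel 𝒢 N) {f : ℍ → ℂ} (hf : f ∈ MFG 𝒢 k) (x : Q 𝒢) (n : ℕ) :
    co N (tr 𝒢 k f ((sT)⁻¹ • x)) n = zetaN N ^ n * co N (tr 𝒢 k f x) n := by
  rw [tr_smul_T hf, co_shiftFun (niceN_tr hG hf x)]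

theorem co_tr_smul_T_pow (hG : GoodLevel 𝒢 N) {f : ℍ → ℂ} (hf : f ∈ MFG 𝒢 k) (x : Q 𝒢)
    (m n : ℕ) :
    co N (tr 𝒢 k f (((sT)⁻¹) ^ m • x)) n = zetaN N ^ (n * m) * co N (tr 𝒢 k f x) n := by
  induction m with
  | zero => simp
  | succ m ih =>
    rw [pow_succ', mul_smul, co_tr_smul_T hG hf, ih]
    ring

/-- Every `SL(2,ℤ)`-translate is the translate attached to a coset. -/
theorem slash_eq_tr (F : ModularForm 𝒢 k) (γ : SL(2, ℤ)) :
    ⇑F ∣[k] γ = tr 𝒢 k ⇑F (QuotientGroup.mk ((sl γ)⁻¹) : Q 𝒢) := by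
  rw [tr_eq_quotientFunc]
  change ⇑F ∣[k] (Matrix.SpecialLinearGroup.mapGL ℝ γ) =
    ⇑F ∣[k] (((sl γ)⁻¹ : 𝒮ℒ) : GL (Fin 2) ℝ)⁻¹
  congr 1

/-! ### Finite Fourier inversion (as in `helper1220_CuspToolkit`) -/

theorem sum_zetaN_pow_mul {a b : ℕ} (ha : a < N) (hb : b < N) :
    ∑ m ∈ Finset.range N, (zetaN N ^ (b * m))⁻¹ * zetaN N ^ (a * m) =
      if a = b then (N : ℂ) else 0 := by
  have hζ := zetaN_isPrimitiveRoot (N := N)
  set ω : ℂ := (zetaN N ^ b)⁻¹ * zetaN N ^ a with hω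
  have hterm : ∀ m : ℕ, (zetaN N ^ (b * m))⁻¹ * zetaN N ^ (a * m) = ω ^ m := by
    intro m
    rw [hω, mul_pow, inv_pow, ← pow_mul, ← pow_mul]
  simp_rw [hterm]
  split_ifs with hab
  · have : ω = 1 := by
      rw [hω, hab]
      exact inv_mul_cancel₀ (pow_ne_zero _ (zetaN_ne_zero N))
    simp [this]
  · have hω1 : ω ≠ 1 := by
      intro h1
      apply hab
      apply hζ.pow_inj ha hb
      have hb0 : zetaN N ^ b ≠ 0 := pow_ne_zero _ (zetaN_ne_zero N)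
      rw [hω, inv_mul_eq_one₀ hb0] at h1
      exact h1.symm
    have hωN : ω ^ N = 1 := by
      rw [hω, mul_pow, inv_pow, ← pow_mul, ← pow_mul, mul_comm b N, mul_comm a N, pow_mul,
        pow_mul, hζ.pow_eq_one]
      simp
    rw [geom_sum_eq hω1, hωN]
    simp

theorem fourier_inversion (c : ℕ → ℂ) {l : ℕ} (hl : l < N) :
    ∑ m ∈ Finset.range N, (zetaN N ^ (l * m))⁻¹ *
      ∑ n ∈ Finset.range N, zetaN N ^ (n * m) * c n = N * c l := by
  simp_rw [Finset.mul_sum]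
  rw [Finset.sum_comm]
  have : ∀ n ∈ Finset.range N, ∑ m ∈ Finset.range N,
      (zetaN N ^ (l * m))⁻¹ * (zetaN N ^ (n * m) * c n) = (if n = l then (N : ℂ) else 0) * c n := by
    intro n hn
    rw [← sum_zetaN_pow_mul (Finset.mem_range.mp hn) hl, Finset.sum_mul]
    refine Finset.sum_congr rfl fun m _ ↦ by ring
  rw [Finset.sum_congr rfl this]
  simp [Finset.sum_ite_eq', hl]

theorem fourier_inversion_succ (c : ℕ → ℂ) {l : ℕ} (hl : l < N) :
    ∑ m ∈ Finset.range N, (zetaN N ^ ((l + 1) * m))⁻¹ *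
      ∑ n ∈ Finset.range N, zetaN N ^ ((n + 1) * m) * c n = N * c l := by
  rw [← fourier_inversion c hl]
  refine Finset.sum_congr rfl fun m _ ↦ ?_
  have h0 : zetaN N ^ m ≠ 0 := pow_ne_zero _ (zetaN_ne_zero N)
  have h1 : ∀ n : ℕ, zetaN N ^ ((n + 1) * m) = zetaN N ^ (n * m) * zetaN N ^ m := by
    intro n; rw [← pow_add]; congr 1; ring
  simp_rw [h1, mul_inv, Finset.mul_sum]
  refine Finset.sum_congr rfl fun n _ ↦ ?_
  field_simp

/-! ### Leading sums -/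

/-- The leading sum `∑_{n<N} a_n(f_x)`. -/
def lam (𝒢 : Subgroup (GL (Fin 2) ℝ)) (N : ℕ) (k : ℤ) (f : ℍ → ℂ) (x : Q 𝒢) : ℂ :=
  ∑ n ∈ Finset.range N, co N (tr 𝒢 k f x) n

/-- The cuspidal leading sum `∑_{1 ≤ n ≤ N} a_n(f_x)`. -/
def lamC (𝒢 : Subgroup (GL (Fin 2) ℝ)) (N : ℕ) (k : ℤ) (f : ℍ → ℂ) (x : Q 𝒢) : ℂ :=
  ∑ n ∈ Finset.range N, co N (tr 𝒢 k f x) (n + 1)

theorem co_eq_zero_of_lam_eq_zero (hG : GoodLevel 𝒢 N) {f : ℍ → ℂ} (hf : f ∈ MFG 𝒢 k)
    (h : ∀ x, lam 𝒢 N k f x = 0) (x : Q 𝒢) {n : ℕ} (hn : n < N) : co N (tr 𝒢 k f x) n = 0 := by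
  have hN : (N : ℂ) ≠ 0 := by exact_mod_cast NeZero.ne N
  have h1 := fourier_inversion (N := N) (fun n => co N (tr 𝒢 k f x) n) hn
  have h2 : ∀ m : ℕ, ∑ n ∈ Finset.range N, zetaN N ^ (n * m) * co N (tr 𝒢 k f x) n = 0 := by
    intro m
    rw [← h (((sT)⁻¹) ^ m • x), lam]
    exact Finset.sum_congr rfl fun n _ => (co_tr_smul_T_pow hG hf x m n).symm
  simp only [h2, mul_zero, Finset.sum_const_zero] at h1
  exact (mul_eq_zero.mp h1.symm).resolve_left hN

theorem co_succ_eq_zero_of_lamC_eq_zero (hG : GoodLevel 𝒢 N) {f : ℍ → ℂ} (hf : f ∈ MFG 𝒢 k)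
    (h : ∀ x, lamC 𝒢 N k f x = 0) (x : Q 𝒢) {n : ℕ} (hn : n < N) :
    co N (tr 𝒢 k f x) (n + 1) = 0 := by
  have hN : (N : ℂ) ≠ 0 := by exact_mod_cast NeZero.ne N
  have h1 := fourier_inversion_succ (N := N) (fun n => co N (tr 𝒢 k f x) (n + 1)) hn
  have h2 : ∀ m : ℕ,
      ∑ n ∈ Finset.range N, zetaN N ^ ((n + 1) * m) * co N (tr 𝒢 k f x) (n + 1) = 0 := by
    intro m
    rw [← h (((sT)⁻¹) ^ m • x), lamC]
    exact Finset.sum_congr rfl fun n _ => (co_tr_smul_T_pow hG hf x m (n + 1)).symm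
  simp only [h2, mul_zero, Finset.sum_const_zero] at h1
  exact (mul_eq_zero.mp h1.symm).resolve_left hN

/-! ### Division by `Δ` -/

theorem norm_qParam_pow (z : ℍ) :
    ‖𝕢 (N : ℝ) z‖ ^ N = Real.exp (-2 * π * z.im) := by
  have hN : (N : ℝ) ≠ 0 := by exact_mod_cast NeZero.ne N
  rw [Periodic.norm_qParam, ← Real.exp_nat_mul]
  congr 1
  simp only [coe_im]
  field_simp

theorem discriminant_slash (γ : SL(2, ℤ)) : (Δ ∣[(12 : ℤ)] γ) = Δ := by
  rw [SL_slash]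
  exact SlashInvariantForm.slash_action_eqn CuspForm.discriminant _ ⟨γ, rfl⟩

theorem div_discriminant_slash (k : ℤ) (f : ℍ → ℂ) (γ : SL(2, ℤ)) :
    (fun z ↦ f z / Δ z) ∣[k - 12] γ = fun z ↦ (f ∣[k] γ) z / Δ z := by
  change (f / Δ) ∣[k - 12] γ = (f ∣[k] γ) / Δ
  rw [div_slash_SL2, discriminant_slash]

/-- If the first `M` coefficients of `g` vanish then `g = O(|q_N|^M)`. -/
theorem NiceN.isBigO_of_co_eq_zero {g : ℍ → ℂ} (hg : NiceN N g) (M : ℕ)
    (h : ∀ n < M, co N g n = 0) :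
    g =O[atImInfty] fun τ : ℍ => ‖𝕢 (N : ℝ) τ‖ ^ M := by
  refine (hg.isBigO_sub M).congr_left fun τ => ?_
  rw [Finset.sum_eq_zero (fun n hn => by rw [h n (Finset.mem_range.mp hn), zero_mul]), sub_zero]

/-- **Division by `Δ`**: if all leading coefficients of all translates vanish, then
`f = Δ · g` with `g ∈ M_{k-12}(𝒢)`. -/
theorem exists_eq_discriminant_mul (hG : GoodLevel 𝒢 N) {f : ℍ → ℂ} (hf : f ∈ MFG 𝒢 k)
    (h : ∀ x, ∀ n < N, co N (tr 𝒢 k f x) n = 0) : ∃ g ∈ MFG 𝒢 (k - 12), f = Δ * g := by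
  have hfM := hf
  obtain ⟨F, rfl⟩ := hf
  have hinv : ∀ γ ∈ 𝒢, (fun z ↦ F z / Δ z) ∣[k - 12] γ = fun z ↦ F z / Δ z := by
    intro γ hγ
    obtain ⟨γ', rfl⟩ := hG.le hγ
    have h1 := div_discriminant_slash k (⇑F) γ'
    have h2 : ⇑F ∣[k] γ' = ⇑F := by
      rw [SL_slash]
      exact SlashInvariantForm.slash_action_eqn F _ hγ
    rw [h2] at h1
    exact h1
  have hbdd : ∀ {c : OnePoint ℝ}, IsCusp c 𝒢 → c.IsBoundedAt (fun z ↦ F z / Δ z) (k - 12) := by
    intro c hc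
    rw [Subgroup.IsArithmetic.isCusp_iff_isCusp_SL2Z] at hc
    rw [OnePoint.isBoundedAt_iff_forall_SL2Z hc]
    intro γ _
    rw [div_discriminant_slash k (⇑F) γ, IsBoundedAtImInfty, BoundedAtFilter, slash_eq_tr]
    have h1 := (niceN_tr hG hfM (QuotientGroup.mk ((sl γ)⁻¹) : Q 𝒢)).isBigO_of_co_eq_zero N
      (h _)
    have h2 : tr 𝒢 k (⇑F) (QuotientGroup.mk ((sl γ)⁻¹) : Q 𝒢) =O[atImInfty] Δ := by
      refine h1.trans ?_
      simp_rw [norm_qParam_pow]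
      exact exp_isBigO_discriminant
    exact (div_isBoundedUnder_of_isBigO h2).isBigO_one ℝ
  let g' : ModularForm 𝒢 (k - 12) :=
    { toFun := fun z ↦ F z / Δ z
      slash_action_eq' := hinv
      holo' := F.holo'.div CuspForm.discriminant.holo' discriminant_ne_zero
      bdd_at_cusps' := hbdd }
  refine ⟨fun z ↦ F z / Δ z, ⟨g', rfl⟩, ?_⟩
  funext z
  change F z = Δ z * (F z / Δ z)
  field_simp [discriminant_ne_zero z]

/-- **Division by `Δ`, cuspidal version**. -/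
theorem exists_eq_discriminant_mul_cusp (hG : GoodLevel 𝒢 N) {f : ℍ → ℂ} (hf : f ∈ CFG 𝒢 k)
    (h : ∀ x, ∀ n < N, co N (tr 𝒢 k f x) (n + 1) = 0) : ∃ g ∈ CFG 𝒢 (k - 12), f = Δ * g := by
  have hfC := hf
  obtain ⟨F, rfl⟩ := hf
  have hinv : ∀ γ ∈ 𝒢, (fun z ↦ F z / Δ z) ∣[k - 12] γ = fun z ↦ F z / Δ z := by
    intro γ hγ
    obtain ⟨γ', rfl⟩ := hG.le hγ
    have h1 := div_discriminant_slash k (⇑F) γ'
    have h2 : ⇑F ∣[k] γ' = ⇑F := by
      rw [SL_slash]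
      exact SlashInvariantForm.slash_action_eqn F _ hγ
    rw [h2] at h1
    exact h1
  have hzero : ∀ {c : OnePoint ℝ}, IsCusp c 𝒢 → c.IsZeroAt (fun z ↦ F z / Δ z) (k - 12) := by
    intro c hc
    rw [Subgroup.IsArithmetic.isCusp_iff_isCusp_SL2Z] at hc
    rw [OnePoint.isZeroAt_iff_forall_SL2Z hc]
    intro γ _
    rw [div_discriminant_slash k (⇑F) γ, IsZeroAtImInfty, ZeroAtFilter]
    have hsl : ⇑F ∣[k] γ = tr 𝒢 k (⇑F) (QuotientGroup.mk ((sl γ)⁻¹) : Q 𝒢) :=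
      slash_eq_tr (CuspForm.toModularFormₗ F) γ
    rw [hsl]
    set x : Q 𝒢 := (QuotientGroup.mk ((sl γ)⁻¹) : Q 𝒢) with hx
    have hco : ∀ n < N + 1, co N (tr 𝒢 k (⇑F) x) n = 0 := by
      intro n hn
      rcases Nat.eq_zero_or_pos n with rfl | hpos
      · exact co_tr_cusp_zero hG hfC x
      · obtain ⟨m, rfl⟩ : ∃ m, n = m + 1 := ⟨n - 1, by omega⟩
        exact h x m (by omega)
    have h1 := (niceN_tr_cusp hG hfC x).isBigO_of_co_eq_zero (N + 1) hco
    have h3 : (fun z : ℍ ↦ ‖𝕢 (N : ℝ) z‖ ^ N) =O[atImInfty] Δ := by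
      simp_rw [norm_qParam_pow]
      exact exp_isBigO_discriminant
    have h4 : (fun z : ℍ ↦ (Δ z)⁻¹) =O[atImInfty]
        fun z : ℍ ↦ (‖𝕢 (N : ℝ) z‖ ^ N)⁻¹ := by
      refine h3.inv_rev (Eventually.of_forall fun z hz ↦ ?_)
      exact absurd hz (pow_ne_zero _ (norm_ne_zero_iff.mpr (Periodic.qParam_ne_zero _)))
    have h5 := h1.mul h4
    have h6 : (fun z : ℍ ↦ tr 𝒢 k (⇑F) x z / Δ z) =O[atImInfty]
        fun z : ℍ ↦ ‖𝕢 (N : ℝ) z‖ := by
      refine h5.congr' (Eventually.of_forall fun z ↦ by simp [div_eq_mul_inv])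
        (Eventually.of_forall fun z ↦ ?_)
      have hne : ‖𝕢 (N : ℝ) (z : ℂ)‖ ≠ 0 :=
        norm_ne_zero_iff.mpr (Periodic.qParam_ne_zero _)
      simp only
      rw [pow_succ]
      field_simp
    refine h6.trans_tendsto ?_
    exact tendsto_zero_iff_norm_tendsto_zero.mp (qParam_tendsto_atImInfty natCast_pos')
  let g' : CuspForm 𝒢 (k - 12) :=
    { toFun := fun z ↦ F z / Δ z
      slash_action_eq' := hinv
      holo' := F.holo'.div CuspForm.discriminant.holo' discriminant_ne_zero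
      zero_at_cusps' := hzero }
  refine ⟨fun z ↦ F z / Δ z, ⟨g', rfl⟩, ?_⟩
  funext z
  change F z = Δ z * (F z / Δ z)
  field_simp [discriminant_ne_zero z]

/-! ### Multiplication by level one forms -/

/-- Coefficients (up to index `N`) of the product of a level one form with a nice function. -/
theorem co_RR_mul {a : ℤ} {A h : ℍ → ℂ} (hA : A ∈ RR a) (hh : NiceN N h) {n : ℕ} (hn : n ≤ N)
    (h0 : n = N → co N h 0 = 0) : co N (A * h) n = co N A 0 * co N h n := by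
  rw [co_mul (niceN_of_RR hA) hh]
  refine Finset.sum_eq_single (0, n) (fun p hp hne => ?_) (fun hnot => ?_)
  · rw [Finset.HasAntidiagonal.mem_antidiagonal] at hp
    by_cases hp1 : p.1 < N
    · have hp0 : p.1 ≠ 0 := by
        intro h1
        apply hne
        ext
        · exact h1
        · simp only; omega
      rw [co_of_RR_of_lt hA hp0 hp1, zero_mul]
    · have hpN : n = N := by omega
      have hp2 : p.2 = 0 := by omega
      rw [hp2, h0 hpN, mul_zero]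
  · exact absurd (Finset.HasAntidiagonal.mem_antidiagonal.mpr (zero_add n)) hnot

theorem exists_RR_one {w : ℤ} (hw : 4 ≤ w) (hev : Even w) : ∃ A ∈ RR w, co N A 0 = 1 := by
  obtain ⟨m, rfl⟩ : ∃ m : ℕ, w = (m : ℤ) := ⟨w.toNat, (Int.toNat_of_nonneg (by omega)).symm⟩
  have hm : 3 ≤ m := by omega
  have hev' : Even m := by exact_mod_cast hev
  refine ⟨⇑(ModularForm.E hm), ⟨ModularForm.E hm, rfl⟩, ?_⟩
  rw [co_of_levelOne, if_pos (dvd_zero N), Nat.zero_div]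
  exact EisensteinSeries.E_qExpansion_coeff_zero hm hev'

theorem discriminant_mem_RR : (Δ : ℍ → ℂ) ∈ RR 12 :=
  ⟨CuspForm.toModularFormₗ CuspForm.discriminant, rfl⟩

/-- A level one form, restricted to a subgroup of `SL(2,ℤ)`. -/
def restrictLevel (hle : 𝒢 ≤ 𝒮ℒ) {a : ℤ} (A : ModularForm 𝒮ℒ a) : ModularForm 𝒢 a where
  toFun := A
  slash_action_eq' := fun γ hγ => A.slash_action_eq' γ (hle hγ)
  holo' := A.holo'
  bdd_at_cusps' := fun hc => A.bdd_at_cusps' (hc.mono hle)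

theorem MFG_mul_RR (hle : 𝒢 ≤ 𝒮ℒ) (a b : ℤ) (A f : ℍ → ℂ) (hA : A ∈ RR a) (hf : f ∈ MFG 𝒢 b) :
    A * f ∈ MFG 𝒢 (a + b) := by
  obtain ⟨A', rfl⟩ := hA
  obtain ⟨F, rfl⟩ := hf
  exact ⟨(restrictLevel hle A').mul F, rfl⟩

theorem CFG_mul_RR (hle : 𝒢 ≤ 𝒮ℒ) (a b : ℤ) (A f : ℍ → ℂ) (hA : A ∈ RR a) (hf : f ∈ CFG 𝒢 b) :
    A * f ∈ CFG 𝒢 (a + b) := by
  obtain ⟨A', rfl⟩ := hA
  obtain ⟨F, rfl⟩ := hf
  refine ⟨CuspForm.mcast (add_comm b a) (F.mulModularForm (restrictLevel hle A')), ?_⟩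
  change ⇑F * ⇑A' = ⇑A' * ⇑F
  exact mul_comm _ _

/-! ### Leading matrices of free bases -/

theorem basis_ne_zero (V : ℤ → Submodule ℂ (ℍ → ℂ)) {J : Type} [Fintype J] {κ : J → ℤ}
    {F : J → ℍ → ℂ} (hF : IsFreeBasis V κ F) (j : J) : F j ≠ 0 := by
  classical
  intro hj
  obtain ⟨P, -, hPuniq⟩ := hF.2 (κ j) 0 (zero_mem _)
  have h0 : (fun _ : J => (0 : ℍ → ℂ)) = P := hPuniq _ ⟨fun i => zero_mem _, by simp⟩
  have h1 : (fun i : J => if i = j then (1 : ℍ → ℂ) else 0) = P := by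
    refine hPuniq _ ⟨fun i => ?_, ?_⟩
    · change (if i = j then (1 : ℍ → ℂ) else 0) ∈ RR (κ j - κ i)
      by_cases hi : i = j
      · subst hi
        rw [if_pos rfl, sub_self]
        exact RR_one
      · rw [if_neg hi]
        exact zero_mem _
    · rw [Finset.sum_eq_single j]
      · simp [hj]
      · intro i _ hi
        simp [hi]
      · intro h
        exact absurd (Finset.mem_univ j) h
  have h2 := congrFun (h1.trans h0.symm) j
  simp only [if_true] at h2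
  exact one_ne_zero (congrFun h2 I)

theorem lead_injective_aux (hG : GoodLevel 𝒢 N) (V : ℤ → Submodule ℂ (ℍ → ℂ))
    (hV : ∀ k, V k ≤ MFG 𝒢 k)
    (hmul : ∀ (a b : ℤ) (A f : ℍ → ℂ), A ∈ RR a → f ∈ V b → A * f ∈ V (a + b))
    (ℓ : ℤ → (ℍ → ℂ) → Q 𝒢 → ℂ)
    {J : Type} [Fintype J] (κ : J → ℤ) (F : J → ℍ → ℂ) (hF : IsFreeBasis V κ F)
    (hℓ : ∀ (K : ℤ) (A : J → ℍ → ℂ) (c : J → ℂ), (∀ j, A j ∈ RR (K - κ j)) →
      (∀ j, co N (A j) 0 = 1) →
      ∀ x, ℓ K (∑ j, c j • (A j * F j)) x = ∑ j, c j * ℓ (κ j) (F j) x)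
    (hker : ∀ (K : ℤ) (f : ℍ → ℂ), f ∈ V K → (∀ x, ℓ K f x = 0) →
      ∃ g ∈ V (K - 12), f = Δ * g)
    (c : J → ℂ) (hc : ∀ x, ∑ j, c j * ℓ (κ j) (F j) x = 0) : c = 0 := by
  classical
  have hne := basis_ne_zero V hF
  have hev : ∀ j, Even (κ j) := by
    intro j
    rw [← Int.not_odd_iff_even]
    intro hodd
    obtain ⟨F', hF'⟩ := hV _ (hF.1 j)
    have h0 := ModularForm.eq_zero_of_neg_one_mem hG.neg hodd F'
    apply hne j
    rw [← hF', h0]
    rfl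
  set K : ℤ := 4 + 2 * ∑ i, |κ i| with hK
  have hKj : ∀ j, 4 ≤ K - κ j := by
    intro j
    have h1 : |κ j| ≤ ∑ i, |κ i| :=
      Finset.single_le_sum (f := fun i => |κ i|) (fun i _ => abs_nonneg _) (Finset.mem_univ j)
    have h2 : κ j ≤ |κ j| := le_abs_self _
    have h3 : 0 ≤ |κ j| := abs_nonneg _
    omega
  have hKev : ∀ j, Even (K - κ j) := by
    intro j
    have h1 : Even K := by
      rw [hK]
      exact Even.add (by decide) (even_two_mul _)
    exact h1.sub (hev j)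
  have hA : ∀ j, ∃ A ∈ RR (K - κ j), co N A 0 = 1 := fun j => exists_RR_one (hKj j) (hKev j)
  choose A hAmem hA0 using hA
  set f : ℍ → ℂ := ∑ j, c j • (A j * F j) with hf
  have hfV : f ∈ V K := by
    refine Submodule.sum_mem _ fun j _ => Submodule.smul_mem _ _ ?_
    have h1 := hmul (K - κ j) (κ j) (A j) (F j) (hAmem j) (hF.1 j)
    rwa [sub_add_cancel] at h1
  have hℓ0 : ∀ x, ℓ K f x = 0 := fun x => by rw [hf, hℓ K A c hAmem hA0 x, hc x]
  obtain ⟨g, hg, hfg⟩ := hker K f hfV hℓ0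
  obtain ⟨Qc, ⟨hQmem, hQeq⟩, -⟩ := hF.2 (K - 12) g hg
  obtain ⟨P, -, hPuniq⟩ := hF.2 K f hfV
  have h1 : (fun j => c j • A j) = P := by
    refine hPuniq _ ⟨fun j => Submodule.smul_mem _ _ (hAmem j), ?_⟩
    rw [hf]
    exact Finset.sum_congr rfl fun j _ => by rw [smul_mul_assoc]
  have h2 : (fun j => Δ * Qc j) = P := by
    refine hPuniq _ ⟨fun j => ?_, ?_⟩
    · have h3 := RR_mul discriminant_mem_RR (hQmem j)
      have e : (12 : ℤ) + (K - 12 - κ j) = K - κ j := by ring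
      rwa [e] at h3
    · rw [hfg, hQeq, Finset.mul_sum]
      exact Finset.sum_congr rfl fun j _ => by rw [mul_assoc]
  funext j
  have h3 : c j • A j = Δ * Qc j := congrFun (h1.trans h2.symm) j
  have h4 : co N (c j • A j) 0 = co N (Δ * Qc j) 0 := by rw [h3]
  rw [co_smul _ (niceN_of_RR (hAmem j)), hA0 j, mul_one,
    co_RR_mul discriminant_mem_RR (niceN_of_RR (hQmem j)) (Nat.zero_le N)
      (fun h => absurd h.symm (NeZero.ne N)),
    co_discriminant_of_lt (Nat.pos_of_ne_zero (NeZero.ne N)), zero_mul] at h4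
  exact h4

theorem lam_homog (hG : GoodLevel 𝒢 N) {J : Type} [Fintype J] (κ : J → ℤ) (F : J → ℍ → ℂ)
    (hFm : ∀ j, F j ∈ MFG 𝒢 (κ j)) (K : ℤ) (A : J → ℍ → ℂ) (c : J → ℂ)
    (hA : ∀ j, A j ∈ RR (K - κ j)) (hA0 : ∀ j, co N (A j) 0 = 1) (x : Q 𝒢) :
    lam 𝒢 N K (∑ j, c j • (A j * F j)) x = ∑ j, c j * lam 𝒢 N (κ j) (F j) x := by
  have htr : tr 𝒢 K (∑ j, c j • (A j * F j)) x = ∑ j, c j • (A j * tr 𝒢 (κ j) (F j) x) := by
    rw [tr_sum]
    refine Finset.sum_congr rfl fun j _ => ?_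
    rw [tr_smul]
    congr 1
    have h1 := tr_mul_RR (hA j) (κ j) (F j) x
    rwa [sub_add_cancel] at h1
  have hnice : ∀ j ∈ Finset.univ, NiceN N (c j • (A j * tr 𝒢 (κ j) (F j) x)) :=
    fun j _ => ((niceN_of_RR (hA j)).mul (niceN_tr hG (hFm j) x)).smul (c j)
  unfold lam
  rw [htr]
  simp_rw [co_sum _ _ hnice]
  rw [Finset.sum_comm]
  refine Finset.sum_congr rfl fun j _ => ?_
  rw [Finset.mul_sum]
  refine Finset.sum_congr rfl fun n hn => ?_
  rw [co_smul _ ((niceN_of_RR (hA j)).mul (niceN_tr hG (hFm j) x)),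
    co_RR_mul (hA j) (niceN_tr hG (hFm j) x) (Finset.mem_range.mp hn).le
      (fun h => absurd h (Finset.mem_range.mp hn).ne), hA0 j, one_mul]

theorem lamC_homog (hG : GoodLevel 𝒢 N) {J : Type} [Fintype J] (κ : J → ℤ) (F : J → ℍ → ℂ)
    (hFm : ∀ j, F j ∈ CFG 𝒢 (κ j)) (K : ℤ) (A : J → ℍ → ℂ) (c : J → ℂ)
    (hA : ∀ j, A j ∈ RR (K - κ j)) (hA0 : ∀ j, co N (A j) 0 = 1) (x : Q 𝒢) :
    lamC 𝒢 N K (∑ j, c j • (A j * F j)) x = ∑ j, c j * lamC 𝒢 N (κ j) (F j) x := by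
  have htr : tr 𝒢 K (∑ j, c j • (A j * F j)) x = ∑ j, c j • (A j * tr 𝒢 (κ j) (F j) x) := by
    rw [tr_sum]
    refine Finset.sum_congr rfl fun j _ => ?_
    rw [tr_smul]
    congr 1
    have h1 := tr_mul_RR (hA j) (κ j) (F j) x
    rwa [sub_add_cancel] at h1
  have hnice : ∀ j ∈ Finset.univ, NiceN N (c j • (A j * tr 𝒢 (κ j) (F j) x)) :=
    fun j _ => ((niceN_of_RR (hA j)).mul (niceN_tr_cusp hG (hFm j) x)).smul (c j)
  unfold lamC
  rw [htr]
  simp_rw [co_sum _ _ hnice]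
  rw [Finset.sum_comm]
  refine Finset.sum_congr rfl fun j _ => ?_
  rw [Finset.mul_sum]
  refine Finset.sum_congr rfl fun n hn => ?_
  rw [co_smul _ ((niceN_of_RR (hA j)).mul (niceN_tr_cusp hG (hFm j) x)),
    co_RR_mul (hA j) (niceN_tr_cusp hG (hFm j) x) (Nat.succ_le_of_lt (Finset.mem_range.mp hn))
      (fun _ => co_tr_cusp_zero hG (hFm j) x), hA0 j, one_mul]

/-- The leading matrix of a free basis of `MFG 𝒢` has linearly independent columns. -/
theorem lam_injective (hG : GoodLevel 𝒢 N) {J : Type} [Fintype J] (κ : J → ℤ) (F : J → ℍ → ℂ)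
    (hF : IsFreeBasis (MFG 𝒢) κ F) (c : J → ℂ)
    (hc : ∀ x, ∑ j, c j * lam 𝒢 N (κ j) (F j) x = 0) : c = 0 :=
  lead_injective_aux hG (MFG 𝒢) (fun _ => le_rfl) (MFG_mul_RR hG.le) (lam 𝒢 N) κ F hF
    (lam_homog hG κ F hF.1)
    (fun _ _ hf h => exists_eq_discriminant_mul hG hf
      (fun x _ hn => co_eq_zero_of_lam_eq_zero hG hf h x hn)) c hc

/-- The cuspidal leading matrix of a free basis of `CFG 𝒢` has linearly independent columns. -/
theorem lamC_injective (hG : GoodLevel 𝒢 N) {J : Type} [Fintype J] (κ : J → ℤ) (F : J → ℍ → ℂ)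
    (hF : IsFreeBasis (CFG 𝒢) κ F) (c : J → ℂ)
    (hc : ∀ x, ∑ j, c j * lamC 𝒢 N (κ j) (F j) x = 0) : c = 0 :=
  lead_injective_aux hG (CFG 𝒢) (fun _ _ h => CFG_le_MFG h) (CFG_mul_RR hG.le) (lamC 𝒢 N) κ F hF
    (lamC_homog hG κ F hF.1)
    (fun _ _ hf h => exists_eq_discriminant_mul_cusp hG hf
      (fun x _ hn => co_succ_eq_zero_of_lamC_eq_zero hG (CFG_le_MFG hf) h x hn)) c hc

/-! ### The pairing at `i∞` -/

/-- Non-resonant sums of products of coefficients vanish (reindex by `x ↦ T⁻¹ x`). -/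
theorem sum_co_mul_co_eq_zero (hG : GoodLevel 𝒢 N) {a b : ℤ} {f g : ℍ → ℂ} (hf : f ∈ MFG 𝒢 a)
    (hg : g ∈ MFG 𝒢 b) (n m : ℕ) (h : ¬ N ∣ n + m) :
    ∑ x : Q 𝒢, co N (tr 𝒢 a f x) n * co N (tr 𝒢 b g x) m = 0 := by
  set S := ∑ x : Q 𝒢, co N (tr 𝒢 a f x) n * co N (tr 𝒢 b g x) m with hS
  have h1 : S = zetaN N ^ (n + m) * S := by
    have h2 := Equiv.sum_comp (MulAction.toPerm ((sT)⁻¹ : 𝒮ℒ))
      (fun x : Q 𝒢 => co N (tr 𝒢 a f x) n * co N (tr 𝒢 b g x) m)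
    calc S = ∑ x : Q 𝒢, co N (tr 𝒢 a f ((MulAction.toPerm ((sT)⁻¹ : 𝒮ℒ)) x)) n *
          co N (tr 𝒢 b g ((MulAction.toPerm ((sT)⁻¹ : 𝒮ℒ)) x)) m := h2.symm
      _ = ∑ x : Q 𝒢, zetaN N ^ (n + m) * (co N (tr 𝒢 a f x) n * co N (tr 𝒢 b g x) m) := by
          refine Finset.sum_congr rfl fun x _ => ?_
          simp only [MulAction.toPerm_apply]
          rw [co_tr_smul_T hG hf, co_tr_smul_T hG hg, pow_add]
          ring
      _ = zetaN N ^ (n + m) * S := by rw [Finset.mul_sum]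
  have h3 : zetaN N ^ (n + m) ≠ 1 := by
    intro h4
    exact h ((zetaN_isPrimitiveRoot (N := N)).pow_eq_one_iff_dvd _ |>.mp h4)
  have h5 : (1 - zetaN N ^ (n + m)) * S = 0 := by linear_combination h1
  exact (mul_eq_zero.mp h5).resolve_left (sub_ne_zero.mpr (Ne.symm h3))

/-- The limit at `i∞` of the trace pairing divided by `Δ` is the pairing of leading sums. -/
theorem tendsto_pairFun_div (hG : GoodLevel 𝒢 N) {a b : ℤ} {f g : ℍ → ℂ} (hf : f ∈ MFG 𝒢 a)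
    (hg : g ∈ CFG 𝒢 b) :
    Tendsto (fun z : ℍ => pairFun 𝒢 a b f g z / Δ z) atImInfty
      (𝓝 (∑ x : Q 𝒢, lam 𝒢 N a f x * lamC 𝒢 N b g x)) := by
  have hgM := CFG_le_MFG hg
  obtain ⟨B, hBmem, hBeq⟩ := pairFun_mem 𝒢 a b hf hg
  set C : ℕ → ℕ → ℂ := fun n m => ∑ x : Q 𝒢, co N (tr 𝒢 a f x) n * co N (tr 𝒢 b g x) m with hC
  have hPB : ∑ x : Q 𝒢, tr 𝒢 a f x * tr 𝒢 b g x = Δ * B := by
    funext z
    rw [Pi.mul_apply, ← hBeq z]
    simp [pairFun, Finset.sum_apply]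
  have hnice : ∀ x ∈ (Finset.univ : Finset (Q 𝒢)), NiceN N (tr 𝒢 a f x * tr 𝒢 b g x) :=
    fun x _ => (niceN_tr hG hf x).mul (niceN_tr hG hgM x)
  -- Step A: the constant term of `B`
  have hA : co N B 0 = ∑ n ∈ Finset.range N, C n (N - n) := by
    have h1 : co N (Δ * B) N = co N B 0 := by
      rw [co_mul (niceN_of_RR discriminant_mem_RR) (niceN_of_RR hBmem),
        Finset.sum_eq_single (N, 0)]
      · rw [co_discriminant_self, one_mul]
      · intro p hp hne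
        rw [Finset.HasAntidiagonal.mem_antidiagonal] at hp
        have hp1 : p.1 < N := by
          by_contra hcon
          apply hne
          ext
          · simp only; omega
          · simp only; omega
        rw [co_discriminant_of_lt hp1, zero_mul]
      · intro hnot
        exact absurd (Finset.HasAntidiagonal.mem_antidiagonal.mpr (add_zero N)) hnot
    rw [← h1, ← hPB, co_sum _ _ hnice]
    simp_rw [co_mul (niceN_tr hG hf _) (niceN_tr hG hgM _)]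
    rw [Finset.sum_comm, Finset.Nat.sum_antidiagonal_eq_sum_range_succ_mk, Finset.sum_range_succ]
    have h2 : ∑ x : Q 𝒢, co N (tr 𝒢 a f x) N * co N (tr 𝒢 b g x) (N - N) = 0 := by
      refine Finset.sum_eq_zero fun x _ => ?_
      rw [Nat.sub_self, co_tr_cusp_zero hG hg x, mul_zero]
    rw [h2, add_zero]
  -- Step B: the pairing of leading sums
  have hB : ∑ x : Q 𝒢, lam 𝒢 N a f x * lamC 𝒢 N b g x = ∑ n ∈ Finset.range N, C n (N - n) := by
    have h1 : ∑ x : Q 𝒢, lam 𝒢 N a f x * lamC 𝒢 N b g x =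
        ∑ n ∈ Finset.range N, ∑ m ∈ Finset.range N, C n (m + 1) := by
      simp only [lam, lamC, hC, Finset.sum_mul_sum]
      rw [Finset.sum_comm]
      refine Finset.sum_congr rfl fun n _ => ?_
      rw [Finset.sum_comm]
    rw [h1]
    refine Finset.sum_congr rfl fun n hn => ?_
    have hn' := Finset.mem_range.mp hn
    rw [Finset.sum_eq_single (N - n - 1)]
    · congr 1
      omega
    · intro m hm hne
      have hm' := Finset.mem_range.mp hm
      refine sum_co_mul_co_eq_zero hG hf hgM n (m + 1) fun hdvd => ?_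
      obtain ⟨t, ht⟩ := hdvd
      have ht1 : t = 1 := by
        have h2 : 0 < t := by
          rcases Nat.eq_zero_or_pos t with rfl | h3
          · omega
          · exact h3
        have h3 : t < 2 := by
          by_contra h4
          have h5 : N * 2 ≤ N * t := Nat.mul_le_mul_left N (by omega)
          omega
        omega
      subst ht1
      apply hne
      omega
    · intro hnot
      exact absurd (Finset.mem_range.mpr (by omega)) hnot
  rw [hB, ← hA]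
  refine ((niceN_of_RR (N := N) hBmem).tendsto).congr fun z => ?_
  rw [hBeq z, mul_div_cancel_left₀ _ (discriminant_ne_zero z)]

/-- **The analytic half of `Goal_Dual`.** -/
theorem leadPairing (hG : GoodLevel 𝒢 N) : LeadPairing 𝒢 := by
  classical
  intro κ κ' F G hF hG'
  set M : Matrix (Q 𝒢) (Q 𝒢) ℂ := Matrix.of fun x j => lam 𝒢 N (κ j) (F j) x with hM
  set M' : Matrix (Q 𝒢) (Q 𝒢) ℂ := Matrix.of fun x l => lamC 𝒢 N (κ' l) (G l) x with hM'
  have hdet : M.det ≠ 0 := by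
    intro h0
    obtain ⟨v, hv, hMv⟩ := Matrix.exists_mulVec_eq_zero_iff.mpr h0
    apply hv
    refine lam_injective hG κ F hF v fun x => ?_
    have h1 := congrFun hMv x
    simp only [Matrix.mulVec, dotProduct, hM, Matrix.of_apply, Pi.zero_apply] at h1
    rw [← h1]
    exact Finset.sum_congr rfl fun j _ => mul_comm _ _
  have hdet' : M'.det ≠ 0 := by
    intro h0
    obtain ⟨v, hv, hMv⟩ := Matrix.exists_mulVec_eq_zero_iff.mpr h0
    apply hv
    refine lamC_injective hG κ' G hG' v fun x => ?_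
    have h1 := congrFun hMv x
    simp only [Matrix.mulVec, dotProduct, hM', Matrix.of_apply, Pi.zero_apply] at h1
    rw [← h1]
    exact Finset.sum_congr rfl fun j _ => mul_comm _ _
  refine ⟨M.transpose * M', ?_, fun j l => ?_⟩
  · rw [Matrix.det_mul, Matrix.det_transpose]
    exact mul_ne_zero hdet hdet'
  · have h1 := tendsto_pairFun_div hG (hF.1 j) (hG'.1 l)
    have h2 : (M.transpose * M') j l =
        ∑ x : Q 𝒢, lam 𝒢 N (κ j) (F j) x * lamC 𝒢 N (κ' l) (G l) x := by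
      simp [Matrix.mul_apply, hM, hM']
    rw [h2]
    exact h1

/-- `helper560_Spec.Goal_Dual`. -/
theorem goal_Dual : Goal_Dual := by
  intro 𝒢 _ _ N hG
  have : NeZero N := ⟨hG.pos.ne'⟩
  exact stmt_Dual_of_leadPairing 𝒢 (leadPairing hG)

end

end Fermat.Agent.S20.helper648
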