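/-
S20 (seat helper7243): `Goal_BasisM` of `helper560_Spec`, from a free homogeneous basis with an
arbitrary index type (as provided by `helper1161_Free`) and a seed.

Method ("trace trick"): with a seed `h` of weight `w` whose translates `h_q` are pairwise distinct,
`f ↦ (∑_q f_q h_q^i)_{i < μ}` embeds `M_k(𝒢)` into `⨁_{i<μ} M_{k+iw}(SL₂(ℤ))`; comparing with the
Hilbert function of a free family gives "at most `μ` generators".  The Vandermonde matrix of the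
`h_q` at a generic point gives "at least `μ` generators" and the invertibility of the fundamental
matrix at that point.
-/
import Fermat.Agent.S20.helper3006_Basic
import Fermat.Agent.S20.helper1161_Free

set_option autoImplicit false

open UpperHalfPlane ModularForm
open scoped MatrixGroups Manifold Pointwise Matrix

namespace Fermat.Agent.S20.helper7243

open Fermat.Agent.S20.helper560

noncomputable section

/-! ### Translates -/

section translates

variable (𝒢 : Subgroup (GL (Fin 2) ℝ))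

/-- An element of `SL(2,ℤ)` inducing the translate attached to the coset `q`. -/
def rep (q : Q 𝒢) : SL(2, ℤ) := (Classical.choose (q.out : 𝒮ℒ).2)⁻¹

theorem mapGL_rep (q : Q 𝒢) :
    Matrix.SpecialLinearGroup.mapGL ℝ (rep 𝒢 q) = ((q.out : 𝒮ℒ) : GL (Fin 2) ℝ)⁻¹ := by
  unfold rep
  rw [map_inv, Classical.choose_spec (q.out : 𝒮ℒ).2]

theorem tr_eq_slash (k : ℤ) (f : ℍ → ℂ) (q : Q 𝒢) : tr 𝒢 k f q = f ∣[k] (rep 𝒢 q) := by
  unfold tr
  rw [← mapGL_rep]
  rfl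

theorem tr_add (k : ℤ) (f g : ℍ → ℂ) (q : Q 𝒢) :
    tr 𝒢 k (f + g) q = tr 𝒢 k f q + tr 𝒢 k g q := by
  simp only [tr_eq_slash, SlashAction.add_slash]

theorem tr_smul (k : ℤ) (c : ℂ) (f : ℍ → ℂ) (q : Q 𝒢) :
    tr 𝒢 k (c • f) q = c • tr 𝒢 k f q := by
  simp only [tr_eq_slash, ModularForm.SL_smul_slash]

theorem tr_sum {ι : Type*} (s : Finset ι) (k : ℤ) (f : ι → ℍ → ℂ) (q : Q 𝒢) :
    tr 𝒢 k (∑ i ∈ s, f i) q = ∑ i ∈ s, tr 𝒢 k (f i) q := by
  simp only [tr_eq_slash, SlashAction.sum_slash]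

theorem tr_mul (a b : ℤ) (f g : ℍ → ℂ) (q : Q 𝒢) :
    tr 𝒢 (a + b) (f * g) q = tr 𝒢 a f q * tr 𝒢 b g q := by
  simp only [tr_eq_slash, ModularForm.mul_slash_SL2]

theorem tr_mul' {k : ℤ} (a b : ℤ) (hk : k = a + b) (f g : ℍ → ℂ) (q : Q 𝒢) :
    tr 𝒢 k (f * g) q = tr 𝒢 a f q * tr 𝒢 b g q := by
  subst hk
  exact tr_mul 𝒢 a b f g q

theorem tr_levelOne {a : ℤ} {P : ℍ → ℂ} (hP : P ∈ RR a) (q : Q 𝒢) : tr 𝒢 a P q = P := by
  obtain ⟨P, rfl⟩ := hP
  rw [tr_eq_slash]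
  exact SlashInvariantFormClass.slash_action_eq P _ ⟨rep 𝒢 q, rfl⟩

theorem tr_one (q : Q 𝒢) : tr 𝒢 0 (1 : ℍ → ℂ) q = 1 := by
  rw [tr_eq_slash]
  exact ModularForm.is_invariant_one _

theorem tr_pow (w : ℤ) (h : ℍ → ℂ) (n : ℕ) (q : Q 𝒢) :
    tr 𝒢 (n * w) (h ^ n) q = (tr 𝒢 w h q) ^ n := by
  induction n with
  | zero =>
    simp only [Nat.cast_zero, zero_mul, pow_zero]
    exact tr_one 𝒢 q
  | succ n ih =>
    rw [pow_succ, pow_succ, tr_mul' 𝒢 (n * w) w (by push_cast; ring), ih]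

theorem tr_eq_zero_iff (k : ℤ) (f : ℍ → ℂ) (q : Q 𝒢) : tr 𝒢 k f q = 0 ↔ f = 0 := by
  rw [tr_eq_slash]
  exact SlashAction.slash_eq_zero_iff k _ f

end translates

/-! ### The seed: pairwise distinct translates and a generic point -/

section seed

variable (𝒢 : Subgroup (GL (Fin 2) ℝ)) [𝒢.IsArithmetic] [𝒢.HasDetOne]

omit [𝒢.IsArithmetic] in
theorem mdiff_tr {k : ℤ} {f : ℍ → ℂ} (hf : f ∈ MFG 𝒢 k) (q : Q 𝒢) : MDiff (tr 𝒢 k f q) := by
  obtain ⟨F, rfl⟩ := hf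
  unfold tr
  exact MDifferentiable.slash (ModularFormClass.holo F) k _

omit [𝒢.IsArithmetic] [𝒢.HasDetOne] in
/-- The translates of a seed are pairwise distinct. -/
theorem tr_injective_of_seed {w : ℤ} {h : ℍ → ℂ}
    (hstab : ∀ γ : SL(2, ℤ), h ∣[w] γ = h → Matrix.SpecialLinearGroup.mapGL ℝ γ ∈ 𝒢) :
    Function.Injective (tr 𝒢 w h) := by
  intro q q' hqq
  rw [tr_eq_slash, tr_eq_slash] at hqq
  have h1 : h ∣[w] (rep 𝒢 q * (rep 𝒢 q')⁻¹) = h := by
    rw [SlashAction.slash_mul, hqq, ← SlashAction.slash_mul, mul_inv_cancel, SlashAction.slash_one]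
  have h2 := hstab _ h1
  rw [map_mul, map_inv, mapGL_rep, mapGL_rep, inv_inv] at h2
  have h3 : (q.out : 𝒮ℒ)⁻¹ * (q'.out : 𝒮ℒ) ∈ 𝒢.subgroupOf 𝒮ℒ := by
    rw [Subgroup.mem_subgroupOf]
    exact h2
  have h4 : ((q.out : 𝒮ℒ) : Q 𝒢) = ((q'.out : 𝒮ℒ) : Q 𝒢) := QuotientGroup.eq.mpr h3
  rw [QuotientGroup.out_eq', QuotientGroup.out_eq'] at h4
  exact h4

/-- A point of `ℍ` at which the translates of the seed take pairwise distinct values, and at
which a given nonzero holomorphic function does not vanish. -/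
theorem exists_generic_point {w : ℤ} {h : ℍ → ℂ} (hh : h ∈ MFG 𝒢 w)
    (hstab : ∀ γ : SL(2, ℤ), h ∣[w] γ = h → Matrix.SpecialLinearGroup.mapGL ℝ γ ∈ 𝒢)
    {g : ℍ → ℂ} (hg : MDiff g) (hg0 : g ≠ 0) :
    ∃ z : ℍ, g z ≠ 0 ∧ Function.Injective (fun q : Q 𝒢 => tr 𝒢 w h q z) := by
  classical
  have hinj := tr_injective_of_seed 𝒢 hstab
  set D : ℍ → ℂ := g * ∏ p ∈ (Finset.univ : Finset (Q 𝒢 × Q 𝒢)).filter (fun p => p.1 ≠ p.2),
    (tr 𝒢 w h p.1 - tr 𝒢 w h p.2) with hD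
  have hmd : ∀ p ∈ (Finset.univ : Finset (Q 𝒢 × Q 𝒢)).filter (fun p => p.1 ≠ p.2),
      MDiff (tr 𝒢 w h p.1 - tr 𝒢 w h p.2) := fun p _ =>
    (mdiff_tr 𝒢 hh p.1).sub (mdiff_tr 𝒢 hh p.2)
  have hprod : MDiff (∏ p ∈ (Finset.univ : Finset (Q 𝒢 × Q 𝒢)).filter (fun p => p.1 ≠ p.2),
      (tr 𝒢 w h p.1 - tr 𝒢 w h p.2)) := MDifferentiable.prod hmd
  have hD0 : D ≠ 0 := by
    intro h0
    rcases (UpperHalfPlane.mul_eq_zero_iff hg hprod).mp h0 with h1 | h1
    · exact hg0 h1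
    · obtain ⟨p, hp, hp0⟩ := (UpperHalfPlane.prod_eq_zero_iff hmd).mp h1
      exact (Finset.mem_filter.mp hp).2 (hinj (sub_eq_zero.mp hp0))
  obtain ⟨z, hz⟩ : ∃ z, D z ≠ 0 := by
    by_contra hcon
    exact hD0 (funext fun z => by_contra fun hz => hcon ⟨z, hz⟩)
  refine ⟨z, fun hgz => hz ?_, fun q q' hqq => ?_⟩
  · simp [hD, hgz]
  · by_contra hne
    apply hz
    rw [hD, Pi.mul_apply, Finset.prod_apply]
    refine mul_eq_zero_of_right _ (Finset.prod_eq_zero (i := (q, q')) ?_ ?_)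
    · exact Finset.mem_filter.mpr ⟨Finset.mem_univ _, hne⟩
    · simpa [sub_eq_zero] using hqq

end seed

/-! ### Vandermonde inversion -/

/-- If the `x q` are pairwise distinct and `∑ q, c q * x q ^ i = 0` for all `i < card`, then
`c = 0`. -/
theorem eq_zero_of_sum_mul_pow_eq_zero {Qt : Type*} [Fintype Qt] (x : Qt → ℂ)
    (hx : Function.Injective x) (c : Qt → ℂ)
    (hc : ∀ i : ℕ, i < Fintype.card Qt → ∑ q, c q * x q ^ i = 0) : c = 0 := by
  classical
  set e := Fintype.equivFin Qt with he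
  have hdet : (Matrix.vandermonde (x ∘ e.symm)).det ≠ 0 :=
    Matrix.det_vandermonde_ne_zero_iff.mpr (hx.comp e.symm.injective)
  have hv : (c ∘ e.symm) ᵥ* Matrix.vandermonde (x ∘ e.symm) = 0 := by
    funext i
    have := hc i i.2
    rw [← Equiv.sum_comp e.symm] at this
    simpa [Matrix.vecMul, dotProduct, Matrix.vandermonde_apply] using this
  have h0 := Matrix.eq_zero_of_vecMul_eq_zero hdet hv
  funext q
  have := congrFun h0 (e q)
  simpa using this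

/-! ### The trace embedding and the upper bound for the Hilbert function -/

section theta

variable (𝒢 : Subgroup (GL (Fin 2) ℝ)) [𝒢.IsArithmetic] [𝒢.HasDetOne]

omit [𝒢.IsArithmetic] in
theorem MFG_mul {a b : ℤ} {f g : ℍ → ℂ} (hf : f ∈ MFG 𝒢 a) (hg : g ∈ MFG 𝒢 b) :
    f * g ∈ MFG 𝒢 (a + b) := by
  obtain ⟨F, rfl⟩ := hf
  obtain ⟨G, rfl⟩ := hg
  exact ⟨F.mul G, rfl⟩

omit [𝒢.IsArithmetic] in
theorem MFG_pow {w : ℤ} {h : ℍ → ℂ} (hh : h ∈ MFG 𝒢 w) (n : ℕ) : h ^ n ∈ MFG 𝒢 (n * w) := by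
  induction n with
  | zero =>
    have : ((0 : ℕ) : ℤ) * w = 0 := by simp
    rw [this, pow_zero]
    exact ⟨ModularForm.const 1, by ext z; simp⟩
  | succ n ih =>
    have : ((n + 1 : ℕ) : ℤ) * w = n * w + w := by push_cast; ring
    rw [this, pow_succ]
    exact MFG_mul 𝒢 ih hh

/-- The trace to level one, at the level of functions. -/
theorem sum_tr_mem_RR {k : ℤ} {g : ℍ → ℂ} (hg : g ∈ MFG 𝒢 k) : ∑ q, tr 𝒢 k g q ∈ RR k := by
  obtain ⟨G, rfl⟩ := hg
  refine ⟨ModularForm.trace 𝒮ℒ G, ?_⟩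
  rw [ModularForm.coe_trace]
  exact (Finset.sum_congr rfl fun q _ => tr_eq_quotientFunc G q).symm

/-- The `i`-th component of the trace embedding: `f ↦ ∑_q f_q h_q^i`. -/
def thetaFun (k w : ℤ) (h : ℍ → ℂ) (i : ℕ) (f : ℍ → ℂ) : ℍ → ℂ :=
  ∑ q, tr 𝒢 (k + i * w) (f * h ^ i) q

omit [𝒢.HasDetOne] in
theorem thetaFun_apply (k w : ℤ) (h : ℍ → ℂ) (i : ℕ) (f : ℍ → ℂ) (z : ℍ) :
    thetaFun 𝒢 k w h i f z = ∑ q, tr 𝒢 k f q z * (tr 𝒢 w h q z) ^ i := by
  unfold thetaFun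
  rw [Finset.sum_apply]
  refine Finset.sum_congr rfl fun q _ => ?_
  rw [tr_mul, tr_pow]
  rfl

/-- The `i`-th component of the trace embedding as a linear map. -/
def thetaLin {w : ℤ} {h : ℍ → ℂ} (hh : h ∈ MFG 𝒢 w) (k : ℤ) (i : ℕ) :
    MFG 𝒢 k →ₗ[ℂ] RR (k + i * w) where
  toFun f := ⟨thetaFun 𝒢 k w h i f, sum_tr_mem_RR 𝒢 (MFG_mul 𝒢 f.2 (MFG_pow 𝒢 hh i))⟩
  map_add' f g := by
    apply Subtype.ext
    funext z
    simp only [Submodule.coe_add, Pi.add_apply, thetaFun_apply, tr_add, add_mul,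
      Finset.sum_add_distrib]
  map_smul' c f := by
    apply Subtype.ext
    funext z
    simp only [Submodule.coe_smul, Pi.smul_apply, thetaFun_apply, tr_smul, smul_eq_mul,
      RingHom.id_apply, Finset.mul_sum, mul_assoc]

/-- The trace embedding. -/
def theta {w : ℤ} {h : ℍ → ℂ} (hh : h ∈ MFG 𝒢 w) (k : ℤ) :
    MFG 𝒢 k →ₗ[ℂ] ((i : Fin (mu 𝒢)) → RR (k + (i : ℕ) * w)) :=
  LinearMap.pi fun i => thetaLin 𝒢 hh k i

theorem theta_injective {w : ℤ} {h : ℍ → ℂ} (hh : h ∈ MFG 𝒢 w)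
    (hstab : ∀ γ : SL(2, ℤ), h ∣[w] γ = h → Matrix.SpecialLinearGroup.mapGL ℝ γ ∈ 𝒢) (k : ℤ) :
    Function.Injective (theta 𝒢 hh k) := by
  rw [injective_iff_map_eq_zero]
  intro f hf
  have h1 : ∀ i : ℕ, i < Fintype.card (Q 𝒢) → ∀ z,
      ∑ q, tr 𝒢 k f.1 q z * (tr 𝒢 w h q z) ^ i = 0 := by
    intro i hi z
    have hi' : i < mu 𝒢 := by
      unfold mu
      rwa [Nat.card_eq_fintype_card]
    have h2 := congrFun hf ⟨i, hi'⟩
    have h3 : thetaFun 𝒢 k w h i f.1 = 0 := congrArg Subtype.val h2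
    rw [← thetaFun_apply, h3]
    rfl
  by_contra hne
  have hf0 : f.1 ≠ 0 := fun h0 => hne (Subtype.ext h0)
  let q0 : Q 𝒢 := ((1 : 𝒮ℒ) : Q 𝒢)
  have hg0 : tr 𝒢 k f.1 q0 ≠ 0 := fun h0 => hf0 ((tr_eq_zero_iff 𝒢 k f.1 q0).mp h0)
  obtain ⟨z, hz, hinj⟩ := exists_generic_point 𝒢 hh hstab (mdiff_tr 𝒢 f.2 q0) hg0
  have h4 := eq_zero_of_sum_mul_pow_eq_zero (fun q => tr 𝒢 w h q z) hinj
    (fun q => tr 𝒢 k f.1 q z) (fun i hi => h1 i hi z)
  exact hz (congrFun h4 q0)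

/-- Upper bound for the Hilbert function of `M_*(𝒢)`. -/
theorem finrank_MFG_le_sum {w : ℤ} {h : ℍ → ℂ} (hh : h ∈ MFG 𝒢 w)
    (hstab : ∀ γ : SL(2, ℤ), h ∣[w] γ = h → Matrix.SpecialLinearGroup.mapGL ℝ γ ∈ 𝒢) (k : ℤ) :
    Module.finrank ℂ (MFG 𝒢 k) ≤
      ∑ i ∈ Finset.range (mu 𝒢), Module.finrank ℂ (RR (k + (i : ℕ) * w)) := by
  have h1 := LinearMap.finrank_le_finrank_of_injective (theta_injective 𝒢 hh hstab k)
  rw [Module.finrank_pi_fintype] at h1
  rw [Finset.sum_range]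
  exact h1

end theta

/-! ### Lower bound for the Hilbert function from an independent family -/

section lower

variable (𝒢 : Subgroup (GL (Fin 2) ℝ)) [𝒢.IsArithmetic] [𝒢.HasDetOne]

/-- A finite subfamily of an independent homogeneous family injects
`⨁_{j ∈ T} M_{k - κ j}(SL₂(ℤ))` into `M_k(𝒢)`. -/
theorem sum_finrank_le (hle : 𝒢 ≤ 𝒮ℒ) {J : Type} (κ : J → ℤ) (F : J → ℍ → ℂ)
    (hmem : ∀ j, F j ∈ MFG 𝒢 (κ j))
    (hind : ∀ k, ∀ P : J →₀ (ℍ → ℂ), (∀ j, P j ∈ RR (k - κ j)) →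
      (P.sum fun j p => p * F j) = 0 → P = 0)
    (T : Finset J) (k : ℤ) [Module.Finite ℂ (MFG 𝒢 k)] :
    ∑ j ∈ T, Module.finrank ℂ (RR (k - κ j)) ≤ Module.finrank ℂ (MFG 𝒢 k) := by
  classical
  have hmemk : ∀ (P : (j : T) → RR (k - κ j)), ∑ j : T, (P j : ℍ → ℂ) * F j ∈ MFG 𝒢 k := by
    intro P
    refine Submodule.sum_mem _ fun j _ => ?_
    have := helper3006.RR_mul_MFG 𝒢 hle (k - κ j) (κ j) (P j) (F j) (P j).2 (hmem j)
    rwa [sub_add_cancel] at this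
  let Ψ : ((j : T) → RR (k - κ j)) →ₗ[ℂ] MFG 𝒢 k :=
    { toFun := fun P => ⟨∑ j : T, (P j : ℍ → ℂ) * F j, hmemk P⟩
      map_add' := fun P P' => by
        apply Subtype.ext
        simp only [Pi.add_apply, Submodule.coe_add, add_mul, Finset.sum_add_distrib]
      map_smul' := fun c P => by
        apply Subtype.ext
        simp only [Pi.smul_apply, Submodule.coe_smul, smul_mul_assoc, Finset.smul_sum,
          RingHom.id_apply] }
  have hΨ : Function.Injective Ψ := by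
    rw [injective_iff_map_eq_zero]
    intro P hP
    have hP0 : ∑ j : T, (P j : ℍ → ℂ) * F j = 0 := congrArg Subtype.val hP
    set P' : J →₀ (ℍ → ℂ) := Finsupp.indicator T (fun j hj => (P ⟨j, hj⟩ : ℍ → ℂ)) with hP'
    have hmem' : ∀ j, P' j ∈ RR (k - κ j) := by
      intro j
      by_cases hj : j ∈ T
      · rw [hP', Finsupp.indicator_of_mem hj]
        exact (P ⟨j, hj⟩).2
      · rw [hP', Finsupp.indicator_of_notMem hj]
        exact Submodule.zero_mem _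
    have hsum : (P'.sum fun j p => p * F j) = 0 := by
      rw [Finsupp.sum_of_support_subset P' (Finsupp.support_indicator_subset _ _)
        (fun j p => p * F j) (fun j _ => zero_mul _), ← Finset.sum_attach]
      rw [← hP0, ← Finset.univ_eq_attach]
      refine Finset.sum_congr rfl fun j _ => ?_
      rw [hP', Finsupp.indicator_of_mem j.2]
    have hzero := hind k P' hmem' hsum
    funext j
    apply Subtype.ext
    have := DFunLike.congr_fun hzero j.1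
    rw [hP', Finsupp.indicator_of_mem j.2] at this
    exact this
  have h1 := LinearMap.finrank_le_finrank_of_injective hΨ
  rw [Module.finrank_pi_fintype] at h1
  rw [← Finset.sum_coe_sort T (fun j => Module.finrank ℂ (RR (k - κ j)))]
  exact h1

end lower

/-! ### Arithmetic of the level one dimensions -/

theorem rr_lower (m : ℤ) (hm : Even m) : m - 10 ≤ 12 * (Module.finrank ℂ (RR m) : ℤ) := by
  rw [helper3006.goal_RRdim m]
  have hodd : ¬ Odd m := by rwa [Int.not_odd_iff_even]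
  obtain ⟨a, ha⟩ := hm
  split_ifs with h1 h2
  · rcases h1 with h1 | h1
    · omega
    · exact absurd h1 hodd
  · have : 0 ≤ m / 12 := by omega
    rw [Int.toNat_of_nonneg this]
    omega
  · push_cast
    have : 0 ≤ m / 12 := by omega
    rw [Int.toNat_of_nonneg this]
    omega

theorem rr_upper (m M : ℤ) (hmM : m ≤ M) (hM : 0 ≤ M) :
    12 * (Module.finrank ℂ (RR m) : ℤ) ≤ M + 12 := by
  rw [helper3006.goal_RRdim m]
  split_ifs with h1 h2
  · omega
  · have : 0 ≤ m / 12 := by omega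
    rw [Int.toNat_of_nonneg this]
    omega
  · push_cast
    have : 0 ≤ m / 12 := by omega
    rw [Int.toNat_of_nonneg this]
    omega

/-! ### At most `μ` generators -/

section card

variable (𝒢 : Subgroup (GL (Fin 2) ℝ)) [𝒢.IsArithmetic] [𝒢.HasDetOne]

omit 𝒢 [𝒢.IsArithmetic] [𝒢.HasDetOne] in
/-- The members of an independent family are nonzero. -/
theorem ne_zero_of_ind {J : Type} (κ : J → ℤ) (F : J → ℍ → ℂ)
    (hind : ∀ k, ∀ P : J →₀ (ℍ → ℂ), (∀ j, P j ∈ RR (k - κ j)) →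
      (P.sum fun j p => p * F j) = 0 → P = 0) (j : J) : F j ≠ 0 := by
  classical
  intro h0
  have h1 : (1 : ℍ → ℂ) ∈ RR 0 := ⟨ModularForm.const 1, by ext z; simp⟩
  have h2 := hind (κ j) (Finsupp.single j 1) (fun i => by
    by_cases hij : i = j
    · subst hij
      rw [Finsupp.single_eq_same, sub_self]
      exact h1
    · rw [Finsupp.single_eq_of_ne hij]
      exact Submodule.zero_mem _) (by
    rw [Finsupp.sum_single_index (zero_mul _), h0, mul_zero])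
  have h3 := DFunLike.congr_fun h2 j
  rw [Finsupp.single_eq_same] at h3
  have h4 := congrFun h3 UpperHalfPlane.I
  simp at h4

/-- A finite independent homogeneous family has at most `μ` members. -/
theorem card_le_mu {N : ℕ} (hG : GoodLevel 𝒢 N) {w : ℤ} {h : ℍ → ℂ} (hh : h ∈ MFG 𝒢 w)
    (hstab : ∀ γ : SL(2, ℤ), h ∣[w] γ = h → Matrix.SpecialLinearGroup.mapGL ℝ γ ∈ 𝒢)
    {J : Type} (κ : J → ℤ) (F : J → ℍ → ℂ) (hmem : ∀ j, F j ∈ MFG 𝒢 (κ j))
    (hind : ∀ k, ∀ P : J →₀ (ℍ → ℂ), (∀ j, P j ∈ RR (k - κ j)) →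
      (P.sum fun j p => p * F j) = 0 → P = 0)
    (T : Finset J) : T.card ≤ mu 𝒢 := by
  classical
  have hev : ∀ j, Even (κ j) := by
    intro j
    rw [← Int.not_odd_iff_even]
    intro ho
    have hm := hmem j
    rw [helper3006.MFG_eq_bot_of_odd 𝒢 hG.neg ho] at hm
    exact ne_zero_of_ind κ F hind j ((Submodule.mem_bot ℂ).mp hm)
  by_contra hlt
  rw [not_le] at hlt
  set A : ℤ := ∑ j ∈ T, (κ j + 10) with hA
  set B : ℤ := ∑ i ∈ Finset.range (mu 𝒢), (|(i : ℤ) * w| + 12) with hB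
  have hB0 : 0 ≤ B := Finset.sum_nonneg fun i _ => by positivity
  have key : ∀ t : ℤ, 0 ≤ t →
      (T.card : ℤ) * (12 * t) - A ≤ (mu 𝒢 : ℤ) * (12 * t) + B := by
    intro t ht
    have := helper3006.finite_MFG 𝒢 hG (12 * t)
    have e1 := sum_finrank_le 𝒢 hG.le κ F hmem hind T (12 * t)
    have e2 := finrank_MFG_le_sum 𝒢 hh hstab (12 * t)
    have e3 : ∑ j ∈ T, (12 * t - κ j - 10) ≤
        ∑ j ∈ T, 12 * (Module.finrank ℂ (RR (12 * t - κ j)) : ℤ) :=
      Finset.sum_le_sum fun j _ => rr_lower _ (by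
        obtain ⟨a, ha⟩ := hev j
        exact ⟨6 * t - a, by rw [ha]; ring⟩)
    have e4 : ∑ i ∈ Finset.range (mu 𝒢),
        12 * (Module.finrank ℂ (RR (12 * t + (i : ℕ) * w)) : ℤ) ≤
        ∑ i ∈ Finset.range (mu 𝒢), (12 * t + |(i : ℤ) * w| + 12) :=
      Finset.sum_le_sum fun i _ => rr_upper _ _ (by linarith [le_abs_self ((i : ℤ) * w)])
        (by positivity)
    have e5 : ∑ j ∈ T, (12 * t - κ j - 10) = (T.card : ℤ) * (12 * t) - A := by
      rw [hA, Finset.sum_add_distrib]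
      simp only [Finset.sum_sub_distrib, Finset.sum_const, nsmul_eq_mul]
      ring
    have e6 : ∑ i ∈ Finset.range (mu 𝒢), (12 * t + |(i : ℤ) * w| + 12) =
        (mu 𝒢 : ℤ) * (12 * t) + B := by
      rw [hB, Finset.sum_add_distrib]
      simp only [Finset.sum_add_distrib, Finset.sum_const, nsmul_eq_mul, Finset.card_range]
      ring
    have e7 : (∑ j ∈ T, (Module.finrank ℂ (RR (12 * t - κ j)) : ℤ)) ≤
        ∑ i ∈ Finset.range (mu 𝒢), (Module.finrank ℂ (RR (12 * t + (i : ℕ) * w)) : ℤ) := by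
      exact_mod_cast e1.trans e2
    rw [← Finset.mul_sum] at e3 e4
    linarith
  have h1 := key (|A| + B + 1) (by positivity)
  have h2 : (mu 𝒢 : ℤ) + 1 ≤ T.card := by exact_mod_cast hlt
  have h3 : 0 ≤ 12 * (|A| + B + 1) := by positivity
  nlinarith [abs_nonneg A, le_abs_self A, mul_nonneg (sub_nonneg.mpr h2) h3]

end card

/-! ### At least `μ` generators: the fundamental matrix at a generic point -/

section vandermonde

variable (𝒢 : Subgroup (GL (Fin 2) ℝ)) [𝒢.IsArithmetic] [𝒢.HasDetOne]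

/-- For a spanning homogeneous family of `V`, the matrix of translates has trivial left kernel
at a generic point. -/
theorem exists_left_kernel_trivial (V : ℤ → Submodule ℂ (ℍ → ℂ))
    {w : ℤ} {h : ℍ → ℂ} (hh : h ∈ MFG 𝒢 w)
    (hstab : ∀ γ : SL(2, ℤ), h ∣[w] γ = h → Matrix.SpecialLinearGroup.mapGL ℝ γ ∈ 𝒢)
    {c : ℤ} {u : ℍ → ℂ} (hu : u ∈ RR c) (hu0 : ∀ z, u z ≠ 0)
    (huh : ∀ i : ℕ, u * h ^ i ∈ V (c + i * w))
    {J : Type} [Fintype J] (κ : J → ℤ) (F : J → ℍ → ℂ)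
    (hspan : ∀ k, ∀ f ∈ V k, ∃ P : J → ℍ → ℂ, (∀ j, P j ∈ RR (k - κ j)) ∧ f = ∑ j, P j * F j) :
    ∃ z0 : ℍ, ∀ v : Q 𝒢 → ℂ, (∀ j, ∑ q, v q * tr 𝒢 (κ j) (F j) q z0 = 0) → v = 0 := by
  classical
  obtain ⟨z0, -, hinj⟩ := exists_generic_point 𝒢 hh hstab (g := fun _ => 1)
    mdifferentiable_const (fun h0 => one_ne_zero (congrFun h0 UpperHalfPlane.I))
  refine ⟨z0, fun v hv => ?_⟩
  refine eq_zero_of_sum_mul_pow_eq_zero (fun q => tr 𝒢 w h q z0) hinj v fun i _ => ?_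
  obtain ⟨P, hP, hPe⟩ := hspan (c + i * w) (u * h ^ i) (huh i)
  have h1 : ∀ q, u z0 * (tr 𝒢 w h q z0) ^ i = ∑ j, P j z0 * tr 𝒢 (κ j) (F j) q z0 := by
    intro q
    have e1 : tr 𝒢 (c + i * w) (u * h ^ i) q = u * (tr 𝒢 w h q) ^ i := by
      rw [tr_mul, tr_levelOne 𝒢 hu, tr_pow]
    have e2 : tr 𝒢 (c + i * w) (∑ j, P j * F j) q = ∑ j, P j * tr 𝒢 (κ j) (F j) q := by
      rw [tr_sum]
      refine Finset.sum_congr rfl fun j _ => ?_
      rw [tr_mul' 𝒢 (c + i * w - κ j) (κ j) (by ring), tr_levelOne 𝒢 (hP j)]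
    have e3 := congrFun (e1.symm.trans ((congrArg (fun f => tr 𝒢 (c + i * w) f q) hPe).trans e2)) z0
    simpa [Finset.sum_apply] using e3
  have h2 : u z0 * ∑ q, v q * (tr 𝒢 w h q z0) ^ i = 0 := by
    calc u z0 * ∑ q, v q * (tr 𝒢 w h q z0) ^ i
        = ∑ q, v q * (u z0 * (tr 𝒢 w h q z0) ^ i) := by
          rw [Finset.mul_sum]
          exact Finset.sum_congr rfl fun q _ => by ring
      _ = ∑ q, v q * ∑ j, P j z0 * tr 𝒢 (κ j) (F j) q z0 := by
          exact Finset.sum_congr rfl fun q _ => by rw [h1 q]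
      _ = ∑ j, P j z0 * ∑ q, v q * tr 𝒢 (κ j) (F j) q z0 := by
          simp only [Finset.mul_sum]
          rw [Finset.sum_comm]
          exact Finset.sum_congr rfl fun j _ => Finset.sum_congr rfl fun q _ => by ring
      _ = 0 := by
          exact Finset.sum_eq_zero fun j _ => by rw [hv j, mul_zero]
  exact (mul_eq_zero.mp h2).resolve_left (hu0 z0)

end vandermonde

/-! ### Assembly -/

section assembly

variable (𝒢 : Subgroup (GL (Fin 2) ℝ)) [𝒢.IsArithmetic] [𝒢.HasDetOne]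

/-- Main bridge: a free homogeneous family of `V ≤ M_*(𝒢)` (arbitrary index type, finitely
supported expansions), together with a seed `h` and a nowhere vanishing level one multiplier `u`
with `u * h ^ i ∈ V`, yields a basis indexed by the cosets with invertible fundamental matrix
at some point. -/
theorem stmt_Basis_of_free_family {N : ℕ} (hG : GoodLevel 𝒢 N) (V : ℤ → Submodule ℂ (ℍ → ℂ))
    (hVM : ∀ k, V k ≤ MFG 𝒢 k)
    {w : ℤ} {h : ℍ → ℂ} (hh : h ∈ MFG 𝒢 w)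
    (hstab : ∀ γ : SL(2, ℤ), h ∣[w] γ = h → Matrix.SpecialLinearGroup.mapGL ℝ γ ∈ 𝒢)
    {c : ℤ} {u : ℍ → ℂ} (hu : u ∈ RR c) (hu0 : ∀ z, u z ≠ 0)
    (huh : ∀ i : ℕ, u * h ^ i ∈ V (c + i * w))
    {J : Type} (κ : J → ℤ) (F : J → ℍ → ℂ) (hmem : ∀ j, F j ∈ V (κ j))
    (hspan : ∀ k, ∀ f ∈ V k, ∃ P : J →₀ (ℍ → ℂ),
      (∀ j, P j ∈ RR (k - κ j)) ∧ f = P.sum fun j p => p * F j)
    (hind : ∀ k, ∀ P : J →₀ (ℍ → ℂ), (∀ j, P j ∈ RR (k - κ j)) →
      (P.sum fun j p => p * F j) = 0 → P = 0) :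
    Stmt_Basis 𝒢 V := by
  classical
  have hmemM : ∀ j, F j ∈ MFG 𝒢 (κ j) := fun j => hVM _ (hmem j)
  -- finiteness of the index type
  have hfin : Finite J := by
    by_contra hinf
    rw [not_finite_iff_infinite] at hinf
    obtain ⟨T, hT⟩ := Infinite.exists_subset_card_eq J (mu 𝒢 + 1)
    have := card_le_mu 𝒢 hG hh hstab κ F hmemM hind T
    omega
  let _ : Fintype J := Fintype.ofFinite J
  have hle : Fintype.card J ≤ mu 𝒢 := by
    have := card_le_mu 𝒢 hG hh hstab κ F hmemM hind Finset.univ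
    rwa [Finset.card_univ] at this
  -- spanning and independence in function form
  have hspan' : ∀ k, ∀ f ∈ V k, ∃ P : J → ℍ → ℂ,
      (∀ j, P j ∈ RR (k - κ j)) ∧ f = ∑ j, P j * F j := by
    intro k f hf
    obtain ⟨P, hP, rfl⟩ := hspan k f hf
    exact ⟨P, hP, Finsupp.sum_fintype P _ (fun j => zero_mul _)⟩
  have hind' : ∀ k, ∀ P : J → ℍ → ℂ, (∀ j, P j ∈ RR (k - κ j)) →
      ∑ j, P j * F j = 0 → P = 0 := by
    intro k P hP hsum
    have h1 := hind k (Finsupp.equivFunOnFinite.symm P) (fun j => by simpa using hP j) (by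
      rw [Finsupp.sum_fintype _ _ (fun j => zero_mul _)]
      simpa using hsum)
    funext j
    have h2 := DFunLike.congr_fun h1 j
    simpa using h2
  obtain ⟨z0, hz0⟩ := exists_left_kernel_trivial 𝒢 V hh hstab hu hu0 huh κ F hspan'
  -- at least `μ` generators
  have hge : Fintype.card (Q 𝒢) ≤ Fintype.card J := by
    let M : Matrix (Q 𝒢) J ℂ := Matrix.of fun q j => tr 𝒢 (κ j) (F j) q z0
    have hinj : Function.Injective (Matrix.vecMulLinear M) := by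
      rw [injective_iff_map_eq_zero]
      intro v hv
      apply hz0 v
      intro j
      have h1 := congrFun hv j
      simpa [Matrix.vecMulLinear, Matrix.vecMul, dotProduct, M] using h1
    have h2 := LinearMap.finrank_le_finrank_of_injective hinj
    simpa [Module.finrank_fintype_fun_eq_card] using h2
  have hcard : Fintype.card (Q 𝒢) = Fintype.card J := by
    refine le_antisymm hge ?_
    have : mu 𝒢 = Fintype.card (Q 𝒢) := Nat.card_eq_fintype_card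
    omega
  let e : Q 𝒢 ≃ J := Fintype.equivOfCardEq hcard
  refine ⟨κ ∘ e, F ∘ e, ⟨fun q => hmem (e q), fun k f hf => ?_⟩, z0, ?_⟩
  · obtain ⟨P, hP, hPe⟩ := hspan' k f hf
    refine ⟨P ∘ e, ⟨fun q => hP (e q), ?_⟩, ?_⟩
    · rw [hPe]
      exact (Equiv.sum_comp e (fun j => P j * F j)).symm
    · rintro P2 ⟨hP2, hP2e⟩
      have hs : ∑ j, P2 (e.symm j) * F j = f := by
        rw [hP2e, ← Equiv.sum_comp e.symm (fun q => P2 q * (F ∘ e) q)]
        exact Finset.sum_congr rfl fun j _ => by simp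
      have hd := hind' k (fun j => P2 (e.symm j) - P j)
        (fun j => Submodule.sub_mem _ (by simpa using hP2 (e.symm j)) (hP j)) (by
          simp only [sub_mul, Finset.sum_sub_distrib]
          rw [hs, ← hPe, sub_self])
      funext q
      have h3 := congrFun hd (e q)
      simpa [sub_eq_zero] using h3
  · unfold fundDet
    intro hdet
    obtain ⟨v, hv0, hv⟩ := Matrix.exists_vecMul_eq_zero_iff.mpr hdet
    apply hv0
    apply hz0 v
    intro j
    have h1 := congrFun hv (e.symm j)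
    simpa [Matrix.vecMul, dotProduct, transMatrix] using h1

end assembly

/-- `Goal_BasisM` of `helper560_Spec`. -/
theorem goal_BasisM : Goal_BasisM := by
  intro 𝒢 _ _ N hG hseed
  obtain ⟨w, h, hh, hstab⟩ := hseed
  obtain ⟨J, wt, F, h1, -, h3, h4⟩ := helper1161.exists_free_basis' 𝒢 hG.le
  have hone : (1 : ℍ → ℂ) ∈ RR 0 := ⟨ModularForm.const 1, by ext z; simp⟩
  refine stmt_Basis_of_free_family 𝒢 hG (MFG 𝒢) (fun k => le_rfl) hh hstab hone
    (fun z => one_ne_zero) (fun i => ?_) wt F h1 h3 h4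
  rw [one_mul, zero_add]
  exact MFG_pow 𝒢 hh i

end

end Fermat.Agent.S20.helper7243
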