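/-
S20, seat helper7249: the "rank = index" glue (BASIS-BRIDGE) for the spec `helper560_Spec`.

From a finite homogeneous free basis of `MFG 𝒢` (resp. `CFG 𝒢`) over the level one ring we
produce a basis *indexed by the cosets* `Q 𝒢` whose fundamental determinant does not vanish
at some point, i.e. `Stmt_Basis 𝒢 (MFG 𝒢)` (resp. `Stmt_Basis 𝒢 (CFG 𝒢)`).

Method (Gram + Cramer, purely algebraic):
* a product of two "minors" `det (tr (fa i) q z)_{q,i} * det (tr (fb i) q z)_{q,i}` is the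
  determinant of the matrix of the traces `∑ q, tr (fa a) q * tr (fb c) q`, which are level
  one forms (Mathlib's `ModularForm.trace`), hence it is a level one form;
* if the square block `e : Q 𝒢 → J` of the matrix of translates is invertible at one point,
  Cramer's rule expresses every other generator as a combination of the generators in the
  block with level one coefficients after multiplication by `D²`; uniqueness of expansions
  forces `D² = 0`, a contradiction, so `e` is onto;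
* the invertible block is produced from a Vandermonde matrix of a form with pairwise
  distinct translates (`Seed`) for `MFG`, and from `Δ · F_j` for `CFG`.
-/
import Fermat.Agent.S20.helper560_Basic

set_option autoImplicit false

open UpperHalfPlane ModularForm
open scoped MatrixGroups Manifold Pointwise

namespace Fermat.Agent.S20.helper7249

open Fermat.Agent.S20.helper560

noncomputable section

variable {𝒢 : Subgroup (GL (Fin 2) ℝ)}

/-! ### Translates -/

/-- A translate is a slash by an element of `SL(2, ℤ)` (uniformly in the weight and function). -/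
theorem exists_tr_eq_slash (q : Q 𝒢) :
    ∃ γ : SL(2, ℤ), ∀ (k : ℤ) (f : ℍ → ℂ), tr 𝒢 k f q = f ∣[k] γ := by
  obtain ⟨γ, hγ⟩ := ((q.out)⁻¹ : 𝒮ℒ).2
  refine ⟨γ, fun k f => ?_⟩
  have h1 : ((q.out : 𝒮ℒ) : GL (Fin 2) ℝ)⁻¹ = Matrix.SpecialLinearGroup.mapGL ℝ γ := by
    rw [hγ]; rfl
  unfold tr
  rw [h1]
  rfl

theorem mdiff_tr {k : ℤ} {f : ℍ → ℂ} (hf : MDiff f) (q : Q 𝒢) : MDiff (tr 𝒢 k f q) := by
  obtain ⟨γ, hγ⟩ := exists_tr_eq_slash q
  rw [hγ]
  exact hf.slash k _

theorem tr_mul (a b : ℤ) (f g : ℍ → ℂ) (q : Q 𝒢) :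
    tr 𝒢 (a + b) (f * g) q = tr 𝒢 a f q * tr 𝒢 b g q := by
  obtain ⟨γ, hγ⟩ := exists_tr_eq_slash q
  rw [hγ, hγ, hγ, ModularForm.mul_slash_SL2]

theorem tr_levelOne {a : ℤ} {P : ℍ → ℂ} (hP : P ∈ RR a) (q : Q 𝒢) : tr 𝒢 a P q = P := by
  obtain ⟨γ, hγ⟩ := exists_tr_eq_slash q
  obtain ⟨Pm, rfl⟩ := hP
  rw [hγ]
  exact SlashInvariantFormClass.slash_action_eq Pm _ ⟨γ, rfl⟩

theorem tr_levelOne_mul {a b : ℤ} {P : ℍ → ℂ} (hP : P ∈ RR a) (f : ℍ → ℂ) (q : Q 𝒢) :
    tr 𝒢 (a + b) (P * f) q = P * tr 𝒢 b f q := by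
  rw [tr_mul, tr_levelOne hP]

theorem tr_sum {J : Type} (s : Finset J) (k : ℤ) (g : J → ℍ → ℂ) (q : Q 𝒢) :
    tr 𝒢 k (∑ i ∈ s, g i) q = ∑ i ∈ s, tr 𝒢 k (g i) q := by
  obtain ⟨γ, hγ⟩ := exists_tr_eq_slash q
  simp only [hγ]
  classical
  induction s using Finset.induction_on with
  | empty => simp [SlashAction.zero_slash]
  | insert a s ha ih =>
    rw [Finset.sum_insert ha, Finset.sum_insert ha, SlashAction.add_slash, ih]

theorem tr_pow (k : ℤ) (f : ℍ → ℂ) (q : Q 𝒢) (n : ℕ) :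
    tr 𝒢 (n * k) (f ^ n) q = (tr 𝒢 k f q) ^ n := by
  induction n with
  | zero =>
    obtain ⟨γ, hγ⟩ := exists_tr_eq_slash q
    simp only [Nat.cast_zero, zero_mul, pow_zero]
    rw [hγ]
    exact ModularForm.is_invariant_one γ
  | succ n ih =>
    have h1 : ((n + 1 : ℕ) : ℤ) * k = n * k + k := by push_cast; ring
    rw [h1, pow_succ, pow_succ, tr_mul, ih]

/-- The translate attached to the trivial coset is the function itself. -/
theorem tr_one [𝒢.HasDetOne] {k : ℤ} {f : ℍ → ℂ} (hf : f ∈ MFG 𝒢 k) :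
    tr 𝒢 k f ((1 : 𝒮ℒ) : Q 𝒢) = f := by
  obtain ⟨F, rfl⟩ := hf
  rw [tr_eq_quotientFunc]
  show (⇑F : ℍ → ℂ) ∣[k] ((1 : 𝒮ℒ) : GL (Fin 2) ℝ)⁻¹ = ⇑F
  simp

/-! ### Level one forms: products, traces, determinants -/

theorem one_mem_RR : (1 : ℍ → ℂ) ∈ RR 0 :=
  ⟨ModularForm.const 1, by ext z; simp [ModularForm.const_apply]⟩

theorem one_mem_MFG [𝒢.HasDetOne] : (1 : ℍ → ℂ) ∈ MFG 𝒢 0 :=
  ⟨ModularForm.const 1, by ext z; simp [ModularForm.const_apply]⟩

theorem pow_mem_MFG [𝒢.HasDetOne] {k : ℤ} {f : ℍ → ℂ} (hf : f ∈ MFG 𝒢 k) (n : ℕ) :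
    f ^ n ∈ MFG 𝒢 (n * k) := by
  induction n with
  | zero => simpa using one_mem_MFG (𝒢 := 𝒢)
  | succ n ih =>
    have h1 : ((n + 1 : ℕ) : ℤ) * k = n * k + k := by push_cast; ring
    rw [h1, pow_succ]
    exact MFG_mul_mem ih hf

theorem RR_prod_mem {ι : Type} (s : Finset ι) (w : ι → ℤ) (g : ι → ℍ → ℂ)
    (hg : ∀ i ∈ s, g i ∈ RR (w i)) : ∏ i ∈ s, g i ∈ RR (∑ i ∈ s, w i) := by
  classical
  induction s using Finset.induction_on with
  | empty => simpa using one_mem_RR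
  | insert i s hi ih =>
    rw [Finset.prod_insert hi, Finset.sum_insert hi]
    exact MFG_mul_mem (hg i (Finset.mem_insert_self i s))
      (ih fun j hj => hg j (Finset.mem_insert_of_mem hj))

/-- The determinant of a matrix of level one forms with "bigraded" weights is a level one
form. -/
theorem det_mem_RR {n : Type} [Fintype n] [DecidableEq n] (wa wb : n → ℤ)
    (M : n → n → ℍ → ℂ) (hM : ∀ i j, M i j ∈ RR (wa i + wb j)) :
    (fun z => (Matrix.of fun i j => M i j z).det) ∈ RR (∑ i, wa i + ∑ j, wb j) := by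
  have key : (fun z => (Matrix.of fun i j => M i j z).det) =
      ∑ σ : Equiv.Perm n, ((Equiv.Perm.sign σ : ℤ) : ℂ) • ∏ i, M (σ i) i := by
    funext z
    rw [Matrix.det_apply']
    simp [Finset.sum_apply, Finset.prod_apply]
  rw [key]
  refine Submodule.sum_mem _ fun σ _ => Submodule.smul_mem _ _ ?_
  have h1 := RR_prod_mem Finset.univ (fun i => wa (σ i) + wb i) (fun i => M (σ i) i)
    (fun i _ => hM (σ i) i)
  have h2 : ∑ i, (wa (σ i) + wb i) = ∑ i, wa i + ∑ j, wb j := by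
    rw [Finset.sum_add_distrib, Equiv.sum_comp σ wa]
  rwa [h2] at h1

/-- The sum of the translates of a form of level `𝒢` is a level one form (the trace). -/
theorem sum_tr_mem_RR [𝒢.IsArithmetic] [𝒢.HasDetOne] {k : ℤ} {f : ℍ → ℂ}
    (hf : f ∈ MFG 𝒢 k) : ∑ q : Q 𝒢, tr 𝒢 k f q ∈ RR k := by
  obtain ⟨F, rfl⟩ := hf
  refine ⟨ModularForm.trace 𝒮ℒ F, ?_⟩
  rw [ModularForm.coe_trace]
  refine Finset.sum_congr ?_ fun q _ => (tr_eq_quotientFunc F q).symm
  congr

/-- The trace pairing of two forms of level `𝒢` is a level one form. -/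
theorem sum_tr_mul_mem_RR [𝒢.IsArithmetic] [𝒢.HasDetOne] {a b : ℤ} {f g : ℍ → ℂ}
    (hf : f ∈ MFG 𝒢 a) (hg : g ∈ MFG 𝒢 b) :
    ∑ q : Q 𝒢, tr 𝒢 a f q * tr 𝒢 b g q ∈ RR (a + b) := by
  have := sum_tr_mem_RR (MFG_mul_mem hf hg)
  simpa only [tr_mul] using this

/-! ### Products of two minors are level one forms -/

/-- The product of two determinants of matrices of translates is a level one form: it is the
determinant of the matrix of trace pairings. -/
theorem det_mul_det_mem_RR [𝒢.IsArithmetic] [𝒢.HasDetOne] [DecidableEq (Q 𝒢)]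
    (ka kb : Q 𝒢 → ℤ) (fa fb : Q 𝒢 → ℍ → ℂ)
    (hfa : ∀ i, fa i ∈ MFG 𝒢 (ka i)) (hfb : ∀ i, fb i ∈ MFG 𝒢 (kb i)) :
    (fun z => (Matrix.of fun q i => tr 𝒢 (ka i) (fa i) q z).det *
        (Matrix.of fun q i => tr 𝒢 (kb i) (fb i) q z).det) ∈ RR (∑ i, ka i + ∑ i, kb i) := by
  have h := det_mem_RR ka kb
    (fun a c => ∑ x : Q 𝒢, tr 𝒢 (ka a) (fa a) x * tr 𝒢 (kb c) (fb c) x)
    (fun a c => sum_tr_mul_mem_RR (hfa a) (hfb c))
  convert h using 1
  funext z
  rw [← Matrix.det_transpose (Matrix.of fun q i => tr 𝒢 (ka i) (fa i) q z), ← Matrix.det_mul]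
  congr 1
  ext a c
  simp [Matrix.mul_apply, Finset.sum_apply]

/-! ### Linear algebra: a nonzero minor -/

/-- If `Φ * B` is invertible (`Φ` of size `n × J`, `B` of size `J × n`), then some choice of
`n` columns of `Φ` gives an invertible square matrix. -/
theorem exists_minor_ne_zero {n J : Type} [Fintype n] [DecidableEq n] [Fintype J]
    (Φ : Matrix n J ℂ) (B : Matrix J n ℂ) (h : (Φ * B).det ≠ 0) :
    ∃ e : n → J, (Matrix.of fun q q' => Φ q (e q')).det ≠ 0 := by
  classical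
  by_contra hne
  push Not at hne
  apply h
  rw [← Matrix.det_transpose]
  have h1 : (Φ * B).transpose = fun q' => ∑ j, B j q' • (fun q => Φ q j) := by
    ext q' q
    simp [Matrix.mul_apply, Finset.sum_apply, mul_comm]
  rw [h1]
  show Matrix.detRowAlternating (fun q' => ∑ j, B j q' • (fun q => Φ q j)) = 0
  rw [← AlternatingMap.coe_multilinearMap, MultilinearMap.map_sum]
  refine Finset.sum_eq_zero fun r _ => ?_
  rw [MultilinearMap.map_smul_univ]
  have h2 : Matrix.detRowAlternating (fun q' q => Φ q (r q')) =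
      (Matrix.of fun q q' => Φ q (r q')).det := by
    rw [← Matrix.det_transpose]
    rfl
  rw [AlternatingMap.coe_multilinearMap, h2, hne r, smul_zero]

/-! ### The key step: an invertible square block exhausts the basis -/

/-- If `F` is a homogeneous free basis of a graded submodule `V` of `MFG 𝒢` and the square
block of the matrix of translates selected by `e : Q 𝒢 → J` is invertible at one point, then
`e` is onto. -/
theorem surjective_of_det_ne_zero [𝒢.IsArithmetic] [𝒢.HasDetOne] [DecidableEq (Q 𝒢)]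
    (V : ℤ → Submodule ℂ (ℍ → ℂ)) (hV : ∀ k, V k ≤ MFG 𝒢 k)
    {J : Type} [Fintype J] (κ : J → ℤ) (F : J → ℍ → ℂ) (hF : IsFreeBasis V κ F)
    (e : Q 𝒢 → J) (z0 : ℍ)
    (hdet : (Matrix.of fun q q' : Q 𝒢 => tr 𝒢 (κ (e q')) (F (e q')) q z0).det ≠ 0) :
    Function.Surjective e := by
  classical
  intro j0
  by_contra hj0
  push Not at hj0
  have hFe : ∀ q, F (e q) ∈ MFG 𝒢 (κ (e q)) := fun q => hV _ (hF.1 (e q))
  have hF0 : F j0 ∈ MFG 𝒢 (κ j0) := hV _ (hF.1 j0)
  set K : ℤ := ∑ q, κ (e q) with hK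
  set A : ℍ → Matrix (Q 𝒢) (Q 𝒢) ℂ :=
    fun z => Matrix.of fun q q' => tr 𝒢 (κ (e q')) (F (e q')) q z with hA
  set b : ℍ → Q 𝒢 → ℂ := fun z q => tr 𝒢 (κ j0) (F j0) q z with hb
  set c0 : ℍ → ℂ := fun z => (A z).det * (A z).det with hc0def
  set c : Q 𝒢 → ℍ → ℂ := fun q' z => (A z).det * ((A z).updateCol q' (b z)).det with hcdef
  -- the coefficients are level one forms
  have hc0 : c0 ∈ RR (K + K) :=
    det_mul_det_mem_RR (fun q => κ (e q)) (fun q => κ (e q)) (fun q => F (e q))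
      (fun q => F (e q)) hFe hFe
  have hc : ∀ q', c q' ∈ RR (K + K + κ j0 - κ (e q')) := by
    intro q'
    have h := det_mul_det_mem_RR (fun q => κ (e q)) (Function.update (fun q => κ (e q)) q' (κ j0))
      (fun q => F (e q)) (Function.update (fun q => F (e q)) q' (F j0)) hFe (by
        intro i
        by_cases hi : i = q'
        · subst hi
          simpa using hF0
        · simpa [Function.update_of_ne hi] using hFe i)
    have hw : ∑ i, κ (e i) + ∑ i, Function.update (fun q => κ (e q)) q' (κ j0) i =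
        K + K + κ j0 - κ (e q') := by
      rw [Finset.sum_update_of_mem (Finset.mem_univ q')]
      have := Finset.add_sum_erase Finset.univ (fun q => κ (e q)) (Finset.mem_univ q')
      rw [Finset.sdiff_singleton_eq_erase]
      simp only [← hK] at this ⊢
      linarith
    rw [hw] at h
    convert h using 1
    funext z
    simp only [hcdef, hA]
    congr 2
    ext x i
    by_cases hi : i = q'
    · subst hi
      simp [hb]
    · simp [hi]
  -- the relation, from Cramer's rule on the row of the trivial coset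
  have hrel : c0 * F j0 = ∑ q', c q' * F (e q') := by
    funext z
    have h1 := congrFun (Matrix.mulVec_cramer (A z) (b z)) ((1 : 𝒮ℒ) : Q 𝒢)
    simp only [Matrix.mulVec, dotProduct, Matrix.cramer_apply, Pi.smul_apply, smul_eq_mul] at h1
    have h2 : ∀ q', A z ((1 : 𝒮ℒ) : Q 𝒢) q' = F (e q') z := fun q' => by
      simp only [hA, Matrix.of_apply]
      rw [tr_one (hFe q')]
    have h3 : b z ((1 : 𝒮ℒ) : Q 𝒢) = F j0 z := by
      simp only [hb]
      rw [tr_one hF0]
    simp only [h2, h3] at h1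
    simp only [Pi.mul_apply, Finset.sum_apply, hc0def, hcdef]
    rw [mul_assoc, ← h1, Finset.mul_sum]
    exact Finset.sum_congr rfl fun q' _ => by ring
  -- the expansion of zero
  set P : J → ℍ → ℂ :=
    fun j => (if j = j0 then c0 else 0) - ∑ q', if e q' = j then c q' else 0 with hPdef
  have hP : ∀ j, P j ∈ RR (K + K + κ j0 - κ j) := by
    intro j
    refine Submodule.sub_mem _ ?_ (Submodule.sum_mem _ fun q' _ => ?_)
    · by_cases hj : j = j0
      · subst hj
        simpa using hc0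
      · simp [hj]
    · by_cases hq : e q' = j
      · subst hq
        simpa using hc q'
      · simp [hq]
  have hsum : (0 : ℍ → ℂ) = ∑ j, P j * F j := by
    have h1 : ∑ j, (if j = j0 then c0 else 0) * F j = c0 * F j0 := by
      simp [ite_mul]
    have h2 : ∑ j, (∑ q', if e q' = j then c q' else 0) * F j = ∑ q', c q' * F (e q') := by
      simp only [Finset.sum_mul, ite_mul, zero_mul]
      rw [Finset.sum_comm]
      exact Finset.sum_congr rfl fun q' _ => by simp
    simp only [hPdef, sub_mul, Finset.sum_sub_distrib, h1, h2, hrel, sub_self]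
  have huniq := (hF.2 (K + K + κ j0) 0 (Submodule.zero_mem _)).unique ⟨hP, hsum⟩
    ⟨fun j => Submodule.zero_mem _, by simp⟩
  have hPj0 : P j0 = 0 := congrFun huniq j0
  have hc00 : c0 = 0 := by
    have h1 : ∑ q', (if e q' = j0 then c q' else 0) = 0 :=
      Finset.sum_eq_zero fun q' _ => by simp [hj0 q']
    simpa [hPdef, h1] using hPj0
  have := congrFun hc00 z0
  simp only [hc0def, Pi.zero_apply, mul_self_eq_zero] at this
  exact hdet this

/-- Reindexing a homogeneous free basis along an equivalence. -/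
theorem isFreeBasis_reindex {V : ℤ → Submodule ℂ (ℍ → ℂ)} {J J' : Type} [Fintype J] [Fintype J']
    {κ : J → ℤ} {F : J → ℍ → ℂ} (hF : IsFreeBasis V κ F) (E : J' ≃ J) :
    IsFreeBasis V (fun q => κ (E q)) (fun q => F (E q)) := by
  refine ⟨fun q => hF.1 (E q), fun k f hf => ?_⟩
  obtain ⟨P, ⟨hP1, hP2⟩, hP3⟩ := hF.2 k f hf
  refine ⟨fun q => P (E q), ⟨fun q => hP1 (E q), ?_⟩, ?_⟩
  · rw [hP2]
    exact (Equiv.sum_comp E (fun j => P j * F j)).symm
  · rintro P' ⟨hP'1, hP'2⟩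
    have h := hP3 (fun j => P' (E.symm j)) ⟨fun j => by simpa using hP'1 (E.symm j), by
      rw [hP'2]
      rw [← Equiv.sum_comp E (fun j => P' (E.symm j) * F j)]
      simp⟩
    funext q
    have := congrFun h (E q)
    simpa using this

/-- From an invertible square block to `Stmt_Basis`. -/
theorem stmt_Basis_of_block [𝒢.IsArithmetic] [𝒢.HasDetOne]
    (V : ℤ → Submodule ℂ (ℍ → ℂ)) (hV : ∀ k, V k ≤ MFG 𝒢 k)
    {J : Type} [Fintype J] (κ : J → ℤ) (F : J → ℍ → ℂ) (hF : IsFreeBasis V κ F)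
    (z0 : ℍ) (B : Matrix J (Q 𝒢) ℂ)
    (hdet : by classical exact
      ((Matrix.of fun (q : Q 𝒢) (j : J) => tr 𝒢 (κ j) (F j) q z0) * B).det ≠ 0) :
    Stmt_Basis 𝒢 V := by
  classical
  obtain ⟨e, he⟩ := exists_minor_ne_zero _ B hdet
  simp only [Matrix.of_apply] at he
  have hsurj := surjective_of_det_ne_zero V hV κ F hF e z0 he
  have hinj : Function.Injective e := by
    intro q1 q2 h12
    by_contra hne
    apply he
    exact Matrix.det_zero_of_column_eq hne (fun x => by simp [h12])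
  refine ⟨fun q => κ (e q), fun q => F (e q),
    isFreeBasis_reindex hF (Equiv.ofBijective e ⟨hinj, hsurj⟩), z0, ?_⟩
  unfold fundDet transMatrix
  convert he

/-! ### The invertible block for `MFG`: Vandermonde of a separating form -/

/-- A form whose stabiliser is exactly `𝒢` has pairwise distinct translates. -/
theorem tr_injective_of_seed [𝒢.HasDetOne] {k : ℤ} {h : ℍ → ℂ}
    (hstab : ∀ γ : SL(2, ℤ), h ∣[k] γ = h → Matrix.SpecialLinearGroup.mapGL ℝ γ ∈ 𝒢) :
    Function.Injective (tr 𝒢 k h) := by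
  intro q q' hqq
  unfold tr at hqq
  have h1 : h ∣[k] (((q'.out : 𝒮ℒ) : GL (Fin 2) ℝ)⁻¹ * ((q.out : 𝒮ℒ) : GL (Fin 2) ℝ)) = h := by
    rw [SlashAction.slash_mul, ← hqq, ← SlashAction.slash_mul, inv_mul_cancel,
      SlashAction.slash_one]
  obtain ⟨γ, hγ⟩ := ((q'.out)⁻¹ * q.out : 𝒮ℒ).2
  have h2 : (((q'.out : 𝒮ℒ) : GL (Fin 2) ℝ)⁻¹ * ((q.out : 𝒮ℒ) : GL (Fin 2) ℝ)) =
      Matrix.SpecialLinearGroup.mapGL ℝ γ := by
    rw [hγ]; rfl
  rw [h2] at h1
  have h3 : Matrix.SpecialLinearGroup.mapGL ℝ γ ∈ 𝒢 := hstab γ h1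
  rw [← h2] at h3
  have h4 : (q' : Q 𝒢) = q := by
    rw [← QuotientGroup.out_eq' q', ← QuotientGroup.out_eq' q]
    exact QuotientGroup.eq.mpr (Subgroup.mem_subgroupOf.mpr h3)
  exact h4.symm

/-- A separating form has a point at which its translates take pairwise distinct values. -/
theorem exists_injective_point [𝒢.IsArithmetic] [𝒢.HasDetOne] (hseed : Seed 𝒢) :
    ∃ (k : ℤ) (h : ℍ → ℂ) (z0 : ℍ), h ∈ MFG 𝒢 k ∧
      Function.Injective (fun q : Q 𝒢 => tr 𝒢 k h q z0) := by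
  classical
  obtain ⟨k, h, hh, hstab⟩ := hseed
  have hinj := tr_injective_of_seed hstab
  have hmd : MDiff h := by
    obtain ⟨Fm, rfl⟩ := hh
    exact ModularFormClass.holo Fm
  have hprod : ∏ p ∈ (Finset.univ : Finset (Q 𝒢)).offDiag, (tr 𝒢 k h p.1 - tr 𝒢 k h p.2) ≠ 0 := by
    intro h0
    rw [UpperHalfPlane.prod_eq_zero_iff
      (fun p _ => (mdiff_tr hmd p.1).sub (mdiff_tr hmd p.2))] at h0
    obtain ⟨p, hp, hp0⟩ := h0
    rw [Finset.mem_offDiag] at hp
    exact hp.2.2 (hinj (sub_eq_zero.mp hp0))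
  obtain ⟨z0, hz0⟩ := Function.ne_iff.mp hprod
  refine ⟨k, h, z0, hh, fun q q' hqq => ?_⟩
  by_contra hne
  apply hz0
  rw [Finset.prod_apply]
  refine Finset.prod_eq_zero (i := (q, q')) (Finset.mem_offDiag.mpr ⟨Finset.mem_univ _,
    Finset.mem_univ _, hne⟩) ?_
  simpa [sub_eq_zero] using hqq

/-- **BASIS-BRIDGE for `MFG`.** A finite homogeneous free basis of `MFG 𝒢` together with a
separating form yields a basis indexed by the cosets with non-vanishing fundamental
determinant at some point. -/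
theorem basisM_of_free [𝒢.IsArithmetic] [𝒢.HasDetOne] (hseed : Seed 𝒢)
    (hfree : ∃ (J : Type) (_ : Fintype J) (κ : J → ℤ) (F : J → ℍ → ℂ),
      IsFreeBasis (MFG 𝒢) κ F) :
    Stmt_Basis 𝒢 (MFG 𝒢) := by
  classical
  obtain ⟨J, _, κ, F, hF⟩ := hfree
  obtain ⟨k, h, z0, hh, hinj⟩ := exists_injective_point hseed
  set ι : Q 𝒢 ≃ Fin (Fintype.card (Q 𝒢)) := Fintype.equivFin _ with hι
  have hexp : ∀ q' : Q 𝒢, ∃ P : J → ℍ → ℂ,
      (∀ j, P j ∈ RR ((((ι q' : ℕ) : ℤ)) * k - κ j)) ∧ h ^ (ι q' : ℕ) = ∑ j, P j * F j :=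
    fun q' => (hF.2 _ _ (pow_mem_MFG hh _)).exists
  choose P hP1 hP2 using hexp
  refine stmt_Basis_of_block (MFG 𝒢) (fun _ => le_rfl) κ F hF z0
    (Matrix.of fun j q' => P q' j z0) ?_
  have hV : (Matrix.of fun (q : Q 𝒢) (j : J) => tr 𝒢 (κ j) (F j) q z0) *
      (Matrix.of fun j q' => P q' j z0) =
      (Matrix.vandermonde (fun i => tr 𝒢 k h (ι.symm i) z0)).submatrix ι ι := by
    ext q q'
    simp only [Matrix.mul_apply, Matrix.of_apply, Matrix.submatrix_apply,
      Matrix.vandermonde_apply, Equiv.symm_apply_apply]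
    have e1 := tr_pow (𝒢 := 𝒢) k h q (ι q' : ℕ)
    rw [hP2 q', tr_sum] at e1
    have e2 : ∀ j, tr 𝒢 (((ι q' : ℕ) : ℤ) * k) (P q' j * F j) q =
        P q' j * tr 𝒢 (κ j) (F j) q := fun j => by
      have := tr_levelOne_mul (𝒢 := 𝒢) (b := κ j) (hP1 q' j) (F j) q
      rwa [sub_add_cancel] at this
    simp only [e2] at e1
    have e3 := congrFun e1 z0
    simp only [Finset.sum_apply, Pi.mul_apply, Pi.pow_apply] at e3
    rw [← e3]
    exact Finset.sum_congr rfl fun j _ => mul_comm _ _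
  rw [hV, Matrix.det_submatrix_equiv_self, Matrix.det_vandermonde_ne_zero_iff]
  exact hinj.comp ι.symm.injective

/-! ### The invertible block for `CFG`: multiplication by the discriminant -/

theorem discriminant_mem_CFG [𝒢.HasDetOne] (h𝒢 : 𝒢 ≤ 𝒮ℒ) :
    ModularForm.discriminant ∈ CFG 𝒢 12 :=
  ⟨{ toFun := CuspForm.discriminant
     slash_action_eq' := fun γ hγ => CuspForm.discriminant.slash_action_eq' γ (h𝒢 hγ)
     holo' := CuspForm.discriminant.holo'
     zero_at_cusps' := fun hc => CuspForm.discriminant.zero_at_cusps' (hc.mono h𝒢) }, rfl⟩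

theorem discriminant_mem_RR : ModularForm.discriminant ∈ RR 12 :=
  ⟨ModularFormClass.modularForm CuspForm.discriminant, rfl⟩

/-- **BASIS-BRIDGE for `CFG`.** -/
theorem basisS_of_free [𝒢.IsArithmetic] [𝒢.HasDetOne] (h𝒢 : 𝒢 ≤ 𝒮ℒ)
    (hM : Stmt_Basis 𝒢 (MFG 𝒢))
    (hfree : ∃ (L : Type) (_ : Fintype L) (κ' : L → ℤ) (G : L → ℍ → ℂ),
      IsFreeBasis (CFG 𝒢) κ' G) :
    Stmt_Basis 𝒢 (CFG 𝒢) := by
  classical
  obtain ⟨L, _, κ', G, hG⟩ := hfree
  obtain ⟨κ, F, hF, z0, hz0⟩ := hM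
  have hΔ := discriminant_mem_RR
  have hexp : ∀ q' : Q 𝒢, ∃ P : L → ℍ → ℂ,
      (∀ l, P l ∈ RR (12 + κ q' - κ' l)) ∧ ModularForm.discriminant * F q' = ∑ l, P l * G l :=
    fun q' => (hG.2 _ _ (by
      have := CFG_mul_mem (hF.1 q') (discriminant_mem_CFG h𝒢)
      rwa [mul_comm, add_comm] at this)).exists
  choose P hP1 hP2 using hexp
  refine stmt_Basis_of_block (CFG 𝒢) (CFG_le_MFG 𝒢) κ' G hG z0
    (Matrix.of fun l q' => P q' l z0) ?_
  have hV : (Matrix.of fun (q : Q 𝒢) (l : L) => tr 𝒢 (κ' l) (G l) q z0) *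
      (Matrix.of fun l q' => P q' l z0) =
      ModularForm.discriminant z0 • transMatrix 𝒢 κ F z0 := by
    ext q q'
    simp only [Matrix.mul_apply, Matrix.of_apply, Matrix.smul_apply, transMatrix, smul_eq_mul]
    have e1 := tr_levelOne_mul (𝒢 := 𝒢) (b := κ q') hΔ (F q') q
    rw [hP2 q', tr_sum] at e1
    have e2 : ∀ l, tr 𝒢 (12 + κ q') (P q' l * G l) q = P q' l * tr 𝒢 (κ' l) (G l) q :=
      fun l => by
        have := tr_levelOne_mul (𝒢 := 𝒢) (b := κ' l) (hP1 q' l) (G l) q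
        rwa [sub_add_cancel] at this
    simp only [e2] at e1
    have e3 := congrFun e1 z0
    simp only [Finset.sum_apply, Pi.mul_apply] at e3
    rw [← e3]
    exact Finset.sum_congr rfl fun l _ => mul_comm _ _
  rw [hV, Matrix.det_smul]
  refine mul_ne_zero (pow_ne_zero _ (ModularForm.discriminant_ne_zero z0)) ?_
  unfold fundDet at hz0
  convert hz0

/-! ### Goal-level statements -/

/-- Existence of a finite homogeneous free basis of `MFG 𝒢` (any finite index type). -/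
def Goal_FreeM : Prop :=
  ∀ (𝒢 : Subgroup (GL (Fin 2) ℝ)) [𝒢.IsArithmetic] [𝒢.HasDetOne] (N : ℕ), GoodLevel 𝒢 N →
    ∃ (J : Type) (_ : Fintype J) (κ : J → ℤ) (F : J → ℍ → ℂ), IsFreeBasis (MFG 𝒢) κ F

/-- Existence of a finite homogeneous free basis of `CFG 𝒢` (any finite index type). -/
def Goal_FreeS : Prop :=
  ∀ (𝒢 : Subgroup (GL (Fin 2) ℝ)) [𝒢.IsArithmetic] [𝒢.HasDetOne] (N : ℕ), GoodLevel 𝒢 N →
    ∃ (L : Type) (_ : Fintype L) (κ : L → ℤ) (G : L → ℍ → ℂ), IsFreeBasis (CFG 𝒢) κ G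

theorem goal_BasisM_of_free (h : Goal_FreeM) : Goal_BasisM :=
  fun 𝒢 _ _ N hg hseed => basisM_of_free hseed (h 𝒢 N hg)

theorem goal_BasisS_of_free (hM : Goal_FreeM) (hS : Goal_FreeS) : Goal_BasisS :=
  fun 𝒢 _ _ N hg hseed =>
    basisS_of_free hg.le (basisM_of_free hseed (hM 𝒢 N hg)) (hS 𝒢 N hg)

end

end Fermat.Agent.S20.helper7249
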