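/-
S20, seat helper7249: the spec goals `helper560.Goal_BasisM` and `helper560.Goal_BasisS`
(no hypotheses), from the basis bridge `helper7249_BasisBridge` and the existence of finite
free bases `helper813.free_MFG`, `helper813.free_CFG`.
-/
import Fermat.Agent.S20.helper7249_BasisBridge
import Fermat.Agent.S20.helper813_Free

set_option autoImplicit false

namespace Fermat.Agent.S20.helper7249

open Fermat.Agent.S20.helper560

/-- The spec goal `Goal_BasisM` of `helper560_Spec`. -/
theorem goal_BasisM : Goal_BasisM :=
  goal_BasisM_of_free Fermat.Agent.S20.helper813.free_MFG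

/-- The spec goal `Goal_BasisS` of `helper560_Spec`. -/
theorem goal_BasisS : Goal_BasisS :=
  goal_BasisS_of_free Fermat.Agent.S20.helper813.free_MFG Fermat.Agent.S20.helper813.free_CFG

end Fermat.Agent.S20.helper7249
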