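/-
S20 helper file (seat helper800): quasi-periodic holomorphic functions on `ℍ`.

If `ψ` is holomorphic on `ℍ`, bounded at `i∞` and `ψ(z + 1) = e^{2πis} ψ(z)` with `0 ≤ s < 1`,
then `h(z) = e^{-2πisz} ψ(z)` is `1`-periodic, holomorphic and bounded at `i∞`, hence has a limit
at `i∞`; and if this limit is `0` then `ψ = O(e^{-2π Im z})`.
No `q`-expansion coefficients are used (only Mathlib's exponential decay lemma).
-/
import Fermat.Agent.S20.helper500_Twist

set_option autoImplicit false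

open Complex Filter Function Asymptotics UpperHalfPlane
open scoped Real Topology Manifold

namespace Fermat.Agent.S20.helper800

noncomputable section

/-- `z ↦ exp (c * z)` is holomorphic on `ℍ`. -/
lemma mdiff_cexp_mul (c : ℂ) : MDiff (fun z : ℍ => cexp (c * (z : ℂ))) := by
  intro τ
  rw [UpperHalfPlane.mdifferentiableAt_iff]
  have h2 : DifferentiableAt ℂ (fun w : ℂ => cexp (c * w)) (τ : ℂ) := by fun_prop
  refine h2.congr_of_eventuallyEq ?_
  have hopen : {w : ℂ | 0 < w.im} ∈ 𝓝 (τ : ℂ) :=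
    UpperHalfPlane.isOpen_upperHalfPlaneSet.mem_nhds τ.im_pos
  filter_upwards [hopen] with w hw
  simp only [comp_apply, UpperHalfPlane.ofComplex_apply_of_im_pos hw]

lemma norm_cexp_two_pi_I_mul (t : ℝ) (z : ℍ) :
    ‖cexp (2 * π * Complex.I * t * (z : ℂ))‖ = Real.exp (-2 * π * t * z.im) := by
  rw [Complex.norm_exp]
  congr 1
  simp

/-- A quasi-periodic function: holomorphic, bounded at `i∞`, multiplier `e^{2πis}` under
`z ↦ z + 1`. -/
structure QP (s : ℝ) (ψ : ℍ → ℂ) : Prop where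
  holo : MDiff ψ
  bdd : IsBoundedAtImInfty ψ
  per : ∀ z : ℍ, ψ ((1 : ℝ) +ᵥ z) = cexp (2 * π * Complex.I * s) * ψ z

/-- The normalised function `e^{-2πisz} ψ(z)`. -/
def qpNorm (s : ℝ) (ψ : ℍ → ℂ) : ℍ → ℂ := fun z => cexp (2 * π * Complex.I * (-s : ℝ) * (z : ℂ)) * ψ z

variable {s : ℝ} {ψ : ℍ → ℂ}

lemma qpNorm_vadd_one (h : QP s ψ) (z : ℍ) : qpNorm s ψ ((1 : ℝ) +ᵥ z) = qpNorm s ψ z := by
  simp only [qpNorm, h.per z, UpperHalfPlane.coe_vadd]
  rw [← mul_assoc, ← Complex.exp_add]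
  congr 2
  push_cast
  ring

lemma mdiff_qpNorm (h : QP s ψ) : MDiff (qpNorm s ψ) :=
  (mdiff_cexp_mul (2 * π * Complex.I * (-s : ℝ))).mul h.holo

lemma tendsto_im_atImInfty' : Tendsto (fun z : ℍ => z.im) atImInfty atTop := tendsto_comap

/-- `e^{2πi(1-s)z} ψ(z)` tends to zero when `s < 1`. -/
lemma isZeroAtImInfty_aux (hs1 : s < 1) (h : QP s ψ) :
    IsZeroAtImInfty (fun z : ℍ => cexp (2 * π * Complex.I * (1 - s : ℝ) * (z : ℂ)) * ψ z) := by
  have h1 : Tendsto (fun z : ℍ => cexp (2 * π * Complex.I * (1 - s : ℝ) * (z : ℂ))) atImInfty (𝓝 0) := by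
    rw [tendsto_zero_iff_norm_tendsto_zero]
    simp_rw [norm_cexp_two_pi_I_mul]
    have := helper500.tendsto_exp_neg_mul_im (c := 2 * π * (1 - s))
      (by have := Real.pi_pos; nlinarith)
    refine this.congr fun z => ?_
    congr 1
    ring
  have h2 : (fun z : ℍ => cexp (2 * π * Complex.I * (1 - s : ℝ) * (z : ℂ))) =o[atImInfty]
      (fun _ : ℍ => (1 : ℝ)) := (isLittleO_one_iff ℝ).mpr h1
  have h3 : ψ =O[atImInfty] (fun _ : ℍ => (1 : ℝ)) := h.bdd
  have h4 := h2.mul_isBigO h3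
  simp only [mul_one] at h4
  exact (isLittleO_one_iff ℝ).mp h4

/-- The normalised function is bounded at `i∞`. -/
lemma bdd_qpNorm (hs1 : s < 1) (h : QP s ψ) : IsBoundedAtImInfty (qpNorm s ψ) := by
  set g : ℍ → ℂ := fun z : ℍ => cexp (2 * π * Complex.I * (1 - s : ℝ) * (z : ℂ)) * ψ z with hg
  have hg0 : IsZeroAtImInfty g := isZeroAtImInfty_aux hs1 h
  have hgper : ∀ z : ℍ, g ((1 : ℝ) +ᵥ z) = g z := by
    intro z
    simp only [hg, h.per z, UpperHalfPlane.coe_vadd]
    rw [← mul_assoc, ← Complex.exp_add]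
    congr 1
    have : 2 * π * Complex.I * ((1 - s : ℝ) : ℂ) * (((1 : ℝ) : ℂ) + (z : ℂ)) + 2 * π * Complex.I * s
        = 2 * π * Complex.I * ((1 - s : ℝ) : ℂ) * (z : ℂ) + 2 * π * Complex.I := by
      push_cast
      ring
    rw [this, Complex.exp_add, Complex.exp_two_pi_mul_I, mul_one]
  have hgholo : MDiff g := (mdiff_cexp_mul (2 * π * Complex.I * (1 - s : ℝ))).mul h.holo
  have hdecay := hg0.exp_decay_atImInfty one_pos
    (helper500.periodic_comp_ofComplex_of_vadd hgper) hgholo hg0.isBoundedAtImInfty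
  have hE : (fun z : ℍ => cexp (2 * π * Complex.I * (-1 : ℝ) * (z : ℂ))) =O[atImInfty]
      fun z : ℍ => Real.exp (2 * π * z.im) := by
    refine IsBigO.of_bound 1 (Eventually.of_forall fun z => ?_)
    rw [norm_cexp_two_pi_I_mul, one_mul, Real.norm_of_nonneg (Real.exp_pos _).le]
    apply le_of_eq
    congr 1
    ring
  have hprod := hE.mul hdecay
  have e1 : (fun z : ℍ => cexp (2 * π * Complex.I * (-1 : ℝ) * (z : ℂ)) * g z) = qpNorm s ψ := by
    funext z
    simp only [hg, qpNorm]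
    rw [← mul_assoc, ← Complex.exp_add]
    congr 2
    push_cast
    ring
  have e2 : (fun z : ℍ => Real.exp (2 * π * z.im) * Real.exp (-2 * π * z.im / 1))
      = fun _ : ℍ => (1 : ℝ) := by
    funext z
    rw [← Real.exp_add]
    have : 2 * π * z.im + -2 * π * z.im / 1 = 0 := by ring
    rw [this, Real.exp_zero]
  rw [e1, e2] at hprod
  exact hprod

/-- **Quasi-periodic limit.** The normalised function has a limit at `i∞`. -/
theorem tendsto_qpNorm (hs1 : s < 1) (h : QP s ψ) :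
    Tendsto (qpNorm s ψ) atImInfty (𝓝 (valueAtInfty (qpNorm s ψ))) :=
  helper500.tendsto_valueAtInfty (qpNorm_vadd_one h) (mdiff_qpNorm h) (bdd_qpNorm hs1 h)

/-- If the limit of the normalised function is `0` (and `0 ≤ s`), then `ψ` decays like
`e^{-2π Im z}`. -/
theorem isBigO_of_tendsto_qpNorm_zero (hs0 : 0 ≤ s) (hs1 : s < 1) (h : QP s ψ)
    (h0 : Tendsto (qpNorm s ψ) atImInfty (𝓝 0)) :
    ψ =O[atImInfty] fun z : ℍ => Real.exp (-2 * π * z.im) := by
  have hz : IsZeroAtImInfty (qpNorm s ψ) := h0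
  have hdecay := hz.exp_decay_atImInfty one_pos
    (helper500.periodic_comp_ofComplex_of_vadd (qpNorm_vadd_one h)) (mdiff_qpNorm h)
    (bdd_qpNorm hs1 h)
  have hE : (fun z : ℍ => cexp (2 * π * Complex.I * (s : ℝ) * (z : ℂ))) =O[atImInfty]
      fun _ : ℍ => (1 : ℝ) := by
    refine IsBigO.of_bound 1 (Eventually.of_forall fun z => ?_)
    rw [norm_cexp_two_pi_I_mul, one_mul, norm_one]
    apply Real.exp_le_one_iff.mpr
    have := Real.pi_pos
    have := z.im_pos
    nlinarith [mul_nonneg hs0 z.im_pos.le]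
  have hprod := hE.mul hdecay
  have e1 : (fun z : ℍ => cexp (2 * π * Complex.I * (s : ℝ) * (z : ℂ)) * qpNorm s ψ z) = ψ := by
    funext z
    simp only [qpNorm]
    rw [← mul_assoc, ← Complex.exp_add]
    have : 2 * π * Complex.I * (s : ℂ) * (z : ℂ) + 2 * π * Complex.I * ((-s : ℝ) : ℂ) * (z : ℂ) = 0 := by
      push_cast
      ring
    rw [this, Complex.exp_zero, one_mul]
  have e2 : (fun z : ℍ => (1 : ℝ) * Real.exp (-2 * π * z.im / 1))
      = fun z : ℍ => Real.exp (-2 * π * z.im) := by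
    funext z
    rw [one_mul, div_one]
  rw [e1, e2] at hprod
  exact hprod

/-- Linear combinations of bounded functions are bounded at `i∞`. -/
lemma isBoundedAtImInfty_sum_smul {ι : Type*} (t : Finset ι) (c : ι → ℂ) (ψs : ι → ℍ → ℂ)
    (hbdd : ∀ i ∈ t, IsBoundedAtImInfty (ψs i)) :
    IsBoundedAtImInfty (∑ i ∈ t, c i • ψs i) := by
  classical
  induction t using Finset.induction_on with
  | empty =>
    simp only [Finset.sum_empty]
    exact zero_form_isBoundedAtImInfty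
  | insert a t ha ih =>
    rw [Finset.sum_insert ha]
    exact BoundedAtFilter.add ((hbdd a (Finset.mem_insert_self a t)).smul (c a))
      (ih fun i hi => hbdd i (Finset.mem_insert_of_mem hi))

/-- Linear combinations of functions with the same multiplier. -/
lemma QP.sum {ι : Type} (t : Finset ι) {c : ι → ℂ} {ψs : ι → ℍ → ℂ}
    (hholo : ∀ i ∈ t, MDiff (ψs i)) (hbdd : ∀ i ∈ t, IsBoundedAtImInfty (ψs i))
    (hper : ∀ z : ℍ, ∑ i ∈ t, c i * ψs i ((1 : ℝ) +ᵥ z)
      = cexp (2 * π * Complex.I * s) * ∑ i ∈ t, c i * ψs i z) :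
    QP s (fun z => ∑ i ∈ t, c i * ψs i z) := by
  have e : (fun z => ∑ i ∈ t, c i * ψs i z) = ∑ i ∈ t, c i • ψs i := by
    funext z
    simp [Finset.sum_apply]
  refine ⟨?_, ?_, hper⟩
  · rw [e]
    refine MDifferentiable.sum (f := fun i => c i • ψs i) (fun i hi => ?_)
    exact (hholo i hi).const_smul (c i)
  · rw [e]
    exact isBoundedAtImInfty_sum_smul t c ψs hbdd

end

end Fermat.Agent.S20.helper800
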