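/-
S20 helper file (seat helper800): growth comparison at `i∞`.

Abstract form of "cusp data + Liouville ⟹ sum of the weights": if a matrix valued function
`M` on `ℍ` satisfies `(det M)^12 = c Δ^K` (`c ≠ 0`) and `diag(e^{-2πi s_x z}) · V · M(z) → Λ`
with `V`, `Λ` invertible, then `K = 12 ∑ s_x`.
(The proof is the one of `helper1040.stmt_sumKappa`, restated for an arbitrary matrix function.)
-/
import Fermat.Agent.S20.helper800_QuasiPeriodic

set_option autoImplicit false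

open Complex Filter Function Asymptotics UpperHalfPlane
open scoped Real Topology Manifold

namespace Fermat.Agent.S20.helper800

noncomputable section

/-- `|Δ(z)| = e^{-2π Im z} · |u(z)|` with `u → 1`. -/
theorem norm_discriminant_eq' (z : ℍ) :
    ‖ModularForm.discriminant z‖ =
      Real.exp (-2 * π * z.im) * ‖∏' n : ℕ, (1 - ModularForm.eta_q n z) ^ 24‖ := by
  rw [ModularForm.discriminant_eq_q_prod, norm_mul]
  congr 1
  simp [Function.Periodic.qParam, Complex.norm_exp]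

theorem real_exp_int_mul' (x : ℝ) (n : ℤ) : Real.exp (n * x) = Real.exp x ^ n := by
  rw [mul_comm, Real.exp_mul, Real.rpow_intCast]

/-- **Growth comparison.** -/
theorem exponent_sum_eq {X : Type} [Fintype X] [DecidableEq X]
    (M : ℍ → Matrix X X ℂ) (V Λ : Matrix X X ℂ) (s : X → ℝ) (c : ℂ) (K : ℤ)
    (hV : V.det ≠ 0) (hΛ : Λ.det ≠ 0)
    (hT : ∀ x y, Tendsto (fun z : ℍ =>
      cexp (2 * π * Complex.I * (-(s x) : ℝ) * (z : ℂ)) * (V * M z) x y) atImInfty (𝓝 (Λ x y)))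
    (hc : c ≠ 0)
    (hdet : ∀ z : ℍ, (M z).det ^ 12 = c * (ModularForm.discriminant z) ^ K) :
    (K : ℝ) = 12 * ∑ x, s x := by
  set S : ℝ := ∑ x, s x with hS
  -- the matrix C(z)
  let C : ℍ → Matrix X X ℂ := fun z =>
    Matrix.of fun x y => cexp (2 * π * Complex.I * (-(s x) : ℝ) * (z : ℂ)) * (V * M z) x y
  have hC : Tendsto C atImInfty (𝓝 Λ) :=
    tendsto_pi_nhds.mpr fun x => tendsto_pi_nhds.mpr fun y => hT x y
  have hdetC : Tendsto (fun z => (C z).det) atImInfty (𝓝 Λ.det) :=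
    ((continuous_id.matrix_det).tendsto Λ).comp hC
  have hCdet : ∀ z : ℍ, (C z).det =
      (∏ x, cexp (2 * π * Complex.I * (-(s x) : ℝ) * (z : ℂ))) * (V.det * (M z).det) := by
    intro z
    have h1 : C z = Matrix.diagonal
        (fun x => cexp (2 * π * Complex.I * (-(s x) : ℝ) * (z : ℂ))) * (V * M z) := by
      ext x y
      simp [C, Matrix.diagonal_mul]
    rw [h1, Matrix.det_mul, Matrix.det_diagonal, Matrix.det_mul]
  have hnormC : ∀ z : ℍ, ‖(C z).det‖ =
      Real.exp (2 * π * S * z.im) * (‖V.det‖ * ‖(M z).det‖) := by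
    intro z
    rw [hCdet, norm_mul, norm_mul, norm_prod]
    congr 1
    simp_rw [norm_cexp_two_pi_I_mul]
    rw [← Real.exp_sum]
    congr 1
    rw [hS, Finset.mul_sum, Finset.sum_mul]
    refine Finset.sum_congr rfl fun x _ => ?_
    ring
  -- norm form of the Liouville identity
  set u : ℍ → ℂ := fun z => ∏' n : ℕ, (1 - ModularForm.eta_q n z) ^ 24 with hu
  have hu1 : Tendsto u atImInfty (𝓝 1) := ModularForm.tendsto_atImInfty_tprod_one_sub_eta_q_pow
  set a : ℝ := 12 * S - K with ha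
  have hV' : ‖V.det‖ ≠ 0 := norm_ne_zero_iff.mpr hV
  have hkey : ∀ z : ℍ, Real.exp (-2 * π * a * z.im) * ((‖V.det‖ ^ 12)⁻¹ * ‖(C z).det‖ ^ 12) =
      ‖c‖ * ‖u z‖ ^ K := by
    intro z
    have h1 := congrArg norm (hdet z)
    rw [norm_pow, norm_mul, norm_zpow, norm_discriminant_eq'] at h1
    have h2 : ‖(M z).det‖ =
        Real.exp (-(2 * π * S * z.im)) * (‖V.det‖⁻¹ * ‖(C z).det‖) := by
      rw [hnormC z, Real.exp_neg]
      have := (Real.exp_pos (2 * π * S * z.im)).ne'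
      field_simp
    rw [h2] at h1
    rw [mul_pow, mul_zpow, ← Real.exp_nat_mul, ← real_exp_int_mul', mul_pow, inv_pow] at h1
    have hEK : Real.exp ((K : ℝ) * (-2 * π * z.im)) ≠ 0 := (Real.exp_pos _).ne'
    have h3 : Real.exp (-2 * π * a * z.im) =
        Real.exp (((12 : ℕ) : ℝ) * -(2 * π * S * z.im)) *
          (Real.exp ((K : ℝ) * (-2 * π * z.im)))⁻¹ := by
      rw [← Real.exp_neg, ← Real.exp_add]
      congr 1
      rw [ha]
      push_cast
      ring
    rw [h3]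
    calc Real.exp (((12 : ℕ) : ℝ) * -(2 * π * S * z.im)) *
          (Real.exp ((K : ℝ) * (-2 * π * z.im)))⁻¹ * ((‖V.det‖ ^ 12)⁻¹ * ‖(C z).det‖ ^ 12)
        = (Real.exp ((K : ℝ) * (-2 * π * z.im)))⁻¹ *
            (Real.exp (((12 : ℕ) : ℝ) * -(2 * π * S * z.im)) *
              ((‖V.det‖ ^ 12)⁻¹ * ‖(C z).det‖ ^ 12)) := by ring
      _ = (Real.exp ((K : ℝ) * (-2 * π * z.im)))⁻¹ *
            (‖c‖ * (Real.exp ((K : ℝ) * (-2 * π * z.im)) * ‖u z‖ ^ K)) := by rw [h1]
      _ = ‖c‖ * ‖u z‖ ^ K := by field_simp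
  have hP : Tendsto (fun z => (‖V.det‖ ^ 12)⁻¹ * ‖(C z).det‖ ^ 12) atImInfty
      (𝓝 ((‖V.det‖ ^ 12)⁻¹ * ‖Λ.det‖ ^ 12)) := (hdetC.norm.pow 12).const_mul _
  have hP0 : 0 < (‖V.det‖ ^ 12)⁻¹ * ‖Λ.det‖ ^ 12 := by
    have h1 : 0 < ‖V.det‖ := norm_pos_iff.mpr hV
    have h2 : 0 < ‖Λ.det‖ := norm_pos_iff.mpr hΛ
    positivity
  have hQ : Tendsto (fun z => ‖c‖ * ‖u z‖ ^ K) atImInfty (𝓝 (‖c‖ * 1)) := by
    have h1 : Tendsto (fun z => ‖u z‖) atImInfty (𝓝 1) := by
      simpa using hu1.norm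
    have h2 := h1.zpow₀ K (Or.inl one_ne_zero)
    rw [one_zpow] at h2
    exact h2.const_mul _
  have hc' : 0 < ‖c‖ := norm_pos_iff.mpr hc
  have ha0 : a = 0 := by
    rcases lt_trichotomy a 0 with hneg | h0 | hpos
    · exfalso
      have hE : Tendsto (fun z : ℍ => Real.exp (-2 * π * a * z.im)) atImInfty atTop := by
        refine Real.tendsto_exp_atTop.comp ?_
        exact tendsto_im_atImInfty'.const_mul_atTop (by nlinarith [Real.pi_pos])
      have hEP := hE.atTop_mul_pos hP0 hP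
      have h3 : Tendsto (fun z => ‖c‖ * ‖u z‖ ^ K) atImInfty atTop :=
        hEP.congr hkey
      exact not_tendsto_nhds_of_tendsto_atTop h3 _ hQ
    · exact h0
    · exfalso
      have hE : Tendsto (fun z : ℍ => Real.exp (-2 * π * a * z.im)) atImInfty (𝓝 0) := by
        refine Real.tendsto_exp_atBot.comp ?_
        exact tendsto_im_atImInfty'.const_mul_atTop_of_neg (by nlinarith [Real.pi_pos])
      have hEP := hE.mul hP
      rw [zero_mul] at hEP
      have h3 := tendsto_nhds_unique (hEP.congr hkey) hQ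
      linarith
  rw [ha] at ha0
  linarith

end

end Fermat.Agent.S20.helper800
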