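/-
S20 (seat helper800): `Goal_SumWeights` of the sandwich assembly (`helper260_Sandwich`), i.e.
`∑ κ j + 6 * cusps = 6 * mu` for every coset-indexed free basis with nowhere vanishing
fundamental determinant, by the LIOUVILLE route:

* `fundDet_pow_eq`     : `(fundDet)^12 = c Δ^(∑ κ)`  (Serre derivative + Jacobi formula);
* `exists_cuspData`    : block DFT `V` along the `T`-orbits (`helper1177.exists_orbit_dft`), the
  rows of `V · Φ(z)` are quasi-periodic, `diag(e^{-2πi s_x z}) · V · Φ(z) → Λ`, and `Λ` is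
  invertible (homogenise, divide by `Δ`, uniqueness of expansions);
* `exponent_sum_eq`    : growth comparison.
No `q_N`-expansion coefficients are used.
-/
import Fermat.Agent.S20.helper800_Growth
import Fermat.Agent.S20.helper260_Sandwich
import Fermat.Agent.S20.helper1855_Cusp
import Fermat.Agent.S20.helper1177_OrbitDFT
import Fermat.Agent.S20.helper387_GoalODE
import Fermat.Agent.S20.helper1760_ODE
import Fermat.Agent.S20.helper1760_Liouville
import Fermat.Agent.S20.helper3006_Basic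
import Fermat.Agent.S20.helper646_Free

set_option autoImplicit false

open UpperHalfPlane hiding I
open Complex Derivative Filter Function Asymptotics ModularForm
open scoped Real Topology Manifold MatrixGroups ModularForm

namespace Fermat.Agent.S20.helper800

open Fermat.Agent.S20.helper560

noncomputable section

local notation "Δ" => ModularForm.discriminant

variable {𝒢 : Subgroup (GL (Fin 2) ℝ)} [𝒢.IsArithmetic] [𝒢.HasDetOne]

/-! ### Liouville for the fundamental determinant -/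

/-- `(det Φ)^12 = c Δ^(∑ κ)` for a coset-indexed free basis of `M_*(𝒢)`. -/
theorem fundDet_pow_eq (h𝒢 : 𝒢 ≤ 𝒮ℒ) (κ : Q 𝒢 → ℤ) (F : Q 𝒢 → ℍ → ℂ)
    (hbasis : IsFreeBasis (MFG 𝒢) κ F) :
    ∃ c : ℂ, ∀ z : ℍ, fundDet 𝒢 κ F z ^ 12 = c * Δ z ^ (∑ j, κ j) := by
  classical
  obtain ⟨hmem, hexp⟩ := hbasis
  have hV : ∀ (k : ℤ) (f : ℍ → ℂ), f ∈ MFG 𝒢 k → MDiff f ∧ serreDerivative k f ∈ MFG 𝒢 (k + 2) := by
    rintro k _ ⟨f, rfl⟩
    exact ⟨ModularFormClass.holo f, ⟨helper1760.serreDMFaux h𝒢 k f, rfl⟩⟩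
  have hex : ∀ j, ∃ P : Q 𝒢 → ℍ → ℂ, (∀ i, P i ∈ RR (κ j + 2 - κ i)) ∧
      serreDerivative (κ j) (F j) = ∑ i, P i * F i := by
    intro j
    obtain ⟨P, ⟨hP1, hP2⟩, -⟩ := hexp (κ j + 2) _ (hV (κ j) (F j) (hmem j)).2
    exact ⟨P, hP1, hP2⟩
  choose P hP1 hP2 using hex
  have hγ : ∀ q : Q 𝒢, ∃ γ : SL(2, ℤ),
      Matrix.SpecialLinearGroup.mapGL ℝ γ = ((q.out : 𝒮ℒ) : GL (Fin 2) ℝ)⁻¹ := by
    intro q
    obtain ⟨γ, hγ⟩ := ((q.out)⁻¹ : 𝒮ℒ).2
    exact ⟨γ, hγ⟩
  choose γ hγ using hγ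
  have htr : ∀ (k : ℤ) (f : ℍ → ℂ) (q : Q 𝒢), tr 𝒢 k f q = f ∣[k] (γ q) := by
    intro k f q
    unfold tr
    rw [← hγ q]
    rfl
  have hdiag : ∀ j (w : ℍ), P j j w = 0 := by
    intro j w
    have h2 : P j j ∈ RR 2 := by
      have := hP1 j j
      rwa [show κ j + 2 - κ j = 2 by ring] at this
    rw [helper1760.eq_zero_of_mem_RR_two h2]
    rfl
  have hode : ∀ q j (w : ℍ), D (tr 𝒢 (κ j) (F j) q) w =
      ∑ i, tr 𝒢 (κ i) (F i) q w * P j i w
        + (κ j : ℂ) * 12⁻¹ * EisensteinSeries.E2 w * tr 𝒢 (κ j) (F j) q w := by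
    intro q j w
    simp only [htr]
    exact helper1760.D_slash_of_expansion (γ q) (κ j) (F j) (hV _ _ (hmem j)).1 κ F (P j)
      (hP1 j) (hP2 j) w
  have hΦ : ∀ q j, MDiff (tr 𝒢 (κ j) (F j) q) := by
    intro q j
    rw [htr]
    exact (hV _ _ (hmem j)).1.slash _ _
  obtain ⟨c, hc⟩ := helper1760.Abs.exists_det_pow_eq (fun q j => tr 𝒢 (κ j) (F j) q) hΦ
    (fun i j => P j i) κ hdiag hode
  exact ⟨c, fun z => by simpa [fundDet, transMatrix] using hc z⟩

/-! ### Level one forms -/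

omit [𝒢.IsArithmetic] [𝒢.HasDetOne] in
lemma RR_mul {a b : ℤ} {P R : ℍ → ℂ} (hP : P ∈ RR a) (hR : R ∈ RR b) : P * R ∈ RR (a + b) := by
  obtain ⟨P', rfl⟩ := hP
  obtain ⟨R', rfl⟩ := hR
  exact ⟨P'.mul R', rfl⟩

lemma one_mem_RR : (1 : ℍ → ℂ) ∈ RR 0 := ⟨1, ModularForm.one_coe_eq_one⟩

lemma RR_pow {a : ℤ} {P : ℍ → ℂ} (hP : P ∈ RR a) (n : ℕ) : P ^ n ∈ RR (n * a) := by
  induction n with
  | zero => simpa using one_mem_RR
  | succ n ih =>
    have h := RR_mul ih hP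
    rw [pow_succ]
    have e : ((n + 1 : ℕ) : ℤ) * a = n * a + a := by push_cast; ring
    rw [e]
    exact h

lemma RR_vadd_one {a : ℤ} {P : ℍ → ℂ} (hP : P ∈ RR a) (z : ℍ) : P ((1 : ℝ) +ᵥ z) = P z := by
  have h := helper1760.slash_eq_self_of_mem_RR hP ModularGroup.T
  have h2 := helper1220.slash_T_zpow_apply (k := a) P 1 z
  rw [zpow_one, h] at h2
  rw [h2]
  simp

lemma RR_mdiff {a : ℤ} {P : ℍ → ℂ} (hP : P ∈ RR a) : MDiff P := by
  obtain ⟨P', rfl⟩ := hP
  exact ModularFormClass.holo P'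

lemma RR_bdd {a : ℤ} {P : ℍ → ℂ} (hP : P ∈ RR a) : IsBoundedAtImInfty P := by
  obtain ⟨P', rfl⟩ := hP
  have := ModularFormClass.bdd_at_infty_slash P' (1 : SL(2, ℤ))
  rwa [SlashAction.slash_one] at this

/-- For every even `m ≥ 4` there is a level one form of weight `m` tending to `1` at `i∞`. -/
lemma exists_RR_tendsto_one {m : ℤ} (hm : 4 ≤ m) (he : Even m) :
    ∃ A : ℍ → ℂ, A ∈ RR m ∧ Tendsto A atImInfty (𝓝 1) := by
  have h4 : (⇑E₄ : ℍ → ℂ) ∈ RR 4 := ⟨E₄, rfl⟩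
  have h6 : (⇑E₆ : ℍ → ℂ) ∈ RR 6 := ⟨E₆, rfl⟩
  obtain ⟨r, hr⟩ := he
  rcases Int.emod_two_eq_zero_or_one r with h0 | h1
  · -- m = 4 * a
    obtain ⟨a, ha⟩ : ∃ a : ℕ, m = a * 4 := ⟨(r / 2).toNat, by omega⟩
    refine ⟨(⇑E₄) ^ a, ha ▸ RR_pow h4 a, ?_⟩
    have := helper646.tendsto_E4.pow a
    rw [one_pow] at this
    exact this
  · -- m = 4 * a + 6
    obtain ⟨a, ha⟩ : ∃ a : ℕ, m = a * 4 + 6 := ⟨((r - 3) / 2).toNat, by omega⟩
    refine ⟨(⇑E₄) ^ a * ⇑E₆, ha ▸ RR_mul (RR_pow h4 a) h6, ?_⟩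
    have := (helper646.tendsto_E4.pow a).mul helper646.tendsto_E6
    rw [one_pow, one_mul] at this
    exact this

/-! ### Division by `Δ` from decay of all translates -/

/-- If all translates of `f ∈ M_k(𝒢)` are `O(Δ)` at `i∞`, then `f = Δ · g` with
`g ∈ M_{k-12}(𝒢)`. (Big-O variant of `helper1855.exists_eq_discriminant_mul`.) -/
theorem exists_eq_discriminant_mul_of_isBigO (hle : 𝒢 ≤ 𝒮ℒ) {k : ℤ} {f : ℍ → ℂ}
    (hf : f ∈ MFG 𝒢 k) (h : ∀ q : Q 𝒢, tr 𝒢 k f q =O[atImInfty] Δ) :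
    ∃ g ∈ MFG 𝒢 (k - 12), f = Δ * g := by
  obtain ⟨F, rfl⟩ := hf
  have key : ∀ γ : SL(2, ℤ), (⇑F ∣[k] γ) =O[atImInfty] Δ := by
    intro γ
    rw [helper1855.slash_eq_tr]
    exact h _
  refine ⟨fun z ↦ F z / Δ z, ⟨{ toFun := fun z ↦ F z / Δ z
                                slash_action_eq' := ?_
                                holo' := ?_
                                bdd_at_cusps' := ?_ }, rfl⟩, ?_⟩
  · intro γ hγ
    obtain ⟨γ', rfl⟩ := hle hγ
    have h1 := helper1220.div_discriminant_slash (k := k) (⇑F) γ'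
    have h2 : (⇑F ∣[k] γ') = ⇑F := SlashInvariantForm.slash_action_eqn F _ hγ
    rw [h2] at h1
    exact h1
  · exact (ModularFormClass.holo F).div CuspForm.discriminant.holo' discriminant_ne_zero
  · intro c hc
    rw [Subgroup.IsArithmetic.isCusp_iff_isCusp_SL2Z] at hc
    rw [OnePoint.isBoundedAt_iff_forall_SL2Z hc]
    intro γ _
    rw [helper1220.div_discriminant_slash (k := k) (⇑F) γ, IsBoundedAtImInfty, BoundedAtFilter]
    exact (div_isBoundedUnder_of_isBigO (key γ)).isBigO_one ℝ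
  · ext z
    simp only [Pi.mul_apply]
    field_simp [discriminant_ne_zero z]

/-! ### Cusp data -/

/-- The rows of `V · Φ` are quasi-periodic when `V` has the shift property along `T`. -/
lemma qp_row {N : ℕ} (hG : GoodLevel 𝒢 N) {V : Matrix (Q 𝒢) (Q 𝒢) ℂ} {s : Q 𝒢 → ℝ}
    (hshift : ∀ x x', V x (sl ModularGroup.T • x') =
      cexp (2 * π * Complex.I * (s x : ℂ)) * V x x')
    {k : ℤ} {f : ℍ → ℂ} (hf : f ∈ MFG 𝒢 k) (x : Q 𝒢) :
    QP (s x) (fun z => ∑ x', V x x' * tr 𝒢 k f x' z) := by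
  refine QP.sum Finset.univ (fun x' _ => (helper1855.nice_tr hG hf x').holo)
    (fun x' _ => (helper1855.nice_tr hG hf x').bdd) ?_
  intro z
  rw [Finset.mul_sum, ← Equiv.sum_comp (MulAction.toPerm (sl ModularGroup.T))]
  refine Finset.sum_congr rfl fun y _ => ?_
  simp only [MulAction.toPerm_apply]
  rw [hshift, ← helper1855.tr_T_inv_smul_apply hf, inv_smul_smul]
  ring

/-- **Cusp data** for a coset-indexed free basis: block DFT `V` along the `T`-orbits, exponents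
`s`, and an invertible limit matrix `Λ` of `diag(e^{-2πi s_x z}) · V · Φ(z)`. -/
theorem exists_cuspData [DecidableEq (Q 𝒢)] {N : ℕ} (hG : GoodLevel 𝒢 N) (hBasic : Stmt_Basic 𝒢)
    {κ : Q 𝒢 → ℤ} {F : Q 𝒢 → ℍ → ℂ} (hF : IsFreeBasis (MFG 𝒢) κ F) (hne : ∀ j, F j ≠ 0) :
    ∃ (V Λ : Matrix (Q 𝒢) (Q 𝒢) ℂ) (s : Q 𝒢 → ℝ), V.det ≠ 0 ∧ Λ.det ≠ 0 ∧
      2 * ∑ x, s x = (mu 𝒢 : ℝ) - (cusps 𝒢 : ℝ) ∧
      ∀ x j, Tendsto (fun z : ℍ => cexp (2 * π * Complex.I * (-(s x) : ℝ) * (z : ℂ)) *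
        (V * transMatrix 𝒢 κ F z) x j) atImInfty (𝓝 (Λ x j)) := by
  obtain ⟨hneg, hodd, hM0, hS0, hSM, hmulM, hmulS, hfin, hS2⟩ := hBasic
  obtain ⟨U, V, s, hVU, hs, hshift, hsum⟩ :=
    helper1177.exists_orbit_dft (𝒢.subgroupOf 𝒮ℒ) (sl ModularGroup.T)
  have hUV : U * V = 1 := mul_eq_one_comm.mp hVU
  have hVdet : V.det ≠ 0 := by
    intro h0
    have := congrArg Matrix.det hVU
    rw [Matrix.det_mul, h0, zero_mul, Matrix.det_one] at this
    exact zero_ne_one this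
  have hQP : ∀ {k : ℤ} {f : ℍ → ℂ}, f ∈ MFG 𝒢 k → ∀ x,
      QP (s x) (fun z => ∑ x', V x x' * tr 𝒢 k f x' z) := fun hf x => qp_row hG hshift hf x
  set Ψ : Q 𝒢 → Q 𝒢 → ℍ → ℂ := fun x j z => ∑ x', V x x' * tr 𝒢 (κ j) (F j) x' z with hΨ
  set Λ : Matrix (Q 𝒢) (Q 𝒢) ℂ :=
    Matrix.of fun x j => valueAtInfty (qpNorm (s x) (Ψ x j)) with hΛ
  have hlim : ∀ x j, Tendsto (qpNorm (s x) (Ψ x j)) atImInfty (𝓝 (Λ x j)) :=
    fun x j => tendsto_qpNorm (hs x).2 (hQP (hF.1 j) x)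
  refine ⟨V, Λ, s, hVdet, ?_, ?_, ?_⟩
  · -- `det Λ ≠ 0`
    intro hdet0
    obtain ⟨c, hc0, hc⟩ := Matrix.exists_mulVec_eq_zero_iff.mpr hdet0
    have heven : ∀ j, Even (κ j) := by
      intro j
      rw [← Int.not_odd_iff_even]
      intro ho
      have hmem := hF.1 j
      rw [hodd _ ho] at hmem
      exact hne j ((Submodule.mem_bot ℂ).mp hmem)
    set K0 : ℤ := 2 * (∑ i, |κ i|) + 4 with hK0
    have hK0j : ∀ j, 4 ≤ K0 - κ j ∧ Even (K0 - κ j) := by
      intro j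
      have h1 : κ j ≤ |κ j| := le_abs_self _
      have h2 : |κ j| ≤ ∑ i, |κ i| :=
        Finset.single_le_sum (f := fun i => |κ i|) (fun i _ => abs_nonneg _) (Finset.mem_univ j)
      have h3 : 0 ≤ ∑ i, |κ i| := Finset.sum_nonneg fun i _ => abs_nonneg _
      refine ⟨by omega, ?_⟩
      have : Even K0 := ⟨(∑ i, |κ i|) + 2, by rw [hK0]; ring⟩
      exact this.sub (heven j)
    choose A hA1 hA2 using fun j => exists_RR_tendsto_one (hK0j j).1 (hK0j j).2
    -- the homogenised form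
    set f : ℍ → ℂ := ∑ j, (c j • A j) * F j with hf
    have hcA : ∀ j, c j • A j ∈ RR (K0 - κ j) := fun j => (RR (K0 - κ j)).smul_mem _ (hA1 j)
    have hfmem : f ∈ MFG 𝒢 K0 := by
      refine Submodule.sum_mem _ fun j _ => ?_
      have := hmulM (K0 - κ j) (κ j) _ _ (hcA j) (hF.1 j)
      rwa [sub_add_cancel] at this
    have htr : ∀ x' z, tr 𝒢 K0 f x' z = ∑ j, c j * A j z * tr 𝒢 (κ j) (F j) x' z := by
      intro x' z
      rw [hf, helper387.tr_sum, Finset.sum_apply]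
      refine Finset.sum_congr rfl fun j _ => ?_
      have := helper387.tr_levelOne_mul (𝒢 := 𝒢) (b := κ j) (hcA j) (F j) x'
      rw [sub_add_cancel] at this
      rw [this]
      simp [mul_assoc]
    have hrow : ∀ x z, (∑ x', V x x' * tr 𝒢 K0 f x' z) = ∑ j, c j * A j z * Ψ x j z := by
      intro x z
      simp_rw [htr, hΨ, Finset.mul_sum]
      rw [Finset.sum_comm]
      refine Finset.sum_congr rfl fun j _ => Finset.sum_congr rfl fun x' _ => by ring
    have hlim0 : ∀ x, Tendsto (qpNorm (s x) (fun z => ∑ x', V x x' * tr 𝒢 K0 f x' z))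
        atImInfty (𝓝 0) := by
      intro x
      have h1 : Tendsto (fun z => ∑ j, c j * A j z * qpNorm (s x) (Ψ x j) z) atImInfty
          (𝓝 (∑ j, c j * 1 * Λ x j)) :=
        tendsto_finsetSum _ fun j _ => ((tendsto_const_nhds.mul (hA2 j)).mul (hlim x j))
      have h2 : ∑ j, c j * 1 * Λ x j = 0 := by
        have := congrFun hc x
        simpa [Matrix.mulVec, dotProduct, mul_comm] using this
      rw [h2] at h1
      refine h1.congr fun z => ?_
      simp only [qpNorm, hrow, Finset.mul_sum]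
      refine Finset.sum_congr rfl fun j _ => by ring
    have hrowO : ∀ x, (fun z => ∑ x', V x x' * tr 𝒢 K0 f x' z) =O[atImInfty]
        fun z : ℍ => Real.exp (-2 * π * z.im) :=
      fun x => isBigO_of_tendsto_qpNorm_zero (hs x).1 (hs x).2 (hQP hfmem x) (hlim0 x)
    have htrO : ∀ x', tr 𝒢 K0 f x' =O[atImInfty] Δ := by
      intro x'
      have e : tr 𝒢 K0 f x' = fun z => ∑ x, U x' x * ∑ x'', V x x'' * tr 𝒢 K0 f x'' z := by
        funext z
        simp_rw [Finset.mul_sum]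
        rw [Finset.sum_comm]
        have : ∀ x'', ∑ x, U x' x * (V x x'' * tr 𝒢 K0 f x'' z)
            = (U * V) x' x'' * tr 𝒢 K0 f x'' z := by
          intro x''
          rw [Matrix.mul_apply, Finset.sum_mul]
          refine Finset.sum_congr rfl fun x _ => by ring
        simp_rw [this, hUV, Matrix.one_apply]
        simp
      rw [e]
      refine IsBigO.trans ?_ exp_isBigO_discriminant
      have hsumO := IsBigO.sum (s := Finset.univ) (A := fun x z => U x' x * ∑ x'', V x x'' * tr 𝒢 K0 f x'' z)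
        (g := fun z : ℍ => Real.exp (-2 * π * z.im)) (l := atImInfty)
        fun x _ => (hrowO x).const_mul_left _
      refine hsumO.congr_left fun z => ?_
      simp [Finset.sum_apply]
    obtain ⟨g, hg, hfg⟩ := exists_eq_discriminant_mul_of_isBigO hG.le hfmem htrO
    obtain ⟨B, hB1, hB2⟩ := (hF.2 (K0 - 12) g hg).exists
    have hΔ : (Δ : ℍ → ℂ) ∈ RR 12 := helper1855.discriminant_mem_MFG (𝒢 := 𝒮ℒ) le_rfl
    have hΔB : ∀ j, Δ * B j ∈ RR (K0 - κ j) := by
      intro j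
      have := RR_mul hΔ (hB1 j)
      rwa [show (12 : ℤ) + (K0 - 12 - κ j) = K0 - κ j by ring] at this
    have hf2 : f = ∑ j, (Δ * B j) * F j := by
      rw [hfg, hB2, Finset.mul_sum]
      refine Finset.sum_congr rfl fun j _ => by ring
    have huniq := (hF.2 K0 f hfmem).unique (y₁ := fun j => c j • A j) (y₂ := fun j => Δ * B j)
      ⟨hcA, hf⟩ ⟨hΔB, hf2⟩
    apply hc0
    funext j
    have h1 : Tendsto (fun z => c j * A j z) atImInfty (𝓝 (c j * 1)) :=
      tendsto_const_nhds.mul (hA2 j)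
    have h2 : Tendsto (fun z => Δ z * B j z) atImInfty (𝓝 0) :=
      discriminant_isZeroAtImInfty.mul_boundedAtFilter (RR_bdd (hB1 j))
    have h3 : (fun z => c j * A j z) = fun z => Δ z * B j z := by
      funext z
      have := congrFun (congrFun huniq j) z
      simpa using this
    rw [h3] at h1
    have := tendsto_nhds_unique h1 h2
    simpa using this
  · exact hsum
  · intro x j
    refine (hlim x j).congr fun z => ?_
    simp [qpNorm, hΨ, Matrix.mul_apply, transMatrix]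

/-! ### The sum of the weights -/

theorem stmt_SumWeights {N : ℕ} (hG : GoodLevel 𝒢 N) : helper260.Stmt_SumWeights 𝒢 := by
  classical
  intro κ F hF hdet
  have hBasic := helper3006.goal_Basic 𝒢 N hG
  have hne : ∀ j, F j ≠ 0 := fun j hj =>
    hdet UpperHalfPlane.I (fundDet_eq_zero_of_eq_zero 𝒢 κ F _ j hj)
  obtain ⟨V, Λ, s, hV, hΛ, hsum, hT⟩ := exists_cuspData hG hBasic hF hne
  obtain ⟨c, hc⟩ := fundDet_pow_eq hG.le κ F hF
  have hc0 : c ≠ 0 := by
    rintro rfl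
    have := hc UpperHalfPlane.I
    rw [zero_mul] at this
    exact hdet _ (pow_eq_zero_iff (by norm_num) |>.mp this)
  have hfd : ∀ z, fundDet 𝒢 κ F z = (transMatrix 𝒢 κ F z).det := by
    intro z
    unfold fundDet
    congr
  have key := exponent_sum_eq (fun z => transMatrix 𝒢 κ F z) V Λ s c (∑ j, κ j) hV hΛ hT hc0
    (fun z => by rw [← hfd]; exact hc z)
  have h2 : ((∑ j, κ j : ℤ) : ℝ) + 6 * (cusps 𝒢 : ℝ) = 6 * (mu 𝒢 : ℝ) := by linarith
  exact_mod_cast h2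

/-- The goal `Goal_SumWeights` of the sandwich assembly `helper260_Sandwich`. -/
theorem goal_SumWeights : helper260.Goal_SumWeights := fun _ _ _ _ hG => stmt_SumWeights hG

end

end Fermat.Agent.S20.helper800
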