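/-
S20, DUAL step (helper80): generic core, Mathlib only.

Setting: `𝒢 ≤ 𝒮ℒ` arithmetic, `(Cos 𝒢) = 𝒮ℒ ⧸ 𝒢` (the index type of Mathlib's `quotientFunc`),
a family `F j ∈ M_{k j}(𝒢)` indexed by `(Cos 𝒢)` whose matrix of translates
`Φ(τ) = (quotientFunc (F j) q τ)_{q,j}` is invertible for every `τ`.
-/
import Mathlib

set_option autoImplicit false
set_option linter.unusedSectionVars false

namespace Fermat.Agent.S20.helper80

open UpperHalfPlane ModularForm Matrix.SpecialLinearGroup Filter Topology SlashInvariantForm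
open Function
open scoped MatrixGroups ModularForm Manifold Real

noncomputable section

local notation "𝕢" => Periodic.qParam

/-! ## Part 0: `SL(2,ℤ)` inside `𝒮ℒ` and translates -/

/-- An element of `SL(2,ℤ)` as an element of the subgroup `𝒮ℒ` of `GL(2,ℝ)`. -/
def slz (γ : SL(2, ℤ)) : ↥𝒮ℒ := ⟨mapGL ℝ γ, γ, rfl⟩

lemma slz_mul (a b : SL(2, ℤ)) : slz (a * b) = slz a * slz b := Subtype.ext (map_mul _ _ _)

lemma slz_inv (a : SL(2, ℤ)) : slz a⁻¹ = (slz a)⁻¹ := Subtype.ext (map_inv _ _)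

lemma slz_one : slz 1 = 1 := Subtype.ext (map_one _)

lemma exists_slz (h : ↥𝒮ℒ) : ∃ γ, slz γ = h := by
  obtain ⟨γ, hγ⟩ := h.2
  exact ⟨γ, Subtype.ext hγ⟩

/-- The coset space `𝒮ℒ ⧸ 𝒢` (the index type of Mathlib's `quotientFunc`). -/
abbrev Cos (𝒢 : Subgroup (GL (Fin 2) ℝ)) : Type := ↥𝒮ℒ ⧸ 𝒢.subgroupOf 𝒮ℒ

section translates

variable {𝒢 : Subgroup (GL (Fin 2) ℝ)} {F : Type*} [FunLike F ℍ ℂ] {k : ℤ}


lemma quotientFunc_slz [SlashInvariantFormClass F 𝒢 k] (f : F) (γ : SL(2, ℤ)) :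
    quotientFunc f (⟦slz γ⟧ : (Cos 𝒢)) = (f : ℍ → ℂ) ∣[k] γ⁻¹ := by
  change (f : ℍ → ℂ) ∣[k] (mapGL ℝ γ)⁻¹ = (f : ℍ → ℂ) ∣[k] (mapGL ℝ γ⁻¹)
  rw [map_inv]

/-- slash law for the translates. -/
lemma quotientFunc_slash [SlashInvariantFormClass F 𝒢 k] (f : F) (γ : SL(2, ℤ)) (q : (Cos 𝒢)) :
    quotientFunc f q ∣[k] γ = quotientFunc f ((slz γ)⁻¹ • q) := by
  rw [SL_slash]
  exact quotientFunc_smul f (slz γ).2 q

/-- pointwise transformation law of the translates. -/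
lemma quotientFunc_smul_apply [SlashInvariantFormClass F 𝒢 k] (f : F) (γ : SL(2, ℤ)) (q : (Cos 𝒢))
    (τ : ℍ) : quotientFunc f (slz γ • q) (γ • τ) = denom γ τ ^ k * quotientFunc f q τ := by
  have h := congrFun (quotientFunc_slash f γ (slz γ • q)) τ
  rw [inv_smul_smul, SL_slash_apply] at h
  rw [← h, mul_comm, mul_assoc, ← zpow_add₀ (denom_ne_zero γ τ)]
  simp

lemma quotientFunc_mdiff [ModularFormClass F 𝒢 k] (f : F) (q : (Cos 𝒢)) :
    MDiff (quotientFunc f q) := by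
  induction q using Quotient.inductionOn with
  | h r => exact (ModularFormClass.holo f).slash k _

lemma quotientFunc_bdd [𝒢.IsArithmetic] [ModularFormClass F 𝒢 k] (f : F) (q : (Cos 𝒢)) :
    IsBoundedAtImInfty (quotientFunc f q) := by
  induction q using Quotient.inductionOn with
  | h r =>
    obtain ⟨γ, rfl⟩ := exists_slz r
    rw [quotientFunc_slz]
    exact ModularFormClass.bdd_at_infty_slash f γ⁻¹

lemma quotientFunc_zero_at [𝒢.IsArithmetic] [CuspFormClass F 𝒢 k] (f : F) (q : (Cos 𝒢)) :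
    IsZeroAtImInfty (quotientFunc f q) := by
  induction q using Quotient.inductionOn with
  | h r =>
    obtain ⟨γ, rfl⟩ := exists_slz r
    rw [quotientFunc_slz]
    exact CuspFormClass.zero_at_infty_slash f γ⁻¹

/-- translation by an integer permutes the translates. -/
lemma quotientFunc_vadd [SlashInvariantFormClass F 𝒢 k] (f : F) (b : ℤ) (q : (Cos 𝒢)) (τ : ℍ) :
    quotientFunc f q ((b : ℝ) +ᵥ τ) = quotientFunc f ((slz (ModularGroup.T ^ b))⁻¹ • q) τ := by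
  rw [← quotientFunc_slash, SL_slash_apply, modular_T_zpow_smul]
  have h2 : denom (ModularGroup.T ^ b : SL(2, ℤ)) τ = 1 := by
    rw [ModularGroup.denom_apply]
    simp [ModularGroup.coe_T_zpow]
  rw [h2]
  simp

end translates

/-! ## Part 1: Fourier projectors at the cusp `∞` -/

section fourier

/-- (copy of a private Mathlib lemma) -/
lemma hasSum_cuspFunction_punctured {h : ℝ} {f : ℍ → ℂ} (hh : 0 < h) {c : ℕ → ℂ}
    (hf : ∀ (τ : ℍ), HasSum (fun m ↦ c m • 𝕢 h τ ^ m) (f τ)) {q : ℂ} (hq : ‖q‖ < 1)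
    (hq1 : q ≠ 0) : HasSum (fun m ↦ c m • q ^ m) (cuspFunction h f q) := by
  have h1 := Periodic.im_invQParam_pos_of_norm_lt_one hh hq hq1
  let τ : ℍ := ⟨Periodic.invQParam h q, h1⟩
  have h2 := (Periodic.cuspFunction_eq_of_nonzero h (f ∘ ofComplex) hq1)
  have h3 : cuspFunction h f q = f τ := by
    simpa [UpperHalfPlane.ofComplex_apply_of_im_pos h1] using! h2
  have h4 := hf τ
  have h5 : 𝕢 h (τ : ℂ) = q := Periodic.qParam_right_inv hh.ne' hq1
  rw [h5] at h4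
  rw [h3]
  exact h4

/-- (copy of a private Mathlib lemma) -/
lemma hasFPowerSeriesOnBall_update_cusp {h : ℝ} {f : ℍ → ℂ} (hh : 0 < h) {c : ℕ → ℂ}
    (hf : ∀ τ : ℍ, HasSum (fun m : ℕ ↦ (c m) • 𝕢 h τ ^ m) (f τ)) :
    HasFPowerSeriesOnBall (update (cuspFunction h f) 0 (c 0)) (.ofScalars ℂ c) 0 1 := by
  constructor
  · refine le_of_forall_lt_imp_le_of_dense fun r hr ↦ ?_
    rcases eq_or_ne r 0 with rfl | hr'
    · simp
    · lift r to NNReal using hr.ne_top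
      apply FormalMultilinearSeries.le_radius_of_summable
      simpa [smul_eq_mul, norm_mul, mul_comm, mul_left_comm, mul_assoc] using
        (hasSum_cuspFunction_punctured hh hf (q := r) (by simpa using hr)
          (mod_cast hr')).summable.norm
  · simp
  · intro y hy
    rw [← ENNReal.coe_one, Metric.eball_coe, NNReal.coe_one, mem_ball_zero_iff] at hy
    rcases eq_or_ne y 0 with rfl | hy'
    · simpa +contextual [zero_pow_eq] using hasSum_ite_eq 0 (c 0)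
    · simpa [update_of_ne hy', mul_comm]
        using hasSum_cuspFunction_punctured hh hf hy hy'

/-- A function given everywhere by a convergent `q`-expansion tends to its constant coefficient
at `i∞`. -/
theorem tendsto_of_hasSum_qParam {h : ℝ} {f : ℍ → ℂ} {c : ℕ → ℂ} (hh : 0 < h)
    (hf : ∀ τ : ℍ, HasSum (fun m ↦ c m • 𝕢 h τ ^ m) (f τ)) :
    Tendsto f atImInfty (𝓝 (c 0)) := by
  have hfeq : f = fun τ : ℍ ↦ update (cuspFunction h f) 0 (c 0) (𝕢 h τ) := by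
    funext τ
    rw [update_of_ne (Periodic.qParam_ne_zero _)]
    exact (hf τ).unique (hasSum_cuspFunction_punctured hh hf
      (Periodic.norm_qParam_lt_one hh τ.im_pos) (Complex.exp_ne_zero _))
  rw [hfeq]
  simpa [update_self, Function.comp_def] using
    (hasFPowerSeriesOnBall_update_cusp hh hf).hasFPowerSeriesAt.continuousAt.tendsto.comp
      (qParam_tendsto_atImInfty hh)

/-- `ζ_N = exp(2πi/N)`. -/
def zt (N : ℕ) : ℂ := Complex.exp (2 * π * Complex.I / N)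

lemma zt_ne_zero (N : ℕ) : zt N ≠ 0 := Complex.exp_ne_zero _

lemma zt_isPrimitiveRoot (N : ℕ) [NeZero N] : IsPrimitiveRoot (zt N) N :=
  Complex.isPrimitiveRoot_exp N (NeZero.ne N)

lemma zt_pow_self (N : ℕ) [NeZero N] : zt N ^ N = 1 := (zt_isPrimitiveRoot N).pow_eq_one

lemma norm_zt (N : ℕ) : ‖zt N‖ = 1 := by
  rw [zt, Complex.norm_exp]
  simp

lemma qParam_vadd_natCast {N : ℕ} [NeZero N] (b : ℕ) (τ : ℍ) :
    𝕢 (N : ℝ) (((b : ℝ) +ᵥ τ : ℍ) : ℂ) = zt N ^ b * 𝕢 (N : ℝ) τ := by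
  have hN : (N : ℂ) ≠ 0 := by exact_mod_cast NeZero.ne N
  rw [Periodic.qParam, Periodic.qParam, zt, ← Complex.exp_nat_mul, ← Complex.exp_add]
  congr 1
  simp only [coe_vadd, Complex.ofReal_natCast]
  field_simp

lemma qParam_natCast_pow {N : ℕ} [NeZero N] (τ : ℍ) :
    𝕢 (N : ℝ) τ ^ N = 𝕢 (1 : ℝ) τ := by
  have hN : (N : ℂ) ≠ 0 := by exact_mod_cast NeZero.ne N
  rw [Periodic.qParam, Periodic.qParam, ← Complex.exp_nat_mul]
  congr 1
  simp only [Complex.ofReal_natCast, Complex.ofReal_one]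
  field_simp

/-- orthogonality of the characters of `ℤ/N`. -/
lemma sum_zt_pow {N : ℕ} [NeZero N] (n m : ℕ) (hm : m < N) :
    ∑ b ∈ Finset.range N, (zt N)⁻¹ ^ (m * b) * (zt N ^ b) ^ n
      = if n % N = m then (N : ℂ) else 0 := by
  have hz := zt_ne_zero N
  set w : ℂ := zt N ^ ((n : ℤ) - (m : ℤ)) with hw
  have hterm : ∀ b : ℕ, (zt N)⁻¹ ^ (m * b) * (zt N ^ b) ^ n = w ^ b := by
    intro b
    rw [hw, ← zpow_natCast (zt N ^ ((n : ℤ) - (m : ℤ))) b, ← zpow_mul, inv_pow, ← pow_mul,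
      ← zpow_natCast (zt N) (m * b), ← zpow_natCast (zt N) (b * n), ← zpow_neg,
      ← zpow_add₀ hz]
    congr 1
    push_cast
    ring
  simp_rw [hterm]
  have hw1 : w = 1 ↔ n % N = m := by
    rw [hw, (zt_isPrimitiveRoot N).zpow_eq_one_iff_dvd]
    constructor
    · intro h
      have h1 : (n : ℤ) ≡ (m : ℤ) [ZMOD (N : ℤ)] := (Int.modEq_iff_dvd.mpr h).symm
      have h2 : n ≡ m [MOD N] := Int.natCast_modEq_iff.mp h1
      have h3 : n % N = m % N := h2
      rwa [Nat.mod_eq_of_lt hm] at h3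
    · intro h
      have h3 : n % N = m % N := by rwa [Nat.mod_eq_of_lt hm]
      have h2 : n ≡ m [MOD N] := h3
      have h1 : (n : ℤ) ≡ (m : ℤ) [ZMOD (N : ℤ)] := Int.natCast_modEq_iff.mpr h2
      exact Int.modEq_iff_dvd.mp h1.symm
  split_ifs with h
  · rw [hw1.mpr h]
    simp
  · have hne : w ≠ 1 := fun h' => h (hw1.mp h')
    have hwN : w ^ N = 1 := by
      rw [hw, ← zpow_natCast, ← zpow_mul, mul_comm, zpow_mul, zpow_natCast, zt_pow_self, one_zpow]
    rw [geom_sum_eq hne, hwN, sub_self, zero_div]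

lemma periodic_comp_ofComplex_of_vadd {g : ℍ → ℂ} {h : ℝ}
    (hg : ∀ τ : ℍ, g (h +ᵥ τ) = g τ) : Periodic (g ∘ ofComplex) (h : ℂ) := by
  intro w
  by_cases hw : 0 < Complex.im w
  · have hw' : 0 < Complex.im (w + (h : ℂ)) := by simpa using hw
    simp only [comp_apply, ofComplex_apply_of_im_pos hw', ofComplex_apply_of_im_pos hw]
    convert hg ⟨w, hw⟩ using 2
    ext
    simp [add_comm]
  · have hw' : Complex.im (w + (h : ℂ)) ≤ 0 := by simpa using not_lt.mp hw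
    simp only [comp_apply]
    rw [ofComplex_apply_of_im_nonpos hw', ofComplex_apply_of_im_nonpos (not_lt.mp hw)]

/-- **Fourier projector limit.** For an `N`-periodic holomorphic `g` bounded at `i∞` and `m < N`,
the `ζ^m`-isotypic part of `g` under `τ ↦ τ + 1`, divided by `q_N^m`, tends to the `m`-th
`q_N`-coefficient of `g`. -/
theorem tendsto_fourier_coeff {N : ℕ} [NeZero N] {g : ℍ → ℂ}
    (hper : ∀ τ : ℍ, g ((N : ℝ) +ᵥ τ) = g τ) (hhol : MDiff g) (hbdd : IsBoundedAtImInfty g)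
    {m : ℕ} (hm : m < N) :
    Tendsto (fun τ : ℍ => (𝕢 (N : ℝ) τ)⁻¹ ^ m *
        ((N : ℂ)⁻¹ * ∑ b ∈ Finset.range N, (zt N)⁻¹ ^ (m * b) * g ((b : ℝ) +ᵥ τ)))
      atImInfty (𝓝 ((qExpansion (N : ℝ) g).coeff m)) := by
  have hN : (0 : ℝ) < N := by exact_mod_cast Nat.pos_of_ne_zero (NeZero.ne N)
  have hNC : (N : ℂ) ≠ 0 := by exact_mod_cast NeZero.ne N
  have hper' : Periodic (g ∘ ofComplex) ((N : ℝ) : ℂ) := periodic_comp_ofComplex_of_vadd hper
  set a : ℕ → ℂ := fun n => (qExpansion (N : ℝ) g).coeff n with ha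
  have key := tendsto_of_hasSum_qParam (h := 1) one_pos (c := fun l => a (m + l * N))
    (f := fun τ : ℍ => (𝕢 (N : ℝ) τ)⁻¹ ^ m *
        ((N : ℂ)⁻¹ * ∑ b ∈ Finset.range N, (zt N)⁻¹ ^ (m * b) * g ((b : ℝ) +ᵥ τ))) ?_
  · simpa [ha] using key
  intro τ
  set q : ℂ := 𝕢 (N : ℝ) τ with hq
  have hq0 : q ≠ 0 := Periodic.qParam_ne_zero _
  have h1 : ∀ b : ℕ, HasSum (fun n => a n * (zt N ^ b * q) ^ n) (g ((b : ℝ) +ᵥ τ)) := by
    intro b
    have := hasSum_qExpansion hN hper' hhol hbdd ((b : ℝ) +ᵥ τ)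
    rw [qParam_vadd_natCast] at this
    simpa only [smul_eq_mul] using this
  have h2 : HasSum (fun n => (N : ℂ)⁻¹ * ∑ b ∈ Finset.range N,
        (zt N)⁻¹ ^ (m * b) * (a n * (zt N ^ b * q) ^ n))
      ((N : ℂ)⁻¹ * ∑ b ∈ Finset.range N, (zt N)⁻¹ ^ (m * b) * g ((b : ℝ) +ᵥ τ)) :=
    (hasSum_sum fun b _ => (h1 b).mul_left _).mul_left _
  have h3 : ∀ n, (N : ℂ)⁻¹ * ∑ b ∈ Finset.range N,
        (zt N)⁻¹ ^ (m * b) * (a n * (zt N ^ b * q) ^ n)
      = if n % N = m then a n * q ^ n else 0 := by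
    intro n
    have hb : ∀ b, (zt N)⁻¹ ^ (m * b) * (a n * (zt N ^ b * q) ^ n)
        = (a n * q ^ n) * ((zt N)⁻¹ ^ (m * b) * (zt N ^ b) ^ n) := by
      intro b
      ring
    simp_rw [hb, ← Finset.mul_sum, sum_zt_pow n m hm]
    split_ifs
    · field_simp
    · simp
  simp_rw [h3] at h2
  have hinj : Injective (fun l : ℕ => m + l * N) := by
    intro l l' hll
    have hN' : 0 < N := Nat.pos_of_ne_zero (NeZero.ne N)
    exact Nat.eq_of_mul_eq_mul_right hN' (Nat.add_left_cancel hll)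
  have h4 := (hinj.hasSum_iff (f := fun n => if n % N = m then a n * q ^ n else 0) (by
    intro n hn
    rw [if_neg]
    intro hnm
    exact hn ⟨n / N, by simp only; rw [← hnm]; exact (Nat.mod_add_div' n N)⟩)).mpr h2
  have h5 := h4.mul_left (q⁻¹ ^ m)
  have h6 : (fun l : ℕ => a (m + l * N) • 𝕢 (1 : ℝ) τ ^ l)
      = fun i => q⁻¹ ^ m *
        ((fun n => if n % N = m then a n * q ^ n else 0) ∘ fun l => m + l * N) i := by
    funext l
    simp only [comp_apply, smul_eq_mul]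
    rw [if_pos (by rw [Nat.add_mul_mod_self_right, Nat.mod_eq_of_lt hm]),
      ← qParam_natCast_pow (N := N), ← hq, pow_add, ← pow_mul, mul_comm l N]
    have hqm : q⁻¹ ^ m * q ^ m = 1 := by rw [← mul_pow, inv_mul_cancel₀ hq0, one_pow]
    linear_combination (-(a (m + N * l) * q ^ (N * l))) * hqm
  have h7 : HasSum (fun l : ℕ => a (m + l * N) • 𝕢 (1 : ℝ) τ ^ l)
      (q⁻¹ ^ m * ((N : ℂ)⁻¹ * ∑ b ∈ Finset.range N, (zt N)⁻¹ ^ (m * b) * g ((b : ℝ) +ᵥ τ))) := by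
    rw [h6]
    exact h5
  exact h7

end fourier

/-! ## Part 2: holomorphy of determinants and inverses -/

section matrixHolo

variable {n : Type} [Fintype n] [DecidableEq n]

lemma mdiff_det {M : ℍ → Matrix n n ℂ} (hM : ∀ i j, MDiff (fun τ => M τ i j)) :
    MDiff (fun τ => (M τ).det) := by
  have h : (fun τ => (M τ).det)
      = ∑ σ : Equiv.Perm n, (fun _ : ℍ => ((Equiv.Perm.sign σ : ℤ) : ℂ)) *
          ∏ i, fun τ => M τ (σ i) i := by
    funext τ
    simp [Matrix.det_apply', Finset.sum_apply, Finset.prod_apply]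
  rw [h]
  exact MDifferentiable.sum fun σ _ =>
    mdifferentiable_const.mul (MDifferentiable.prod fun i _ => hM _ _)

lemma mdiff_adjugate {M : ℍ → Matrix n n ℂ} (hM : ∀ i j, MDiff (fun τ => M τ i j)) (i j : n) :
    MDiff (fun τ => (M τ).adjugate i j) := by
  simp_rw [Matrix.adjugate_apply]
  refine mdiff_det fun a b => ?_
  by_cases ha : a = j
  · subst ha
    simp only [Matrix.updateRow_self]
    exact mdifferentiable_const
  · simp only [Matrix.updateRow_ne ha]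
    exact hM a b

lemma mdiff_inv {M : ℍ → Matrix n n ℂ} (hM : ∀ i j, MDiff (fun τ => M τ i j))
    (hdet : ∀ τ, (M τ).det ≠ 0) (i j : n) : MDiff (fun τ => (M τ)⁻¹ i j) := by
  have h : (fun τ => (M τ)⁻¹ i j)
      = (fun τ => (M τ).det)⁻¹ * fun τ => (M τ).adjugate i j := by
    funext τ
    simp [Matrix.inv_def, Ring.inverse_eq_inv']
  rw [h]
  exact ((mdiff_det hM).inv hdet).mul (mdiff_adjugate hM i j)

end matrixHolo

/-! ## Part 3: the dual family `Δ · Φ⁻¹` -/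

section dual

variable {𝒢 : Subgroup (GL (Fin 2) ℝ)}

local notation "Δ" => ModularForm.discriminant

variable [Fintype (Cos 𝒢)] [DecidableEq (Cos 𝒢)] (k : (Cos 𝒢) → ℤ) (F : ∀ j : (Cos 𝒢), ModularForm 𝒢 (k j))

/-- The fundamental matrix `Φ(τ)_{q,j} = (F_j)_q(τ)`. -/
def fundMat (τ : ℍ) : Matrix (Cos 𝒢) (Cos 𝒢) ℂ := Matrix.of fun q j => quotientFunc (F j) q τ

/-- `Δ · Φ⁻¹` (rows are indexed by the generators, columns by the cosets). -/
def dualMat (τ : ℍ) : Matrix (Cos 𝒢) (Cos 𝒢) ℂ := Δ τ • (fundMat k F τ)⁻¹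

lemma fundMat_apply (τ : ℍ) (q j : (Cos 𝒢)) : fundMat k F τ q j = quotientFunc (F j) q τ := rfl

lemma dualMat_apply (τ : ℍ) (j q : (Cos 𝒢)) : dualMat k F τ j q = Δ τ * (fundMat k F τ)⁻¹ j q := rfl

lemma discriminant_smul (γ : SL(2, ℤ)) (τ : ℍ) : Δ (γ • τ) = denom γ τ ^ (12 : ℤ) * Δ τ := by
  have h : (Δ ∣[(12 : ℤ)] γ) = Δ := by
    rw [SL_slash]
    exact SlashInvariantForm.slash_action_eqn CuspForm.discriminant _ ⟨γ, rfl⟩
  have h2 := congrFun h τ
  rw [SL_slash_apply] at h2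
  rw [← h2, mul_comm, mul_assoc, ← zpow_add₀ (denom_ne_zero γ τ)]
  simp

lemma fundMat_smul (γ : SL(2, ℤ)) (τ : ℍ) (q j : (Cos 𝒢)) :
    fundMat k F (γ • τ) (slz γ • q) j = denom γ τ ^ k j * fundMat k F τ q j :=
  quotientFunc_smul_apply (F j) γ q τ

lemma fundMat_inv_mul (hΦ : ∀ τ, (fundMat k F τ).det ≠ 0) (τ : ℍ) :
    (fundMat k F τ)⁻¹ * fundMat k F τ = 1 :=
  Matrix.nonsing_inv_mul _ (isUnit_iff_ne_zero.mpr (hΦ τ))

lemma fundMat_mul_inv (hΦ : ∀ τ, (fundMat k F τ).det ≠ 0) (τ : ℍ) :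
    fundMat k F τ * (fundMat k F τ)⁻¹ = 1 :=
  Matrix.mul_nonsing_inv _ (isUnit_iff_ne_zero.mpr (hΦ τ))

/-- transformation law of the inverse fundamental matrix. -/
theorem fundMat_inv_smul (hΦ : ∀ τ, (fundMat k F τ).det ≠ 0) (γ : SL(2, ℤ)) (τ : ℍ)
    (j q : (Cos 𝒢)) :
    (fundMat k F (γ • τ))⁻¹ j (slz γ • q) = denom γ τ ^ (-k j) * (fundMat k F τ)⁻¹ j q := by
  have hd : denom γ τ ≠ 0 := denom_ne_zero γ τ
  set X : Matrix (Cos 𝒢) (Cos 𝒢) ℂ :=
    Matrix.of fun j q' => denom γ τ ^ (-k j) * (fundMat k F τ)⁻¹ j ((slz γ)⁻¹ • q') with hX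
  have hXΦ : X * fundMat k F (γ • τ) = 1 := by
    ext j i
    rw [Matrix.mul_apply, ← Equiv.sum_comp (MulAction.toPerm (slz γ))]
    have h1 : ∀ q : (Cos 𝒢), X j (MulAction.toPerm (slz γ) q) *
        fundMat k F (γ • τ) (MulAction.toPerm (slz γ) q) i
        = denom γ τ ^ (-k j) * denom γ τ ^ k i *
          ((fundMat k F τ)⁻¹ j q * fundMat k F τ q i) := by
      intro q
      rw [MulAction.toPerm_apply, fundMat_smul, hX, Matrix.of_apply, inv_smul_smul]
      ring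
    simp_rw [h1, ← Finset.mul_sum, ← Matrix.mul_apply, fundMat_inv_mul k F hΦ τ]
    rw [Matrix.one_apply]
    by_cases hji : j = i
    · subst hji
      rw [if_pos rfl, mul_one, ← zpow_add₀ hd]
      simp
    · rw [if_neg hji, mul_zero]
  rw [Matrix.inv_eq_left_inv hXΦ, hX, Matrix.of_apply, inv_smul_smul]

/-- transformation law of `Δ · Φ⁻¹`. -/
theorem dualMat_smul (hΦ : ∀ τ, (fundMat k F τ).det ≠ 0) (γ : SL(2, ℤ)) (τ : ℍ)
    (j q : (Cos 𝒢)) :
    dualMat k F (γ • τ) j (slz γ • q) = denom γ τ ^ (12 - k j) * dualMat k F τ j q := by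
  rw [dualMat_apply, dualMat_apply, fundMat_inv_smul k F hΦ, discriminant_smul,
    zpow_sub₀ (denom_ne_zero γ τ), zpow_neg]
  field_simp

lemma dualMat_mdiff [𝒢.IsArithmetic] (hΦ : ∀ τ, (fundMat k F τ).det ≠ 0) (j q : (Cos 𝒢)) :
    MDiff (fun τ => dualMat k F τ j q) := by
  have h : (fun τ => dualMat k F τ j q) = (⇑CuspForm.discriminant) *
      fun τ => (fundMat k F τ)⁻¹ j q := by
    funext τ
    rfl
  rw [h]
  exact CuspForm.discriminant.holo'.mul
    (mdiff_inv (fun a b => quotientFunc_mdiff (F b) a) hΦ j q)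

lemma dualMat_mul_fundMat (hΦ : ∀ τ, (fundMat k F τ).det ≠ 0) (τ : ℍ) :
    dualMat k F τ * fundMat k F τ = Δ τ • (1 : Matrix (Cos 𝒢) (Cos 𝒢) ℂ) := by
  rw [dualMat, Matrix.smul_mul, fundMat_inv_mul k F hΦ]

end dual

/-! ## Part 4: vanishing of `Δ · Φ⁻¹` at `i∞` -/

section cuspVanishing

local notation "Δ" => ModularForm.discriminant

/-- `Δ(τ) · q_N(τ)^{-m} → 0` for `m < N`. -/
lemma tendsto_discriminant_mul_qParam_inv_pow {N : ℕ} [NeZero N] {m : ℕ} (hm : m < N) :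
    Tendsto (fun τ : ℍ => Δ τ * (𝕢 (N : ℝ) τ)⁻¹ ^ m) atImInfty (𝓝 0) := by
  have hN : (0 : ℝ) < N := by exact_mod_cast Nat.pos_of_ne_zero (NeZero.ne N)
  have h1 : ∀ τ : ℍ, Δ τ * (𝕢 (N : ℝ) τ)⁻¹ ^ m
      = 𝕢 (N : ℝ) τ ^ (N - m) * ∏' n, (1 - ModularForm.eta_q n τ) ^ 24 := by
    intro τ
    have hq0 : 𝕢 (N : ℝ) τ ≠ 0 := Periodic.qParam_ne_zero _
    have hqm : (𝕢 (N : ℝ) τ)⁻¹ ^ m * 𝕢 (N : ℝ) τ ^ m = 1 := by
      rw [← mul_pow, inv_mul_cancel₀ hq0, one_pow]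
    have hpow : 𝕢 (N : ℝ) τ ^ N = 𝕢 (N : ℝ) τ ^ (N - m) * 𝕢 (N : ℝ) τ ^ m := by
      rw [← pow_add, Nat.sub_add_cancel hm.le]
    rw [ModularForm.discriminant_eq_q_prod, ← qParam_natCast_pow (N := N), hpow]
    linear_combination (𝕢 (N : ℝ) τ ^ (N - m) * ∏' n, (1 - ModularForm.eta_q n τ) ^ 24) * hqm
  simp_rw [h1]
  have h2 : Tendsto (fun τ : ℍ => 𝕢 (N : ℝ) τ ^ (N - m)) atImInfty (𝓝 0) := by
    have := (qParam_tendsto_atImInfty hN).pow (N - m)
    rwa [zero_pow (Nat.sub_ne_zero_of_lt hm)] at this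
  simpa using h2.mul ModularForm.tendsto_atImInfty_tprod_one_sub_eta_q_pow

variable {𝒢 : Subgroup (GL (Fin 2) ℝ)} [Fintype (Cos 𝒢)] [DecidableEq (Cos 𝒢)]
  (k : (Cos 𝒢) → ℤ) (F : ∀ j : (Cos 𝒢), ModularForm 𝒢 (k j)) (N : ℕ)

/-- The leading matrix: sums of the first `N` `q_N`-coefficients of the translates. -/
def leadMat : Matrix (Cos 𝒢) (Cos 𝒢) ℂ :=
  Matrix.of fun q j => ∑ m ∈ Finset.range N, (qExpansion (N : ℝ) (quotientFunc (F j) q)).coeff m

/-- The twisting matrix `E(τ) = ∑_{m<N} q_N^{-m} P_m`, `P_m` the `ζ^m`-eigenprojector of `T`. -/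
def twistMat (𝒢 : Subgroup (GL (Fin 2) ℝ)) [DecidableEq (Cos 𝒢)] (N : ℕ) (τ : ℍ) :
    Matrix (Cos 𝒢) (Cos 𝒢) ℂ :=
  Matrix.of fun q q' => ∑ m ∈ Finset.range N, (𝕢 (N : ℝ) τ)⁻¹ ^ m *
    ((N : ℂ)⁻¹ * ∑ b ∈ Finset.range N, (zt N)⁻¹ ^ (m * b) *
      (if (slz (ModularGroup.T ^ (b : ℤ)))⁻¹ • q = q' then 1 else 0))

lemma twistMat_mul_fundMat_apply (τ : ℍ) (q j : (Cos 𝒢)) :
    (twistMat 𝒢 N τ * fundMat k F τ) q j = ∑ m ∈ Finset.range N, (𝕢 (N : ℝ) τ)⁻¹ ^ m *
      ((N : ℂ)⁻¹ * ∑ b ∈ Finset.range N, (zt N)⁻¹ ^ (m * b) *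
        quotientFunc (F j) q ((b : ℝ) +ᵥ τ)) := by
  rw [Matrix.mul_apply]
  simp only [twistMat, Matrix.of_apply, fundMat_apply, Finset.sum_mul, Finset.mul_sum]
  rw [Finset.sum_comm]
  refine Finset.sum_congr rfl fun m _ => ?_
  rw [Finset.sum_comm]
  refine Finset.sum_congr rfl fun b _ => ?_
  have hb : quotientFunc (F j) q ((b : ℝ) +ᵥ τ)
      = quotientFunc (F j) ((slz (ModularGroup.T ^ (b : ℤ)))⁻¹ • q) τ := by
    rw [← quotientFunc_vadd]
    simp
  rw [hb]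
  simp [mul_ite, ite_mul, Finset.sum_ite_eq]
  ring

variable [NeZero N] [𝒢.IsArithmetic]

theorem tendsto_twistMat_mul_fundMat
    (hper : ∀ (j q : (Cos 𝒢)) (τ : ℍ),
      quotientFunc (F j) q ((N : ℝ) +ᵥ τ) = quotientFunc (F j) q τ) :
    Tendsto (fun τ => twistMat 𝒢 N τ * fundMat k F τ) atImInfty (𝓝 (leadMat k F N)) := by
  refine tendsto_pi_nhds.mpr fun q => tendsto_pi_nhds.mpr fun j => ?_
  simp_rw [twistMat_mul_fundMat_apply]
  exact tendsto_finsetSum _ fun m hm => tendsto_fourier_coeff (hper j q)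
    (quotientFunc_mdiff (F j) q) (quotientFunc_bdd (F j) q) (Finset.mem_range.mp hm)

lemma tendsto_discriminant_mul_twistMat (q' q : (Cos 𝒢)) :
    Tendsto (fun τ => Δ τ * twistMat 𝒢 N τ q' q) atImInfty (𝓝 0) := by
  have h1 : ∀ τ : ℍ, Δ τ * twistMat 𝒢 N τ q' q
      = ∑ m ∈ Finset.range N, (Δ τ * (𝕢 (N : ℝ) τ)⁻¹ ^ m) *
        ((N : ℂ)⁻¹ * ∑ b ∈ Finset.range N, (zt N)⁻¹ ^ (m * b) *
          (if (slz (ModularGroup.T ^ (b : ℤ)))⁻¹ • q' = q then 1 else 0)) := by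
    intro τ
    simp only [twistMat, Matrix.of_apply, Finset.mul_sum, mul_assoc]
  simp_rw [h1]
  have h2 := tendsto_finsetSum (Finset.range N) (fun m hm =>
    (tendsto_discriminant_mul_qParam_inv_pow (N := N) (Finset.mem_range.mp hm)).mul_const
      ((N : ℂ)⁻¹ * ∑ b ∈ Finset.range N, (zt N)⁻¹ ^ (m * b) *
          (if (slz (ModularGroup.T ^ (b : ℤ)))⁻¹ • q' = q then 1 else 0)))
  simpa using h2

/-- **Cusp vanishing of the dual matrix.** -/
theorem dualMat_isZeroAtImInfty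
    (hper : ∀ (j q : (Cos 𝒢)) (τ : ℍ),
      quotientFunc (F j) q ((N : ℝ) +ᵥ τ) = quotientFunc (F j) q τ)
    (hL : (leadMat k F N).det ≠ 0) (j q : (Cos 𝒢)) :
    IsZeroAtImInfty (fun τ => dualMat k F τ j q) := by
  have hA := tendsto_twistMat_mul_fundMat k F N hper
  have hAinv : Tendsto (fun τ => (twistMat 𝒢 N τ * fundMat k F τ)⁻¹) atImInfty
      (𝓝 (leadMat k F N)⁻¹) :=
    (continuousAt_matrix_inv _ (NormedRing.inverse_continuousAt (Units.mk0 _ hL))).tendsto.comp hA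
  have hdet : ∀ᶠ τ in atImInfty, (twistMat 𝒢 N τ * fundMat k F τ).det ≠ 0 :=
    (((Continuous.matrix_det continuous_id).continuousAt.tendsto).comp hA).eventually_ne hL
  have hinv : ∀ᶠ τ in atImInfty, (∑ q', (twistMat 𝒢 N τ * fundMat k F τ)⁻¹ j q' *
      (Δ τ * twistMat 𝒢 N τ q' q)) = dualMat k F τ j q := by
    filter_upwards [hdet] with τ hτ
    have h1 : (fundMat k F τ)⁻¹ = (twistMat 𝒢 N τ * fundMat k F τ)⁻¹ * twistMat 𝒢 N τ := by
      apply Matrix.inv_eq_left_inv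
      rw [Matrix.mul_assoc]
      exact Matrix.nonsing_inv_mul _ (isUnit_iff_ne_zero.mpr hτ)
    rw [dualMat_apply, h1, Matrix.mul_apply, Finset.mul_sum]
    refine Finset.sum_congr rfl fun q' _ => ?_
    ring
  refine Tendsto.congr' hinv ?_
  have h3 := tendsto_finsetSum (Finset.univ : Finset (Cos 𝒢)) (fun q' _ =>
    ((tendsto_pi_nhds.mp (tendsto_pi_nhds.mp hAinv j) q')).mul
      (tendsto_discriminant_mul_twistMat (𝒢 := 𝒢) N q' q))
  simpa using h3

end cuspVanishing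

/-! ## Part 5: the dual cusp forms -/

section dualForms

local notation "Δ" => ModularForm.discriminant

variable {𝒢 : Subgroup (GL (Fin 2) ℝ)}

/-- The base coset. -/
def cos1 (𝒢 : Subgroup (GL (Fin 2) ℝ)) : Cos 𝒢 := QuotientGroup.mk 1

lemma slz_smul_cos1 (γ : SL(2, ℤ)) : slz γ • cos1 𝒢 = QuotientGroup.mk (slz γ) := by
  rw [cos1, MulAction.Quotient.smul_mk, smul_eq_mul, mul_one]

lemma slz_smul_cos1_of_mem {γ : SL(2, ℤ)} (hγ : mapGL ℝ γ ∈ 𝒢) : slz γ • cos1 𝒢 = cos1 𝒢 := by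
  rw [slz_smul_cos1, cos1, QuotientGroup.eq, mul_one, Subgroup.mem_subgroupOf]
  exact inv_mem hγ

lemma quotientFunc_cos1 {F : Type*} [FunLike F ℍ ℂ] {k : ℤ} [SlashInvariantFormClass F 𝒢 k]
    (f : F) : quotientFunc f (cos1 𝒢) = f := by
  have h : cos1 𝒢 = (⟦slz 1⟧ : Cos 𝒢) := by rw [slz_one]; rfl
  rw [h, quotientFunc_slz, inv_one, SlashAction.slash_one]

variable [Fintype (Cos 𝒢)] [DecidableEq (Cos 𝒢)]
  (k : (Cos 𝒢) → ℤ) (F : ∀ j : (Cos 𝒢), ModularForm 𝒢 (k j))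

/-- slash law of the entries of `Δ · Φ⁻¹`. -/
lemma dualMat_slash (hΦ : ∀ τ, (fundMat k F τ).det ≠ 0) (γ : SL(2, ℤ)) (j q : Cos 𝒢) :
    (fun τ => dualMat k F τ j q) ∣[12 - k j] γ
      = fun τ => dualMat k F τ j ((slz γ)⁻¹ • q) := by
  funext τ
  rw [SL_slash_apply]
  have h := dualMat_smul k F hΦ γ τ j ((slz γ)⁻¹ • q)
  rw [smul_inv_smul] at h
  rw [h, mul_comm, ← mul_assoc, ← zpow_add₀ (denom_ne_zero γ τ)]
  simp

variable [𝒢.IsArithmetic]

/-- The dual cusp forms `H_j = Δ · (Φ⁻¹)_{j,1}` of weight `12 - k j`. -/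
def dualForm (h𝒢 : 𝒢 ≤ 𝒮ℒ) (hΦ : ∀ τ, (fundMat k F τ).det ≠ 0)
    (hzero : ∀ j q, IsZeroAtImInfty (fun τ => dualMat k F τ j q)) (j : Cos 𝒢) :
    CuspForm 𝒢 (12 - k j) where
  toFun := fun τ => dualMat k F τ j (cos1 𝒢)
  slash_action_eq' := by
    intro A hA
    obtain ⟨γ, rfl⟩ := h𝒢 hA
    change (fun τ => dualMat k F τ j (cos1 𝒢)) ∣[12 - k j] γ = _
    rw [dualMat_slash k F hΦ, ← slz_inv, slz_smul_cos1_of_mem]
    rw [map_inv]
    exact inv_mem hA
  holo' := dualMat_mdiff k F hΦ j _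
  zero_at_cusps' := by
    intro c hc
    rw [Subgroup.IsArithmetic.isCusp_iff_isCusp_SL2Z] at hc
    rw [OnePoint.isZeroAt_iff_forall_SL2Z hc]
    intro γ _
    change IsZeroAtImInfty ((fun τ => dualMat k F τ j (cos1 𝒢)) ∣[12 - k j] γ)
    rw [dualMat_slash k F hΦ]
    exact hzero j _

lemma quotientFunc_dualForm (h𝒢 : 𝒢 ≤ 𝒮ℒ) (hΦ : ∀ τ, (fundMat k F τ).det ≠ 0)
    (hzero : ∀ j q, IsZeroAtImInfty (fun τ => dualMat k F τ j q)) (j q : Cos 𝒢) (τ : ℍ) :
    quotientFunc (dualForm k F h𝒢 hΦ hzero j) q τ = dualMat k F τ j q := by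
  induction q using Quotient.inductionOn with
  | h r =>
    obtain ⟨γ, rfl⟩ := exists_slz r
    rw [quotientFunc_slz]
    change ((fun τ => dualMat k F τ j (cos1 𝒢)) ∣[12 - k j] γ⁻¹) τ = _
    rw [dualMat_slash k F hΦ, slz_inv, inv_inv, slz_smul_cos1]

/-- **Dual forms (core statement).** If the fundamental matrix is invertible everywhere and the
leading matrix is invertible, then `Δ · Φ⁻¹` consists of translates of cusp forms
`H_j ∈ S_{12 - k_j}(𝒢)`. -/
theorem exists_dualForms (h𝒢 : 𝒢 ≤ 𝒮ℒ) (N : ℕ) [NeZero N]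
    (hper : ∀ (j q : (Cos 𝒢)) (τ : ℍ),
      quotientFunc (F j) q ((N : ℝ) +ᵥ τ) = quotientFunc (F j) q τ)
    (hΦ : ∀ τ, (fundMat k F τ).det ≠ 0) (hL : (leadMat k F N).det ≠ 0) :
    ∃ H : ∀ j, CuspForm 𝒢 (12 - k j), ∀ (τ : ℍ) (i j : Cos 𝒢),
      ∑ q : Cos 𝒢, quotientFunc (H j) q τ * quotientFunc (F i) q τ
        = if j = i then Δ τ else 0 := by
  refine ⟨dualForm k F h𝒢 hΦ (dualMat_isZeroAtImInfty k F N hper hL), fun τ i j => ?_⟩
  simp_rw [quotientFunc_dualForm]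
  have h := congrFun (congrFun (dualMat_mul_fundMat k F hΦ τ) j) i
  rw [Matrix.mul_apply] at h
  simpa [Matrix.smul_apply, Matrix.one_apply, fundMat_apply] using h

end dualForms

/-! ## Part 6: consequences of duality: weights `≤ 10` and `dim S₂` -/

section finrank

local notation "Δ" => ModularForm.discriminant

variable {𝒢 : Subgroup (GL (Fin 2) ℝ)} [𝒢.IsArithmetic] [𝒢.HasDetOne]

/-- A cusp form of weight `≤ 0` on an arithmetic group vanishes. -/
lemma cuspForm_eq_zero_of_weight_nonpos {w : ℤ} (hw : w ≤ 0) (f : CuspForm 𝒢 w) : f = 0 := by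
  rcases hw.lt_or_eq with h | rfl
  · have h0 := ModularForm.isZero_of_neg_weight h (ModularFormClass.modularForm f)
    ext τ
    have h1 := congrArg (fun g : ModularForm 𝒢 w => g τ) h0
    simpa using h1
  · obtain ⟨c, hc⟩ := ModularForm.eq_const_of_weight_zero (ModularFormClass.modularForm f)
    have hc' : (f : ℍ → ℂ) = Function.const ℍ c := hc
    have hz : IsZeroAtImInfty (f : ℍ → ℂ) := CuspFormClass.zero_at_infty f
    rw [hc'] at hz
    have hc0 : c = 0 := tendsto_const_nhds_iff.mp hz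
    ext τ
    rw [hc', hc0]
    rfl

lemma cuspForm_eq_zero_of_odd (hneg : -1 ∈ 𝒢) {w : ℤ} (hw : Odd w) (f : CuspForm 𝒢 w) :
    f = 0 := by
  have h0 := ModularForm.eq_zero_of_neg_one_mem hneg hw (ModularFormClass.modularForm f)
  ext τ
  have h1 := congrArg (fun g : ModularForm 𝒢 w => g τ) h0
  simpa using h1

omit [𝒢.IsArithmetic] in
lemma quotientFunc_zero_cusp {w : ℤ} (q : Cos 𝒢) (τ : ℍ) :
    quotientFunc (0 : CuspForm 𝒢 w) q τ = 0 := by
  induction q using Quotient.inductionOn with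
  | h r =>
    obtain ⟨γ, rfl⟩ := exists_slz r
    rw [quotientFunc_slz]
    simp

omit [𝒢.IsArithmetic] in
lemma quotientFunc_add_cusp {w : ℤ} (f g : CuspForm 𝒢 w) (q : Cos 𝒢) (τ : ℍ) :
    quotientFunc (f + g) q τ = quotientFunc f q τ + quotientFunc g q τ := by
  induction q using Quotient.inductionOn with
  | h r =>
    obtain ⟨γ, rfl⟩ := exists_slz r
    simp only [quotientFunc_slz]
    rw [FunLike.coe_add, SlashAction.add_slash]
    rfl

omit [𝒢.IsArithmetic] in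
lemma quotientFunc_smul_cusp {w : ℤ} (c : ℂ) (f : CuspForm 𝒢 w) (q : Cos 𝒢) (τ : ℍ) :
    quotientFunc (c • f) q τ = c * quotientFunc f q τ := by
  induction q using Quotient.inductionOn with
  | h r =>
    obtain ⟨γ, rfl⟩ := exists_slz r
    simp only [quotientFunc_slz]
    rw [FunLike.coe_smul, SL_smul_slash]
    rfl

omit [𝒢.IsArithmetic] in
lemma quotientFunc_mcast_cusp {a b : ℤ} (h : a = b) (f : CuspForm 𝒢 a) (q : Cos 𝒢) (τ : ℍ) :
    quotientFunc (CuspForm.mcast h f) q τ = quotientFunc f q τ := by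
  subst h
  rfl

lemma quotientFunc_mulModularForm {a b : ℤ} (f : CuspForm 𝒢 a) (g : ModularForm 𝒢 b)
    (q : Cos 𝒢) (τ : ℍ) :
    quotientFunc (f.mulModularForm g) q τ = quotientFunc f q τ * quotientFunc g q τ := by
  induction q using Quotient.inductionOn with
  | h r =>
    obtain ⟨γ, rfl⟩ := exists_slz r
    simp only [quotientFunc_slz]
    rw [CuspForm.coe_mulModularForm, mul_slash_SL2]
    rfl

/-- A level one cusp form of weight `w ≤ 12` is a constant multiple of `Δ`, and zero if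
`w ≠ 12`. -/
lemma levelOne_cuspForm_eq_const_mul_discriminant {w : ℤ} (hw : w ≤ 12) (t : CuspForm 𝒮ℒ w) :
    ∃ c : ℂ, (∀ z, t z = c * Δ z) ∧ (w ≠ 12 → c = 0) := by
  have hmul : ∀ z, t z = Δ z * (CuspForm.discriminantEquiv t) z := fun z =>
    (ModularForm.discriminant_mul_discriminantEquiv_apply t z).symm
  rcases hw.lt_or_eq with h | rfl
  · have h0 : CuspForm.discriminantEquiv t = 0 :=
      ModularForm.isZero_of_neg_weight (by omega) _
    refine ⟨0, fun z => ?_, fun _ => rfl⟩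
    rw [hmul z, h0]
    simp
  · obtain ⟨c, hc⟩ := ModularForm.eq_const_of_weight_zero
      (ModularForm.mcast (by norm_num : (12 : ℤ) - 12 = 0) (CuspForm.discriminantEquiv t))
    refine ⟨c, fun z => ?_, fun h => absurd rfl h⟩
    have h1 := congrFun hc z
    rw [ModularForm.mcast_apply] at h1
    rw [hmul z, h1]
    simp [mul_comm]

end finrank

section finrankMain

local notation "Δ" => ModularForm.discriminant

variable {𝒢 : Subgroup (GL (Fin 2) ℝ)} [𝒢.IsArithmetic] [𝒢.HasDetOne]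
  [Fintype (Cos 𝒢)] [DecidableEq (Cos 𝒢)]
  (k : (Cos 𝒢) → ℤ) (F : ∀ j : (Cos 𝒢), ModularForm 𝒢 (k j))
  (H : ∀ j : (Cos 𝒢), CuspForm 𝒢 (12 - k j))

/-- **Weights are at most 10** (given the dual cusp forms and `-1 ∈ 𝒢`). -/
theorem weight_le_ten (hneg : -1 ∈ 𝒢)
    (hH : ∀ (τ : ℍ) (i j : Cos 𝒢),
      ∑ q : Cos 𝒢, quotientFunc (H j) q τ * quotientFunc (F i) q τ
        = if j = i then Δ τ else 0) (j : Cos 𝒢) : k j ≤ 10 := by
  have hne : H j ≠ 0 := by
    intro h0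
    have h1 := hH UpperHalfPlane.I j j
    rw [if_pos rfl, h0] at h1
    simp only [quotientFunc_zero_cusp, zero_mul, Finset.sum_const_zero] at h1
    exact ModularForm.discriminant_ne_zero _ h1.symm
  by_contra hk
  rcases Int.even_or_odd (12 - k j) with he | ho
  · have h2 : 12 - k j ≤ 0 := by
      obtain ⟨r, hr⟩ := he
      omega
    exact hne (cuspForm_eq_zero_of_weight_nonpos h2 _)
  · exact hne (cuspForm_eq_zero_of_odd hneg ho _)

omit [DecidableEq (Cos 𝒢)] in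
/-- The level-one trace of `h · F_j`, pointwise. -/
lemma trace_mul_apply (h : CuspForm 𝒢 2) (j : Cos 𝒢) (z : ℍ) :
    (CuspForm.trace 𝒮ℒ (h.mulModularForm (F j))) z
      = ∑ q : Cos 𝒢, quotientFunc h q z * quotientFunc (F j) q z := by
  rw [CuspForm.coe_trace, Finset.sum_apply]
  exact Finset.sum_congr (Finset.ext fun x => by simp)
    (fun q _ => quotientFunc_mulModularForm h (F j) q z)

omit [DecidableEq (Cos 𝒢)] in
lemma exists_trace_const (hk : ∀ j, k j ≤ 10) (h : CuspForm 𝒢 2) (j : Cos 𝒢) :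
    ∃ c : ℂ, (∀ z, ∑ q : Cos 𝒢, quotientFunc h q z * quotientFunc (F j) q z = c * Δ z) ∧
      (k j ≠ 10 → c = 0) := by
  obtain ⟨c, hc, hc0⟩ := levelOne_cuspForm_eq_const_mul_discriminant (w := 2 + k j)
    (by have := hk j; omega) (CuspForm.trace 𝒮ℒ (h.mulModularForm (F j)))
  exact ⟨c, fun z => by rw [← trace_mul_apply, hc], fun hne => hc0 (by omega)⟩

/-- The coefficient functional: value at `i` of the trace of `h · F_j`, divided by `Δ(i)`. -/
def dualCoeff (j : Cos 𝒢) : CuspForm 𝒢 2 →ₗ[ℂ] ℂ where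
  toFun h := (Δ UpperHalfPlane.I)⁻¹ * ∑ q : Cos 𝒢,
    quotientFunc h q UpperHalfPlane.I * quotientFunc (F j) q UpperHalfPlane.I
  map_add' f g := by
    simp only [quotientFunc_add_cusp, add_mul, Finset.sum_add_distrib, mul_add]
  map_smul' c f := by
    simp only [quotientFunc_smul_cusp, RingHom.id_apply, smul_eq_mul, mul_assoc,
      ← Finset.mul_sum]
    ring

/-- **`dim S₂(𝒢)` is the number of generators of weight 10.** -/
theorem finrank_cuspForm_two (hneg : -1 ∈ 𝒢)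
    (hΦ : ∀ τ, (fundMat k F τ).det ≠ 0)
    (hH : ∀ (τ : ℍ) (i j : Cos 𝒢),
      ∑ q : Cos 𝒢, quotientFunc (H j) q τ * quotientFunc (F i) q τ
        = if j = i then Δ τ else 0) :
    Module.finrank ℂ (CuspForm 𝒢 2) = Fintype.card {j : Cos 𝒢 // k j = 10} := by
  have hk := weight_le_ten k F H hneg hH
  have hΔ : Δ UpperHalfPlane.I ≠ 0 := ModularForm.discriminant_ne_zero _
  let Θ : CuspForm 𝒢 2 →ₗ[ℂ] ({j : Cos 𝒢 // k j = 10} → ℂ) :=
    LinearMap.pi fun j => dualCoeff k F j.1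
  have hΘ_apply : ∀ (h : CuspForm 𝒢 2) (j : {j : Cos 𝒢 // k j = 10}),
      Θ h j = (Δ UpperHalfPlane.I)⁻¹ * ∑ q : Cos 𝒢,
        quotientFunc h q UpperHalfPlane.I * quotientFunc (F j.1) q UpperHalfPlane.I :=
    fun h j => rfl
  have hinj : Function.Injective Θ := by
    rw [injective_iff_map_eq_zero]
    intro h hh
    have htr : ∀ (j : Cos 𝒢) (z : ℍ),
        ∑ q : Cos 𝒢, quotientFunc h q z * quotientFunc (F j) q z = 0 := by
      intro j z
      obtain ⟨c, hc, hc0⟩ := exists_trace_const k F hk h j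
      by_cases hj : k j = 10
      · have h1 : Θ h ⟨j, hj⟩ = 0 := by rw [hh]; rfl
        rw [hΘ_apply, hc] at h1
        have h2 : c = 0 := by
          have h3 : (Δ UpperHalfPlane.I)⁻¹ * (c * Δ UpperHalfPlane.I) = c := by
            field_simp
          rw [← h3, h1]
        rw [hc, h2, zero_mul]
      · rw [hc, hc0 hj, zero_mul]
    ext z
    have hv : (fun q : Cos 𝒢 => quotientFunc h q z) = 0 :=
      Matrix.eq_zero_of_vecMul_eq_zero (hΦ z) (by
        funext j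
        simp only [Matrix.vecMul, dotProduct, fundMat_apply, Pi.zero_apply]
        exact htr j z)
    have h4 := congrFun hv (cos1 𝒢)
    simp only [Pi.zero_apply] at h4
    rw [quotientFunc_cos1] at h4
    simpa using h4
  have hsurj : Function.Surjective Θ := by
    intro c
    have hw : ∀ i : {j : Cos 𝒢 // k j = 10}, 12 - k i.1 = 2 := fun i => by rw [i.2]; norm_num
    have hΘ : ∀ i j : {j : Cos 𝒢 // k j = 10},
        Θ (CuspForm.mcast (hw i) (H i.1)) j = if i = j then 1 else 0 := by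
      intro i j
      rw [hΘ_apply]
      simp only [quotientFunc_mcast_cusp]
      rw [hH UpperHalfPlane.I j.1 i.1]
      by_cases hij : i = j
      · subst hij
        simp [hΔ]
      · have hij' : i.1 ≠ j.1 := fun h => hij (Subtype.ext h)
        simp [hij, hij']
    refine ⟨∑ i : {j : Cos 𝒢 // k j = 10}, c i • CuspForm.mcast (hw i) (H i.1), ?_⟩
    rw [map_sum]
    funext j
    simp only [map_smul, Finset.sum_apply, Pi.smul_apply, smul_eq_mul, hΘ]
    simp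
  rw [(LinearEquiv.ofBijective Θ ⟨hinj, hsurj⟩).finrank_eq, Module.finrank_fintype_fun_eq_card]

end finrankMain

end

end Fermat.Agent.S20.helper80
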