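/-
S20, DUAL step (helper80): the two DUAL hypotheses of the captain spec
(`helper20_Spec.core_of_parts`) in their exact shapes:

* `dualForms  : B.RowIndep → B.CardEq → B.LeadIndep → B.DualForms`   (hdf)
* `stmt_Dual  : B.RowIndep → B.CardEq → B.DualForms → B.Stmt_Dual`   (hdual)

Both are corollaries of the generic core `helper80_DualCore.lean`.
-/
import Fermat.Agent.S20.helper20_Spec
import Fermat.Agent.S20.helper80_DualCore

set_option autoImplicit false
set_option linter.unusedSectionVars false

namespace Fermat.Agent.S20.helper80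

open UpperHalfPlane ModularForm CongruenceSubgroup Matrix.SpecialLinearGroup SlashInvariantForm
open scoped MatrixGroups ModularForm

open Fermat.Agent.S20.helper20 (Gam Q Gens mu)

noncomputable section

lemma gam_le_SL (N : ℕ) : Gam N ≤ 𝒮ℒ := by
  rintro _ ⟨γ, _, rfl⟩
  exact ⟨γ, rfl⟩

lemma neg_one_mem_gam (N : ℕ) : (-1 : GL (Fin 2) ℝ) ∈ Gam N := by
  refine ⟨-1, ?_, ?_⟩
  · simp [Gamma0_mem]
  · ext i j
    simp

variable {N : ℕ} [NeZero N]

/-- `T^N` acts trivially on the cosets of `Γ₀(N)`. -/
lemma slz_T_pow_smul (q : Cos (Gam N)) : (slz (ModularGroup.T ^ (N : ℤ)))⁻¹ • q = q := by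
  induction q using Quotient.inductionOn with
  | h r =>
    obtain ⟨γ, rfl⟩ := exists_slz r
    change (slz (ModularGroup.T ^ (N : ℤ)))⁻¹ • (QuotientGroup.mk (slz γ) : Cos (Gam N))
      = QuotientGroup.mk (slz γ)
    rw [MulAction.Quotient.smul_mk, smul_eq_mul, QuotientGroup.eq, Subgroup.mem_subgroupOf]
    have h1 : ModularGroup.T ^ (N : ℤ) ∈ Gamma N := by
      simpa using ModularGroup_T_pow_mem_Gamma (N : ℤ) (N : ℤ) dvd_rfl
    have h2 : γ⁻¹ * ModularGroup.T ^ (N : ℤ) * γ⁻¹⁻¹ ∈ Gamma N :=
      (Gamma_normal N).conj_mem _ h1 γ⁻¹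
    have h3 : γ⁻¹ * ModularGroup.T ^ (N : ℤ) * γ ∈ Gamma0 N := by
      rw [inv_inv] at h2
      exact Gamma0_mem.mpr ((Gamma_mem.mp h2).2.2.1)
    have h4 : (((slz (ModularGroup.T ^ (N : ℤ)))⁻¹ * slz γ)⁻¹ * slz γ : ↥𝒮ℒ)
        = slz (γ⁻¹ * ModularGroup.T ^ (N : ℤ) * γ) := by
      rw [slz_mul, slz_mul, slz_inv]
      group
    rw [h4]
    exact Subgroup.mem_map_of_mem _ h3

lemma quotientFunc_periodic {k : ℤ} (f : ModularForm (Gam N) k) (q : Cos (Gam N)) (τ : ℍ) :
    quotientFunc f q ((N : ℝ) +ᵥ τ) = quotientFunc f q τ := by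
  have h := quotientFunc_vadd f (N : ℤ) q τ
  rw [slz_T_pow_smul] at h
  simpa using h

local notation "Δ" => ModularForm.discriminant

/-- reindexing data attached to a generator family with `μ` elements. -/
def gensEquiv (B : Gens N) (hcard : B.CardEq) : B.ι ≃ Cos (Gam N) :=
  Fintype.equivOfCardEq (by
    rw [← Nat.card_eq_fintype_card (α := Cos (Gam N))]
    exact hcard)

/-- the generator weights, reindexed by the cosets. -/
abbrev gensWt (B : Gens N) (hcard : B.CardEq) : Cos (Gam N) → ℤ :=
  fun q => (B.wt ((gensEquiv B hcard).symm q) : ℤ)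

/-- the generators, reindexed by the cosets. -/
abbrev gensF (B : Gens N) (hcard : B.CardEq) :
    ∀ q : Cos (Gam N), ModularForm (Gam N) (gensWt B hcard q) :=
  fun q => B.F ((gensEquiv B hcard).symm q)

lemma gens_fundMat_det_ne_zero [DecidableEq (Cos (Gam N))] (B : Gens N) (hrow : B.RowIndep)
    (hcard : B.CardEq) (τ : ℍ) : (fundMat (gensWt B hcard) (gensF B hcard) τ).det ≠ 0 := by
  intro hdet
  obtain ⟨v, hv0, hv⟩ := Matrix.exists_vecMul_eq_zero_iff.mpr hdet
  apply hv0
  apply hrow τ v
  intro j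
  obtain ⟨q', rfl⟩ := (gensEquiv B hcard).symm.surjective j
  exact congrFun hv q'

lemma gens_leadMat_det_ne_zero [DecidableEq (Cos (Gam N))] (B : Gens N) (hcard : B.CardEq)
    (hlead : B.LeadIndep) : (leadMat (gensWt B hcard) (gensF B hcard) N).det ≠ 0 := by
  intro hdet
  obtain ⟨c', hc0, hc'⟩ := Matrix.exists_mulVec_eq_zero_iff.mpr hdet
  apply hc0
  have h1 := hlead (fun j => c' (gensEquiv B hcard j)) (fun q => by
    rw [← Equiv.sum_comp (gensEquiv B hcard).symm]
    simp only [Equiv.apply_symm_apply]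
    exact congrFun hc' q)
  funext q'
  have h2 := congrFun h1 ((gensEquiv B hcard).symm q')
  simpa using h2

/-- **(hdf)** The columns of `Δ · Φ⁻ᵀ` are translates of cusp forms of weight `12 - wt l`:
exact shape of the hypothesis `hdf` of `helper20.core_of_parts`. -/
theorem dualForms (B : Gens N) (hrow : B.RowIndep) (hcard : B.CardEq) (hlead : B.LeadIndep) :
    B.DualForms := by
  classical
  obtain ⟨H, hH⟩ := exists_dualForms (gensWt B hcard) (gensF B hcard) (gam_le_SL N) N
    (fun j q τ => quotientFunc_periodic (gensF B hcard j) q τ)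
    (gens_fundMat_det_ne_zero B hrow hcard) (gens_leadMat_det_ne_zero B hcard hlead)
  intro l
  obtain ⟨q', rfl⟩ := (gensEquiv B hcard).symm.surjective l
  refine ⟨H q', fun z j => ?_⟩
  obtain ⟨i', rfl⟩ := (gensEquiv B hcard).symm.surjective j
  have h1 := hH z i' q'
  have h2 : (∑ q, quotientFunc (H q') q z * B.Phi z q ((gensEquiv B hcard).symm i'))
      = ∑ q : Cos (Gam N), quotientFunc (H q') q z * quotientFunc (gensF B hcard i') q z := rfl
  refine (h2.trans h1).trans ?_
  by_cases h : q' = i'
  · subst h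
    simp
  · have h' : (gensEquiv B hcard).symm i' ≠ (gensEquiv B hcard).symm q' :=
      fun h'' => h ((gensEquiv B hcard).symm.injective h'').symm
    simp [h, h']

/-- **(hdual)** Weights are at most 10 and `dim S₂(Γ₀(N))` is the number of generators of
weight 10: exact shape of the hypothesis `hdual` of `helper20.core_of_parts` (the hypothesis
`B.IsBasis` is not needed). -/
theorem stmt_Dual (B : Gens N) (hrow : B.RowIndep) (hcard : B.CardEq) (hdf : B.DualForms) :
    B.Stmt_Dual := by
  classical
  choose H0 hH0 using hdf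
  have hH' : ∀ (τ : ℍ) (i j : Cos (Gam N)),
      ∑ q : Cos (Gam N), quotientFunc (H0 ((gensEquiv B hcard).symm j)) q τ *
        quotientFunc (gensF B hcard i) q τ = if j = i then Δ τ else 0 := by
    intro τ i j
    have h1 := hH0 ((gensEquiv B hcard).symm j) τ ((gensEquiv B hcard).symm i)
    have h2 : (∑ q, quotientFunc (H0 ((gensEquiv B hcard).symm j)) q τ *
        B.Phi τ q ((gensEquiv B hcard).symm i))
        = ∑ q : Cos (Gam N), quotientFunc (H0 ((gensEquiv B hcard).symm j)) q τ *
          quotientFunc (gensF B hcard i) q τ := rfl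
    refine (h2.symm.trans h1).trans ?_
    by_cases h : j = i
    · subst h
      simp
    · have h' : (gensEquiv B hcard).symm i ≠ (gensEquiv B hcard).symm j :=
        fun h'' => h ((gensEquiv B hcard).symm.injective h'').symm
      simp [h, h']
  constructor
  · intro j
    have h1 := weight_le_ten (gensWt B hcard) (gensF B hcard)
      (fun q => H0 ((gensEquiv B hcard).symm q)) (neg_one_mem_gam N) hH' (gensEquiv B hcard j)
    simp only [gensWt, Equiv.symm_apply_apply] at h1
    exact_mod_cast h1
  · rw [finrank_cuspForm_two (gensWt B hcard) (gensF B hcard)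
      (fun q => H0 ((gensEquiv B hcard).symm q)) (neg_one_mem_gam N)
      (gens_fundMat_det_ne_zero B hrow hcard) hH']
    rw [Gens.cnt, ← Fintype.card_subtype]
    apply Fintype.card_congr
    exact (gensEquiv B hcard).symm.subtypeEquiv (fun q => by
      simp only [gensWt]
      norm_cast)

end

end Fermat.Agent.S20.helper80
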