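/-
S20: `Goal_BasisM` and `Goal_BasisS` of `helper560_Spec` (exact shapes): for every
`GoodLevel 𝒢 N` with a seed, the graded modules `MFG 𝒢` and `CFG 𝒢` have a homogeneous free
basis over the level one ring which is indexed by the cosets `Q 𝒢` and whose fundamental
determinant does not vanish at some point.

Ingredients: freeness with a finite index type (`helper813_Free`), a Vandermonde / Lagrange
interpolation argument on the translates of the seed (the columns of the fundamental matrix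
span `ℂ^Q` at a suitable point), and Cramer's rule (products of two fundamental determinants
are level one forms, so a generator outside a maximal nondegenerate minor would contradict
the uniqueness of expansions).
Author seat: helper813.
-/
import Fermat.Agent.S20.helper813_Free
import Fermat.Agent.S20.helper1774_Ell

set_option autoImplicit false

open UpperHalfPlane ModularForm EisensteinSeries
open scoped MatrixGroups Manifold Pointwise Topology

namespace Fermat.Agent.S20.helper813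

open Fermat.Agent.S20.helper560

noncomputable section

open Filter

local notation "Δ" => ModularForm.discriminant

/-! ### Translates -/

section trlemmas

variable {𝒢 : Subgroup (GL (Fin 2) ℝ)} [𝒢.HasDetOne]

/-- An `SL(2,ℤ)`-representative of the inverse of the chosen representative of a coset. -/
def rep (q : Q 𝒢) : SL(2, ℤ) := (Classical.choose (q.out).2)⁻¹

theorem tr_eq_slash_rep (k : ℤ) (f : ℍ → ℂ) (q : Q 𝒢) : tr 𝒢 k f q = f ∣[k] (rep q) := by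
  have h : Matrix.SpecialLinearGroup.mapGL ℝ (rep q) = ((q.out : 𝒮ℒ) : GL (Fin 2) ℝ)⁻¹ := by
    rw [rep, map_inv, Classical.choose_spec (q.out).2]
  show f ∣[k] ((q.out : 𝒮ℒ) : GL (Fin 2) ℝ)⁻¹
    = f ∣[k] (Matrix.SpecialLinearGroup.mapGL ℝ (rep q))
  rw [h]

theorem levelOne_slash {a : ℤ} {P : ℍ → ℂ} (hP : P ∈ RR a) (γ : SL(2, ℤ)) : P ∣[a] γ = P := by
  obtain ⟨P', rfl⟩ := hP
  have hγ : (γ : GL (Fin 2) ℝ) ∈ 𝒮ℒ := ⟨γ, rfl⟩
  rw [SL_slash]
  exact SlashInvariantFormClass.slash_action_eq P' _ hγ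

theorem tr_sum {ι : Type*} (s : Finset ι) (k : ℤ) (f : ι → ℍ → ℂ) (q : Q 𝒢) :
    tr 𝒢 k (∑ i ∈ s, f i) q = ∑ i ∈ s, tr 𝒢 k (f i) q := by
  simp only [tr_eq_slash_rep]
  exact SlashAction.sum_slash _ _

theorem tr_levelOne_mul {w a b : ℤ} (hw : w = a + b) {P : ℍ → ℂ} (hP : P ∈ RR a) (f : ℍ → ℂ)
    (q : Q 𝒢) : tr 𝒢 w (P * f) q = P * tr 𝒢 b f q := by
  subst hw
  rw [tr_eq_slash_rep, tr_eq_slash_rep, mul_slash_SL2, levelOne_slash hP]

theorem tr_pow (k : ℤ) (h : ℍ → ℂ) (n : ℕ) (q : Q 𝒢) :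
    tr 𝒢 (n * k) (h ^ n) q = (tr 𝒢 k h q) ^ n := by
  simp only [tr_eq_slash_rep]
  induction n with
  | zero =>
    simp only [Nat.cast_zero, zero_mul, pow_zero]
    exact is_invariant_one _
  | succ n ih =>
    rw [pow_succ, pow_succ, ← ih, show ((n + 1 : ℕ) : ℤ) * k = n * k + k by push_cast; ring,
      mul_slash_SL2]

theorem tr_one_coset {k : ℤ} {f : ℍ → ℂ} (hf : f ∈ MFG 𝒢 k) :
    tr 𝒢 k f (QuotientGroup.mk (1 : 𝒮ℒ)) = f := by
  obtain ⟨F, rfl⟩ := hf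
  rw [tr_eq_quotientFunc]
  show SlashInvariantForm.quotientFunc F ⟦(1 : 𝒮ℒ)⟧ = F
  rw [SlashInvariantForm.quotientFunc_mk]
  simp

theorem mdiff_tr {k : ℤ} {f : ℍ → ℂ} (hf : MDiff f) (q : Q 𝒢) : MDiff (tr 𝒢 k f q) :=
  hf.slash k _

theorem mdiff_of_mem_MFG {k : ℤ} {f : ℍ → ℂ} (hf : f ∈ MFG 𝒢 k) : MDiff f := by
  obtain ⟨F, rfl⟩ := hf
  exact ModularFormClass.holo F

theorem isBoundedAtImInfty_tr [𝒢.IsArithmetic] {k : ℤ} {f : ℍ → ℂ} (hf : f ∈ MFG 𝒢 k)
    (q : Q 𝒢) : IsBoundedAtImInfty (tr 𝒢 k f q) := by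
  obtain ⟨F, rfl⟩ := hf
  rw [tr_eq_slash_rep]
  exact ModularFormClass.bdd_at_infty_slash F (rep q)

end trlemmas

/-- A holomorphic function, invariant under `SL(2,ℤ)` in weight `w` and bounded at `i∞`, is a
level one modular form. -/
theorem mem_RR_of {w : ℤ} {f : ℍ → ℂ} (hol : MDiff f) (inv : ∀ γ : SL(2, ℤ), f ∣[w] γ = f)
    (bdd : IsBoundedAtImInfty f) : f ∈ RR w := by
  refine ⟨{ toFun := f, slash_action_eq' := ?_, holo' := hol, bdd_at_cusps' := ?_ }, rfl⟩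
  · rintro g ⟨γ, rfl⟩
    exact inv γ
  · intro c hc
    rw [OnePoint.isBoundedAt_iff_forall_SL2Z hc]
    intro γ _
    rw [inv γ]
    exact bdd

/-! ### Fundamental determinants -/

section det

variable {𝒢 : Subgroup (GL (Fin 2) ℝ)} [𝒢.IsArithmetic] [𝒢.HasDetOne]

open Classical in
theorem fundDet_eq_sum (κ : Q 𝒢 → ℤ) (F : Q 𝒢 → ℍ → ℂ) :
    fundDet 𝒢 κ F = ∑ σ : Equiv.Perm (Q 𝒢), ((Equiv.Perm.sign σ : ℤ) : ℂ) •
      ∏ q : Q 𝒢, tr 𝒢 (κ q) (F q) (σ q) := by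
  funext z
  unfold fundDet
  rw [Matrix.det_apply']
  simp only [Finset.sum_apply, Pi.smul_apply, Finset.prod_apply, smul_eq_mul, transMatrix,
    Matrix.of_apply]

theorem mdiff_fundDet {κ : Q 𝒢 → ℤ} {F : Q 𝒢 → ℍ → ℂ} (hF : ∀ j, F j ∈ MFG 𝒢 (κ j)) :
    MDiff (fundDet 𝒢 κ F) := by
  rw [fundDet_eq_sum]
  refine MDifferentiable.sum fun σ _ => MDifferentiable.const_smul _ ?_
  exact MDifferentiable.prod fun q _ => mdiff_tr (mdiff_of_mem_MFG (hF q)) _

theorem isBoundedAtImInfty_fundDet {κ : Q 𝒢 → ℤ} {F : Q 𝒢 → ℍ → ℂ}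
    (hF : ∀ j, F j ∈ MFG 𝒢 (κ j)) : IsBoundedAtImInfty (fundDet 𝒢 κ F) := by
  rw [fundDet_eq_sum]
  refine (boundedFilterSubalgebra ℂ atImInfty).sum_mem fun σ _ => ?_
  refine (boundedFilterSubalgebra ℂ atImInfty).smul_mem ?_ _
  exact BoundedAtFilter.prod _ fun q _ => isBoundedAtImInfty_tr (hF q) _

theorem prod_zpow_eq_zpow_sum {ι : Type*} (s : Finset ι) {d : ℂ} (hd : d ≠ 0) (κ : ι → ℤ) :
    ∏ j ∈ s, d ^ κ j = d ^ ∑ j ∈ s, κ j := by
  classical
  induction s using Finset.induction_on with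
  | empty => simp
  | insert i t hi ih => rw [Finset.prod_insert hi, Finset.sum_insert hi, zpow_add₀ hd, ih]

open Classical in
/-- Transformation of a fundamental determinant under `SL(2,ℤ)`: weight `∑ κ` and the sign
character of the permutation action on the cosets. -/
theorem fundDet_smul {κ : Q 𝒢 → ℤ} {F : Q 𝒢 → ℍ → ℂ} (hF : ∀ j, F j ∈ MFG 𝒢 (κ j))
    (γ : SL(2, ℤ)) (z : ℍ) :
    fundDet 𝒢 κ F (γ • z) =
      ((Equiv.Perm.sign (MulAction.toPerm (sl γ)⁻¹ : Equiv.Perm (Q 𝒢)) : ℤ) : ℂ) *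
        denom γ z ^ (∑ j, κ j) * fundDet 𝒢 κ F z := by
  have hd : denom γ z ≠ 0 := denom_ne_zero γ z
  have hentry : ∀ q j, tr 𝒢 (κ j) (F j) q (γ • z)
      = denom γ z ^ (κ j) * tr 𝒢 (κ j) (F j) ((sl γ)⁻¹ • q) z := by
    intro q j
    rw [helper1774.tr_sl_inv_smul_apply (hF j) γ q z, mul_comm, mul_assoc, ← zpow_add₀ hd]
    simp
  unfold fundDet
  have hM : transMatrix 𝒢 κ F (γ • z) = Matrix.of (fun q j => denom γ z ^ (κ j) *
      ((transMatrix 𝒢 κ F z).submatrix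
        (MulAction.toPerm (sl γ)⁻¹ : Equiv.Perm (Q 𝒢)) id) q j) := by
    ext q j
    simp only [transMatrix, Matrix.of_apply, Matrix.submatrix_apply, id]
    exact hentry q j
  rw [hM, Matrix.det_mul_row, Matrix.det_permute, prod_zpow_eq_zpow_sum _ hd]
  ring

/-- The product of two fundamental determinants is a level one modular form. -/
theorem fundDet_mul_mem_RR {κ κ' : Q 𝒢 → ℤ} {F F' : Q 𝒢 → ℍ → ℂ}
    (hF : ∀ j, F j ∈ MFG 𝒢 (κ j)) (hF' : ∀ j, F' j ∈ MFG 𝒢 (κ' j)) :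
    fundDet 𝒢 κ F * fundDet 𝒢 κ' F' ∈ RR (∑ j, κ j + ∑ j, κ' j) := by
  classical
  refine mem_RR_of ((mdiff_fundDet hF).mul (mdiff_fundDet hF')) ?_
    ((isBoundedAtImInfty_fundDet hF).mul (isBoundedAtImInfty_fundDet hF'))
  intro γ
  funext z
  have hd : denom γ z ≠ 0 := denom_ne_zero γ z
  rw [SL_slash_apply, Pi.mul_apply, Pi.mul_apply, fundDet_smul hF, fundDet_smul hF',
    zpow_neg, zpow_add₀ hd]
  set ε : ℤˣ := Equiv.Perm.sign (MulAction.toPerm (sl γ)⁻¹ : Equiv.Perm (Q 𝒢)) with hε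
  have hε2 : ((ε : ℤ) : ℂ) * ((ε : ℤ) : ℂ) = 1 := by
    have := Int.units_coe_mul_self ε
    exact_mod_cast this
  have h1 : denom γ z ^ (∑ j, κ j) ≠ 0 := zpow_ne_zero _ hd
  have h2 : denom γ z ^ (∑ j, κ' j) ≠ 0 := zpow_ne_zero _ hd
  field_simp
  linear_combination (fundDet 𝒢 κ F z * fundDet 𝒢 κ' F' z) * hε2

end det

/-! ### A common non-vanishing point -/

/-- Finitely many holomorphic functions on `ℍ`, none identically zero, have a common
non-vanishing point. -/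
theorem exists_forall_ne_zero {ι : Type*} [Finite ι] (g : ι → ℍ → ℂ) (hol : ∀ i, MDiff (g i))
    (hne : ∀ i, g i ≠ 0) : ∃ z : ℍ, ∀ i, g i z ≠ 0 := by
  set U : Set ℂ := {z | 0 < z.im} with hU
  have hUo : IsOpen U := isOpen_upperHalfPlaneSet
  have hUc : IsPreconnected U := (convex_halfSpace_im_gt 0).isPreconnected
  have hI : Complex.I ∈ U := by simp [hU]
  have han : ∀ i, AnalyticOnNhd ℂ (g i ∘ ofComplex) U := fun i =>
    (UpperHalfPlane.mdifferentiable_iff.mp (hol i)).analyticOnNhd hUo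
  have hev : ∀ i, ∀ᶠ z in 𝓝[≠] Complex.I, (g i ∘ ofComplex) z ≠ 0 := by
    intro i
    by_contra hcon
    have hfreq : ∃ᶠ z in 𝓝[≠] Complex.I, (g i ∘ ofComplex) z = 0 := by
      simpa [Filter.not_eventually] using hcon
    have h0 := (han i).eqOn_zero_of_preconnected_of_frequently_eq_zero hUc hI hfreq
    apply hne i
    funext z
    have hz : (z : ℂ) ∈ U := z.2
    have := h0 hz
    simpa using this
  have hall : ∀ᶠ z in 𝓝[≠] Complex.I, ∀ i, (g i ∘ ofComplex) z ≠ 0 :=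
    Filter.eventually_all.mpr hev
  have hmem : ∀ᶠ z in 𝓝[≠] Complex.I, z ∈ U :=
    mem_nhdsWithin_of_mem_nhds (hUo.mem_nhds hI)
  obtain ⟨z, hz, hzU⟩ := (hall.and hmem).exists
  refine ⟨⟨z, hzU⟩, fun i => ?_⟩
  have := hz i
  simpa [ofComplex_apply_of_im_pos hzU] using this

/-! ### Interpolation: power vectors span -/

theorem span_pow_eq_top {ι : Type*} [Fintype ι] (v : ι → ℂ) (hv : Function.Injective v) :
    Submodule.span ℂ (Set.range fun (i : ℕ) => (fun q : ι => v q ^ i)) = ⊤ := by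
  classical
  rw [eq_top_iff]
  intro t _
  set p := Lagrange.interpolate Finset.univ v t with hp
  have hpe : ∀ q, p.eval (v q) = t q := fun q =>
    Lagrange.eval_interpolate_at_node t hv.injOn (Finset.mem_univ q)
  have ht : t = ∑ i ∈ Finset.range (p.natDegree + 1), p.coeff i • (fun q : ι => v q ^ i) := by
    funext q
    rw [← hpe q, Polynomial.eval_eq_sum_range]
    simp [Finset.sum_apply]
  rw [ht]
  exact Submodule.sum_mem _ fun i _ => Submodule.smul_mem _ _ (Submodule.subset_span ⟨i, rfl⟩)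

/-! ### The bridge -/

section bridge

variable {𝒢 : Subgroup (GL (Fin 2) ℝ)} [𝒢.IsArithmetic] [𝒢.HasDetOne]

theorem pow_mem_MFG {k : ℤ} {h : ℍ → ℂ} (hh : h ∈ MFG 𝒢 k) (n : ℕ) :
    h ^ n ∈ MFG 𝒢 (n * k) := by
  induction n with
  | zero =>
    simp only [Nat.cast_zero, zero_mul, pow_zero]
    exact ⟨ModularForm.const 1, by ext z; simp⟩
  | succ n ih =>
    obtain ⟨A, hA⟩ := ih
    obtain ⟨B, hB⟩ := hh
    rw [pow_succ, show ((n + 1 : ℕ) : ℤ) * k = n * k + k by push_cast; ring, ← hA, ← hB]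
    exact ⟨A.mul B, rfl⟩

/-- The translates of a seed are pairwise distinct functions. -/
theorem tr_seed_injective {kh : ℤ} {h : ℍ → ℂ}
    (hstab : ∀ γ : SL(2, ℤ), h ∣[kh] γ = h → Matrix.SpecialLinearGroup.mapGL ℝ γ ∈ 𝒢) :
    Function.Injective (tr 𝒢 kh h) := by
  intro q q' hqq
  have h1 : h ∣[kh] (((q.out : 𝒮ℒ) : GL (Fin 2) ℝ)⁻¹ * ((q'.out : 𝒮ℒ) : GL (Fin 2) ℝ)) = h := by
    have h2 : (tr 𝒢 kh h q) ∣[kh] ((q'.out : 𝒮ℒ) : GL (Fin 2) ℝ)
        = (tr 𝒢 kh h q') ∣[kh] ((q'.out : 𝒮ℒ) : GL (Fin 2) ℝ) := by rw [hqq]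
    unfold tr at h2
    rw [← SlashAction.slash_mul, ← SlashAction.slash_mul, inv_mul_cancel,
      SlashAction.slash_one] at h2
    exact h2
  obtain ⟨γ, hγ⟩ := ((q.out)⁻¹ * q'.out : 𝒮ℒ).2
  have hγ' : Matrix.SpecialLinearGroup.mapGL ℝ γ
      = ((q.out : 𝒮ℒ) : GL (Fin 2) ℝ)⁻¹ * ((q'.out : 𝒮ℒ) : GL (Fin 2) ℝ) := by
    rw [hγ]
    simp
  have h3 : h ∣[kh] γ = h := by
    show h ∣[kh] (Matrix.SpecialLinearGroup.mapGL ℝ γ) = h
    rw [hγ']
    exact h1
  have h4 := hstab γ h3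
  rw [hγ'] at h4
  have h5 : (q.out)⁻¹ * q'.out ∈ 𝒢.subgroupOf 𝒮ℒ := by
    rw [Subgroup.mem_subgroupOf]
    simpa using h4
  have h6 : (QuotientGroup.mk q.out : Q 𝒢) = QuotientGroup.mk q'.out := QuotientGroup.eq.mpr h5
  rwa [QuotientGroup.out_eq', QuotientGroup.out_eq'] at h6

/-- Step A: at a suitable point, the columns of the fundamental matrix of a free basis span
`ℂ^Q`. -/
theorem exists_point_span_top (seed : Seed 𝒢) {V : ℤ → Submodule ℂ (ℍ → ℂ)}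
    (hV : ∃ (a : ℤ) (u : ℍ → ℂ), u ∈ RR a ∧ (∀ z, u z ≠ 0) ∧
      ∀ (k : ℤ) (g : ℍ → ℂ), g ∈ MFG 𝒢 k → u * g ∈ V (a + k))
    {J : Type} [Fintype J] {κ : J → ℤ} {F : J → ℍ → ℂ} (hfree : IsFreeBasis V κ F) :
    ∃ z₀ : ℍ, Submodule.span ℂ
      (Set.range fun j : J => (fun q : Q 𝒢 => tr 𝒢 (κ j) (F j) q z₀)) = ⊤ := by
  obtain ⟨kh, h, hh, hstab⟩ := seed
  obtain ⟨a, u, hu, hune, huV⟩ := hV
  have hinj := tr_seed_injective (𝒢 := 𝒢) hstab
  -- a point where the translates of the seed take pairwise distinct values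
  obtain ⟨z₀, hz₀⟩ := exists_forall_ne_zero
    (fun p : {p : Q 𝒢 × Q 𝒢 // p.1 ≠ p.2} => tr 𝒢 kh h p.1.1 - tr 𝒢 kh h p.1.2)
    (fun p => (mdiff_tr (mdiff_of_mem_MFG hh) _).sub (mdiff_tr (mdiff_of_mem_MFG hh) _))
    (fun p hp => p.2 (hinj (sub_eq_zero.mp hp)))
  have hvinj : Function.Injective (fun q : Q 𝒢 => tr 𝒢 kh h q z₀) := by
    intro q q' hqq
    by_contra hne
    exact hz₀ ⟨(q, q'), hne⟩ (by simpa [sub_eq_zero] using hqq)
  refine ⟨z₀, ?_⟩
  rw [eq_top_iff, ← span_pow_eq_top _ hvinj]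
  apply Submodule.span_le.mpr
  rintro _ ⟨i, rfl⟩
  have hmem : u * h ^ i ∈ V (a + i * kh) := huV _ _ (pow_mem_MFG hh i)
  obtain ⟨P, ⟨hP, hsum⟩, -⟩ := hfree.2 _ _ hmem
  have key : ∀ q, u z₀ * tr 𝒢 kh h q z₀ ^ i = ∑ j, P j z₀ * tr 𝒢 (κ j) (F j) q z₀ := by
    intro q
    have h1 : tr 𝒢 (a + i * kh) (u * h ^ i) q = u * (tr 𝒢 kh h q) ^ i := by
      rw [tr_levelOne_mul rfl hu, tr_pow]
    have h2 : tr 𝒢 (a + i * kh) (∑ j, P j * F j) q = ∑ j, P j * tr 𝒢 (κ j) (F j) q := by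
      rw [tr_sum]
      exact Finset.sum_congr rfl fun j _ => tr_levelOne_mul (by ring) (hP j) _ _
    have h3 : u * (tr 𝒢 kh h q) ^ i = ∑ j, P j * tr 𝒢 (κ j) (F j) q := by
      rw [← h1, ← h2, ← hsum]
    have h4 := congrFun h3 z₀
    simpa [Finset.sum_apply] using h4
  have hrw : (fun q : Q 𝒢 => tr 𝒢 kh h q z₀ ^ i)
      = (u z₀)⁻¹ • ∑ j, P j z₀ • (fun q : Q 𝒢 => tr 𝒢 (κ j) (F j) q z₀) := by
    funext q
    simp only [Pi.smul_apply, Finset.sum_apply, smul_eq_mul]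
    rw [← key q, ← mul_assoc, inv_mul_cancel₀ (hune z₀), one_mul]
  show (fun q : Q 𝒢 => tr 𝒢 kh h q z₀ ^ i) ∈ _
  rw [hrw]
  exact Submodule.smul_mem _ _ (Submodule.sum_mem _ fun j _ =>
    Submodule.smul_mem _ _ (Submodule.subset_span ⟨j, rfl⟩))

/-- Step B: a maximal nondegenerate minor. -/
theorem exists_injective_fundDet_ne_zero {J : Type} {κ : J → ℤ} {F : J → ℍ → ℂ} {z₀ : ℍ}
    (hspan : Submodule.span ℂ
      (Set.range fun j : J => (fun q : Q 𝒢 => tr 𝒢 (κ j) (F j) q z₀)) = ⊤) :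
    ∃ e : Q 𝒢 → J, Function.Injective e ∧ fundDet 𝒢 (κ ∘ e) (F ∘ e) z₀ ≠ 0 := by
  classical
  obtain ⟨ι', a, ha, hsp, hli⟩ :=
    exists_linearIndependent' ℂ (fun j : J => (fun q : Q 𝒢 => tr 𝒢 (κ j) (F j) q z₀))
  have hsp' : ⊤ ≤ Submodule.span ℂ
      (Set.range ((fun j : J => (fun q : Q 𝒢 => tr 𝒢 (κ j) (F j) q z₀)) ∘ a)) := by
    rw [hsp, hspan]
  let b : Module.Basis ι' ℂ (Q 𝒢 → ℂ) := Module.Basis.mk hli hsp'
  let eqv : Q 𝒢 ≃ ι' := (Pi.basisFun ℂ (Q 𝒢)).indexEquiv b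
  refine ⟨a ∘ eqv, ha.comp eqv.injective, ?_⟩
  have hcols : LinearIndependent ℂ
      (Matrix.col (transMatrix 𝒢 (κ ∘ a ∘ eqv) (F ∘ a ∘ eqv) z₀)) := by
    have hc : Matrix.col (transMatrix 𝒢 (κ ∘ a ∘ eqv) (F ∘ a ∘ eqv) z₀)
        = ((fun j : J => (fun q : Q 𝒢 => tr 𝒢 (κ j) (F j) q z₀)) ∘ a) ∘ eqv := by
      funext q' q
      rfl
    rw [hc]
    exact hli.comp eqv eqv.injective
  have hunit := Matrix.linearIndependent_cols_iff_isUnit.mp hcols
  unfold fundDet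
  exact ((Matrix.isUnit_iff_isUnit_det _).mp hunit).ne_zero

theorem transMatrix_one_coset {J : Type} {κ : J → ℤ} {F : J → ℍ → ℂ}
    (hF : ∀ j, F j ∈ MFG 𝒢 (κ j)) (z : ℍ) (j : J) :
    transMatrix 𝒢 κ F z (QuotientGroup.mk (1 : 𝒮ℒ)) j = F j z := by
  simp only [transMatrix, Matrix.of_apply]
  rw [tr_one_coset (hF j)]

theorem transMatrix_update [DecidableEq (Q 𝒢)] (κ : Q 𝒢 → ℤ) (F : Q 𝒢 → ℍ → ℂ) (q' : Q 𝒢)
    (k₀ : ℤ) (f₀ : ℍ → ℂ) (z : ℍ) :
    (transMatrix 𝒢 κ F z).updateCol q' (fun q => tr 𝒢 k₀ f₀ q z)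
      = transMatrix 𝒢 (Function.update κ q' k₀) (Function.update F q' f₀) z := by
  ext q j
  simp only [Matrix.updateCol_apply, transMatrix, Matrix.of_apply]
  by_cases h : j = q'
  · subst h
    simp
  · simp [h]

theorem sum_update_add {ι : Type*} [Fintype ι] [DecidableEq ι] (f : ι → ℤ) (i : ι) (b : ℤ) :
    ∑ x, Function.update f i b x = ∑ x, f x - f i + b := by
  have h1 := Finset.sum_update_of_mem (Finset.mem_univ i) f b
  have h2 := Finset.sum_eq_add_sum_sdiff_singleton_of_mem (Finset.mem_univ i) f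
  rw [h1, h2]
  ring

/-- Step C: a maximal nondegenerate minor of a free basis uses all generators (Cramer). -/
theorem surjective_of_fundDet_ne_zero {V : ℤ → Submodule ℂ (ℍ → ℂ)}
    (hVle : ∀ k, V k ≤ MFG 𝒢 k)
    {J : Type} [Fintype J] {κ : J → ℤ} {F : J → ℍ → ℂ} (hfree : IsFreeBasis V κ F)
    (e : Q 𝒢 → J) (he : Function.Injective e) {z₀ : ℍ}
    (hdet : fundDet 𝒢 (κ ∘ e) (F ∘ e) z₀ ≠ 0) : Function.Surjective e := by
  classical
  by_contra hns
  obtain ⟨j₀, hj₀⟩ : ∃ j₀, ∀ q, e q ≠ j₀ := by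
    simpa [Function.Surjective] using hns
  have hFM : ∀ j, F j ∈ MFG 𝒢 (κ j) := fun j => hVle _ (hfree.1 j)
  have hFe : ∀ q, (F ∘ e) q ∈ MFG 𝒢 ((κ ∘ e) q) := fun q => hFM (e q)
  have hupd : ∀ q' j, Function.update (F ∘ e) q' (F j₀) j
      ∈ MFG 𝒢 (Function.update (κ ∘ e) q' (κ j₀) j) := by
    intro q' j
    by_cases h : j = q'
    · subst h
      simpa using hFM j₀
    · simpa [h] using hFM (e j)
  set D : ℍ → ℂ := fundDet 𝒢 (κ ∘ e) (F ∘ e) with hD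
  set Dq : Q 𝒢 → ℍ → ℂ := fun q' =>
    fundDet 𝒢 (Function.update (κ ∘ e) q' (κ j₀)) (Function.update (F ∘ e) q' (F j₀)) with hDq
  -- Cramer's rule on the row of the identity coset
  have hcr : ∀ z, ∑ q', F (e q') z * Dq q' z = D z * F j₀ z := by
    intro z
    have h1 := congrFun (Matrix.mulVec_cramer (transMatrix 𝒢 (κ ∘ e) (F ∘ e) z)
      (fun q => tr 𝒢 (κ j₀) (F j₀) q z)) (QuotientGroup.mk (1 : 𝒮ℒ))
    simp only [Matrix.mulVec, dotProduct, Pi.smul_apply, smul_eq_mul, Matrix.cramer_apply,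
      transMatrix_update] at h1
    rw [tr_one_coset (hFM j₀)] at h1
    have h2 : ∀ q', transMatrix 𝒢 (κ ∘ e) (F ∘ e) z (QuotientGroup.mk (1 : 𝒮ℒ)) q'
        = F (e q') z := fun q' => transMatrix_one_coset hFe z q'
    simp only [h2] at h1
    exact h1
  -- the relation
  obtain ⟨S, hS⟩ : ∃ S : ℤ, S = ∑ q, (κ ∘ e) q := ⟨_, rfl⟩
  obtain ⟨w, hw⟩ : ∃ w : ℤ, w = S + S + κ j₀ := ⟨_, rfl⟩
  let e' : Option (Q 𝒢) → J := fun o => o.elim j₀ e
  have he' : Function.Injective e' := by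
    intro o o' hoo
    cases o with
    | none =>
      cases o' with
      | none => rfl
      | some q' => exact absurd hoo.symm (hj₀ q')
    | some q =>
      cases o' with
      | none => exact absurd hoo (hj₀ q)
      | some q' => exact congrArg some (he hoo)
  let g : Option (Q 𝒢) → (ℍ → ℂ) := fun o => o.elim (-(D * D)) (fun q' => D * Dq q')
  set P₁ : J → ℍ → ℂ := Function.extend e' g 0 with hP₁
  have hP₁e : ∀ o, P₁ (e' o) = g o := fun o => he'.extend_apply g 0 o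
  have hP₁mem : ∀ j, P₁ j ∈ RR (w - κ j) := by
    intro j
    by_cases hj : ∃ o, e' o = j
    · obtain ⟨o, rfl⟩ := hj
      rw [hP₁e]
      cases o with
      | none =>
        refine Submodule.neg_mem _
          (mem_of_weight_eq (V := RR) ?_ (fundDet_mul_mem_RR hFe hFe))
        rw [← hS, hw]
        simp [e']
      | some q' =>
        refine mem_of_weight_eq (V := RR) ?_ (fundDet_mul_mem_RR hFe (hupd q'))
        rw [sum_update_add, ← hS, hw]
        simp only [e', Option.elim, Function.comp_apply]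
        ring
    · rw [hP₁, Function.extend_apply' _ _ _ hj]
      exact Submodule.zero_mem _
  have hP₁sum : ∑ j, P₁ j * F j = 0 := by
    rw [← Fintype.sum_of_injective e' he' (fun o => g o * F (e' o)) (fun j => P₁ j * F j)
      (fun j hj => by
        rw [hP₁, Function.extend_apply' _ _ _ (by simpa using hj)]
        simp)
      (fun o => by rw [hP₁e])]
    rw [Fintype.sum_option]
    funext z
    simp only [g, e', Option.elim, Pi.add_apply, Pi.mul_apply, Pi.neg_apply, Finset.sum_apply,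
      Pi.zero_apply]
    have := hcr z
    have h3 : ∑ q', D z * Dq q' z * F (e q') z = D z * ∑ q', F (e q') z * Dq q' z := by
      rw [Finset.mul_sum]
      exact Finset.sum_congr rfl fun q' _ => by ring
    rw [h3, this]
    ring
  obtain ⟨P, -, huniq⟩ := hfree.2 w 0 (Submodule.zero_mem _)
  have h1 := huniq P₁ ⟨hP₁mem, hP₁sum.symm⟩
  have h0 := huniq 0 ⟨fun j => Submodule.zero_mem _, by simp⟩
  have hzero : P₁ = 0 := h1.trans h0.symm
  have h5 : P₁ (e' none) = 0 := by rw [hzero]; rfl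
  rw [hP₁e] at h5
  have h6 : -(D z₀ * D z₀) = 0 := congrFun h5 z₀
  have h7 : D z₀ = 0 := by
    have : D z₀ * D z₀ = 0 := neg_eq_zero.mp h6
    exact mul_self_eq_zero.mp this
  exact hdet h7

/-- Reindexing a free basis along an equivalence. -/
theorem isFreeBasis_comp_equiv {V : ℤ → Submodule ℂ (ℍ → ℂ)} {J J' : Type} [Fintype J]
    [Fintype J'] (ε : J' ≃ J) {κ : J → ℤ} {F : J → ℍ → ℂ} (h : IsFreeBasis V κ F) :
    IsFreeBasis V (κ ∘ ε) (F ∘ ε) := by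
  refine ⟨fun j => h.1 (ε j), fun k f hf => ?_⟩
  obtain ⟨P, ⟨hP, hsum⟩, huniq⟩ := h.2 k f hf
  refine ⟨P ∘ ε, ⟨fun j => hP (ε j), ?_⟩, ?_⟩
  · rw [hsum]
    exact (Equiv.sum_comp ε (fun j => P j * F j)).symm
  · rintro P' ⟨hP', hsum'⟩
    have h1 : P' ∘ ε.symm = P := by
      apply huniq
      refine ⟨fun j => ?_, ?_⟩
      · have := hP' (ε.symm j)
        simpa using this
      · rw [hsum']
        have := Equiv.sum_comp ε.symm (fun j => P' j * (F ∘ ε) j)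
        simpa using this.symm
    funext j
    rw [← h1]
    simp

/-- The basis bridge: a finite free basis together with a seed gives a free basis indexed by
the cosets with a fundamental determinant that is not identically zero. -/
theorem stmt_Basis_of_free (seed : Seed 𝒢) {V : ℤ → Submodule ℂ (ℍ → ℂ)}
    (hVle : ∀ k, V k ≤ MFG 𝒢 k)
    (hV : ∃ (a : ℤ) (u : ℍ → ℂ), u ∈ RR a ∧ (∀ z, u z ≠ 0) ∧
      ∀ (k : ℤ) (g : ℍ → ℂ), g ∈ MFG 𝒢 k → u * g ∈ V (a + k))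
    {J : Type} [Fintype J] {κ : J → ℤ} {F : J → ℍ → ℂ} (hfree : IsFreeBasis V κ F) :
    Stmt_Basis 𝒢 V := by
  obtain ⟨z₀, hspan⟩ := exists_point_span_top seed hV hfree
  obtain ⟨e, he, hdet⟩ := exists_injective_fundDet_ne_zero hspan
  have hsurj := surjective_of_fundDet_ne_zero hVle hfree e he hdet
  exact ⟨κ ∘ e, F ∘ e, isFreeBasis_comp_equiv (Equiv.ofBijective e ⟨he, hsurj⟩) hfree, z₀, hdet⟩

end bridge

/-- `helper560.Goal_BasisM`. -/
theorem goal_BasisM : Goal_BasisM := by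
  intro 𝒢 _ _ N hG seed
  obtain ⟨J, _, κ, F, hfree⟩ := exists_freeBasis_MFG hG
  refine stmt_Basis_of_free seed (fun k => le_rfl) ⟨0, 1, ?_, fun z => one_ne_zero, ?_⟩ hfree
  · exact ⟨ModularForm.const 1, by ext z; simp⟩
  · intro k g hg
    simpa using hg

/-- `helper560.Goal_BasisS`. -/
theorem goal_BasisS : Goal_BasisS := by
  intro 𝒢 _ _ N hG seed
  obtain ⟨J, _, κ, F, hfree⟩ := exists_freeBasis_CFG hG
  refine stmt_Basis_of_free seed (fun k => helper2805.CFG_le_MFG k)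
    ⟨12, Δ, ?_, discriminant_ne_zero, ?_⟩ hfree
  · exact ⟨ModularFormClass.modularForm CuspForm.discriminant, rfl⟩
  · rintro k g ⟨G, rfl⟩
    exact ⟨(helper2805.restrictCF hG.le CuspForm.discriminant).mulModularForm G, rfl⟩

end

end Fermat.Agent.S20.helper813
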