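import Fermat.Agent.S20.helper260_Sandwich
import Fermat.Agent.S20.helper387_GoalODE
import Fermat.Agent.S20.helper1774_Ell
import Fermat.Agent.S20.helper2805_Basic

/-!
# S20 / S21: the constant-term bound `Goal_Lower` (exact `helper260_Sandwich` shape)

`finrank M₂(𝒢) + 1 ≤ finrank S₂(𝒢) + #cusps` for every good level `𝒢`.

The constant-term map `ct : M_k(𝒢) → ℂ^Q`, `f ↦ (lim_{i∞} f_q)_q` (limits of all translates) has
* kernel inside the cusp forms,
* image inside the functions on the cosets which are invariant under `T` and, for `k = 2`, have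
  sum `0` (because `∑_q f_q` is a level one form of weight `2`, hence zero).
The space of such functions has dimension `#(T-orbits) - 1`.
-/

set_option autoImplicit false

open UpperHalfPlane ModularForm Filter Topology
open scoped MatrixGroups Manifold Pointwise

namespace Fermat.Agent.S20.helper921

open Fermat.Agent.S20.helper560 Fermat.Agent.S20.helper260

noncomputable section

/-! ### Pure linear algebra: invariant functions with sum zero -/

/-- A function invariant under `t` is invariant under the subgroup generated by `t`. -/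
theorem invariant_zpowers {G X Y : Type*} [Group G] [MulAction G X] (t : G) (v : X → Y)
    (h : ∀ x, v (t • x) = v x) (g : Subgroup.zpowers t) (x : X) : v (g • x) = v x := by
  obtain ⟨n, hn⟩ := Subgroup.mem_zpowers_iff.mp g.2
  rw [Subgroup.smul_def, ← hn]
  clear hn g
  induction n using Int.induction_on generalizing x with
  | zero => simp
  | succ n ih => rw [zpow_add_one, mul_smul, ih, h]
  | pred n ih =>
    rw [zpow_sub_one, mul_smul, ih]
    have := h (t⁻¹ • x)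
    rw [smul_inv_smul] at this
    exact this.symm

/-- A space of functions on a finite `G`-set which are `G`-invariant and have sum zero has
dimension at most the number of orbits minus one. -/
theorem finrank_add_one_le_card_orbits {G X : Type*} [Group G] [MulAction G X] [Fintype X]
    [Nonempty X] (W : Submodule ℂ (X → ℂ))
    (hinv : ∀ v ∈ W, ∀ (g : G) (x : X), v (g • x) = v x)
    (hsum : ∀ v ∈ W, ∑ x, v x = 0) :
    Module.finrank ℂ W + 1 ≤ Nat.card (MulAction.orbitRel.Quotient G X) := by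
  classical
  set Orb := MulAction.orbitRel.Quotient G X with hOrb
  haveI : Finite Orb := Quotient.finite _
  letI : Fintype Orb := Fintype.ofFinite Orb
  let π : X → Orb := Quotient.mk''
  let Ψ : (X → ℂ) →ₗ[ℂ] (Orb → ℂ) := LinearMap.funLeft ℂ ℂ (Quotient.out : Orb → X)
  let ℓ : (Orb → ℂ) →ₗ[ℂ] ℂ := ∑ x : X, LinearMap.proj (π x)
  have hℓ : ∀ φ : Orb → ℂ, ℓ φ = ∑ x : X, φ (π x) := by
    intro φ
    simp [ℓ, LinearMap.sum_apply]
  have hout : ∀ v ∈ W, ∀ x : X, Ψ v (π x) = v x := by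
    intro v hv x
    have h1 : (Quotient.out (π x) : X) ∈ MulAction.orbit G x := by
      have h2 : (Quotient.mk'' (Quotient.out (π x)) : Orb) = Quotient.mk'' x := Quotient.out_eq' _
      exact MulAction.orbitRel_apply.mp (Quotient.exact' h2)
    obtain ⟨g, hg⟩ := h1
    show v (Quotient.out (π x)) = v x
    rw [← hg]
    exact hinv v hv g x
  have hker : ∀ v ∈ W, Ψ v ∈ LinearMap.ker ℓ := by
    intro v hv
    rw [LinearMap.mem_ker, hℓ]
    rw [Finset.sum_congr rfl fun x _ => hout v hv x]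
    exact hsum v hv
  let Θ : W →ₗ[ℂ] LinearMap.ker ℓ :=
    (Ψ.domRestrict W).codRestrict (LinearMap.ker ℓ) fun v => hker v.1 v.2
  have hΘ : Function.Injective Θ := by
    rw [← LinearMap.ker_eq_bot, LinearMap.ker_eq_bot']
    intro v hv
    have h1 : Ψ v.1 = 0 := congrArg Subtype.val hv
    apply Subtype.ext
    funext x
    rw [← hout v.1 v.2 x, h1]
    rfl
  have h1 : Module.finrank ℂ W ≤ Module.finrank ℂ (LinearMap.ker ℓ) :=
    LinearMap.finrank_le_finrank_of_injective hΘ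
  have hsurj : Function.Surjective ℓ := by
    intro c
    refine ⟨fun _ => c / (Fintype.card X : ℂ), ?_⟩
    rw [hℓ]
    simp only [Finset.sum_const, Finset.card_univ, nsmul_eq_mul]
    have : (Fintype.card X : ℂ) ≠ 0 := by
      exact_mod_cast Fintype.card_ne_zero
    field_simp
  have h2 := ℓ.finrank_range_add_finrank_ker
  rw [LinearMap.range_eq_top.mpr hsurj, finrank_top, Module.finrank_self,
    Module.finrank_fintype_fun_eq_card] at h2
  rw [Nat.card_eq_fintype_card]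
  omega

/-! ### Limits of translates -/

variable {𝒢 : Subgroup (GL (Fin 2) ℝ)} [𝒢.IsArithmetic] [𝒢.HasDetOne] {N : ℕ}

/-- Every `SL(2,ℤ)`-translate of a modular form of good level tends to its value at infinity. -/
theorem tendsto_slash (hG : GoodLevel 𝒢 N) {k : ℤ} (F : ModularForm 𝒢 k) (γ : SL(2, ℤ)) :
    Tendsto ((⇑F : ℍ → ℂ) ∣[k] γ) atImInfty (𝓝 (valueAtInfty ((⇑F : ℍ → ℂ) ∣[k] γ))) := by
  have hh : (0 : ℝ) < (N : ℝ) := Nat.cast_pos.mpr hG.pos
  set g : GL (Fin 2) ℝ := Matrix.SpecialLinearGroup.mapGL ℝ γ with hg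
  have hper : (N : ℝ) ∈ (ConjAct.toConjAct g⁻¹ • 𝒢).strictPeriods := by
    have := hG.per γ⁻¹
    rwa [map_inv] at this
  set Ft := ModularForm.translate F g with hFt
  have hcoe : (⇑Ft : ℍ → ℂ) = (⇑F : ℍ → ℂ) ∣[k] γ := rfl
  have hfper := SlashInvariantFormClass.periodic_comp_ofComplex Ft hper
  have : Fact (IsCusp OnePoint.infty (ConjAct.toConjAct g⁻¹ • 𝒢)) :=
    ⟨Subgroup.isCusp_of_mem_strictPeriods hh hper⟩
  have han := UpperHalfPlane.analyticAt_cuspFunction_zero hh hfper (ModularFormClass.holo Ft)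
    (ModularFormClass.bdd_at_infty Ft)
  have h0 := UpperHalfPlane.cuspFunction_apply_zero hh han hfper
  have h1 := han.continuousAt.tendsto.comp (UpperHalfPlane.qParam_tendsto_atImInfty hh)
  have h2 : (cuspFunction (N : ℝ) ⇑Ft ∘ fun τ : ℍ => Function.Periodic.qParam (N : ℝ) τ)
      = ⇑Ft := by
    funext τ
    simpa using eq_cuspFunction τ hh.ne' hfper
  rw [h2, h0, hcoe] at h1
  exact h1

/-- Every coset translate of a modular form of good level tends to its value at infinity. -/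
theorem tendsto_tr (hG : GoodLevel 𝒢 N) {k : ℤ} {f : ℍ → ℂ} (hf : f ∈ MFG 𝒢 k) (q : Q 𝒢) :
    Tendsto (tr 𝒢 k f q) atImInfty (𝓝 (valueAtInfty (tr 𝒢 k f q))) := by
  obtain ⟨F, rfl⟩ := hf
  obtain ⟨γ, hγ⟩ := helper387.exists_tr_eq_slash q
  rw [hγ]
  exact tendsto_slash hG F γ

/-- The constant-term map: the values at infinity of all the coset translates. -/
def ct (hG : GoodLevel 𝒢 N) (k : ℤ) : MFG 𝒢 k →ₗ[ℂ] (Q 𝒢 → ℂ) where
  toFun f q := valueAtInfty (tr 𝒢 k f.1 q)
  map_add' f g := by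
    funext q
    obtain ⟨γ, hγ⟩ := helper387.exists_tr_eq_slash q
    have h1 := tendsto_tr hG f.2 q
    have h2 := tendsto_tr hG g.2 q
    have h3 : tr 𝒢 k (f.1 + g.1) q = tr 𝒢 k f.1 q + tr 𝒢 k g.1 q := by
      rw [hγ, hγ, hγ, SlashAction.add_slash]
    show valueAtInfty (tr 𝒢 k (f.1 + g.1) q) = _
    rw [h3]
    exact (h1.add h2).limUnder_eq
  map_smul' c f := by
    funext q
    obtain ⟨γ, hγ⟩ := helper387.exists_tr_eq_slash q
    have h1 := tendsto_tr hG f.2 q
    have h3 : tr 𝒢 k (c • f.1) q = c • tr 𝒢 k f.1 q := by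
      rw [hγ, hγ, ModularForm.SL_smul_slash]
    show valueAtInfty (tr 𝒢 k (c • f.1) q) = c • valueAtInfty (tr 𝒢 k f.1 q)
    rw [h3]
    exact (h1.const_smul c).limUnder_eq

theorem ct_apply (hG : GoodLevel 𝒢 N) (k : ℤ) (f : MFG 𝒢 k) (q : Q 𝒢) :
    ct hG k f q = valueAtInfty (tr 𝒢 k f.1 q) := rfl

/-- The kernel of the constant-term map consists of cusp forms. -/
theorem mem_CFG_of_ct_eq_zero (hG : GoodLevel 𝒢 N) {k : ℤ} {f : ℍ → ℂ} (hf : f ∈ MFG 𝒢 k)
    (h0 : ∀ q, valueAtInfty (tr 𝒢 k f q) = 0) : f ∈ CFG 𝒢 k := by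
  obtain ⟨F, rfl⟩ := hf
  have hz : ∀ γ : SL(2, ℤ), IsZeroAtImInfty ((⇑F : ℍ → ℂ) ∣[k] γ) := by
    intro γ
    have h1 := tendsto_slash hG F γ
    have h2 : tr 𝒢 k ⇑F (QuotientGroup.mk (sl γ)⁻¹ : Q 𝒢) = (⇑F : ℍ → ℂ) ∣[k] γ := by
      rw [tr_eq_quotientFunc]
      show (⇑F : ℍ → ℂ) ∣[k] (((sl γ)⁻¹ : 𝒮ℒ) : GL (Fin 2) ℝ)⁻¹ = _
      simp only [InvMemClass.coe_inv, inv_inv]
      rfl
    have h3 := h0 (QuotientGroup.mk (sl γ)⁻¹ : Q 𝒢)
    rw [h2] at h3
    rw [h3] at h1
    exact h1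
  refine ⟨{ toFun := F, slash_action_eq' := F.slash_action_eq', holo' := F.holo',
            zero_at_cusps' := ?_ }, rfl⟩
  intro c hc
  rw [Subgroup.IsArithmetic.isCusp_iff_isCusp_SL2Z] at hc
  rw [OnePoint.isZeroAt_iff_forall_SL2Z hc]
  intro γ _
  exact hz γ

/-- The constant terms are invariant under `T`. -/
theorem ct_T_smul (hG : GoodLevel 𝒢 N) {k : ℤ} {f : ℍ → ℂ} (hf : f ∈ MFG 𝒢 k) (q : Q 𝒢) :
    valueAtInfty (tr 𝒢 k f (sl ModularGroup.T • q)) = valueAtInfty (tr 𝒢 k f q) := by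
  have h1 := helper1774.tr_inv_smul hf (sl ModularGroup.T)⁻¹ q
  rw [inv_inv] at h1
  have h3 := tendsto_tr hG hf q
  have h4 : (tr 𝒢 k f q) ∣[k] (((sl ModularGroup.T)⁻¹ : 𝒮ℒ) : GL (Fin 2) ℝ)
      = fun z => tr 𝒢 k f q ((ModularGroup.T⁻¹ : SL(2, ℤ)) • z) := by
    have h5 : (((sl ModularGroup.T)⁻¹ : 𝒮ℒ) : GL (Fin 2) ℝ)
        = Matrix.SpecialLinearGroup.mapGL ℝ (ModularGroup.T⁻¹ : SL(2, ℤ)) := by
      rw [map_inv]
      rfl
    rw [h5]
    funext z
    show ((tr 𝒢 k f q) ∣[k] (ModularGroup.T⁻¹ : SL(2, ℤ))) z = _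
    have h7 : denom (ModularGroup.T⁻¹ : SL(2, ℤ)) z = 1 := by
      rw [ModularGroup.denom_apply]
      simp
    rw [SL_slash_apply, h7, one_zpow, mul_one]
  rw [h1, h4]
  have h8 : Tendsto (fun z : ℍ => (ModularGroup.T⁻¹ : SL(2, ℤ)) • z) atImInfty atImInfty := by
    have h9 : ∀ z : ℍ, ((ModularGroup.T⁻¹ : SL(2, ℤ)) • z).im = z.im := by
      intro z
      have := UpperHalfPlane.modular_T_zpow_smul z (-1)
      rw [zpow_neg_one] at this
      rw [this, UpperHalfPlane.vadd_im]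
    rw [atImInfty, tendsto_comap_iff]
    have h10 : (UpperHalfPlane.im ∘ fun z : ℍ => (ModularGroup.T⁻¹ : SL(2, ℤ)) • z)
        = UpperHalfPlane.im := funext h9
    rw [h10]
    exact tendsto_comap
  exact (h3.comp h8).limUnder_eq

/-- In weight two the coset translates sum to zero (no level one forms of weight two). -/
theorem sum_tr_eq_zero {f : ℍ → ℂ} (hf : f ∈ MFG 𝒢 2) : ∑ q : Q 𝒢, tr 𝒢 2 f q = 0 := by
  obtain ⟨F, rfl⟩ := hf
  have h3 : ModularForm.trace 𝒮ℒ F = 0 :=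
    (rank_zero_iff_forall_zero.mp ModularForm.levelOne_weight_two_rank_zero) _
  have h2 : (⇑(ModularForm.trace 𝒮ℒ F) : ℍ → ℂ) = ∑ q : Q 𝒢, tr 𝒢 2 ⇑F q := by
    rw [ModularForm.coe_trace]
    refine Finset.sum_congr (by congr) fun q _ => (tr_eq_quotientFunc F q).symm
  rw [← h2, h3]
  rfl

/-- The constant terms in weight two sum to zero. -/
theorem sum_ct_eq_zero (hG : GoodLevel 𝒢 N) (f : MFG 𝒢 2) : ∑ q, ct hG 2 f q = 0 := by
  have h1 : Tendsto (∑ q : Q 𝒢, tr 𝒢 2 f.1 q) atImInfty (𝓝 (∑ q, ct hG 2 f q)) := by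
    have : (∑ q : Q 𝒢, tr 𝒢 2 f.1 q) = fun z => ∑ q : Q 𝒢, tr 𝒢 2 f.1 q z := by
      funext z
      simp
    rw [this]
    exact tendsto_finsetSum _ fun q _ => tendsto_tr hG f.2 q
  rw [sum_tr_eq_zero f.2] at h1
  exact tendsto_nhds_unique h1 tendsto_const_nhds

/-- `Stmt_Lower` of `helper260_Sandwich` for every good level. -/
theorem stmt_Lower (hG : GoodLevel 𝒢 N) : Stmt_Lower 𝒢 := by
  unfold Stmt_Lower
  haveI : Module.Finite ℂ (MFG 𝒢 2) := helper2805.finite_MFG hG 2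
  haveI : Module.Finite ℂ (CFG 𝒢 2) :=
    Submodule.finiteDimensional_of_le (helper2805.CFG_le_MFG 2)
  have hrn := (ct hG 2).finrank_range_add_finrank_ker
  have hker : Module.finrank ℂ (LinearMap.ker (ct hG 2)) ≤ Module.finrank ℂ (CFG 𝒢 2) := by
    rw [← Submodule.finrank_map_subtype_eq (MFG 𝒢 2) (LinearMap.ker (ct hG 2))]
    apply Submodule.finrank_mono
    rintro _ ⟨x, hx, rfl⟩
    refine mem_CFG_of_ct_eq_zero hG x.2 fun q => ?_
    have := congrFun (LinearMap.mem_ker.mp hx) q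
    exact this
  have hrange : Module.finrank ℂ (LinearMap.range (ct hG 2)) + 1 ≤ cusps 𝒢 := by
    haveI : Nonempty (Q 𝒢) := ⟨QuotientGroup.mk 1⟩
    refine finrank_add_one_le_card_orbits (G := Subgroup.zpowers (sl ModularGroup.T))
      (LinearMap.range (ct hG 2)) ?_ ?_
    · rintro _ ⟨f, rfl⟩ g q
      exact invariant_zpowers (sl ModularGroup.T) (ct hG 2 f)
        (fun x => ct_T_smul hG f.2 x) g q
    · rintro _ ⟨f, rfl⟩
      exact sum_ct_eq_zero hG f
  omega

/-- **`Goal_Lower`** of `helper260_Sandwich`. -/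
theorem goal_Lower : Goal_Lower := fun _ _ _ _ hG => stmt_Lower hG

end

end Fermat.Agent.S20.helper921
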