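import Mathlib

set_option autoImplicit false

/-!
# Abstract graded freeness lemma (backup of S20-FREE, helper931)

`R m`, `M k` are families of `K`-subspaces of a commutative `K`-algebra `A` (think:
level-one forms of weight `m`, level-`Γ` forms of weight `k`, inside functions `ℍ → ℂ`).
Under the hypotheses `GradedHyp` (regular sequence `e4, e6`, `R` generated by `e4, e6`, ...)
there is a family `F j ∈ M (k j)` such that every element of `M w` is uniquely
`∑ P j * F j` with `P j ∈ R (w - k j)`.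
-/

namespace Fermat.Agent.S20.helper931

open Finsupp

variable {K : Type*} [Field K] {A : Type*} [CommRing A] [Algebra K A]

/-- Hypotheses of the graded freeness lemma. -/
structure GradedHyp (R M : ℤ → Submodule K A) (e4 e6 : A) : Prop where
  e4_mem : e4 ∈ R 4
  e6_mem : e6 ∈ R 6
  R_mul_R : ∀ {m n : ℤ} {r s : A}, r ∈ R m → s ∈ R n → r * s ∈ R (m + n)
  R_mul_M : ∀ {m k : ℤ} {r a : A}, r ∈ R m → a ∈ M k → r * a ∈ M (m + k)
  R_neg : ∀ {m : ℤ}, m < 0 → ∀ r ∈ R m, r = 0
  R_zero : ∀ r ∈ R 0, ∃ c : K, r = algebraMap K A c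
  const_mem : ∀ c : K, algebraMap K A c ∈ R 0
  R_pos : ∀ {m : ℤ}, 0 < m → ∀ r ∈ R m, ∃ a ∈ R (m - 4), ∃ b ∈ R (m - 6), r = e4 * a + e6 * b
  M_neg : ∀ {k : ℤ}, k < 0 → ∀ a ∈ M k, a = 0
  M_fin : ∀ k : ℤ, Module.Finite K (M k)
  reg : ∀ {k : ℤ} {a b : A}, a ∈ M (k - 4) → b ∈ M (k - 6) → e4 * a + e6 * b = 0 →
      ∃ c ∈ M (k - 10), a = -(e6 * c) ∧ b = e4 * c

variable {R M : ℤ → Submodule K A} {e4 e6 : A}

/-- The decomposable part of `M w`. -/
def decomp (M : ℤ → Submodule K A) (e4 e6 : A) (w : ℤ) : Submodule K A :=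
  (M (w - 4)).map (LinearMap.mulLeft K e4) ⊔ (M (w - 6)).map (LinearMap.mulLeft K e6)

lemma mem_decomp {w : ℤ} {x : A} :
    x ∈ decomp M e4 e6 w ↔ ∃ a ∈ M (w - 4), ∃ b ∈ M (w - 6), x = e4 * a + e6 * b := by
  unfold decomp
  rw [Submodule.mem_sup]
  constructor
  · rintro ⟨y, hy, z, hz, rfl⟩
    obtain ⟨a, ha, rfl⟩ := hy
    obtain ⟨b, hb, rfl⟩ := hz
    exact ⟨a, ha, b, hb, rfl⟩
  · rintro ⟨a, ha, b, hb, rfl⟩
    exact ⟨e4 * a, ⟨a, ha, rfl⟩, e6 * b, ⟨b, hb, rfl⟩, rfl⟩

lemma GradedHyp.R_cast (_h : GradedHyp R M e4 e6) {m n : ℤ} (hmn : m = n) {r : A}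
    (hr : r ∈ R m) : r ∈ R n := hmn ▸ hr

lemma GradedHyp.M_cast (_h : GradedHyp R M e4 e6) {m n : ℤ} (hmn : m = n) {r : A}
    (hr : r ∈ M m) : r ∈ M n := hmn ▸ hr

lemma GradedHyp.decomp_le (h : GradedHyp R M e4 e6) (w : ℤ) : decomp M e4 e6 w ≤ M w := by
  intro x hx
  obtain ⟨a, ha, b, hb, rfl⟩ := mem_decomp.mp hx
  refine Submodule.add_mem _ ?_ ?_
  · exact h.M_cast (by ring) (h.R_mul_M h.e4_mem ha)
  · exact h.M_cast (by ring) (h.R_mul_M h.e6_mem hb)

lemma GradedHyp.exists_compl (h : GradedHyp R M e4 e6) (w : ℤ) :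
    ∃ C : Submodule K A, C ≤ M w ∧ decomp M e4 e6 w ⊓ C = ⊥ ∧ decomp M e4 e6 w ⊔ C = M w := by
  obtain ⟨C', hC'⟩ := Submodule.exists_isCompl (decomp M e4 e6 w)
  refine ⟨C' ⊓ M w, inf_le_right, ?_, ?_⟩
  · rw [← inf_assoc, hC'.inf_eq_bot, bot_inf_eq]
  · rw [← sup_inf_assoc_of_le _ (h.decomp_le w), hC'.sup_eq_top, top_inf_eq]

/-- A chosen complement of the decomposable part in `M w`. -/
noncomputable def GradedHyp.compl (h : GradedHyp R M e4 e6) (w : ℤ) : Submodule K A :=
  (h.exists_compl w).choose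

lemma GradedHyp.compl_le (h : GradedHyp R M e4 e6) (w : ℤ) : h.compl w ≤ M w :=
  (h.exists_compl w).choose_spec.1

lemma GradedHyp.decomp_inf_compl (h : GradedHyp R M e4 e6) (w : ℤ) :
    decomp M e4 e6 w ⊓ h.compl w = ⊥ :=
  (h.exists_compl w).choose_spec.2.1

lemma GradedHyp.decomp_sup_compl (h : GradedHyp R M e4 e6) (w : ℤ) :
    decomp M e4 e6 w ⊔ h.compl w = M w :=
  (h.exists_compl w).choose_spec.2.2

instance GradedHyp.compl_finite (h : GradedHyp R M e4 e6) (w : ℤ) :
    Module.Finite K (h.compl w) := by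
  have := h.M_fin w
  exact Submodule.finiteDimensional_of_le (h.compl_le w)

lemma GradedHyp.compl_eq_bot_of_neg (h : GradedHyp R M e4 e6) {w : ℤ} (hw : w < 0) :
    h.compl w = ⊥ := by
  rw [eq_bot_iff]
  intro x hx
  exact (Submodule.mem_bot K).mpr (h.M_neg hw x (h.compl_le w hx))

/-- The index type of the generators. -/
abbrev GradedHyp.Idx (h : GradedHyp R M e4 e6) : Type :=
  Σ w : ℤ, Fin (Module.finrank K (h.compl w))

/-- The weight of a generator. -/
def GradedHyp.wt (h : GradedHyp R M e4 e6) (j : h.Idx) : ℤ := j.1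

/-- The generators. -/
noncomputable def GradedHyp.gen (h : GradedHyp R M e4 e6) (j : h.Idx) : A :=
  ((Module.finBasis K (h.compl j.1)) j.2 : A)

lemma GradedHyp.gen_mem_compl (h : GradedHyp R M e4 e6) (j : h.Idx) :
    h.gen j ∈ h.compl (h.wt j) :=
  ((Module.finBasis K (h.compl j.1)) j.2).2

lemma GradedHyp.gen_mem (h : GradedHyp R M e4 e6) (j : h.Idx) : h.gen j ∈ M (h.wt j) :=
  h.compl_le _ (h.gen_mem_compl j)

lemma GradedHyp.wt_nonneg (h : GradedHyp R M e4 e6) (j : h.Idx) : 0 ≤ h.wt j := by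
  by_contra hneg
  have hneg' : j.1 < 0 := not_le.mp hneg
  have h0 : Module.finrank K (h.compl j.1) = 0 := by
    rw [h.compl_eq_bot_of_neg hneg']; exact finrank_bot K A
  exact (h0 ▸ j.2).elim0

lemma GradedHyp.gen_ne_zero (h : GradedHyp R M e4 e6) (j : h.Idx) : h.gen j ≠ 0 := by
  intro h0
  have := (Module.finBasis K (h.compl j.1)).ne_zero j.2
  exact this (Subtype.ext h0)

lemma GradedHyp.finite_wt_le (h : GradedHyp R M e4 e6) (w : ℤ) :
    {j : h.Idx | h.wt j ≤ w}.Finite := by
  have : {j : h.Idx | h.wt j ≤ w} ⊆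
      ((Finset.Icc (0 : ℤ) w).sigma fun _ => Finset.univ : Finset h.Idx) := by
    intro j hj
    simp only [Finset.coe_sigma, Finset.coe_Icc, Finset.coe_univ, Set.mem_sigma_iff,
      Set.mem_Icc, Set.mem_univ, and_true]
    exact ⟨h.wt_nonneg j, hj⟩
  exact (Finset.finite_toSet _).subset this

/-- The evaluation map `P ↦ ∑ P j * gen j`. -/
noncomputable def GradedHyp.ev (h : GradedHyp R M e4 e6) : (h.Idx →₀ A) →ₗ[A] A :=
  Finsupp.linearCombination A h.gen

lemma GradedHyp.ev_apply (h : GradedHyp R M e4 e6) (P : h.Idx →₀ A) :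
    h.ev P = P.sum fun j p => p * h.gen j := by
  simp [GradedHyp.ev, Finsupp.linearCombination_apply]

lemma GradedHyp.ev_mem (h : GradedHyp R M e4 e6) {w : ℤ} {P : h.Idx →₀ A}
    (hP : ∀ j, P j ∈ R (w - h.wt j)) : h.ev P ∈ M w := by
  rw [h.ev_apply]
  refine Submodule.sum_mem _ fun j _ => ?_
  exact h.M_cast (by ring) (h.R_mul_M (hP j) (h.gen_mem j))

/-- Spanning, by induction on the weight. -/
lemma GradedHyp.span_aux (h : GradedHyp R M e4 e6) (n : ℕ) :
    ∀ w : ℤ, w < n → ∀ f ∈ M w,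
      ∃ P : h.Idx →₀ A, (∀ j, P j ∈ R (w - h.wt j)) ∧ f = h.ev P := by
  induction n with
  | zero =>
    intro w hw f hf
    refine ⟨0, fun j => by simp, ?_⟩
    rw [h.M_neg (by simpa using hw) f hf, map_zero]
  | succ n ih =>
    intro w hw f hf
    rcases lt_or_ge w n with hlt | hge
    · exact ih w hlt f hf
    have hwn : w = n := le_antisymm (by push_cast at hw; omega) hge
    rw [← h.decomp_sup_compl w, Submodule.mem_sup] at hf
    obtain ⟨x, hx, c, hc, rfl⟩ := hf
    obtain ⟨a, ha, b, hb, rfl⟩ := mem_decomp.mp hx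
    obtain ⟨PA, hPA, rfl⟩ := ih (w - 4) (by omega) a ha
    obtain ⟨PB, hPB, rfl⟩ := ih (w - 6) (by omega) b hb
    -- the part in the complement
    set bas := Module.finBasis K (h.compl w) with hbas
    let Pc : h.Idx →₀ A :=
      ∑ i : Fin (Module.finrank K (h.compl w)),
        Finsupp.single (⟨w, i⟩ : h.Idx) (algebraMap K A (bas.repr ⟨c, hc⟩ i))
    have hPc_mem : ∀ j, Pc j ∈ R (w - h.wt j) := by
      intro j
      simp only [Pc, Finsupp.coe_finsetSum, Finset.sum_apply]
      refine Submodule.sum_mem _ fun i _ => ?_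
      rw [Finsupp.single_apply]
      split_ifs with hij
      · subst hij
        exact h.R_cast (by simp [GradedHyp.wt]) (h.const_mem _)
      · exact Submodule.zero_mem _
    have hPc_ev : h.ev Pc = c := by
      have h1 : (⟨c, hc⟩ : h.compl w) = ∑ i, bas.repr ⟨c, hc⟩ i • bas i :=
        (bas.sum_repr ⟨c, hc⟩).symm
      have h2 : c = ∑ i, bas.repr ⟨c, hc⟩ i • (bas i : A) := by
        have := congrArg (Subtype.val) h1
        simpa only [Submodule.coe_sum, Submodule.coe_smul] using this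
      simp only [Pc, map_sum, GradedHyp.ev, Finsupp.linearCombination_single]
      refine Eq.trans ?_ h2.symm
      refine Finset.sum_congr rfl fun i _ => ?_
      rw [algebraMap_smul]
      rfl
    refine ⟨e4 • PA + e6 • PB + Pc, fun j => ?_, ?_⟩
    · simp only [Finsupp.coe_add, Finsupp.coe_smul, Pi.add_apply, Pi.smul_apply, smul_eq_mul]
      refine Submodule.add_mem _ (Submodule.add_mem _ ?_ ?_) (hPc_mem j)
      · exact h.R_cast (by ring) (h.R_mul_R h.e4_mem (hPA j))
      · exact h.R_cast (by ring) (h.R_mul_R h.e6_mem (hPB j))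
    · simp only [map_add, map_smul, smul_eq_mul, hPc_ev]

lemma GradedHyp.span (h : GradedHyp R M e4 e6) (w : ℤ) (f : A) (hf : f ∈ M w) :
    ∃ P : h.Idx →₀ A, (∀ j, P j ∈ R (w - h.wt j)) ∧ f = h.ev P :=
  h.span_aux (w.toNat + 1) w (by have := Int.self_le_toNat w; push_cast; omega) f hf

lemma GradedHyp.linearIndependent_gen_fiber (h : GradedHyp R M e4 e6) (w : ℤ) :
    LinearIndependent K (fun i : Fin (Module.finrank K (h.compl w)) => h.gen ⟨w, i⟩) := by
  have := (Module.finBasis K (h.compl w)).linearIndependent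
  exact this.map' (h.compl w).subtype (Submodule.ker_subtype _)

/-- Independence, by induction on the weight. -/
lemma GradedHyp.indep_aux (h : GradedHyp R M e4 e6) (n : ℕ) :
    ∀ w : ℤ, w < n → ∀ P : h.Idx →₀ A, (∀ j, P j ∈ R (w - h.wt j)) → h.ev P = 0 → P = 0 := by
  induction n with
  | zero =>
    intro w hw P hP _
    ext j
    have hneg : w - h.wt j < 0 := by
      have := h.wt_nonneg j
      have hw' : w < 0 := by simpa using hw
      omega
    simpa using h.R_neg hneg _ (hP j)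
  | succ n ih =>
    intro w hw P hP hev
    rcases lt_or_ge w n with hlt | hge
    · exact ih w hlt P hP hev
    have hwn : w = n := le_antisymm (by push_cast at hw; omega) hge
    -- decomposition of each coefficient
    have key : ∀ j, ∃ (c : K) (a b : A), a ∈ R (w - 4 - h.wt j) ∧ b ∈ R (w - 6 - h.wt j) ∧
        P j = algebraMap K A c + e4 * a + e6 * b ∧ (h.wt j ≠ w → c = 0) ∧
        (P j = 0 → c = 0 ∧ a = 0 ∧ b = 0) := by
      intro j
      by_cases hPj : P j = 0
      · exact ⟨0, 0, 0, Submodule.zero_mem _, Submodule.zero_mem _, by simp [hPj],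
          fun _ => rfl, fun _ => ⟨rfl, rfl, rfl⟩⟩
      rcases lt_trichotomy (h.wt j) w with hlt | heq | hgt
      · obtain ⟨a, ha, b, hb, hab⟩ := h.R_pos (m := w - h.wt j) (by omega) (P j) (hP j)
        exact ⟨0, a, b, h.R_cast (by ring) ha, h.R_cast (by ring) hb, by simp [hab],
          fun _ => rfl, fun h0 => absurd h0 hPj⟩
      · obtain ⟨c, hc⟩ := h.R_zero (P j) (h.R_cast (by omega) (hP j))
        exact ⟨c, 0, 0, Submodule.zero_mem _, Submodule.zero_mem _, by simp [hc],
          fun hne => absurd heq hne, fun h0 => absurd h0 hPj⟩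
      · exact absurd (h.R_neg (by omega) _ (hP j)) hPj
    choose c a b ha hb hPeq hc0 hzero using key
    let Pc : h.Idx →₀ A := Finsupp.onFinset P.support (fun j => algebraMap K A (c j)) (by
      intro j hj
      rw [Finsupp.mem_support_iff]
      intro h0
      exact hj (by rw [(hzero j h0).1, map_zero]))
    let PA : h.Idx →₀ A := Finsupp.onFinset P.support a (fun j hj => by
      rw [Finsupp.mem_support_iff]; intro h0; exact hj (hzero j h0).2.1)
    let PB : h.Idx →₀ A := Finsupp.onFinset P.support b (fun j hj => by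
      rw [Finsupp.mem_support_iff]; intro h0; exact hj (hzero j h0).2.2)
    have hPc_apply : ∀ j, Pc j = algebraMap K A (c j) := fun j => rfl
    have hPA_apply : ∀ j, PA j = a j := fun j => rfl
    have hPB_apply : ∀ j, PB j = b j := fun j => rfl
    have hPdecomp : P = Pc + e4 • PA + e6 • PB := by
      ext j
      simp only [Finsupp.coe_add, Finsupp.coe_smul, Pi.add_apply, Pi.smul_apply, smul_eq_mul,
        hPc_apply, hPA_apply, hPB_apply]
      exact hPeq j
    have hPA_mem : ∀ j, PA j ∈ R (w - 4 - h.wt j) := fun j => ha j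
    have hPB_mem : ∀ j, PB j ∈ R (w - 6 - h.wt j) := fun j => hb j
    have hA : h.ev PA ∈ M (w - 4) := h.ev_mem hPA_mem
    have hB : h.ev PB ∈ M (w - 6) := h.ev_mem hPB_mem
    have hPc_ev_mem : h.ev Pc ∈ h.compl w := by
      rw [h.ev_apply]
      refine Submodule.sum_mem _ fun j _ => ?_
      by_cases hj : h.wt j = w
      · have hg := h.gen_mem_compl j
        rw [hj] at hg
        have := (h.compl w).smul_mem (c j) hg
        rw [Algebra.smul_def] at this
        rw [hPc_apply]
        exact this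
      · rw [hPc_apply, hc0 j hj, map_zero]
        simp only [zero_mul]
        exact Submodule.zero_mem _
    have hdec : e4 * h.ev PA + e6 * h.ev PB ∈ decomp M e4 e6 w :=
      mem_decomp.mpr ⟨_, hA, _, hB, rfl⟩
    have hsum : h.ev Pc + (e4 * h.ev PA + e6 * h.ev PB) = 0 := by
      rw [hPdecomp] at hev
      simpa only [map_add, map_smul, smul_eq_mul, add_assoc] using hev
    have hPc0 : h.ev Pc = 0 := by
      have hmem : h.ev Pc ∈ decomp M e4 e6 w ⊓ h.compl w := by
        refine ⟨?_, hPc_ev_mem⟩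
        have : h.ev Pc = -(e4 * h.ev PA + e6 * h.ev PB) := eq_neg_of_add_eq_zero_left hsum
        rw [this]
        exact Submodule.neg_mem _ hdec
      rw [h.decomp_inf_compl] at hmem
      exact (Submodule.mem_bot K).mp hmem
    have hdec0 : e4 * h.ev PA + e6 * h.ev PB = 0 := by
      rw [hPc0, zero_add] at hsum; exact hsum
    -- the constants vanish
    have hsum0 : ∑ i : Fin (Module.finrank K (h.compl w)), c ⟨w, i⟩ • h.gen ⟨w, i⟩ = 0 := by
      rw [← hPc0, h.ev_apply]
      have hsub : Pc.support ⊆ Finset.univ.image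
          (fun i : Fin (Module.finrank K (h.compl w)) => (⟨w, i⟩ : h.Idx)) := by
        intro j hj
        rw [Finsupp.mem_support_iff] at hj
        have hjw : h.wt j = w := by
          by_contra hne
          apply hj
          rw [hPc_apply, hc0 j hne, map_zero]
        obtain ⟨w', i⟩ := j
        have hw' : w' = w := hjw
        subst hw'
        exact Finset.mem_image.mpr ⟨i, Finset.mem_univ _, rfl⟩
      rw [Finsupp.sum_of_support_subset Pc hsub _ (by intros; simp),
        Finset.sum_image (by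
          intro i _ i' _ hii'
          exact eq_of_heq (Sigma.mk.inj hii').2)]
      refine Finset.sum_congr rfl fun i _ => ?_
      rw [hPc_apply, Algebra.smul_def]
    have hc_all : ∀ j, c j = 0 := by
      intro j
      by_cases hj : h.wt j = w
      · obtain ⟨w', i⟩ := j
        have hw' : w' = w := hj
        subst hw'
        exact Fintype.linearIndependent_iff.mp (h.linearIndependent_gen_fiber w')
          (fun i => c ⟨w', i⟩) hsum0 i
      · exact hc0 j hj
    have hPc_zero : Pc = 0 := by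
      ext j
      rw [hPc_apply, hc_all j, map_zero, Finsupp.zero_apply]
    -- regularity
    obtain ⟨c0, hc0mem, hA_eq, hB_eq⟩ := h.reg hA hB hdec0
    obtain ⟨H, hH, rfl⟩ := h.span (w - 10) c0 hc0mem
    have hPA : PA = -(e6 • H) := by
      have h0 : PA + e6 • H = 0 := by
        refine ih (w - 4) (by omega) (PA + e6 • H) (fun j => ?_) ?_
        · simp only [Finsupp.coe_add, Finsupp.coe_smul, Pi.add_apply, Pi.smul_apply, smul_eq_mul]
          exact Submodule.add_mem _ (hPA_mem j)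
            (h.R_cast (by ring) (h.R_mul_R h.e6_mem (hH j)))
        · rw [map_add, map_smul, smul_eq_mul, hA_eq, neg_add_cancel]
      exact eq_neg_of_add_eq_zero_left h0
    have hPB : PB = e4 • H := by
      have h0 : PB - e4 • H = 0 := by
        refine ih (w - 6) (by omega) (PB - e4 • H) (fun j => ?_) ?_
        · simp only [Finsupp.coe_sub, Finsupp.coe_smul, Pi.sub_apply, Pi.smul_apply, smul_eq_mul]
          exact Submodule.sub_mem _ (hPB_mem j)
            (h.R_cast (by ring) (h.R_mul_R h.e4_mem (hH j)))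
        · rw [map_sub, map_smul, smul_eq_mul, hB_eq, sub_self]
      exact sub_eq_zero.mp h0
    rw [hPdecomp, hPc_zero, hPA, hPB]
    ext j
    simp only [Finsupp.coe_add, Finsupp.coe_smul, Finsupp.coe_neg, Finsupp.coe_zero, Pi.add_apply,
      Pi.smul_apply, Pi.neg_apply, Pi.zero_apply, smul_eq_mul]
    ring

lemma GradedHyp.indep (h : GradedHyp R M e4 e6) (w : ℤ) (P : h.Idx →₀ A)
    (hP : ∀ j, P j ∈ R (w - h.wt j)) (hev : h.ev P = 0) : P = 0 :=
  h.indep_aux (w.toNat + 1) w (by have := Int.self_le_toNat w; push_cast; omega) P hP hev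

/-! ### Finiteness of the generating family from growth of dimensions -/

lemma GradedHyp.even_wt (h : GradedHyp R M e4 e6)
    (hodd : ∀ m : ℤ, Odd m → ∀ a ∈ M m, a = 0) (j : h.Idx) : Even (h.wt j) := by
  by_contra hne
  exact h.gen_ne_zero j (hodd _ (Int.not_even_iff_odd.mp hne) _ (h.gen_mem j))

/-- Any finite set of generators has at most `μ` elements, provided
`dim R m ≥ m / 12` (even `m`) and `dim M (12 s) ≤ s μ + 1`. -/
theorem GradedHyp.finset_card_le (h : GradedHyp R M e4 e6) (μ : ℕ)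
    (hodd : ∀ m : ℤ, Odd m → ∀ a ∈ M m, a = 0)
    (hR : ∀ (m : ℤ) (t : ℕ), Even m → 12 * (t : ℤ) ≤ m →
      ∃ r : Fin t → A, (∀ i, r i ∈ R m) ∧ LinearIndependent K r)
    (hM : ∀ s : ℕ, Module.finrank K (M (12 * (s : ℤ))) ≤ s * μ + 1)
    (S : Finset h.Idx) : S.card ≤ μ := by
  classical
  -- a bound for the weights in `S`
  obtain ⟨c0, hc0⟩ : ∃ c0 : ℕ, ∀ j ∈ S, h.wt j ≤ 12 * (c0 : ℤ) := by
    refine ⟨S.sup fun j => (h.wt j).toNat, fun j hj => ?_⟩
    have h1 : (h.wt j).toNat ≤ S.sup fun j => (h.wt j).toNat :=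
      Finset.le_sup (f := fun j => (h.wt j).toNat) hj
    have h2 := Int.self_le_toNat (h.wt j)
    have h3 : ((h.wt j).toNat : ℤ) ≤ ((S.sup fun j => (h.wt j).toNat : ℕ) : ℤ) := by
      exact_mod_cast h1
    omega
  set t : ℕ := c0 * μ + 2 with ht
  set s : ℕ := t + c0 with hs
  set w : ℤ := 12 * (s : ℤ) with hw
  have hr : ∀ j : h.Idx, j ∈ S → ∃ r : Fin t → A, (∀ i, r i ∈ R (w - h.wt j)) ∧
      LinearIndependent K r := by
    intro j hj
    refine hR _ t ?_ ?_
    · exact Even.sub ⟨6 * (s : ℤ), by rw [hw]; ring⟩ (h.even_wt hodd j)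
    · have := hc0 j hj
      rw [hw, hs]; push_cast; omega
  choose! r hr_mem hr_li using hr
  -- the family of vectors in `M w`
  let v : (↥S) × Fin t → M w := fun p =>
    ⟨r p.1 p.2 * h.gen p.1, h.M_cast (by ring) (h.R_mul_M (hr_mem p.1 p.1.2 p.2) (h.gen_mem p.1))⟩
  have hli : LinearIndependent K v := by
    rw [Fintype.linearIndependent_iff]
    intro g hg
    have hg' : ∑ p : (↥S) × Fin t, g p • (r p.1 p.2 * h.gen p.1) = 0 := by
      have := congrArg Subtype.val hg
      simpa only [Submodule.coe_sum, Submodule.coe_smul, Submodule.coe_zero, v] using this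
    let Q : ↥S → A := fun j => ∑ i, g (j, i) • r j i
    let P : h.Idx →₀ A := ∑ j : ↥S, Finsupp.single (j : h.Idx) (Q j)
    have hPev : h.ev P = 0 := by
      simp only [P, map_sum, GradedHyp.ev, Finsupp.linearCombination_single, Q]
      rw [← hg', Fintype.sum_prod_type]
      refine Finset.sum_congr rfl fun j _ => ?_
      rw [Finset.sum_smul]
      refine Finset.sum_congr rfl fun i _ => ?_
      rw [smul_eq_mul, smul_mul_assoc]
    have hPmem : ∀ j', P j' ∈ R (w - h.wt j') := by
      intro j'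
      simp only [P, Finsupp.coe_finsetSum, Finset.sum_apply]
      refine Submodule.sum_mem _ fun j _ => ?_
      rw [Finsupp.single_apply]
      split_ifs with hjj'
      · subst hjj'
        exact Submodule.sum_mem _ fun i _ => Submodule.smul_mem _ _ (hr_mem j j.2 i)
      · exact Submodule.zero_mem _
    have hP0 := h.indep w P hPmem hPev
    rintro ⟨j, i⟩
    have hQj : Q j = 0 := by
      have h1 := congrArg (fun P : h.Idx →₀ A => P (j : h.Idx)) hP0
      simp only [P, Finsupp.coe_finsetSum, Finset.sum_apply, Finsupp.zero_apply] at h1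
      rw [Finset.sum_eq_single j (fun j' _ hne => by
        rw [Finsupp.single_apply, if_neg (fun h => hne (Subtype.ext h))]) (by simp)] at h1
      simpa using h1
    exact Fintype.linearIndependent_iff.mp (hr_li j j.2) (fun i => g (j, i)) hQj i
  have := h.M_fin w
  have hcard := hli.fintype_card_le_finrank
  rw [Fintype.card_prod, Fintype.card_coe, Fintype.card_fin] at hcard
  have hbound := hM s
  rw [← hw] at hbound
  have h1 : S.card * t ≤ s * μ + 1 := le_trans hcard hbound
  have h2 : s * μ + 1 < (μ + 1) * t := by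
    rw [hs, ht]; ring_nf; omega
  have h3 : S.card * t < (μ + 1) * t := lt_of_le_of_lt h1 h2
  exact Nat.lt_succ_iff.mp (Nat.lt_of_mul_lt_mul_right h3)

theorem GradedHyp.finite_idx (h : GradedHyp R M e4 e6) (μ : ℕ)
    (hodd : ∀ m : ℤ, Odd m → ∀ a ∈ M m, a = 0)
    (hR : ∀ (m : ℤ) (t : ℕ), Even m → 12 * (t : ℤ) ≤ m →
      ∃ r : Fin t → A, (∀ i, r i ∈ R m) ∧ LinearIndependent K r)
    (hM : ∀ s : ℕ, Module.finrank K (M (12 * (s : ℤ))) ≤ s * μ + 1) : Finite h.Idx := by
  by_contra hinf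
  rw [not_finite_iff_infinite] at hinf
  obtain ⟨S, hS⟩ := Infinite.exists_subset_card_eq h.Idx (μ + 1)
  have := h.finset_card_le μ hodd hR hM S
  omega

/-- **Graded freeness, packaged.** -/
theorem GradedHyp.exists_free (h : GradedHyp R M e4 e6) (μ : ℕ)
    (hodd : ∀ m : ℤ, Odd m → ∀ a ∈ M m, a = 0)
    (hR : ∀ (m : ℤ) (t : ℕ), Even m → 12 * (t : ℤ) ≤ m →
      ∃ r : Fin t → A, (∀ i, r i ∈ R m) ∧ LinearIndependent K r)
    (hM : ∀ s : ℕ, Module.finrank K (M (12 * (s : ℤ))) ≤ s * μ + 1) :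
    ∃ (J : Type) (_ : Fintype J) (k : J → ℤ) (F : J → A),
      Fintype.card J ≤ μ ∧ (∀ j, 0 ≤ k j) ∧ (∀ j, Even (k j)) ∧ (∀ j, F j ∈ M (k j)) ∧
      (∀ j, F j ≠ 0) ∧
      (∀ (w : ℤ) (f : A), f ∈ M w →
        ∃ P : J → A, (∀ j, P j ∈ R (w - k j)) ∧ f = ∑ j, P j * F j) ∧
      (∀ (w : ℤ) (P : J → A), (∀ j, P j ∈ R (w - k j)) → ∑ j, P j * F j = 0 → ∀ j, P j = 0) := by
  classical
  have hfin := h.finite_idx μ hodd hR hM
  letI : Fintype h.Idx := Fintype.ofFinite _
  have hev : ∀ P : h.Idx →₀ A, h.ev P = ∑ j, P j * h.gen j := by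
    intro P
    rw [h.ev_apply, Finsupp.sum_fintype _ _ (by intros; simp)]
  refine ⟨h.Idx, inferInstance, h.wt, h.gen, ?_, h.wt_nonneg, h.even_wt hodd, h.gen_mem,
    h.gen_ne_zero, ?_, ?_⟩
  · have := h.finset_card_le μ hodd hR hM Finset.univ
    simpa using this
  · intro w f hf
    obtain ⟨P, hP, rfl⟩ := h.span w f hf
    exact ⟨P, hP, hev P⟩
  · intro w P hP hsum j
    have h0 := h.indep w (Finsupp.equivFunOnFinite.symm P) (fun j => by simpa using hP j)
      (by rw [hev]; simpa using hsum)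
    have := congrArg (fun Q : h.Idx →₀ A => Q j) h0
    simpa using this

end Fermat.Agent.S20.helper931
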