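/-
S20 (helper560_Spec route): existence of a FINITE homogeneous free basis of the graded modules
`MFG 𝒢` and `CFG 𝒢` over the level-one ring, for every `GoodLevel 𝒢 N`
(the input of the BASIS bridge).  Author seat: helper931.

Ingredients: the abstract graded freeness lemma (`helper931_GradedFree`), the division lemma
(`helper813_Div`), the basic structural facts (`helper560_Basic`), the level one decomposition
`RR m = E₄ * RR (m - 4) + E₆ * RR (m - 6)` (`m > 0`, proved here) and the Sturm bound of the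
Prelude (only used for finiteness of the index set).
-/
import Fermat.Agent.S20.helper931_GradedFree
import Fermat.Agent.S20.helper560_Basic
import Fermat.Agent.S20.helper813_Div

set_option autoImplicit false

open UpperHalfPlane ModularForm EisensteinSeries
open scoped MatrixGroups Manifold Pointwise Topology

namespace Fermat.Agent.S20.helper931

noncomputable section

open Filter Fermat.Agent.S20.helper560

local notation "Δ" => ModularForm.discriminant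

/-! ### Level one: limits at `i∞` -/

/-- A level-one form tends to its constant coefficient at `i∞`. -/
theorem tendsto_levelOne {k : ℤ} (f : ModularForm 𝒮ℒ k) :
    Tendsto (⇑f) atImInfty (𝓝 ((qExpansion 1 f).coeff 0)) := by
  have han : AnalyticAt ℂ (cuspFunction 1 ⇑f) 0 :=
    ModularFormClass.analyticAt_cuspFunction_zero f one_pos one_mem_strictPeriods_SL
  have h0 : cuspFunction 1 ⇑f 0 = (qExpansion 1 f).coeff 0 := by
    rw [qExpansion_coeff]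
    simp
  have hcomp : (cuspFunction 1 ⇑f ∘ fun τ : ℍ ↦ Function.Periodic.qParam 1 τ) = ⇑f := by
    funext τ
    exact SlashInvariantFormClass.eq_cuspFunction f τ one_mem_strictPeriods_SL one_ne_zero
  have ht := han.continuousAt.tendsto.comp (qParam_tendsto_atImInfty one_pos)
  rw [h0, hcomp] at ht
  exact ht

theorem tendsto_E₄ : Tendsto (⇑E₄) atImInfty (𝓝 1) := by
  have h := tendsto_levelOne E₄
  rwa [E_qExpansion_coeff_zero (k := 4) (by norm_num) ⟨2, rfl⟩] at h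

theorem tendsto_E₆ : Tendsto (⇑E₆) atImInfty (𝓝 1) := by
  have h := tendsto_levelOne E₆
  rwa [E_qExpansion_coeff_zero (k := 6) (by norm_num) ⟨3, rfl⟩] at h

theorem E₄_mem : (⇑E₄ : ℍ → ℂ) ∈ RR 4 := ⟨E₄, rfl⟩

theorem E₆_mem : (⇑E₆ : ℍ → ℂ) ∈ RR 6 := ⟨E₆, rfl⟩

theorem RR_cast {m n : ℤ} (h : m = n) {f : ℍ → ℂ} (hf : f ∈ RR m) : f ∈ RR n := h ▸ hf

/-- An element of `RR m` with limit `0` at `i∞` is `Δ` times an element of `RR (m - 12)`. -/
theorem exists_eq_discriminant_mul {m : ℤ} {f : ℍ → ℂ} (hf : f ∈ RR m)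
    (h0 : Tendsto f atImInfty (𝓝 0)) : ∃ g ∈ RR (m - 12), f = (Δ : ℍ → ℂ) * g := by
  obtain ⟨F, rfl⟩ := hf
  have hc : (qExpansion 1 F).coeff 0 = 0 := tendsto_nhds_unique (tendsto_levelOne F) h0
  obtain ⟨G, hG⟩ := (isCuspForm_iff_coeffZero_eq_zero F).mpr hc
  have hGF : ∀ z, G z = F z := fun z => by
    have := congrArg (fun H : ModularForm 𝒮ℒ m => H z) hG
    simpa using this
  refine ⟨⇑(CuspForm.discriminantEquiv G), ⟨_, rfl⟩, ?_⟩
  funext z
  rw [Pi.mul_apply, CuspForm.discriminantEquiv_apply, hGF,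
    mul_div_cancel₀ _ (ModularForm.discriminant_ne_zero z)]

theorem one_mem_RR : (1 : ℍ → ℂ) ∈ RR 0 := by
  rw [show RR 0 = Submodule.span ℂ {(1 : ℍ → ℂ)} from MFG_zero_eq 𝒮ℒ]
  exact Submodule.mem_span_singleton_self _

theorem E₄_pow_mem (n : ℕ) : ((⇑E₄ : ℍ → ℂ) ^ n) ∈ RR (4 * (n : ℤ)) := by
  induction n with
  | zero => simpa using one_mem_RR
  | succ n ih =>
    rw [pow_succ]
    exact RR_cast (by push_cast; ring) (MFG_mul_mem ih E₄_mem)

theorem tendsto_E₄_pow (n : ℕ) : Tendsto ((⇑E₄ : ℍ → ℂ) ^ n) atImInfty (𝓝 1) := by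
  have h := tendsto_E₄.pow n
  rw [one_pow] at h
  exact h

/-- **Level one decomposition**: every level one form of positive weight `m` is
`E₄ * a + E₆ * b` with `a`, `b` level one of weights `m - 4`, `m - 6`. -/
theorem RR_decomp {m : ℤ} (hm : 0 < m) {P : ℍ → ℂ} (hP : P ∈ RR m) :
    ∃ a ∈ RR (m - 4), ∃ b ∈ RR (m - 6), P = ⇑E₄ * a + ⇑E₆ * b := by
  obtain ⟨F, rfl⟩ := hP
  rcases Int.even_or_odd m with hev | hodd
  swap
  · rw [ModularForm.levelOne_odd_weight_eq_zero hodd F]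
    exact ⟨0, zero_mem _, 0, zero_mem _, by simp⟩
  by_cases h2 : m = 2
  · subst h2
    have hF : F = 0 := rank_zero_iff_forall_zero.mp ModularForm.levelOne_weight_two_rank_zero F
    rw [hF]
    exact ⟨0, zero_mem _, 0, zero_mem _, by simp⟩
  -- a decomposable form with limit `1`
  obtain ⟨a₀, ha₀, b₀, hb₀, hG⟩ : ∃ a₀ ∈ RR (m - 4), ∃ b₀ ∈ RR (m - 6),
      Tendsto (⇑E₄ * a₀ + ⇑E₆ * b₀) atImInfty (𝓝 1) := by
    obtain ⟨r, hr⟩ := hev
    rcases Int.even_or_odd r with ⟨s, hs⟩ | ⟨s, hs⟩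
    · refine ⟨(⇑E₄ : ℍ → ℂ) ^ (s - 1).toNat, RR_cast ?_ (E₄_pow_mem _), 0, zero_mem _, ?_⟩
      · rw [Int.toNat_of_nonneg (by omega)]
        omega
      · have h := tendsto_E₄.mul (tendsto_E₄_pow (s - 1).toNat)
        rw [one_mul] at h
        exact h.congr fun z => by simp
    · refine ⟨0, zero_mem _, (⇑E₄ : ℍ → ℂ) ^ (s - 1).toNat, RR_cast ?_ (E₄_pow_mem _), ?_⟩
      · rw [Int.toNat_of_nonneg (by omega)]
        omega
      · have h := tendsto_E₆.mul (tendsto_E₄_pow (s - 1).toNat)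
        rw [one_mul] at h
        exact h.congr fun z => by simp
  set c := (qExpansion 1 F).coeff 0 with hc
  have hlim : Tendsto (⇑F - c • (⇑E₄ * a₀ + ⇑E₆ * b₀)) atImInfty (𝓝 0) := by
    have h1 := (tendsto_levelOne F).sub (hG.const_smul c)
    rw [← hc, smul_eq_mul, mul_one, sub_self] at h1
    exact h1
  have hmem : (⇑F - c • (⇑E₄ * a₀ + ⇑E₆ * b₀)) ∈ RR m := by
    refine Submodule.sub_mem _ ⟨F, rfl⟩ (Submodule.smul_mem _ _ (Submodule.add_mem _ ?_ ?_))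
    · exact RR_cast (by ring) (MFG_mul_mem E₄_mem ha₀)
    · exact RR_cast (by ring) (MFG_mul_mem E₆_mem hb₀)
  obtain ⟨g, hg, hfg⟩ := exists_eq_discriminant_mul hmem hlim
  refine ⟨c • a₀ + (1728 : ℂ)⁻¹ • (⇑E₄ * ⇑E₄ * g), ?_,
    c • b₀ - (1728 : ℂ)⁻¹ • (⇑E₆ * g), ?_, ?_⟩
  · refine Submodule.add_mem _ (Submodule.smul_mem _ _ ha₀) (Submodule.smul_mem _ _ ?_)
    exact RR_cast (by ring) (MFG_mul_mem (MFG_mul_mem E₄_mem E₄_mem) hg)
  · refine Submodule.sub_mem _ (Submodule.smul_mem _ _ hb₀) (Submodule.smul_mem _ _ ?_)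
    exact RR_cast (by ring) (MFG_mul_mem E₆_mem hg)
  · have hF : ⇑F = c • (⇑E₄ * a₀ + ⇑E₆ * b₀) + (Δ : ℍ → ℂ) * g := by
      rw [← hfg]
      abel
    rw [hF]
    funext z
    simp only [Pi.add_apply, Pi.mul_apply, Pi.smul_apply, Pi.sub_apply, smul_eq_mul]
    rw [discriminant_eq_E₄_cube_sub_E₆_sq z]
    ring

/-! ### The hypotheses of the abstract lemma -/

theorem RR_eq_zero_of_neg {m : ℤ} (hm : m < 0) {r : ℍ → ℂ} (hr : r ∈ RR m) : r = 0 := by
  have h : RR m = ⊥ := MFG_eq_bot_of_neg 𝒮ℒ hm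
  rw [h] at hr
  simpa using hr

theorem RR_zero_const {r : ℍ → ℂ} (hr : r ∈ RR 0) : ∃ c : ℂ, r = algebraMap ℂ (ℍ → ℂ) c := by
  rw [show RR 0 = Submodule.span ℂ {(1 : ℍ → ℂ)} from MFG_zero_eq 𝒮ℒ,
    Submodule.mem_span_singleton] at hr
  obtain ⟨c, rfl⟩ := hr
  exact ⟨c, by rw [Algebra.algebraMap_eq_smul_one]⟩

theorem const_mem_RR (c : ℂ) : algebraMap ℂ (ℍ → ℂ) c ∈ RR 0 := by
  rw [Algebra.algebraMap_eq_smul_one]
  exact Submodule.smul_mem _ _ one_mem_RR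

section level

variable (𝒢 : Subgroup (GL (Fin 2) ℝ)) [𝒢.IsArithmetic] [𝒢.HasDetOne]

theorem finite_MFG' {N : ℕ} (hG : GoodLevel 𝒢 N) (k : ℤ) : Module.Finite ℂ (MFG 𝒢 k) := by
  have := finite_modularForm hG k
  exact Module.Finite.equiv (equivMFG 𝒢 k)

theorem gradedHyp_MFG {N : ℕ} (hG : GoodLevel 𝒢 N) :
    GradedHyp (K := ℂ) RR (MFG 𝒢) (⇑E₄ : ℍ → ℂ) (⇑E₆ : ℍ → ℂ) where
  e4_mem := E₄_mem
  e6_mem := E₆_mem
  R_mul_R := fun hr hs => MFG_mul_mem hr hs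
  R_mul_M := fun hr ha => MFG_mul_mem (RR_le_MFG hG.le _ hr) ha
  R_neg := fun hm _ hr => RR_eq_zero_of_neg hm hr
  R_zero := fun _ hr => RR_zero_const hr
  const_mem := const_mem_RR
  R_pos := fun hm _ hr => RR_decomp hm hr
  M_neg := fun hk a ha => by
    have h := MFG_eq_bot_of_neg 𝒢 hk
    rw [h] at ha
    simpa using ha
  M_fin := finite_MFG' 𝒢 hG
  reg := fun {k a b} ha hb hab => by
    obtain ⟨c, hc, hb', ha'⟩ := helper813.stmt_Div_MFG hG.le k (-a) b (Submodule.neg_mem _ ha) hb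
      (by rw [mul_neg]; exact eq_neg_of_add_eq_zero_right hab)
    exact ⟨c, hc, neg_eq_iff_eq_neg.mp ha', hb'⟩

theorem gradedHyp_CFG {N : ℕ} (hG : GoodLevel 𝒢 N) :
    GradedHyp (K := ℂ) RR (CFG 𝒢) (⇑E₄ : ℍ → ℂ) (⇑E₆ : ℍ → ℂ) where
  e4_mem := E₄_mem
  e6_mem := E₆_mem
  R_mul_R := fun hr hs => MFG_mul_mem hr hs
  R_mul_M := fun hr ha => CFG_mul_mem (RR_le_MFG hG.le _ hr) ha
  R_neg := fun hm _ hr => RR_eq_zero_of_neg hm hr
  R_zero := fun _ hr => RR_zero_const hr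
  const_mem := const_mem_RR
  R_pos := fun hm _ hr => RR_decomp hm hr
  M_neg := fun hk a ha => by
    have h := CFG_eq_bot_of_nonpos 𝒢 hk.le
    rw [h] at ha
    simpa using ha
  M_fin := fun k => by
    have := finite_MFG' 𝒢 hG k
    exact Submodule.finiteDimensional_of_le (CFG_le_MFG 𝒢 k)
  reg := fun {k a b} ha hb hab => by
    obtain ⟨c, hc, hb', ha'⟩ := helper813.stmt_Div_CFG hG.le k (-a) b (Submodule.neg_mem _ ha) hb
      (by rw [mul_neg]; exact eq_neg_of_add_eq_zero_right hab)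
    exact ⟨c, hc, neg_eq_iff_eq_neg.mp ha', hb'⟩

/-- Quantitative Sturm bound (weak form, from the Prelude). -/
theorem finrank_MFG_le {N : ℕ} (hG : GoodLevel 𝒢 N) (k : ℤ) :
    Module.finrank ℂ (MFG 𝒢 k) ≤ N * ((k * 𝒢.relIndex 𝒮ℒ).toNat / 12) + 1 := by
  rw [finrank_MFG]
  have hN : (0 : ℝ) < N := by exact_mod_cast hG.pos
  have hper := mem_strictPeriods_of_goodLevel hG
  set B : ℕ := N * ((k * 𝒢.relIndex 𝒮ℒ).toNat / 12) with hB
  let φ : ModularForm 𝒢 k →ₗ[ℂ] (Fin (B + 1) → ℂ) :=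
    { toFun := fun F i => (qExpansion (N : ℝ) F).coeff i
      map_add' := by
        intro F G
        funext i
        have : (⇑(F + G) : ℍ → ℂ) = ⇑F + ⇑G := rfl
        rw [this, ModularForm.qExpansion_add hN hper F G]
        simp
      map_smul' := by
        intro c F
        funext i
        have : (⇑(c • F) : ℍ → ℂ) = c • ⇑F := rfl
        rw [this, ModularForm.qExpansion_smul hN hper c F]
        simp }
  have hinj : Function.Injective φ := by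
    rw [← LinearMap.ker_eq_bot, LinearMap.ker_eq_bot']
    intro F hF
    refine ModularForm.eq_zero_of_lt_order_qExpansion_of_isArithmetic F hG.pos hG.per ?_
    have h1 : ((B + 1 : ℕ) : ℕ∞) ≤ (qExpansion (N : ℝ) F).order := by
      refine PowerSeries.nat_le_order _ _ fun i hi => ?_
      have := congrFun hF ⟨i, hi⟩
      exact this
    refine lt_of_lt_of_le ?_ h1
    exact_mod_cast Nat.lt_succ_self B
  have h := LinearMap.finrank_le_finrank_of_injective hinj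
  rwa [Module.finrank_fin_fun] at h

theorem finrank_MFG_twelve_le {N : ℕ} (hG : GoodLevel 𝒢 N) (s : ℕ) :
    Module.finrank ℂ (MFG 𝒢 (12 * (s : ℤ))) ≤ s * (N * 𝒢.relIndex 𝒮ℒ) + 1 := by
  have h := finrank_MFG_le 𝒢 hG (12 * (s : ℤ))
  have h1 : (12 * (s : ℤ) * (𝒢.relIndex 𝒮ℒ : ℤ)).toNat = 12 * (s * 𝒢.relIndex 𝒮ℒ) := by
    have : 12 * (s : ℤ) * (𝒢.relIndex 𝒮ℒ : ℤ) = ((12 * (s * 𝒢.relIndex 𝒮ℒ) : ℕ) : ℤ) := by
      push_cast
      ring
    rw [this, Int.toNat_natCast]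
  rw [h1, Nat.mul_div_cancel_left _ (by norm_num : 0 < 12)] at h
  calc Module.finrank ℂ (MFG 𝒢 (12 * (s : ℤ))) ≤ N * (s * 𝒢.relIndex 𝒮ℒ) + 1 := h
    _ = s * (N * 𝒢.relIndex 𝒮ℒ) + 1 := by ring

theorem finrank_CFG_twelve_le {N : ℕ} (hG : GoodLevel 𝒢 N) (s : ℕ) :
    Module.finrank ℂ (CFG 𝒢 (12 * (s : ℤ))) ≤ s * (N * 𝒢.relIndex 𝒮ℒ) + 1 := by
  have := finite_MFG' 𝒢 hG (12 * (s : ℤ))
  exact le_trans (Submodule.finrank_mono (CFG_le_MFG 𝒢 _)) (finrank_MFG_twelve_le 𝒢 hG s)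

end level

/-- Enough linearly independent level one forms in even weight. -/
theorem exists_linearIndependent_RR (m : ℤ) (t : ℕ) (hev : Even m) (h : 12 * (t : ℤ) ≤ m) :
    ∃ r : Fin t → (ℍ → ℂ), (∀ i, r i ∈ RR m) ∧ LinearIndependent ℂ r := by
  have hdim : t ≤ Module.finrank ℂ (RR m) := by
    rw [goal_RRdim m]
    have h0 : ¬ (m < 0 ∨ Odd m) := by
      rintro (h1 | h1)
      · omega
      · exact (Int.not_odd_iff_even.mpr hev) h1
    rw [if_neg h0]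
    have h1 : t ≤ (m / 12).toNat := by
      have : (t : ℤ) ≤ m / 12 := by omega
      omega
    split_ifs <;> omega
  obtain ⟨f, hf⟩ := exists_linearIndependent_of_le_finrank hdim
  exact ⟨fun i => (f i : ℍ → ℂ), fun i => (f i).2,
    hf.map' (RR m).subtype (Submodule.ker_subtype _)⟩

/-! ### The free bases -/

/-- From "span + independence" to the `∃!` shape of `helper560.IsFreeBasis`. -/
theorem isFreeBasis_of_span_indep (V : ℤ → Submodule ℂ (ℍ → ℂ)) {J : Type} [Fintype J]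
    (κ : J → ℤ) (F : J → ℍ → ℂ) (hF : ∀ j, F j ∈ V (κ j))
    (hspan : ∀ (w : ℤ) (f : ℍ → ℂ), f ∈ V w →
      ∃ P : J → ℍ → ℂ, (∀ j, P j ∈ RR (w - κ j)) ∧ f = ∑ j, P j * F j)
    (hind : ∀ (w : ℤ) (P : J → ℍ → ℂ), (∀ j, P j ∈ RR (w - κ j)) → ∑ j, P j * F j = 0 →
      ∀ j, P j = 0) :
    IsFreeBasis V κ F := by
  refine ⟨hF, fun k f hf => ?_⟩
  obtain ⟨P, hP, hPf⟩ := hspan k f hf
  refine ⟨P, ⟨hP, hPf⟩, ?_⟩
  rintro P' ⟨hP', hP'f⟩
  funext j
  have h0 := hind k (fun j => P' j - P j) (fun j => Submodule.sub_mem _ (hP' j) (hP j)) (by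
    simp only [sub_mul, Finset.sum_sub_distrib]
    rw [← hP'f, ← hPf, sub_self]) j
  exact sub_eq_zero.mp h0

section level

variable (𝒢 : Subgroup (GL (Fin 2) ℝ)) [𝒢.IsArithmetic] [𝒢.HasDetOne]

/-- **FREE for `MFG 𝒢`** (with extra information on the generators). -/
theorem exists_freeBasis_MFG' (N : ℕ) (hG : GoodLevel 𝒢 N) :
    ∃ (J : Type) (_ : Fintype J) (κ : J → ℤ) (F : J → ℍ → ℂ),
      IsFreeBasis (MFG 𝒢) κ F ∧ Fintype.card J ≤ N * 𝒢.relIndex 𝒮ℒ ∧ (∀ j, 0 ≤ κ j) ∧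
      (∀ j, Even (κ j)) ∧ (∀ j, F j ≠ 0) := by
  obtain ⟨J, hJ, κ, F, hcard, hnn, hev, hF, hne, hspan, hind⟩ :=
    (gradedHyp_MFG 𝒢 hG).exists_free (N * 𝒢.relIndex 𝒮ℒ)
      (fun m hm a ha => by
        have h := MFG_eq_bot_of_odd 𝒢 hG.neg hm
        rw [h] at ha
        simpa using ha)
      exists_linearIndependent_RR (finrank_MFG_twelve_le 𝒢 hG)
  exact ⟨J, hJ, κ, F, isFreeBasis_of_span_indep _ κ F hF hspan hind, hcard, hnn, hev, hne⟩

/-- **FREE for `CFG 𝒢`** (with extra information on the generators). -/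
theorem exists_freeBasis_CFG' (N : ℕ) (hG : GoodLevel 𝒢 N) :
    ∃ (J : Type) (_ : Fintype J) (κ : J → ℤ) (F : J → ℍ → ℂ),
      IsFreeBasis (CFG 𝒢) κ F ∧ Fintype.card J ≤ N * 𝒢.relIndex 𝒮ℒ ∧ (∀ j, 0 ≤ κ j) ∧
      (∀ j, Even (κ j)) ∧ (∀ j, F j ≠ 0) := by
  obtain ⟨J, hJ, κ, F, hcard, hnn, hev, hF, hne, hspan, hind⟩ :=
    (gradedHyp_CFG 𝒢 hG).exists_free (N * 𝒢.relIndex 𝒮ℒ)
      (fun m hm a ha => by
        have h := MFG_eq_bot_of_odd 𝒢 hG.neg hm
        have ha' := CFG_le_MFG 𝒢 m ha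
        rw [h] at ha'
        simpa using ha')
      exists_linearIndependent_RR (finrank_CFG_twelve_le 𝒢 hG)
  exact ⟨J, hJ, κ, F, isFreeBasis_of_span_indep _ κ F hF hspan hind, hcard, hnn, hev, hne⟩

/-- **FREE for `MFG 𝒢`**: a finite homogeneous free basis over the level one ring. -/
theorem exists_freeBasis_MFG (N : ℕ) (hG : GoodLevel 𝒢 N) :
    ∃ (J : Type) (_ : Fintype J) (κ : J → ℤ) (F : J → ℍ → ℂ), IsFreeBasis (MFG 𝒢) κ F := by
  obtain ⟨J, hJ, κ, F, h, -⟩ := exists_freeBasis_MFG' 𝒢 N hG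
  exact ⟨J, hJ, κ, F, h⟩

/-- **FREE for `CFG 𝒢`**: a finite homogeneous free basis over the level one ring. -/
theorem exists_freeBasis_CFG (N : ℕ) (hG : GoodLevel 𝒢 N) :
    ∃ (J : Type) (_ : Fintype J) (κ : J → ℤ) (F : J → ℍ → ℂ), IsFreeBasis (CFG 𝒢) κ F := by
  obtain ⟨J, hJ, κ, F, h, -⟩ := exists_freeBasis_CFG' 𝒢 N hG
  exact ⟨J, hJ, κ, F, h⟩

end level

end

end Fermat.Agent.S20.helper931
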