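/-
S20 (helper560_Spec route): the BASIS statement for `Γ₀(N)`, and more generally for every
`GoodLevel 𝒢 N` containing the translation `T` and admitting a separating family:

  `stmt_Basis_G0 (N) [NeZero N] : helper560.Stmt_Basis (G0 N) (MFG (G0 N))`

i.e. a homogeneous free basis of `M_*(Γ₀(N))` over the level one ring, INDEXED BY THE COSETS,
whose fundamental determinant does not vanish at `i`.  Author seat: helper931.

Glue of: the abstract graded freeness lemma with the SHARP growth bound
(`helper931_GradedFree` + Prelude `sturm_bound_of_isArithmetic`, giving `#generators ≤ μ`),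
the INV glue of helper435 (`#generators ≥ μ` and `det ≠ 0` from Serre derivative + separation),
the Serre derivative of helper1760 and the separating Eisenstein series of helper800.
-/
import Fermat.Agent.S20.helper931_FreeBasis
import Fermat.Agent.S20.helper435_InvGlue
import Fermat.Agent.S20.helper1760_SerreD
import Fermat.Agent.S20.helper800_Separation
import Fermat.Agent.S20.helper1982_GoodLevel
import Fermat.Prelude.Thm_ModularForm_sturm_bound_of_isArithmetic
import Fermat.Prelude.Thm_CongruenceSubgroup_one_mem_strictPeriods_Gamma0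

set_option autoImplicit false

open UpperHalfPlane ModularForm EisensteinSeries
open scoped MatrixGroups Manifold Pointwise Topology

namespace Fermat.Agent.S20.helper931

noncomputable section

open Filter Fermat.Agent.S20.helper560

section level

variable (𝒢 : Subgroup (GL (Fin 2) ℝ)) [𝒢.IsArithmetic] [𝒢.HasDetOne]

/-- Sharp Sturm bound (Prelude) as a dimension bound, for levels containing `T`. -/
theorem finrank_MFG_le_sharp (h1 : (1 : ℝ) ∈ 𝒢.strictPeriods) (k : ℤ) :
    Module.finrank ℂ (MFG 𝒢 k) ≤ (k * 𝒢.relIndex 𝒮ℒ).toNat / 12 + 1 := by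
  rw [finrank_MFG]
  set B : ℕ := (k * 𝒢.relIndex 𝒮ℒ).toNat / 12 with hB
  let φ : ModularForm 𝒢 k →ₗ[ℂ] (Fin (B + 1) → ℂ) :=
    { toFun := fun F i => (qExpansion (1 : ℝ) F).coeff i
      map_add' := by
        intro F G
        funext i
        have : (⇑(F + G) : ℍ → ℂ) = ⇑F + ⇑G := rfl
        rw [this, ModularForm.qExpansion_add one_pos h1 F G]
        simp
      map_smul' := by
        intro c F
        funext i
        have : (⇑(c • F) : ℍ → ℂ) = c • ⇑F := rfl
        rw [this, ModularForm.qExpansion_smul one_pos h1 c F]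
        simp }
  have hinj : Function.Injective φ := by
    rw [← LinearMap.ker_eq_bot, LinearMap.ker_eq_bot']
    intro F hF
    refine ModularForm.sturm_bound_of_isArithmetic h1 ?_
    have h2 : ((B + 1 : ℕ) : ℕ∞) ≤ (qExpansion (1 : ℝ) F).order := by
      refine PowerSeries.nat_le_order _ _ fun i hi => ?_
      have := congrFun hF ⟨i, hi⟩
      exact this
    refine lt_of_lt_of_le ?_ h2
    exact_mod_cast Nat.lt_succ_self B
  have h := LinearMap.finrank_le_finrank_of_injective hinj
  rwa [Module.finrank_fin_fun] at h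

theorem finrank_MFG_twelve_le_sharp (h1 : (1 : ℝ) ∈ 𝒢.strictPeriods) (s : ℕ) :
    Module.finrank ℂ (MFG 𝒢 (12 * (s : ℤ))) ≤ s * mu 𝒢 + 1 := by
  have h := finrank_MFG_le_sharp 𝒢 h1 (12 * (s : ℤ))
  have h2 : (12 * (s : ℤ) * (𝒢.relIndex 𝒮ℒ : ℤ)).toNat = 12 * (s * 𝒢.relIndex 𝒮ℒ) := by
    have : 12 * (s : ℤ) * (𝒢.relIndex 𝒮ℒ : ℤ) = ((12 * (s * 𝒢.relIndex 𝒮ℒ) : ℕ) : ℤ) := by
      push_cast
      ring
    rw [this, Int.toNat_natCast]
  rw [h2, Nat.mul_div_cancel_left _ (by norm_num : 0 < 12)] at h
  exact h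

open SlashInvariantForm in
/-- **BASIS** for a level containing `T` with a separating family of forms. -/
theorem stmt_Basis_of {N : ℕ} (hG : GoodLevel 𝒢 N) (h1 : (1 : ℝ) ∈ 𝒢.strictPeriods)
    (hSep : ∀ v : Q 𝒢 → ℂ,
      (∀ (w : ℤ) (f : ModularForm 𝒢 w) (z : ℍ), ∑ q, v q * quotientFunc f q z = 0) → v = 0) :
    Stmt_Basis 𝒢 (MFG 𝒢) := by
  classical
  obtain ⟨J, hJ, κ, F, hcard, -, -, hF, -, hspan, hind⟩ :=
    (gradedHyp_MFG 𝒢 hG).exists_free (mu 𝒢)
      (fun m hm a ha => by
        have h := MFG_eq_bot_of_odd 𝒢 hG.neg hm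
        rw [h] at ha
        simpa using ha)
      exists_linearIndependent_RR (finrank_MFG_twelve_le_sharp 𝒢 h1)
  -- bundled generators
  choose F' hF' using fun j => mem_MFG.mp (hF j)
  have hSpan : ∀ (w : ℤ) (f : ModularForm 𝒢 w), ∃ P : ∀ j, ModularForm 𝒮ℒ (w - κ j),
      ∀ z, f z = ∑ j, P j z * F' j z := by
    intro w f
    obtain ⟨P, hP, hf⟩ := hspan w ⇑f ⟨f, rfl⟩
    choose P' hP' using fun j => mem_MFG.mp (hP j)
    refine ⟨P', fun z => ?_⟩
    have := congrFun hf z
    simp only [Finset.sum_apply, Pi.mul_apply] at this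
    rw [this]
    refine Finset.sum_congr rfl fun j _ => ?_
    rw [hP', hF']
  have hSD : ∀ (w : ℤ) (f : ModularForm 𝒢 w), ∃ g : ModularForm 𝒢 (w + 2),
      ∀ z, g z = Derivative.serreDerivative w f z :=
    fun w f => ⟨helper1760.serreDMF hG.le w f, fun z => helper1760.serreDMF_apply hG.le w f z⟩
  have hle : Fintype.card (Q 𝒢) ≤ Fintype.card J :=
    helper435.card_quotient_le κ F' hSpan hSD hSep
  have hmu : mu 𝒢 = Fintype.card (Q 𝒢) := Nat.card_eq_fintype_card
  have hcardeq : Fintype.card J = Fintype.card (Q 𝒢) := le_antisymm (hmu ▸ hcard) hle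
  let e : J ≃ Q 𝒢 := Fintype.equivOfCardEq hcardeq
  refine ⟨κ ∘ e.symm, F ∘ e.symm, ?_, UpperHalfPlane.I, ?_⟩
  · refine isFreeBasis_of_span_indep _ _ _ (fun q => hF _) ?_ ?_
    · intro w f hf
      obtain ⟨P, hP, hfP⟩ := hspan w f hf
      refine ⟨P ∘ e.symm, fun q => hP _, ?_⟩
      rw [hfP]
      exact (Equiv.sum_comp e.symm (fun j => P j * F j)).symm
    · intro w P hP hsum q
      have h0 := hind w (P ∘ e) (fun j => by simpa using hP (e j)) (by
        rw [← hsum]
        have := Equiv.sum_comp e (fun q => P q * (F ∘ e.symm) q)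
        simpa using this) (e.symm q)
      simpa using h0
  · have hdet := helper435.det_fundamental_reindex_ne_zero κ F' hSpan hSD hSep e UpperHalfPlane.I
    have hmat : transMatrix 𝒢 (κ ∘ e.symm) (F ∘ e.symm) UpperHalfPlane.I =
        Matrix.of fun (q q' : Q 𝒢) => quotientFunc (F' (e.symm q')) q UpperHalfPlane.I := by
      ext q q'
      simp only [transMatrix, Matrix.of_apply, Function.comp_apply]
      rw [← hF' (e.symm q'), tr_eq_quotientFunc]
    unfold fundDet
    rw [hmat]
    exact hdet

end level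

/-- **BASIS for `Γ₀(N)`**: `M_*(Γ₀(N))` has a homogeneous free basis over the level one ring
indexed by the cosets, with fundamental determinant nonzero at `i`. -/
theorem stmt_Basis_G0 (N : ℕ) [NeZero N] : Stmt_Basis (G0 N) (MFG (G0 N)) := by
  refine stmt_Basis_of (G0 N) (helper1982.goal_GoodLevel N)
    (CongruenceSubgroup.one_mem_strictPeriods_Gamma0 N) ?_
  intro v hv
  exact helper800.separation N v fun τ => hv 4 (helper800.eisGamma0 N) τ

end

end Fermat.Agent.S20.helper931
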